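/-
(SS-q) foundations — helper3 — **(K1): "algebraic Hartogs"**: a noetherian integrally closed domain
is the intersection, inside its fraction field, of its localisations at the primes of height one.

* `maximalIdeal_isPrincipal_of_mul_mem` : a noetherian integrally closed local domain `S` for which
  some `y ∈ Frac S ∖ S` satisfies `y · 𝔪 ⊆ S` has a principal maximal ideal;
* `height_eq_one_of_mem_iff_dvd` : a prime of the form `(b : c)` (`b ≠ 0`, `b ∤ c`) of a noetherian
  integrally closed domain has height one;
* `mem_range_algebraMap_of_forall_height_one` : (K1).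
-/
import Mathlib

set_option autoImplicit false
set_option linter.unusedSectionVars false
set_option linter.style.haveILetI false

namespace Fermat.Agent.SS

open IsLocalRing

section LocalLemma

variable {S : Type*} [CommRing S] [IsDomain S] [IsLocalRing S] [IsNoetherianRing S]
  [IsIntegrallyClosed S] {K : Type*} [Field K] [Algebra S K] [IsFractionRing S K]

/-- if `y ∈ K ∖ S` multiplies the maximal ideal into `S`, the maximal ideal is principal. -/
theorem maximalIdeal_isPrincipal_of_mul_mem (y : K) (hy : y ∉ (algebraMap S K).range)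
    (hmy : ∀ m ∈ maximalIdeal S, y * algebraMap S K m ∈ (algebraMap S K).range) :
    (maximalIdeal S).IsPrincipal := by
  classical
  by_cases ne_bot : maximalIdeal S = ⊥
  · rw [ne_bot]; infer_instance
  obtain ⟨a, ha₁, ha₂⟩ : ∃ a ∈ maximalIdeal S, a ≠ (0 : S) := by
    by_contra! h'; apply ne_bot; rwa [eq_bot_iff]
  set M : Submodule S K := Submodule.map (Algebra.linearMap S K) (maximalIdeal S) with hM
  by_cases hx : ∀ z ∈ M, y * z ∈ M
  · exfalso
    have hint : IsIntegral S y := by
      refine isIntegral_of_smul_mem_submodule M ?_ ?_ y hx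
      · rw [Submodule.ne_bot_iff]
        refine ⟨_, ⟨a, ha₁, rfl⟩, ?_⟩
        exact (IsFractionRing.to_map_eq_zero_iff (K := K)).not.mpr ha₂
      · exact Submodule.FG.map _ (IsNoetherian.noetherian _)
    obtain ⟨z, hz⟩ := IsIntegrallyClosed.algebraMap_eq_of_integral hint
    exact hy ⟨z, hz⟩
  · push Not at hx
    obtain ⟨_, ⟨m, hm, rfl⟩, hmM⟩ := hx
    obtain ⟨u, hu⟩ := hmy m hm
    have hu' : (Algebra.linearMap S K) m = algebraMap S K m := rfl
    rw [hu'] at hmM
    have huunit : IsUnit u := by
      by_contra hnu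
      apply hmM
      rw [← hu]
      exact ⟨u, (mem_maximalIdeal u).mpr hnu, rfl⟩
    refine ⟨⟨m, ?_⟩⟩
    apply le_antisymm
    · intro m' hm'
      obtain ⟨s', hs'⟩ := hmy m' hm'
      have h1 : m' * u = s' * m := by
        apply IsFractionRing.injective S K
        rw [map_mul, map_mul, hu, hs']
        ring
      obtain ⟨v, hv⟩ := huunit.exists_right_inv
      have h2 : m' = (s' * v) * m := by
        calc m' = m' * (u * v) := by rw [hv, mul_one]
          _ = (m' * u) * v := by ring
          _ = (s' * m) * v := by rw [h1]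
          _ = (s' * v) * m := by ring
      rw [h2]
      exact Ideal.mem_span_singleton'.mpr ⟨_, rfl⟩
    · rw [Ideal.submodule_span_eq, Ideal.span_le, Set.singleton_subset_iff]
      exact hm

end LocalLemma

section Height

variable {R : Type*} [CommRing R] [IsDomain R] [IsNoetherianRing R] [IsIntegrallyClosed R]

/-- the localisation at a prime of the form `(b : c)` is a discrete valuation ring. -/
theorem isDiscreteValuationRing_of_isLocalization_of_mem_iff_dvd (P : Ideal R) [P.IsPrime]
    (b c : R) (hb : b ≠ 0) (hP : ∀ s : R, s ∈ P ↔ b ∣ s * c)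
    (S : Type*) [CommRing S] [IsDomain S] [Algebra R S] [IsLocalization.AtPrime S P] :
    IsDiscreteValuationRing S := by
  classical
  have hPle : P.primeCompl ≤ nonZeroDivisors R := by
    intro s hs
    rw [mem_nonZeroDivisors_iff_ne_zero]
    rintro rfl
    exact hs P.zero_mem
  haveI : IsLocalRing S := IsLocalization.AtPrime.isLocalRing S P
  haveI : IsNoetherianRing S := IsLocalization.isNoetherianRing P.primeCompl S inferInstance
  haveI : IsIntegrallyClosed S := isIntegrallyClosed_of_isLocalization S P.primeCompl hPle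
  have hinjRS : Function.Injective (algebraMap R S) := IsLocalization.injective S hPle
  have hinjSK : Function.Injective (algebraMap S (FractionRing S)) :=
    IsFractionRing.injective S (FractionRing S)
  -- the composite map `R → K`
  set φ : R →+* FractionRing S := (algebraMap S (FractionRing S)).comp (algebraMap R S) with hφ
  have hφinj : Function.Injective φ := hinjSK.comp hinjRS
  have hφ0 : ∀ r : R, r ≠ 0 → φ r ≠ 0 := fun r hr h => hr (hφinj (by rw [h, map_zero]))
  have hφmk : ∀ (r : R) (s : P.primeCompl),
      algebraMap S (FractionRing S) (IsLocalization.mk' S r s) * φ s = φ r := by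
    intro r s
    rw [hφ, RingHom.comp_apply, RingHom.comp_apply, ← map_mul, IsLocalization.mk'_spec]
  have hbS : algebraMap R S b ≠ 0 := fun h => hb (hinjRS (by rw [h, map_zero]))
  have hbK : φ b ≠ 0 := hφ0 b hb
  have hbP : b ∈ P := (hP b).mpr ⟨c, rfl⟩
  have hy1 : φ c / φ b ∉ (algebraMap S (FractionRing S)).range := by
    rintro ⟨z, hz⟩
    obtain ⟨r, s, rfl⟩ := IsLocalization.exists_mk'_eq P.primeCompl z
    have h2 := hφmk r s
    rw [hz] at h2
    have h1 : φ (c * s) = φ (r * b) := by
      rw [map_mul, map_mul, ← h2]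
      field_simp
    have h3 : c * s = r * b := hφinj h1
    have h4 : (s : R) ∈ P := (hP s).mpr ⟨r, by rw [mul_comm (s : R) c, h3, mul_comm]⟩
    exact s.2 h4
  have hy2 : ∀ m ∈ maximalIdeal S,
      φ c / φ b * algebraMap S (FractionRing S) m ∈ (algebraMap S (FractionRing S)).range := by
    intro m hm
    obtain ⟨p, s, rfl⟩ := IsLocalization.exists_mk'_eq P.primeCompl m
    have hp : p ∈ P := (IsLocalization.AtPrime.mk'_mem_maximal_iff S P p s).mp hm
    obtain ⟨d, hd⟩ := (hP p).mp hp
    refine ⟨IsLocalization.mk' S d s, ?_⟩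
    have h2 := hφmk p s
    have h3 := hφmk d s
    have hsK : φ s ≠ 0 := by
      apply hφ0
      intro h5
      exact s.2 (h5 ▸ P.zero_mem)
    have h4 : φ p * φ c = φ b * φ d := by
      rw [← map_mul, ← map_mul, hd]
    apply mul_right_cancel₀ hsK
    rw [h3, mul_assoc, h2, div_mul_eq_mul_div, mul_comm (φ c) (φ p), h4, mul_div_assoc]
    exact (mul_div_cancel₀ (φ d) hbK).symm
  have hprinc := maximalIdeal_isPrincipal_of_mul_mem (S := S) (K := FractionRing S)
    (φ c / φ b) hy1 hy2
  haveI : IsPrincipalIdealRing S :=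
    ((tfae_of_isNoetherianRing_of_isLocalRing_of_isDomain S).out 4 0).mp hprinc
  refine { not_a_field' := ?_ }
  intro hbot
  have h1 : algebraMap R S b ∈ maximalIdeal S := by
    rw [← IsLocalization.mk'_one (M := P.primeCompl) S b]
    exact (IsLocalization.AtPrime.mk'_mem_maximal_iff S P b 1).mpr hbP
  rw [hbot, Ideal.mem_bot] at h1
  exact hbS h1

/-- a prime of the form `(b : c)` (`b ≠ 0`) has height one. -/
theorem height_eq_one_of_mem_iff_dvd (P : Ideal R) [P.IsPrime] (b c : R)
    (hb : b ≠ 0) (hP : ∀ s : R, s ∈ P ↔ b ∣ s * c) : P.height = 1 := by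
  have hPle : P.primeCompl ≤ nonZeroDivisors R := by
    intro s hs
    rw [mem_nonZeroDivisors_iff_ne_zero]
    rintro rfl
    exact hs P.zero_mem
  haveI : IsDomain (Localization.AtPrime P) := IsLocalization.isDomain_localization hPle
  haveI := isDiscreteValuationRing_of_isLocalization_of_mem_iff_dvd P b c hb hP
    (Localization.AtPrime P)
  have h1 := IsLocalization.AtPrime.ringKrullDim_eq_height P (Localization.AtPrime P)
  rw [IsDiscreteValuationRing.ringKrullDim_eq_one] at h1
  exact_mod_cast h1.symm

end Height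

section Hartogs

variable {R : Type*} [CommRing R] [IsDomain R] [IsNoetherianRing R] [IsIntegrallyClosed R]
  {K : Type*} [Field K] [Algebra R K] [IsFractionRing R K]

/-- an element of `K ∖ R` is not in the localisation at some prime of height one, which is
moreover of the form `(b : c)`. -/
theorem exists_height_one_prime_of_not_mem_range (x : K) (hx : x ∉ (algebraMap R K).range) :
    ∃ P : Ideal R, P.IsPrime ∧ P.height = 1 ∧
      ∀ r s : R, s ∉ P → x * algebraMap R K s ≠ algebraMap R K r := by
  classical
  obtain ⟨a, b, hb, rfl⟩ := IsFractionRing.div_surjective (A := R) x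
  have hb0 : b ≠ 0 := nonZeroDivisors.ne_zero hb
  have hbK : algebraMap R K b ≠ 0 := (IsFractionRing.to_map_eq_zero_iff (K := K)).not.mpr hb0
  have hab : ¬ b ∣ a := by
    rintro ⟨d, rfl⟩
    apply hx
    refine ⟨d, ?_⟩
    rw [map_mul, mul_div_cancel_left₀ _ hbK]
  set Mq := R ⧸ Ideal.span {b} with hMq
  have ha0 : (Ideal.Quotient.mk (Ideal.span {b}) a : Mq) ≠ 0 := by
    rw [Ne, Ideal.Quotient.eq_zero_iff_mem, Ideal.mem_span_singleton]
    exact hab
  obtain ⟨P, hPass, hle⟩ := exists_le_isAssociatedPrime_of_isNoetherianRing R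
    (Ideal.Quotient.mk (Ideal.span {b}) a : Mq) ha0
  obtain ⟨hPprime, cbar, hPc⟩ := isAssociatedPrime_iff.mp hPass
  obtain ⟨c, rfl⟩ := Ideal.Quotient.mk_surjective cbar
  haveI := hPprime
  have hP : ∀ s : R, s ∈ P ↔ b ∣ s * c := by
    intro s
    rw [hPc, Submodule.mem_colon_singleton, Submodule.mem_bot]
    change s • (Ideal.Quotient.mk (Ideal.span {b}) c) = 0 ↔ _
    rw [← Ideal.Quotient.mk_eq_mk, ← Submodule.Quotient.mk_smul, Submodule.Quotient.mk_eq_zero,
      smul_eq_mul, Ideal.mem_span_singleton]
  refine ⟨P, hPprime, height_eq_one_of_mem_iff_dvd P b c hb0 hP, ?_⟩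
  intro r s hs hxs
  apply hs
  apply hle
  rw [Submodule.mem_colon_singleton, Submodule.mem_bot]
  rw [← Ideal.Quotient.mk_eq_mk, ← Submodule.Quotient.mk_smul, Submodule.Quotient.mk_eq_zero,
    smul_eq_mul, Ideal.mem_span_singleton]
  refine ⟨r, ?_⟩
  apply IsFractionRing.injective R K
  rw [map_mul, map_mul, ← hxs]
  field_simp

/-- **(K1)**: an element of the fraction field which lies in the localisation at every prime of
height one lies in the ring. -/
theorem mem_range_algebraMap_of_forall_height_one (x : K)
    (h : ∀ P : Ideal R, P.IsPrime → P.height = 1 →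
      ∃ r s : R, s ∉ P ∧ x * algebraMap R K s = algebraMap R K r) :
    x ∈ (algebraMap R K).range := by
  by_contra hx
  obtain ⟨P, hP, hh, hne⟩ := exists_height_one_prime_of_not_mem_range x hx
  obtain ⟨r, s, hs, hrs⟩ := h P hP hh
  exact hne r s hs hrs

/-- (K1) for units: an element of `K` which is a unit in the localisation at every prime of
height one is (the image of) a unit of `R`. -/
theorem exists_unit_of_forall_height_one (x : K) (hx0 : x ≠ 0)
    (h : ∀ P : Ideal R, P.IsPrime → P.height = 1 →
      ∃ r s : R, r ∉ P ∧ s ∉ P ∧ x * algebraMap R K s = algebraMap R K r) :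
    ∃ u : Rˣ, algebraMap R K (u : R) = x := by
  have h1 : x ∈ (algebraMap R K).range :=
    mem_range_algebraMap_of_forall_height_one x (fun P hP hh => by
      obtain ⟨r, s, _, hs, hrs⟩ := h P hP hh
      exact ⟨r, s, hs, hrs⟩)
  have h2 : x⁻¹ ∈ (algebraMap R K).range :=
    mem_range_algebraMap_of_forall_height_one x⁻¹ (fun P hP hh => by
      obtain ⟨r, s, hr, _, hrs⟩ := h P hP hh
      refine ⟨s, r, hr, ?_⟩
      rw [← hrs]
      field_simp)
  obtain ⟨a, ha⟩ := h1
  obtain ⟨b, hb⟩ := h2
  have hab : a * b = 1 := by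
    apply IsFractionRing.injective R K
    rw [map_mul, ha, hb, map_one, mul_inv_cancel₀ hx0]
  exact ⟨⟨a, b, hab, by rw [mul_comm]; exact hab⟩, ha⟩

end Hartogs

end Fermat.Agent.SS
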