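/-
(SS-q) — helper8 — **SS-REG (R1): the normal form of a node, purely locally.**

`R` is a noetherian integrally closed local domain (the local ring of the normal model at a closed
point `𝔫` of the special fibre through which exactly two components pass), `π` the uniformizer of
the base, `P0`, `Pinf` the two minimal primes over `π` (`(π) = P0 ⊓ Pinf`: the special fibre is
reduced), `x ∈ P0` reduces to a uniformizer of the branch `R ⧸ Pinf`, `y ∈ Pinf` reduces to a
uniformizer of the branch `R ⧸ P0` (`IsNodePair`).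

* `IsNodePair.exists_step` : if `x y = π^(k+1) r` with `r` a non-unit, one can correct `x, y` by
  multiples of `π^(k+1)` and get `x' y' = π^(k+2) r'`.
* `IsNodePair.false_of_lt` : if some `u ∈ 𝔪` has divisor `≤ c • P0` at `𝔫` (`u ∉ Pinf`, `P0` the only
  prime of height one containing `u`, `π^c ∈ u R_{P0}`), a relation `x y = π^(k+1) r` with `c < k+1`
  is impossible (uses (K1) = `mem_range_algebraMap_of_forall_height_one` of helper3).
* `IsNodePair.exists_normal_form` : hence `x' y' = π^m · unit` for some `1 ≤ m ≤ c`, with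
  `x' ≡ x`, `y' ≡ y mod π`.
* `IsNodePair.maximalIdeal_eq`, `IsNodePair.P0_eq`, `IsNodePair.Pinf_eq` : `𝔪 = (x, y, π)`,
  `P0 = (x, π)`, `Pinf = (y, π)`.
-/
import Mathlib
import Fermat.Agent.SS.K1_helper3

set_option autoImplicit false
set_option linter.unusedSectionVars false
set_option linter.style.haveILetI false

namespace Fermat.Agent.SS

open IsLocalRing

section Node

variable {R : Type*} [CommRing R] [IsLocalRing R]

/-- `x ∈ P0` generates the maximal ideal modulo `Pinf` and is not in `Pinf`; symmetrically `y`. -/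
structure IsNodePair (P0 Pinf : Ideal R) (x y : R) : Prop where
  x_mem : x ∈ P0
  x_notMem : x ∉ Pinf
  x_gen : ∀ z ∈ maximalIdeal R, ∃ a : R, z - a * x ∈ Pinf
  y_mem : y ∈ Pinf
  y_notMem : y ∉ P0
  y_gen : ∀ z ∈ maximalIdeal R, ∃ a : R, z - a * y ∈ P0

variable {π : R} {P0 Pinf : Ideal R} {x y : R}

/-- the invariants only depend on `x`, `y` modulo `π`. -/
theorem IsNodePair.congr (h : IsNodePair P0 Pinf x y) (hπ0 : π ∈ P0) (hπinf : π ∈ Pinf)
    {x' y' : R} (hx : x' - x ∈ Ideal.span {π}) (hy : y' - y ∈ Ideal.span {π}) :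
    IsNodePair P0 Pinf x' y' := by
  obtain ⟨a, ha⟩ := Ideal.mem_span_singleton'.mp hx
  obtain ⟨b, hb⟩ := Ideal.mem_span_singleton'.mp hy
  have hx' : x' = x + a * π := by linear_combination -ha
  have hy' : y' = y + b * π := by linear_combination -hb
  refine ⟨?_, ?_, ?_, ?_, ?_, ?_⟩
  · rw [hx']; exact P0.add_mem h.x_mem (P0.mul_mem_left _ hπ0)
  · intro hmem
    apply h.x_notMem
    have : x = x' - a * π := by rw [hx']; ring
    rw [this]; exact Pinf.sub_mem hmem (Pinf.mul_mem_left _ hπinf)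
  · intro z hz
    obtain ⟨c, hc⟩ := h.x_gen z hz
    refine ⟨c, ?_⟩
    have : z - c * x' = (z - c * x) - (c * a) * π := by rw [hx']; ring
    rw [this]; exact Pinf.sub_mem hc (Pinf.mul_mem_left _ hπinf)
  · rw [hy']; exact Pinf.add_mem h.y_mem (Pinf.mul_mem_left _ hπinf)
  · intro hmem
    apply h.y_notMem
    have : y = y' - b * π := by rw [hy']; ring
    rw [this]; exact P0.sub_mem hmem (P0.mul_mem_left _ hπ0)
  · intro z hz
    obtain ⟨c, hc⟩ := h.y_gen z hz
    refine ⟨c, ?_⟩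
    have : z - c * y' = (z - c * y) - (c * b) * π := by rw [hy']; ring
    rw [this]; exact P0.sub_mem hc (P0.mul_mem_left _ hπ0)

/-- every element of the maximal ideal is a combination of `x`, `y`, `π`. -/
theorem IsNodePair.exists_decomp (h : IsNodePair P0 Pinf x y) [Pinf.IsPrime]
    (hinf : P0 ⊓ Pinf ≤ Ideal.span {π}) {z : R} (hz : z ∈ maximalIdeal R) :
    ∃ α β γ : R, z = α * x + β * y + γ * π := by
  obtain ⟨α, hα⟩ := h.x_gen z hz
  have hw : z - α * x ∈ maximalIdeal R := le_maximalIdeal (Ideal.IsPrime.ne_top ‹_›) hα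
  obtain ⟨β, hβ⟩ := h.y_gen _ hw
  have h2 : z - α * x - β * y ∈ Pinf := Pinf.sub_mem hα (Pinf.mul_mem_left _ h.y_mem)
  obtain ⟨γ, hγ⟩ := Ideal.mem_span_singleton'.mp (hinf ⟨hβ, h2⟩)
  exact ⟨α, β, γ, by linear_combination -hγ⟩

/-- `x y ∈ (π)`. -/
theorem IsNodePair.exists_mul_eq (h : IsNodePair P0 Pinf x y)
    (hinf : P0 ⊓ Pinf ≤ Ideal.span {π}) : ∃ r : R, x * y = π ^ (0 + 1) * r := by
  have : x * y ∈ P0 ⊓ Pinf := ⟨P0.mul_mem_right _ h.x_mem, Pinf.mul_mem_left _ h.y_mem⟩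
  obtain ⟨r, hr⟩ := Ideal.mem_span_singleton'.mp (hinf this)
  exact ⟨r, by rw [zero_add, pow_one, ← hr]; ring⟩

/-- `𝔪 = (x, y, π)`. -/
theorem IsNodePair.maximalIdeal_eq (h : IsNodePair P0 Pinf x y) [P0.IsPrime] [Pinf.IsPrime]
    (hπ0 : π ∈ P0) (hinf : P0 ⊓ Pinf ≤ Ideal.span {π}) :
    maximalIdeal R = Ideal.span {x, y, π} := by
  apply le_antisymm
  · intro z hz
    obtain ⟨α, β, γ, rfl⟩ := h.exists_decomp hinf hz
    refine Ideal.add_mem _ (Ideal.add_mem _ ?_ ?_) ?_
    · exact Ideal.mul_mem_left _ _ (Ideal.subset_span (by simp))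
    · exact Ideal.mul_mem_left _ _ (Ideal.subset_span (by simp))
    · exact Ideal.mul_mem_left _ _ (Ideal.subset_span (by simp))
  · rw [Ideal.span_le]
    rintro z (rfl | rfl | rfl)
    · exact le_maximalIdeal (Ideal.IsPrime.ne_top ‹_›) h.x_mem
    · exact le_maximalIdeal (Ideal.IsPrime.ne_top ‹_›) h.y_mem
    · exact le_maximalIdeal (Ideal.IsPrime.ne_top ‹_›) hπ0

/-- `P0 = (x, π)`. -/
theorem IsNodePair.P0_eq (h : IsNodePair P0 Pinf x y) [P0.IsPrime]
    (hπ0 : π ∈ P0) (hinf : P0 ⊓ Pinf ≤ Ideal.span {π}) :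
    P0 = Ideal.span {x, π} := by
  apply le_antisymm
  · intro z hz
    obtain ⟨a, ha⟩ := h.x_gen z (le_maximalIdeal (Ideal.IsPrime.ne_top ‹_›) hz)
    have h0 : z - a * x ∈ P0 := P0.sub_mem hz (P0.mul_mem_left _ h.x_mem)
    obtain ⟨γ, hγ⟩ := Ideal.mem_span_singleton'.mp (hinf ⟨h0, ha⟩)
    have : z = a * x + γ * π := by linear_combination -hγ
    rw [this]
    exact Ideal.add_mem _ (Ideal.mul_mem_left _ _ (Ideal.subset_span (by simp)))
      (Ideal.mul_mem_left _ _ (Ideal.subset_span (by simp)))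
  · rw [Ideal.span_le]
    rintro z (rfl | rfl)
    · exact h.x_mem
    · exact hπ0

/-- `Pinf = (y, π)`. -/
theorem IsNodePair.Pinf_eq (h : IsNodePair P0 Pinf x y) [Pinf.IsPrime]
    (hπinf : π ∈ Pinf) (hinf : P0 ⊓ Pinf ≤ Ideal.span {π}) :
    Pinf = Ideal.span {y, π} := by
  apply le_antisymm
  · intro z hz
    obtain ⟨a, ha⟩ := h.y_gen z (le_maximalIdeal (Ideal.IsPrime.ne_top ‹_›) hz)
    have h0 : z - a * y ∈ Pinf := Pinf.sub_mem hz (Pinf.mul_mem_left _ h.y_mem)
    obtain ⟨γ, hγ⟩ := Ideal.mem_span_singleton'.mp (hinf ⟨ha, h0⟩)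
    have : z = a * y + γ * π := by linear_combination -hγ
    rw [this]
    exact Ideal.add_mem _ (Ideal.mul_mem_left _ _ (Ideal.subset_span (by simp)))
      (Ideal.mul_mem_left _ _ (Ideal.subset_span (by simp)))
  · rw [Ideal.span_le]
    rintro z (rfl | rfl)
    · exact h.y_mem
    · exact hπinf

/-- **the correction step**: from `x y = π^(k+1) r` with `r` a non-unit to
`x' y' = π^(k+2) r'`, `x' ≡ x`, `y' ≡ y mod π^(k+1)`. -/
theorem IsNodePair.exists_step (h : IsNodePair P0 Pinf x y) [Pinf.IsPrime]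
    (hinf : P0 ⊓ Pinf ≤ Ideal.span {π}) {k : ℕ} {r : R} (hxy : x * y = π ^ (k + 1) * r)
    (hr : r ∈ maximalIdeal R) :
    ∃ x' y' r' : R, x' - x ∈ Ideal.span {π} ∧ y' - y ∈ Ideal.span {π} ∧
      x' * y' = π ^ (k + 1 + 1) * r' := by
  obtain ⟨α, β, γ, hαβγ⟩ := h.exists_decomp hinf hr
  refine ⟨x - β * π ^ (k + 1), y - α * π ^ (k + 1), γ + α * β * π ^ k, ?_, ?_, ?_⟩
  · refine Ideal.mem_span_singleton'.mpr ⟨-(β * π ^ k), ?_⟩
    ring
  · refine Ideal.mem_span_singleton'.mpr ⟨-(α * π ^ k), ?_⟩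
    ring
  · have : (x - β * π ^ (k + 1)) * (y - α * π ^ (k + 1)) =
        x * y - π ^ (k + 1) * (α * x + β * y) + α * β * π ^ (k + 1) * π ^ (k + 1) := by ring
    rw [this, hxy, hαβγ]
    ring

end Node

section Bound

variable {R : Type*} [CommRing R] [IsDomain R] [IsLocalRing R] [IsNoetherianRing R]
  [IsIntegrallyClosed R]

variable {π : R} {P0 Pinf : Ideal R} {x y : R}

/-- **termination**: if `u ∈ 𝔪` has divisor `≤ c • P0` at the node, a relation
`x y = π^(k+1) r` with `c < k + 1` is impossible. -/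
theorem IsNodePair.false_of_lt (h : IsNodePair P0 Pinf x y) [P0.IsPrime] [Pinf.IsPrime]
    (hπne : π ≠ 0) (hπ0 : π ∈ P0)
    {u : R} (hu_max : u ∈ maximalIdeal R) (hu_ne : u ≠ 0)
    (hu_hor : ∀ P : Ideal R, P.IsPrime → P.height = 1 → u ∈ P → P = P0)
    {c : ℕ} (hu_c : ∃ s r : R, s ∉ P0 ∧ π ^ c * s = u * r)
    {k : ℕ} {r : R} (hxy : x * y = π ^ (k + 1) * r) (hck : c < k + 1) : False := by
  classical
  obtain ⟨s', r', hs', hsr⟩ := hu_c
  set K := FractionRing R
  have huK : algebraMap R K u ≠ 0 := (IsFractionRing.to_map_eq_zero_iff (K := K)).not.mpr hu_ne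
  obtain ⟨d, hd⟩ : ∃ d : ℕ, k + 1 = c + d + 1 := ⟨k - c, by omega⟩
  -- `x / u ∈ R`
  have hmem : algebraMap R K x / algebraMap R K u ∈ (algebraMap R K).range := by
    apply mem_range_algebraMap_of_forall_height_one
    intro P hP hht
    by_cases huP : u ∈ P
    · have hPP : P = P0 := hu_hor P hP hht huP
      subst hPP
      refine ⟨π ^ (d + 1) * r * r', y * s', ?_, ?_⟩
      · intro hmem
        rcases (Ideal.IsPrime.mem_or_mem hP hmem) with h1 | h1
        · exact h.y_notMem h1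
        · exact hs' h1
      · rw [div_mul_eq_mul_div, div_eq_iff huK, ← map_mul, ← map_mul]
        congr 1
        calc x * (y * s') = (x * y) * s' := by ring
          _ = π ^ (k + 1) * r * s' := by rw [hxy]
          _ = π ^ (d + 1) * r * (π ^ c * s') := by rw [hd]; ring
          _ = π ^ (d + 1) * r * (u * r') := by rw [hsr]
          _ = π ^ (d + 1) * r * r' * u := by ring
    · refine ⟨x, u, huP, ?_⟩
      rw [div_mul_cancel₀ _ huK]
  obtain ⟨a, ha⟩ := hmem
  have hxa : x = u * a := by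
    apply IsFractionRing.injective R K
    rw [map_mul, ha, mul_div_cancel₀ _ huK]
  -- `a` is not a unit
  have ha_max : a ∈ maximalIdeal R := by
    rw [mem_maximalIdeal, mem_nonunits_iff]
    intro hau
    obtain ⟨b, hb⟩ := hau.exists_right_inv
    have hub : u = x * b := by rw [hxa, mul_assoc, hb, mul_one]
    have h1 : π ^ c * (s' * y) = π ^ c * (π ^ (d + 1) * r * b * r') := by
      calc π ^ c * (s' * y) = (π ^ c * s') * y := by ring
        _ = (u * r') * y := by rw [hsr]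
        _ = (x * y) * b * r' := by rw [hub]; ring
        _ = π ^ (k + 1) * r * b * r' := by rw [hxy]
        _ = π ^ c * (π ^ (d + 1) * r * b * r') := by rw [hd]; ring
    have h2 : s' * y = π ^ (d + 1) * r * b * r' := mul_left_cancel₀ (pow_ne_zero _ hπne) h1
    have h3 : s' * y ∈ P0 := by
      rw [h2, pow_succ]
      have : π ^ d * π * r * b * r' = (π ^ d * r * b * r') * π := by ring
      rw [this]
      exact P0.mul_mem_left _ hπ0
    rcases Ideal.IsPrime.mem_or_mem ‹P0.IsPrime› h3 with h4 | h4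
    · exact hs' h4
    · exact h.y_notMem h4
  -- the contradiction in the branch `R ⧸ Pinf`
  obtain ⟨b, hb⟩ := h.x_gen u hu_max
  obtain ⟨b', hb'⟩ := h.x_gen a ha_max
  have h5 : x * (1 - b * b' * x) ∈ Pinf := by
    have : x * (1 - b * b' * x) = (u - b * x) * a + (b * x) * (a - b' * x) := by
      rw [← sub_eq_zero]
      have hx0 : x - u * a = 0 := sub_eq_zero.mpr hxa
      linear_combination hx0
    rw [this]
    exact Pinf.add_mem (Pinf.mul_mem_right _ hb) (Pinf.mul_mem_left _ hb')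
  have hxmax : x ∈ maximalIdeal R := le_maximalIdeal (Ideal.IsPrime.ne_top ‹P0.IsPrime›) h.x_mem
  have hunit : IsUnit (1 - b * b' * x) := by
    have hmem : b * b' * x ∈ maximalIdeal R := (maximalIdeal R).mul_mem_left _ hxmax
    by_contra hnu
    have h6 : 1 - b * b' * x ∈ maximalIdeal R := (mem_maximalIdeal _).mpr hnu
    have h7 : (1 : R) ∈ maximalIdeal R := by
      have := (maximalIdeal R).add_mem h6 hmem
      rwa [sub_add_cancel] at this
    exact (Ideal.ne_top_iff_one _).mp (maximalIdeal.isMaximal R).ne_top h7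
  rcases Ideal.IsPrime.mem_or_mem ‹Pinf.IsPrime› h5 with h8 | h8
  · exact h.x_notMem h8
  · exact (Ideal.IsPrime.ne_top ‹Pinf.IsPrime›) (Ideal.eq_top_of_isUnit_mem _ h8 hunit)

/-- **the normal form of a node**: `x' y' = π^m · unit` with `1 ≤ m ≤ c`. -/
theorem IsNodePair.exists_normal_form (h : IsNodePair P0 Pinf x y) [P0.IsPrime] [Pinf.IsPrime]
    (hπne : π ≠ 0) (hπ0 : π ∈ P0) (hπinf : π ∈ Pinf) (hinf : P0 ⊓ Pinf ≤ Ideal.span {π})
    {u : R} (hu_max : u ∈ maximalIdeal R) (hu_ne : u ≠ 0)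
    (hu_hor : ∀ P : Ideal R, P.IsPrime → P.height = 1 → u ∈ P → P = P0)
    {c : ℕ} (hu_c : ∃ s r : R, s ∉ P0 ∧ π ^ c * s = u * r) :
    ∃ (x' y' r : R) (m : ℕ), IsNodePair P0 Pinf x' y' ∧ x' - x ∈ Ideal.span {π} ∧
      y' - y ∈ Ideal.span {π} ∧ 1 ≤ m ∧ m ≤ c ∧ IsUnit r ∧ x' * y' = π ^ m * r := by
  -- the induction: either done with `m ≤ k`, or a relation with exponent `k + 1`
  have key : ∀ k : ℕ,
      (∃ (x' y' r : R) (m : ℕ), IsNodePair P0 Pinf x' y' ∧ x' - x ∈ Ideal.span {π} ∧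
        y' - y ∈ Ideal.span {π} ∧ 1 ≤ m ∧ m ≤ k ∧ IsUnit r ∧ x' * y' = π ^ m * r) ∨
      (∃ x' y' r : R, IsNodePair P0 Pinf x' y' ∧ x' - x ∈ Ideal.span {π} ∧
        y' - y ∈ Ideal.span {π} ∧ x' * y' = π ^ (k + 1) * r) := by
    intro k
    induction k with
    | zero =>
      right
      obtain ⟨r, hr⟩ := h.exists_mul_eq hinf
      exact ⟨x, y, r, h, by simp, by simp, hr⟩
    | succ k ih =>
      rcases ih with ⟨x', y', r, m, h', hx', hy', hm1, hmk, hr, hxy⟩ | ⟨x', y', r, h', hx', hy', hxy⟩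
      · left
        exact ⟨x', y', r, m, h', hx', hy', hm1, by omega, hr, hxy⟩
      · by_cases hr : IsUnit r
        · left
          exact ⟨x', y', r, k + 1, h', hx', hy', by omega, le_rfl, hr, hxy⟩
        · right
          obtain ⟨x'', y'', r'', hx'', hy'', hxy''⟩ :=
            h'.exists_step hinf hxy ((mem_maximalIdeal _).mpr hr)
          refine ⟨x'', y'', r'', h'.congr hπ0 hπinf hx'' hy'', ?_, ?_, hxy''⟩
          · have : x'' - x = (x'' - x') + (x' - x) := by ring
            rw [this]; exact Ideal.add_mem _ hx'' hx'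
          · have : y'' - y = (y'' - y') + (y' - y) := by ring
            rw [this]; exact Ideal.add_mem _ hy'' hy'
  rcases key c with hdone | ⟨x', y', r, h', _, _, hxy⟩
  · exact hdone
  · exact (h'.false_of_lt hπne hπ0 hu_max hu_ne hu_hor hu_c hxy (Nat.lt_succ_self c)).elim

end Bound

end Fermat.Agent.SS
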