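/-
(SS-q) — helper5 — **SS-MODLOC: the local rings of the two-component model at its closed points,
from global data (pure algebra).**

`B` is a chart of the normal model (a domain), `π ∈ B` the uniformizer of the base, `𝔭∞ ≠ 𝔭0` the two
primes of `B` over `π` with `𝔭∞ ⊓ 𝔭0 ≤ (π)` (reduced special fibre), `𝔪 ∋ π` a maximal ideal and
`R` the localisation of `B` at `𝔪`.

* `IsBranchUniformizer 𝔭 𝔪 z` : `z ∈ 𝔪 ∖ 𝔭` generates the maximal ideal of `(B ⧸ 𝔭)_𝔪`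
  (the branch `V(𝔭)` is smooth at `𝔪` with uniformizer `z̄`), in elementwise form.
* `smooth_point_of_branch` : if `𝔭0 ⊄ 𝔪` and `z` is a branch uniformizer of `𝔭∞` at `𝔪`, then
  `maximalIdeal R = (z, π)`, `(π) = 𝔭∞ R` is prime and `z ∉ (π)`: the input of NODEALG (F).
* `isNodePair_of_branches` : if `x ∈ 𝔭0` is a branch uniformizer of `𝔭∞` at `𝔪` and `y ∈ 𝔭∞` is a
  branch uniformizer of `𝔭0` at `𝔪`, then `IsNodePair (𝔭0 R) (𝔭∞ R) x y` in `R`, both primes,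
  `π` in both and `𝔭0 R ⊓ 𝔭∞ R ≤ (π)`: the input of REG (helper8) and NODEALG (B)–(E).
* `le_or_le_of_mem` : a prime containing `π` contains `𝔭∞` or `𝔭0`.
-/
import Mathlib
import Fermat.Agent.SS.REG_helper8_Node

set_option autoImplicit false
set_option linter.unusedSectionVars false
set_option linter.style.haveILetI false

namespace Fermat.Agent.SS

open IsLocalRing

section Global

variable {B : Type*} [CommRing B]

/-- `z ∈ 𝔪 ∖ 𝔭` generates the maximal ideal of `(B ⧸ 𝔭)_𝔪`. -/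
structure IsBranchUniformizer (𝔭 𝔪 : Ideal B) (z : B) : Prop where
  mem : z ∈ 𝔪
  notMem : z ∉ 𝔭
  gen : ∀ w ∈ 𝔪, ∃ a s : B, s ∉ 𝔪 ∧ s * w - a * z ∈ 𝔭

/-- a prime containing `π` contains one of the two components. -/
theorem le_or_le_of_mem {π : B} {𝔭inf 𝔭0 : Ideal B} (hπinf : π ∈ 𝔭inf) (hπ0 : π ∈ 𝔭0)
    (hinf : 𝔭inf ⊓ 𝔭0 ≤ Ideal.span {π}) (𝔪 : Ideal B) [h𝔪 : 𝔪.IsPrime] (hπ𝔪 : π ∈ 𝔪) :
    𝔭inf ≤ 𝔪 ∨ 𝔭0 ≤ 𝔪 := by
  by_contra hcon
  rw [not_or] at hcon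
  obtain ⟨a, ha, ha𝔪⟩ := Set.not_subset.mp hcon.1
  obtain ⟨b, hb, hb𝔪⟩ := Set.not_subset.mp hcon.2
  have hab : a * b ∈ 𝔭inf ⊓ 𝔭0 := ⟨𝔭inf.mul_mem_right _ ha, 𝔭0.mul_mem_left _ hb⟩
  have : a * b ∈ 𝔪 := by
    have h1 := hinf hab
    rw [Ideal.mem_span_singleton] at h1
    obtain ⟨c, hc⟩ := h1
    rw [hc]; exact 𝔪.mul_mem_right _ hπ𝔪
  rcases h𝔪.mem_or_mem this with h | h
  · exact ha𝔪 h
  · exact hb𝔪 h

end Global

section Local

variable {B : Type*} [CommRing B] [IsDomain B]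
variable {R : Type*} [CommRing R] [IsDomain R] [IsLocalRing R] [Algebra B R]

/-- membership in the extension of a prime `𝔭 ⊆ 𝔪` to the localisation at `𝔪` can be tested in `B`. -/
theorem algebraMap_mem_map_iff_of_le (𝔪 : Ideal B) [h𝔪 : 𝔪.IsPrime] [IsLocalization.AtPrime R 𝔪]
    (𝔭 : Ideal B) [h𝔭 : 𝔭.IsPrime] (hle : 𝔭 ≤ 𝔪) (a : B) :
    algebraMap B R a ∈ 𝔭.map (algebraMap B R) ↔ a ∈ 𝔭 := by
  constructor
  · intro h
    rw [IsLocalization.algebraMap_mem_map_algebraMap_iff 𝔪.primeCompl] at h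
    obtain ⟨s, hs, hsa⟩ := h
    rcases h𝔭.mem_or_mem hsa with h' | h'
    · exact absurd (hle h') hs
    · exact h'
  · exact Ideal.mem_map_of_mem _

/-- the extension of a prime `𝔭 ⊆ 𝔪` to the localisation at `𝔪` is prime. -/
theorem map_isPrime_of_le (𝔪 : Ideal B) [h𝔪 : 𝔪.IsPrime] [IsLocalization.AtPrime R 𝔪]
    (𝔭 : Ideal B) [h𝔭 : 𝔭.IsPrime] (hle : 𝔭 ≤ 𝔪) :
    (𝔭.map (algebraMap B R)).IsPrime := by
  refine IsLocalization.isPrime_of_isPrime_disjoint 𝔪.primeCompl R 𝔭 h𝔭 ?_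
  rw [Set.disjoint_left]
  intro s hs hs𝔭
  exact hs (hle hs𝔭)

/-- every element of `R` is `algebraMap a * (unit)`. -/
theorem exists_eq_algebraMap_mul_unit (𝔪 : Ideal B) [h𝔪 : 𝔪.IsPrime] [IsLocalization.AtPrime R 𝔪]
    (w : R) :
    ∃ (a : B) (v : Rˣ), w = algebraMap B R a * (v : R) ∧ (w ∈ maximalIdeal R → a ∈ 𝔪) := by
  obtain ⟨a, s, rfl⟩ := IsLocalization.exists_mk'_eq 𝔪.primeCompl w
  have hsu : IsUnit (algebraMap B R s) := IsLocalization.map_units R s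
  obtain ⟨su, hsu'⟩ := hsu
  refine ⟨a, su⁻¹, ?_, ?_⟩
  · have h4 : IsLocalization.mk' R a s * algebraMap B R s = algebraMap B R a :=
      IsLocalization.mk'_spec R a s
    rw [← h4, ← hsu', mul_assoc, Units.mul_inv, mul_one]
  · intro hw
    exact (IsLocalization.AtPrime.mk'_mem_maximal_iff R 𝔪 a s).mp hw

/-- the elementwise generation property passes to the localisation. -/
theorem IsBranchUniformizer.gen_localization (𝔪 : Ideal B) [h𝔪 : 𝔪.IsPrime]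
    [IsLocalization.AtPrime R 𝔪] {𝔭 : Ideal B} {z : B} (hz : IsBranchUniformizer 𝔭 𝔪 z) :
    ∀ w ∈ maximalIdeal R, ∃ a : R, w - a * algebraMap B R z ∈ 𝔭.map (algebraMap B R) := by
  intro w hw
  obtain ⟨w₀, v, rfl, hw₀⟩ := exists_eq_algebraMap_mul_unit (R := R) 𝔪 w
  obtain ⟨a, s, hs, has⟩ := hz.gen w₀ (hw₀ hw)
  have hsu : IsUnit (algebraMap B R s) :=
    IsLocalization.map_units R (⟨s, hs⟩ : 𝔪.primeCompl)
  obtain ⟨su, hsu'⟩ := hsu
  refine ⟨(v : R) * (su⁻¹ : Rˣ) * algebraMap B R a, ?_⟩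
  have h1 : algebraMap B R (s * w₀ - a * z) ∈ 𝔭.map (algebraMap B R) :=
    Ideal.mem_map_of_mem _ has
  have h2 : algebraMap B R w₀ * (v : R) - (v : R) * (su⁻¹ : Rˣ) * algebraMap B R a * algebraMap B R z
      = ((v : R) * (su⁻¹ : Rˣ)) * algebraMap B R (s * w₀ - a * z) := by
    rw [map_sub, map_mul, map_mul, ← hsu']
    have : ((su⁻¹ : Rˣ) : R) * (su : R) = 1 := Units.inv_mul su
    linear_combination (-(v : R) * algebraMap B R w₀) * this
  rw [h2]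
  exact Ideal.mul_mem_left _ _ h1

/-- the intersection of the extensions of the two components is contained in `(π)`. -/
theorem map_inf_map_le_span (𝔪 : Ideal B) [h𝔪 : 𝔪.IsPrime] [IsLocalization.AtPrime R 𝔪]
    {π : B} {𝔭inf 𝔭0 : Ideal B} (hinf : 𝔭inf ⊓ 𝔭0 ≤ Ideal.span {π}) :
    𝔭0.map (algebraMap B R) ⊓ 𝔭inf.map (algebraMap B R) ≤ Ideal.span {algebraMap B R π} := by
  intro u hu
  obtain ⟨hu0, huinf⟩ := hu
  obtain ⟨a, s, rfl⟩ := IsLocalization.exists_mk'_eq 𝔪.primeCompl u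
  rw [SetLike.mem_coe, IsLocalization.mk'_mem_map_algebraMap_iff 𝔪.primeCompl] at hu0 huinf
  obtain ⟨t₀, ht₀, h0⟩ := hu0
  obtain ⟨t₁, ht₁, h1⟩ := huinf
  have hmem : t₀ * t₁ * a ∈ 𝔭inf ⊓ 𝔭0 := by
    constructor
    · have : t₀ * t₁ * a = t₀ * (t₁ * a) := by ring
      rw [this]; exact 𝔭inf.mul_mem_left _ h1
    · have : t₀ * t₁ * a = t₁ * (t₀ * a) := by ring
      rw [this]; exact 𝔭0.mul_mem_left _ h0
  have h2 := hinf hmem
  rw [Ideal.mem_span_singleton] at h2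
  obtain ⟨c, hc⟩ := h2
  have htu : IsUnit (algebraMap B R (t₀ * t₁)) :=
    IsLocalization.map_units R (⟨t₀ * t₁, 𝔪.primeCompl.mul_mem ht₀ ht₁⟩ : 𝔪.primeCompl)
  obtain ⟨tu, htu'⟩ := htu
  have hsu : IsUnit (algebraMap B R s) := IsLocalization.map_units R s
  obtain ⟨su, hsu'⟩ := hsu
  rw [Ideal.mem_span_singleton]
  refine ⟨algebraMap B R c * (tu⁻¹ : Rˣ) * (su⁻¹ : Rˣ), ?_⟩
  have h3 : (tu : R) * algebraMap B R a = algebraMap B R π * algebraMap B R c := by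
    rw [htu', ← map_mul, hc, map_mul]
  have h4 : IsLocalization.mk' R a s * (su : R) = algebraMap B R a := by
    rw [hsu']; exact IsLocalization.mk'_spec R a s
  calc IsLocalization.mk' R a s
      = (IsLocalization.mk' R a s * (su : R)) * ((su⁻¹ : Rˣ) : R) := by
        rw [mul_assoc, Units.mul_inv, mul_one]
    _ = algebraMap B R a * ((su⁻¹ : Rˣ) : R) := by rw [h4]
    _ = ((tu⁻¹ : Rˣ) : R) * ((tu : R) * algebraMap B R a) * ((su⁻¹ : Rˣ) : R) := by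
        rw [← mul_assoc, Units.inv_mul, one_mul]
    _ = ((tu⁻¹ : Rˣ) : R) * (algebraMap B R π * algebraMap B R c) * ((su⁻¹ : Rˣ) : R) := by rw [h3]
    _ = algebraMap B R π * (algebraMap B R c * ((tu⁻¹ : Rˣ) : R) * ((su⁻¹ : Rˣ) : R)) := by ring

/-- if only the component `𝔭` passes through `𝔪`, then `𝔭 R = π R`. -/
theorem map_eq_span_of_not_le (𝔪 : Ideal B) [h𝔪 : 𝔪.IsPrime] [IsLocalization.AtPrime R 𝔪]
    {π : B} {𝔭 𝔭' : Ideal B} (hπ : π ∈ 𝔭) (hinf : 𝔭 ⊓ 𝔭' ≤ Ideal.span {π}) (hnle : ¬ 𝔭' ≤ 𝔪) :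
    𝔭.map (algebraMap B R) = Ideal.span {algebraMap B R π} := by
  obtain ⟨s, hs', hs𝔪⟩ := Set.not_subset.mp hnle
  apply le_antisymm
  · rw [Ideal.map_le_iff_le_comap]
    intro a ha
    have hmem : a * s ∈ 𝔭 ⊓ 𝔭' := ⟨𝔭.mul_mem_right _ ha, 𝔭'.mul_mem_left _ hs'⟩
    have h2 := hinf hmem
    rw [Ideal.mem_span_singleton] at h2
    obtain ⟨c, hc⟩ := h2
    have hsu : IsUnit (algebraMap B R s) :=
      IsLocalization.map_units R (⟨s, hs𝔪⟩ : 𝔪.primeCompl)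
    obtain ⟨su, hsu'⟩ := hsu
    rw [Ideal.mem_comap, Ideal.mem_span_singleton]
    refine ⟨algebraMap B R c * ((su⁻¹ : Rˣ) : R), ?_⟩
    have h3 : algebraMap B R a * (su : R) = algebraMap B R π * algebraMap B R c := by
      rw [hsu', ← map_mul, hc, map_mul]
    calc algebraMap B R a = (algebraMap B R a * (su : R)) * ((su⁻¹ : Rˣ) : R) := by
          rw [mul_assoc, Units.mul_inv, mul_one]
      _ = algebraMap B R π * (algebraMap B R c * ((su⁻¹ : Rˣ) : R)) := by rw [h3]; ring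
  · rw [Ideal.span_le]
    rintro w rfl
    exact Ideal.mem_map_of_mem _ hπ

/-- **smooth closed points**: if only the component `𝔭` passes through `𝔪` and `z` is a branch
uniformizer of `𝔭` at `𝔪`, then the local ring `R = B_𝔪` has `𝔪_R = (z, π)`, `(π)` prime,
`z ∉ (π)`. -/
theorem smooth_point_of_branch (𝔪 : Ideal B) [h𝔪 : 𝔪.IsPrime] [IsLocalization.AtPrime R 𝔪]
    {π : B} {𝔭 𝔭' : Ideal B} [h𝔭 : 𝔭.IsPrime] (hπ : π ∈ 𝔭) (hinf : 𝔭 ⊓ 𝔭' ≤ Ideal.span {π})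
    (hle : 𝔭 ≤ 𝔪) (hnle : ¬ 𝔭' ≤ 𝔪) {z : B} (hz : IsBranchUniformizer 𝔭 𝔪 z) :
    maximalIdeal R = Ideal.span {algebraMap B R z, algebraMap B R π} ∧
      (Ideal.span {algebraMap B R π} : Ideal R).IsPrime ∧
      algebraMap B R z ∉ (Ideal.span {algebraMap B R π} : Ideal R) := by
  have hmap := map_eq_span_of_not_le (R := R) 𝔪 hπ hinf hnle
  refine ⟨?_, ?_, ?_⟩
  · apply le_antisymm
    · intro w hw
      obtain ⟨a, ha⟩ := hz.gen_localization (R := R) 𝔪 w hw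
      rw [hmap, Ideal.mem_span_singleton] at ha
      obtain ⟨c, hc⟩ := ha
      rw [Ideal.mem_span_pair]
      exact ⟨a, c, by linear_combination -hc⟩
    · rw [Ideal.span_le]
      rintro w (rfl | rfl)
      · exact (IsLocalization.AtPrime.to_map_mem_maximal_iff R 𝔪 z).mpr hz.mem
      · exact (IsLocalization.AtPrime.to_map_mem_maximal_iff R 𝔪 π).mpr (hle hπ)
  · rw [← hmap]
    exact map_isPrime_of_le 𝔪 𝔭 hle
  · rw [← hmap, algebraMap_mem_map_iff_of_le 𝔪 𝔭 hle]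
    exact hz.notMem

/-- **nodes**: if both components pass through `𝔪`, `x ∈ 𝔭0` is a branch uniformizer of `𝔭∞` at `𝔪`
and `y ∈ 𝔭∞` is a branch uniformizer of `𝔭0` at `𝔪`, then `(x, y)` is a node pair in `R = B_𝔪`. -/
theorem isNodePair_of_branches (𝔪 : Ideal B) [h𝔪 : 𝔪.IsPrime] [IsLocalization.AtPrime R 𝔪]
    {𝔭inf 𝔭0 : Ideal B} [h𝔭inf : 𝔭inf.IsPrime] [h𝔭0 : 𝔭0.IsPrime]
    (hleinf : 𝔭inf ≤ 𝔪) (hle0 : 𝔭0 ≤ 𝔪) {x y : B}
    (hx : IsBranchUniformizer 𝔭inf 𝔪 x) (hx0 : x ∈ 𝔭0)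
    (hy : IsBranchUniformizer 𝔭0 𝔪 y) (hyinf : y ∈ 𝔭inf) :
    IsNodePair (𝔭0.map (algebraMap B R)) (𝔭inf.map (algebraMap B R))
      (algebraMap B R x) (algebraMap B R y) where
  x_mem := Ideal.mem_map_of_mem _ hx0
  x_notMem := fun h => hx.notMem ((algebraMap_mem_map_iff_of_le 𝔪 𝔭inf hleinf x).mp h)
  x_gen := hx.gen_localization (R := R) 𝔪
  y_mem := Ideal.mem_map_of_mem _ hyinf
  y_notMem := fun h => hy.notMem ((algebraMap_mem_map_iff_of_le 𝔪 𝔭0 hle0 y).mp h)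
  y_gen := hy.gen_localization (R := R) 𝔪

end Local

section Transfer

variable {B : Type*} [CommRing B]

/-- a branch uniformizer times a unit at `𝔪` (modulo `𝔭`) is a branch uniformizer. -/
theorem IsBranchUniformizer.of_mul_unit {𝔭 𝔪 : Ideal B} [h𝔭 : 𝔭.IsPrime] [h𝔪 : 𝔪.IsPrime]
    (hle : 𝔭 ≤ 𝔪) {z x u : B} (hz : IsBranchUniformizer 𝔭 𝔪 z) (hu : u ∉ 𝔪)
    (hx : x - z * u ∈ 𝔭) : IsBranchUniformizer 𝔭 𝔪 x where
  mem := by
    have : x = (x - z * u) + z * u := by ring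
    rw [this]
    exact 𝔪.add_mem (hle hx) (𝔪.mul_mem_right _ hz.mem)
  notMem := by
    intro hmem
    have h1 : z * u ∈ 𝔭 := by
      have : z * u = x - (x - z * u) := by ring
      rw [this]; exact 𝔭.sub_mem hmem hx
    rcases h𝔭.mem_or_mem h1 with h | h
    · exact hz.notMem h
    · exact hu (hle h)
  gen := by
    intro w hw
    obtain ⟨a, s, hs, has⟩ := hz.gen w hw
    refine ⟨a, u * s, ?_, ?_⟩
    · intro hmem
      rcases h𝔪.mem_or_mem hmem with h | h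
      · exact hu h
      · exact hs h
    · have : u * s * w - a * x = u * (s * w - a * z) - a * (x - z * u) := by ring
      rw [this]
      exact 𝔭.sub_mem (𝔭.mul_mem_left _ has) (𝔭.mul_mem_left _ hx)

/-- if the branch `B ⧸ 𝔭` is a Dedekind domain, every maximal ideal `𝔪 ⊋ 𝔭` has a branch
uniformizer. -/
theorem exists_isBranchUniformizer_of_isDedekindDomain {𝔭 𝔪 : Ideal B} [h𝔭 : 𝔭.IsPrime]
    [h𝔪 : 𝔪.IsMaximal] [IsDedekindDomain (B ⧸ 𝔭)] (hle : 𝔭 ≤ 𝔪) (hne : 𝔭 ≠ 𝔪) :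
    ∃ z : B, IsBranchUniformizer 𝔭 𝔪 z := by
  classical
  set q := Ideal.Quotient.mk 𝔭 with hq
  set M : Ideal (B ⧸ 𝔭) := 𝔪.map q with hM
  have hqs : Function.Surjective q := Ideal.Quotient.mk_surjective
  have hmem_iff : ∀ b : B, q b ∈ M ↔ b ∈ 𝔪 := by
    intro b
    constructor
    · intro hb
      rw [hM, Ideal.mem_map_iff_of_surjective q hqs] at hb
      obtain ⟨c, hc, hcb⟩ := hb
      have : b - c ∈ 𝔭 := by
        rw [← Ideal.Quotient.eq_zero_iff_mem, map_sub, hcb, sub_self]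
      have : b = (b - c) + c := by ring
      rw [this]; exact 𝔪.add_mem (hle ‹b - c ∈ 𝔭›) hc
    · exact fun hb => Ideal.mem_map_of_mem _ hb
  have hMne_top : M ≠ ⊤ := by
    intro h
    have : (1 : B ⧸ 𝔭) ∈ M := h ▸ Submodule.mem_top
    rw [← map_one q, hmem_iff] at this
    exact h𝔪.ne_top ((Ideal.eq_top_iff_one _).mpr this)
  have hMne_bot : M ≠ ⊥ := by
    intro h
    apply hne
    apply le_antisymm hle
    intro b hb
    have : q b ∈ M := (hmem_iff b).mpr hb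
    rw [h, Ideal.mem_bot] at this
    exact Ideal.Quotient.eq_zero_iff_mem.mp this
  -- `z̄ ∈ M ∖ M²`
  haveI hMprime : M.IsPrime := by
    refine Ideal.map_isPrime_of_surjective hqs ?_
    rw [hq, Ideal.mk_ker]; exact hle
  have hlt : M ^ 2 < M := by
    have := Ideal.pow_succ_lt_pow hMne_bot 1
    simpa using this
  obtain ⟨zb, hzbM, hzbM2⟩ := Set.exists_of_ssubset hlt
  obtain ⟨z, rfl⟩ := hqs zb
  -- `(z̄) = M * J`
  have hdvd : M ∣ Ideal.span {q z} := by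
    rw [Ideal.dvd_iff_le, Ideal.span_le]
    rintro w rfl
    exact hzbM
  obtain ⟨J, hJ⟩ := hdvd
  have hJnle : ¬ J ≤ M := by
    intro hJM
    apply hzbM2
    have : Ideal.span {q z} ≤ M ^ 2 := by
      rw [hJ, pow_two]
      exact Ideal.mul_mono_right hJM
    exact this (Ideal.mem_span_singleton_self _)
  obtain ⟨sb, hsbJ, hsbM⟩ := Set.not_subset.mp hJnle
  obtain ⟨s, rfl⟩ := hqs sb
  refine ⟨z, ?_, ?_, ?_⟩
  · exact (hmem_iff z).mp hzbM
  · intro hz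
    apply hzbM2
    have : q z = 0 := Ideal.Quotient.eq_zero_iff_mem.mpr hz
    rw [this]; exact Ideal.zero_mem _
  · intro w hw
    have h1 : q s * q w ∈ Ideal.span {q z} := by
      rw [hJ, mul_comm (q s)]
      exact Ideal.mul_mem_mul ((hmem_iff w).mpr hw) hsbJ
    rw [Ideal.mem_span_singleton] at h1
    obtain ⟨ab, hab⟩ := h1
    obtain ⟨a, rfl⟩ := hqs ab
    refine ⟨a, s, fun hs => hsbM ((hmem_iff s).mpr hs), ?_⟩
    rw [← Ideal.Quotient.eq_zero_iff_mem, map_sub, map_mul, map_mul, hab]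
    ring

end Transfer

end Fermat.Agent.SS
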