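/-
(SS-q) package SS-KUM — helper3 — part 2: **the charts** of a finite extension `E` of `K = K₁(t)`
(`K₁ = Frac R`): `chartOne R E t` = integral closure of `R[t]` in `E` (as an `R`-subalgebra),
`chartMid R E t` = its localisation at `t` (inside `E`).  The second chart is `chartOne R E t⁻¹`.
Basic structure (integrally closed, noetherian, fraction field `E`), behaviour under a finite
Galois extension `L / F` (automorphisms, traces, descent of membership).
-/
import Mathlib
import Fermat.Agent.JA.CHARTADJ_helper7
import Fermat.Agent.JA.CHARTADJ_helper6_Integral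
import Fermat.Agent.JA.GEO_lead_Cover
import Fermat.Agent.SS.K1_helper3

set_option autoImplicit false
set_option linter.unusedSectionVars false
set_option linter.style.haveILetI false

namespace Fermat.Agent.SS

open Fermat.Agent.JA Polynomial

section Defs

variable (R : Type*) [CommRing R] {K : Type*} [Field K] [Algebra R K]
  (E : Type*) [Field E] [Algebra K E] [Algebra R E] [IsScalarTower R K E]

/-- the chart of `E` attached to the coordinate `t`: the integral closure of `R[t]` in `E`. -/
def chartOne (t : K) : Subalgebra R E :=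
  (integralClosure ↥(Algebra.adjoin R {t}) E).restrictScalars R

variable {R E}

theorem mem_chartOne_iff (t : K) (x : E) :
    x ∈ chartOne R E t ↔ IsIntegral ↥(Algebra.adjoin R {t}) x := Iff.rfl

theorem algebraMap_coord_mem_chartOne (t : K) : algebraMap K E t ∈ chartOne R E t := by
  rw [mem_chartOne_iff]
  have : algebraMap K E t = algebraMap ↥(Algebra.adjoin R {t}) E
      ⟨t, Algebra.self_mem_adjoin_singleton R t⟩ := rfl
  rw [this]
  exact isIntegral_algebraMap

variable (R E)

/-- the localisation of the chart at the coordinate, inside `E`. -/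
def chartMid (t : K) : Subalgebra R E where
  carrier := {x | ∃ n : ℕ, algebraMap K E t ^ n * x ∈ chartOne R E t}
  mul_mem' := by
    rintro x y ⟨n, hx⟩ ⟨n', hy⟩
    refine ⟨n + n', ?_⟩
    have : algebraMap K E t ^ (n + n') * (x * y) =
        (algebraMap K E t ^ n * x) * (algebraMap K E t ^ n' * y) := by ring
    rw [this]
    exact (chartOne R E t).mul_mem hx hy
  add_mem' := by
    rintro x y ⟨n, hx⟩ ⟨n', hy⟩
    refine ⟨n + n', ?_⟩
    have : algebraMap K E t ^ (n + n') * (x + y) =
        algebraMap K E t ^ n' * (algebraMap K E t ^ n * x) +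
          algebraMap K E t ^ n * (algebraMap K E t ^ n' * y) := by ring
    rw [this]
    exact (chartOne R E t).add_mem
      ((chartOne R E t).mul_mem ((chartOne R E t).pow_mem (algebraMap_coord_mem_chartOne t) _) hx)
      ((chartOne R E t).mul_mem ((chartOne R E t).pow_mem (algebraMap_coord_mem_chartOne t) _) hy)
  algebraMap_mem' := fun r => ⟨0, by
    rw [pow_zero, one_mul]; exact (chartOne R E t).algebraMap_mem r⟩

variable {R E}

theorem mem_chartMid_iff (t : K) (x : E) :
    x ∈ chartMid R E t ↔ ∃ n : ℕ, algebraMap K E t ^ n * x ∈ chartOne R E t := Iff.rfl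

theorem chartOne_le_chartMid (t : K) : chartOne R E t ≤ chartMid R E t := fun x hx =>
  ⟨0, by rw [pow_zero, one_mul]; exact hx⟩

theorem pow_mul_mem_chartOne_of_le (t : K) {x : E} {n k : ℕ} (hnk : n ≤ k)
    (hx : algebraMap K E t ^ n * x ∈ chartOne R E t) :
    algebraMap K E t ^ k * x ∈ chartOne R E t := by
  obtain ⟨d, rfl⟩ := Nat.exists_eq_add_of_le hnk
  have : algebraMap K E t ^ (n + d) * x = algebraMap K E t ^ d * (algebraMap K E t ^ n * x) := by
    ring
  rw [this]
  exact (chartOne R E t).mul_mem ((chartOne R E t).pow_mem (algebraMap_coord_mem_chartOne t) _) hx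

theorem inv_coord_mem_chartMid (t : K) (ht0 : t ≠ 0) : (algebraMap K E t)⁻¹ ∈ chartMid R E t := by
  refine ⟨1, ?_⟩
  rw [pow_one, mul_inv_cancel₀]
  · exact (chartOne R E t).one_mem
  · rw [Ne, map_eq_zero]; exact ht0

end Defs

section Two

variable {R : Type*} [CommRing R] [IsDomain R] {K : Type*} [Field K] [Algebra R K]
  {E : Type*} [Field E] [Algebra K E] [Algebra R E] [IsScalarTower R K E]

/-- an element of the second chart lies in the middle ring. -/
theorem chartOne_inv_le_chartMid (t : K) (ht0 : t ≠ 0) :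
    chartOne R E t⁻¹ ≤ chartMid R E t := by
  intro x hx
  exact exists_pow_mul_isIntegral (R := R) t ht0 x hx

/-- an element of the first chart becomes an element of the second one after multiplication by a
power of `t⁻¹`. -/
theorem exists_inv_pow_mul_mem_chartOne_inv (t : K) (ht0 : t ≠ 0) {x : E}
    (hx : x ∈ chartOne R E t) : ∃ n : ℕ, (algebraMap K E t)⁻¹ ^ n * x ∈ chartOne R E t⁻¹ := by
  have hx' : IsIntegral ↥(Algebra.adjoin R {t⁻¹⁻¹}) x := by
    rw [inv_inv]; exact hx
  obtain ⟨n, hn⟩ := exists_pow_mul_isIntegral (R := R) t⁻¹ (inv_ne_zero ht0) x hx'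
  refine ⟨n, ?_⟩
  rw [← map_inv₀]
  exact hn

/-- an element of the middle ring becomes an element of the second chart after multiplication by
a power of `t⁻¹`. -/
theorem exists_inv_pow_mul_mem_of_mem_chartMid (t : K) (ht0 : t ≠ 0) {x : E}
    (hx : x ∈ chartMid R E t) : ∃ n : ℕ, (algebraMap K E t)⁻¹ ^ n * x ∈ chartOne R E t⁻¹ := by
  obtain ⟨a, ha⟩ := hx
  obtain ⟨n, hn⟩ := exists_inv_pow_mul_mem_chartOne_inv t ht0 ha
  have htE : algebraMap K E t ≠ 0 := by rw [Ne, map_eq_zero]; exact ht0
  refine ⟨n + a, ?_⟩
  have h2 : (algebraMap K E t)⁻¹ ^ (n + a) * x =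
      (algebraMap K E t)⁻¹ ^ a * (algebraMap K E t)⁻¹ ^ a *
        ((algebraMap K E t)⁻¹ ^ n * (algebraMap K E t ^ a * x)) * 1 := by
    rw [mul_one, pow_add]
    have h3 : (algebraMap K E t)⁻¹ ^ a * algebraMap K E t ^ a = 1 := by
      rw [← mul_pow, inv_mul_cancel₀ htE, one_pow]
    calc (algebraMap K E t)⁻¹ ^ n * (algebraMap K E t)⁻¹ ^ a * x
        = (algebraMap K E t)⁻¹ ^ n * (algebraMap K E t)⁻¹ ^ a * x * 1 := by rw [mul_one]
      _ = (algebraMap K E t)⁻¹ ^ n * (algebraMap K E t)⁻¹ ^ a * x *
            ((algebraMap K E t)⁻¹ ^ a * algebraMap K E t ^ a) := by rw [h3]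
      _ = _ := by ring
  rw [h2, mul_one]
  have hinv : (algebraMap K E t)⁻¹ ∈ chartOne R E t⁻¹ := by
    rw [← map_inv₀]; exact algebraMap_coord_mem_chartOne t⁻¹
  exact (chartOne R E t⁻¹).mul_mem
    ((chartOne R E t⁻¹).mul_mem ((chartOne R E t⁻¹).pow_mem hinv _)
      ((chartOne R E t⁻¹).pow_mem hinv _)) hn

end Two

section Structure

variable {R : Type*} [CommRing R] [IsDomain R] [IsIntegrallyClosed R] [IsNoetherianRing R]
  [CharZero R] {K₁ : Type*} [Field K₁] [Algebra R K₁]
  [IsFractionRing R K₁] {K : Type*} [Field K] [Algebra K₁ K] [Algebra R K] [IsScalarTower R K₁ K]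
  {E : Type*} [Field E] [Algebra K E] [Algebra R E] [IsScalarTower R K E] [FiniteDimensional K E]

theorem isFractionRing_chartOne (t : K) (hK : IntermediateField.adjoin K₁ {t} = ⊤) :
    IsFractionRing ↥(chartOne R E t) E := by
  haveI : IsFractionRing ↥(Algebra.adjoin R {t}) K := isFractionRing_adjoin (R := R) t hK
  exact integralClosure.isFractionRing_of_finite_extension K E

theorem isIntegrallyClosed_chartOne (t : K) (hK : IntermediateField.adjoin K₁ {t} = ⊤) :
    IsIntegrallyClosed ↥(chartOne R E t) := by
  haveI : IsFractionRing ↥(Algebra.adjoin R {t}) K := isFractionRing_adjoin (R := R) t hK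
  exact integralClosure.isIntegrallyClosedOfFiniteExtension K

theorem isNoetherianRing_chartOne (t : K) (ht : Transcendental K₁ t)
    (hK : IntermediateField.adjoin K₁ {t} = ⊤) : IsNoetherianRing ↥(chartOne R E t) := by
  haveI : IsFractionRing ↥(Algebra.adjoin R {t}) K := isFractionRing_adjoin (R := R) t hK
  haveI : IsIntegrallyClosed ↥(Algebra.adjoin R {t}) := isIntegrallyClosed_adjoin (R := R) t ht
  haveI : IsNoetherianRing ↥(Algebra.adjoin R {t}) := isNoetherianRing_adjoin (R := R) t ht
  have hinj : Function.Injective (algebraMap R K) := by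
    rw [IsScalarTower.algebraMap_eq R K₁ K]
    exact (algebraMap K₁ K).injective.comp (IsFractionRing.injective R K₁)
  haveI : CharZero K := charZero_of_injective_algebraMap hinj
  haveI : Algebra.IsSeparable K E := Algebra.IsAlgebraic.isSeparable_of_perfectField
  haveI : Module.Finite ↥(Algebra.adjoin R {t}) ↥(integralClosure ↥(Algebra.adjoin R {t}) E) :=
    IsIntegralClosure.finite ↥(Algebra.adjoin R {t}) K E _
  exact IsNoetherianRing.of_finite ↥(Algebra.adjoin R {t})
    ↥(integralClosure ↥(Algebra.adjoin R {t}) E)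

end Structure

section Galois

variable {R : Type*} [CommRing R] [IsDomain R] {K : Type*} [Field K] [Algebra R K]
  {F : Type*} [Field F] [Algebra K F] [Algebra R F] [IsScalarTower R K F]
  {L : Type*} [Field L] [Algebra K L] [Algebra R L] [IsScalarTower R K L] [Algebra F L]
  [IsScalarTower K F L]

/-- membership in the chart descends along `F → L`. -/
theorem algebraMap_mem_chartOne_iff (t : K) (x : F) :
    algebraMap F L x ∈ chartOne R L t ↔ x ∈ chartOne R F t :=
  isIntegral_algebraMap_iff (algebraMap F L).injective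

/-- `F`-automorphisms of `L` preserve the chart. -/
theorem algEquiv_mem_chartOne (t : K) (g : L ≃ₐ[F] L) {x : L} (hx : x ∈ chartOne R L t) :
    g x ∈ chartOne R L t := by
  rw [mem_chartOne_iff] at hx ⊢
  exact hx.map ((g : L →ₐ[F] L).restrictScalars ↥(Algebra.adjoin R {t}))

/-- the trace of an element of the chart of `L` lies in the chart of `F`. -/
theorem trace_mem_chartOne [FiniteDimensional F L] (t : K) {x : L} (hx : x ∈ chartOne R L t) :
    Algebra.trace F L x ∈ chartOne R F t := by
  rw [mem_chartOne_iff] at hx ⊢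
  exact Algebra.isIntegral_trace hx

end Galois

end Fermat.Agent.SS
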