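/-
(SS-q) package SS-KUM — helper3 — part 7: **congruences at a prime of a subalgebra of a field**:
`CongAt B 𝔔 z ξ` says that `z ∈ L` is congruent to the constant `ξ ∈ R` in the local ring of the
prime `𝔔` of `B ⊆ L` (elementwise: `z = a / b`, `b ∉ 𝔔`, `a - ξ b ∈ 𝔔`).  Uniqueness of the
constant, transfer along ratios `≡ 1`, existence of a root of unity from an `m`-th power
congruence, behaviour under automorphisms; roots of unity congruent to `1` are equal to `1`.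
-/
import Mathlib

set_option autoImplicit false
set_option linter.unusedSectionVars false
set_option linter.style.haveILetI false

namespace Fermat.Agent.SS

open Finset

/-- an `m`-th root of unity congruent to `1` modulo a proper ideal is `1`, if `m` is invertible. -/
theorem eq_one_of_pow_eq_one_of_sub_one_mem {A : Type*} [CommRing A] [IsDomain A] {m : ℕ}
    (hmA : IsUnit (m : A)) (I : Ideal A) (hI : I ≠ ⊤) (ω : A) (hω : ω ^ m = 1)
    (h : ω - 1 ∈ I) : ω = 1 := by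
  by_contra hne
  have h1 : (ω - 1) * ∑ j ∈ range m, ω ^ j = 0 := by
    rw [mul_comm, geom_sum_mul, hω, sub_self]
  have h2 : ∑ j ∈ range m, ω ^ j = 0 := (mul_eq_zero.1 h1).resolve_left (sub_ne_zero.2 hne)
  have h3 : ∑ j ∈ range m, (ω ^ j - 1) ∈ I := by
    refine Ideal.sum_mem _ fun j _ => ?_
    obtain ⟨q, hq⟩ := sub_dvd_pow_sub_pow ω 1 j
    rw [one_pow] at hq
    rw [hq]
    exact I.mul_mem_right _ h
  rw [Finset.sum_sub_distrib, h2, Finset.sum_const, Finset.card_range, nsmul_eq_mul, mul_one,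
    zero_sub, neg_mem_iff] at h3
  exact hI (Ideal.eq_top_of_isUnit_mem _ h3 hmA)

/-- two `m`-th roots of unity congruent modulo a proper ideal are equal. -/
theorem eq_of_pow_eq_one_of_sub_mem {A : Type*} [CommRing A] [IsDomain A] {m : ℕ} (hm : 0 < m)
    (hmA : IsUnit (m : A)) (I : Ideal A) (hI : I ≠ ⊤) (ξ ξ' : A) (hξ : ξ ^ m = 1)
    (hξ' : ξ' ^ m = 1) (h : ξ - ξ' ∈ I) : ξ = ξ' := by
  have h1 : ξ' * ξ' ^ (m - 1) = 1 := by
    rw [← pow_succ', Nat.sub_add_cancel hm, hξ']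
  have h2 : ξ * ξ' ^ (m - 1) = 1 := by
    apply eq_one_of_pow_eq_one_of_sub_one_mem hmA I hI
    · rw [mul_pow, hξ, one_mul, ← pow_mul, mul_comm, pow_mul, hξ', one_pow]
    · have : ξ * ξ' ^ (m - 1) - 1 = (ξ - ξ') * ξ' ^ (m - 1) := by
        rw [sub_mul, h1]
      rw [this]
      exact I.mul_mem_right _ h
  calc ξ = ξ * (ξ' * ξ' ^ (m - 1)) := by rw [h1, mul_one]
    _ = ξ' * (ξ * ξ' ^ (m - 1)) := by ring
    _ = ξ' := by rw [h2, mul_one]

/-- a prime ideal containing `a ^ m - e ^ m` contains some `a - ζ ^ i e`. -/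
theorem exists_sub_pow_mul_mem_of_pow_sub_pow_mem {A : Type*} [CommRing A] [IsDomain A] {m : ℕ}
    (hm : 0 < m) {ζ : A} (hζ : IsPrimitiveRoot ζ m) (𝔔 : Ideal A) [𝔔.IsPrime] (a e : A)
    (h : a ^ m - e ^ m ∈ 𝔔) : ∃ i < m, a - ζ ^ i * e ∈ 𝔔 := by
  haveI : NeZero m := ⟨hm.ne'⟩
  rw [hζ.pow_sub_pow_eq_prod_sub_mul a e hm] at h
  obtain ⟨μ, hμ, hmem⟩ := Ideal.IsPrime.prod_mem_iff.1 h
  have hμ1 : μ ^ m = 1 := (Polynomial.mem_nthRootsFinset hm 1).1 hμ
  obtain ⟨i, hi, rfl⟩ := hζ.eq_pow_of_pow_eq_one hμ1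
  exact ⟨i, hi, hmem⟩

section CongAt

variable {R : Type*} [CommRing R] {L : Type*} [CommRing L] [Algebra R L]

/-- `z` is congruent to the constant `ξ` in the local ring of `B` at `𝔔`. -/
def CongAt (B : Subalgebra R L) (𝔔 : Ideal ↥B) (z : L) (ξ : R) : Prop :=
  ∃ a b : ↥B, b ∉ 𝔔 ∧ z * (b : L) = (a : L) ∧ a - algebraMap R ↥B ξ * b ∈ 𝔔

variable {B : Subalgebra R L} {𝔔 : Ideal ↥B}

theorem CongAt.of_mem {z : L} {ξ : R} (a e : ↥B) (he : e ∉ 𝔔) (hz : z * (e : L) = (a : L))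
    (h : a - algebraMap R ↥B ξ * e ∈ 𝔔) : CongAt B 𝔔 z ξ := ⟨a, e, he, hz, h⟩

/-- uniqueness of the constant. -/
theorem CongAt.sub_mem [𝔔.IsPrime] {z : L} {ξ ξ' : R} (h : CongAt B 𝔔 z ξ)
    (h' : CongAt B 𝔔 z ξ') : algebraMap R ↥B (ξ - ξ') ∈ 𝔔 := by
  obtain ⟨a, b, hb, hz, hab⟩ := h
  obtain ⟨a', b', hb', hz', hab'⟩ := h'
  have hcross : a * b' = a' * b := by
    apply Subtype.ext
    push_cast
    rw [← hz, ← hz']
    ring
  have hkey : algebraMap R ↥B (ξ - ξ') * (b * b') =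
      (a' - algebraMap R ↥B ξ' * b') * b - (a - algebraMap R ↥B ξ * b) * b' := by
    rw [map_sub]
    linear_combination hcross
  have hmem : algebraMap R ↥B (ξ - ξ') * (b * b') ∈ 𝔔 := by
    rw [hkey]
    exact 𝔔.sub_mem (𝔔.mul_mem_right _ hab') (𝔔.mul_mem_right _ hab)
  rcases Ideal.IsPrime.mem_or_mem inferInstance hmem with h1 | h1
  · exact h1
  · rcases Ideal.IsPrime.mem_or_mem inferInstance h1 with h2 | h2
    · exact absurd h2 hb
    · exact absurd h2 hb'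

/-- transfer along a ratio congruent to `1`. -/
theorem CongAt.of_mul_eq [𝔔.IsPrime] {z z' : L} {ξ : R} (h' : CongAt B 𝔔 z' ξ) (p q : ↥B)
    (hq : q ∉ 𝔔) (hpq : p - q ∈ 𝔔) (hz : z * (q : L) = z' * (p : L)) : CongAt B 𝔔 z ξ := by
  obtain ⟨a', b', hb', hz', hab'⟩ := h'
  refine ⟨a' * p, q * b', ?_, ?_, ?_⟩
  · intro hmem
    rcases Ideal.IsPrime.mem_or_mem inferInstance hmem with h1 | h1
    · exact hq h1
    · exact hb' h1
  · push_cast
    rw [← hz']
    linear_combination (b' : L) * hz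
  · have : a' * p - algebraMap R ↥B ξ * (q * b') =
        (a' - algebraMap R ↥B ξ * b') * p + algebraMap R ↥B ξ * b' * (p - q) := by ring
    rw [this]
    exact 𝔔.add_mem (𝔔.mul_mem_right _ hab') (𝔔.mul_mem_left _ hpq)

/-- reading off the congruence on any representation of `z` as a fraction. -/
theorem CongAt.mem_of_mul_eq [𝔔.IsPrime] {z : L} {ξ : R} (h : CongAt B 𝔔 z ξ) (a e : ↥B)
    (hz : z * (e : L) = (a : L)) : a - algebraMap R ↥B ξ * e ∈ 𝔔 := by
  obtain ⟨a', b', hb', hz', hab'⟩ := h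
  have hcross : a * b' = a' * e := by
    apply Subtype.ext
    push_cast
    rw [← hz, ← hz']
    ring
  have hmem : (a - algebraMap R ↥B ξ * e) * b' ∈ 𝔔 := by
    have : (a - algebraMap R ↥B ξ * e) * b' = e * (a' - algebraMap R ↥B ξ * b') := by
      linear_combination hcross
    rw [this]
    exact 𝔔.mul_mem_left _ hab'
  exact (Ideal.IsPrime.mem_or_mem inferInstance hmem).resolve_right hb'

/-- multiplication by a constant. -/
theorem CongAt.const_mul {z : L} {ξ : R} (h : CongAt B 𝔔 z ξ) (c : R) :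
    CongAt B 𝔔 (algebraMap R L c * z) (c * ξ) := by
  obtain ⟨a, b, hb, hz, hab⟩ := h
  refine ⟨algebraMap R ↥B c * a, b, hb, ?_, ?_⟩
  · push_cast
    rw [← hz]
    ring
  · have : algebraMap R ↥B c * a - algebraMap R ↥B (c * ξ) * b =
        algebraMap R ↥B c * (a - algebraMap R ↥B ξ * b) := by
      rw [map_mul]; ring
    rw [this]
    exact 𝔔.mul_mem_left _ hab

/-- behaviour under an endomorphism preserving `B`. -/
theorem CongAt.map {z : L} {ξ : R} (θ : L →+* L) (θB : ↥B →+* ↥B)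
    (hθ : ∀ x : ↥B, ((θB x : ↥B) : L) = θ (x : L))
    (hθR : ∀ r : R, θB (algebraMap R ↥B r) = algebraMap R ↥B r)
    (h : CongAt B (𝔔.comap θB) z ξ) : CongAt B 𝔔 (θ z) ξ := by
  obtain ⟨a, b, hb, hz, hab⟩ := h
  refine ⟨θB a, θB b, hb, ?_, ?_⟩
  · rw [hθ, hθ, ← map_mul, hz]
  · have := hab
    rw [Ideal.mem_comap, map_sub, map_mul, hθR] at this
    exact this

end CongAt

section MinimalComap

variable {A : Type*} [CommRing A]

/-- the preimage of a prime minimal over `π` under an automorphism fixing `π` is minimal over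
`π`. -/
theorem comap_mem_minimalPrimes_of_inverse (θ θ' : A →+* A) (h₁ : ∀ x, θ (θ' x) = x)
    (h₂ : ∀ x, θ' (θ x) = x) (π : A) (hπ : θ π = π) (hπ' : θ' π = π) (𝔓 : Ideal A)
    (h𝔓 : 𝔓 ∈ (Ideal.span {π}).minimalPrimes) :
    𝔓.comap θ ∈ (Ideal.span {π}).minimalPrimes := by
  haveI : 𝔓.IsPrime := h𝔓.1.1
  have hπ𝔓 : π ∈ 𝔓 := h𝔓.1.2 (Ideal.subset_span (Set.mem_singleton _))
  refine ⟨⟨Ideal.comap_isPrime _ _, ?_⟩, ?_⟩
  · rw [Ideal.span_le, Set.singleton_subset_iff]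
    change θ π ∈ 𝔓
    rw [hπ]
    exact hπ𝔓
  · rintro 𝔔 ⟨h𝔔prime, h𝔔π⟩ h𝔔le
    haveI := h𝔔prime
    have hπ𝔔 : π ∈ 𝔔 := h𝔔π (Ideal.subset_span (Set.mem_singleton _))
    have h1 : 𝔔.comap θ' ≤ 𝔓 := by
      intro x hx
      have := h𝔔le hx
      rwa [Ideal.mem_comap, h₁] at this
    have h2 : 𝔓 ≤ 𝔔.comap θ' := by
      refine h𝔓.2 ⟨Ideal.comap_isPrime _ _, ?_⟩ h1
      rw [Ideal.span_le, Set.singleton_subset_iff]
      change θ' π ∈ 𝔔
      rw [hπ']
      exact hπ𝔔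
    intro x hx
    have := h2 hx
    rwa [Ideal.mem_comap, h₂] at this

end MinimalComap

end Fermat.Agent.SS
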