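/-
(SS-q) package SS-KUM — helper3 — part 1: **Kummer trace decomposition** and the **constants of a
Kummer extension**.

`L / F` finite Galois, `β ∈ L` with `β ^ m ∈ F` and such that only the identity of `Gal(L/F)`
fixes `β` (e.g. `L = F(β)`).

* `kummer_trace_decomp` : `m • x = ∑_{j < m} Tr_{L/F}(x β⁻ʲ) β ʲ` for every `x ∈ L`;
* `mem_range_of_isAlgebraic_kummer` : if `K₁` is algebraically closed in `F`, `F` has a
  "leading coefficient" character `lc : Fˣ →* K₁ˣ` (identity on constants), `K₁ ∋ ζ_m` and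
  `β ^ m = u` with `lc u = 1`, then `K₁` is algebraically closed in `L`.
-/
import Mathlib

set_option autoImplicit false
set_option linter.unusedSectionVars false
set_option linter.style.haveILetI false

namespace Fermat.Agent.SS

open Finset

/-- geometric sum of an `m`-th root of unity in a domain. -/
theorem geom_sum_of_pow_eq_one {A : Type*} [CommRing A] [IsDomain A] [DecidableEq A] {χ : A}
    {m : ℕ} (hχ : χ ^ m = 1) : ∑ j ∈ range m, χ ^ j = if χ = 1 then (m : A) else 0 := by
  split_ifs with h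
  · subst h
    simp
  · have h1 : (χ - 1) * ∑ j ∈ range m, χ ^ j = 0 := by
      rw [mul_comm, geom_sum_mul, hχ, sub_self]
    exact (mul_eq_zero.1 h1).resolve_left (sub_ne_zero.2 h)

section Decomp

variable {F L : Type*} [Field F] [Field L] [Algebra F L] [FiniteDimensional F L] [IsGalois F L]

/-- the twisted traces of `x`, as sums over the Galois group. -/
theorem algebraMap_trace_mul_inv_pow (x β : L) (j : ℕ) :
    algebraMap F L (Algebra.trace F L (x * β⁻¹ ^ j)) * β ^ j =
      ∑ g : L ≃ₐ[F] L, g x * (β * (g β)⁻¹) ^ j := by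
  rw [trace_eq_sum_automorphisms, Finset.sum_mul]
  refine Finset.sum_congr rfl (fun g _ => ?_)
  rw [map_mul, map_pow, map_inv₀, mul_pow, mul_assoc, inv_pow]
  congr 1
  rw [mul_comm]

/-- **Kummer trace decomposition.** -/
theorem kummer_trace_decomp {m : ℕ} (β : L) (hβ0 : β ≠ 0) (u : F)
    (hβ : β ^ m = algebraMap F L u) (hfix : ∀ g : L ≃ₐ[F] L, g β = β → g = 1) (x : L) :
    (m : L) * x =
      ∑ j ∈ range m, algebraMap F L (Algebra.trace F L (x * β⁻¹ ^ j)) * β ^ j := by
  classical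
  have h1 : ∀ j, algebraMap F L (Algebra.trace F L (x * β⁻¹ ^ j)) * β ^ j =
      ∑ g : L ≃ₐ[F] L, g x * (β * (g β)⁻¹) ^ j := fun j => algebraMap_trace_mul_inv_pow x β j
  simp_rw [h1]
  rw [Finset.sum_comm]
  simp_rw [← Finset.mul_sum]
  have h2 : ∀ g : L ≃ₐ[F] L, (β * (g β)⁻¹) ^ m = 1 := by
    intro g
    rw [mul_pow, inv_pow, ← map_pow, hβ, AlgEquiv.commutes, ← hβ]
    exact mul_inv_cancel₀ (pow_ne_zero _ hβ0)
  have h3 : ∀ g : L ≃ₐ[F] L, g x * ∑ j ∈ range m, (β * (g β)⁻¹) ^ j =
      if g = 1 then (m : L) * x else 0 := by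
    intro g
    rw [geom_sum_of_pow_eq_one (h2 g)]
    have hgβ0 : g β ≠ 0 := by
      rw [Ne, map_eq_zero_iff _ g.injective]; exact hβ0
    have hiff : β * (g β)⁻¹ = 1 ↔ g = 1 := by
      constructor
      · intro h
        apply hfix
        have := congrArg (· * g β) h
        simp only [inv_mul_cancel_right₀ hgβ0, one_mul] at this
        exact this.symm
      · rintro rfl
        simp [hβ0]
    by_cases hg : g = 1
    · rw [if_pos hg, if_pos (hiff.2 hg), hg, AlgEquiv.one_apply, mul_comm]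
    · rw [if_neg hg, if_neg (fun h => hg (hiff.1 h)), mul_zero]
  simp_rw [h3]
  rw [Finset.sum_ite_eq' Finset.univ (1 : L ≃ₐ[F] L)]
  simp

end Decomp

section Constants

variable {K₁ F L : Type*} [Field K₁] [Field F] [Field L] [Algebra K₁ F] [Algebra F L]
  [Algebra K₁ L] [IsScalarTower K₁ F L] [FiniteDimensional F L] [IsGalois F L]

/-- **constants of a Kummer extension.** -/
theorem mem_range_of_isAlgebraic_kummer
    (hM4 : ∀ x : F, IsAlgebraic K₁ x → x ∈ Set.range (algebraMap K₁ F))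
    (lc : Fˣ →* K₁ˣ) (hlc : ∀ c : K₁ˣ, lc (Units.map (algebraMap K₁ F).toMonoidHom c) = c)
    {m : ℕ} (ζ : K₁) (hζ : IsPrimitiveRoot ζ m) (hm : 0 < m)
    (β : L) (u : Fˣ) (hβ : β ^ m = algebraMap F L (u : F)) (hu : lc u = 1)
    (hfix : ∀ g : L ≃ₐ[F] L, g β = β → g = 1)
    (x : L) (hx : IsAlgebraic K₁ x) : x ∈ Set.range (algebraMap K₁ L) := by
  classical
  have hβ0 : β ≠ 0 := by
    rintro rfl
    rw [zero_pow hm.ne'] at hβ
    exact u.ne_zero ((map_eq_zero_iff _ (algebraMap F L).injective).1 hβ.symm)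
  have hmK : (m : K₁) ≠ 0 := by
    haveI : NeZero m := ⟨hm.ne'⟩
    exact (hζ.neZero' (R := K₁)).out
  have hxi : IsIntegral K₁ x := hx.isIntegral
  -- the components
  have hcomp : ∀ j, algebraMap F L (Algebra.trace F L (x * β⁻¹ ^ j)) * β ^ j ∈
      Set.range (algebraMap K₁ L) := by
    intro j
    set T : F := Algebra.trace F L (x * β⁻¹ ^ j) with hT
    -- integrality of the component
    have hint : IsIntegral K₁ (algebraMap F L T * β ^ j) := by
      rw [algebraMap_trace_mul_inv_pow]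
      refine IsIntegral.sum _ (fun g _ => ?_)
      refine IsIntegral.mul ?_ (IsIntegral.pow ?_ j)
      · exact hxi.map (g.toAlgHom.restrictScalars K₁)
      · have h1 : (β * (g β)⁻¹) ^ m = 1 := by
          rw [mul_pow, inv_pow, ← map_pow, hβ, AlgEquiv.commutes, ← hβ]
          exact mul_inv_cancel₀ (pow_ne_zero _ hβ0)
        exact IsIntegral.of_pow hm (h1 ▸ isIntegral_one)
    by_cases hT0 : T = 0
    · rw [hT0, map_zero, zero_mul]
      exact ⟨0, map_zero _⟩
    -- the `m`-th power lies in `F`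
    have hpow : (algebraMap F L T * β ^ j) ^ m = algebraMap F L (T ^ m * (u : F) ^ j) := by
      rw [mul_pow, ← pow_mul, mul_comm j m, pow_mul, hβ, map_mul, map_pow, map_pow]
    have hint2 : IsIntegral K₁ (T ^ m * (u : F) ^ j) := by
      have := hint.pow m
      rw [hpow] at this
      exact (isIntegral_algebraMap_iff (algebraMap F L).injective).1 this
    obtain ⟨r, hr⟩ := hM4 _ hint2.isAlgebraic
    have hr0 : r ≠ 0 := by
      rintro rfl
      rw [map_zero] at hr
      exact mul_ne_zero (pow_ne_zero _ hT0) (pow_ne_zero _ u.ne_zero) hr.symm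
    -- apply `lc`
    set Tu : Fˣ := Units.mk0 T hT0 with hTu
    have h1 : lc (Units.map (algebraMap K₁ F).toMonoidHom (Units.mk0 r hr0)) =
        lc (Tu ^ m * u ^ j) := by
      congr 1
      apply Units.ext
      simp only [Units.coe_map, Units.val_mk0, Units.val_mul, Units.val_pow_eq_pow_val, hTu]
      exact hr
    rw [hlc, map_mul, map_pow, map_pow, hu, one_pow, mul_one] at h1
    set ρ : K₁ := ((lc Tu : K₁ˣ) : K₁) with hρ
    have hrρ : r = ρ ^ m := by
      have := congrArg (fun c : K₁ˣ => (c : K₁)) h1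
      simpa using this
    have hρ0 : ρ ≠ 0 := (lc Tu).ne_zero
    -- conclude
    have h2 : (algebraMap F L T * β ^ j) ^ m = (algebraMap K₁ L ρ) ^ m := by
      rw [hpow, ← hr, hrρ, map_pow, map_pow, ← IsScalarTower.algebraMap_apply]
    have hρL0 : algebraMap K₁ L ρ ≠ 0 := by
      rw [Ne, map_eq_zero_iff _ (algebraMap K₁ L).injective]; exact hρ0
    have h3 : ((algebraMap F L T * β ^ j) * (algebraMap K₁ L ρ)⁻¹) ^ m = 1 := by
      rw [mul_pow, h2, inv_pow]
      exact mul_inv_cancel₀ (pow_ne_zero _ hρL0)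
    have hζL : IsPrimitiveRoot (algebraMap K₁ L ζ) m :=
      hζ.map_of_injective (algebraMap K₁ L).injective
    haveI : NeZero m := ⟨hm.ne'⟩
    obtain ⟨i, -, hi⟩ := hζL.eq_pow_of_pow_eq_one h3
    refine ⟨ζ ^ i * ρ, ?_⟩
    rw [map_mul, map_pow, hi, inv_mul_cancel_right₀ hρL0]
  -- sum up
  have hsum := kummer_trace_decomp (F := F) β hβ0 (u : F) hβ hfix x
  have hmem : (m : L) * x ∈ Set.range (algebraMap K₁ L) := by
    rw [hsum]
    have : ∀ s : Finset ℕ, ∑ j ∈ s, algebraMap F L (Algebra.trace F L (x * β⁻¹ ^ j)) * β ^ j ∈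
        Set.range (algebraMap K₁ L) := by
      intro s
      induction s using Finset.induction_on with
      | empty => exact ⟨0, by simp⟩
      | insert a s ha ih =>
        rw [Finset.sum_insert ha]
        obtain ⟨c₁, hc₁⟩ := hcomp a
        obtain ⟨c₂, hc₂⟩ := ih
        exact ⟨c₁ + c₂, by rw [map_add, hc₁, hc₂]⟩
    exact this _
  obtain ⟨c, hc⟩ := hmem
  refine ⟨(m : K₁)⁻¹ * c, ?_⟩
  have hmL : (m : L) ≠ 0 := by
    have : (m : L) = algebraMap K₁ L (m : K₁) := by simp
    rw [this, Ne, map_eq_zero_iff _ (algebraMap K₁ L).injective]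
    exact hmK
  rw [map_mul, hc, map_inv₀, map_natCast]
  field_simp

end Constants

end Fermat.Agent.SS
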