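/-
(SS-q) package SS-KUM — helper3 — part 3: **the special fibre of the chart of a Kummer extension
is reduced.**

`L = F(α)`, `α ^ m = f`; if the special fibre `B / π B` of the chart `B` of `F` is reduced and `f`
is, at every prime `𝔭` of `B` minimal over `π`, a unit times an `m`-th power (`f d = s ^ m c`,
`c, d ∉ 𝔭`), `m` invertible, then the special fibre of the chart `B̃` of `L` is reduced.
-/
import Fermat.Agent.SS.KUM_helper3_Charts
import Fermat.Agent.SS.KUM_helper3_Trace

set_option autoImplicit false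
set_option linter.unusedSectionVars false
set_option linter.style.haveILetI false

namespace Fermat.Agent.SS

open Fermat.Agent.JA Polynomial Finset

section ChartMap

variable {R : Type*} [CommRing R] [IsDomain R] {K : Type*} [Field K] [Algebra R K]
  {F : Type*} [Field F] [Algebra K F] [Algebra R F] [IsScalarTower R K F]
  {L : Type*} [Field L] [Algebra K L] [Algebra R L] [IsScalarTower R K L] [Algebra F L]
  [IsScalarTower K F L]

omit [IsDomain R] in
include K in
theorem algebraMap_algebraMap_eq (r : R) : algebraMap F L (algebraMap R F r) = algebraMap R L r := by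
  rw [IsScalarTower.algebraMap_apply R K F, ← IsScalarTower.algebraMap_apply K F L,
    ← IsScalarTower.algebraMap_apply R K L]

/-- the inclusion of the chart of `F` into the chart of `L`. -/
def chartMap (t : K) : ↥(chartOne R F t) →+* ↥(chartOne R L t) where
  toFun x := ⟨algebraMap F L x, (algebraMap_mem_chartOne_iff t (x : F)).2 x.2⟩
  map_one' := Subtype.ext (by simp)
  map_mul' x y := Subtype.ext (by simp)
  map_zero' := Subtype.ext (by simp)
  map_add' x y := Subtype.ext (by simp)

theorem coe_chartMap (t : K) (x : ↥(chartOne R F t)) :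
    ((chartMap (L := L) t x : ↥(chartOne R L t)) : L) = algebraMap F L (x : F) := rfl

theorem chartMap_algebraMap (t : K) (r : R) :
    chartMap (L := L) t (algebraMap R ↥(chartOne R F t) r) = algebraMap R ↥(chartOne R L t) r := by
  apply Subtype.ext
  change algebraMap F L (algebraMap R F r) = algebraMap R L r
  exact algebraMap_algebraMap_eq (K := K) r

theorem chartMap_injective (t : K) :
    Function.Injective (chartMap (R := R) (F := F) (L := L) t) := by
  intro x y h
  apply Subtype.ext
  have := congrArg (fun z : ↥(chartOne R L t) => (z : L)) h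
  exact (algebraMap F L).injective this

theorem chartMap_isIntegral (t : K) (y : ↥(chartOne R L t)) :
    (chartMap (R := R) (F := F) (L := L) t).IsIntegralElem y := by
  obtain ⟨p, hp, hpy⟩ := (mem_chartOne_iff t (y : L)).1 y.2
  let j : ↥(Algebra.adjoin R {t}) →+* ↥(chartOne R F t) :=
    { toFun := fun a => ⟨algebraMap ↥(Algebra.adjoin R {t}) F a, isIntegral_algebraMap⟩
      map_one' := Subtype.ext (by simp)
      map_mul' := fun x y => Subtype.ext (by simp)
      map_zero' := Subtype.ext (by simp)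
      map_add' := fun x y => Subtype.ext (by simp) }
  refine ⟨p.map j, hp.map j, ?_⟩
  rw [eval₂_map]
  apply Subtype.ext
  have h1 : ((eval₂ ((chartMap (R := R) (F := F) (L := L) t).comp j) y p :
      ↥(chartOne R L t)) : L) = eval₂ (algebraMap ↥(Algebra.adjoin R {t}) L) (y : L) p := by
    have := Polynomial.hom_eval₂ p ((chartMap (R := R) (F := F) (L := L) t).comp j)
      (chartOne R L t).val.toRingHom y
    change ((eval₂ ((chartMap (R := R) (F := F) (L := L) t).comp j) y p :
      ↥(chartOne R L t)) : L)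
      = eval₂ ((chartOne R L t).val.toRingHom.comp ((chartMap t).comp j)) (y : L) p at this
    rw [this]
    congr 1
    ext a
    change algebraMap F L (algebraMap ↥(Algebra.adjoin R {t}) F a) = _
    rw [← IsScalarTower.algebraMap_apply]
  rw [h1, hpy]
  rfl

end ChartMap

section GoingDown

variable {R : Type*} [CommRing R] [IsDomain R] [IsIntegrallyClosed R] [IsNoetherianRing R]
  [CharZero R] {K₁ : Type*} [Field K₁] [Algebra R K₁]
  [IsFractionRing R K₁] {K : Type*} [Field K] [Algebra K₁ K] [Algebra R K] [IsScalarTower R K₁ K]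
  {F : Type*} [Field F] [Algebra K F] [Algebra R F] [IsScalarTower R K F] [FiniteDimensional K F]
  {L : Type*} [Field L] [Algebra K L] [Algebra R L] [IsScalarTower R K L] [Algebra F L]
  [IsScalarTower K F L] [FiniteDimensional K L]

/-- a height-one prime of the chart of `L` containing `π` lies over a prime of the chart of `F`
minimal over `π` (going down). -/
theorem comap_chartMap_mem_minimalPrimes (t : K) (ht : Transcendental K₁ t)
    (hK : IntermediateField.adjoin K₁ {t} = ⊤) (π : R)
    (hπ : algebraMap R L π ≠ 0)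
    (P : Ideal ↥(chartOne R L t)) [P.IsPrime] (hP : P.height = 1)
    (hπP : algebraMap R ↥(chartOne R L t) π ∈ P) :
    P.comap (chartMap (F := F) t) ∈
      (Ideal.span {algebraMap R ↥(chartOne R F t) π}).minimalPrimes := by
  haveI : IsIntegrallyClosed ↥(chartOne R F t) := isIntegrallyClosed_chartOne (K₁ := K₁) t hK
  haveI : IsNoetherianRing ↥(chartOne R L t) := isNoetherianRing_chartOne (K₁ := K₁) t ht hK
  letI : Algebra ↥(chartOne R F t) ↥(chartOne R L t) := (chartMap (F := F) (L := L) t).toAlgebra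
  haveI : FaithfulSMul ↥(chartOne R F t) ↥(chartOne R L t) :=
    (faithfulSMul_iff_algebraMap_injective _ _).2 (chartMap_injective t)
  haveI : Algebra.IsIntegral ↥(chartOne R F t) ↥(chartOne R L t) := ⟨chartMap_isIntegral t⟩
  set 𝔭 : Ideal ↥(chartOne R F t) := P.comap (chartMap (F := F) t) with h𝔭
  have hle : Ideal.span {algebraMap R ↥(chartOne R F t) π} ≤ 𝔭 := by
    rw [Ideal.span_le, Set.singleton_subset_iff]
    change chartMap t (algebraMap R ↥(chartOne R F t) π) ∈ P
    rw [chartMap_algebraMap]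
    exact hπP
  obtain ⟨𝔭₀, h𝔭₀, h𝔭₀le⟩ := Ideal.exists_minimalPrimes_le hle
  haveI : 𝔭₀.IsPrime := h𝔭₀.1.1
  haveI : 𝔭.IsPrime := Ideal.comap_isPrime _ _
  haveI : P.LiesOver 𝔭 := ⟨rfl⟩
  obtain ⟨P₀, hP₀le, hP₀prime, hP₀over⟩ := Ideal.exists_ideal_le_liesOver_of_le P h𝔭₀le
  have hP₀π : algebraMap R ↥(chartOne R L t) π ∈ P₀ := by
    have h1 : algebraMap R ↥(chartOne R F t) π ∈ 𝔭₀ :=
      h𝔭₀.1.2 (Ideal.subset_span (Set.mem_singleton _))
    rw [hP₀over.over] at h1
    change chartMap t (algebraMap R ↥(chartOne R F t) π) ∈ P₀ at h1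
    rwa [chartMap_algebraMap] at h1
  have hP₀ne : P₀ ≠ ⊥ := by
    intro h
    rw [h, Ideal.mem_bot] at hP₀π
    apply hπ
    have := congrArg (fun z : ↥(chartOne R L t) => (z : L)) hP₀π
    exact this
  have hP₀eq : P₀ = P := by
    by_contra hne
    have hlt : P₀ < P := lt_of_le_of_ne hP₀le hne
    have h1 := Ideal.height_add_one_le_of_lt_of_isPrime hlt
    rw [hP] at h1
    have hfin : P₀.height ≠ ⊤ := Ideal.height_ne_top_of_isPrime
    have h2 : P₀.height = 0 := by
      rw [ENat.add_one_le_iff hfin, Order.lt_one_iff] at h1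
      exact h1
    exact hP₀ne (Ideal.height_eq_zero_iff_eq_bot.1 h2)
  have : 𝔭₀ = 𝔭 := by
    rw [hP₀over.over, hP₀eq]
    rfl
  rw [← this]
  exact h𝔭₀

end GoingDown

section Local

variable {R : Type*} [CommRing R] [IsDomain R] {K : Type*} [Field K] [Algebra R K]
  {F : Type*} [Field F] [Algebra K F] [Algebra R F] [IsScalarTower R K F]
  {L : Type*} [Field L] [Algebra K L] [Algebra R L] [IsScalarTower R K L] [Algebra F L]
  [IsScalarTower K F L] [FiniteDimensional F L] [IsGalois F L]

/-- the trace of an element of the chart of `L` which is nilpotent modulo `π` is nilpotent modulo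
`π` in the chart of `F`. -/
theorem exists_trace_pow_eq_of_pow_eq (t : K) (π : R) (hπ : algebraMap R L π ≠ 0)
    (x : L) (hx : x ∈ chartOne R L t) (N : ℕ) (y : L) (hy : y ∈ chartOne R L t)
    (hxy : x ^ N = algebraMap R L π * y) :
    ∃ N' : ℕ, ∃ w ∈ chartOne R F t, (Algebra.trace F L x) ^ N' = algebraMap R F π * w := by
  classical
  set B' := ↥(chartOne R L t) with hB'
  set I : Ideal B' := Ideal.span {algebraMap R B' π} with hI
  have hmem : ∀ g : L ≃ₐ[F] L, (⟨g x, algEquiv_mem_chartOne t g hx⟩ : B') ∈ I.radical := by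
    intro g
    refine ⟨N, ?_⟩
    rw [hI, Ideal.mem_span_singleton]
    refine ⟨⟨g y, algEquiv_mem_chartOne t g hy⟩, Subtype.ext ?_⟩
    change (g x) ^ N = algebraMap R L π * g y
    rw [← map_pow, hxy, map_mul]
    congr 1
    rw [← algebraMap_algebraMap_eq (K := K) (F := F) π, AlgEquiv.commutes]
  have hsum : (∑ g : L ≃ₐ[F] L, (⟨g x, algEquiv_mem_chartOne t g hx⟩ : B')) ∈ I.radical :=
    Ideal.sum_mem _ (fun g _ => hmem g)
  obtain ⟨N', hN'⟩ := hsum
  rw [hI, Ideal.mem_span_singleton] at hN'
  obtain ⟨w', hw'⟩ := hN'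
  have hval : ((∑ g : L ≃ₐ[F] L, (⟨g x, algEquiv_mem_chartOne t g hx⟩ : B') : B') : L) =
      algebraMap F L (Algebra.trace F L x) := by
    rw [trace_eq_sum_automorphisms]
    exact map_sum (chartOne R L t).val _ _
  have hw'' : (algebraMap F L (Algebra.trace F L x)) ^ N' = algebraMap R L π * (w' : L) := by
    have := congrArg (fun z : B' => (z : L)) hw'
    change ((∑ g : L ≃ₐ[F] L, (⟨g x, algEquiv_mem_chartOne t g hx⟩ : B') : B') : L) ^ N' =
      algebraMap R L π * (w' : L) at this
    rw [hval] at this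
    exact this
  have hπF : algebraMap R F π ≠ 0 := by
    intro h
    apply hπ
    rw [← algebraMap_algebraMap_eq (K := K) (F := F) π, h, map_zero]
  refine ⟨N', (Algebra.trace F L x) ^ N' * (algebraMap R F π)⁻¹, ?_, ?_⟩
  · rw [← algebraMap_mem_chartOne_iff (L := L) t]
    have : algebraMap F L ((Algebra.trace F L x) ^ N' * (algebraMap R F π)⁻¹) = (w' : L) := by
      rw [map_mul, map_pow, hw'', map_inv₀, algebraMap_algebraMap_eq (K := K) π]
      field_simp
    rw [this]
    exact w'.2
  · field_simp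

/-- **local reducedness**: at a prime where `f` is a unit times an `m`-th power, an element of the
chart of `L = F(α)`, `α ^ m = f`, nilpotent modulo `π` becomes divisible by `π` after
multiplication by `m c ^ (m-1) d ^ (m-1)`. -/
theorem exists_mul_eq_of_pow_eq_local (t : K) (π : R) (hπ : algebraMap R L π ≠ 0)
    {m : ℕ} (hm : 0 < m) (α : L) (f : F) (hα : α ^ m = algebraMap F L f) (hf : f ≠ 0)
    (hfix : ∀ g : L ≃ₐ[F] L, g α = α → g = 1)
    (hRED : ∀ x ∈ chartOne R F t, ∀ (N : ℕ), ∀ y ∈ chartOne R F t,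
      x ^ N = algebraMap R F π * y → ∃ z ∈ chartOne R F t, x = algebraMap R F π * z)
    (s c d : F) (hs : s ≠ 0) (hc : c ∈ chartOne R F t) (hd : d ∈ chartOne R F t)
    (hc0 : c ≠ 0) (hd0 : d ≠ 0) (hfd : f * d = s ^ m * c)
    (x : L) (hx : x ∈ chartOne R L t) (N : ℕ) (y : L) (hy : y ∈ chartOne R L t)
    (hxy : x ^ N = algebraMap R L π * y) :
    ∃ z ∈ chartOne R L t,
      algebraMap F L ((m : F) * c ^ (m - 1) * d ^ (m - 1)) * x = algebraMap R L π * z := by
  classical
  obtain ⟨k, rfl⟩ : ∃ k, m = k + 1 := ⟨m - 1, by omega⟩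
  simp only [Nat.add_sub_cancel]
  set s' : L := algebraMap F L s with hs'
  set c' : L := algebraMap F L c with hc'
  set d' : L := algebraMap F L d with hd'
  have hs'0 : s' ≠ 0 := by rw [hs', Ne, map_eq_zero]; exact hs
  have hc'0 : c' ≠ 0 := by rw [hc', Ne, map_eq_zero]; exact hc0
  have hd'0 : d' ≠ 0 := by rw [hd', Ne, map_eq_zero]; exact hd0
  have hc'm : c' ∈ chartOne R L t := (algebraMap_mem_chartOne_iff t c).2 hc
  have hd'm : d' ∈ chartOne R L t := (algebraMap_mem_chartOne_iff t d).2 hd
  have hα0 : α ≠ 0 := by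
    rintro rfl
    rw [zero_pow hm.ne'] at hα
    exact hf ((map_eq_zero_iff _ (algebraMap F L).injective).1 hα.symm)
  set β : L := α * s'⁻¹ with hβ
  have hβ0 : β ≠ 0 := mul_ne_zero hα0 (inv_ne_zero hs'0)
  have hβm : β ^ (k + 1) = c' * d'⁻¹ := by
    have h1 : algebraMap F L f * d' = s' ^ (k + 1) * c' := by
      rw [hd', hs', hc', ← map_mul, hfd, map_mul, map_pow]
    rw [hβ, mul_pow, hα, inv_pow]
    field_simp
    exact h1
  have hβu : β ^ (k + 1) = algebraMap F L (c / d) := by
    rw [hβm, map_div₀, div_eq_mul_inv]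
  have hfixβ : ∀ g : L ≃ₐ[F] L, g β = β → g = 1 := by
    intro g hg
    apply hfix
    rw [hβ, map_mul, map_inv₀, hs', AlgEquiv.commutes] at hg
    exact mul_right_cancel₀ (inv_ne_zero hs'0) hg
  -- `d β` and `c β⁻¹` are integral
  have hdβ : d' * β ∈ chartOne R L t := by
    rw [mem_chartOne_iff]
    apply IsIntegral.of_pow hm
    have : (d' * β) ^ (k + 1) = d' ^ k * c' := by
      rw [mul_pow, hβm, pow_succ]
      field_simp
    rw [this]
    exact (chartOne R L t).mul_mem ((chartOne R L t).pow_mem hd'm _) hc'm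
  have hcβ : c' * β⁻¹ ∈ chartOne R L t := by
    rw [mem_chartOne_iff]
    apply IsIntegral.of_pow hm
    have : (c' * β⁻¹) ^ (k + 1) = c' ^ k * d' := by
      rw [mul_pow, inv_pow, hβm, pow_succ]
      field_simp
    rw [this]
    exact (chartOne R L t).mul_mem ((chartOne R L t).pow_mem hc'm _) hd'm
  -- the traces
  have htr : ∀ j : ℕ, ∃ a ∈ chartOne R F t,
      c ^ j * Algebra.trace F L (x * β⁻¹ ^ j) = algebraMap R F π * a := by
    intro j
    set yj : L := x * (c' * β⁻¹) ^ j with hyj
    have hyjm : yj ∈ chartOne R L t :=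
      (chartOne R L t).mul_mem hx ((chartOne R L t).pow_mem hcβ _)
    have hyjN : yj ^ N = algebraMap R L π * (y * ((c' * β⁻¹) ^ j) ^ N) := by
      rw [hyj, mul_pow, hxy]
      ring
    obtain ⟨N', w, hw, hwe⟩ := exists_trace_pow_eq_of_pow_eq (F := F) t π hπ yj hyjm N _
      ((chartOne R L t).mul_mem hy ((chartOne R L t).pow_mem
        ((chartOne R L t).pow_mem hcβ _) _)) hyjN
    obtain ⟨a, ha, hae⟩ := hRED _ (trace_mem_chartOne t hyjm) N' w hw hwe
    refine ⟨a, ha, ?_⟩
    rw [← hae, hyj]
    have : x * (c' * β⁻¹) ^ j = (c ^ j) • (x * β⁻¹ ^ j) := by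
      rw [Algebra.smul_def, map_pow, mul_pow]
      ring
    rw [this, map_smul, smul_eq_mul]
  choose a ha hae using htr
  -- the decomposition
  have hdec := kummer_trace_decomp (F := F) β hβ0 (c / d) hβu hfixβ x
  refine ⟨∑ j ∈ range (k + 1), algebraMap F L (a j) * c' ^ (k - j) * d' ^ (k - j) * (d' * β) ^ j,
    ?_, ?_⟩
  · refine Subalgebra.sum_mem _ (fun j _ => ?_)
    exact (chartOne R L t).mul_mem ((chartOne R L t).mul_mem ((chartOne R L t).mul_mem
      ((algebraMap_mem_chartOne_iff t (a j)).2 (ha j)) ((chartOne R L t).pow_mem hc'm _))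
      ((chartOne R L t).pow_mem hd'm _)) ((chartOne R L t).pow_mem hdβ _)
  · have h1 : algebraMap F L ((((k + 1 : ℕ) : F)) * c ^ k * d ^ k) * x =
        c' ^ k * d' ^ k * ((((k + 1 : ℕ) : L)) * x) := by
      rw [map_mul, map_mul, map_pow, map_pow, map_natCast]
      ring
    rw [h1, hdec, Finset.mul_sum, Finset.mul_sum]
    refine Finset.sum_congr rfl (fun j hj => ?_)
    have hjk : j ≤ k := Nat.lt_succ_iff.1 (Finset.mem_range.1 hj)
    have h2 : algebraMap F L (c ^ j * Algebra.trace F L (x * β⁻¹ ^ j)) =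
        algebraMap R L π * algebraMap F L (a j) := by
      rw [hae j, map_mul, algebraMap_algebraMap_eq (K := K) π]
    have h3 : c' ^ k = c' ^ j * c' ^ (k - j) := by
      rw [← pow_add]; congr 1; omega
    have h4 : d' ^ k = d' ^ j * d' ^ (k - j) := by
      rw [← pow_add]; congr 1; omega
    calc c' ^ k * d' ^ k * (algebraMap F L (Algebra.trace F L (x * β⁻¹ ^ j)) * β ^ j)
        = algebraMap F L (c ^ j * Algebra.trace F L (x * β⁻¹ ^ j)) *
            (c' ^ (k - j) * d' ^ (k - j) * (d' * β) ^ j) := by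
          have h5 : algebraMap F L (c ^ j * Algebra.trace F L (x * β⁻¹ ^ j)) =
              c' ^ j * algebraMap F L (Algebra.trace F L (x * β⁻¹ ^ j)) := by
            rw [RingHom.map_mul, RingHom.map_pow]
          rw [h3, h4, h5, mul_pow]
          ring
      _ = algebraMap R L π *
            (algebraMap F L (a j) * c' ^ (k - j) * d' ^ (k - j) * (d' * β) ^ j) := by
          rw [h2]
          ring

end Local

section Global

variable {R : Type*} [CommRing R] [IsDomain R] [IsIntegrallyClosed R] [IsNoetherianRing R]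
  [CharZero R] {K₁ : Type*} [Field K₁] [Algebra R K₁]
  [IsFractionRing R K₁] {K : Type*} [Field K] [Algebra K₁ K] [Algebra R K] [IsScalarTower R K₁ K]
  {F : Type*} [Field F] [Algebra K F] [Algebra R F] [IsScalarTower R K F] [FiniteDimensional K F]
  {L : Type*} [Field L] [Algebra K L] [Algebra R L] [IsScalarTower R K L] [Algebra F L]
  [IsScalarTower K F L] [FiniteDimensional K L] [FiniteDimensional F L] [IsGalois F L]

/-- **the special fibre of the chart of a Kummer extension is reduced.** -/
theorem chartOne_reduced_of_kummer (t : K) (ht : Transcendental K₁ t)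
    (hK : IntermediateField.adjoin K₁ {t} = ⊤) (π : R) (hπ : algebraMap R L π ≠ 0)
    {m : ℕ} (hm : 0 < m) (hmR : IsUnit (m : R))
    (α : L) (f : F) (hα : α ^ m = algebraMap F L f) (hf : f ≠ 0)
    (hfix : ∀ g : L ≃ₐ[F] L, g α = α → g = 1)
    (hRED : ∀ x ∈ chartOne R F t, ∀ (N : ℕ), ∀ y ∈ chartOne R F t,
      x ^ N = algebraMap R F π * y → ∃ z ∈ chartOne R F t, x = algebraMap R F π * z)
    (ha : ∀ 𝔭 : Ideal ↥(chartOne R F t),
      𝔭 ∈ (Ideal.span {algebraMap R ↥(chartOne R F t) π}).minimalPrimes →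
        ∃ s : F, s ≠ 0 ∧ ∃ c d : ↥(chartOne R F t), c ∉ 𝔭 ∧ d ∉ 𝔭 ∧
          f * (d : F) = s ^ m * (c : F))
    (x : L) (hx : x ∈ chartOne R L t) (N : ℕ) (y : L) (hy : y ∈ chartOne R L t)
    (hxy : x ^ N = algebraMap R L π * y) :
    ∃ z ∈ chartOne R L t, x = algebraMap R L π * z := by
  classical
  haveI : IsIntegrallyClosed ↥(chartOne R L t) := isIntegrallyClosed_chartOne (K₁ := K₁) t hK
  haveI : IsNoetherianRing ↥(chartOne R L t) := isNoetherianRing_chartOne (K₁ := K₁) t ht hK
  haveI : IsFractionRing ↥(chartOne R L t) L := isFractionRing_chartOne (K₁ := K₁) t hK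
  by_contra hcon
  have hnot : x * (algebraMap R L π)⁻¹ ∉ (algebraMap ↥(chartOne R L t) L).range := by
    rintro ⟨z, hz⟩
    apply hcon
    refine ⟨(z : L), z.2, ?_⟩
    have : (z : L) = x * (algebraMap R L π)⁻¹ := hz
    rw [this]
    field_simp
  obtain ⟨P, hPprime, hPh, hP⟩ := exists_height_one_prime_of_not_mem_range _ hnot
  haveI := hPprime
  by_cases hπP : algebraMap R ↥(chartOne R L t) π ∈ P
  · -- the contraction is minimal over `π`
    have hmin := comap_chartMap_mem_minimalPrimes (K₁ := K₁) (F := F) t ht hK π hπ P hPh hπP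
    obtain ⟨s, hs, c, d, hc, hd, hfd⟩ := ha _ hmin
    have hc0 : (c : F) ≠ 0 := by
      intro h
      apply hc
      have : c = 0 := Subtype.ext h
      rw [this]
      exact Ideal.zero_mem _
    have hd0 : (d : F) ≠ 0 := by
      intro h
      apply hd
      have : d = 0 := Subtype.ext h
      rw [this]
      exact Ideal.zero_mem _
    obtain ⟨z, hz, hze⟩ := exists_mul_eq_of_pow_eq_local (K := K) (F := F) t π hπ hm α f hα hf hfix
      hRED s (c : F) (d : F) hs c.2 d.2 hc0 hd0 hfd x hx N y hy hxy
    -- the multiplier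
    set s₀ : ↥(chartOne R F t) := (m : ↥(chartOne R F t)) * c ^ (m - 1) * d ^ (m - 1) with hs₀
    have hs₀P : chartMap (L := L) t s₀ ∉ P := by
      intro hmem
      rw [hs₀, map_mul, map_mul, map_pow, map_pow] at hmem
      rcases hPprime.mem_or_mem hmem with h1 | h1
      · rcases hPprime.mem_or_mem h1 with h2 | h2
        · -- `m` is a unit
          apply hPprime.ne_top
          apply Ideal.eq_top_of_isUnit_mem _ h2
          rw [map_natCast]
          have := hmR.map (algebraMap R ↥(chartOne R L t))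
          rwa [map_natCast] at this
        · exact hc (hPprime.mem_of_pow_mem _ h2)
      · exact hd (hPprime.mem_of_pow_mem _ h1)
    refine hP ⟨z, hz⟩ (chartMap (L := L) t s₀) hs₀P ?_
    change x * (algebraMap R L π)⁻¹ * algebraMap F L (s₀ : F) = z
    have h3 : algebraMap F L (s₀ : F) * x = algebraMap R L π * z := by
      rw [← hze]
      congr 2
    calc x * (algebraMap R L π)⁻¹ * algebraMap F L (s₀ : F)
        = (algebraMap F L (s₀ : F) * x) * (algebraMap R L π)⁻¹ := by ring
      _ = z := by rw [h3]; field_simp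
  · refine hP ⟨x, hx⟩ (algebraMap R ↥(chartOne R L t) π) hπP ?_
    change x * (algebraMap R L π)⁻¹ * algebraMap R L π = x
    field_simp

end Global

end Fermat.Agent.SS
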