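/-
(SS-q) package SS-CONN2 — helper3. **Connectedness of the incidence graph of sheets and closed
points** of a two-chart curve with reduced special fibre, deduced from helper9's abstract two-chart
connectedness `conn_idempotent`.

* `exists_sep_of_no_common_maximal` : (CRT) two finite families of ideals of a commutative ring
  such that no maximal ideal contains a member of each can be separated by an element `e`
  (`e ∈ P` for the first family, `1 - e ∈ P` for the second one);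
* `sheet_const_of_incident` : in the situation of `conn_idempotent`, let `P s` (`s : Sh`, finite) be
  prime ideals of `B₁₂` containing `π` whose traces on `B₁`, `B₂`, `B₁₂` have intersection `π B_i`
  (reduced special fibre, all sheets visible in both charts).  Then every function `Φ` on the sheets
  which takes the same value on two sheets passing through a common closed point of one of the two
  charts is constant.
-/
import Fermat.Agent.JA.CONN_helper9_Main

set_option autoImplicit false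
set_option linter.unusedSectionVars false
set_option linter.style.haveILetI false

namespace Fermat.Agent.SS

open Fermat.Agent.JA

/-- (CRT) separation of two finite families of primes with no common maximal ideal. -/
theorem exists_sep_of_no_common_maximal {A : Type*} [CommRing A] {ι : Type*} (S T : Finset ι)
    (P : ι → Ideal A)
    (h : ∀ 𝔫 : Ideal A, 𝔫.IsMaximal → ∀ i ∈ S, ∀ j ∈ T, P i ≤ 𝔫 → ¬ P j ≤ 𝔫) :
    ∃ e : A, (∀ i ∈ S, e ∈ P i) ∧ ∀ j ∈ T, 1 - e ∈ P j := by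
  classical
  have hsup : S.inf P ⊔ T.inf P = ⊤ := by
    by_contra hne
    obtain ⟨𝔫, hmax, hle⟩ := Ideal.exists_le_maximal _ hne
    have h1 : S.inf P ≤ 𝔫 := le_trans le_sup_left hle
    have h2 : T.inf P ≤ 𝔫 := le_trans le_sup_right hle
    obtain ⟨i, hi, hi'⟩ := (Ideal.IsPrime.inf_le' hmax.isPrime).1 h1
    obtain ⟨j, hj, hj'⟩ := (Ideal.IsPrime.inf_le' hmax.isPrime).1 h2
    exact h 𝔫 hmax i hi j hj hi' hj'
  have h1 : (1 : A) ∈ S.inf P ⊔ T.inf P := by rw [hsup]; trivial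
  obtain ⟨a, ha, b, hb, hab⟩ := Submodule.mem_sup.1 h1
  refine ⟨a, fun i hi => ?_, fun j hj => ?_⟩
  · exact (Finset.inf_le hi : S.inf P ≤ P i) ha
  · have : 1 - a = b := by rw [← hab]; ring
    rw [this]
    exact (Finset.inf_le hj : T.inf P ≤ P j) hb

section Sheets

variable {R : Type*} [CommRing R] [IsDomain R] [IsNoetherianRing R] {π : R}
  {E : Type*} [CommRing E] [Algebra R E]

/-- **SS-CONN2**: the incidence graph (sheets, closed points) of a two-chart curve with reduced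
special fibre is connected. -/
theorem sheet_const_of_incident (hπ : Prime π) (hE : ∀ x : E, π • x = 0 → x = 0)
    (hinj : Function.Injective (algebraMap R E))
    (t : Eˣ) (B₁ B₂ B₁₂ : Subalgebra R E)
    (ht₁ : (t : E) ∈ B₁) (ht₂ : ((t⁻¹ : Eˣ) : E) ∈ B₂) (h₁₂ : B₁ ≤ B₁₂) (h₂₁ : B₂ ≤ B₁₂)
    (hloc₁ : ∀ x ∈ B₁₂, ∃ m : ℕ, (t : E) ^ m * x ∈ B₁)
    (hglob : ∀ x ∈ B₁, x ∈ B₂ → ∃ r : R, algebraMap R E r = x)
    (hfin : ∃ s : Finset E, (∀ b ∈ s, b ∈ B₁) ∧ ∀ x ∈ B₁, ∃ c : E → Polynomial R,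
      x = ∑ b ∈ s, Polynomial.aeval (t : E) (c b) * b)
    (hpole : ∀ b ∈ B₁, ∃ N : ℕ, ((t⁻¹ : Eˣ) : E) ^ N * b ∈ B₂)
    {Sh : Type*} [Finite Sh] (P : Sh → Ideal B₁₂) (hP : ∀ s, (P s).IsPrime)
    (hπP : ∀ s, algebraMap R B₁₂ π ∈ P s)
    (hred₁ : ∀ x : B₁, (∀ s, Subalgebra.inclusion h₁₂ x ∈ P s) → ∃ y ∈ B₁, (x : E) = π • y)
    (hred₂ : ∀ x : B₂, (∀ s, Subalgebra.inclusion h₂₁ x ∈ P s) → ∃ y ∈ B₂, (x : E) = π • y)
    (hred₁₂ : ∀ x : B₁₂, (∀ s, x ∈ P s) → ∃ y ∈ B₁₂, (x : E) = π • y)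
    {X : Type*} (Φ : Sh → X)
    (hΦ₁ : ∀ 𝔫 : Ideal B₁, 𝔫.IsMaximal → ∀ s s' : Sh,
      (P s).comap (Subalgebra.inclusion h₁₂) ≤ 𝔫 → (P s').comap (Subalgebra.inclusion h₁₂) ≤ 𝔫 →
        Φ s = Φ s')
    (hΦ₂ : ∀ 𝔫 : Ideal B₂, 𝔫.IsMaximal → ∀ s s' : Sh,
      (P s).comap (Subalgebra.inclusion h₂₁) ≤ 𝔫 → (P s').comap (Subalgebra.inclusion h₂₁) ≤ 𝔫 →
        Φ s = Φ s') :
    ∀ s s' : Sh, Φ s = Φ s' := by
  classical
  haveI : Fintype Sh := Fintype.ofFinite Sh
  intro s₀ s₁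
  by_contra hne
  set S : Finset Sh := Finset.univ.filter (fun s => Φ s = Φ s₀) with hS
  set T : Finset Sh := Finset.univ.filter (fun s => Φ s ≠ Φ s₀) with hT
  have hs₀ : s₀ ∈ S := by simp [hS]
  have hs₁ : s₁ ∈ T := by
    simp only [hT, Finset.mem_filter, Finset.mem_univ, true_and]
    exact fun h => hne h.symm
  have hST : ∀ s, s ∈ S ∨ s ∈ T := by
    intro s
    by_cases h : Φ s = Φ s₀
    · left; simp [hS, h]
    · right; simp [hT, h]
  -- the primes of the two charts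
  set P₁ : Sh → Ideal B₁ := fun s => (P s).comap (Subalgebra.inclusion h₁₂) with hP₁
  set P₂ : Sh → Ideal B₂ := fun s => (P s).comap (Subalgebra.inclusion h₂₁) with hP₂
  have hP₁' : ∀ s, (P₁ s).IsPrime := fun s => Ideal.comap_isPrime _ _
  have hP₂' : ∀ s, (P₂ s).IsPrime := fun s => Ideal.comap_isPrime _ _
  obtain ⟨e₁, he₁S, he₁T⟩ := exists_sep_of_no_common_maximal S T P₁ (by
    intro 𝔫 hmax i hi j hj hi' hj'
    have h1 := hΦ₁ 𝔫 hmax i j hi' hj'
    simp only [hS, hT, Finset.mem_filter, Finset.mem_univ, true_and] at hi hj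
    exact hj (h1 ▸ hi))
  obtain ⟨e₂, he₂S, he₂T⟩ := exists_sep_of_no_common_maximal S T P₂ (by
    intro 𝔫 hmax i hi j hj hi' hj'
    have h1 := hΦ₂ 𝔫 hmax i j hi' hj'
    simp only [hS, hT, Finset.mem_filter, Finset.mem_univ, true_and] at hi hj
    exact hj (h1 ▸ hi))
  -- idempotency modulo `π`
  have hid₁ : ∃ y ∈ B₁, (e₁ : E) * e₁ - e₁ = π • y := by
    have := hred₁ (e₁ * e₁ - e₁) (by
      intro s
      change e₁ * e₁ - e₁ ∈ P₁ s
      rcases hST s with h | h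
      · have : e₁ * e₁ - e₁ = (e₁ - 1) * e₁ := by ring
        rw [this]
        exact (P₁ s).mul_mem_left _ (he₁S s h)
      · have : e₁ * e₁ - e₁ = (-e₁) * (1 - e₁) := by ring
        rw [this]
        exact (P₁ s).mul_mem_left _ (he₁T s h))
    simpa using this
  have hid₂ : ∃ y ∈ B₂, (e₂ : E) * e₂ - e₂ = π • y := by
    have := hred₂ (e₂ * e₂ - e₂) (by
      intro s
      change e₂ * e₂ - e₂ ∈ P₂ s
      rcases hST s with h | h
      · have : e₂ * e₂ - e₂ = (e₂ - 1) * e₂ := by ring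
        rw [this]
        exact (P₂ s).mul_mem_left _ (he₂S s h)
      · have : e₂ * e₂ - e₂ = (-e₂) * (1 - e₂) := by ring
        rw [this]
        exact (P₂ s).mul_mem_left _ (he₂T s h))
    simpa using this
  have hglue : ∃ y ∈ B₁₂, (e₁ : E) - e₂ = π • y := by
    have := hred₁₂ (Subalgebra.inclusion h₁₂ e₁ - Subalgebra.inclusion h₂₁ e₂) (by
      intro s
      rcases hST s with h | h
      · exact (P s).sub_mem (he₁S s h) (he₂S s h)
      · have : Subalgebra.inclusion h₁₂ e₁ - Subalgebra.inclusion h₂₁ e₂ =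
            (1 - Subalgebra.inclusion h₂₁ e₂) - (1 - Subalgebra.inclusion h₁₂ e₁) := by ring
        rw [this]
        refine (P s).sub_mem ?_ ?_
        · have := he₂T s h
          change Subalgebra.inclusion h₂₁ (1 - e₂) ∈ P s at this
          rwa [map_sub, map_one] at this
        · have := he₁T s h
          change Subalgebra.inclusion h₁₂ (1 - e₁) ∈ P s at this
          rwa [map_sub, map_one] at this)
    simpa using this
  have hπ₁ : ∀ s, ∀ y ∈ B₁, ∀ x : B₁, (x : E) = π • y → x ∈ P₁ s := by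
    intro s y hy x hx
    change Subalgebra.inclusion h₁₂ x ∈ P s
    have : Subalgebra.inclusion h₁₂ x = algebraMap R B₁₂ π * ⟨y, h₁₂ hy⟩ := by
      apply Subtype.ext
      rw [Subalgebra.coe_inclusion, hx, Algebra.smul_def]
      rfl
    rw [this]
    exact (P s).mul_mem_right _ (hπP s)
  rcases conn_idempotent hπ hE hinj t B₁ B₂ B₁₂ ht₁ ht₂ h₁₂ h₂₁ hloc₁ hglob hfin hpole
    (e₁ : E) (e₂ : E) e₁.2 e₂.2 hid₁ hid₂ hglue with ⟨⟨y, hy, hye⟩, _⟩ | ⟨⟨y, hy, hye⟩, _⟩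
  · -- `e₁ ∈ π B₁`: contradiction at `s₁ ∈ T`
    have h1 : e₁ ∈ P₁ s₁ := hπ₁ s₁ y hy e₁ hye
    have h2 : 1 - e₁ ∈ P₁ s₁ := he₁T s₁ hs₁
    have h3 : (1 : B₁) ∈ P₁ s₁ := by
      have : (1 : B₁) = (1 - e₁) + e₁ := by ring
      rw [this]
      exact (P₁ s₁).add_mem h2 h1
    exact (hP₁' s₁).ne_top ((Ideal.eq_top_iff_one _).2 h3)
  · have h1 : 1 - e₁ ∈ P₁ s₀ := hπ₁ s₀ y hy (1 - e₁) (by simpa using hye)
    have h2 : e₁ ∈ P₁ s₀ := he₁S s₀ hs₀
    have h3 : (1 : B₁) ∈ P₁ s₀ := by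
      have : (1 : B₁) = (1 - e₁) + e₁ := by ring
      rw [this]
      exact (P₁ s₀).add_mem h1 h2
    exact (hP₁' s₀).ne_top ((Ideal.eq_top_iff_one _).2 h3)

end Sheets

end Fermat.Agent.SS
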