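/-
(SS-q) package SS-KUM — helper3 — part 4: **localisation pairs**.  A pair of subalgebras
`B ≤ B'` of a field with `B' = B[τ⁻¹]` is a localisation away from `τ`; consequences for the primes
minimal over an element `π` (the "sheets"): if `B / π` is reduced and `τ` lies in no prime of `B`
minimal over `π`, then an element of `B` lying in every prime of `B'` minimal over `π` is divisible
by `π` in `B`, and `B' / π` is reduced as well.
-/
import Mathlib

set_option autoImplicit false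
set_option linter.unusedSectionVars false
set_option linter.style.haveILetI false

namespace Fermat.Agent.SS

section Abstract

variable {A : Type*} [CommRing A] (S : Submonoid A) (A' : Type*) [CommRing A'] [Algebra A A']
  [IsLocalization S A']

/-- an element of `A` lying in all primes of the localisation minimal over `J A'` lies in `J`, if
`J` is radical and no prime minimal over `J` meets the multiplicative set. -/
theorem mem_of_forall_mem_minimalPrimes_map (J : Ideal A) (hJ : J.IsRadical)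
    (hS : ∀ 𝔮 ∈ J.minimalPrimes, Disjoint (S : Set A) (𝔮 : Set A)) (x : A)
    (hx : ∀ 𝔓 ∈ (J.map (algebraMap A A')).minimalPrimes, algebraMap A A' x ∈ 𝔓) : x ∈ J := by
  rw [← hJ.radical, ← Ideal.sInf_minimalPrimes, Ideal.mem_sInf]
  intro 𝔮 h𝔮
  have hprime : 𝔮.IsPrime := h𝔮.1.1
  have hdis := hS 𝔮 h𝔮
  have hunder : (𝔮.map (algebraMap A A')).under A = 𝔮 :=
    IsLocalization.under_map_of_isPrime_disjoint S A' hprime hdis
  have hmem : 𝔮.map (algebraMap A A') ∈ (J.map (algebraMap A A')).minimalPrimes := by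
    rw [IsLocalization.minimalPrimes_map S A' J, Set.mem_preimage, hunder]
    exact h𝔮
  have := hx _ hmem
  rw [← hunder]
  exact this

include S in
/-- the extension of a radical ideal to a localisation is radical. -/
theorem isRadical_map_of_isLocalization (J : Ideal A) (hJ : J.IsRadical) :
    (J.map (algebraMap A A')).IsRadical := by
  rw [← Ideal.radical_eq_iff, ← IsLocalization.map_radical S A' J, hJ.radical]

end Abstract

section Pair

variable {R : Type*} [CommRing R] {E : Type*} [Field E] [Algebra R E]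

/-- the algebra structure of an inclusion of subalgebras. -/
@[reducible] def inclusionAlgebra {B B' : Subalgebra R E} (h : B ≤ B') : Algebra ↥B ↥B' :=
  (Subalgebra.inclusion h).toRingHom.toAlgebra

/-- `B' = B[τ⁻¹]` inside a field is a localisation away from `τ`. -/
theorem isLocalization_away_of_le {B B' : Subalgebra R E} (h : B ≤ B') (τ : E) (hτ : τ ∈ B)
    (hτ0 : τ ≠ 0) (hinv : τ⁻¹ ∈ B') (hloc : ∀ x ∈ B', ∃ n : ℕ, τ ^ n * x ∈ B) :
    letI := inclusionAlgebra h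
    IsLocalization.Away (⟨τ, hτ⟩ : ↥B) ↥B' := by
  letI := inclusionAlgebra h
  have halg : ∀ x : ↥B, ((algebraMap ↥B ↥B' x : ↥B') : E) = (x : E) := fun x => rfl
  refine (isLocalization_iff _ _).2 ⟨?_, ?_, ?_⟩
  · rintro ⟨y, n, rfl⟩
    refine ⟨⟨algebraMap ↥B ↥B' (⟨τ, hτ⟩ ^ n), ⟨τ⁻¹, hinv⟩ ^ n, ?_, ?_⟩, rfl⟩
    · apply Subtype.ext
      push_cast
      rw [halg]
      push_cast
      rw [← mul_pow, mul_inv_cancel₀ hτ0, one_pow]
    · apply Subtype.ext
      push_cast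
      rw [halg]
      push_cast
      rw [← mul_pow, inv_mul_cancel₀ hτ0, one_pow]
  · intro z
    obtain ⟨n, hn⟩ := hloc z z.2
    refine ⟨(⟨τ ^ n * z, hn⟩, ⟨⟨τ, hτ⟩ ^ n, n, rfl⟩), ?_⟩
    apply Subtype.ext
    push_cast
    rw [halg, halg]
    push_cast
    ring
  · intro x y hxy
    refine ⟨1, ?_⟩
    have : (x : E) = y := by
      have := congrArg (fun z : ↥B' => (z : E)) hxy
      simpa [halg] using this
    rw [Subtype.ext this]

/-- reducedness modulo `π`, as a statement on the ideal `(π)`. -/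
theorem isRadical_span_of_reduced {B : Subalgebra R E} (π : R)
    (hred : ∀ x : ↥B, ∀ N : ℕ, ∀ y : ↥B, x ^ N = algebraMap R ↥B π * y →
      ∃ z : ↥B, x = algebraMap R ↥B π * z) :
    (Ideal.span {algebraMap R ↥B π}).IsRadical := by
  intro x hx
  obtain ⟨N, hN⟩ := hx
  obtain ⟨y, hy⟩ := Ideal.mem_span_singleton'.1 hN
  obtain ⟨z, hz⟩ := hred x N y (by rw [← hy]; ring)
  exact Ideal.mem_span_singleton'.2 ⟨z, by rw [hz]; ring⟩

theorem map_span_inclusion {B B' : Subalgebra R E} (h : B ≤ B') (π : R) :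
    letI := inclusionAlgebra h
    (Ideal.span {algebraMap R ↥B π}).map (algebraMap ↥B ↥B') = Ideal.span {algebraMap R ↥B' π} := by
  letI := inclusionAlgebra h
  rw [Ideal.map_span, Set.image_singleton]
  rfl

/-- **sheets see the chart**: an element of `B` lying in every prime of `B' = B[τ⁻¹]` minimal over
`π` is divisible by `π` in `B`, if `B / π` is reduced and `τ` lies in no prime minimal over `π`. -/
theorem pair_dvd_of_forall_mem_minimalPrimes {B B' : Subalgebra R E} (h : B ≤ B') (τ : E)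
    (hτ : τ ∈ B) (hτ0 : τ ≠ 0) (hinv : τ⁻¹ ∈ B') (hloc : ∀ x ∈ B', ∃ n : ℕ, τ ^ n * x ∈ B) (π : R)
    (hred : ∀ x : ↥B, ∀ N : ℕ, ∀ y : ↥B, x ^ N = algebraMap R ↥B π * y →
      ∃ z : ↥B, x = algebraMap R ↥B π * z)
    (hT : ∀ 𝔮 ∈ (Ideal.span {algebraMap R ↥B π}).minimalPrimes, (⟨τ, hτ⟩ : ↥B) ∉ 𝔮)
    (x : ↥B)
    (hx : ∀ 𝔓 ∈ (Ideal.span {algebraMap R ↥B' π}).minimalPrimes, Subalgebra.inclusion h x ∈ 𝔓) :
    ∃ z : ↥B, x = algebraMap R ↥B π * z := by
  letI := inclusionAlgebra h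
  haveI : IsLocalization.Away (⟨τ, hτ⟩ : ↥B) ↥B' :=
    isLocalization_away_of_le h τ hτ hτ0 hinv hloc
  have hmem := mem_of_forall_mem_minimalPrimes_map (Submonoid.powers (⟨τ, hτ⟩ : ↥B)) ↥B'
    (Ideal.span {algebraMap R ↥B π}) (isRadical_span_of_reduced π hred) (by
      intro 𝔮 h𝔮
      have hprime : 𝔮.IsPrime := h𝔮.1.1
      rw [Set.disjoint_left]
      rintro y ⟨n, rfl⟩ hy
      exact hT 𝔮 h𝔮 (hprime.mem_of_pow_mem n hy)) x (by
      intro 𝔓 h𝔓
      rw [map_span_inclusion h π] at h𝔓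
      exact hx 𝔓 h𝔓)
  obtain ⟨z, hz⟩ := Ideal.mem_span_singleton'.1 hmem
  exact ⟨z, by rw [← hz]; ring⟩

/-- the localisation `B' = B[τ⁻¹]` is reduced modulo `π` if `B` is. -/
theorem pair_dvd_of_forall_mem_minimalPrimes' {B B' : Subalgebra R E} (h : B ≤ B') (τ : E)
    (hτ : τ ∈ B) (hτ0 : τ ≠ 0) (hinv : τ⁻¹ ∈ B') (hloc : ∀ x ∈ B', ∃ n : ℕ, τ ^ n * x ∈ B) (π : R)
    (hred : ∀ x : ↥B, ∀ N : ℕ, ∀ y : ↥B, x ^ N = algebraMap R ↥B π * y →
      ∃ z : ↥B, x = algebraMap R ↥B π * z)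
    (x : ↥B') (hx : ∀ 𝔓 ∈ (Ideal.span {algebraMap R ↥B' π}).minimalPrimes, x ∈ 𝔓) :
    ∃ z : ↥B', x = algebraMap R ↥B' π * z := by
  letI := inclusionAlgebra h
  haveI : IsLocalization.Away (⟨τ, hτ⟩ : ↥B) ↥B' :=
    isLocalization_away_of_le h τ hτ hτ0 hinv hloc
  have hrad := isRadical_map_of_isLocalization (Submonoid.powers (⟨τ, hτ⟩ : ↥B)) ↥B'
    (Ideal.span {algebraMap R ↥B π}) (isRadical_span_of_reduced π hred)
  rw [map_span_inclusion h π] at hrad
  have hmem : x ∈ Ideal.span {algebraMap R ↥B' π} := by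
    rw [← hrad.radical, ← Ideal.sInf_minimalPrimes, Ideal.mem_sInf]
    exact fun {𝔓} h𝔓 => hx 𝔓 h𝔓
  obtain ⟨z, hz⟩ := Ideal.mem_span_singleton'.1 hmem
  exact ⟨z, by rw [← hz]; ring⟩

/-- a prime of `B' = B[τ⁻¹]` minimal over `π` contracts to a prime of `B` minimal over `π`. -/
theorem pair_comap_mem_minimalPrimes {B B' : Subalgebra R E} (h : B ≤ B') (τ : E)
    (hτ : τ ∈ B) (hτ0 : τ ≠ 0) (hinv : τ⁻¹ ∈ B') (hloc : ∀ x ∈ B', ∃ n : ℕ, τ ^ n * x ∈ B) (π : R)
    (𝔓 : Ideal ↥B') (h𝔓 : 𝔓 ∈ (Ideal.span {algebraMap R ↥B' π}).minimalPrimes) :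
    𝔓.comap (Subalgebra.inclusion h) ∈ (Ideal.span {algebraMap R ↥B π}).minimalPrimes := by
  letI := inclusionAlgebra h
  haveI : IsLocalization.Away (⟨τ, hτ⟩ : ↥B) ↥B' :=
    isLocalization_away_of_le h τ hτ hτ0 hinv hloc
  rw [← map_span_inclusion h π,
    IsLocalization.minimalPrimes_map (Submonoid.powers (⟨τ, hτ⟩ : ↥B)) ↥B'] at h𝔓
  exact h𝔓

end Pair

end Fermat.Agent.SS
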