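/-
(SS-q) package SS-KUM — helper3 — part 5: **connectedness of the sheets for the charts** of a
finite extension `E / K₁(t)`: `sheet_const_of_incident` (SS-CONN2) instantiated with
`B₁ = chartOne R E t`, `B₂ = chartOne R E t⁻¹`, `B₁₂ = chartMid R E t`, the sheets being ALL primes of
`B₁₂` minimal over `π`.  Hypotheses on `E`: constants (`K₁` algebraically closed in `E`), reduced
special fibres of both charts, the coordinate `t` (resp. `t⁻¹`) lies in no prime of the first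
(resp. second) chart minimal over `π`.
-/
import Fermat.Agent.SS.KUM_helper3_Charts
import Fermat.Agent.SS.KUM_helper3_Loc
import Fermat.Agent.SS.CONN2_helper3

set_option autoImplicit false
set_option linter.unusedSectionVars false
set_option linter.style.haveILetI false

namespace Fermat.Agent.SS

open Fermat.Agent.JA Polynomial

section Sheets

variable {R : Type*} [CommRing R] [IsDomain R] [IsIntegrallyClosed R] [IsNoetherianRing R]
  [CharZero R] {K₁ : Type*} [Field K₁] [Algebra R K₁]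
  [IsFractionRing R K₁] {K : Type*} [Field K] [Algebra K₁ K] [Algebra R K] [IsScalarTower R K₁ K]
  {E : Type*} [Field E] [Algebra K E] [Algebra K₁ E] [IsScalarTower K₁ K E] [Algebra R E]
  [IsScalarTower R K E] [FiniteDimensional K E]

include K₁ K in
theorem algebraMap_injective_of_tower : Function.Injective (algebraMap R E) := by
  rw [IsScalarTower.algebraMap_eq R K E, IsScalarTower.algebraMap_eq R K₁ K]
  exact (algebraMap K E).injective.comp
    ((algebraMap K₁ K).injective.comp (IsFractionRing.injective R K₁))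

/-- the type of sheets of `E`: primes of the middle ring minimal over `π`. -/
abbrev SheetOf (R : Type*) [CommRing R] {K : Type*} [Field K] [Algebra R K]
    (E : Type*) [Field E] [Algebra K E] [Algebra R E] [IsScalarTower R K E] (t : K) (π : R) :=
  {𝔓 : Ideal ↥(chartMid R E t) // 𝔓 ∈ (Ideal.span {algebraMap R ↥(chartMid R E t) π}).minimalPrimes}

theorem isNoetherianRing_chartMid (t : K) (ht : Transcendental K₁ t)
    (hK : IntermediateField.adjoin K₁ {t} = ⊤) : IsNoetherianRing ↥(chartMid R E t) := by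
  have ht0 : t ≠ 0 := fun h => ht (h ▸ isAlgebraic_zero)
  have htE : algebraMap K E t ≠ 0 := by rw [Ne, map_eq_zero]; exact ht0
  letI := inclusionAlgebra (chartOne_le_chartMid (R := R) (E := E) t)
  haveI : IsLocalization.Away (⟨algebraMap K E t, algebraMap_coord_mem_chartOne t⟩ :
      ↥(chartOne R E t)) ↥(chartMid R E t) :=
    isLocalization_away_of_le (chartOne_le_chartMid t) _ (algebraMap_coord_mem_chartOne t) htE
      (inv_coord_mem_chartMid t ht0) (fun x hx => hx)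
  exact IsLocalization.isNoetherianRing (Submonoid.powers
    (⟨algebraMap K E t, algebraMap_coord_mem_chartOne t⟩ : ↥(chartOne R E t))) _
    (isNoetherianRing_chartOne (K₁ := K₁) t ht hK)

theorem finite_sheetOf (t : K) (ht : Transcendental K₁ t)
    (hK : IntermediateField.adjoin K₁ {t} = ⊤) (π : R) : Finite (SheetOf R E t π) := by
  haveI := isNoetherianRing_chartMid (R := R) (K₁ := K₁) (E := E) t ht hK
  exact Set.finite_coe_iff.2 (Ideal.finite_minimalPrimes_of_isNoetherianRing _ _)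

omit [IsIntegrallyClosed R] [IsNoetherianRing R] [CharZero R] [FiniteDimensional K E] in
/-- reducedness in subtype form. -/
theorem reduced_subtype (t : K) (π : R)
    (hRED₁ : ∀ x ∈ chartOne R E t, ∀ (N : ℕ), ∀ y ∈ chartOne R E t,
      x ^ N = algebraMap R E π * y → ∃ z ∈ chartOne R E t, x = algebraMap R E π * z) :
    ∀ x : ↥(chartOne R E t), ∀ N : ℕ, ∀ y : ↥(chartOne R E t),
      x ^ N = algebraMap R ↥(chartOne R E t) π * y →
        ∃ z : ↥(chartOne R E t), x = algebraMap R ↥(chartOne R E t) π * z := by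
  intro x N y hxy
  obtain ⟨z, hz, hxz⟩ := hRED₁ x x.2 N y y.2 (by
    have := congrArg (fun w : ↥(chartOne R E t) => (w : E)) hxy
    simpa using this)
  exact ⟨⟨z, hz⟩, Subtype.ext (by simpa using hxz)⟩

omit [IsIntegrallyClosed R] [IsNoetherianRing R] [CharZero R] [FiniteDimensional K E] in
/-- the sheets see the first chart. -/
theorem chartOne_dvd_of_forall_mem_sheet (t : K) (ht0 : t ≠ 0) (π : R)
    (hRED₁ : ∀ x ∈ chartOne R E t, ∀ (N : ℕ), ∀ y ∈ chartOne R E t,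
      x ^ N = algebraMap R E π * y → ∃ z ∈ chartOne R E t, x = algebraMap R E π * z)
    (hT₁ : ∀ 𝔮 ∈ (Ideal.span {algebraMap R ↥(chartOne R E t) π}).minimalPrimes,
      (⟨algebraMap K E t, algebraMap_coord_mem_chartOne t⟩ : ↥(chartOne R E t)) ∉ 𝔮)
    (x : ↥(chartOne R E t))
    (hx : ∀ s : SheetOf R E t π, Subalgebra.inclusion (chartOne_le_chartMid t) x ∈ s.1) :
    ∃ z : ↥(chartOne R E t), x = algebraMap R ↥(chartOne R E t) π * z := by
  have htE : algebraMap K E t ≠ 0 := by rw [Ne, map_eq_zero]; exact ht0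
  exact pair_dvd_of_forall_mem_minimalPrimes (chartOne_le_chartMid t)
    (algebraMap K E t) (algebraMap_coord_mem_chartOne t) htE (inv_coord_mem_chartMid t ht0)
    (fun x hx => hx) π (reduced_subtype t π hRED₁) hT₁ x (fun 𝔓 h𝔓 => hx ⟨𝔓, h𝔓⟩)

omit [IsIntegrallyClosed R] [IsNoetherianRing R] [CharZero R] [FiniteDimensional K E] in
/-- the sheets see the second chart. -/
theorem chartOne_inv_dvd_of_forall_mem_sheet (t : K) (ht0 : t ≠ 0) (π : R)
    (hRED₂ : ∀ x ∈ chartOne R E t⁻¹, ∀ (N : ℕ), ∀ y ∈ chartOne R E t⁻¹,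
      x ^ N = algebraMap R E π * y → ∃ z ∈ chartOne R E t⁻¹, x = algebraMap R E π * z)
    (hT₂ : ∀ 𝔮 ∈ (Ideal.span {algebraMap R ↥(chartOne R E t⁻¹) π}).minimalPrimes,
      (⟨algebraMap K E t⁻¹, algebraMap_coord_mem_chartOne t⁻¹⟩ : ↥(chartOne R E t⁻¹)) ∉ 𝔮)
    (x : ↥(chartOne R E t⁻¹))
    (hx : ∀ s : SheetOf R E t π,
      Subalgebra.inclusion (chartOne_inv_le_chartMid t ht0) x ∈ s.1) :
    ∃ z : ↥(chartOne R E t⁻¹), x = algebraMap R ↥(chartOne R E t⁻¹) π * z := by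
  have htE : algebraMap K E t ≠ 0 := by rw [Ne, map_eq_zero]; exact ht0
  have hinv2 : (algebraMap K E t)⁻¹ ∈ chartOne R E t⁻¹ := by
    rw [← map_inv₀]; exact algebraMap_coord_mem_chartOne t⁻¹
  exact pair_dvd_of_forall_mem_minimalPrimes (chartOne_inv_le_chartMid t ht0)
    (algebraMap K E t)⁻¹ hinv2 (inv_ne_zero htE)
    (by rw [inv_inv]; exact chartOne_le_chartMid t (algebraMap_coord_mem_chartOne t))
    (fun x hx => exists_inv_pow_mul_mem_of_mem_chartMid t ht0 hx) π (reduced_subtype t⁻¹ π hRED₂)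
    (by
      intro 𝔮 h𝔮
      have := hT₂ 𝔮 h𝔮
      convert this using 2
      exact Subtype.ext (map_inv₀ _ _).symm) x (fun 𝔓 h𝔓 => hx ⟨𝔓, h𝔓⟩)

omit [IsIntegrallyClosed R] [IsNoetherianRing R] [CharZero R] [FiniteDimensional K E] in
/-- the middle ring is reduced modulo `π`. -/
theorem chartMid_dvd_of_forall_mem_sheet (t : K) (ht0 : t ≠ 0) (π : R)
    (hRED₁ : ∀ x ∈ chartOne R E t, ∀ (N : ℕ), ∀ y ∈ chartOne R E t,
      x ^ N = algebraMap R E π * y → ∃ z ∈ chartOne R E t, x = algebraMap R E π * z)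
    (x : ↥(chartMid R E t)) (hx : ∀ s : SheetOf R E t π, x ∈ s.1) :
    ∃ z : ↥(chartMid R E t), x = algebraMap R ↥(chartMid R E t) π * z := by
  have htE : algebraMap K E t ≠ 0 := by rw [Ne, map_eq_zero]; exact ht0
  exact pair_dvd_of_forall_mem_minimalPrimes' (chartOne_le_chartMid t)
    (algebraMap K E t) (algebraMap_coord_mem_chartOne t) htE (inv_coord_mem_chartMid t ht0)
    (fun x hx => hx) π (reduced_subtype t π hRED₁) x (fun 𝔓 h𝔓 => hx ⟨𝔓, h𝔓⟩)

/-- there is at least one sheet. -/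
theorem nonempty_sheetOf (t : K) (ht : Transcendental K₁ t)
    (hK : IntermediateField.adjoin K₁ {t} = ⊤) (π : R) (hπ : Prime π)
    (hM4 : ∀ x : E, IsAlgebraic K₁ x → x ∈ Set.range (algebraMap K₁ E))
    (hRED₁ : ∀ x ∈ chartOne R E t, ∀ (N : ℕ), ∀ y ∈ chartOne R E t,
      x ^ N = algebraMap R E π * y → ∃ z ∈ chartOne R E t, x = algebraMap R E π * z)
    (hRED₂ : ∀ x ∈ chartOne R E t⁻¹, ∀ (N : ℕ), ∀ y ∈ chartOne R E t⁻¹,
      x ^ N = algebraMap R E π * y → ∃ z ∈ chartOne R E t⁻¹, x = algebraMap R E π * z)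
    (hT₁ : ∀ 𝔮 ∈ (Ideal.span {algebraMap R ↥(chartOne R E t) π}).minimalPrimes,
      (⟨algebraMap K E t, algebraMap_coord_mem_chartOne t⟩ : ↥(chartOne R E t)) ∉ 𝔮)
    (hT₂ : ∀ 𝔮 ∈ (Ideal.span {algebraMap R ↥(chartOne R E t⁻¹) π}).minimalPrimes,
      (⟨algebraMap K E t⁻¹, algebraMap_coord_mem_chartOne t⁻¹⟩ : ↥(chartOne R E t⁻¹)) ∉ 𝔮) :
    Nonempty (SheetOf R E t π) := by
  have ht0 : t ≠ 0 := fun h => ht (h ▸ isAlgebraic_zero)
  have hinj : Function.Injective (algebraMap R E) := algebraMap_injective_of_tower (K₁ := K₁) (K := K)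
  have hπE : algebraMap R E π ≠ 0 := by
    rw [Ne, map_eq_zero_iff _ hinj]; exact hπ.ne_zero
  by_contra hempty
  obtain ⟨z₁, hz₁⟩ := chartOne_dvd_of_forall_mem_sheet t ht0 π hRED₁ hT₁ 1
    (fun s => (hempty ⟨s⟩).elim)
  obtain ⟨z₂, hz₂⟩ := chartOne_inv_dvd_of_forall_mem_sheet t ht0 π hRED₂ hT₂ 1
    (fun s => (hempty ⟨s⟩).elim)
  have h1 : algebraMap R E π * (z₁ : E) = 1 := by
    have := congrArg (fun w : ↥(chartOne R E t) => (w : E)) hz₁
    simpa using this.symm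
  have h2 : algebraMap R E π * (z₂ : E) = 1 := by
    have := congrArg (fun w : ↥(chartOne R E t⁻¹) => (w : E)) hz₂
    simpa using this.symm
  have h12 : (z₁ : E) = z₂ := mul_left_cancel₀ hπE (h1.trans h2.symm)
  obtain ⟨r, hr⟩ := exists_algebraMap_eq_of_isIntegral_both (R := R) t ht hK hM4 (z₁ : E) z₁.2
    (h12 ▸ z₂.2)
  apply hπ.not_isUnit
  refine IsUnit.of_mul_eq_one r (hinj ?_)
  rw [map_mul, hr, h1, map_one]

/-- **connectedness of the sheets of the charts.** -/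
theorem chart_sheet_const (t : K) (ht : Transcendental K₁ t)
    (hK : IntermediateField.adjoin K₁ {t} = ⊤) (π : R) (hπ : Prime π)
    (hM4 : ∀ x : E, IsAlgebraic K₁ x → x ∈ Set.range (algebraMap K₁ E))
    (hRED₁ : ∀ x ∈ chartOne R E t, ∀ (N : ℕ), ∀ y ∈ chartOne R E t,
      x ^ N = algebraMap R E π * y → ∃ z ∈ chartOne R E t, x = algebraMap R E π * z)
    (hRED₂ : ∀ x ∈ chartOne R E t⁻¹, ∀ (N : ℕ), ∀ y ∈ chartOne R E t⁻¹,
      x ^ N = algebraMap R E π * y → ∃ z ∈ chartOne R E t⁻¹, x = algebraMap R E π * z)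
    (hT₁ : ∀ 𝔮 ∈ (Ideal.span {algebraMap R ↥(chartOne R E t) π}).minimalPrimes,
      (⟨algebraMap K E t, algebraMap_coord_mem_chartOne t⟩ : ↥(chartOne R E t)) ∉ 𝔮)
    (hT₂ : ∀ 𝔮 ∈ (Ideal.span {algebraMap R ↥(chartOne R E t⁻¹) π}).minimalPrimes,
      (⟨algebraMap K E t⁻¹, algebraMap_coord_mem_chartOne t⁻¹⟩ : ↥(chartOne R E t⁻¹)) ∉ 𝔮)
    {X : Type*} (Φ : SheetOf R E t π → X)
    (hΦ₁ : ∀ 𝔑 : Ideal ↥(chartOne R E t), 𝔑.IsMaximal → ∀ s s' : SheetOf R E t π,
      (s.1).comap (Subalgebra.inclusion (chartOne_le_chartMid t)) ≤ 𝔑 →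
      (s'.1).comap (Subalgebra.inclusion (chartOne_le_chartMid t)) ≤ 𝔑 → Φ s = Φ s')
    (hΦ₂ : ∀ 𝔑 : Ideal ↥(chartOne R E t⁻¹), 𝔑.IsMaximal → ∀ s s' : SheetOf R E t π,
      (s.1).comap (Subalgebra.inclusion (chartOne_inv_le_chartMid t
        (fun h => ht (h ▸ isAlgebraic_zero)))) ≤ 𝔑 →
      (s'.1).comap (Subalgebra.inclusion (chartOne_inv_le_chartMid t
        (fun h => ht (h ▸ isAlgebraic_zero)))) ≤ 𝔑 → Φ s = Φ s') :
    ∀ s s' : SheetOf R E t π, Φ s = Φ s' := by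
  have ht0 : t ≠ 0 := fun h => ht (h ▸ isAlgebraic_zero)
  have htE : algebraMap K E t ≠ 0 := by rw [Ne, map_eq_zero]; exact ht0
  have hinj : Function.Injective (algebraMap R E) := algebraMap_injective_of_tower (K₁ := K₁) (K := K)
  have hπE : algebraMap R E π ≠ 0 := by
    rw [Ne, map_eq_zero_iff _ hinj]; exact hπ.ne_zero
  haveI := finite_sheetOf (R := R) (K₁ := K₁) (E := E) t ht hK π
  have hinvE : ((Units.mk0 (algebraMap K E t) htE)⁻¹ : Eˣ).1 = (algebraMap K E t)⁻¹ := by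
    rw [Units.val_inv_eq_inv_val, Units.val_mk0]
  have h₂₁ := chartOne_inv_le_chartMid (R := R) (E := E) t ht0
  have hinv2 : (algebraMap K E t)⁻¹ ∈ chartOne R E t⁻¹ := by
    rw [← map_inv₀]; exact algebraMap_coord_mem_chartOne t⁻¹
  refine sheet_const_of_incident hπ (fun x hx => ?_) hinj (Units.mk0 (algebraMap K E t) htE)
    (chartOne R E t) (chartOne R E t⁻¹) (chartMid R E t)
    (algebraMap_coord_mem_chartOne t) (by rw [hinvE]; exact hinv2)
    (chartOne_le_chartMid t) h₂₁ (fun x hx => hx) ?_ ?_ ?_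
    (fun s : SheetOf R E t π => s.1) (fun s => s.2.1.1)
    (fun s => s.2.1.2 (Ideal.subset_span (Set.mem_singleton _))) ?_ ?_ ?_ Φ hΦ₁ hΦ₂
  · rw [Algebra.smul_def] at hx
    rcases mul_eq_zero.1 hx with h | h
    · exact absurd h hπE
    · exact h
  · intro x hx₁ hx₂
    exact exists_algebraMap_eq_of_isIntegral_both (R := R) t ht hK hM4 x hx₁ hx₂
  · exact exists_finset_span_integralClosure (R := R) (K₁ := K₁) (E := E) t ht hK
  · intro b hb
    rw [hinvE]
    exact exists_inv_pow_mul_mem_chartOne_inv t ht0 hb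
  · intro x hx
    obtain ⟨z, hz⟩ := chartOne_dvd_of_forall_mem_sheet t ht0 π hRED₁ hT₁ x hx
    refine ⟨z, z.2, ?_⟩
    rw [hz, Algebra.smul_def]
    rfl
  · intro x hx
    obtain ⟨z, hz⟩ := chartOne_inv_dvd_of_forall_mem_sheet t ht0 π hRED₂ hT₂ x hx
    refine ⟨z, z.2, ?_⟩
    rw [hz, Algebra.smul_def]
    rfl
  · intro x hx
    obtain ⟨z, hz⟩ := chartMid_dvd_of_forall_mem_sheet t ht0 π hRED₁ x hx
    refine ⟨z, z.2, ?_⟩
    rw [hz, Algebra.smul_def]
    rfl

end Sheets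

end Fermat.Agent.SS
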