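/-
(SS-q) package SS-KUM — helper3 — part 6: the hypotheses of `chart_sheet_const` pass from `F` to a
finite extension `L`: the coordinate lies in no prime of the chart of `L` minimal over `π`
(going down).
-/
import Fermat.Agent.SS.KUM_helper3_Red
import Fermat.Agent.SS.KUM_helper3_Sheet

set_option autoImplicit false
set_option linter.unusedSectionVars false
set_option linter.style.haveILetI false

namespace Fermat.Agent.SS

open Fermat.Agent.JA Polynomial

section Lift

variable {R : Type*} [CommRing R] [IsDomain R] [IsIntegrallyClosed R] [IsNoetherianRing R]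
  [CharZero R] {K₁ : Type*} [Field K₁] [Algebra R K₁]
  [IsFractionRing R K₁] {K : Type*} [Field K] [Algebra K₁ K] [Algebra R K] [IsScalarTower R K₁ K]
  {F : Type*} [Field F] [Algebra K F] [Algebra R F] [IsScalarTower R K F] [FiniteDimensional K F]
  {L : Type*} [Field L] [Algebra K L] [Algebra R L] [IsScalarTower R K L] [Algebra F L]
  [IsScalarTower K F L] [FiniteDimensional K L]

/-- a prime of the chart of `L` minimal over `π` has height one. -/
theorem height_eq_one_of_mem_minimalPrimes_chartOne (t : K) (ht : Transcendental K₁ t)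
    (hK : IntermediateField.adjoin K₁ {t} = ⊤) (π : R) (hπ : algebraMap R L π ≠ 0)
    (𝔔 : Ideal ↥(chartOne R L t))
    (h𝔔 : 𝔔 ∈ (Ideal.span {algebraMap R ↥(chartOne R L t) π}).minimalPrimes) :
    𝔔.height = 1 := by
  haveI : IsNoetherianRing ↥(chartOne R L t) := isNoetherianRing_chartOne (K₁ := K₁) t ht hK
  haveI : 𝔔.IsPrime := h𝔔.1.1
  have h1 : 𝔔.height ≤ 1 := Ideal.height_le_one_of_isPrincipal_of_mem_minimalPrimes _ 𝔔 h𝔔
  have h0 : 𝔔.height ≠ 0 := by
    intro h
    rw [Ideal.height_eq_zero_iff_eq_bot] at h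
    have hmem : algebraMap R ↥(chartOne R L t) π ∈ 𝔔 :=
      h𝔔.1.2 (Ideal.subset_span (Set.mem_singleton _))
    rw [h, Ideal.mem_bot] at hmem
    apply hπ
    have := congrArg (fun z : ↥(chartOne R L t) => (z : L)) hmem
    exact this
  exact le_antisymm h1 (Order.one_le_iff_pos.2 (pos_iff_ne_zero.2 h0))

/-- the coordinate lies in no prime of the chart of `L` minimal over `π`, if this holds for `F`. -/
theorem coord_not_mem_minimalPrimes_lift (t : K) (ht : Transcendental K₁ t)
    (hK : IntermediateField.adjoin K₁ {t} = ⊤) (π : R) (hπ : algebraMap R L π ≠ 0)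
    (hT₁ : ∀ 𝔮 ∈ (Ideal.span {algebraMap R ↥(chartOne R F t) π}).minimalPrimes,
      (⟨algebraMap K F t, algebraMap_coord_mem_chartOne t⟩ : ↥(chartOne R F t)) ∉ 𝔮) :
    ∀ 𝔔 ∈ (Ideal.span {algebraMap R ↥(chartOne R L t) π}).minimalPrimes,
      (⟨algebraMap K L t, algebraMap_coord_mem_chartOne t⟩ : ↥(chartOne R L t)) ∉ 𝔔 := by
  intro 𝔔 h𝔔 hmem
  haveI : 𝔔.IsPrime := h𝔔.1.1
  have hh := height_eq_one_of_mem_minimalPrimes_chartOne (K₁ := K₁) t ht hK π hπ 𝔔 h𝔔
  have hmin := comap_chartMap_mem_minimalPrimes (K₁ := K₁) (F := F) t ht hK π hπ 𝔔 hh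
    (h𝔔.1.2 (Ideal.subset_span (Set.mem_singleton _)))
  apply hT₁ _ hmin
  change chartMap t _ ∈ 𝔔
  convert hmem using 1
  apply Subtype.ext
  rw [coe_chartMap]
  exact (IsScalarTower.algebraMap_apply K F L t).symm

end Lift

end Fermat.Agent.SS
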