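/-
(SS-q) package SS-KUM — helper3 — part 8: **the local computations** for `h = σ g / g`
(`σ` an endomorphism of `F` which is trivial modulo `π` on the chart), `α ^ m = h`:
* `kummer_local` : if `g = λ ^ m c / d` (`c, d` in the chart), then `z := α λ / σ λ` is a fraction
  `a / e` with `a` in the chart of `L`, `e = σ(d) c` and `a ^ m - e ^ m ∈ π B̃`;
* `ratio_cong` : two such representations (`λ`, `λ'`) at a prime `𝔭 ∋ π` of the chart give ratios
  `λ / σ λ`, `λ' / σ λ'` which are congruent at `𝔭`.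
-/
import Fermat.Agent.SS.KUM_helper3_Red

set_option autoImplicit false
set_option linter.unusedSectionVars false
set_option linter.style.haveILetI false

namespace Fermat.Agent.SS

open Fermat.Agent.JA Polynomial

section Identities

variable {F : Type*} [Field F]

/-- the field identity behind `kummer_local`. -/
theorem kummer_field_identity (σ : F →+* F) {m : ℕ} (g lam c d : F) (hg : g ≠ 0) (hlam : lam ≠ 0)
    (hgd : g * d = lam ^ m * c) :
    (σ g / g) * (lam / σ lam) ^ m * (σ d * c) = σ c * d := by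
  have hΛ : σ lam ≠ 0 := (map_ne_zero σ).2 hlam
  have h1 : σ g * σ d = σ lam ^ m * σ c := by
    rw [← map_mul, hgd, map_mul, map_pow]
  rw [div_pow, div_mul_div_comm, div_mul_eq_mul_div,
    div_eq_iff (mul_ne_zero hg (pow_ne_zero _ hΛ))]
  linear_combination (lam ^ m * c) * h1 - (σ lam ^ m * σ c) * hgd

/-- the field identity behind `ratio_cong`, part 1. -/
theorem ratio_pow_identity {m : ℕ} (hm : 0 < m) (g lam lam' c d c' d' : F) (hlam' : lam' ≠ 0)
    (hgd : g * d = lam ^ m * c) (hgd' : g * d' = lam' ^ m * c') :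
    (lam / lam' * (c * d')) ^ m = d * c' * (c * d') ^ (m - 1) := by
  obtain ⟨k, rfl⟩ : ∃ k, m = k + 1 := ⟨m - 1, (Nat.sub_add_cancel hm).symm⟩
  rw [Nat.add_sub_cancel, mul_pow, div_pow, div_mul_eq_mul_div,
    div_eq_iff (pow_ne_zero _ hlam'), pow_succ (c * d') k]
  linear_combination (-((c * d') ^ k * d')) * hgd + ((c * d') ^ k * d) * hgd'

/-- the field identity behind `ratio_cong`, part 2. -/
theorem ratio_field_identity (σ : F →+* F) (lam lam' b : F) (hlam : lam ≠ 0) (hlam' : lam' ≠ 0) :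
    (lam / σ lam) * (b * σ (lam / lam' * b)) = (lam' / σ lam') * ((lam / lam' * b) * σ b) := by
  have hΛ : σ lam ≠ 0 := (map_ne_zero σ).2 hlam
  have hΛ' : σ lam' ≠ 0 := (map_ne_zero σ).2 hlam'
  rw [map_mul, map_div₀]
  field_simp

end Identities

section Local

variable {R : Type*} [CommRing R] [IsDomain R] {K : Type*} [Field K] [Algebra R K]
  {F : Type*} [Field F] [Algebra K F] [Algebra R F] [IsScalarTower R K F]
  {L : Type*} [Field L] [Algebra K L] [Algebra R L] [IsScalarTower R K L] [Algebra F L]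
  [IsScalarTower K F L]

/-- `σ` trivial modulo `π` on the chart, in subtype form. -/
theorem exists_subtype_of_trivial_mod (t : K) (π : R) (σ : F →+* F)
    (hσ : ∀ x ∈ chartOne R F t, ∃ z ∈ chartOne R F t, σ x = x + algebraMap R F π * z)
    (x : ↥(chartOne R F t)) :
    ∃ z : ↥(chartOne R F t),
      σ (x : F) = ((x + algebraMap R ↥(chartOne R F t) π * z : ↥(chartOne R F t)) : F) := by
  obtain ⟨z, hz, hxz⟩ := hσ x x.2
  exact ⟨⟨z, hz⟩, by rw [hxz]; rfl⟩

/-- **local Kummer computation.** -/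
theorem kummer_local (t : K) (π : R) {m : ℕ} (hm : 0 < m) (σ : F →+* F)
    (hσ : ∀ x ∈ chartOne R F t, ∃ z ∈ chartOne R F t, σ x = x + algebraMap R F π * z)
    (g : F) (hg : g ≠ 0) (α : L) (hα : α ^ m = algebraMap F L (σ g / g))
    (lam : F) (hlam : lam ≠ 0) (c d : ↥(chartOne R F t))
    (hgd : g * (d : F) = lam ^ m * (c : F)) :
    ∃ z' : ↥(chartOne R F t), ∃ a y : ↥(chartOne R L t),
      (α * algebraMap F L (lam / σ lam)) *
        ((chartMap (L := L) t ((d + algebraMap R ↥(chartOne R F t) π * z') * c) :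
          ↥(chartOne R L t)) : L) = (a : L) ∧
      a ^ m - (chartMap (L := L) t ((d + algebraMap R ↥(chartOne R F t) π * z') * c)) ^ m =
        algebraMap R ↥(chartOne R L t) π * y := by
  obtain ⟨zd, hzd⟩ := exists_subtype_of_trivial_mod t π σ hσ d
  obtain ⟨zc, hzc⟩ := exists_subtype_of_trivial_mod t π σ hσ c
  set e : ↥(chartOne R F t) := (d + algebraMap R ↥(chartOne R F t) π * zd) * c with he
  have heF : (e : F) = σ (d : F) * (c : F) := by
    rw [he, hzd]; rfl
  set wB : ↥(chartOne R F t) := (c + algebraMap R ↥(chartOne R F t) π * zc) * d * e ^ (m - 1)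
    with hwB
  have hwF : (wB : F) = σ (c : F) * (d : F) * (e : F) ^ (m - 1) := by
    rw [hwB, hzc]; rfl
  -- the element `a`
  set aL : L := (α * algebraMap F L (lam / σ lam)) * algebraMap F L (e : F) with haL
  have hapow : aL ^ m = algebraMap F L (wB : F) := by
    rw [haL, mul_pow, mul_pow, hα, ← map_pow, ← map_pow, ← map_mul, ← map_mul, hwF]
    congr 1
    obtain ⟨k, rfl⟩ : ∃ k, m = k + 1 := ⟨m - 1, (Nat.sub_add_cancel hm).symm⟩
    rw [Nat.add_sub_cancel, pow_succ' (e : F) k]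
    have := kummer_field_identity σ g lam (c : F) (d : F) hg hlam hgd
    rw [← heF] at this
    calc σ g / g * (lam / σ lam) ^ (k + 1) * ((e : F) * (e : F) ^ k)
        = (σ g / g * (lam / σ lam) ^ (k + 1) * (e : F)) * (e : F) ^ k := by ring
      _ = σ (c : F) * (d : F) * (e : F) ^ k := by rw [this]
  have haint : aL ∈ chartOne R L t := by
    rw [mem_chartOne_iff]
    apply IsIntegral.of_pow hm
    rw [hapow]
    exact (algebraMap_mem_chartOne_iff t (wB : F)).2 wB.2
  refine ⟨zd, ⟨aL, haint⟩, chartMap t (e ^ (m - 1) * (zc * d - zd * c)), rfl, ?_⟩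
  apply Subtype.ext
  have h0 : (((⟨aL, haint⟩ : ↥(chartOne R L t)) ^ m - (chartMap (L := L) t e) ^ m :
      ↥(chartOne R L t)) : L) = aL ^ m - (algebraMap F L (e : F)) ^ m := rfl
  have h1 : (((⟨aL, haint⟩ : ↥(chartOne R L t)) ^ m - (chartMap (L := L) t e) ^ m :
      ↥(chartOne R L t)) : L) = algebraMap F L ((wB - e ^ m : ↥(chartOne R F t)) : F) := by
    rw [h0, hapow, ← map_pow, ← map_sub]
    rfl
  rw [h1]
  have h2 : wB - e ^ m = algebraMap R ↥(chartOne R F t) π * (e ^ (m - 1) * (zc * d - zd * c)) := by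
    obtain ⟨k, hk⟩ : ∃ k, m = k + 1 := ⟨m - 1, (Nat.sub_add_cancel hm).symm⟩
    rw [hwB, hk, Nat.add_sub_cancel, pow_succ' e k]
    rw [he]
    ring
  rw [h2]
  have h3 : (((algebraMap R ↥(chartOne R L t) π * chartMap (L := L) t
      (e ^ (m - 1) * (zc * d - zd * c)) : ↥(chartOne R L t))) : L) =
      algebraMap R L π * algebraMap F L ((e ^ (m - 1) * (zc * d - zd * c) : ↥(chartOne R F t)) : F)
      := rfl
  rw [h3]
  have h4 : ((algebraMap R ↥(chartOne R F t) π * (e ^ (m - 1) * (zc * d - zd * c)) :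
      ↥(chartOne R F t)) : F) =
      algebraMap R F π * ((e ^ (m - 1) * (zc * d - zd * c) : ↥(chartOne R F t)) : F) := rfl
  rw [h4, map_mul, algebraMap_algebraMap_eq (K := K)]

/-- **two representations give congruent ratios.** -/
theorem ratio_cong (t : K) (π : R) {m : ℕ} (hm : 0 < m) (σ : F →+* F)
    (hσ : ∀ x ∈ chartOne R F t, ∃ z ∈ chartOne R F t, σ x = x + algebraMap R F π * z)
    (g : F) (𝔭 : Ideal ↥(chartOne R F t)) [𝔭.IsPrime]
    (hπ𝔭 : algebraMap R ↥(chartOne R F t) π ∈ 𝔭) (lam lam' : F) (hlam : lam ≠ 0)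
    (hlam' : lam' ≠ 0) (c d c' d' : ↥(chartOne R F t)) (hc : c ∉ 𝔭) (hd : d ∉ 𝔭) (hc' : c' ∉ 𝔭)
    (hd' : d' ∉ 𝔭) (hgd : g * (d : F) = lam ^ m * (c : F))
    (hgd' : g * (d' : F) = lam' ^ m * (c' : F)) :
    ∃ p q : ↥(chartOne R F t), q ∉ 𝔭 ∧ p - q ∈ 𝔭 ∧
      (lam / σ lam) * (q : F) = (lam' / σ lam') * (p : F) := by
  have hprime : 𝔭.IsPrime := inferInstance
  set b₀ : ↥(chartOne R F t) := c * d' with hb₀
  have hb₀𝔭 : b₀ ∉ 𝔭 := fun h => (hprime.mem_or_mem h).elim hc hd'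
  have hpow := ratio_pow_identity hm g lam lam' (c : F) (d : F) (c' : F) (d' : F) hlam' hgd hgd'
  have hA₀ : lam / lam' * ((c : F) * (d' : F)) ∈ chartOne R F t := by
    rw [mem_chartOne_iff]
    apply IsIntegral.of_pow hm
    rw [hpow]
    exact (d * c' * (c * d') ^ (m - 1) : ↥(chartOne R F t)).2
  set a₀ : ↥(chartOne R F t) := ⟨lam / lam' * ((c : F) * (d' : F)), hA₀⟩ with ha₀
  have ha₀pow : a₀ ^ m = d * c' * (c * d') ^ (m - 1) := Subtype.ext (by
    push_cast
    exact hpow)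
  have ha₀𝔭 : a₀ ∉ 𝔭 := by
    intro h
    have h1 : a₀ ^ m ∈ 𝔭 := 𝔭.pow_mem_of_mem h m hm
    rw [ha₀pow] at h1
    rcases hprime.mem_or_mem h1 with h2 | h2
    · exact (hprime.mem_or_mem h2).elim hd hc'
    · exact hb₀𝔭 (hprime.mem_of_pow_mem _ h2)
  obtain ⟨a₁, ha₁⟩ := exists_subtype_of_trivial_mod t π σ hσ a₀
  obtain ⟨b₁, hb₁⟩ := exists_subtype_of_trivial_mod t π σ hσ b₀
  refine ⟨a₀ * (b₀ + algebraMap R ↥(chartOne R F t) π * b₁),
    b₀ * (a₀ + algebraMap R ↥(chartOne R F t) π * a₁), ?_, ?_, ?_⟩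
  · intro h
    rcases hprime.mem_or_mem h with h1 | h1
    · exact hb₀𝔭 h1
    · apply ha₀𝔭
      have : a₀ = (a₀ + algebraMap R ↥(chartOne R F t) π * a₁) -
          algebraMap R ↥(chartOne R F t) π * a₁ := by ring
      rw [this]
      exact 𝔭.sub_mem h1 (𝔭.mul_mem_right _ hπ𝔭)
  · have : a₀ * (b₀ + algebraMap R ↥(chartOne R F t) π * b₁) -
        b₀ * (a₀ + algebraMap R ↥(chartOne R F t) π * a₁) =
        algebraMap R ↥(chartOne R F t) π * (a₀ * b₁ - b₀ * a₁) := by ring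
    rw [this]
    exact 𝔭.mul_mem_right _ hπ𝔭
  · have h1 : ((b₀ * (a₀ + algebraMap R ↥(chartOne R F t) π * a₁) : ↥(chartOne R F t)) : F) =
        (b₀ : F) * σ (a₀ : F) := by
      rw [ha₁]; rfl
    have h2 : ((a₀ * (b₀ + algebraMap R ↥(chartOne R F t) π * b₁) : ↥(chartOne R F t)) : F) =
        (a₀ : F) * σ (b₀ : F) := by
      rw [hb₁]; rfl
    rw [h1, h2]
    have h3 : (a₀ : F) = lam / lam' * (b₀ : F) := rfl
    rw [h3]
    exact ratio_field_identity σ lam lam' (b₀ : F) hlam hlam'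

end Local

end Fermat.Agent.SS
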