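/-
(SS-q) package SS-KUM — helper3 — part 9: **the main argument**.  `h = σ g / g` with `σ` trivial on
the special fibre and `g` locally (at every closed point of the special fibre of both charts) an
`m`-th power times a unit; `L ⊇ F`, `α ∈ L`, `α ^ m = h`.  On every sheet `𝔓` of `L` the element
`α λ / σ λ` (`λ` any local `m`-th root datum of `g` at the sheet) is congruent to a well defined
`m`-th root of unity `Φ(𝔓)`; `Φ` agrees on sheets through a common closed point, hence is constant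
(SS-CONN2), hence every `F`-automorphism of `L` fixes `α`.
-/
import Fermat.Agent.SS.KUM_helper3_Local
import Fermat.Agent.SS.KUM_helper3_Cong
import Fermat.Agent.SS.KUM_helper3_Lift

set_option autoImplicit false
set_option linter.unusedSectionVars false
set_option linter.style.haveILetI false

namespace Fermat.Agent.SS

open Fermat.Agent.JA Polynomial

section Maps

variable {R : Type*} [CommRing R] [IsDomain R] {K : Type*} [Field K] [Algebra R K]
  {F : Type*} [Field F] [Algebra K F] [Algebra R F] [IsScalarTower R K F]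
  {L : Type*} [Field L] [Algebra K L] [Algebra R L] [IsScalarTower R K L] [Algebra F L]
  [IsScalarTower K F L]

/-- the chart of `F` into the middle ring of `L`. -/
def midMap (t : K) : ↥(chartOne R F t) →+* ↥(chartMid R L t) :=
  (Subalgebra.inclusion (chartOne_le_chartMid t)).toRingHom.comp (chartMap t)

theorem coe_midMap (t : K) (x : ↥(chartOne R F t)) :
    ((midMap (L := L) t x : ↥(chartMid R L t)) : L) = algebraMap F L (x : F) := rfl

theorem midMap_algebraMap (t : K) (r : R) :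
    midMap (L := L) t (algebraMap R ↥(chartOne R F t) r) = algebraMap R ↥(chartMid R L t) r := by
  apply Subtype.ext
  change algebraMap F L (algebraMap R F r) = algebraMap R L r
  exact algebraMap_algebraMap_eq (K := K) r

/-- `λ` is a local `m`-th root datum of `g` at the sheet `𝔓`. -/
def KumGoodAt (t : K) (m : ℕ) (g : F) (𝔓 : Ideal ↥(chartMid R L t)) (lam : F) : Prop :=
  lam ≠ 0 ∧ ∃ c d : ↥(chartOne R F t), midMap (L := L) t c ∉ 𝔓 ∧ midMap (L := L) t d ∉ 𝔓 ∧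
    g * (d : F) = lam ^ m * (c : F)

/-- an `F`-automorphism of `L` fixes the coordinate. -/
theorem algEquiv_coord (t : K) (τ : L ≃ₐ[F] L) : τ (algebraMap K L t) = algebraMap K L t := by
  rw [IsScalarTower.algebraMap_apply K F L, τ.commutes]

theorem algEquiv_mem_chartMid (t : K) (τ : L ≃ₐ[F] L) {x : L} (hx : x ∈ chartMid R L t) :
    τ x ∈ chartMid R L t := by
  obtain ⟨n, hn⟩ := hx
  refine ⟨n, ?_⟩
  have := algEquiv_mem_chartOne (R := R) t τ hn
  rwa [map_mul, map_pow, algEquiv_coord] at this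

/-- the action of an `F`-automorphism of `L` on the middle ring. -/
def midAut (t : K) (τ : L ≃ₐ[F] L) : ↥(chartMid R L t) →+* ↥(chartMid R L t) where
  toFun x := ⟨τ x, algEquiv_mem_chartMid t τ x.2⟩
  map_one' := Subtype.ext (by simp)
  map_mul' x y := Subtype.ext (by simp)
  map_zero' := Subtype.ext (by simp)
  map_add' x y := Subtype.ext (by simp)

theorem coe_midAut (t : K) (τ : L ≃ₐ[F] L) (x : ↥(chartMid R L t)) :
    ((midAut (R := R) t τ x : ↥(chartMid R L t)) : L) = τ (x : L) := rfl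

theorem midAut_algebraMap (t : K) (τ : L ≃ₐ[F] L) (r : R) :
    midAut (R := R) t τ (algebraMap R ↥(chartMid R L t) r) = algebraMap R ↥(chartMid R L t) r := by
  apply Subtype.ext
  change τ (algebraMap R L r) = algebraMap R L r
  rw [← algebraMap_algebraMap_eq (K := K) (F := F) (L := L) r, τ.commutes]

theorem midAut_midMap (t : K) (τ : L ≃ₐ[F] L) (x : ↥(chartOne R F t)) :
    midAut (R := R) t τ (midMap (L := L) t x) = midMap (L := L) t x := by
  apply Subtype.ext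
  change τ (algebraMap F L (x : F)) = algebraMap F L (x : F)
  exact τ.commutes _

theorem midAut_inv (t : K) (τ : L ≃ₐ[F] L) (x : ↥(chartMid R L t)) :
    midAut (R := R) t τ (midAut (R := R) t τ⁻¹ x) = x := by
  apply Subtype.ext
  change τ (τ⁻¹ (x : L)) = x
  exact τ.apply_symm_apply _

theorem midAut_inv' (t : K) (τ : L ≃ₐ[F] L) (x : ↥(chartMid R L t)) :
    midAut (R := R) t τ⁻¹ (midAut (R := R) t τ x) = x := by
  apply Subtype.ext
  change τ⁻¹ (τ (x : L)) = x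
  exact τ.symm_apply_apply _

/-- the contraction of a maximal ideal of the chart of `L` to the chart of `F` is maximal. -/
theorem comap_chartMap_isMaximal (t : K) (𝔑 : Ideal ↥(chartOne R L t)) [h𝔑 : 𝔑.IsMaximal] :
    (𝔑.comap (chartMap (F := F) t)).IsMaximal := by
  letI : Algebra ↥(chartOne R F t) ↥(chartOne R L t) := (chartMap (F := F) (L := L) t).toAlgebra
  haveI : Algebra.IsIntegral ↥(chartOne R F t) ↥(chartOne R L t) := ⟨chartMap_isIntegral t⟩
  exact Ideal.isMaximal_comap_of_isIntegral_of_isMaximal 𝔑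

/-- the local datum at a closed point of the chart of `L`. -/
theorem datum_of_maximal (t : K) (π : R) {m : ℕ} (g : F)
    (hb : ∀ 𝔫 : Ideal ↥(chartOne R F t), 𝔫.IsMaximal → algebraMap R ↥(chartOne R F t) π ∈ 𝔫 →
      ∃ γ : F, γ ≠ 0 ∧ ∃ c d : ↥(chartOne R F t), c ∉ 𝔫 ∧ d ∉ 𝔫 ∧
        g * (d : F) = γ ^ m * (c : F))
    (𝔑 : Ideal ↥(chartOne R L t)) [h𝔑 : 𝔑.IsMaximal]
    (hπ𝔑 : algebraMap R ↥(chartOne R L t) π ∈ 𝔑) :
    ∃ γ : F, γ ≠ 0 ∧ ∃ c d : ↥(chartOne R F t), chartMap (L := L) t c ∉ 𝔑 ∧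
      chartMap (L := L) t d ∉ 𝔑 ∧ g * (d : F) = γ ^ m * (c : F) := by
  have hmax := comap_chartMap_isMaximal (F := F) t 𝔑
  obtain ⟨γ, hγ, c, d, hc, hd, hgd⟩ := hb _ hmax (by
    rw [Ideal.mem_comap, chartMap_algebraMap]
    exact hπ𝔑)
  exact ⟨γ, hγ, c, d, hc, hd, hgd⟩

/-- **incidence**: the constants of two sheets through a common closed point agree there. -/
theorem incidence_generic (t τ : K) (hle : chartOne R L τ ≤ chartMid R L t) (π : R) {m : ℕ}
    (hm : 0 < m) (σ : F →+* F)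
    (hσ : ∀ x ∈ chartOne R F τ, ∃ z ∈ chartOne R F τ, σ x = x + algebraMap R F π * z)
    (g : F) (hg : g ≠ 0) (α : L) (hα : α ^ m = algebraMap F L (σ g / g))
    (𝔑 : Ideal ↥(chartOne R L τ)) [h𝔑 : 𝔑.IsPrime]
    (hπ𝔑 : algebraMap R ↥(chartOne R L τ) π ∈ 𝔑)
    (𝔓 𝔓' : Ideal ↥(chartMid R L t)) [𝔓.IsPrime] [𝔓'.IsPrime]
    (h𝔓 : 𝔓.comap (Subalgebra.inclusion hle) ≤ 𝔑)
    (h𝔓' : 𝔓'.comap (Subalgebra.inclusion hle) ≤ 𝔑)
    (γ : F) (hγ : γ ≠ 0) (c d : ↥(chartOne R F τ)) (hc : chartMap (L := L) τ c ∉ 𝔑)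
    (hd : chartMap (L := L) τ d ∉ 𝔑) (hgd : g * (d : F) = γ ^ m * (c : F)) (ξ ξ' : R)
    (hξ : CongAt (chartMid R L t) 𝔓 (α * algebraMap F L (γ / σ γ)) ξ)
    (hξ' : CongAt (chartMid R L t) 𝔓' (α * algebraMap F L (γ / σ γ)) ξ') :
    algebraMap R ↥(chartOne R L τ) (ξ - ξ') ∈ 𝔑 := by
  obtain ⟨z', a, y, hz, -⟩ := kummer_local (L := L) τ π hm σ hσ g hg α hα γ hγ c d hgd
  set e : ↥(chartOne R L τ) :=
    chartMap (L := L) τ ((d + algebraMap R ↥(chartOne R F τ) π * z') * c) with he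
  have he𝔑 : e ∉ 𝔑 := by
    intro h
    rw [he, map_mul, map_add, map_mul, chartMap_algebraMap] at h
    rcases h𝔑.mem_or_mem h with h1 | h1
    · apply hd
      have : chartMap (L := L) τ d = (chartMap (L := L) τ d +
          algebraMap R ↥(chartOne R L τ) π * chartMap (L := L) τ z') -
          algebraMap R ↥(chartOne R L τ) π * chartMap (L := L) τ z' := by ring
      rw [this]
      exact 𝔑.sub_mem h1 (𝔑.mul_mem_right _ hπ𝔑)
    · exact hc h1
  have h1 : a - algebraMap R ↥(chartOne R L τ) ξ * e ∈ 𝔑 := by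
    apply h𝔓
    rw [Ideal.mem_comap]
    have := hξ.mem_of_mul_eq (Subalgebra.inclusion hle a) (Subalgebra.inclusion hle e) hz
    convert this using 1
    rw [map_sub, map_mul]
    rfl
  have h2 : a - algebraMap R ↥(chartOne R L τ) ξ' * e ∈ 𝔑 := by
    apply h𝔓'
    rw [Ideal.mem_comap]
    have := hξ'.mem_of_mul_eq (Subalgebra.inclusion hle a) (Subalgebra.inclusion hle e) hz
    convert this using 1
    rw [map_sub, map_mul]
    rfl
  have h3 : algebraMap R ↥(chartOne R L τ) (ξ - ξ') * e ∈ 𝔑 := by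
    have : algebraMap R ↥(chartOne R L τ) (ξ - ξ') * e =
        (a - algebraMap R ↥(chartOne R L τ) ξ' * e) - (a - algebraMap R ↥(chartOne R L τ) ξ * e) := by
      rw [map_sub]; ring
    rw [this]
    exact 𝔑.sub_mem h2 h1
  exact (h𝔑.mem_or_mem h3).resolve_right he𝔑

/-- a datum in the first chart is good at every sheet through the closed point. -/
theorem goodAt_of_datum₁ (t : K) {m : ℕ} (g : F) (𝔑 : Ideal ↥(chartOne R L t))
    (𝔓 : Ideal ↥(chartMid R L t))
    (h𝔓 : 𝔓.comap (Subalgebra.inclusion (chartOne_le_chartMid t)) ≤ 𝔑)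
    (γ : F) (hγ : γ ≠ 0) (c d : ↥(chartOne R F t)) (hc : chartMap (L := L) t c ∉ 𝔑)
    (hd : chartMap (L := L) t d ∉ 𝔑) (hgd : g * (d : F) = γ ^ m * (c : F)) :
    KumGoodAt (L := L) t m g 𝔓 γ :=
  ⟨hγ, c, d, fun h => hc (h𝔓 h), fun h => hd (h𝔓 h), hgd⟩

/-- a datum in the second chart is good at every sheet through the closed point. -/
theorem goodAt_of_datum₂ (t : K) (ht0 : t ≠ 0) {m : ℕ} (g : F)
    (𝔑 : Ideal ↥(chartOne R L t⁻¹)) (𝔓 : Ideal ↥(chartMid R L t)) [h𝔓prime : 𝔓.IsPrime]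
    (h𝔓 : 𝔓.comap (Subalgebra.inclusion (chartOne_inv_le_chartMid t ht0)) ≤ 𝔑)
    (γ : F) (hγ : γ ≠ 0) (c d : ↥(chartOne R F t⁻¹)) (hc : chartMap (L := L) t⁻¹ c ∉ 𝔑)
    (hd : chartMap (L := L) t⁻¹ d ∉ 𝔑) (hgd : g * (d : F) = γ ^ m * (c : F)) :
    KumGoodAt (L := L) t m g 𝔓 γ := by
  obtain ⟨n, hn⟩ := chartOne_inv_le_chartMid (R := R) (E := F) t ht0 c.2
  obtain ⟨n', hn'⟩ := chartOne_inv_le_chartMid (R := R) (E := F) t ht0 d.2
  have hcn := pow_mul_mem_chartOne_of_le t (le_max_left n n') hn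
  have hdn := pow_mul_mem_chartOne_of_le t (le_max_right n n') hn'
  set k := max n n' with hk
  have htL : algebraMap K L t ≠ 0 := by rw [Ne, map_eq_zero]; exact ht0
  -- the coordinate is a unit of the middle ring
  set tm : ↥(chartMid R L t) :=
    ⟨algebraMap K L t, chartOne_le_chartMid t (algebraMap_coord_mem_chartOne t)⟩ with htm
  have htm𝔓 : tm ^ k ∉ 𝔓 := by
    intro h
    have h1 := h𝔓prime.mem_of_pow_mem _ h
    apply h𝔓prime.ne_top
    rw [Ideal.eq_top_iff_one]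
    have h2 : (1 : ↥(chartMid R L t)) =
        tm * ⟨(algebraMap K L t)⁻¹, inv_coord_mem_chartMid t ht0⟩ := by
      apply Subtype.ext
      change (1 : L) = algebraMap K L t * (algebraMap K L t)⁻¹
      rw [mul_inv_cancel₀ htL]
    rw [h2]
    exact 𝔓.mul_mem_right _ h1
  have key : ∀ (x : ↥(chartOne R F t⁻¹)) (hx : algebraMap K F t ^ k * (x : F) ∈ chartOne R F t),
      chartMap (L := L) t⁻¹ x ∉ 𝔑 → midMap (L := L) t ⟨_, hx⟩ ∉ 𝔓 := by
    intro x hx hx𝔑 hmem
    have h1 : midMap (L := L) t ⟨_, hx⟩ =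
        tm ^ k * Subalgebra.inclusion (chartOne_inv_le_chartMid t ht0) (chartMap (L := L) t⁻¹ x) := by
      apply Subtype.ext
      change algebraMap F L (algebraMap K F t ^ k * (x : F)) =
        algebraMap K L t ^ k * algebraMap F L (x : F)
      rw [map_mul, map_pow, ← IsScalarTower.algebraMap_apply K F L]
    rw [h1] at hmem
    rcases h𝔓prime.mem_or_mem hmem with h2 | h2
    · exact htm𝔓 h2
    · exact hx𝔑 (h𝔓 h2)
  refine ⟨hγ, ⟨_, hcn⟩, ⟨_, hdn⟩, key c hcn hc, key d hdn hd, ?_⟩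
  change g * (algebraMap K F t ^ k * (d : F)) = γ ^ m * (algebraMap K F t ^ k * (c : F))
  linear_combination (algebraMap K F t ^ k) * hgd

end Maps

section Main

variable {R : Type*} [CommRing R] [IsDomain R] [IsIntegrallyClosed R] [IsNoetherianRing R]
  [CharZero R] {K₁ : Type*} [Field K₁] [Algebra R K₁]
  [IsFractionRing R K₁] {K : Type*} [Field K] [Algebra K₁ K] [Algebra R K] [IsScalarTower R K₁ K]
  {F : Type*} [Field F] [Algebra K F] [Algebra R F] [IsScalarTower R K F] [FiniteDimensional K F]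
  {L : Type*} [Field L] [Algebra K L] [Algebra K₁ L] [IsScalarTower K₁ K L] [Algebra R L]
  [IsScalarTower R K L] [Algebra F L] [IsScalarTower K F L] [FiniteDimensional K L]

/-- the data of the main argument. -/
structure KumData (K₁ : Type*) [Field K₁] [Algebra R K₁] [IsFractionRing R K₁] [Algebra K₁ K]
    [IsScalarTower R K₁ K] [Algebra K₁ L] [IsScalarTower K₁ K L]
    (t : K) (π : R) (m : ℕ) (ζ : R) (σ : F →+* F) (g : F) (α : L) : Prop where
  ht : Transcendental K₁ t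
  hK : IntermediateField.adjoin K₁ {t} = ⊤
  hπ : Prime π
  hm : 0 < m
  hmR : IsUnit (m : R)
  hζ : IsPrimitiveRoot ζ m
  hσ₁ : ∀ x ∈ chartOne R F t, ∃ z ∈ chartOne R F t, σ x = x + algebraMap R F π * z
  hσ₂ : ∀ x ∈ chartOne R F t⁻¹, ∃ z ∈ chartOne R F t⁻¹, σ x = x + algebraMap R F π * z
  hg : g ≠ 0
  hb₁ : ∀ 𝔫 : Ideal ↥(chartOne R F t), 𝔫.IsMaximal → algebraMap R ↥(chartOne R F t) π ∈ 𝔫 →
    ∃ γ : F, γ ≠ 0 ∧ ∃ c d : ↥(chartOne R F t), c ∉ 𝔫 ∧ d ∉ 𝔫 ∧ g * (d : F) = γ ^ m * (c : F)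
  hb₂ : ∀ 𝔫 : Ideal ↥(chartOne R F t⁻¹), 𝔫.IsMaximal →
    algebraMap R ↥(chartOne R F t⁻¹) π ∈ 𝔫 →
    ∃ γ : F, γ ≠ 0 ∧ ∃ c d : ↥(chartOne R F t⁻¹), c ∉ 𝔫 ∧ d ∉ 𝔫 ∧ g * (d : F) = γ ^ m * (c : F)
  hα : α ^ m = algebraMap F L (σ g / g)
  hM4 : ∀ x : L, IsAlgebraic K₁ x → x ∈ Set.range (algebraMap K₁ L)
  hRED₁ : ∀ x ∈ chartOne R L t, ∀ (N : ℕ), ∀ y ∈ chartOne R L t,
    x ^ N = algebraMap R L π * y → ∃ z ∈ chartOne R L t, x = algebraMap R L π * z
  hRED₂ : ∀ x ∈ chartOne R L t⁻¹, ∀ (N : ℕ), ∀ y ∈ chartOne R L t⁻¹,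
    x ^ N = algebraMap R L π * y → ∃ z ∈ chartOne R L t⁻¹, x = algebraMap R L π * z
  hT₁ : ∀ 𝔮 ∈ (Ideal.span {algebraMap R ↥(chartOne R L t) π}).minimalPrimes,
    (⟨algebraMap K L t, algebraMap_coord_mem_chartOne t⟩ : ↥(chartOne R L t)) ∉ 𝔮
  hT₂ : ∀ 𝔮 ∈ (Ideal.span {algebraMap R ↥(chartOne R L t⁻¹) π}).minimalPrimes,
    (⟨algebraMap K L t⁻¹, algebraMap_coord_mem_chartOne t⁻¹⟩ : ↥(chartOne R L t⁻¹)) ∉ 𝔮

variable {t : K} {π : R} {m : ℕ} {ζ : R} {σ : F →+* F} {g : F} {α : L}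

theorem KumData.ht0 (D : KumData K₁ t π m ζ σ g α) : t ≠ 0 :=
  fun h => D.ht (h ▸ isAlgebraic_zero)

theorem KumData.sheet_prime (_D : KumData K₁ t π m ζ σ g α) (s : SheetOf R L t π) :
    (s.1).IsPrime := s.2.1.1

theorem KumData.pi_mem_sheet (_D : KumData K₁ t π m ζ σ g α) (s : SheetOf R L t π) :
    algebraMap R ↥(chartMid R L t) π ∈ s.1 :=
  s.2.1.2 (Ideal.subset_span (Set.mem_singleton _))

theorem KumData.injective_mid (_D : KumData K₁ t π m ζ σ g α) :
    Function.Injective (algebraMap R ↥(chartMid R L t)) := by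
  intro x y h
  have hinj : Function.Injective (algebraMap R L) := algebraMap_injective_of_tower (K₁ := K₁) (K := K)
  apply hinj
  have := congrArg (fun z : ↥(chartMid R L t) => (z : L)) h
  exact this

/-- a good datum at a sheet gives a root of unity. -/
theorem KumData.exists_root_of_good (D : KumData K₁ t π m ζ σ g α) (s : SheetOf R L t π)
    (lam : F) (hlam : KumGoodAt (L := L) t m g s.1 lam) :
    ∃ i < m, CongAt (chartMid R L t) s.1 (α * algebraMap F L (lam / σ lam)) (ζ ^ i) := by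
  haveI := D.sheet_prime s
  have hprime : (s.1).IsPrime := D.sheet_prime s
  obtain ⟨hlam0, c, d, hc, hd, hgd⟩ := hlam
  obtain ⟨z', a, y, hz, hpow⟩ :=
    kummer_local (L := L) t π D.hm σ D.hσ₁ g D.hg α D.hα lam hlam0 c d hgd
  set e : ↥(chartOne R F t) := (d + algebraMap R ↥(chartOne R F t) π * z') * c with he
  set A : ↥(chartMid R L t) := Subalgebra.inclusion (chartOne_le_chartMid t) a with hA
  set Ee : ↥(chartMid R L t) := midMap (L := L) t e with hEe
  have hEe𝔓 : Ee ∉ s.1 := by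
    intro h
    rw [hEe, he, map_mul, map_add, map_mul, midMap_algebraMap] at h
    rcases hprime.mem_or_mem h with h1 | h1
    · apply hd
      have : midMap (L := L) t d = (midMap (L := L) t d +
          algebraMap R ↥(chartMid R L t) π * midMap (L := L) t z') -
          algebraMap R ↥(chartMid R L t) π * midMap (L := L) t z' := by ring
      rw [this]
      exact (s.1).sub_mem h1 ((s.1).mul_mem_right _ (D.pi_mem_sheet s))
    · exact hc h1
  have hmem : A ^ m - Ee ^ m ∈ s.1 := by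
    have h1 : A ^ m - Ee ^ m = algebraMap R ↥(chartMid R L t) π *
        Subalgebra.inclusion (chartOne_le_chartMid t) y := by
      apply Subtype.ext
      have := congrArg (fun w : ↥(chartOne R L t) => (w : L)) hpow
      exact this
    rw [h1]
    exact (s.1).mul_mem_right _ (D.pi_mem_sheet s)
  have hζ' : IsPrimitiveRoot (algebraMap R ↥(chartMid R L t) ζ) m :=
    D.hζ.map_of_injective D.injective_mid
  obtain ⟨i, hi, hmem'⟩ := exists_sub_pow_mul_mem_of_pow_sub_pow_mem D.hm hζ' s.1 A Ee hmem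
  refine ⟨i, hi, CongAt.of_mem A Ee hEe𝔓 hz ?_⟩
  rw [map_pow]
  exact hmem'

/-- every sheet carries a good datum. -/
theorem KumData.exists_good (D : KumData K₁ t π m ζ σ g α) (s : SheetOf R L t π) :
    ∃ lam : F, KumGoodAt (L := L) t m g s.1 lam := by
  haveI := D.sheet_prime s
  have hne : (s.1).comap (Subalgebra.inclusion (chartOne_le_chartMid (R := R) (E := L) t)) ≠ ⊤ :=
    (Ideal.comap_isPrime _ _).ne_top
  obtain ⟨𝔑, h𝔑, hle⟩ := Ideal.exists_le_maximal _ hne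
  haveI := h𝔑
  have hπ𝔑 : algebraMap R ↥(chartOne R L t) π ∈ 𝔑 := by
    apply hle
    rw [Ideal.mem_comap]
    exact D.pi_mem_sheet s
  obtain ⟨γ, hγ, c, d, hc, hd, hgd⟩ := datum_of_maximal (L := L) t π g D.hb₁ 𝔑 hπ𝔑
  exact ⟨γ, goodAt_of_datum₁ t g 𝔑 s.1 hle γ hγ c d hc hd hgd⟩

/-- **the constant of a sheet.** -/
theorem KumData.exists_const (D : KumData K₁ t π m ζ σ g α) (s : SheetOf R L t π) :
    ∃ ξ : R, ξ ^ m = 1 ∧ ∀ lam : F, KumGoodAt (L := L) t m g s.1 lam →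
      CongAt (chartMid R L t) s.1 (α * algebraMap F L (lam / σ lam)) ξ := by
  haveI := D.sheet_prime s
  obtain ⟨lam₀, hlam₀⟩ := D.exists_good s
  obtain ⟨i, -, hi⟩ := D.exists_root_of_good s lam₀ hlam₀
  refine ⟨ζ ^ i, by rw [← pow_mul, mul_comm, pow_mul, D.hζ.pow_eq_one, one_pow], ?_⟩
  intro lam hlam
  obtain ⟨hl0, c, d, hc, hd, hgd⟩ := hlam
  obtain ⟨hl0', c', d', hc', hd', hgd'⟩ := hlam₀
  haveI : ((s.1).comap (midMap (R := R) (F := F) (L := L) t)).IsPrime := Ideal.comap_isPrime _ _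
  obtain ⟨p, q, hq, hpq, hrat⟩ := ratio_cong t π D.hm σ D.hσ₁ g
    ((s.1).comap (midMap (R := R) (F := F) (L := L) t)) (by
      rw [Ideal.mem_comap, midMap_algebraMap]
      exact D.pi_mem_sheet s) lam lam₀ hl0 hl0' c d c' d' hc hd hc' hd' hgd hgd'
  refine hi.of_mul_eq (midMap (L := L) t p) (midMap (L := L) t q) hq ?_ ?_
  · rw [← map_sub]
    exact hpq
  · rw [coe_midMap, coe_midMap, mul_assoc, mul_assoc, ← map_mul, ← map_mul, hrat]

/-- **main theorem of SS-KUM (abstract `L`)**: every `F`-automorphism of `L` fixes `α`. -/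
theorem KumData.fixed (D : KumData K₁ t π m ζ σ g α) (τ : L ≃ₐ[F] L) : τ α = α := by
  classical
  haveI : NeZero m := ⟨D.hm.ne'⟩
  have ht0 := D.ht0
  have hinjL : Function.Injective (algebraMap R L) :=
    algebraMap_injective_of_tower (K₁ := K₁) (K := K)
  choose Φ hΦ1 hΦ using D.exists_const
  have hconst : ∀ s s' : SheetOf R L t π, Φ s = Φ s' := by
    refine chart_sheet_const t D.ht D.hK π D.hπ D.hM4 D.hRED₁ D.hRED₂ D.hT₁ D.hT₂ Φ ?_ ?_
    · intro 𝔑 h𝔑 s s' hs hs'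
      haveI := h𝔑
      haveI := D.sheet_prime s
      haveI := D.sheet_prime s'
      have hπ𝔑 : algebraMap R ↥(chartOne R L t) π ∈ 𝔑 := by
        apply hs
        rw [Ideal.mem_comap]
        exact D.pi_mem_sheet s
      obtain ⟨γ, hγ, c, d, hc, hd, hgd⟩ := datum_of_maximal (L := L) t π g D.hb₁ 𝔑 hπ𝔑
      have hgood := goodAt_of_datum₁ t g 𝔑 s.1 hs γ hγ c d hc hd hgd
      have hgood' := goodAt_of_datum₁ t g 𝔑 s'.1 hs' γ hγ c d hc hd hgd
      have hmem := incidence_generic t t (chartOne_le_chartMid t) π D.hm σ D.hσ₁ g D.hg α D.hα 𝔑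
        hπ𝔑 s.1 s'.1 hs hs' γ hγ c d hc hd hgd (Φ s) (Φ s') (hΦ s γ hgood) (hΦ s' γ hgood')
      exact eq_of_pow_eq_one_of_sub_mem D.hm D.hmR (𝔑.comap (algebraMap R ↥(chartOne R L t)))
        (Ideal.comap_isPrime _ _).ne_top (Φ s) (Φ s') (hΦ1 s) (hΦ1 s') hmem
    · intro 𝔑 h𝔑 s s' hs hs'
      haveI := h𝔑
      haveI := D.sheet_prime s
      haveI := D.sheet_prime s'
      have hπ𝔑 : algebraMap R ↥(chartOne R L t⁻¹) π ∈ 𝔑 := by
        apply hs
        rw [Ideal.mem_comap]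
        exact D.pi_mem_sheet s
      obtain ⟨γ, hγ, c, d, hc, hd, hgd⟩ := datum_of_maximal (L := L) t⁻¹ π g D.hb₂ 𝔑 hπ𝔑
      have hgood := goodAt_of_datum₂ t ht0 g 𝔑 s.1 hs γ hγ c d hc hd hgd
      have hgood' := goodAt_of_datum₂ t ht0 g 𝔑 s'.1 hs' γ hγ c d hc hd hgd
      have hmem := incidence_generic t t⁻¹ (chartOne_inv_le_chartMid t ht0) π D.hm σ D.hσ₂ g D.hg α
        D.hα 𝔑 hπ𝔑 s.1 s'.1 hs hs' γ hγ c d hc hd hgd (Φ s) (Φ s') (hΦ s γ hgood)
        (hΦ s' γ hgood')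
      exact eq_of_pow_eq_one_of_sub_mem D.hm D.hmR (𝔑.comap (algebraMap R ↥(chartOne R L t⁻¹)))
        (Ideal.comap_isPrime _ _).ne_top (Φ s) (Φ s') (hΦ1 s) (hΦ1 s') hmem
  -- the Galois step
  obtain ⟨s₀⟩ := nonempty_sheetOf t D.ht D.hK π D.hπ D.hM4 D.hRED₁ D.hRED₂ D.hT₁ D.hT₂
  haveI := D.sheet_prime s₀
  obtain ⟨lam, hlam⟩ := D.exists_good s₀
  have hmin : (s₀.1).comap (midAut (R := R) t τ) ∈
      (Ideal.span {algebraMap R ↥(chartMid R L t) π}).minimalPrimes :=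
    comap_mem_minimalPrimes_of_inverse (midAut (R := R) t τ) (midAut (R := R) t τ⁻¹)
      (midAut_inv t τ) (midAut_inv' t τ) _ (midAut_algebraMap t τ π) (midAut_algebraMap t τ⁻¹ π)
      s₀.1 s₀.2
  set s' : SheetOf R L t π := ⟨_, hmin⟩ with hs'
  have hgood' : KumGoodAt (L := L) t m g s'.1 lam := by
    obtain ⟨h0, c, d, hc, hd, hgd⟩ := hlam
    refine ⟨h0, c, d, ?_, ?_, hgd⟩
    · intro h
      rw [hs', Ideal.mem_comap, midAut_midMap] at h
      exact hc h
    · intro h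
      rw [hs', Ideal.mem_comap, midAut_midMap] at h
      exact hd h
  have h1 := hΦ s' lam hgood'
  rw [hconst s' s₀] at h1
  have h2 : CongAt (chartMid R L t) s₀.1 ((τ : L →+* L) (α * algebraMap F L (lam / σ lam)))
      (Φ s₀) :=
    CongAt.map (τ : L →+* L) (midAut (R := R) t τ) (coe_midAut t τ) (midAut_algebraMap t τ) h1
  have h3 := hΦ s₀ lam hlam
  have hα0 : α ≠ 0 := by
    intro h
    have h' := D.hα
    rw [h, zero_pow D.hm.ne'] at h'
    have h'' : σ g / g = 0 := (map_eq_zero_iff _ (algebraMap F L).injective).1 h'.symm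
    rcases div_eq_zero_iff.1 h'' with h4 | h4
    · exact D.hg ((map_eq_zero σ).1 h4)
    · exact D.hg h4
  have hω : (τ α / α) ^ m = 1 := by
    rw [div_pow, ← map_pow, D.hα, τ.commutes, div_self]
    rw [← D.hα]
    exact pow_ne_zero _ hα0
  obtain ⟨i, -, hωi⟩ := (D.hζ.map_of_injective hinjL).eq_pow_of_pow_eq_one hω
  have h4 : (τ : L →+* L) (α * algebraMap F L (lam / σ lam)) =
      algebraMap R L (ζ ^ i) * (α * algebraMap F L (lam / σ lam)) := by
    change τ (α * algebraMap F L (lam / σ lam)) = _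
    rw [map_mul, τ.commutes, map_pow, hωi]
    field_simp
  rw [h4] at h2
  have h5 := h3.const_mul (ζ ^ i)
  have h6 := h5.sub_mem h2
  have h7 : ζ ^ i * Φ s₀ = Φ s₀ := by
    refine eq_of_pow_eq_one_of_sub_mem D.hm D.hmR
      ((s₀.1).comap (algebraMap R ↥(chartMid R L t))) (Ideal.comap_isPrime _ _).ne_top _ _ ?_
      (hΦ1 s₀) h6
    rw [mul_pow, hΦ1 s₀, mul_one, ← pow_mul, mul_comm, pow_mul, D.hζ.pow_eq_one, one_pow]
  have hΦ0 : Φ s₀ ≠ 0 := by
    intro h
    have := hΦ1 s₀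
    rw [h, zero_pow D.hm.ne'] at this
    exact zero_ne_one this
  have h8 : ζ ^ i = 1 := mul_right_cancel₀ hΦ0 (by rw [h7, one_mul])
  rw [← map_pow, h8, map_one] at hωi
  have := hωi.symm
  rw [div_eq_one_iff_eq hα0] at this
  exact this

end Main

end Fermat.Agent.SS
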