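/-
(SS-q) package SS-KUM — helper3 — part 10: **the final theorem**.  Two-chart model of a finite
extension `F / K₁(t)` over `R` (`K₁ = Frac R`), `π ∈ R` prime, `m` invertible in `R`, `ζ ∈ R` a
primitive `m`-th root of unity; `K₁` algebraically closed in `F`; reduced special fibres of both
charts; the coordinate lies in no sheet; `σ` an endomorphism of `F` which is trivial on the special
fibres of both charts; `g ∈ Fˣ` which is, at every closed point of the special fibre of either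
chart, an `m`-th power times a local unit.  Then `σ g / g` is an `m`-th power in `F`, as soon as its
"leading coefficient" is `1`.
-/
import Fermat.Agent.SS.KUM_helper3_Main
import Fermat.Agent.SS.KUM_helper3_Trace

set_option autoImplicit false
set_option linter.unusedSectionVars false
set_option linter.style.haveILetI false

namespace Fermat.Agent.SS

open Fermat.Agent.JA Polynomial

/-- in a splitting field of `X ^ m - h` over a field containing the `m`-th roots of unity, an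
automorphism fixing one root is trivial. -/
theorem exists_root_fixing {F L : Type*} [Field F] [Field L] [Algebra F L] {m : ℕ} (hm : 0 < m)
    (ζ : F) (hζ : IsPrimitiveRoot ζ m) (h : F) (hh : h ≠ 0)
    [IsSplittingField F L (X ^ m - C h)] :
    ∃ α : L, α ^ m = algebraMap F L h ∧ ∀ τ : L ≃ₐ[F] L, τ α = α → τ = 1 := by
  haveI : NeZero m := ⟨hm.ne'⟩
  have hsplit := IsSplittingField.splits L (X ^ m - C h)
  have hdeg : ((X ^ m - C h : F[X]).map (algebraMap F L)).degree ≠ 0 := by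
    rw [Polynomial.map_sub, Polynomial.map_pow, map_X, map_C, degree_X_pow_sub_C hm]
    exact_mod_cast hm.ne'
  obtain ⟨α, hα⟩ := hsplit.exists_eval_eq_zero hdeg
  have hαm : α ^ m = algebraMap F L h := by
    rw [Polynomial.map_sub, Polynomial.map_pow, map_X, map_C, eval_sub, eval_pow, eval_X, eval_C,
      sub_eq_zero] at hα
    exact hα
  have hα0 : α ≠ 0 := by
    rintro rfl
    rw [zero_pow hm.ne'] at hαm
    exact hh ((map_eq_zero_iff _ (algebraMap F L).injective).1 hαm.symm)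
  refine ⟨α, hαm, fun τ hτ => ?_⟩
  have hζL : IsPrimitiveRoot (algebraMap F L ζ) m := hζ.map_of_injective (algebraMap F L).injective
  have hadj := IsSplittingField.adjoin_rootSet L (X ^ m - C h)
  have : (τ : L →ₐ[F] L) = AlgHom.id F L := by
    refine AlgHom.ext_of_adjoin_eq_top hadj ?_
    intro β hβ
    have hβm : β ^ m = algebraMap F L h := by
      rw [mem_rootSet] at hβ
      have := hβ.2
      rw [map_sub, map_pow, aeval_X, aeval_C, sub_eq_zero] at this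
      exact this
    have h1 : (β / α) ^ m = 1 := by
      rw [div_pow, hβm, hαm, div_self]
      rw [← hαm]; exact pow_ne_zero _ hα0
    obtain ⟨i, -, hi⟩ := hζL.eq_pow_of_pow_eq_one h1
    have h2 : β = algebraMap F L (ζ ^ i) * α := by
      rw [map_pow, hi]; field_simp
    change τ β = β
    rw [h2, map_mul, τ.commutes, hτ]
  ext x
  have := congrArg (fun f : L →ₐ[F] L => f x) this
  exact this

section Final

variable {R : Type*} [CommRing R] [IsDomain R] [IsIntegrallyClosed R] [IsNoetherianRing R]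
  [CharZero R] {K₁ : Type*} [Field K₁] [Algebra R K₁]
  [IsFractionRing R K₁] {K : Type*} [Field K] [Algebra K₁ K] [Algebra R K] [IsScalarTower R K₁ K]
  {F : Type*} [Field F] [Algebra K F] [Algebra K₁ F] [IsScalarTower K₁ K F] [Algebra R F]
  [IsScalarTower R K F] [FiniteDimensional K F]

omit [IsIntegrallyClosed R] [IsNoetherianRing R] [CharZero R] [IsFractionRing R K₁]
  [IsScalarTower R K₁ K] [Algebra K₁ F] [IsScalarTower K₁ K F] [FiniteDimensional K F] [Algebra K₁ K]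
  [Algebra R K₁] in
/-- the sheet data needed for reducedness, from the closed point data. -/
theorem sheet_datum_of_closed_datum (t : K) (π : R) {m : ℕ} (σ : F →+* F)
    (hσ : ∀ x ∈ chartOne R F t, ∃ z ∈ chartOne R F t, σ x = x + algebraMap R F π * z)
    (g : F) (hg : g ≠ 0)
    (hb : ∀ 𝔫 : Ideal ↥(chartOne R F t), 𝔫.IsMaximal → algebraMap R ↥(chartOne R F t) π ∈ 𝔫 →
      ∃ γ : F, γ ≠ 0 ∧ ∃ c d : ↥(chartOne R F t), c ∉ 𝔫 ∧ d ∉ 𝔫 ∧
        g * (d : F) = γ ^ m * (c : F))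
    (𝔭 : Ideal ↥(chartOne R F t))
    (h𝔭 : 𝔭 ∈ (Ideal.span {algebraMap R ↥(chartOne R F t) π}).minimalPrimes) :
    ∃ s : F, s ≠ 0 ∧ ∃ c d : ↥(chartOne R F t), c ∉ 𝔭 ∧ d ∉ 𝔭 ∧
      (σ g / g) * (d : F) = s ^ m * (c : F) := by
  have hprime : 𝔭.IsPrime := h𝔭.1.1
  obtain ⟨𝔫, h𝔫, hle⟩ := Ideal.exists_le_maximal 𝔭 hprime.ne_top
  have hπ𝔫 : algebraMap R ↥(chartOne R F t) π ∈ 𝔫 :=
    hle (h𝔭.1.2 (Ideal.subset_span (Set.mem_singleton _)))
  obtain ⟨γ, hγ, c, d, hc, hd, hgd⟩ := hb 𝔫 h𝔫 hπ𝔫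
  obtain ⟨zc, hzc⟩ := exists_subtype_of_trivial_mod t π σ hσ c
  obtain ⟨zd, hzd⟩ := exists_subtype_of_trivial_mod t π σ hσ d
  have hσγ : σ γ ≠ 0 := (map_ne_zero σ).2 hγ
  have hnot : ∀ x z : ↥(chartOne R F t), x ∉ 𝔫 →
      x + algebraMap R ↥(chartOne R F t) π * z ∉ 𝔫 := by
    intro x z hx hmem
    apply hx
    have : x = (x + algebraMap R ↥(chartOne R F t) π * z) -
        algebraMap R ↥(chartOne R F t) π * z := by ring
    rw [this]
    exact 𝔫.sub_mem hmem (𝔫.mul_mem_right _ hπ𝔫)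
  refine ⟨σ γ / γ, div_ne_zero hσγ hγ, (c + algebraMap R ↥(chartOne R F t) π * zc) * d,
    (d + algebraMap R ↥(chartOne R F t) π * zd) * c, ?_, ?_, ?_⟩
  · intro h
    rcases h𝔫.isPrime.mem_or_mem (hle h) with h1 | h1
    · exact hnot c zc hc h1
    · exact hd h1
  · intro h
    rcases h𝔫.isPrime.mem_or_mem (hle h) with h1 | h1
    · exact hnot d zd hd h1
    · exact hc h1
  · have h1 : (((d + algebraMap R ↥(chartOne R F t) π * zd) * c : ↥(chartOne R F t)) : F) =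
        σ (d : F) * (c : F) := by rw [hzd]; rfl
    have h2 : (((c + algebraMap R ↥(chartOne R F t) π * zc) * d : ↥(chartOne R F t)) : F) =
        σ (c : F) * (d : F) := by rw [hzc]; rfl
    rw [h1, h2, ← kummer_field_identity σ g γ (c : F) (d : F) hg hγ hgd]
    have h3 : (σ γ / γ) ^ m * (γ / σ γ) ^ m = 1 := by
      rw [← mul_pow, div_mul_div_comm, mul_comm γ, div_self (mul_ne_zero hσγ hγ), one_pow]
    calc σ g / g * (σ (d : F) * (c : F))
        = ((σ γ / γ) ^ m * (γ / σ γ) ^ m) * (σ g / g * (σ (d : F) * (c : F))) := by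
          rw [h3, one_mul]
      _ = _ := by ring

/-- the final theorem, for an abstract splitting field `L` of `X ^ m - σ g / g`. -/
theorem kummer_final_aux {L : Type*} [Field L] [Algebra K L] [Algebra K₁ L] [IsScalarTower K₁ K L]
    [Algebra R L] [IsScalarTower R K L] [Algebra F L] [IsScalarTower K F L] [IsScalarTower K₁ F L]
    [FiniteDimensional K L]
    (t : K) (ht : Transcendental K₁ t) (hK : IntermediateField.adjoin K₁ {t} = ⊤)
    (π : R) (hπ : Prime π) {m : ℕ} (hm : 0 < m) (hmR : IsUnit (m : R)) (ζ : R)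
    (hζ : IsPrimitiveRoot ζ m)
    (hM4 : ∀ x : F, IsAlgebraic K₁ x → x ∈ Set.range (algebraMap K₁ F))
    (lc : Fˣ →* K₁ˣ) (hlc : ∀ c : K₁ˣ, lc (Units.map (algebraMap K₁ F).toMonoidHom c) = c)
    (hRED₁ : ∀ x ∈ chartOne R F t, ∀ (N : ℕ), ∀ y ∈ chartOne R F t,
      x ^ N = algebraMap R F π * y → ∃ z ∈ chartOne R F t, x = algebraMap R F π * z)
    (hRED₂ : ∀ x ∈ chartOne R F t⁻¹, ∀ (N : ℕ), ∀ y ∈ chartOne R F t⁻¹,
      x ^ N = algebraMap R F π * y → ∃ z ∈ chartOne R F t⁻¹, x = algebraMap R F π * z)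
    (hT₁ : ∀ 𝔮 ∈ (Ideal.span {algebraMap R ↥(chartOne R F t) π}).minimalPrimes,
      (⟨algebraMap K F t, algebraMap_coord_mem_chartOne t⟩ : ↥(chartOne R F t)) ∉ 𝔮)
    (hT₂ : ∀ 𝔮 ∈ (Ideal.span {algebraMap R ↥(chartOne R F t⁻¹) π}).minimalPrimes,
      (⟨algebraMap K F t⁻¹, algebraMap_coord_mem_chartOne t⁻¹⟩ : ↥(chartOne R F t⁻¹)) ∉ 𝔮)
    (σ : F →+* F)
    (hσ₁ : ∀ x ∈ chartOne R F t, ∃ z ∈ chartOne R F t, σ x = x + algebraMap R F π * z)
    (hσ₂ : ∀ x ∈ chartOne R F t⁻¹, ∃ z ∈ chartOne R F t⁻¹, σ x = x + algebraMap R F π * z)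
    (g : F) (hg : g ≠ 0)
    (hb₁ : ∀ 𝔫 : Ideal ↥(chartOne R F t), 𝔫.IsMaximal → algebraMap R ↥(chartOne R F t) π ∈ 𝔫 →
      ∃ γ : F, γ ≠ 0 ∧ ∃ c d : ↥(chartOne R F t), c ∉ 𝔫 ∧ d ∉ 𝔫 ∧ g * (d : F) = γ ^ m * (c : F))
    (hb₂ : ∀ 𝔫 : Ideal ↥(chartOne R F t⁻¹), 𝔫.IsMaximal →
      algebraMap R ↥(chartOne R F t⁻¹) π ∈ 𝔫 →
      ∃ γ : F, γ ≠ 0 ∧ ∃ c d : ↥(chartOne R F t⁻¹), c ∉ 𝔫 ∧ d ∉ 𝔫 ∧
        g * (d : F) = γ ^ m * (c : F))
    (hlc1 : ∀ u : Fˣ, (u : F) = σ g / g → lc u = 1)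
    [IsSplittingField F L (X ^ m - C (σ g / g))] :
    ∃ u : F, σ g / g = u ^ m := by
  have hh : σ g / g ≠ 0 := div_ne_zero ((map_ne_zero σ).2 hg) hg
  have hinjF : Function.Injective (algebraMap R F) :=
    algebraMap_injective_of_tower (K₁ := K₁) (K := K)
  have hinjL : Function.Injective (algebraMap R L) :=
    algebraMap_injective_of_tower (K₁ := K₁) (K := K)
  have hπL : algebraMap R L π ≠ 0 := by
    rw [Ne, map_eq_zero_iff _ hinjL]; exact hπ.ne_zero
  have hζF : IsPrimitiveRoot (algebraMap R F ζ) m := hζ.map_of_injective hinjF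
  have hζK₁ : IsPrimitiveRoot (algebraMap R K₁ ζ) m :=
    hζ.map_of_injective (IsFractionRing.injective R K₁)
  haveI : FiniteDimensional F L := IsSplittingField.finiteDimensional L (X ^ m - C (σ g / g))
  have hmF : (m : F) ≠ 0 := by
    haveI : NeZero m := ⟨hm.ne'⟩
    exact (hζF.neZero' (R := F)).out
  haveI : IsGalois F L := IsGalois.of_separable_splitting_field
    (p := X ^ m - C (σ g / g)) (separable_X_pow_sub_C _ hmF hh)
  obtain ⟨α, hα, hfix⟩ := exists_root_fixing (L := L) hm (algebraMap R F ζ) hζF (σ g / g) hh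
  have ht' : Transcendental K₁ t⁻¹ := transcendental_inv_of_transcendental ht
  have hK' : IntermediateField.adjoin K₁ {t⁻¹} = ⊤ := adjoin_inv_eq_top hK
  have D : KumData K₁ t π m ζ σ g α :=
    { ht := ht
      hK := hK
      hπ := hπ
      hm := hm
      hmR := hmR
      hζ := hζ
      hσ₁ := hσ₁
      hσ₂ := hσ₂
      hg := hg
      hb₁ := hb₁
      hb₂ := hb₂
      hα := hα
      hM4 := fun x hx => mem_range_of_isAlgebraic_kummer hM4 lc hlc (algebraMap R K₁ ζ) hζK₁ hm α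
        (Units.mk0 (σ g / g) hh) hα (hlc1 _ rfl) hfix x hx
      hRED₁ := fun x hx N y hy hxy => chartOne_reduced_of_kummer (K₁ := K₁) (F := F) t ht hK π hπL
        hm hmR α (σ g / g) hα hh hfix hRED₁
        (sheet_datum_of_closed_datum t π σ hσ₁ g hg hb₁) x hx N y hy hxy
      hRED₂ := fun x hx N y hy hxy => chartOne_reduced_of_kummer (K₁ := K₁) (F := F) t⁻¹ ht' hK' π
        hπL hm hmR α (σ g / g) hα hh hfix hRED₂
        (sheet_datum_of_closed_datum t⁻¹ π σ hσ₂ g hg hb₂) x hx N y hy hxy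
      hT₁ := coord_not_mem_minimalPrimes_lift (K₁ := K₁) (F := F) t ht hK π hπL hT₁
      hT₂ := coord_not_mem_minimalPrimes_lift (K₁ := K₁) (F := F) t⁻¹ ht' hK' π hπL hT₂ }
  have hmem : α ∈ (⊥ : IntermediateField F L) :=
    (IsGalois.mem_bot_iff_fixed α).2 (fun τ => D.fixed τ)
  obtain ⟨u, hu⟩ := IntermediateField.mem_bot.1 hmem
  refine ⟨u, (algebraMap F L).injective ?_⟩
  rw [map_pow, hu, hα]

/-- **SS-KUM, final theorem.**  In a two-chart model with reduced special fibres on which `σ` is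
trivial, for `g` locally (at the closed points of the special fibres) an `m`-th power times a
unit, `σ g / g` is an `m`-th power as soon as its leading coefficient is `1`. -/
theorem kummer_inertia_pow
    (t : K) (ht : Transcendental K₁ t) (hK : IntermediateField.adjoin K₁ {t} = ⊤)
    (π : R) (hπ : Prime π) {m : ℕ} (hm : 0 < m) (hmR : IsUnit (m : R)) (ζ : R)
    (hζ : IsPrimitiveRoot ζ m)
    (hM4 : ∀ x : F, IsAlgebraic K₁ x → x ∈ Set.range (algebraMap K₁ F))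
    (lc : Fˣ →* K₁ˣ) (hlc : ∀ c : K₁ˣ, lc (Units.map (algebraMap K₁ F).toMonoidHom c) = c)
    (hRED₁ : ∀ x ∈ chartOne R F t, ∀ (N : ℕ), ∀ y ∈ chartOne R F t,
      x ^ N = algebraMap R F π * y → ∃ z ∈ chartOne R F t, x = algebraMap R F π * z)
    (hRED₂ : ∀ x ∈ chartOne R F t⁻¹, ∀ (N : ℕ), ∀ y ∈ chartOne R F t⁻¹,
      x ^ N = algebraMap R F π * y → ∃ z ∈ chartOne R F t⁻¹, x = algebraMap R F π * z)
    (hT₁ : ∀ 𝔮 ∈ (Ideal.span {algebraMap R ↥(chartOne R F t) π}).minimalPrimes,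
      (⟨algebraMap K F t, algebraMap_coord_mem_chartOne t⟩ : ↥(chartOne R F t)) ∉ 𝔮)
    (hT₂ : ∀ 𝔮 ∈ (Ideal.span {algebraMap R ↥(chartOne R F t⁻¹) π}).minimalPrimes,
      (⟨algebraMap K F t⁻¹, algebraMap_coord_mem_chartOne t⁻¹⟩ : ↥(chartOne R F t⁻¹)) ∉ 𝔮)
    (σ : F →+* F)
    (hσ₁ : ∀ x ∈ chartOne R F t, ∃ z ∈ chartOne R F t, σ x = x + algebraMap R F π * z)
    (hσ₂ : ∀ x ∈ chartOne R F t⁻¹, ∃ z ∈ chartOne R F t⁻¹, σ x = x + algebraMap R F π * z)
    (g : F) (hg : g ≠ 0)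
    (hb₁ : ∀ 𝔫 : Ideal ↥(chartOne R F t), 𝔫.IsMaximal → algebraMap R ↥(chartOne R F t) π ∈ 𝔫 →
      ∃ γ : F, γ ≠ 0 ∧ ∃ c d : ↥(chartOne R F t), c ∉ 𝔫 ∧ d ∉ 𝔫 ∧ g * (d : F) = γ ^ m * (c : F))
    (hb₂ : ∀ 𝔫 : Ideal ↥(chartOne R F t⁻¹), 𝔫.IsMaximal →
      algebraMap R ↥(chartOne R F t⁻¹) π ∈ 𝔫 →
      ∃ γ : F, γ ≠ 0 ∧ ∃ c d : ↥(chartOne R F t⁻¹), c ∉ 𝔫 ∧ d ∉ 𝔫 ∧
        g * (d : F) = γ ^ m * (c : F))
    (hlc1 : ∀ u : Fˣ, (u : F) = σ g / g → lc u = 1) :
    ∃ u : F, σ g / g = u ^ m := by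
  haveI : IsScalarTower R K (X ^ m - C (σ g / g) : F[X]).SplittingField :=
    IsScalarTower.of_algebraMap_eq fun r => by
      rw [IsScalarTower.algebraMap_apply R F (X ^ m - C (σ g / g) : F[X]).SplittingField,
        IsScalarTower.algebraMap_apply R K F,
        ← IsScalarTower.algebraMap_apply K F (X ^ m - C (σ g / g) : F[X]).SplittingField]
  haveI : IsScalarTower K₁ K (X ^ m - C (σ g / g) : F[X]).SplittingField :=
    IsScalarTower.of_algebraMap_eq fun r => by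
      rw [IsScalarTower.algebraMap_apply K₁ F (X ^ m - C (σ g / g) : F[X]).SplittingField,
        IsScalarTower.algebraMap_apply K₁ K F,
        ← IsScalarTower.algebraMap_apply K F (X ^ m - C (σ g / g) : F[X]).SplittingField]
  haveI : FiniteDimensional K (X ^ m - C (σ g / g) : F[X]).SplittingField :=
    Module.Finite.trans F _
  exact kummer_final_aux (L := (X ^ m - C (σ g / g) : F[X]).SplittingField) t ht hK π hπ hm hmR ζ hζ
    hM4 lc hlc hRED₁ hRED₂ hT₁ hT₂ σ hσ₁ hσ₂ g hg hb₁ hb₂ hlc1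

end Final

end Fermat.Agent.SS
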