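/-
(SS-q) package SS-KUM — helper3 — part 11: **hypothesis (M3) is automatic**: the coordinate `t`
lies in no prime of the chart `chartOne R F t` minimal over `π` (going down to `R[t]`, where `π` is
a prime element and `t ∉ π R[t]`).  Final theorem without (M3): `kummer_inertia_pow'`.
-/
import Fermat.Agent.SS.KUM_helper3_Final

set_option autoImplicit false
set_option linter.unusedSectionVars false
set_option linter.style.haveILetI false

namespace Fermat.Agent.SS

open Fermat.Agent.JA Polynomial

section Coord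

variable {R : Type*} [CommRing R] [IsDomain R] [IsIntegrallyClosed R] [IsNoetherianRing R]
  [CharZero R] {K₁ : Type*} [Field K₁] [Algebra R K₁]
  [IsFractionRing R K₁] {K : Type*} [Field K] [Algebra K₁ K] [Algebra R K] [IsScalarTower R K₁ K]

/-- the chart of `K` itself is `R[t]`. -/
theorem exists_aeval_eq_of_mem_chartBase (t : K) (ht : Transcendental K₁ t)
    (hK : IntermediateField.adjoin K₁ {t} = ⊤) {x : K} (hx : x ∈ chartOne R K t) :
    ∃ p : R[X], aeval t p = x := by
  haveI : IsFractionRing ↥(Algebra.adjoin R {t}) K := isFractionRing_adjoin (R := R) t hK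
  haveI : IsIntegrallyClosed ↥(Algebra.adjoin R {t}) := isIntegrallyClosed_adjoin (R := R) t ht
  rw [mem_chartOne_iff] at hx
  obtain ⟨y, hy⟩ := IsIntegrallyClosed.isIntegral_iff.1 hx
  have hy' : (y : K) ∈ (aeval t : R[X] →ₐ[R] K).range := by
    rw [← Algebra.adjoin_singleton_eq_range_aeval]; exact y.2
  obtain ⟨p, hp⟩ := hy'
  exact ⟨p, by rw [← hy]; exact hp⟩

theorem aeval_mem_chartBase (t : K) (p : R[X]) : aeval t p ∈ chartOne R K t := by
  rw [mem_chartOne_iff]
  have h : aeval t p ∈ Algebra.adjoin R {t} := by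
    rw [Algebra.adjoin_singleton_eq_range_aeval]; exact ⟨p, rfl⟩
  have : aeval t p = algebraMap ↥(Algebra.adjoin R {t}) K ⟨aeval t p, h⟩ := rfl
  rw [this]
  exact isIntegral_algebraMap

/-- `π` generates a prime ideal of `R[t]`. -/
theorem span_isPrime_chartBase (t : K) (ht : Transcendental K₁ t)
    (hK : IntermediateField.adjoin K₁ {t} = ⊤) (π : R) (hπ : Prime π) :
    (Ideal.span {algebraMap R ↥(chartOne R K t) π}).IsPrime := by
  have htR : Transcendental R t := ht.restrictScalars (IsFractionRing.injective R K₁)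
  have hinj : Function.Injective (aeval t : R[X] →ₐ[R] K) := transcendental_iff_injective.1 htR
  have hCπ : Prime (C π : R[X]) := Polynomial.prime_C_iff.2 hπ
  have key : ∀ x : ↥(chartOne R K t), x ∈ Ideal.span {algebraMap R ↥(chartOne R K t) π} ↔
      ∃ p : R[X], aeval t p = (x : K) ∧ C π ∣ p := by
    intro x
    rw [Ideal.mem_span_singleton']
    constructor
    · rintro ⟨a, ha⟩
      obtain ⟨p, hp⟩ := exists_aeval_eq_of_mem_chartBase (R := R) t ht hK a.2
      refine ⟨C π * p, ?_, dvd_mul_right _ _⟩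
      rw [map_mul, aeval_C, hp, ← ha]
      change algebraMap R K π * (a : K) = (a : K) * algebraMap R K π
      ring
    · rintro ⟨p, hp, ⟨r, rfl⟩⟩
      refine ⟨⟨aeval t r, aeval_mem_chartBase t r⟩, Subtype.ext ?_⟩
      rw [← hp, map_mul, aeval_C]
      change aeval t r * algebraMap R K π = algebraMap R K π * aeval t r
      ring
  refine ⟨?_, ?_⟩
  · intro htop
    have h1 : (1 : ↥(chartOne R K t)) ∈ Ideal.span {algebraMap R ↥(chartOne R K t) π} := by
      rw [htop]; trivial
    obtain ⟨p, hp, hdvd⟩ := (key 1).1 h1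
    have hp1 : p = 1 := hinj (by rw [hp, map_one]; rfl)
    rw [hp1] at hdvd
    exact hCπ.not_isUnit (isUnit_of_dvd_one hdvd)
  · intro x y hxy
    obtain ⟨r, hr, hdvd⟩ := (key (x * y)).1 hxy
    obtain ⟨p, hp⟩ := exists_aeval_eq_of_mem_chartBase (R := R) t ht hK x.2
    obtain ⟨q, hq⟩ := exists_aeval_eq_of_mem_chartBase (R := R) t ht hK y.2
    have hpq : p * q = r := hinj (by
      rw [map_mul, hp, hq, hr]; rfl)
    rw [← hpq] at hdvd
    rcases hCπ.dvd_or_dvd hdvd with h | h
    · exact Or.inl ((key x).2 ⟨p, hp, h⟩)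
    · exact Or.inr ((key y).2 ⟨q, hq, h⟩)

/-- the coordinate is not divisible by `π` in `R[t]`. -/
theorem coord_not_mem_span_chartBase (t : K) (ht : Transcendental K₁ t)
    (hK : IntermediateField.adjoin K₁ {t} = ⊤) (π : R) (hπ : Prime π) :
    (⟨algebraMap K K t, algebraMap_coord_mem_chartOne t⟩ : ↥(chartOne R K t)) ∉
      Ideal.span {algebraMap R ↥(chartOne R K t) π} := by
  have htR : Transcendental R t := ht.restrictScalars (IsFractionRing.injective R K₁)
  have hinj : Function.Injective (aeval t : R[X] →ₐ[R] K) := transcendental_iff_injective.1 htR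
  intro hmem
  obtain ⟨a, ha⟩ := Ideal.mem_span_singleton'.1 hmem
  obtain ⟨p, hp⟩ := exists_aeval_eq_of_mem_chartBase (R := R) t ht hK a.2
  have h1 : (X : R[X]) = C π * p := hinj (by
    rw [aeval_X, map_mul, aeval_C, hp]
    have := congrArg (fun z : ↥(chartOne R K t) => (z : K)) ha
    change (a : K) * algebraMap R K π = t at this
    exact this.symm.trans (mul_comm _ _))
  have h2 := congrArg (fun f : R[X] => f.coeff 1) h1
  simp only [coeff_X_one, coeff_C_mul] at h2
  exact hπ.not_isUnit (IsUnit.of_mul_eq_one _ h2.symm)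

variable {F : Type*} [Field F] [Algebra K F] [Algebra R F] [IsScalarTower R K F]
  [FiniteDimensional K F]

/-- **(M3) is automatic.** -/
theorem coord_not_mem_of_mem_minimalPrimes (t : K) (ht : Transcendental K₁ t)
    (hK : IntermediateField.adjoin K₁ {t} = ⊤) (π : R) (hπ : Prime π) :
    ∀ 𝔮 ∈ (Ideal.span {algebraMap R ↥(chartOne R F t) π}).minimalPrimes,
      (⟨algebraMap K F t, algebraMap_coord_mem_chartOne t⟩ : ↥(chartOne R F t)) ∉ 𝔮 := by
  intro 𝔮 h𝔮 hmem
  have hinjF : Function.Injective (algebraMap R F) := by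
    rw [IsScalarTower.algebraMap_eq R K F, IsScalarTower.algebraMap_eq R K₁ K]
    exact (algebraMap K F).injective.comp
      ((algebraMap K₁ K).injective.comp (IsFractionRing.injective R K₁))
  have hπF : algebraMap R F π ≠ 0 := by
    rw [Ne, map_eq_zero_iff _ hinjF]; exact hπ.ne_zero
  haveI : 𝔮.IsPrime := h𝔮.1.1
  have hh := height_eq_one_of_mem_minimalPrimes_chartOne (K₁ := K₁) t ht hK π hπF 𝔮 h𝔮
  have hmin := comap_chartMap_mem_minimalPrimes (K₁ := K₁) (F := K) (L := F) t ht hK π hπF 𝔮 hh
    (h𝔮.1.2 (Ideal.subset_span (Set.mem_singleton _)))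
  haveI := span_isPrime_chartBase (R := R) t ht hK π hπ
  rw [Ideal.minimalPrimes_eq_subsingleton_self, Set.mem_singleton_iff] at hmin
  apply coord_not_mem_span_chartBase (R := R) t ht hK π hπ
  rw [← hmin, Ideal.mem_comap]
  convert hmem using 1
  exact Subtype.ext rfl

end Coord

end Fermat.Agent.SS
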