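/-
(SS-q) — helper7 — SS-VAL2, part 1 (pure algebra, Mathlib only): extensions of a discrete
valuation ring `O ⊆ F` to a finite separable extension `L / F`, their centers on the integral
closure, and the **two-extension lemma**: if `V₁ ≠ V₂` extend `O`, `[L : F] ≤ r + 1` and `r`
integral elements have `O/𝔪`-linearly independent residues at `V₂`, then `V₁, V₂` are the only
extensions, both are unramified, the residue field of `V₁` is that of `O` and the residue field of
`V₂` is spanned by the given elements.
-/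
import Mathlib

set_option autoImplicit false
set_option linter.unusedSectionVars false
set_option linter.unusedVariables false
set_option linter.style.haveILetI false

open IsLocalRing IsDedekindDomain

namespace Fermat.Agent.SS.TwoExt

variable {F L : Type*} [Field F] [Field L] [Algebra F L]

/-- `V` is an extension of the valuation subring `O` of `F` to `L`. -/
def IsExt (O : ValuationSubring F) (V : ValuationSubring L) : Prop :=
  V.comap (algebraMap F L) = O

theorem IsExt.mem_iff {O : ValuationSubring F} {V : ValuationSubring L} (h : IsExt O V) (a : F) :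
    algebraMap F L a ∈ V ↔ a ∈ O := by
  rw [← h]
  rfl

/-- `x` is a non-unit of `V` iff `x⁻¹ ∉ V` (for `x ≠ 0`). -/
theorem val_lt_one_iff_inv_not_mem (V : ValuationSubring L) {x : L} (hx : x ≠ 0) :
    V.valuation x < 1 ↔ x⁻¹ ∉ V := by
  rw [← ValuationSubring.valuation_le_one_iff, map_inv₀, not_le]
  have h0 : V.valuation x ≠ 0 := (Valuation.ne_zero_iff _).mpr hx
  rw [one_lt_inv₀ (zero_lt_iff.mpr h0)]

theorem IsExt.val_lt_one_iff {O : ValuationSubring F} {V : ValuationSubring L} (h : IsExt O V)
    (a : F) : V.valuation (algebraMap F L a) < 1 ↔ O.valuation a < 1 := by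
  by_cases ha : a = 0
  · subst ha
    simp
  have ha' : algebraMap F L a ≠ 0 := (map_ne_zero _).mpr ha
  rw [val_lt_one_iff_inv_not_mem V ha', val_lt_one_iff_inv_not_mem O ha, ← map_inv₀, h.mem_iff]

theorem IsExt.ne_top {O : ValuationSubring F} [IsDiscreteValuationRing ↥O]
    {V : ValuationSubring L} (h : IsExt O V) : V ≠ ⊤ := by
  rintro rfl
  obtain ⟨ϖ, hϖ⟩ := IsDiscreteValuationRing.exists_irreducible ↥O
  have h1 : ((ϖ : F))⁻¹ ∈ O := by
    rw [← h.mem_iff]
    exact ValuationSubring.mem_top _
  have h0 : (ϖ : F) ≠ 0 := fun h0 => hϖ.ne_zero (Subtype.ext h0)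
  exact hϖ.not_isUnit (isUnit_iff_exists_inv.mpr ⟨⟨_, h1⟩, Subtype.ext (mul_inv_cancel₀ h0)⟩)

variable (L) in
/-- the integral closure of `O` in `L`. -/
abbrev intCl (O : ValuationSubring F) : Subalgebra ↥O L := integralClosure ↥O L

section Instances

variable (O : ValuationSubring F) [IsDiscreteValuationRing ↥O] [FiniteDimensional F L]

instance intCl_isFractionRing : IsFractionRing (intCl L O) L :=
  IsIntegralClosure.isFractionRing_of_finite_extension ↥O F L (intCl L O)

instance intCl_isTorsionFree : Module.IsTorsionFree ↥O (intCl L O) :=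
  Subalgebra.instIsTorsionFree _

variable [Algebra.IsSeparable F L]

instance intCl_isDedekindDomain : IsDedekindDomain (intCl L O) :=
  IsIntegralClosure.isDedekindDomain ↥O F L (intCl L O)

instance intCl_finite : Module.Finite ↥O (intCl L O) :=
  IsIntegralClosure.finite ↥O F L (intCl L O)

end Instances

section Center

variable {O : ValuationSubring F} {V : ValuationSubring L}

/-- the integral closure of `O` is contained in every extension of `O`. -/
theorem intCl_le (h : IsExt O V) (x : L) (hx : x ∈ intCl L O) : x ∈ V := by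
  have hmem : ∀ a : ↥O, algebraMap F L (a : F) ∈ V := fun a => (h.mem_iff _).mpr a.2
  let _ : Algebra ↥O ↥V :=
    ((algebraMap ↥O L).codRestrict V.toSubring hmem).toAlgebra
  have : IsScalarTower ↥O ↥V L := IsScalarTower.of_algebraMap_eq fun x => rfl
  have hint : IsIntegral ↥O x := hx
  have hint' : IsIntegral ↥V x := hint.tower_top
  obtain ⟨y, hy⟩ := IsIntegrallyClosed.isIntegral_iff.mp hint'
  rw [← hy]
  exact y.2

/-- the inclusion of the integral closure into an extension of `O`. -/
def toExt (h : IsExt O V) : intCl L O →+* ↥V :=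
  (algebraMap (intCl L O) L).codRestrict V.toSubring (fun x => intCl_le h x x.2)

@[simp]
theorem coe_toExt (h : IsExt O V) (x : intCl L O) : ((toExt h x : ↥V) : L) = x := rfl

/-- the center of an extension of `O` on the integral closure of `O`. -/
def center (h : IsExt O V) : Ideal (intCl L O) :=
  (maximalIdeal ↥V).comap (toExt h)

instance center_isPrime (h : IsExt O V) : (center h).IsPrime :=
  Ideal.comap_isPrime _ _

theorem mem_center_iff (h : IsExt O V) (x : intCl L O) :
    x ∈ center h ↔ V.valuation (x : L) < 1 := by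
  rw [center, Ideal.mem_comap, ValuationSubring.valuation_lt_one_iff]
  rfl

theorem center_under (h : IsExt O V) :
    (center h).under ↥O = maximalIdeal ↥O := by
  ext a
  rw [Ideal.under_def, Ideal.mem_comap, mem_center_iff, ValuationSubring.valuation_lt_one_iff]
  exact h.val_lt_one_iff (a : F)

instance center_liesOver (h : IsExt O V) : (center h).LiesOver (maximalIdeal ↥O) :=
  ⟨(center_under h).symm⟩

variable [IsDiscreteValuationRing ↥O]

theorem center_ne_bot (h : IsExt O V) : center h ≠ ⊥ := by
  obtain ⟨ϖ, hϖ⟩ := IsDiscreteValuationRing.exists_irreducible ↥O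
  intro hbot
  have hmem : algebraMap ↥O (intCl L O) ϖ ∈ center h := by
    have : ϖ ∈ (center h).under ↥O := by
      rw [center_under h]
      exact hϖ.maximalIdeal_eq ▸ Ideal.mem_span_singleton_self ϖ
    exact this
  rw [hbot, Ideal.mem_bot] at hmem
  have h2 : algebraMap F L (ϖ : F) = 0 := congrArg (fun z : intCl L O => (z : L)) hmem
  exact hϖ.ne_zero (Subtype.ext ((map_eq_zero _).mp h2))

variable [FiniteDimensional F L] [Algebra.IsSeparable F L]

/-- the center as a point of the height-one spectrum. -/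
def centerSpec (h : IsExt O V) : HeightOneSpectrum (intCl L O) :=
  ⟨center h, inferInstance, center_ne_bot h⟩

@[simp]
theorem centerSpec_asIdeal (h : IsExt O V) : (centerSpec h).asIdeal = center h := rfl

instance center_isMaximal (h : IsExt O V) : (center h).IsMaximal :=
  (centerSpec h).isMaximal

/-- an extension of `O` is the localisation of the integral closure at its center. -/
theorem valuationSubring_eq (h : IsExt O V) :
    V = ((centerSpec h).valuation L).valuationSubring := by
  rw [← HeightOneSpectrum.valuationSubringAtPrime_eq_valuationSubring]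
  symm
  refine ValuationSubring.eq_of_le_of_ne_top _ ?_ h.ne_top
  rintro x ⟨a, s, hs, rfl⟩
  have ha : (a : L) ∈ V := intCl_le h a a.2
  have hs' : s ∉ center h := hs
  rw [mem_center_iff, not_lt] at hs'
  have hs0 : (s : L) ≠ 0 := by
    intro h0
    rw [h0, map_zero] at hs'
    exact absurd hs' (by simp)
  have hsinv : (s : L)⁻¹ ∈ V := by
    by_contra hcon
    exact absurd ((val_lt_one_iff_inv_not_mem V hs0).mpr hcon) (not_lt.mpr hs')
  exact mul_mem ha hsinv

/-- an extension of `O` is determined by its center. -/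
theorem eq_of_center_eq {V' : ValuationSubring L} (h : IsExt O V) (h' : IsExt O V')
    (hc : center h = center h') : V = V' := by
  rw [valuationSubring_eq h, valuationSubring_eq h']
  have : centerSpec h = centerSpec h' := HeightOneSpectrum.ext hc
  rw [this]

/-- the valuation of `V` and the adic valuation of the center have the same integers. -/
theorem val_le_one_iff (h : IsExt O V) (x : L) :
    (centerSpec h).valuation L x ≤ 1 ↔ x ∈ V := by
  conv_rhs => rw [valuationSubring_eq h]
  rfl

theorem val_lt_one_iff (h : IsExt O V) (x : L) :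
    (centerSpec h).valuation L x < 1 ↔ V.valuation x < 1 := by
  by_cases hx : x = 0
  · subst hx; simp
  rw [val_lt_one_iff_inv_not_mem V hx, ← val_le_one_iff h, map_inv₀, not_le]
  have h0 : (centerSpec h).valuation L x ≠ 0 := (Valuation.ne_zero_iff _).mpr hx
  rw [one_lt_inv₀ (zero_lt_iff.mpr h0)]

end Center


section Count

variable {O : ValuationSubring F} [IsDiscreteValuationRing ↥O] [FiniteDimensional F L]
  [Algebra.IsSeparable F L]

/-- the center of an extension, as a prime over the maximal ideal. -/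
def centerOver {V : ValuationSubring L} (h : IsExt O V) :
    (maximalIdeal ↥O).primesOver (intCl L O) :=
  ⟨center h, center_isPrime h, center_liesOver h⟩

theorem ramificationIdx_pos (q : (maximalIdeal ↥O).primesOver (intCl L O)) :
    0 < q.1.ramificationIdx ↥O := by
  have := q.2.1
  exact Ideal.ramificationIdx_pos (R := ↥O) (q := q.1)

theorem inertiaDeg_pos' (q : (maximalIdeal ↥O).primesOver (intCl L O)) :
    0 < q.1.inertiaDeg ↥O := by
  have := q.2.1
  exact Ideal.inertiaDeg_pos (R := ↥O) (q := q.1)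

theorem centerOver_injective {V V' : ValuationSubring L} (h : IsExt O V) (h' : IsExt O V')
    (hc : centerOver h = centerOver h') : V = V' :=
  eq_of_center_eq h h' (congrArg Subtype.val hc)

/-- **the counting step**: two distinct extensions, `[L : F] ≤ r + 1`, and inertia degree `≥ r`
at the second one. -/
theorem count_two {V₁ V₂ : ValuationSubring L} (h₁ : IsExt O V₁) (h₂ : IsExt O V₂)
    (hne : V₁ ≠ V₂) {r : ℕ} (hr0 : 0 < r) (hr : Module.finrank F L ≤ r + 1)
    (hf : r ≤ (center h₂).inertiaDeg ↥O) :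
    (∀ q : (maximalIdeal ↥O).primesOver (intCl L O), q = centerOver h₁ ∨ q = centerOver h₂) ∧
      (center h₁).ramificationIdx ↥O = 1 ∧ (center h₁).inertiaDeg ↥O = 1 ∧
      (center h₂).ramificationIdx ↥O = 1 ∧ (center h₂).inertiaDeg ↥O = r ∧
      Module.finrank F L = r + 1 := by
  classical
  have hfin : Finite ((maximalIdeal ↥O).primesOver (intCl L O)) := inferInstance
  let _ : Fintype ((maximalIdeal ↥O).primesOver (intCl L O)) := Fintype.ofFinite _
  have hsum := Ideal.sum_ramification_inertia_eq_finrank (maximalIdeal ↥O) (intCl L O)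
  have h3 : Module.finrank ↥O (intCl L O) = Module.finrank F L :=
    (IsFractionRing.finrank_eq ↥O F (intCl L O) L).symm
  rw [h3] at hsum
  set g : (maximalIdeal ↥O).primesOver (intCl L O) → ℕ :=
    fun q => q.1.ramificationIdx ↥O * q.1.inertiaDeg ↥O with hg
  have hg1 : ∀ q, 1 ≤ g q := fun q =>
    Nat.one_le_iff_ne_zero.mpr (Nat.mul_ne_zero (ramificationIdx_pos q).ne' (inertiaDeg_pos' q).ne')
  set q₁ := centerOver h₁ with hq₁
  set q₂ := centerOver h₂ with hq₂
  have hq12 : q₁ ≠ q₂ := fun hc => hne (centerOver_injective h₁ h₂ hc)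
  have hs1 := Finset.add_sum_erase Finset.univ g (Finset.mem_univ q₁)
  have hq2mem : q₂ ∈ Finset.univ.erase q₁ :=
    Finset.mem_erase.mpr ⟨fun hc => hq12 hc.symm, Finset.mem_univ _⟩
  have hs2 := Finset.add_sum_erase (Finset.univ.erase q₁) g hq2mem
  set T := (Finset.univ.erase q₁).erase q₂ with hT
  have hTle : T.card ≤ ∑ x ∈ T, g x := by
    have := Finset.card_nsmul_le_sum T g 1 (fun x _ => hg1 x)
    simpa using this
  have hgq2 : r ≤ g q₂ := by
    have h1 : 1 ≤ (center h₂).ramificationIdx ↥O := ramificationIdx_pos q₂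
    calc r ≤ (center h₂).inertiaDeg ↥O := hf
      _ = 1 * (center h₂).inertiaDeg ↥O := (one_mul _).symm
      _ ≤ (center h₂).ramificationIdx ↥O * (center h₂).inertiaDeg ↥O :=
        Nat.mul_le_mul_right _ h1
  have hgq1 : 1 ≤ g q₁ := hg1 q₁
  have htot : g q₁ + (g q₂ + ∑ x ∈ T, g x) ≤ r + 1 := by
    rw [hs2, hs1, hsum]
    exact hr
  have hTsum : ∑ x ∈ T, g x = 0 := by omega
  have hTcard : T.card = 0 := by omega
  have hg1eq : g q₁ = 1 := by omega
  have hg2eq : g q₂ = r := by omega
  have hfr : Module.finrank F L = r + 1 := by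
    rw [← hsum, ← hs1, ← hs2, hTsum, hg1eq, hg2eq]
    omega
  refine ⟨?_, ?_, ?_, ?_, ?_, hfr⟩
  · intro q
    by_contra hcon
    rw [not_or] at hcon
    have : q ∈ T := Finset.mem_erase.mpr ⟨hcon.2, Finset.mem_erase.mpr ⟨hcon.1, Finset.mem_univ _⟩⟩
    rw [Finset.card_eq_zero] at hTcard
    rw [hTcard] at this
    exact absurd this (Finset.notMem_empty _)
  · exact (Nat.eq_one_of_mul_eq_one_right hg1eq)
  · exact (Nat.eq_one_of_mul_eq_one_left hg1eq)
  · have h1 : 1 ≤ (center h₂).ramificationIdx ↥O := ramificationIdx_pos q₂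
    have h2 : (center h₂).ramificationIdx ↥O * (center h₂).inertiaDeg ↥O = r := hg2eq
    by_contra hcon
    have h3 : 2 ≤ (center h₂).ramificationIdx ↥O := by omega
    have h4 : 2 * (center h₂).inertiaDeg ↥O ≤
        (center h₂).ramificationIdx ↥O * (center h₂).inertiaDeg ↥O :=
      Nat.mul_le_mul_right _ h3
    omega
  · have h1 : 1 ≤ (center h₂).ramificationIdx ↥O := ramificationIdx_pos q₂
    have h2 : (center h₂).ramificationIdx ↥O * (center h₂).inertiaDeg ↥O = r := hg2eq
    have h4 : 1 * (center h₂).inertiaDeg ↥O ≤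
        (center h₂).ramificationIdx ↥O * (center h₂).inertiaDeg ↥O :=
      Nat.mul_le_mul_right _ h1
    omega

end Count


section Residue

variable {O : ValuationSubring F} [IsDiscreteValuationRing ↥O] [FiniteDimensional F L]
  [Algebra.IsSeparable F L] {V : ValuationSubring L}

/-- every element of `V` is congruent to an element of the integral closure. -/
theorem exists_intCl_sub_val_lt_one (h : IsExt O V) {x : L} (hx : x ∈ V) :
    ∃ s : intCl L O, V.valuation (x - (s : L)) < 1 := by
  have hx' : (centerSpec h).valuation L x ≤ 1 := (val_le_one_iff h x).mpr hx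
  obtain ⟨n, d, hnd⟩ := (centerSpec h).exists_primeCompl_mul_eq_of_integer x hx'
  have hd : (d : intCl L O) ∉ center h := d.2
  obtain ⟨t, i, hi, hti⟩ := (center_isMaximal h).exists_inv hd
  refine ⟨n * t, ?_⟩
  have hd0 : ((d : intCl L O) : L) ≠ 0 := by
    intro h0
    apply hd
    have : (d : intCl L O) = 0 := Subtype.ext h0
    rw [this]
    exact zero_mem _
  have hdval : V.valuation ((d : intCl L O) : L) = 1 := by
    have h1 : V.valuation ((d : intCl L O) : L) ≤ 1 :=
      (ValuationSubring.valuation_le_one_iff V _).mpr (intCl_le h _ (d : intCl L O).2)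
    rw [mem_center_iff, not_lt] at hd
    exact le_antisymm h1 hd
  have hival : V.valuation ((i : intCl L O) : L) < 1 := (mem_center_iff h i).mp hi
  have hnval : V.valuation ((n : intCl L O) : L) ≤ 1 :=
    (ValuationSubring.valuation_le_one_iff V _).mpr (intCl_le h _ n.2)
  have hxe : x = (n : L) * ((d : intCl L O) : L)⁻¹ := by
    have : x * ((d : intCl L O) : L) = (n : L) := hnd
    field_simp
    exact this
  have hkey : x - ((n * t : intCl L O) : L) = (n : L) * (i : L) * ((d : intCl L O) : L)⁻¹ := by
    have h1 : (t : L) * ((d : intCl L O) : L) + (i : L) = 1 := by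
      have := congrArg (fun z : intCl L O => (z : L)) hti
      simpa using this
    rw [hxe]
    push_cast
    field_simp
    linear_combination (-(n : L)) * h1
  rw [hkey, map_mul, map_mul, map_inv₀, hdval, inv_one, mul_one]
  calc V.valuation (n : L) * V.valuation (i : L) ≤ 1 * V.valuation (i : L) :=
        mul_le_mul_left hnval _
    _ = V.valuation (i : L) := one_mul _
    _ < 1 := hival

end Residue


section Inertia

variable {O : ValuationSubring F} [IsDiscreteValuationRing ↥O] [FiniteDimensional F L]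
  [Algebra.IsSeparable F L] {V : ValuationSubring L}

theorem quotient_mk_eq_zero_iff (h : IsExt O V) (s : intCl L O) :
    (Ideal.Quotient.mk (center h) s = 0) ↔ V.valuation (s : L) < 1 := by
  rw [Ideal.Quotient.eq_zero_iff_mem, mem_center_iff]

theorem sum_smul_mk (h : IsExt O V) {r : ℕ} (a : Fin r → ↥O) (bS : Fin r → intCl L O) :
    ∑ i, (Ideal.Quotient.mk (maximalIdeal ↥O) (a i)) • (Ideal.Quotient.mk (center h) (bS i)) =
      Ideal.Quotient.mk (center h) (∑ i, algebraMap ↥O (intCl L O) (a i) * bS i) := by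
  rw [map_sum]
  refine Finset.sum_congr rfl fun i _ => ?_
  rw [Algebra.smul_def, Ideal.Quotient.algebraMap_mk_of_liesOver, ← map_mul]

theorem coe_sum_algebraMap_mul {r : ℕ} (a : Fin r → ↥O) (bS : Fin r → intCl L O) :
    ((∑ i, algebraMap ↥O (intCl L O) (a i) * bS i : intCl L O) : L) =
      ∑ i, algebraMap F L (a i : F) * (bS i : L) := by
  rw [AddSubmonoidClass.coe_finsetSum]
  rfl

/-- lower bound for the inertia degree from integral elements with independent residues. -/
theorem le_inertiaDeg_center (h : IsExt O V) {r : ℕ} (b : Fin r → L)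
    (hb : ∀ i, IsIntegral ↥O (b i))
    (hind : ∀ a : Fin r → ↥O, V.valuation (∑ i, algebraMap F L (a i : F) * b i) < 1 →
      ∀ i, a i ∈ maximalIdeal ↥O) :
    r ≤ (center h).inertiaDeg ↥O := by
  rw [Ideal.inertiaDeg_eq_of_isMaximal (maximalIdeal ↥O) (center h)]
  let bS : Fin r → intCl L O := fun i => ⟨b i, hb i⟩
  have hli : LinearIndependent (↥O ⧸ maximalIdeal ↥O)
      (fun i => Ideal.Quotient.mk (center h) (bS i)) := by
    rw [Fintype.linearIndependent_iff]
    intro c hc i
    choose a ha using fun i => Ideal.Quotient.mk_surjective (c i)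
    have hc' : ∑ i, (Ideal.Quotient.mk (maximalIdeal ↥O) (a i)) •
        (Ideal.Quotient.mk (center h) (bS i)) = 0 := by
      simpa only [ha] using hc
    rw [sum_smul_mk, quotient_mk_eq_zero_iff, coe_sum_algebraMap_mul] at hc'
    rw [← ha i, Ideal.Quotient.eq_zero_iff_mem]
    exact hind a hc' i
  have := hli.fintype_card_le_finrank
  simpa using this

/-- inertia degree one: the residue field of `V` is that of `O`. -/
theorem exists_sub_val_lt_one_of_inertiaDeg_eq_one (h : IsExt O V)
    (hf : (center h).inertiaDeg ↥O = 1) {x : L} (hx : x ∈ V) :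
    ∃ a : ↥O, V.valuation (x - algebraMap F L (a : F)) < 1 := by
  rw [Ideal.inertiaDeg_eq_of_isMaximal (maximalIdeal ↥O) (center h)] at hf
  obtain ⟨s, hs⟩ := exists_intCl_sub_val_lt_one h hx
  letI : Field (↥O ⧸ maximalIdeal ↥O) := Ideal.Quotient.field _
  have hbot := Subalgebra.bot_eq_top_of_finrank_eq_one hf
  have hmem : Ideal.Quotient.mk (center h) s ∈ (⊥ : Subalgebra (↥O ⧸ maximalIdeal ↥O) _) := by
    rw [hbot]
    exact Algebra.mem_top
  rw [Algebra.mem_bot] at hmem
  obtain ⟨c, hc⟩ := hmem
  obtain ⟨a, rfl⟩ := Ideal.Quotient.mk_surjective c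
  refine ⟨a, ?_⟩
  rw [Ideal.Quotient.algebraMap_mk_of_liesOver, Ideal.Quotient.eq, ← neg_mem_iff, neg_sub,
    mem_center_iff] at hc
  have hsplit : x - algebraMap F L (a : F) =
      (x - (s : L)) + ((s : L) - algebraMap F L (a : F)) := by ring
  rw [hsplit]
  exact lt_of_le_of_lt (Valuation.map_add _ _ _) (max_lt hs hc)

/-- inertia degree `r` with `r` independent residues: they span the residue field of `V`. -/
theorem exists_sum_sub_val_lt_one_of_inertiaDeg_eq (h : IsExt O V) {r : ℕ}
    (hf : (center h).inertiaDeg ↥O = r) (b : Fin r → L) (hb : ∀ i, IsIntegral ↥O (b i))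
    (hind : ∀ a : Fin r → ↥O, V.valuation (∑ i, algebraMap F L (a i : F) * b i) < 1 →
      ∀ i, a i ∈ maximalIdeal ↥O) {x : L} (hx : x ∈ V) :
    ∃ a : Fin r → ↥O, V.valuation (x - ∑ i, algebraMap F L (a i : F) * b i) < 1 := by
  rw [Ideal.inertiaDeg_eq_of_isMaximal (maximalIdeal ↥O) (center h)] at hf
  obtain ⟨s, hs⟩ := exists_intCl_sub_val_lt_one h hx
  letI : Field (↥O ⧸ maximalIdeal ↥O) := Ideal.Quotient.field _
  let bS : Fin r → intCl L O := fun i => ⟨b i, hb i⟩
  have hli : LinearIndependent (↥O ⧸ maximalIdeal ↥O)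
      (fun i => Ideal.Quotient.mk (center h) (bS i)) := by
    rw [Fintype.linearIndependent_iff]
    intro c hc i
    choose a ha using fun i => Ideal.Quotient.mk_surjective (c i)
    have hc' : ∑ i, (Ideal.Quotient.mk (maximalIdeal ↥O) (a i)) •
        (Ideal.Quotient.mk (center h) (bS i)) = 0 := by
      simpa only [ha] using hc
    rw [sum_smul_mk, quotient_mk_eq_zero_iff, coe_sum_algebraMap_mul] at hc'
    rw [← ha i, Ideal.Quotient.eq_zero_iff_mem]
    exact hind a hc' i
  have hspan : Submodule.span (↥O ⧸ maximalIdeal ↥O)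
      (Set.range fun i => Ideal.Quotient.mk (center h) (bS i)) = ⊤ :=
    hli.span_eq_top_of_card_eq_finrank' (by rw [Fintype.card_fin]; exact hf.symm)
  have hmem : Ideal.Quotient.mk (center h) s ∈ Submodule.span (↥O ⧸ maximalIdeal ↥O)
      (Set.range fun i => Ideal.Quotient.mk (center h) (bS i)) := by
    rw [hspan]
    exact Submodule.mem_top
  rw [Submodule.mem_span_range_iff_exists_fun] at hmem
  obtain ⟨c, hc⟩ := hmem
  choose a ha using fun i => Ideal.Quotient.mk_surjective (c i)
  refine ⟨a, ?_⟩
  have hc' : ∑ i, (Ideal.Quotient.mk (maximalIdeal ↥O) (a i)) •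
      (Ideal.Quotient.mk (center h) (bS i)) = Ideal.Quotient.mk (center h) s := by
    simpa only [ha] using hc
  rw [sum_smul_mk, Ideal.Quotient.eq, ← neg_mem_iff, neg_sub, mem_center_iff] at hc'
  have hcoe : ((s - ∑ i, algebraMap ↥O (intCl L O) (a i) * bS i : intCl L O) : L) =
      (s : L) - ∑ i, algebraMap F L (a i : F) * b i := by
    rw [AddSubgroupClass.coe_sub, coe_sum_algebraMap_mul]
  rw [hcoe] at hc'
  have hsplit : x - ∑ i, algebraMap F L (a i : F) * b i =
      (x - (s : L)) + ((s : L) - ∑ i, algebraMap F L (a i : F) * b i) := by ring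
  rw [hsplit]
  exact lt_of_le_of_lt (Valuation.map_add _ _ _) (max_lt hs hc')

end Inertia


section Ramification

variable {O : ValuationSubring F} [IsDiscreteValuationRing ↥O] [FiniteDimensional F L]
  [Algebra.IsSeparable F L] {V : ValuationSubring L}

/-- the adic valuation of a uniformiser of `O` at the center is `exp (-e)`. -/
theorem valuation_uniformizer (h : IsExt O V) {ϖ : ↥O} (hϖ : Irreducible ϖ) :
    (centerSpec h).valuation L (algebraMap F L (ϖ : F)) =
      WithZero.exp (-((center h).ramificationIdx ↥O : ℤ)) := by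
  have hb0 : algebraMap ↥O (intCl L O) ϖ ≠ 0 := by
    rw [Ne, FaithfulSMul.algebraMap_eq_zero_iff]
    exact hϖ.ne_zero
  have hmap : (maximalIdeal ↥O).map (algebraMap ↥O (intCl L O))
      = Ideal.span {algebraMap ↥O (intCl L O) ϖ} := by
    rw [hϖ.maximalIdeal_eq, Ideal.map_span, Set.image_singleton]
  have hp0 : (maximalIdeal ↥O).map (algebraMap ↥O (intCl L O)) ≠ ⊥ := by
    rw [hmap, Ne, Ideal.span_singleton_eq_bot]
    exact hb0
  rw [Ideal.IsDedekindDomain.ramificationIdx_eq_multiplicity
    (maximalIdeal ↥O) (center h) hp0, hmap]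
  have h1 : algebraMap F L (ϖ : F)
      = algebraMap (intCl L O) L (algebraMap ↥O (intCl L O) ϖ) := rfl
  rw [h1, HeightOneSpectrum.valuation_of_algebraMap,
    HeightOneSpectrum.intValuation_eq_exp_neg_multiplicity _ hb0]
  rfl

/-- if the ramification index is one, every non-unit of `V` is divisible by a uniformiser of
`O`. -/
theorem mul_inv_mem_of_ramificationIdx_eq_one (h : IsExt O V)
    (he : (center h).ramificationIdx ↥O = 1) {ϖ : ↥O} (hϖ : Irreducible ϖ) {x : L}
    (hx : V.valuation x < 1) : x * (algebraMap F L (ϖ : F))⁻¹ ∈ V := by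
  rw [← val_le_one_iff h, map_mul, map_inv₀, valuation_uniformizer h hϖ, he]
  rw [← val_lt_one_iff h] at hx
  by_cases hx0 : x = 0
  · subst hx0; simp
  set y := (centerSpec h).valuation L x with hy
  have hy0 : y ≠ 0 := (Valuation.ne_zero_iff _).mpr hx0
  have hle : y ≤ WithZero.exp (-1 : ℤ) := by
    rw [← WithZero.exp_log hy0] at hx ⊢
    rw [← WithZero.exp_zero, WithZero.exp_lt_exp] at hx
    rw [WithZero.exp_le_exp]
    omega
  have hpos : (0 : WithZero (Multiplicative ℤ)) < WithZero.exp (-1 : ℤ) := WithZero.exp_pos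
  have : y * (WithZero.exp (-(1 : ℕ) : ℤ))⁻¹ ≤ 1 := by
    have h1 : ((1 : ℕ) : ℤ) = 1 := rfl
    rw [h1, mul_inv_le_iff₀ hpos, one_mul]
    exact hle
  exact this

end Ramification


section Global

variable {O : ValuationSubring F} [IsDiscreteValuationRing ↥O] [FiniteDimensional F L]
  [Algebra.IsSeparable F L]

/-- every non-zero prime of the integral closure lies over the maximal ideal of `O`. -/
theorem heightOne_under (P : HeightOneSpectrum (intCl L O)) :
    P.asIdeal.under ↥O = maximalIdeal ↥O := by
  have hne : P.asIdeal.under ↥O ≠ ⊥ := Ideal.under_ne_bot ↥O P.ne_bot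
  have hprime : (P.asIdeal.under ↥O).IsPrime := Ideal.comap_isPrime _ _
  have hmax : (P.asIdeal.under ↥O).IsMaximal := hprime.isMaximal hne
  exact (IsLocalRing.eq_maximalIdeal hmax)

/-- the valuation subring of a non-zero prime of the integral closure is an extension of `O`. -/
theorem isExt_valuationSubring (P : HeightOneSpectrum (intCl L O)) :
    IsExt O (P.valuation L).valuationSubring := by
  unfold IsExt
  symm
  refine ValuationSubring.eq_of_le_of_ne_top O ?_ ?_
  · intro a ha
    show P.valuation L (algebraMap F L a) ≤ 1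
    have h1 : algebraMap F L a = algebraMap (intCl L O) L (algebraMap ↥O (intCl L O) ⟨a, ha⟩) := rfl
    rw [h1]
    exact P.valuation_le_one _
  · intro htop
    obtain ⟨ϖ, hϖ⟩ := IsDiscreteValuationRing.exists_irreducible ↥O
    have hmem : algebraMap ↥O (intCl L O) ϖ ∈ P.asIdeal := by
      have : ϖ ∈ P.asIdeal.under ↥O := by
        rw [heightOne_under P]
        exact hϖ.maximalIdeal_eq ▸ Ideal.mem_span_singleton_self ϖ
      exact this
    have hlt : P.valuation L (algebraMap (intCl L O) L (algebraMap ↥O (intCl L O) ϖ)) < 1 :=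
      (P.valuation_lt_one_iff_mem _).mpr hmem
    have h0 : (ϖ : F) ≠ 0 := fun h0 => hϖ.ne_zero (Subtype.ext h0)
    have hinv : ((ϖ : F))⁻¹ ∈ (P.valuation L).valuationSubring.comap (algebraMap F L) := by
      rw [htop]
      exact ValuationSubring.mem_top _
    have hinv' : P.valuation L (algebraMap F L ((ϖ : F))⁻¹) ≤ 1 := hinv
    rw [map_inv₀, map_inv₀] at hinv'
    have h1 : algebraMap F L (ϖ : F)
        = algebraMap (intCl L O) L (algebraMap ↥O (intCl L O) ϖ) := rfl
    rw [h1] at hinv'
    have hne : P.valuation L (algebraMap (intCl L O) L (algebraMap ↥O (intCl L O) ϖ)) ≠ 0 := by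
      rw [Valuation.ne_zero_iff, ← h1]
      exact (map_ne_zero _).mpr h0
    rw [inv_le_one₀ (zero_lt_iff.mpr hne)] at hinv'
    exact absurd hlt (not_lt.mpr hinv')

/-- the center of the extension attached to a prime is that prime. -/
theorem center_isExt_valuationSubring (P : HeightOneSpectrum (intCl L O)) :
    center (isExt_valuationSubring P) = P.asIdeal := by
  ext x
  rw [mem_center_iff, ← P.valuation_lt_one_iff_mem (K := L)]
  change _ ↔ P.valuation L (x : L) < 1
  set V := (P.valuation L).valuationSubring with hV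
  by_cases hx : (x : L) = 0
  · rw [hx]; simp
  rw [val_lt_one_iff_inv_not_mem V hx]
  have h0 : P.valuation L (x : L) ≠ 0 := (Valuation.ne_zero_iff _).mpr hx
  show ¬ (P.valuation L (x : L)⁻¹ ≤ 1) ↔ _
  rw [map_inv₀, not_le, one_lt_inv₀ (zero_lt_iff.mpr h0)]

/-- **existence of extensions.** -/
theorem exists_isExt (O : ValuationSubring F) [IsDiscreteValuationRing ↥O] :
    ∃ V : ValuationSubring L, IsExt O V := by
  have hinj : Function.Injective (algebraMap ↥O (intCl L O)) :=
    FaithfulSMul.algebraMap_injective _ _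
  have hker : RingHom.ker (algebraMap ↥O (intCl L O)) ≤ maximalIdeal ↥O := by
    rw [(RingHom.injective_iff_ker_eq_bot (algebraMap ↥O (intCl L O))).mp hinj]
    exact bot_le
  obtain ⟨Q, hQmax, hQ⟩ := Ideal.exists_ideal_over_maximal_of_isIntegral
    (S := intCl L O) (maximalIdeal ↥O) hker
  have hQ0 : Q ≠ ⊥ := by
    rintro rfl
    have : maximalIdeal ↥O = ⊥ := by
      rw [← hQ]
      exact (RingHom.injective_iff_ker_eq_bot (algebraMap ↥O (intCl L O))).mp hinj
    exact IsDiscreteValuationRing.not_a_field _ this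
  exact ⟨_, isExt_valuationSubring ⟨Q, hQmax.isPrime, hQ0⟩⟩

/-- if `V₁, V₂` are the only centers, the integral closure is `V₁ ∩ V₂`. -/
theorem isIntegral_of_mem_of_mem {V₁ V₂ : ValuationSubring L} (h₁ : IsExt O V₁)
    (h₂ : IsExt O V₂)
    (hall : ∀ q : (maximalIdeal ↥O).primesOver (intCl L O),
      q = centerOver h₁ ∨ q = centerOver h₂)
    {x : L} (hx₁ : x ∈ V₁) (hx₂ : x ∈ V₂) : IsIntegral ↥O x := by
  have hmem : x ∈ (algebraMap (intCl L O) L).range := by
    apply HeightOneSpectrum.mem_integers_of_valuation_le_one L x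
    intro P
    have hP : P.asIdeal ∈ (maximalIdeal ↥O).primesOver (intCl L O) :=
      ⟨P.isPrime, ⟨(heightOne_under P).symm⟩⟩
    rcases hall ⟨P.asIdeal, hP⟩ with hq | hq
    · have : P = centerSpec h₁ := HeightOneSpectrum.ext (congrArg Subtype.val hq)
      rw [this, val_le_one_iff]
      exact hx₁
    · have : P = centerSpec h₂ := HeightOneSpectrum.ext (congrArg Subtype.val hq)
      rw [this, val_le_one_iff]
      exact hx₂
  obtain ⟨s, rfl⟩ := hmem
  exact s.2

end Global

section Main

variable {O : ValuationSubring F} [IsDiscreteValuationRing ↥O] [FiniteDimensional F L]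
  [Algebra.IsSeparable F L]

/-- **The two-extension lemma.**  `V₁ ≠ V₂` extend the discrete valuation ring `O`,
`[L : F] ≤ r + 1` (`r ≥ 1`) and `b₁, …, b_r` are integral over `O` with `O/𝔪`-linearly independent
residues at `V₂`.  Then: `[L : F] = r + 1`; `V₁, V₂` are the only extensions of `O`; a uniformiser
of `O` divides every non-unit of `V₁` and of `V₂` (`e = 1`); the residue field of `V₁` is that of
`O`; the residues of the `b_i` span the residue field of `V₂`; and the integral closure of `O` in
`L` is `V₁ ∩ V₂`. -/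
theorem two_ext {V₁ V₂ : ValuationSubring L} (h₁ : IsExt O V₁) (h₂ : IsExt O V₂)
    (hne : V₁ ≠ V₂) {r : ℕ} (hr0 : 0 < r) (hr : Module.finrank F L ≤ r + 1)
    (b : Fin r → L) (hb : ∀ i, IsIntegral ↥O (b i))
    (hind : ∀ a : Fin r → ↥O, V₂.valuation (∑ i, algebraMap F L (a i : F) * b i) < 1 →
      ∀ i, a i ∈ maximalIdeal ↥O) :
    Module.finrank F L = r + 1 ∧
    (∀ V : ValuationSubring L, IsExt O V → V = V₁ ∨ V = V₂) ∧
    (∀ ϖ : ↥O, Irreducible ϖ → ∀ x : L, V₁.valuation x < 1 →
      x * (algebraMap F L (ϖ : F))⁻¹ ∈ V₁) ∧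
    (∀ ϖ : ↥O, Irreducible ϖ → ∀ x : L, V₂.valuation x < 1 →
      x * (algebraMap F L (ϖ : F))⁻¹ ∈ V₂) ∧
    (∀ x ∈ V₁, ∃ a : ↥O, V₁.valuation (x - algebraMap F L (a : F)) < 1) ∧
    (∀ x ∈ V₂, ∃ a : Fin r → ↥O,
      V₂.valuation (x - ∑ i, algebraMap F L (a i : F) * b i) < 1) ∧
    (∀ x : L, x ∈ V₁ → x ∈ V₂ → IsIntegral ↥O x) := by
  obtain ⟨hall, he₁, hf₁, he₂, hf₂, hdeg⟩ :=
    count_two h₁ h₂ hne hr0 hr (le_inertiaDeg_center h₂ b hb hind)
  refine ⟨hdeg, ?_, ?_, ?_, ?_, ?_, ?_⟩
  · intro V hV
    rcases hall (centerOver hV) with hq | hq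
    · left; exact centerOver_injective hV h₁ hq
    · right; exact centerOver_injective hV h₂ hq
  · intro ϖ hϖ x hx
    exact mul_inv_mem_of_ramificationIdx_eq_one h₁ he₁ hϖ hx
  · intro ϖ hϖ x hx
    exact mul_inv_mem_of_ramificationIdx_eq_one h₂ he₂ hϖ hx
  · intro x hx
    exact exists_sub_val_lt_one_of_inertiaDeg_eq_one h₁ hf₁ hx
  · intro x hx
    exact exists_sum_sub_val_lt_one_of_inertiaDeg_eq h₂ hf₂ b hb hind hx
  · intro x hx₁ hx₂
    exact isIntegral_of_mem_of_mem h₁ h₂ hall hx₁ hx₂

end Main


section One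

variable {O : ValuationSubring F} [IsDiscreteValuationRing ↥O] [FiniteDimensional F L]
  [Algebra.IsSeparable F L]

/-- the counting step for a single extension of full inertia degree. -/
theorem count_one {V : ValuationSubring L} (h : IsExt O V) {r : ℕ} (hr0 : 0 < r)
    (hr : Module.finrank F L ≤ r) (hf : r ≤ (center h).inertiaDeg ↥O) :
    (∀ q : (maximalIdeal ↥O).primesOver (intCl L O), q = centerOver h) ∧
      (center h).ramificationIdx ↥O = 1 ∧ (center h).inertiaDeg ↥O = r ∧
      Module.finrank F L = r := by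
  classical
  let _ : Fintype ((maximalIdeal ↥O).primesOver (intCl L O)) := Fintype.ofFinite _
  have hsum := Ideal.sum_ramification_inertia_eq_finrank (maximalIdeal ↥O) (intCl L O)
  have h3 : Module.finrank ↥O (intCl L O) = Module.finrank F L :=
    (IsFractionRing.finrank_eq ↥O F (intCl L O) L).symm
  rw [h3] at hsum
  set g : (maximalIdeal ↥O).primesOver (intCl L O) → ℕ :=
    fun q => q.1.ramificationIdx ↥O * q.1.inertiaDeg ↥O with hg
  have hg1 : ∀ q, 1 ≤ g q := fun q =>
    Nat.one_le_iff_ne_zero.mpr (Nat.mul_ne_zero (ramificationIdx_pos q).ne' (inertiaDeg_pos' q).ne')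
  set q₁ := centerOver h with hq₁
  have hs1 := Finset.add_sum_erase Finset.univ g (Finset.mem_univ q₁)
  set T := Finset.univ.erase q₁ with hT
  have hTle : T.card ≤ ∑ x ∈ T, g x := by
    have := Finset.card_nsmul_le_sum T g 1 (fun x _ => hg1 x)
    simpa using this
  have h1 : 1 ≤ (center h).ramificationIdx ↥O := ramificationIdx_pos q₁
  have hgq : r ≤ g q₁ := by
    calc r ≤ (center h).inertiaDeg ↥O := hf
      _ = 1 * (center h).inertiaDeg ↥O := (one_mul _).symm
      _ ≤ (center h).ramificationIdx ↥O * (center h).inertiaDeg ↥O :=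
        Nat.mul_le_mul_right _ h1
  have htot : g q₁ + ∑ x ∈ T, g x ≤ r := by
    rw [hs1, hsum]
    exact hr
  have hTsum : ∑ x ∈ T, g x = 0 := by omega
  have hTcard : T.card = 0 := by omega
  have hgeq : g q₁ = r := by omega
  have hfr : Module.finrank F L = r := by
    rw [← hsum, ← hs1, hTsum, hgeq]
    omega
  have h2 : (center h).ramificationIdx ↥O * (center h).inertiaDeg ↥O = r := hgeq
  refine ⟨?_, ?_, ?_, hfr⟩
  · intro q
    by_contra hcon
    have : q ∈ T := Finset.mem_erase.mpr ⟨hcon, Finset.mem_univ _⟩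
    rw [Finset.card_eq_zero] at hTcard
    rw [hTcard] at this
    exact absurd this (Finset.notMem_empty _)
  · by_contra hcon
    have h3 : 2 ≤ (center h).ramificationIdx ↥O := by omega
    have h4 : 2 * (center h).inertiaDeg ↥O ≤
        (center h).ramificationIdx ↥O * (center h).inertiaDeg ↥O :=
      Nat.mul_le_mul_right _ h3
    omega
  · have h4 : 1 * (center h).inertiaDeg ↥O ≤
        (center h).ramificationIdx ↥O * (center h).inertiaDeg ↥O :=
      Nat.mul_le_mul_right _ h1
    omega

/-- **The one-extension lemma.**  If `[L : F] ≤ r` and `r` integral elements have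
`O/𝔪`-linearly independent residues at an extension `V` of `O`, then `V` is the only extension of
`O`, it is unramified, the residues of the `b_i` span its residue field, and `V` is the integral
closure of `O` in `L`. -/
theorem one_ext {V : ValuationSubring L} (h : IsExt O V) {r : ℕ} (hr0 : 0 < r)
    (hr : Module.finrank F L ≤ r) (b : Fin r → L) (hb : ∀ i, IsIntegral ↥O (b i))
    (hind : ∀ a : Fin r → ↥O, V.valuation (∑ i, algebraMap F L (a i : F) * b i) < 1 →
      ∀ i, a i ∈ maximalIdeal ↥O) :
    Module.finrank F L = r ∧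
    (∀ V' : ValuationSubring L, IsExt O V' → V' = V) ∧
    (∀ ϖ : ↥O, Irreducible ϖ → ∀ x : L, V.valuation x < 1 →
      x * (algebraMap F L (ϖ : F))⁻¹ ∈ V) ∧
    (∀ x ∈ V, ∃ a : Fin r → ↥O,
      V.valuation (x - ∑ i, algebraMap F L (a i : F) * b i) < 1) ∧
    (∀ x : L, x ∈ V → IsIntegral ↥O x) := by
  obtain ⟨hall, he, hf, hdeg⟩ := count_one h hr0 hr (le_inertiaDeg_center h b hb hind)
  refine ⟨hdeg, ?_, ?_, ?_, ?_⟩
  · intro V' hV'
    exact centerOver_injective hV' h (hall (centerOver hV'))
  · intro ϖ hϖ x hx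
    exact mul_inv_mem_of_ramificationIdx_eq_one h he hϖ hx
  · intro x hx
    exact exists_sum_sub_val_lt_one_of_inertiaDeg_eq h hf b hb hind hx
  · intro x hx
    exact isIntegral_of_mem_of_mem h h (fun q => Or.inl (hall q)) hx hx

end One

end Fermat.Agent.SS.TwoExt
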