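/-
(SS-q) MODEL-GLOBAL leaf [C] VERT — helper4.  Pure algebra: from the valuation data of a two-sheeted
chart (`IsTwoSheet π u W_∞ W_0`: the only two extensions of the Gauss valuation of `K = K₁(u)` to the
finite extension `E`, both with `e = 1`) to the chart `B = chartOne R E u` (integral closure of `R[u]`
in `E`): the sheet primes `sheetIdeal`, (V2) every height-one prime containing `π` is a sheet, (V3)
`𝔓_∞ ⊓ 𝔓_0 ≤ (π)`, (V4) incomparability and height one, (V5) `B_{𝔓_w} = W_w`, and helper3's (M2)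
(reduced special fibre).  (V6) (residue field `k` at closed points) is in `VERT_helper4_Closed`.
-/
import Mathlib
import Fermat.Agent.JA.GEO_lead_Spec
import Fermat.Agent.JA.GEO_lead_Local
import Fermat.Agent.JA.GAUSSUNIQ_helper6
import Fermat.Agent.JA.ABH_helper4_Local
import Fermat.Agent.SS.KUM_helper3_Charts
import Fermat.Agent.SS.KUM_helper3_Coord
import Fermat.Agent.SS.K1_helper3
import Fermat.Agent.SS.MODLOC_helper5_Core
import Fermat.Agent.SS.VAL2_helper7_TwoExt

set_option autoImplicit false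
set_option linter.unusedSectionVars false
set_option linter.style.haveILetI false

namespace Fermat.Agent.SS

open Fermat.Agent.JA Polynomial

/-- a prime of a subalgebra of a field is the centre of a valuation subring dominating the local
ring at that prime. -/
theorem exists_valuationSubring_dominating {R E : Type*} [CommRing R] [Field E] [Algebra R E]
    (B : Subalgebra R E) (P : Ideal ↥B) [hP : P.IsPrime] :
    ∃ V : ValuationSubring E, (∀ b ∈ B, b ∈ V) ∧ (∀ b : ↥B, b ∉ P → (b : E)⁻¹ ∈ V) ∧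
      (∀ b : ↥B, b ∈ P → V.valuation (b : E) < 1) := by
  classical
  let e : ↥B.toSubring →+* ↥B :=
    { toFun := fun x => ⟨x.1, x.2⟩
      map_one' := rfl
      map_mul' := fun _ _ => rfl
      map_zero' := rfl
      map_add' := fun _ _ => rfl }
  let P' : Ideal ↥B.toSubring := P.comap e
  haveI : P'.IsPrime := Ideal.comap_isPrime e P
  obtain ⟨V, hV⟩ := (LocalSubring.ofPrime B.toSubring P').exists_le_valuationSubring
  obtain ⟨hle, hloc⟩ := hV
  have hB : ∀ b ∈ B, b ∈ V := fun b hb =>
    hle (LocalSubring.le_ofPrime B.toSubring P' (show b ∈ B.toSubring from hb))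
  have hinv : ∀ b : ↥B, b ∉ P → (b : E)⁻¹ ∈ (LocalSubring.ofPrime B.toSubring P').toSubring := by
    intro b hb
    have hb' : (⟨b.1, b.2⟩ : ↥B.toSubring) ∈ P'.primeCompl := hb
    have hu := IsLocalization.map_units (LocalSubring.ofPrime B.toSubring P').toSubring
      (⟨⟨b.1, b.2⟩, hb'⟩ : P'.primeCompl)
    obtain ⟨v, hv⟩ := hu.exists_right_inv
    have hv' : (b : E) * (v : E) = 1 := congrArg Subtype.val hv
    have : (b : E)⁻¹ = (v : E) := by
      have hb0 : (b : E) ≠ 0 := left_ne_zero_of_mul_eq_one hv'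
      exact inv_eq_of_mul_eq_one_right hv'
    rw [this]
    exact v.2
  refine ⟨V, hB, fun b hb => hle (hinv b hb), ?_⟩
  intro b hb
  have hbV : (b : E) ∈ V := hB _ b.2
  by_contra hlt
  have h1 : V.valuation (b : E) = 1 :=
    le_antisymm ((ValuationSubring.valuation_le_one_iff _ _).mpr hbV) (not_lt.mp hlt)
  have hunit : IsUnit (⟨(b : E), hbV⟩ : ↥V) := (ValuationSubring.valuation_eq_one_iff V _).mpr h1
  -- the element of the local subring
  have hmem : (b : E) ∈ (LocalSubring.ofPrime B.toSubring P').toSubring :=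
    LocalSubring.le_ofPrime B.toSubring P' (show (b : E) ∈ B.toSubring from b.2)
  have hunit' : IsUnit (⟨(b : E), hmem⟩ : ↥(LocalSubring.ofPrime B.toSubring P').toSubring) := by
    haveI := hloc
    exact IsUnit.of_map (Subring.inclusion hle) _ hunit
  have hmax : (⟨(b : E), hmem⟩ : ↥(LocalSubring.ofPrime B.toSubring P').toSubring) ∈
      IsLocalRing.maximalIdeal ↥(LocalSubring.ofPrime B.toSubring P').toSubring := by
    have := (IsLocalization.AtPrime.to_map_mem_maximal_iff
      ↥(LocalSubring.ofPrime B.toSubring P').toSubring P' (⟨b.1, b.2⟩ : ↥B.toSubring)).mpr hb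
    exact this
  exact (IsLocalRing.mem_maximalIdeal _).mp hmax hunit'


section Vert

variable {R : Type*} [CommRing R] [IsDomain R] [IsDiscreteValuationRing R] [CharZero R]
  {K₁ : Type*} [Field K₁] [Algebra R K₁] [IsFractionRing R K₁]
  {K : Type*} [Field K] [Algebra K₁ K] [Algebra R K] [IsScalarTower R K₁ K]
  {E : Type*} [Field E] [Algebra K E] [Algebra R E] [IsScalarTower R K E] [FiniteDimensional K E]

/-- valuation data of a two-sheeted chart: exactly two extensions of the Gauss valuation of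
`K = K₁(u)` to `E`, both with `e = 1`. -/
structure IsTwoSheet (π : R) (u : K) (Winf W0 : ValuationSubring E) : Prop where
  ne : Winf ≠ W0
  gauss_inf : IsGaussAt R π u (Winf.comap (algebraMap K E))
  gauss_zero : IsGaussAt R π u (W0.comap (algebraMap K E))
  only : ∀ W : ValuationSubring E, IsGaussAt R π u (W.comap (algebraMap K E)) → W = Winf ∨ W = W0
  e_inf : ∀ x : E, Winf.valuation x < 1 → x * (algebraMap R E π)⁻¹ ∈ Winf
  e_zero : ∀ x : E, W0.valuation x < 1 → x * (algebraMap R E π)⁻¹ ∈ W0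

/-- the trace of the maximal ideal of a valuation subring on the chart. -/
def sheetIdeal (u : K) (W : ValuationSubring E) (hW : ∀ b ∈ chartOne R E u, b ∈ W) :
    Ideal ↥(chartOne R E u) :=
  (IsLocalRing.maximalIdeal ↥W).comap
    ((algebraMap ↥(chartOne R E u) E).codRestrict W.toSubring (fun b => hW b b.2))

theorem mem_sheetIdeal_iff (u : K) (W : ValuationSubring E) (hW : ∀ b ∈ chartOne R E u, b ∈ W)
    (b : ↥(chartOne R E u)) : b ∈ sheetIdeal u W hW ↔ W.valuation (b : E) < 1 := by
  rw [sheetIdeal, Ideal.mem_comap, ValuationSubring.valuation_lt_one_iff]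
  rfl

instance sheetIdeal_isPrime (u : K) (W : ValuationSubring E) (hW : ∀ b ∈ chartOne R E u, b ∈ W) :
    (sheetIdeal u W hW).IsPrime :=
  Ideal.comap_isPrime _ _

/-- a valuation subring of `E` restricting to a Gauss valuation subring of `K` contains the
chart. -/
theorem chart_le_of_isGaussAt {π : R} {u : K} {W : ValuationSubring E}
    (hG : IsGaussAt R π u (W.comap (algebraMap K E))) :
    ∀ b ∈ chartOne R E u, b ∈ W := by
  intro b hb
  rw [mem_chartOne_iff] at hb
  rw [← ValuationSubring.valuation_le_one_iff]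
  refine val_le_one_of_isIntegral W.valuation (fun a => ?_) hb
  rw [ValuationSubring.valuation_le_one_iff]
  obtain ⟨a, ha⟩ := a
  rw [Algebra.adjoin_singleton_eq_range_aeval] at ha
  obtain ⟨f, rfl⟩ := ha
  exact hG.1 f

variable {π : R} {u : K} {Winf W0 : ValuationSubring E}

theorem IsTwoSheet.chart_le_inf (h : IsTwoSheet π u Winf W0) :
    ∀ b ∈ chartOne R E u, b ∈ Winf := chart_le_of_isGaussAt h.gauss_inf

theorem IsTwoSheet.chart_le_zero (h : IsTwoSheet π u Winf W0) :
    ∀ b ∈ chartOne R E u, b ∈ W0 := chart_le_of_isGaussAt h.gauss_zero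


/-! ### Clearing denominators -/

/-- an element of `E` integral over the Gauss valuation subring becomes integral over `R[u]` after
multiplication by a polynomial in `u` which is a Gauss unit. -/
theorem exists_mul_mem_chartOne_of_isIntegral (hπ : Irreducible π)
    (hu : Transcendental K₁ u) (hK : IntermediateField.adjoin K₁ {u} = ⊤)
    {𝒢 : ValuationSubring K} (h𝒢 : IsGaussAt R π u 𝒢) (x : E) (hx : IsIntegral ↥𝒢 x) :
    ∃ f : R[X], ¬ C π ∣ f ∧ algebraMap K E (aeval u f) * x ∈ chartOne R E u := by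
  haveI := isFractionRing_adjoin (R := R) (K₁ := K₁) u hK
  have hT := aeval_adjoin_bijective (R := R) (K₁ := K₁) u hu
  obtain ⟨iDom, iUFD, hπA, hiff⟩ := isGaussAt_iff_eq_primeValSubring_adjoin π hπ u hu hK
  have h𝒢' := (hiff 𝒢).1 h𝒢
  subst h𝒢'
  obtain ⟨σ, hσ, hint⟩ := exists_mul_isIntegral (E := E) hπA x hx
  obtain ⟨f, rfl⟩ := hT.2 σ
  refine ⟨f, ?_, ?_⟩
  · rwa [C_dvd_iff_algebraMap_dvd_aeval _ hT]
  · rw [mem_chartOne_iff]
    have : algebraMap K E (aeval u f) = algebraMap ↥(Algebra.adjoin R {u}) E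
        (aeval (⟨u, Algebra.self_mem_adjoin_singleton R u⟩ : ↥(Algebra.adjoin R {u})) f) := by
      rw [IsScalarTower.algebraMap_apply ↥(Algebra.adjoin R {u}) K E, ← coe_aeval_adjoin_gen]
      rfl
    rw [this]
    exact hint


/-! ### Gauss units and the local ring of the chart at a sheet -/

theorem aeval_mem_chartOne (u : K) (f : R[X]) : algebraMap K E (aeval u f) ∈ chartOne R E u := by
  rw [mem_chartOne_iff]
  have h : aeval u f ∈ Algebra.adjoin R {u} := by
    rw [Algebra.adjoin_singleton_eq_range_aeval]; exact ⟨f, rfl⟩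
  have : algebraMap K E (aeval u f) = algebraMap ↥(Algebra.adjoin R {u}) E ⟨aeval u f, h⟩ := rfl
  rw [this]
  exact isIntegral_algebraMap

theorem valuation_aeval_eq_one_of_isGaussAt (hu : Transcendental K₁ u) {W : ValuationSubring E}
    (hG : IsGaussAt R π u (W.comap (algebraMap K E))) {f : R[X]} (hf : ¬ C π ∣ f) :
    W.valuation (algebraMap K E (aeval u f)) = 1 := by
  have htR : Transcendental R u := hu.restrictScalars (IsFractionRing.injective R K₁)
  have hinj : Function.Injective (aeval u : R[X] →ₐ[R] K) := transcendental_iff_injective.1 htR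
  have h0 : aeval u f ≠ 0 := by
    intro h
    have : f = 0 := hinj (by rw [h, map_zero])
    exact hf (this ▸ dvd_zero _)
  have h0' : algebraMap K E (aeval u f) ≠ 0 := (_root_.map_ne_zero _).mpr h0
  have h1 : W.valuation (algebraMap K E (aeval u f)) ≤ 1 :=
    (ValuationSubring.valuation_le_one_iff _ _).mpr (hG.1 f)
  have h2 : W.valuation (algebraMap K E (aeval u f))⁻¹ ≤ 1 := by
    rw [← map_inv₀]
    exact (ValuationSubring.valuation_le_one_iff _ _).mpr (hG.2.2 f hf)
  rw [map_inv₀] at h2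
  have hv0 : W.valuation (algebraMap K E (aeval u f)) ≠ 0 := (Valuation.ne_zero_iff _).mpr h0'
  rw [inv_le_one₀ (zero_lt_iff.mpr hv0)] at h2
  exact le_antisymm h1 h2

/-- **(V5), general form**: a valuation subring of `E` restricting to the Gauss valuation subring
is the local ring of the chart at its sheet. -/
theorem exists_mul_eq_of_mem_of_isGaussAt (hπ : Irreducible π)
    (hu : Transcendental K₁ u) (hK : IntermediateField.adjoin K₁ {u} = ⊤)
    {W : ValuationSubring E} (hG : IsGaussAt R π u (W.comap (algebraMap K E)))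
    (x : E) (hx : x ∈ W) :
    ∃ r s : ↥(chartOne R E u), s ∉ sheetIdeal u W (chart_le_of_isGaussAt hG) ∧
      x * (s : E) = (r : E) := by
  set 𝒢 := W.comap (algebraMap K E) with h𝒢def
  haveI : IsDiscreteValuationRing ↥𝒢 := isDiscreteValuationRing_of_isGaussAt π hπ u hu hK hG
  have hinj : Function.Injective (algebraMap R K) := by
    rw [IsScalarTower.algebraMap_eq R K₁ K]
    exact (algebraMap K₁ K).injective.comp (IsFractionRing.injective R K₁)
  haveI : CharZero K := charZero_of_injective_algebraMap hinj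
  haveI : Algebra.IsSeparable K E := Algebra.IsAlgebraic.isSeparable_of_perfectField
  have hExt : TwoExt.IsExt 𝒢 W := rfl
  obtain ⟨n, d, hnd⟩ :=
    IsDedekindDomain.HeightOneSpectrum.exists_primeCompl_mul_eq_or_mul_eq (K := E)
      (TwoExt.centerSpec hExt) x
  have hle : ∀ a : TwoExt.intCl E 𝒢, W.valuation (a : E) ≤ 1 := fun a =>
    (ValuationSubring.valuation_le_one_iff _ _).mpr (TwoExt.intCl_le hExt a a.2)
  have hd1 : W.valuation ((d : TwoExt.intCl E 𝒢) : E) = 1 := by
    have h1 : (d : TwoExt.intCl E 𝒢) ∉ TwoExt.center hExt := d.2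
    rw [TwoExt.mem_center_iff, not_lt] at h1
    exact le_antisymm (hle _) h1
  obtain ⟨a, s, hs, hxs⟩ : ∃ a s : TwoExt.intCl E 𝒢, W.valuation (s : E) = 1 ∧
      x * (s : E) = (a : E) := by
    rcases hnd with h | h
    · exact ⟨n, d, hd1, h⟩
    · refine ⟨d, n, ?_, h⟩
      have h2 := congrArg W.valuation h
      rw [map_mul] at h2
      change W.valuation x * W.valuation (n : E) = W.valuation ((d : TwoExt.intCl E 𝒢) : E) at h2
      rw [hd1] at h2
      have hx1 : W.valuation x ≤ 1 := (ValuationSubring.valuation_le_one_iff _ _).mpr hx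
      refine le_antisymm (hle n) ?_
      by_contra hlt
      rw [not_le] at hlt
      have : W.valuation x * W.valuation (n : E) < 1 := by
        calc W.valuation x * W.valuation (n : E) ≤ 1 * W.valuation (n : E) :=
              mul_le_mul' hx1 le_rfl
          _ = W.valuation (n : E) := one_mul _
          _ < 1 := hlt
      rw [h2] at this
      exact lt_irrefl _ this
  obtain ⟨f₁, hf₁, h₁⟩ := exists_mul_mem_chartOne_of_isIntegral hπ hu hK hG (a : E) a.2
  obtain ⟨f₂, hf₂, h₂⟩ := exists_mul_mem_chartOne_of_isIntegral hπ hu hK hG (s : E) s.2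
  refine ⟨⟨_, h₁⟩ * ⟨_, aeval_mem_chartOne u f₂⟩, ⟨_, h₂⟩ * ⟨_, aeval_mem_chartOne u f₁⟩, ?_, ?_⟩
  · rw [mem_sheetIdeal_iff, not_lt]
    change 1 ≤ W.valuation (algebraMap K E (aeval u f₂) * (s : E) * algebraMap K E (aeval u f₁))
    rw [map_mul, map_mul, valuation_aeval_eq_one_of_isGaussAt hu hG hf₁, valuation_aeval_eq_one_of_isGaussAt hu hG hf₂, hs,
      one_mul, one_mul]
  · change x * (algebraMap K E (aeval u f₂) * (s : E) * algebraMap K E (aeval u f₁)) =
      algebraMap K E (aeval u f₁) * (a : E) * algebraMap K E (aeval u f₂)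
    rw [← hxs]
    ring


/-- distinct valuation subrings over the Gauss valuation subring have incomparable sheets. -/
theorem exists_mem_sheetIdeal_not_mem (hπ : Irreducible π)
    (hu : Transcendental K₁ u) (hK : IntermediateField.adjoin K₁ {u} = ⊤)
    {W W' : ValuationSubring E} (hG : IsGaussAt R π u (W.comap (algebraMap K E)))
    (hG' : IsGaussAt R π u (W'.comap (algebraMap K E))) (hne : W ≠ W') :
    ∃ b : ↥(chartOne R E u), b ∈ sheetIdeal u W (chart_le_of_isGaussAt hG) ∧
      b ∉ sheetIdeal u W' (chart_le_of_isGaussAt hG') := by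
  set 𝒢 := W.comap (algebraMap K E) with h𝒢def
  haveI : IsDiscreteValuationRing ↥𝒢 := isDiscreteValuationRing_of_isGaussAt π hπ u hu hK hG
  have hinj : Function.Injective (algebraMap R K) := by
    rw [IsScalarTower.algebraMap_eq R K₁ K]
    exact (algebraMap K₁ K).injective.comp (IsFractionRing.injective R K₁)
  haveI : CharZero K := charZero_of_injective_algebraMap hinj
  haveI : Algebra.IsSeparable K E := Algebra.IsAlgebraic.isSeparable_of_perfectField
  have hExt : TwoExt.IsExt 𝒢 W := rfl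
  have hExt' : TwoExt.IsExt 𝒢 W' := isGaussAt_unique π hπ u hu hK hG' hG
  have hcne : TwoExt.center hExt ≠ TwoExt.center hExt' := fun h =>
    hne (TwoExt.eq_of_center_eq hExt hExt' h)
  have hnle : ¬ TwoExt.center hExt ≤ TwoExt.center hExt' := fun hle =>
    hcne ((TwoExt.center_isMaximal hExt).eq_of_le (TwoExt.center_isPrime hExt').ne_top hle)
  obtain ⟨a, ha, ha'⟩ := SetLike.not_le_iff_exists.mp hnle
  rw [TwoExt.mem_center_iff] at ha ha'
  obtain ⟨f, hf, hfa⟩ := exists_mul_mem_chartOne_of_isIntegral hπ hu hK hG (a : E) a.2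
  refine ⟨⟨_, hfa⟩, ?_, ?_⟩
  · rw [mem_sheetIdeal_iff]
    change W.valuation (algebraMap K E (aeval u f) * (a : E)) < 1
    rwa [map_mul, valuation_aeval_eq_one_of_isGaussAt hu hG hf, one_mul]
  · rw [mem_sheetIdeal_iff]
    change ¬ W'.valuation (algebraMap K E (aeval u f) * (a : E)) < 1
    rwa [map_mul, valuation_aeval_eq_one_of_isGaussAt hu hG' hf, one_mul]


/-! ### Height-one primes containing `π` -/

/-- going down: a height-one prime of the chart containing `π` meets `R[u]` in `(π)`. -/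
theorem aeval_notMem_of_height_one (hπ : Irreducible π)
    (hu : Transcendental K₁ u) (hK : IntermediateField.adjoin K₁ {u} = ⊤)
    (P : Ideal ↥(chartOne R E u)) [P.IsPrime] (hP : P.height = 1)
    (hπP : algebraMap R ↥(chartOne R E u) π ∈ P) {f : R[X]} (hf : ¬ C π ∣ f) :
    (⟨algebraMap K E (aeval u f), aeval_mem_chartOne u f⟩ : ↥(chartOne R E u)) ∉ P := by
  intro hmem
  have htR : Transcendental R u := hu.restrictScalars (IsFractionRing.injective R K₁)
  have hinj : Function.Injective (aeval u : R[X] →ₐ[R] K) := transcendental_iff_injective.1 htR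
  have hinjE : Function.Injective (algebraMap R E) := by
    rw [IsScalarTower.algebraMap_eq R K E, IsScalarTower.algebraMap_eq R K₁ K]
    exact (algebraMap K E).injective.comp
      ((algebraMap K₁ K).injective.comp (IsFractionRing.injective R K₁))
  have hπE : algebraMap R E π ≠ 0 := by
    rw [Ne, map_eq_zero_iff _ hinjE]; exact hπ.ne_zero
  have hmin := comap_chartMap_mem_minimalPrimes (K₁ := K₁) (F := K) (L := E) u hu hK π hπE P hP hπP
  haveI := span_isPrime_chartBase (R := R) u hu hK π hπ.prime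
  rw [Ideal.minimalPrimes_eq_subsingleton_self, Set.mem_singleton_iff] at hmin
  have hy : (⟨aeval u f, aeval_mem_chartBase u f⟩ : ↥(chartOne R K u)) ∈
      Ideal.span {algebraMap R ↥(chartOne R K u) π} := by
    rw [← hmin, Ideal.mem_comap]
    convert hmem using 1
    exact Subtype.ext rfl
  obtain ⟨a, ha⟩ := Ideal.mem_span_singleton'.1 hy
  obtain ⟨p, hp⟩ := exists_aeval_eq_of_mem_chartBase (R := R) u hu hK a.2
  have h1 : f = p * C π := hinj (by
    rw [map_mul, aeval_C, hp]
    have := congrArg (fun z : ↥(chartOne R K u) => (z : K)) ha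
    exact this.symm)
  exact hf ⟨p, by rw [h1, mul_comm]⟩


/-- a height-one prime of the chart containing `π` is the sheet of a valuation subring over the
Gauss valuation subring. -/
theorem exists_isGaussAt_eq_sheetIdeal (hπ : Irreducible π)
    (hu : Transcendental K₁ u) (hK : IntermediateField.adjoin K₁ {u} = ⊤)
    (P : Ideal ↥(chartOne R E u)) [P.IsPrime] (hP : P.height = 1)
    (hπP : algebraMap R ↥(chartOne R E u) π ∈ P) :
    ∃ (V : ValuationSubring E) (hG : IsGaussAt R π u (V.comap (algebraMap K E))),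
      P = sheetIdeal u V (chart_le_of_isGaussAt hG) := by
  obtain ⟨V, hBV, hinvV, hPV⟩ := exists_valuationSubring_dominating (chartOne R E u) P
  have hinjE : Function.Injective (algebraMap R E) := by
    rw [IsScalarTower.algebraMap_eq R K E, IsScalarTower.algebraMap_eq R K₁ K]
    exact (algebraMap K E).injective.comp
      ((algebraMap K₁ K).injective.comp (IsFractionRing.injective R K₁))
  have hπE : algebraMap R E π ≠ 0 := by
    rw [Ne, map_eq_zero_iff _ hinjE]; exact hπ.ne_zero
  have hG : IsGaussAt R π u (V.comap (algebraMap K E)) := by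
    refine ⟨fun f => hBV _ (aeval_mem_chartOne u f), ?_, fun f hf => ?_⟩
    · intro hmem
      have h1 : V.valuation (algebraMap R E π) < 1 := hPV _ hπP
      have hmem' : (algebraMap R E π)⁻¹ ∈ V := by
        have : algebraMap K E ((algebraMap R K π)⁻¹) = (algebraMap R E π)⁻¹ := by
          rw [map_inv₀, ← IsScalarTower.algebraMap_apply]
        rw [← this]; exact hmem
      rw [← ValuationSubring.valuation_le_one_iff, map_inv₀] at hmem'
      have hv0 : V.valuation (algebraMap R E π) ≠ 0 := (Valuation.ne_zero_iff _).mpr hπE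
      rw [inv_le_one₀ (zero_lt_iff.mpr hv0)] at hmem'
      exact absurd h1 (not_lt.mpr hmem')
    · have := hinvV ⟨_, aeval_mem_chartOne u f⟩
        (aeval_notMem_of_height_one hπ hu hK P hP hπP hf)
      change algebraMap K E ((aeval u f)⁻¹) ∈ V
      rw [map_inv₀]; exact this
  refine ⟨V, hG, ?_⟩
  ext b
  rw [mem_sheetIdeal_iff]
  refine ⟨hPV b, fun hlt => ?_⟩
  by_contra hb
  have h1 := hinvV b hb
  rw [← ValuationSubring.valuation_le_one_iff, map_inv₀] at h1
  by_cases hb0 : (b : E) = 0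
  · apply hb
    have : b = 0 := Subtype.ext hb0
    rw [this]; exact P.zero_mem
  have hv0 : V.valuation (b : E) ≠ 0 := (Valuation.ne_zero_iff _).mpr hb0
  rw [inv_le_one₀ (zero_lt_iff.mpr hv0)] at h1
  exact absurd hlt (not_lt.mpr h1)

/-- (V2) every height-one prime of the chart containing `π` is one of the two sheets. -/
theorem IsTwoSheet.eq_or_eq_of_height_one (h : IsTwoSheet π u Winf W0) (hπ : Irreducible π)
    (hu : Transcendental K₁ u) (hK : IntermediateField.adjoin K₁ {u} = ⊤)
    (P : Ideal ↥(chartOne R E u)) [P.IsPrime] (hP : P.height = 1)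
    (hπP : algebraMap R ↥(chartOne R E u) π ∈ P) :
    P = sheetIdeal u Winf h.chart_le_inf ∨ P = sheetIdeal u W0 h.chart_le_zero := by
  obtain ⟨V, hG, hPV⟩ := exists_isGaussAt_eq_sheetIdeal hπ hu hK P hP hπP
  rcases h.only V hG with hV | hV
  · left; subst hV; exact hPV
  · right; subst hV; exact hPV


/-- (V5) the local ring of the chart at a sheet is the valuation ring. -/
theorem IsTwoSheet.exists_mul_eq_of_mem_inf (h : IsTwoSheet π u Winf W0) (hπ : Irreducible π)
    (hu : Transcendental K₁ u) (hK : IntermediateField.adjoin K₁ {u} = ⊤) (x : E) (hx : x ∈ Winf) :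
    ∃ r s : ↥(chartOne R E u), s ∉ sheetIdeal u Winf h.chart_le_inf ∧ x * (s : E) = (r : E) :=
  exists_mul_eq_of_mem_of_isGaussAt hπ hu hK h.gauss_inf x hx

/-- (V5) for the second sheet. -/
theorem IsTwoSheet.exists_mul_eq_of_mem_zero (h : IsTwoSheet π u Winf W0) (hπ : Irreducible π)
    (hu : Transcendental K₁ u) (hK : IntermediateField.adjoin K₁ {u} = ⊤) (x : E) (hx : x ∈ W0) :
    ∃ r s : ↥(chartOne R E u), s ∉ sheetIdeal u W0 h.chart_le_zero ∧ x * (s : E) = (r : E) :=
  exists_mul_eq_of_mem_of_isGaussAt hπ hu hK h.gauss_zero x hx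

include K₁ K in
theorem algebraMap_pi_ne_zero (hπ : Irreducible π) : algebraMap R E π ≠ 0 := by
  have hinjE : Function.Injective (algebraMap R E) := by
    rw [IsScalarTower.algebraMap_eq R K E, IsScalarTower.algebraMap_eq R K₁ K]
    exact (algebraMap K E).injective.comp
      ((algebraMap K₁ K).injective.comp (IsFractionRing.injective R K₁))
  rw [Ne, map_eq_zero_iff _ hinjE]; exact hπ.ne_zero

/-- (V3) reducedness of the special fibre. -/
theorem IsTwoSheet.inf_le_span (h : IsTwoSheet π u Winf W0) (hπ : Irreducible π)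
    (hu : Transcendental K₁ u) (hK : IntermediateField.adjoin K₁ {u} = ⊤) :
    sheetIdeal u Winf h.chart_le_inf ⊓ sheetIdeal u W0 h.chart_le_zero ≤
      Ideal.span {algebraMap R ↥(chartOne R E u) π} := by
  intro b hb
  obtain ⟨hb1, hb2⟩ := Ideal.mem_inf.mp hb
  rw [mem_sheetIdeal_iff] at hb1 hb2
  haveI : IsFractionRing ↥(chartOne R E u) E := isFractionRing_chartOne (K₁ := K₁) u hK
  haveI : IsIntegrallyClosed ↥(chartOne R E u) := isIntegrallyClosed_chartOne (K₁ := K₁) u hK
  haveI : IsNoetherianRing ↥(chartOne R E u) := isNoetherianRing_chartOne (K₁ := K₁) u hu hK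
  have hπE : algebraMap R E π ≠ 0 := algebraMap_pi_ne_zero (K₁ := K₁) (K := K) hπ
  have hx : (b : E) * (algebraMap R E π)⁻¹ ∈ (algebraMap ↥(chartOne R E u) E).range := by
    apply mem_range_algebraMap_of_forall_height_one
    intro P hPprime hP
    haveI := hPprime
    by_cases hπP : algebraMap R ↥(chartOne R E u) π ∈ P
    · rcases h.eq_or_eq_of_height_one hπ hu hK P hP hπP with hP' | hP'
      · obtain ⟨r, s, hs, hrs⟩ := h.exists_mul_eq_of_mem_inf hπ hu hK _ (h.e_inf _ hb1)
        exact ⟨r, s, hP' ▸ hs, hrs⟩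
      · obtain ⟨r, s, hs, hrs⟩ := h.exists_mul_eq_of_mem_zero hπ hu hK _ (h.e_zero _ hb2)
        exact ⟨r, s, hP' ▸ hs, hrs⟩
    · refine ⟨b, algebraMap R ↥(chartOne R E u) π, hπP, ?_⟩
      change (b : E) * (algebraMap R E π)⁻¹ * algebraMap R E π = (b : E)
      rw [mul_assoc, inv_mul_cancel₀ hπE, mul_one]
  obtain ⟨c, hc⟩ := hx
  rw [Ideal.mem_span_singleton]
  refine ⟨c, Subtype.ext ?_⟩
  change (b : E) = algebraMap R E π * (c : E)
  have hc' : (c : E) = (b : E) * (algebraMap R E π)⁻¹ := hc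
  rw [hc', mul_comm, mul_assoc, inv_mul_cancel₀ hπE, mul_one]

include K₁ in
theorem IsTwoSheet.pi_mem_inf (h : IsTwoSheet π u Winf W0) (hπ : Irreducible π) :
    algebraMap R ↥(chartOne R E u) π ∈ sheetIdeal u Winf h.chart_le_inf := by
  rw [mem_sheetIdeal_iff]
  change Winf.valuation (algebraMap R E π) < 1
  have hπE : algebraMap R E π ≠ 0 := algebraMap_pi_ne_zero (K₁ := K₁) (K := K) hπ
  rw [TwoExt.val_lt_one_iff_inv_not_mem Winf hπE]
  intro hmem
  apply h.gauss_inf.2.1
  change algebraMap K E ((algebraMap R K π)⁻¹) ∈ Winf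
  rwa [map_inv₀, ← IsScalarTower.algebraMap_apply]

include K₁ in
theorem IsTwoSheet.pi_mem_zero (h : IsTwoSheet π u Winf W0) (hπ : Irreducible π) :
    algebraMap R ↥(chartOne R E u) π ∈ sheetIdeal u W0 h.chart_le_zero := by
  rw [mem_sheetIdeal_iff]
  change W0.valuation (algebraMap R E π) < 1
  have hπE : algebraMap R E π ≠ 0 := algebraMap_pi_ne_zero (K₁ := K₁) (K := K) hπ
  rw [TwoExt.val_lt_one_iff_inv_not_mem W0 hπE]
  intro hmem
  apply h.gauss_zero.2.1
  change algebraMap K E ((algebraMap R K π)⁻¹) ∈ W0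
  rwa [map_inv₀, ← IsScalarTower.algebraMap_apply]

/-- helper3's (M2): reduced special fibre in chart currency. -/
theorem IsTwoSheet.reduced (h : IsTwoSheet π u Winf W0) (hπ : Irreducible π)
    (hu : Transcendental K₁ u) (hK : IntermediateField.adjoin K₁ {u} = ⊤)
    (x : E) (hx : x ∈ chartOne R E u) (N : ℕ) (y : E) (hy : y ∈ chartOne R E u)
    (hxy : x ^ N = algebraMap R E π * y) :
    ∃ z ∈ chartOne R E u, x = algebraMap R E π * z := by
  have hpow : (⟨x, hx⟩ : ↥(chartOne R E u)) ^ N =
      algebraMap R ↥(chartOne R E u) π * ⟨y, hy⟩ := Subtype.ext hxy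
  have h1 : (⟨x, hx⟩ : ↥(chartOne R E u)) ∈ sheetIdeal u Winf h.chart_le_inf := by
    apply Ideal.IsPrime.mem_of_pow_mem inferInstance N
    rw [hpow]
    exact Ideal.mul_mem_right _ _ (h.pi_mem_inf (K₁ := K₁) hπ)
  have h2 : (⟨x, hx⟩ : ↥(chartOne R E u)) ∈ sheetIdeal u W0 h.chart_le_zero := by
    apply Ideal.IsPrime.mem_of_pow_mem inferInstance N
    rw [hpow]
    exact Ideal.mul_mem_right _ _ (h.pi_mem_zero (K₁ := K₁) hπ)
  have h3 := h.inf_le_span hπ hu hK ⟨h1, h2⟩
  rw [Ideal.mem_span_singleton] at h3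
  obtain ⟨c, hc⟩ := h3
  exact ⟨c, c.2, congrArg Subtype.val hc⟩


/-- (V4) the two sheets are incomparable, of height one. -/
theorem IsTwoSheet.not_le (h : IsTwoSheet π u Winf W0) (hπ : Irreducible π)
    (hu : Transcendental K₁ u) (hK : IntermediateField.adjoin K₁ {u} = ⊤) :
    ¬ sheetIdeal u Winf h.chart_le_inf ≤ sheetIdeal u W0 h.chart_le_zero ∧
    ¬ sheetIdeal u W0 h.chart_le_zero ≤ sheetIdeal u Winf h.chart_le_inf ∧
    (sheetIdeal u Winf h.chart_le_inf).height = 1 ∧ (sheetIdeal u W0 h.chart_le_zero).height = 1 := by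
  have h1 : ¬ sheetIdeal u Winf h.chart_le_inf ≤ sheetIdeal u W0 h.chart_le_zero := by
    obtain ⟨b, hb, hb'⟩ :=
      exists_mem_sheetIdeal_not_mem hπ hu hK h.gauss_inf h.gauss_zero h.ne
    exact fun hle => hb' (hle hb)
  have h2 : ¬ sheetIdeal u W0 h.chart_le_zero ≤ sheetIdeal u Winf h.chart_le_inf := by
    obtain ⟨b, hb, hb'⟩ :=
      exists_mem_sheetIdeal_not_mem hπ hu hK h.gauss_zero h.gauss_inf h.ne.symm
    exact fun hle => hb' (hle hb)
  have hπE : algebraMap R E π ≠ 0 := algebraMap_pi_ne_zero (K₁ := K₁) (K := K) hπ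
  have key : ∀ 𝔓 : Ideal ↥(chartOne R E u), 𝔓.IsPrime →
      algebraMap R ↥(chartOne R E u) π ∈ 𝔓 →
      ∃ Q : Ideal ↥(chartOne R E u), Q ≤ 𝔓 ∧ Q.height = 1 ∧
        (Q = sheetIdeal u Winf h.chart_le_inf ∨ Q = sheetIdeal u W0 h.chart_le_zero) := by
    intro 𝔓 h𝔓 hπ𝔓
    haveI := h𝔓
    have hle : Ideal.span {algebraMap R ↥(chartOne R E u) π} ≤ 𝔓 := by
      rw [Ideal.span_le, Set.singleton_subset_iff]; exact hπ𝔓
    obtain ⟨Q, hQmin, hQle⟩ := Ideal.exists_minimalPrimes_le hle
    haveI : Q.IsPrime := hQmin.1.1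
    have hQh := height_eq_one_of_mem_minimalPrimes_chartOne (K₁ := K₁) u hu hK π hπE Q hQmin
    have hπQ : algebraMap R ↥(chartOne R E u) π ∈ Q :=
      hQmin.1.2 (Ideal.subset_span (Set.mem_singleton _))
    exact ⟨Q, hQle, hQh, h.eq_or_eq_of_height_one hπ hu hK Q hQh hπQ⟩
  refine ⟨h1, h2, ?_, ?_⟩
  · obtain ⟨Q, hQle, hQh, hQ | hQ⟩ := key _ inferInstance (h.pi_mem_inf (K₁ := K₁) hπ)
    · rw [← hQ]; exact hQh
    · exact absurd (hQ ▸ hQle) h2
  · obtain ⟨Q, hQle, hQh, hQ | hQ⟩ := key _ inferInstance (h.pi_mem_zero (K₁ := K₁) hπ)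
    · exact absurd (hQ ▸ hQle) h1
    · rw [← hQ]; exact hQh

end Vert

end Fermat.Agent.SS
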