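/-
(SS-q) MODEL-EXPORT — helper4 — part 1: **the local currency**.  For a subalgebra `B ⊆ E` of a field
and a prime `𝔪` of `B`: the local ring `locRing B 𝔪 = B_𝔪 ⊆ E` and its maximal ideal `locMax B 𝔪`
(a set).  Two charts with the same local ring at corresponding points (`locRing_eq_of_le`) carry
the same local data: `IsBranchUniformizer (sheet of W) 𝔪 z` is a statement about
`(W, locRing B 𝔪, locMax B 𝔪)` only (`IsLocBranch`).  The valuative criterion
(`mem_locRing_of_forall_valuationSubring`) and the local form of algebraic Hartogs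
(`mem_locRing_of_forall_height_one`).
-/
import Mathlib
import Fermat.Agent.SS.MODLOC_helper5_Core
import Fermat.Agent.SS.K1_helper3
import Fermat.Agent.SS.VERT_helper4
import Fermat.Agent.JA.KRULL_helper1

set_option autoImplicit false
set_option linter.unusedSectionVars false
set_option linter.style.haveILetI false

namespace Fermat.Agent.SS

section Loc

variable {R : Type*} [CommRing R] {E : Type*} [Field E] [Algebra R E]

/-- the local ring of `B` at the prime `𝔪`, inside `E`. -/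
def locRing (B : Subalgebra R E) (𝔪 : Ideal ↥B) [h𝔪 : 𝔪.IsPrime] : Subalgebra R E where
  carrier := {e | ∃ r s : ↥B, s ∉ 𝔪 ∧ e * (s : E) = (r : E)}
  mul_mem' := by
    rintro e f ⟨r, s, hs, hrs⟩ ⟨r', s', hs', hrs'⟩
    refine ⟨r * r', s * s', fun h => ?_, ?_⟩
    · rcases h𝔪.mem_or_mem h with h | h
      exacts [hs h, hs' h]
    · show e * f * ((s : E) * (s' : E)) = (r : E) * (r' : E)
      rw [← hrs, ← hrs']; ring
  add_mem' := by
    rintro e f ⟨r, s, hs, hrs⟩ ⟨r', s', hs', hrs'⟩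
    refine ⟨r * s' + r' * s, s * s', fun h => ?_, ?_⟩
    · rcases h𝔪.mem_or_mem h with h | h
      exacts [hs h, hs' h]
    · show (e + f) * ((s : E) * (s' : E)) = (r : E) * (s' : E) + (r' : E) * (s : E)
      rw [← hrs, ← hrs']; ring
  algebraMap_mem' := fun c => ⟨algebraMap R ↥B c, 1,
    fun h => h𝔪.ne_top ((Ideal.eq_top_iff_one _).mpr h), by
      show algebraMap R E c * (1 : E) = algebraMap R E c
      rw [mul_one]⟩

/-- the maximal ideal of the local ring of `B` at `𝔪`, as a subset of `E`. -/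
def locMax (B : Subalgebra R E) (𝔪 : Ideal ↥B) : Set E :=
  {e | ∃ r s : ↥B, r ∈ 𝔪 ∧ s ∉ 𝔪 ∧ e * (s : E) = (r : E)}

variable {B : Subalgebra R E} {𝔪 : Ideal ↥B} [h𝔪 : 𝔪.IsPrime]

theorem mem_locRing_iff (e : E) :
    e ∈ locRing B 𝔪 ↔ ∃ r s : ↥B, s ∉ 𝔪 ∧ e * (s : E) = (r : E) := Iff.rfl

theorem mem_locMax_iff (e : E) :
    e ∈ locMax B 𝔪 ↔ ∃ r s : ↥B, r ∈ 𝔪 ∧ s ∉ 𝔪 ∧ e * (s : E) = (r : E) := Iff.rfl

theorem loc_one_notMem (𝔪 : Ideal ↥B) [h𝔪 : 𝔪.IsPrime] : (1 : ↥B) ∉ 𝔪 :=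
  fun h => h𝔪.ne_top ((Ideal.eq_top_iff_one _).mpr h)

theorem le_locRing : B ≤ locRing B 𝔪 := fun b hb =>
  ⟨⟨b, hb⟩, 1, loc_one_notMem 𝔪, by show b * (1 : E) = b; rw [mul_one]⟩

theorem coe_mem_locRing (b : ↥B) : (b : E) ∈ locRing B 𝔪 := le_locRing b.2

theorem locMax_subset_locRing {e : E} (he : e ∈ locMax B 𝔪) : e ∈ locRing B 𝔪 := by
  obtain ⟨r, s, -, hs, hrs⟩ := he
  exact ⟨r, s, hs, hrs⟩

theorem coe_mem_locMax_iff (b : ↥B) : (b : E) ∈ locMax B 𝔪 ↔ b ∈ 𝔪 := by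
  constructor
  · rintro ⟨r, s, hr, hs, hrs⟩
    have h1 : b * s = r := Subtype.ext hrs
    rcases h𝔪.mem_or_mem (h1 ▸ hr : b * s ∈ 𝔪) with h | h
    · exact h
    · exact absurd h hs
  · intro hb
    exact ⟨b, 1, hb, loc_one_notMem 𝔪, by show (b : E) * (1 : E) = b; rw [mul_one]⟩

theorem zero_mem_locMax : (0 : E) ∈ locMax B 𝔪 :=
  ⟨0, 1, 𝔪.zero_mem, loc_one_notMem 𝔪, by show (0 : E) * (1 : E) = 0; rw [mul_one]⟩

theorem one_notMem_locMax : (1 : E) ∉ locMax B 𝔪 := fun h =>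
  loc_one_notMem 𝔪 ((coe_mem_locMax_iff (1 : ↥B)).mp h)

theorem add_mem_locMax {e f : E} (he : e ∈ locMax B 𝔪) (hf : f ∈ locMax B 𝔪) :
    e + f ∈ locMax B 𝔪 := by
  obtain ⟨r, s, hr, hs, hrs⟩ := he
  obtain ⟨r', s', hr', hs', hrs'⟩ := hf
  refine ⟨r * s' + r' * s, s * s', 𝔪.add_mem (𝔪.mul_mem_right _ hr) (𝔪.mul_mem_right _ hr'),
    fun h => ?_, ?_⟩
  · rcases h𝔪.mem_or_mem h with h | h
    exacts [hs h, hs' h]
  · show (e + f) * ((s : E) * (s' : E)) = (r : E) * (s' : E) + (r' : E) * (s : E)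
    rw [← hrs, ← hrs']; ring

theorem mul_mem_locMax {e f : E} (he : e ∈ locRing B 𝔪) (hf : f ∈ locMax B 𝔪) :
    e * f ∈ locMax B 𝔪 := by
  obtain ⟨r, s, hs, hrs⟩ := he
  obtain ⟨r', s', hr', hs', hrs'⟩ := hf
  refine ⟨r * r', s * s', 𝔪.mul_mem_left _ hr', fun h => ?_, ?_⟩
  · rcases h𝔪.mem_or_mem h with h | h
    exacts [hs h, hs' h]
  · show e * f * ((s : E) * (s' : E)) = (r : E) * (r' : E)
    rw [← hrs, ← hrs']; ring

theorem neg_mem_locMax {e : E} (he : e ∈ locMax B 𝔪) : -e ∈ locMax B 𝔪 := by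
  have := mul_mem_locMax (B := B) (𝔪 := 𝔪) ((locRing B 𝔪).neg_mem (locRing B 𝔪).one_mem) he
  simpa using this

theorem sub_mem_locMax {e f : E} (he : e ∈ locMax B 𝔪) (hf : f ∈ locMax B 𝔪) :
    e - f ∈ locMax B 𝔪 := by
  rw [sub_eq_add_neg]; exact add_mem_locMax he (neg_mem_locMax hf)

/-- elements of the local ring outside the maximal ideal are units. -/
theorem inv_mem_locRing {e : E} (he : e ∈ locRing B 𝔪) (he' : e ∉ locMax B 𝔪) :
    e⁻¹ ∈ locRing B 𝔪 := by
  obtain ⟨r, s, hs, hrs⟩ := he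
  have hr : r ∉ 𝔪 := fun hr => he' ⟨r, s, hr, hs, hrs⟩
  have he0 : e ≠ 0 := by
    rintro rfl
    apply hr
    have : r = 0 := Subtype.ext (by rw [← hrs, zero_mul]; rfl)
    rw [this]; exact 𝔪.zero_mem
  refine ⟨s, r, hr, ?_⟩
  rw [← hrs, ← mul_assoc, inv_mul_cancel₀ he0, one_mul]

/-- a nonzero element of the maximal ideal is not a unit. -/
theorem inv_notMem_locRing {e : E} (he : e ∈ locMax B 𝔪) (he0 : e ≠ 0) :
    e⁻¹ ∉ locRing B 𝔪 := fun h =>
  one_notMem_locMax (B := B) (𝔪 := 𝔪) (by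
    have := mul_mem_locMax h he
    rwa [inv_mul_cancel₀ he0] at this)

/-! ### Comparison of two charts at corresponding points -/

omit h𝔪 in
/-- **comparison**: two subalgebras of `E`, each contained in the local ring of the other at
corresponding primes, have the same local ring and the same maximal ideal there. -/
theorem locRing_eq_of_le {B B' : Subalgebra R E} (𝔪 : Ideal ↥B) [h𝔪 : 𝔪.IsPrime]
    (𝔪' : Ideal ↥B') [h𝔪' : 𝔪'.IsPrime]
    (h1 : B' ≤ locRing B 𝔪) (h2 : B ≤ locRing B' 𝔪')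
    (hm : ∀ b' : ↥B', b' ∈ 𝔪' ↔ (b' : E) ∈ locMax B 𝔪) :
    locRing B' 𝔪' = locRing B 𝔪 ∧ locMax B' 𝔪' = locMax B 𝔪 := by
  -- `L' ⊆ L`
  have hLL : ∀ e : E, e ∈ locRing B' 𝔪' → e ∈ locRing B 𝔪 := by
    rintro e ⟨r, s, hs, hrs⟩
    have hsL : (s : E) ∈ locRing B 𝔪 := h1 s.2
    have hsM : (s : E) ∉ locMax B 𝔪 := fun h => hs ((hm s).mpr h)
    have hs0 : (s : E) ≠ 0 := fun h0 => hsM (h0 ▸ zero_mem_locMax)
    have : e = (r : E) * (s : E)⁻¹ := by
      rw [← hrs, mul_assoc, mul_inv_cancel₀ hs0, mul_one]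
    rw [this]
    exact (locRing B 𝔪).mul_mem (h1 r.2) (inv_mem_locRing hsL hsM)
  have hMM : ∀ e : E, e ∈ locMax B' 𝔪' → e ∈ locMax B 𝔪 := by
    rintro e ⟨r, s, hr, hs, hrs⟩
    have hsL : (s : E) ∈ locRing B 𝔪 := h1 s.2
    have hsM : (s : E) ∉ locMax B 𝔪 := fun h => hs ((hm s).mpr h)
    have hs0 : (s : E) ≠ 0 := fun h0 => hsM (h0 ▸ zero_mem_locMax)
    have : e = (s : E)⁻¹ * (r : E) := by
      rw [← hrs, mul_comm e, ← mul_assoc, inv_mul_cancel₀ hs0, one_mul]
    rw [this]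
    exact mul_mem_locMax (inv_mem_locRing hsL hsM) ((hm r).mp hr)
  -- `𝔪 = M' ∩ B`
  have hm' : ∀ b : ↥B, b ∈ 𝔪 ↔ (b : E) ∈ locMax B' 𝔪' := by
    intro b
    constructor
    · intro hb
      by_contra hcon
      have hb0 : (b : E) ≠ 0 := fun h0 => hcon (h0 ▸ zero_mem_locMax)
      have h3 : (b : E)⁻¹ ∈ locRing B 𝔪 := hLL _ (inv_mem_locRing (h2 b.2) hcon)
      exact inv_notMem_locRing ((coe_mem_locMax_iff b).mpr hb) hb0 h3
    · intro hb
      exact (coe_mem_locMax_iff b).mp (hMM _ hb)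
  have hLL' : ∀ e : E, e ∈ locRing B 𝔪 → e ∈ locRing B' 𝔪' := by
    rintro e ⟨r, s, hs, hrs⟩
    have hsL : (s : E) ∈ locRing B' 𝔪' := h2 s.2
    have hsM : (s : E) ∉ locMax B' 𝔪' := fun h => hs ((hm' s).mpr h)
    have hs0 : (s : E) ≠ 0 := fun h0 => hsM (h0 ▸ zero_mem_locMax)
    have : e = (r : E) * (s : E)⁻¹ := by
      rw [← hrs, mul_assoc, mul_inv_cancel₀ hs0, mul_one]
    rw [this]
    exact (locRing B' 𝔪').mul_mem (h2 r.2) (inv_mem_locRing hsL hsM)
  have hMM' : ∀ e : E, e ∈ locMax B 𝔪 → e ∈ locMax B' 𝔪' := by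
    rintro e ⟨r, s, hr, hs, hrs⟩
    have hsL : (s : E) ∈ locRing B' 𝔪' := h2 s.2
    have hsM : (s : E) ∉ locMax B' 𝔪' := fun h => hs ((hm' s).mpr h)
    have hs0 : (s : E) ≠ 0 := fun h0 => hsM (h0 ▸ zero_mem_locMax)
    have : e = (s : E)⁻¹ * (r : E) := by
      rw [← hrs, mul_comm e, ← mul_assoc, inv_mul_cancel₀ hs0, one_mul]
    rw [this]
    exact mul_mem_locMax (inv_mem_locRing hsL hsM) ((hm' r).mp hr)
  exact ⟨SetLike.ext fun e => ⟨hLL e, hLL' e⟩, Set.ext fun e => ⟨hMM e, hMM' e⟩⟩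

/-- the contraction of the maximal ideal of the local ring of `B` at `𝔪` to a subalgebra `B'` of
that local ring. -/
def locComap (B : Subalgebra R E) (𝔪 : Ideal ↥B) [h𝔪 : 𝔪.IsPrime] (B' : Subalgebra R E)
    (h : B' ≤ locRing B 𝔪) : Ideal ↥B' where
  carrier := {b' | (b' : E) ∈ locMax B 𝔪}
  add_mem' := fun ha hb => add_mem_locMax ha hb
  zero_mem' := zero_mem_locMax
  smul_mem' := fun c _ hx => mul_mem_locMax (h c.2) hx

theorem mem_locComap_iff {B' : Subalgebra R E} (h : B' ≤ locRing B 𝔪) (b' : ↥B') :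
    b' ∈ locComap B 𝔪 B' h ↔ (b' : E) ∈ locMax B 𝔪 := Iff.rfl

instance locComap_isPrime {B' : Subalgebra R E} (h : B' ≤ locRing B 𝔪) :
    (locComap B 𝔪 B' h).IsPrime := by
  refine ⟨fun htop => ?_, fun {a b} hab => ?_⟩
  · have : (1 : ↥B') ∈ locComap B 𝔪 B' h := by rw [htop]; trivial
    exact one_notMem_locMax (B := B) (𝔪 := 𝔪) this
  · by_contra hcon
    rw [not_or] at hcon
    have ha : (a : E) ∉ locMax B 𝔪 := hcon.1
    have ha0 : (a : E) ≠ 0 := fun h0 => ha (h0 ▸ zero_mem_locMax)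
    apply hcon.2
    have h3 : (a : E)⁻¹ * ((a : E) * (b : E)) ∈ locMax B 𝔪 :=
      mul_mem_locMax (inv_mem_locRing (h a.2) ha) hab
    rw [← mul_assoc, inv_mul_cancel₀ ha0, one_mul] at h3
    exact h3

/-- if the residue field of `B` at the maximal ideal `𝔪` is the image of `R`, the same holds for
the local ring. -/
theorem exists_sub_algebraMap_mem_locMax [hmax : 𝔪.IsMaximal]
    (hres : ∀ b : ↥B, ∃ c : R, b - algebraMap R ↥B c ∈ 𝔪) {e : E} (he : e ∈ locRing B 𝔪) :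
    ∃ c : R, e - algebraMap R E c ∈ locMax B 𝔪 := by
  obtain ⟨r, s, hs, hrs⟩ := he
  obtain ⟨t, i, hi, hti⟩ := hmax.exists_inv hs
  have ht : s * t - 1 ∈ 𝔪 := by
    have : s * t - 1 = -i := by rw [← hti]; ring
    rw [this]; exact 𝔪.neg_mem hi
  obtain ⟨c, hc⟩ := hres (r * t)
  refine ⟨c, ?_⟩
  have hs0 : (s : E) ≠ 0 := by
    intro h0
    apply hs
    have : s = 0 := Subtype.ext h0
    rw [this]; exact 𝔪.zero_mem
  have h1 : e - (r : E) * (t : E) ∈ locMax B 𝔪 := by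
    refine ⟨r * (1 - s * t), s, 𝔪.mul_mem_left _ ?_, hs, ?_⟩
    · have : (1 : ↥B) - s * t = -(s * t - 1) := by ring
      rw [this]; exact 𝔪.neg_mem ht
    · show (e - (r : E) * (t : E)) * (s : E) = (r : E) * (1 - (s : E) * (t : E))
      rw [← hrs]; ring
  have h2 : (r : E) * (t : E) - algebraMap R E c ∈ locMax B 𝔪 :=
    (coe_mem_locMax_iff (r * t - algebraMap R ↥B c)).mpr hc
  have : e - algebraMap R E c = (e - (r : E) * (t : E)) + ((r : E) * (t : E) - algebraMap R E c) := by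
    ring
  rw [this]
  exact add_mem_locMax h1 h2

/-- the contraction of a maximal ideal with residue field the image of `R` is maximal, with residue
field the image of `R`. -/
theorem locComap_isMaximal [hmax : 𝔪.IsMaximal]
    (hres : ∀ b : ↥B, ∃ c : R, b - algebraMap R ↥B c ∈ 𝔪) {B' : Subalgebra R E}
    (h : B' ≤ locRing B 𝔪) :
    (locComap B 𝔪 B' h).IsMaximal ∧
      ∀ b' : ↥B', ∃ c : R, b' - algebraMap R ↥B' c ∈ locComap B 𝔪 B' h := by
  have hres' : ∀ b' : ↥B', ∃ c : R, b' - algebraMap R ↥B' c ∈ locComap B 𝔪 B' h := by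
    intro b'
    obtain ⟨c, hc⟩ := exists_sub_algebraMap_mem_locMax hres (h b'.2)
    exact ⟨c, hc⟩
  refine ⟨?_, hres'⟩
  rw [Ideal.isMaximal_iff]
  refine ⟨fun h1 => one_notMem_locMax (B := B) (𝔪 := 𝔪) h1, fun J x hIJ hx hxJ => ?_⟩
  obtain ⟨c, hc⟩ := hres' x
  -- `c` is invertible modulo `𝔪`
  have hcm : algebraMap R ↥B c ∉ 𝔪 := by
    intro hcm
    apply hx
    have h3 : (algebraMap R ↥B' c : ↥B') ∈ locComap B 𝔪 B' h :=
      (coe_mem_locMax_iff (algebraMap R ↥B c)).mpr hcm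
    have : x = (x - algebraMap R ↥B' c) + algebraMap R ↥B' c := by ring
    rw [this]
    exact (locComap B 𝔪 B' h).add_mem hc h3
  obtain ⟨t, i, hi, hti⟩ := hmax.exists_inv hcm
  have ht : algebraMap R ↥B c * t - 1 ∈ 𝔪 := by
    have : algebraMap R ↥B c * t - 1 = -i := by rw [← hti]; ring
    rw [this]; exact 𝔪.neg_mem hi
  obtain ⟨c', hc'⟩ := hres t
  have h4 : algebraMap R ↥B (c * c' - 1) ∈ 𝔪 := by
    have : algebraMap R ↥B (c * c' - 1) =
        (algebraMap R ↥B c * t - 1) - algebraMap R ↥B c * (t - algebraMap R ↥B c') := by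
      rw [map_sub, map_mul, map_one]; ring
    rw [this]
    exact 𝔪.sub_mem ht (𝔪.mul_mem_left _ hc')
  have h5 : (algebraMap R ↥B' (c * c' - 1) : ↥B') ∈ locComap B 𝔪 B' h :=
    (coe_mem_locMax_iff (algebraMap R ↥B (c * c' - 1))).mpr h4
  have : (1 : ↥B') = algebraMap R ↥B' c' * x - algebraMap R ↥B' c' * (x - algebraMap R ↥B' c)
      - algebraMap R ↥B' (c * c' - 1) := by
    rw [map_sub, map_mul, map_one]; ring
  rw [this]
  exact J.sub_mem (J.sub_mem (J.mul_mem_left _ hxJ) (J.mul_mem_left _ (hIJ hc))) (hIJ h5)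

/-! ### Branch uniformizers in the local currency -/

/-- `ζ` generates the maximal ideal `M` of the local ring `L` modulo the maximal ideal of the
valuation subring `W ⊇ L`, and is a unit of `W`. -/
structure IsLocBranch (W : ValuationSubring E) (L : Subalgebra R E) (M : Set E) (ζ : E) : Prop where
  mem : ζ ∈ M
  val : ¬ W.valuation ζ < 1
  gen : ∀ w ∈ M, ∃ α ∈ L, W.valuation (w - α * ζ) < 1

omit h𝔪 in
theorem valuation_eq_one_of_notMem {W : ValuationSubring E} (hBW : ∀ b ∈ B, b ∈ W)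
    {𝔭 : Ideal ↥B} (h𝔭 : ∀ b : ↥B, b ∈ 𝔭 ↔ W.valuation (b : E) < 1) {s : ↥B} (hs : s ∉ 𝔭) :
    W.valuation (s : E) = 1 :=
  le_antisymm ((ValuationSubring.valuation_le_one_iff _ _).mpr (hBW _ s.2))
    (not_lt.mp (fun h => hs ((h𝔭 s).mpr h)))

/-- a branch uniformizer of a sheet is a local branch uniformizer. -/
theorem IsBranchUniformizer.isLocBranch {W : ValuationSubring E} (hBW : ∀ b ∈ B, b ∈ W)
    {𝔭 : Ideal ↥B} (h𝔭 : ∀ b : ↥B, b ∈ 𝔭 ↔ W.valuation (b : E) < 1) (hle : 𝔭 ≤ 𝔪) {z : ↥B}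
    (hz : IsBranchUniformizer 𝔭 𝔪 z) : IsLocBranch W (locRing B 𝔪) (locMax B 𝔪) (z : E) := by
  refine ⟨(coe_mem_locMax_iff z).mpr hz.mem, fun h => hz.notMem ((h𝔭 z).mpr h), ?_⟩
  rintro w ⟨r, s, hr, hs, hrs⟩
  obtain ⟨a, s', hs', has⟩ := hz.gen r hr
  have hvs : W.valuation (s : E) = 1 := valuation_eq_one_of_notMem hBW h𝔭 (fun h => hs (hle h))
  have hvs' : W.valuation (s' : E) = 1 := valuation_eq_one_of_notMem hBW h𝔭 (fun h => hs' (hle h))
  have hs0 : (s : E) ≠ 0 := fun h0 => by rw [h0, map_zero] at hvs; exact zero_ne_one hvs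
  have hs'0 : (s' : E) ≠ 0 := fun h0 => by rw [h0, map_zero] at hvs'; exact zero_ne_one hvs'
  refine ⟨(a : E) * ((s' : E) * (s : E))⁻¹, ?_, ?_⟩
  · have hss : ((s' * s : ↥B) : E) ∉ locMax B 𝔪 := by
      rw [coe_mem_locMax_iff]
      intro h
      rcases h𝔪.mem_or_mem h with h | h
      exacts [hs' h, hs h]
    exact (locRing B 𝔪).mul_mem (coe_mem_locRing a) (inv_mem_locRing (coe_mem_locRing (s' * s)) hss)
  · have h1 : w - (a : E) * ((s' : E) * (s : E))⁻¹ * (z : E) =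
        ((s' : E) * (r : E) - (a : E) * (z : E)) * ((s' : E) * (s : E))⁻¹ := by
      rw [← hrs]; field_simp
    rw [h1, map_mul, map_inv₀, map_mul, hvs, hvs', mul_one, inv_one, mul_one]
    exact (h𝔭 (s' * r - a * z)).mp has

/-- a local branch uniformizer comes from a branch uniformizer of the sheet. -/
theorem IsLocBranch.exists_isBranchUniformizer {W : ValuationSubring E} (hBW : ∀ b ∈ B, b ∈ W)
    {𝔭 : Ideal ↥B} (h𝔭 : ∀ b : ↥B, b ∈ 𝔭 ↔ W.valuation (b : E) < 1) (hle : 𝔭 ≤ 𝔪) {ζ : E}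
    (hζ : IsLocBranch W (locRing B 𝔪) (locMax B 𝔪) ζ) :
    ∃ z s : ↥B, s ∉ 𝔪 ∧ ζ * (s : E) = (z : E) ∧ IsBranchUniformizer 𝔭 𝔪 z := by
  obtain ⟨z, s, hz, hs, hzs⟩ := hζ.mem
  have hvs : W.valuation (s : E) = 1 := valuation_eq_one_of_notMem hBW h𝔭 (fun h => hs (hle h))
  refine ⟨z, s, hs, hzs, hz, ?_, ?_⟩
  · intro hz𝔭
    apply hζ.val
    have := (h𝔭 z).mp hz𝔭
    rwa [← hzs, map_mul, hvs, mul_one] at this
  · intro w hw
    obtain ⟨α, ⟨a₁, s₁, hs₁, has₁⟩, hα⟩ := hζ.gen (w : E) ((coe_mem_locMax_iff w).mpr hw)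
    have hvs₁ : W.valuation (s₁ : E) = 1 :=
      valuation_eq_one_of_notMem hBW h𝔭 (fun h => hs₁ (hle h))
    refine ⟨a₁, s₁ * s, fun h => ?_, ?_⟩
    · rcases h𝔪.mem_or_mem h with h | h
      exacts [hs₁ h, hs h]
    · rw [h𝔭]
      have h1 : ((s₁ * s * w - a₁ * z : ↥B) : E) =
          (s₁ : E) * (s : E) * ((w : E) - α * ζ) := by
        show (s₁ : E) * (s : E) * (w : E) - (a₁ : E) * (z : E) = _
        rw [← has₁, ← hzs]; ring
      rw [h1, map_mul, map_mul, hvs, hvs₁, one_mul, one_mul]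
      exact hα

/-- the sheet of `W` passes through `𝔪`, in the local currency. -/
theorem sheet_le_iff {W : ValuationSubring E} (hBW : ∀ b ∈ B, b ∈ W)
    {𝔭 : Ideal ↥B} (h𝔭 : ∀ b : ↥B, b ∈ 𝔭 ↔ W.valuation (b : E) < 1) :
    𝔭 ≤ 𝔪 ↔ ∀ e ∈ locRing B 𝔪, W.valuation e < 1 → e ∈ locMax B 𝔪 := by
  constructor
  · rintro hle e ⟨r, s, hs, hrs⟩ he
    refine ⟨r, s, hle ((h𝔭 r).mpr ?_), hs, hrs⟩
    rw [← hrs, map_mul]
    calc W.valuation e * W.valuation (s : E) ≤ W.valuation e * 1 :=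
          mul_le_mul_right ((ValuationSubring.valuation_le_one_iff _ _).mpr (hBW _ s.2)) _
      _ < 1 := by rw [mul_one]; exact he
  · intro h b hb
    exact (coe_mem_locMax_iff b).mp (h _ (coe_mem_locRing b) ((h𝔭 b).mp hb))

/-! ### The valuative criterion -/

/-- **valuative criterion**: `B` integrally closed in `E`; an element of `E` lying in every valuation
subring of `E` containing `B` whose maximal ideal contains `𝔪` lies in the local ring of `B` at
`𝔪`. -/
theorem mem_locRing_of_forall_valuationSubring (hB : ∀ e : E, IsIntegral ↥B e → e ∈ B) (e : E)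
    (h : ∀ V : ValuationSubring E, (∀ b ∈ B, b ∈ V) →
      (∀ b : ↥B, b ∈ 𝔪 → V.valuation (b : E) < 1) → e ∈ V) :
    e ∈ locRing B 𝔪 := by
  classical
  by_cases he0 : e = 0
  · rw [he0]; exact (locRing B 𝔪).zero_mem
  letI : Invertible e⁻¹ := invertibleOfNonzero (inv_ne_zero he0)
  by_cases htop : 𝔪.map (algebraMap ↥B ↥(Algebra.adjoin ↥B {e⁻¹})) ⊔
      Ideal.span {(⟨e⁻¹, Algebra.subset_adjoin rfl⟩ : ↥(Algebra.adjoin ↥B {e⁻¹}))} = ⊤
  · obtain ⟨p, hp, hpe⟩ :=
      Algebra.exists_aeval_invOf_eq_zero_of_idealMap_adjoin_sup_span_eq_top e⁻¹ 𝔪 h𝔪.ne_top htop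
    have hinv : ⅟(e⁻¹) = e := by rw [invOf_eq_inv, inv_inv]
    rw [hinv] at hpe
    have hint : IsIntegral ↥B (p.leadingCoeff • e) := isIntegral_leadingCoeff_smul p e hpe
    have hs : p.leadingCoeff ∉ 𝔪 := fun hmem => loc_one_notMem 𝔪 (by
      have := 𝔪.sub_mem hmem hp
      simpa using this)
    refine ⟨⟨_, hB _ hint⟩, p.leadingCoeff, hs, ?_⟩
    show e * (p.leadingCoeff : E) = p.leadingCoeff • e
    rw [Algebra.smul_def, mul_comm]; rfl
  · exfalso
    obtain ⟨V, hV1, hV2⟩ := Ideal.image_subset_nonunits_valuationSubring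
      (A := (Algebra.adjoin ↥B {e⁻¹}).toSubring) _ htop
    have hBV : ∀ b ∈ B, b ∈ V := fun b hb =>
      hV1 ((Algebra.adjoin ↥B {e⁻¹}).algebraMap_mem (⟨b, hb⟩ : ↥B))
    have h𝔪V : ∀ b : ↥B, b ∈ 𝔪 → V.valuation (b : E) < 1 := by
      intro b hb
      have h1 : (b : E) ∈ V.nonunits := by
        apply hV2
        refine ⟨algebraMap ↥B ↥(Algebra.adjoin ↥B {e⁻¹}) b, ?_, rfl⟩
        exact Ideal.mem_sup_left (Ideal.mem_map_of_mem _ hb)
      exact (ValuationSubring.mem_nonunits_iff (A := V)).mp h1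
    have heV : e ∈ V := h V hBV h𝔪V
    have h2 : e⁻¹ ∈ V.nonunits := by
      apply hV2
      refine ⟨(⟨e⁻¹, Algebra.subset_adjoin rfl⟩ : ↥(Algebra.adjoin ↥B {e⁻¹})), ?_, rfl⟩
      exact Ideal.mem_sup_right (Ideal.subset_span rfl)
    have h3 : V.valuation e⁻¹ < 1 := (ValuationSubring.mem_nonunits_iff (A := V)).mp h2
    have h4 : V.valuation e ≤ 1 := (ValuationSubring.valuation_le_one_iff _ _).mpr heV
    have h5 : V.valuation e * V.valuation e⁻¹ = 1 := by
      rw [← map_mul, mul_inv_cancel₀ he0, map_one]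
    have h6 : V.valuation e * V.valuation e⁻¹ < 1 := by
      calc V.valuation e * V.valuation e⁻¹ ≤ 1 * V.valuation e⁻¹ := mul_le_mul_left h4 _
        _ < 1 := by rw [one_mul]; exact h3
    rw [h5] at h6
    exact lt_irrefl _ h6

/-- the valuation subrings dominating the local ring contain it. -/
theorem locRing_le_of_dominates [hmax : 𝔪.IsMaximal] (V : ValuationSubring E) (hBV : ∀ b ∈ B, b ∈ V)
    (h𝔪V : ∀ b : ↥B, b ∈ 𝔪 → V.valuation (b : E) < 1) :
    (∀ e ∈ locRing B 𝔪, e ∈ V) ∧ ∀ e ∈ locMax B 𝔪, V.valuation e < 1 := by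
  have hunit : ∀ s : ↥B, s ∉ 𝔪 → V.valuation (s : E) = 1 := by
    intro s hs
    obtain ⟨t, i, hi, hti⟩ := hmax.exists_inv hs
    have h1 : V.valuation ((t : E) * (s : E)) = 1 := by
      have h2 : (t : E) * (s : E) = 1 - (i : E) := by
        have h3 : (t : E) * (s : E) + (i : E) = 1 := congrArg (fun w : ↥B => (w : E)) hti
        rw [← h3]; ring
      rw [h2]
      have h4 : V.valuation (-(i : E)) < V.valuation (1 : E) := by
        rw [Valuation.map_neg, map_one]; exact h𝔪V i hi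
      have := Valuation.map_add_eq_of_lt_left V.valuation h4
      rw [sub_eq_add_neg, this, map_one]
    rw [map_mul] at h1
    have ht : V.valuation (t : E) ≤ 1 := (ValuationSubring.valuation_le_one_iff _ _).mpr (hBV _ t.2)
    have hs' : V.valuation (s : E) ≤ 1 := (ValuationSubring.valuation_le_one_iff _ _).mpr (hBV _ s.2)
    by_contra hne
    have hlt : V.valuation (s : E) < 1 := lt_of_le_of_ne hs' hne
    have : V.valuation (t : E) * V.valuation (s : E) < 1 := by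
      calc V.valuation (t : E) * V.valuation (s : E) ≤ 1 * V.valuation (s : E) :=
            mul_le_mul_left ht _
        _ < 1 := by rw [one_mul]; exact hlt
    rw [h1] at this
    exact lt_irrefl _ this
  constructor
  · rintro e ⟨r, s, hs, hrs⟩
    rw [← ValuationSubring.valuation_le_one_iff]
    have h1 : V.valuation e = V.valuation (r : E) := by
      rw [← hrs, map_mul, hunit s hs, mul_one]
    rw [h1]
    exact (ValuationSubring.valuation_le_one_iff _ _).mpr (hBV _ r.2)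
  · rintro e ⟨r, s, hr, hs, hrs⟩
    have h1 : V.valuation e = V.valuation (r : E) := by
      rw [← hrs, map_mul, hunit s hs, mul_one]
    rw [h1]
    exact h𝔪V r hr

/-- **valuative criterion for the maximal ideal**. -/
theorem mem_locMax_of_forall_valuationSubring (hB : ∀ e : E, IsIntegral ↥B e → e ∈ B) (e : E)
    (h : ∀ V : ValuationSubring E, (∀ b ∈ B, b ∈ V) →
      (∀ b : ↥B, b ∈ 𝔪 → V.valuation (b : E) < 1) → V.valuation e < 1) :
    e ∈ locMax B 𝔪 := by
  have h1 : e ∈ locRing B 𝔪 := mem_locRing_of_forall_valuationSubring hB e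
    (fun V hV1 hV2 => (ValuationSubring.valuation_le_one_iff _ _).mp (h V hV1 hV2).le)
  by_contra hcon
  have h2 : e⁻¹ ∈ locRing B 𝔪 := inv_mem_locRing h1 hcon
  obtain ⟨V, hV1, hV2, hV3⟩ := exists_valuationSubring_dominating B 𝔪
  have h3 : V.valuation e < 1 := h V hV1 hV3
  obtain ⟨r, s, hs, hrs⟩ := h2
  have h4 : e⁻¹ ∈ V := by
    have hs0 : (s : E) ≠ 0 := by
      intro h0
      apply hs
      have : s = 0 := Subtype.ext h0
      rw [this]; exact 𝔪.zero_mem
    have : e⁻¹ = (r : E) * (s : E)⁻¹ := by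
      rw [← hrs, mul_assoc, mul_inv_cancel₀ hs0, mul_one]
    rw [this]
    exact V.mul_mem _ _ (hV1 _ r.2) (hV2 s hs)
  have he0 : e ≠ 0 := fun h0 => hcon (h0 ▸ zero_mem_locMax)
  have h5 : V.valuation e⁻¹ ≤ 1 := (ValuationSubring.valuation_le_one_iff _ _).mpr h4
  have h6 : V.valuation e * V.valuation e⁻¹ = 1 := by
    rw [← map_mul, mul_inv_cancel₀ he0, map_one]
  have h7 : V.valuation e * V.valuation e⁻¹ < 1 := by
    calc V.valuation e * V.valuation e⁻¹ ≤ V.valuation e * 1 := mul_le_mul_right h5 _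
      _ < 1 := by rw [mul_one]; exact h3
  rw [h6] at h7
  exact lt_irrefl _ h7

/-! ### Local algebraic Hartogs -/

/-- **local Hartogs**: an element of `E` lying in the local ring of `B` at every prime of height one
contained in `𝔪` lies in the local ring of `B` at `𝔪`. -/
theorem mem_locRing_of_forall_height_one [IsNoetherianRing ↥B] [IsIntegrallyClosed ↥B]
    [IsFractionRing ↥B E] (e : E)
    (h : ∀ 𝔮 : Ideal ↥B, 𝔮.IsPrime → 𝔮.height = 1 → 𝔮 ≤ 𝔪 →
      ∃ r s : ↥B, s ∉ 𝔮 ∧ e * (s : E) = (r : E)) :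
    e ∈ locRing B 𝔪 := by
  have hS : 𝔪.primeCompl ≤ nonZeroDivisors ↥B := by
    intro s hs
    exact mem_nonZeroDivisors_of_ne_zero (fun h0 => hs (h0 ▸ 𝔪.zero_mem))
  haveI : IsIntegrallyClosed (Localization.AtPrime 𝔪) :=
    isIntegrallyClosed_of_isLocalization (Localization.AtPrime 𝔪) 𝔪.primeCompl hS
  haveI : IsNoetherianRing (Localization.AtPrime 𝔪) :=
    IsLocalization.isNoetherianRing 𝔪.primeCompl (Localization.AtPrime 𝔪) inferInstance
  have hunits : ∀ s : 𝔪.primeCompl, IsUnit (algebraMap ↥B E s) := fun s =>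
    Localization.map_isUnit_of_le E 𝔪.primeCompl hS s
  letI : Algebra (Localization.AtPrime 𝔪) E :=
    (IsLocalization.lift (M := 𝔪.primeCompl) (S := Localization.AtPrime 𝔪) hunits).toAlgebra
  haveI : IsScalarTower ↥B (Localization.AtPrime 𝔪) E :=
    IsScalarTower.of_algebraMap_eq (fun b => (IsLocalization.lift_eq hunits b).symm)
  haveI : IsFractionRing (Localization.AtPrime 𝔪) E :=
    IsFractionRing.isFractionRing_of_isDomain_of_isLocalization 𝔪.primeCompl
      (Localization.AtPrime 𝔪) E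
  have hmem : e ∈ (algebraMap (Localization.AtPrime 𝔪) E).range := by
    apply mem_range_algebraMap_of_forall_height_one
    intro Q hQ hQh
    haveI := hQ
    have h1 : (Q.comap (algebraMap ↥B (Localization.AtPrime 𝔪))).height = 1 := by
      have := IsLocalization.height_under 𝔪.primeCompl Q
      rw [Ideal.under_def] at this
      rw [this, hQh]
    have h2 : Q.comap (algebraMap ↥B (Localization.AtPrime 𝔪)) ≤ 𝔪 := by
      intro a ha
      by_contra hna
      have h3 : IsUnit (algebraMap ↥B (Localization.AtPrime 𝔪) a) :=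
        IsLocalization.map_units (Localization.AtPrime 𝔪) (⟨a, hna⟩ : 𝔪.primeCompl)
      exact hQ.ne_top (Ideal.eq_top_of_isUnit_mem _ ha h3)
    obtain ⟨r, s, hs, hrs⟩ := h _ (Ideal.comap_isPrime _ Q) h1 h2
    refine ⟨algebraMap ↥B (Localization.AtPrime 𝔪) r, algebraMap ↥B (Localization.AtPrime 𝔪) s,
      hs, ?_⟩
    rw [← IsScalarTower.algebraMap_apply ↥B (Localization.AtPrime 𝔪) E,
      ← IsScalarTower.algebraMap_apply ↥B (Localization.AtPrime 𝔪) E]
    exact hrs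
  obtain ⟨l, hl⟩ := hmem
  obtain ⟨r, s, rfl⟩ := IsLocalization.exists_mk'_eq 𝔪.primeCompl l
  refine ⟨r, s, s.2, ?_⟩
  have h1 := IsLocalization.mk'_spec (Localization.AtPrime 𝔪) r s
  have h2 := congrArg (algebraMap (Localization.AtPrime 𝔪) E) h1
  rw [map_mul, ← IsScalarTower.algebraMap_apply ↥B (Localization.AtPrime 𝔪) E,
    ← IsScalarTower.algebraMap_apply ↥B (Localization.AtPrime 𝔪) E] at h2
  rw [← hl]
  exact h2

/-- the local ring of a noetherian integrally closed domain at a prime of height one is a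
valuation ring. -/
theorem mem_locRing_or_inv_mem_of_height_one [IsNoetherianRing ↥B] [IsIntegrallyClosed ↥B]
    [IsFractionRing ↥B E] (h𝔮 : 𝔪.height = 1) (e : E) :
    e ∈ locRing B 𝔪 ∨ e⁻¹ ∈ locRing B 𝔪 := by
  have hS : 𝔪.primeCompl ≤ nonZeroDivisors ↥B := by
    intro s hs
    exact mem_nonZeroDivisors_of_ne_zero (fun h0 => hs (h0 ▸ 𝔪.zero_mem))
  haveI : IsDiscreteValuationRing (Localization.AtPrime 𝔪) :=
    Fermat.Agent.JA.isDiscreteValuationRing_atPrime_of_height_eq_one 𝔪 h𝔮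
  have hunits : ∀ s : 𝔪.primeCompl, IsUnit (algebraMap ↥B E s) := fun s =>
    Localization.map_isUnit_of_le E 𝔪.primeCompl hS s
  letI : Algebra (Localization.AtPrime 𝔪) E :=
    (IsLocalization.lift (M := 𝔪.primeCompl) (S := Localization.AtPrime 𝔪) hunits).toAlgebra
  haveI : IsScalarTower ↥B (Localization.AtPrime 𝔪) E :=
    IsScalarTower.of_algebraMap_eq (fun b => (IsLocalization.lift_eq hunits b).symm)
  haveI : IsFractionRing (Localization.AtPrime 𝔪) E :=
    IsFractionRing.isFractionRing_of_isDomain_of_isLocalization 𝔪.primeCompl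
      (Localization.AtPrime 𝔪) E
  have key : ∀ l : Localization.AtPrime 𝔪, algebraMap (Localization.AtPrime 𝔪) E l ∈ locRing B 𝔪 := by
    intro l
    obtain ⟨r, s, rfl⟩ := IsLocalization.exists_mk'_eq 𝔪.primeCompl l
    refine ⟨r, s, s.2, ?_⟩
    have h1 := IsLocalization.mk'_spec (Localization.AtPrime 𝔪) r s
    have h2 := congrArg (algebraMap (Localization.AtPrime 𝔪) E) h1
    rw [map_mul, ← IsScalarTower.algebraMap_apply ↥B (Localization.AtPrime 𝔪) E,
      ← IsScalarTower.algebraMap_apply ↥B (Localization.AtPrime 𝔪) E] at h2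
    exact h2
  rcases ValuationRing.isInteger_or_isInteger (Localization.AtPrime 𝔪) (K := E) e with h | h
  · obtain ⟨l, hl⟩ := h
    left; rw [← hl]; exact key l
  · obtain ⟨l, hl⟩ := h
    right; rw [← hl]; exact key l

/-- a valuation subring dominating the local ring at a prime of height one IS that local ring. -/
theorem mem_locRing_of_mem_valuationSubring_of_height_one [IsNoetherianRing ↥B]
    [IsIntegrallyClosed ↥B] [IsFractionRing ↥B E] (h𝔮 : 𝔪.height = 1) (V : ValuationSubring E)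
    (hV2 : ∀ b : ↥B, b ∉ 𝔪 → (b : E)⁻¹ ∈ V)
    (hV3 : ∀ b : ↥B, b ∈ 𝔪 → V.valuation (b : E) < 1) {e : E} (he : e ∈ V) :
    e ∈ locRing B 𝔪 := by
  rcases mem_locRing_or_inv_mem_of_height_one h𝔮 e with h | h
  · exact h
  · by_cases he0 : e = 0
    · rw [he0]; exact (locRing B 𝔪).zero_mem
    by_cases hM : e⁻¹ ∈ locMax B 𝔪
    · exfalso
      obtain ⟨r, s, hr, hs, hrs⟩ := hM
      have h1 : V.valuation (r : E) < 1 := hV3 r hr
      have hs0 : (s : E) ≠ 0 := by
        intro h0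
        apply hs
        have : s = 0 := Subtype.ext h0
        rw [this]; exact 𝔪.zero_mem
      have h2 : e⁻¹ = (r : E) * (s : E)⁻¹ := by
        rw [← hrs, mul_assoc, mul_inv_cancel₀ hs0, mul_one]
      have h3 : V.valuation e⁻¹ < 1 := by
        rw [h2, map_mul]
        calc V.valuation (r : E) * V.valuation (s : E)⁻¹ ≤ V.valuation (r : E) * 1 :=
              mul_le_mul_right ((ValuationSubring.valuation_le_one_iff _ _).mpr (hV2 s hs)) _
          _ < 1 := by rw [mul_one]; exact h1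
      have h4 : V.valuation e ≤ 1 := (ValuationSubring.valuation_le_one_iff _ _).mpr he
      have h5 : V.valuation e * V.valuation e⁻¹ = 1 := by
        rw [← map_mul, mul_inv_cancel₀ he0, map_one]
      have h6 : V.valuation e * V.valuation e⁻¹ < 1 := by
        calc V.valuation e * V.valuation e⁻¹ ≤ 1 * V.valuation e⁻¹ := mul_le_mul_left h4 _
          _ < 1 := by rw [one_mul]; exact h3
      rw [h5] at h6
      exact lt_irrefl _ h6
    · have := inv_mem_locRing h hM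
      rwa [inv_inv] at this

end Loc

end Fermat.Agent.SS
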