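/-
(SS-q) — helper5 — **SS-NODEALG, part 2: functions whose divisor at a node is a multiple of one
branch.**

* `IsUnitAtPrime 𝔮 g` : `g ∈ K` is a unit of the localisation `R_𝔮` (`g s = r`, `r, s ∉ 𝔮`).
* `exists_pow_mul_eq_of_locally_principal` : if `𝔭` is a prime of a noetherian domain with
  `𝔭 R_𝔭 = π R_𝔭`, every nonzero element is `π^c ·` (unit at `𝔭`).
* `exists_zpow_mul_unit_of_isUnitAtPrime` **(D)** : at a node `x y = π^m r`, an element `g ∈ K`
  which is a unit at every height-one prime `≠ P0` is `x^k · v` with `k : ℤ`, `v ∈ Rˣ`.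
-/
import Mathlib
import Fermat.Agent.SS.K1_helper3
import Fermat.Agent.SS.REG_helper8_Node

set_option autoImplicit false
set_option linter.unusedSectionVars false
set_option linter.style.haveILetI false

namespace Fermat.Agent.SS

open IsLocalRing

section UnitAt

variable {R : Type*} [CommRing R] [IsDomain R]
variable {K : Type*} [Field K] [Algebra R K] [IsFractionRing R K]

/-- `g` is a unit of the localisation of `R` at the prime `𝔮`. -/
def IsUnitAtPrime (𝔮 : Ideal R) (g : K) : Prop :=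
  ∃ r s : R, r ∉ 𝔮 ∧ s ∉ 𝔮 ∧ g * algebraMap R K s = algebraMap R K r

variable {𝔮 : Ideal R}

theorem IsUnitAtPrime.ne_zero [𝔮.IsPrime] {g : K} (h : IsUnitAtPrime 𝔮 g) : g ≠ 0 := by
  obtain ⟨r, s, hr, hs, hrs⟩ := h
  rintro rfl
  rw [zero_mul] at hrs
  have : r = 0 := (IsFractionRing.to_map_eq_zero_iff (K := K)).mp hrs.symm
  exact hr (this ▸ 𝔮.zero_mem)

theorem isUnitAtPrime_algebraMap {a : R} (ha : a ∉ 𝔮) [h𝔮 : 𝔮.IsPrime] :
    IsUnitAtPrime 𝔮 (algebraMap R K a) :=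
  ⟨a, 1, ha, fun h => h𝔮.ne_top ((Ideal.eq_top_iff_one _).mpr h), by simp⟩

theorem isUnitAtPrime_one [h𝔮 : 𝔮.IsPrime] : IsUnitAtPrime 𝔮 (1 : K) := by
  have := isUnitAtPrime_algebraMap (K := K) (𝔮 := 𝔮) (a := 1)
    (fun h => h𝔮.ne_top ((Ideal.eq_top_iff_one _).mpr h))
  simpa using this

theorem IsUnitAtPrime.mul [h𝔮 : 𝔮.IsPrime] {g g' : K} (h : IsUnitAtPrime 𝔮 g)
    (h' : IsUnitAtPrime 𝔮 g') : IsUnitAtPrime 𝔮 (g * g') := by
  obtain ⟨r, s, hr, hs, hrs⟩ := h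
  obtain ⟨r', s', hr', hs', hrs'⟩ := h'
  refine ⟨r * r', s * s', ?_, ?_, ?_⟩
  · intro hm; rcases h𝔮.mem_or_mem hm with h | h
    · exact hr h
    · exact hr' h
  · intro hm; rcases h𝔮.mem_or_mem hm with h | h
    · exact hs h
    · exact hs' h
  · rw [map_mul, map_mul, ← hrs, ← hrs']; ring

theorem IsUnitAtPrime.inv [h𝔮 : 𝔮.IsPrime] {g : K} (h : IsUnitAtPrime 𝔮 g) :
    IsUnitAtPrime 𝔮 g⁻¹ := by
  have hg := h.ne_zero
  obtain ⟨r, s, hr, hs, hrs⟩ := h
  refine ⟨s, r, hs, hr, ?_⟩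
  rw [← hrs]
  field_simp

theorem IsUnitAtPrime.pow [h𝔮 : 𝔮.IsPrime] {g : K} (h : IsUnitAtPrime 𝔮 g) (n : ℕ) :
    IsUnitAtPrime 𝔮 (g ^ n) := by
  induction n with
  | zero => simpa using isUnitAtPrime_one
  | succ n ih => rw [pow_succ]; exact ih.mul h

theorem IsUnitAtPrime.zpow [h𝔮 : 𝔮.IsPrime] {g : K} (h : IsUnitAtPrime 𝔮 g) (n : ℤ) :
    IsUnitAtPrime 𝔮 (g ^ n) := by
  cases n with
  | ofNat n => simpa using h.pow n
  | negSucc n => rw [zpow_negSucc]; exact (h.pow _).inv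

theorem IsUnitAtPrime.div [h𝔮 : 𝔮.IsPrime] {g g' : K} (h : IsUnitAtPrime 𝔮 g)
    (h' : IsUnitAtPrime 𝔮 g') : IsUnitAtPrime 𝔮 (g / g') := by
  rw [div_eq_mul_inv]; exact h.mul h'.inv

theorem isUnitAtPrime_unit [h𝔮 : 𝔮.IsPrime] (v : Rˣ) : IsUnitAtPrime 𝔮 (algebraMap R K (v : R)) :=
  isUnitAtPrime_algebraMap (fun h => h𝔮.ne_top (Ideal.eq_top_of_isUnit_mem _ h v.isUnit))

end UnitAt

section LocallyPrincipal

variable {R : Type*} [CommRing R] [IsDomain R] [IsNoetherianRing R]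

/-- if `𝔭 R_𝔭 = π R_𝔭`, every nonzero element of `R` is `π^c` times a unit at `𝔭`. -/
theorem exists_pow_mul_eq_of_locally_principal (𝔭 : Ideal R) [h𝔭 : 𝔭.IsPrime] {π : R}
    (hπ : π ∈ 𝔭) (hloc : ∀ z ∈ 𝔭, ∃ s : R, s ∉ 𝔭 ∧ π ∣ s * z) {n : R} (hn : n ≠ 0) :
    ∃ (c : ℕ) (r s : R), r ∉ 𝔭 ∧ s ∉ 𝔭 ∧ n * s = π ^ c * r := by
  classical
  set A := Localization.AtPrime 𝔭 with hA
  have hle : 𝔭.primeCompl ≤ nonZeroDivisors R := by
    intro s hs
    rw [mem_nonZeroDivisors_iff_ne_zero]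
    rintro rfl
    exact hs 𝔭.zero_mem
  have hinj : Function.Injective (algebraMap R A) := IsLocalization.injective A hle
  have hmaxA : maximalIdeal A = Ideal.span {algebraMap R A π} := by
    rw [← IsLocalization.AtPrime.map_eq_maximalIdeal 𝔭 A]
    apply le_antisymm
    · rw [Ideal.map_le_iff_le_comap]
      intro z hz
      obtain ⟨s, hs, w, hw⟩ := hloc z hz
      rw [Ideal.mem_comap, Ideal.mem_span_singleton]
      have hsu : IsUnit (algebraMap R A s) :=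
        (IsLocalization.AtPrime.isUnit_to_map_iff A 𝔭 s).mpr hs
      obtain ⟨su, hsu'⟩ := hsu
      refine ⟨algebraMap R A w * (su⁻¹ : Aˣ), ?_⟩
      have h1 : algebraMap R A s * algebraMap R A z = algebraMap R A π * algebraMap R A w := by
        rw [← map_mul, hw, map_mul]
      have h2 : algebraMap R A z = (su⁻¹ : Aˣ) * (algebraMap R A s * algebraMap R A z) := by
        rw [← hsu', ← mul_assoc, Units.inv_mul, one_mul]
      rw [h2, h1]; ring
    · rw [Ideal.span_le]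
      rintro z rfl
      exact Ideal.mem_map_of_mem _ hπ
  have hkrull : ⨅ i : ℕ, maximalIdeal A ^ i = ⊥ :=
    Ideal.iInf_pow_eq_bot_of_isLocalRing (maximalIdeal A) Ideal.IsPrime.ne_top'
  have hnA : algebraMap R A n ≠ 0 := fun h => hn (hinj (by rw [h, map_zero]))
  have hex : ∃ i : ℕ, algebraMap R A n ∉ maximalIdeal A ^ i := by
    by_contra hcon
    simp only [not_exists, not_not] at hcon
    apply hnA
    have : algebraMap R A n ∈ ⨅ i : ℕ, maximalIdeal A ^ i := by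
      rw [Ideal.mem_iInf]; exact hcon
    rw [hkrull] at this
    exact this
  set i₀ := Nat.find hex with hi₀
  have hi₀spec : algebraMap R A n ∉ maximalIdeal A ^ i₀ := Nat.find_spec hex
  have hi₀pos : i₀ ≠ 0 := by
    intro h0
    rw [h0, pow_zero, Ideal.one_eq_top] at hi₀spec
    exact hi₀spec Submodule.mem_top
  obtain ⟨c, hc⟩ := Nat.exists_eq_succ_of_ne_zero hi₀pos
  have hcmem : algebraMap R A n ∈ maximalIdeal A ^ c := by
    by_contra hcon
    have := Nat.find_min' hex hcon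
    omega
  rw [hmaxA, Ideal.span_singleton_pow, Ideal.mem_span_singleton] at hcmem
  obtain ⟨a, ha⟩ := hcmem
  have hau : IsUnit a := by
    by_contra hnu
    have ham : a ∈ maximalIdeal A := (IsLocalRing.mem_maximalIdeal _).mpr hnu
    apply hi₀spec
    rw [hc, pow_succ, ha, hmaxA, Ideal.span_singleton_pow]
    rw [hmaxA] at ham
    exact Ideal.mul_mem_mul (Ideal.mem_span_singleton_self _) ham
  obtain ⟨r, s, hrs⟩ := IsLocalization.exists_mk'_eq 𝔭.primeCompl a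
  have hr : r ∉ 𝔭 := by
    have := (IsLocalization.AtPrime.isUnit_mk'_iff A 𝔭 r s).mp (hrs ▸ hau)
    exact this
  refine ⟨c, r, s, hr, s.2, ?_⟩
  apply hinj
  rw [map_mul, map_mul, map_pow, ha, ← hrs, mul_assoc, IsLocalization.mk'_spec]
end LocallyPrincipal

section HeightOne

variable {R : Type*} [CommRing R] [IsDomain R]

/-- a nonzero prime contained in a prime of height one is equal to it. -/
theorem eq_of_le_of_height_eq_one {𝔭 𝔮 : Ideal R} [𝔭.IsPrime] [𝔮.IsPrime]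
    (hle : 𝔭 ≤ 𝔮) (h𝔭 : 𝔭 ≠ ⊥) (h𝔮 : 𝔮.height = 1) : 𝔭 = 𝔮 := by
  by_contra hne
  have hlt : 𝔭 < 𝔮 := lt_of_le_of_ne hle hne
  haveI : 𝔮.FiniteHeight := ⟨Or.inr (by rw [h𝔮]; exact ENat.one_ne_top)⟩
  have h1 := Ideal.height_strict_mono_of_isPrime_of_isPrime hlt
  rw [h𝔮] at h1
  have h0 : 𝔭.height = 0 := Order.lt_one_iff.mp h1
  exact h𝔭 (Ideal.height_eq_zero_iff_eq_bot.mp h0)

end HeightOne

section NodeDiv

variable {R : Type*} [CommRing R] [IsDomain R] [IsLocalRing R] [IsNoetherianRing R]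
  [IsIntegrallyClosed R]
variable {K : Type*} [Field K] [Algebra R K] [IsFractionRing R K]
variable {π : R} {P0 Pinf : Ideal R} {x y r : R} {m : ℕ}

/-- at a node, `P0 R_{P0} = π R_{P0}`. -/
theorem IsNodePair.locally_principal_P0 (h : IsNodePair P0 Pinf x y)
    (hinf : P0 ⊓ Pinf ≤ Ideal.span {π}) : ∀ z ∈ P0, ∃ s : R, s ∉ P0 ∧ π ∣ s * z := by
  intro z hz
  refine ⟨y, h.y_notMem, ?_⟩
  have : y * z ∈ P0 ⊓ Pinf := ⟨P0.mul_mem_left _ hz, Pinf.mul_mem_right _ h.y_mem⟩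
  exact Ideal.mem_span_singleton.mp (hinf this)

/-- at a node, `Pinf R_{Pinf} = π R_{Pinf}`. -/
theorem IsNodePair.locally_principal_Pinf (h : IsNodePair P0 Pinf x y)
    (hinf : P0 ⊓ Pinf ≤ Ideal.span {π}) : ∀ z ∈ Pinf, ∃ s : R, s ∉ Pinf ∧ π ∣ s * z := by
  intro z hz
  refine ⟨x, h.x_notMem, ?_⟩
  have : x * z ∈ P0 ⊓ Pinf := ⟨P0.mul_mem_right _ h.x_mem, Pinf.mul_mem_left _ hz⟩
  exact Ideal.mem_span_singleton.mp (hinf this)

/-- `x` lies in no prime of height one other than `P0`. -/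
theorem IsNodePair.x_notMem_of_height_one (h : IsNodePair P0 Pinf x y) [P0.IsPrime]
    (hπ0 : π ∈ P0) (hinf : P0 ⊓ Pinf ≤ Ideal.span {π}) (hπne : π ≠ 0)
    (hxy : x * y = π ^ m * r) (hr : IsUnit r)
    (𝔮 : Ideal R) [h𝔮 : 𝔮.IsPrime] (hh : 𝔮.height = 1) (hne : 𝔮 ≠ P0) : x ∉ 𝔮 := by
  intro hx
  have h1 : π ^ m * r ∈ 𝔮 := by rw [← hxy]; exact 𝔮.mul_mem_right _ hx
  have hπ𝔮 : π ∈ 𝔮 := by
    rcases h𝔮.mem_or_mem h1 with h' | h'
    · exact h𝔮.mem_of_pow_mem m h'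
    · exact absurd (Ideal.eq_top_of_isUnit_mem _ h' hr) h𝔮.ne_top
  have hle : P0 ≤ 𝔮 := by
    rw [h.P0_eq hπ0 hinf, Ideal.span_le]
    rintro z (rfl | rfl)
    · exact hx
    · exact hπ𝔮
  have hP0ne : P0 ≠ ⊥ := fun hb => hπne (by rw [hb] at hπ0; exact hπ0)
  exact hne (eq_of_le_of_height_eq_one hle hP0ne hh).symm

/-- **(D)** at a node `x y = π^m r`, an element of the fraction field which is a unit at every
prime of height one other than `P0` is `x^k · v`, `k : ℤ`, `v` a unit of `R`. -/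
theorem IsNodePair.exists_zpow_mul_unit (h : IsNodePair P0 Pinf x y) [P0.IsPrime] [hPinf : Pinf.IsPrime]
    (hπ0 : π ∈ P0) (hinf : P0 ⊓ Pinf ≤ Ideal.span {π})
    (hxy : x * y = π ^ m * r) (hr : IsUnit r) (hm : 1 ≤ m) {g : K} (hg : g ≠ 0)
    (hunit : ∀ 𝔮 : Ideal R, 𝔮.IsPrime → 𝔮.height = 1 → 𝔮 ≠ P0 → IsUnitAtPrime 𝔮 g) :
    ∃ (k : ℤ) (v : Rˣ), g = algebraMap R K x ^ k * algebraMap R K (v : R) := by
  classical
  have hx0 : x ≠ 0 := fun h0 => h.x_notMem (h0 ▸ Pinf.zero_mem)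
  have hy0 : y ≠ 0 := fun h0 => h.y_notMem (h0 ▸ P0.zero_mem)
  have hπne : π ≠ 0 := by
    rintro rfl
    have : x * y = 0 := by rw [hxy, zero_pow (by omega), zero_mul]
    rcases mul_eq_zero.mp this with h' | h'
    · exact hx0 h'
    · exact hy0 h'
  have hinjK : Function.Injective (algebraMap R K) := IsFractionRing.injective R K
  have hxK : algebraMap R K x ≠ 0 := fun h' => hx0 (hinjK (by rw [h', map_zero]))
  have hyK : algebraMap R K y ≠ 0 := fun h' => hy0 (hinjK (by rw [h', map_zero]))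
  have hπK : algebraMap R K π ≠ 0 := fun h' => hπne (hinjK (by rw [h', map_zero]))
  have hr0 : r ≠ 0 := hr.ne_zero
  have hrK : algebraMap R K r ≠ 0 := fun h' => hr0 (hinjK (by rw [h', map_zero]))
  have hrP0 : r ∉ P0 := fun h' => (‹P0.IsPrime›).ne_top (Ideal.eq_top_of_isUnit_mem _ h' hr)
  -- `g = π^c · (unit at P0)`
  obtain ⟨n, d, hd, rfl⟩ := IsFractionRing.div_surjective (A := R) g
  have hd0 : d ≠ 0 := nonZeroDivisors.ne_zero hd
  have hn0 : n ≠ 0 := by
    rintro rfl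
    simp at hg
  have hloc := h.locally_principal_P0 hinf
  obtain ⟨c₁, r₁, s₁, hr₁, hs₁, e₁⟩ := exists_pow_mul_eq_of_locally_principal P0 hπ0 hloc hn0
  obtain ⟨c₂, r₂, s₂, hr₂, hs₂, e₂⟩ := exists_pow_mul_eq_of_locally_principal P0 hπ0 hloc hd0
  set c : ℤ := (c₁ : ℤ) - (c₂ : ℤ) with hc
  set G : K := algebraMap R K n / algebraMap R K d with hG
  have hs₁K : algebraMap R K s₁ ≠ 0 := fun h' => hs₁ (by
    rw [hinjK (by rw [h', map_zero] : algebraMap R K s₁ = algebraMap R K 0)]; exact P0.zero_mem)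
  have hs₂K : algebraMap R K s₂ ≠ 0 := fun h' => hs₂ (by
    rw [hinjK (by rw [h', map_zero] : algebraMap R K s₂ = algebraMap R K 0)]; exact P0.zero_mem)
  have hr₂K : algebraMap R K r₂ ≠ 0 := fun h' => hr₂ (by
    rw [hinjK (by rw [h', map_zero] : algebraMap R K r₂ = algebraMap R K 0)]; exact P0.zero_mem)
  have hdK : algebraMap R K d ≠ 0 := fun h' => hd0 (hinjK (by rw [h', map_zero]))
  -- the unit at `P0`
  set u₀ : K := (algebraMap R K r₁ * algebraMap R K s₂) / (algebraMap R K s₁ * algebraMap R K r₂)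
    with hu₀
  have hu₀unit : IsUnitAtPrime P0 u₀ :=
    ((isUnitAtPrime_algebraMap hr₁).mul (isUnitAtPrime_algebraMap hs₂)).div
      ((isUnitAtPrime_algebraMap hs₁).mul (isUnitAtPrime_algebraMap hr₂))
  have hGeq : G = algebraMap R K π ^ c * u₀ := by
    have e₁K : algebraMap R K n * algebraMap R K s₁ = algebraMap R K π ^ c₁ * algebraMap R K r₁ := by
      rw [← map_mul, e₁, map_mul, map_pow]
    have e₂K : algebraMap R K d * algebraMap R K s₂ = algebraMap R K π ^ c₂ * algebraMap R K r₂ := by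
      rw [← map_mul, e₂, map_mul, map_pow]
    have hn' : algebraMap R K n = algebraMap R K π ^ c₁ * algebraMap R K r₁ / algebraMap R K s₁ := by
      rw [← e₁K]; field_simp
    have hd' : algebraMap R K d = algebraMap R K π ^ c₂ * algebraMap R K r₂ / algebraMap R K s₂ := by
      rw [← e₂K]; field_simp
    rw [hG, hn', hd', hc, zpow_sub₀ hπK, zpow_natCast, zpow_natCast, hu₀]
    field_simp
  -- `x = π^m · (r / y)`
  set w : K := algebraMap R K r / algebraMap R K y with hw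
  have hwunit : IsUnitAtPrime P0 w :=
    (isUnitAtPrime_algebraMap hrP0).div (isUnitAtPrime_algebraMap h.y_notMem)
  have hxeq : algebraMap R K x = algebraMap R K π ^ m * w := by
    have : algebraMap R K x * algebraMap R K y = algebraMap R K π ^ m * algebraMap R K r := by
      rw [← map_mul, hxy, map_mul, map_pow]
    rw [hw]
    field_simp
    exact this
  -- `G^m / x^c` is a unit at every prime of height one
  set T : K := G ^ m * (algebraMap R K x ^ c)⁻¹ with hT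
  have hTeq : T = u₀ ^ m * (w ^ c)⁻¹ := by
    rw [hT, hGeq, hxeq, mul_pow, mul_zpow, ← zpow_natCast (algebraMap R K π ^ c) m, ← zpow_mul,
      ← zpow_natCast (algebraMap R K π) m, ← zpow_mul, mul_comm c (m : ℤ)]
    have hπc : algebraMap R K π ^ ((m : ℤ) * c) ≠ 0 := zpow_ne_zero _ hπK
    have hwc : w ^ c ≠ 0 := zpow_ne_zero _ (hwunit.ne_zero)
    field_simp
  have hT0 : T ≠ 0 := by
    rw [hT]
    exact mul_ne_zero (pow_ne_zero _ hg) (inv_ne_zero (zpow_ne_zero _ hxK))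
  have hTunit : ∀ 𝔮 : Ideal R, 𝔮.IsPrime → 𝔮.height = 1 → IsUnitAtPrime 𝔮 T := by
    intro 𝔮 h𝔮 hh
    by_cases hq : 𝔮 = P0
    · subst hq
      rw [hTeq]
      exact (hu₀unit.pow m).mul (hwunit.zpow c).inv
    · rw [hT]
      have hxq : x ∉ 𝔮 := h.x_notMem_of_height_one hπ0 hinf hπne hxy hr 𝔮 hh hq
      exact ((hunit 𝔮 h𝔮 hh hq).pow m).mul ((isUnitAtPrime_algebraMap hxq).zpow c).inv
  obtain ⟨v, hv⟩ := exists_unit_of_forall_height_one (R := R) T hT0 hTunit
  -- `G^m = x^c v`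
  have hGm : G ^ m = algebraMap R K x ^ c * algebraMap R K (v : R) := by
    rw [hv, hT]
    field_simp
  -- euclidean division `c = m k + ρ`
  have hmZ : (m : ℤ) ≠ 0 := by omega
  set k : ℤ := c / (m : ℤ) with hk
  set ρ : ℤ := c % (m : ℤ) with hρ
  have hρ0 : 0 ≤ ρ := Int.emod_nonneg c hmZ
  have hρm : ρ < m := Int.emod_lt_of_pos c (by omega)
  have hcdiv : c = (m : ℤ) * k + ρ := (Int.mul_ediv_add_emod c m).symm
  obtain ⟨ρn, hρn⟩ := Int.eq_ofNat_of_zero_le hρ0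
  -- `g' = G / x^k` satisfies `g'^m = x^ρ v`
  set g' : K := G * (algebraMap R K x ^ k)⁻¹ with hg'
  have hg'm : g' ^ m = algebraMap R K (x ^ ρn * (v : R)) := by
    rw [hg', mul_pow, hGm, hcdiv, zpow_add₀ hxK, hρn, zpow_natCast, map_mul, map_pow, inv_pow,
      ← zpow_natCast (algebraMap R K x ^ k) m, ← zpow_mul, mul_comm k (m : ℤ)]
    have : algebraMap R K x ^ ((m : ℤ) * k) ≠ 0 := zpow_ne_zero _ hxK
    field_simp
  -- `g'` is integral, hence in `R`
  have hg'int : IsIntegral R g' := by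
    refine ⟨Polynomial.X ^ m - Polynomial.C (x ^ ρn * (v : R)), ?_, ?_⟩
    · exact Polynomial.monic_X_pow_sub_C _ (by omega)
    · simp [hg'm]
  obtain ⟨g₀, hg₀⟩ := IsIntegrallyClosed.algebraMap_eq_of_integral hg'int
  have hg₀m : g₀ ^ m = x ^ ρn * (v : R) := by
    apply hinjK
    rw [map_pow, hg₀, hg'm]
  -- `ρ = 0`
  have hρn0 : ρn = 0 := by
    by_contra hpos
    have hρpos : 0 < ρn := Nat.pos_of_ne_zero hpos
    have hρlt : ρn < m := by omega
    have hxm : x ∈ maximalIdeal R := le_maximalIdeal (‹P0.IsPrime›).ne_top h.x_mem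
    have hg₀m' : g₀ ∈ maximalIdeal R := by
      by_contra hnm
      have hu : IsUnit g₀ := by
        by_contra hnu
        exact hnm ((IsLocalRing.mem_maximalIdeal _).mpr hnu)
      have : IsUnit (x ^ ρn * (v : R)) := by rw [← hg₀m]; exact hu.pow m
      have hxu : IsUnit (x ^ ρn) := (IsUnit.mul_iff.mp this).1
      have : IsUnit x := (isUnit_pow_iff hpos).mp hxu
      exact ((IsLocalRing.mem_maximalIdeal _).mp hxm) this
    obtain ⟨a, ha⟩ := h.x_gen g₀ hg₀m'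
    -- `g₀^m ≡ a^m x^m mod Pinf`
    have h1 : g₀ ^ m - (a * x) ^ m ∈ Pinf := by
      have := sub_dvd_pow_sub_pow g₀ (a * x) m
      obtain ⟨t, ht⟩ := this
      rw [ht]
      exact Pinf.mul_mem_right _ ha
    have h2 : x ^ ρn * ((v : R) - a ^ m * x ^ (m - ρn)) ∈ Pinf := by
      have : x ^ ρn * ((v : R) - a ^ m * x ^ (m - ρn)) = g₀ ^ m - (a * x) ^ m := by
        rw [hg₀m, mul_pow]
        have : x ^ m = x ^ ρn * x ^ (m - ρn) := by rw [← pow_add]; congr 1; omega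
        rw [this]; ring
      rw [this]; exact h1
    have h3 : (v : R) - a ^ m * x ^ (m - ρn) ∈ Pinf := by
      rcases hPinf.mem_or_mem h2 with h' | h'
      · exact absurd (hPinf.mem_of_pow_mem _ h') h.x_notMem
      · exact h'
    have h4 : (v : R) ∈ maximalIdeal R := by
      have h5 : a ^ m * x ^ (m - ρn) ∈ maximalIdeal R :=
        Ideal.mul_mem_left _ _ (Ideal.pow_mem_of_mem _ hxm _ (by omega))
      have := (maximalIdeal R).add_mem (le_maximalIdeal hPinf.ne_top h3) h5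
      simp at this
    exact ((IsLocalRing.mem_maximalIdeal _).mp h4) v.isUnit
  -- conclusion
  have hg₀u : IsUnit g₀ := by
    have : IsUnit (g₀ ^ m) := by rw [hg₀m, hρn0, pow_zero, one_mul]; exact v.isUnit
    exact (isUnit_pow_iff (by omega)).mp this
  obtain ⟨v', hv'⟩ := hg₀u
  refine ⟨k, v', ?_⟩
  rw [hv', hg₀, hg']
  have : algebraMap R K x ^ k ≠ 0 := zpow_ne_zero _ hxK
  field_simp

end NodeDiv

end Fermat.Agent.SS
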