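/-
(SS-q) — helper5 — **SS-NODEALG, part 1: rational points through a node.**

`R` is the local ring of the normal model at a node `𝔫` of the special fibre, in the normal form
produced by `IsNodePair.exists_normal_form` (helper8): `𝔪 = (x, y, π)`, `x y = π^m r`, `r` a unit.
`R₁` is the base discrete valuation ring with uniformizer `ϖ`, `π = algebraMap R₁ R ϖ`.
A `K₁`-rational place centred at `𝔫` is a retraction `P : R →ₐ[R₁] R₁`; put `ξ = P x`, `η = P y`.

* `ker_retraction_eq` : `ker P = (x − ξ, y − η)`.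
* `exists_notMem_ker_mul_mem` : `x − ξ` generates `ker P` locally at `ker P`
  (`∃ s ∉ ker P, s (y − η) ∈ (x − ξ)`), i.e. `x − ξ` is a uniformizer at the place.
* `eq_ker_of_sub_mem` : a prime `𝔮` of `R` with `π ∉ 𝔮` and `x − ξ ∈ 𝔮` is `ker P`: the
  function `x − ξ` vanishes at no other horizontal prime through the node. Pure algebra: no
  valuations, no henselianity of the base.
-/
import Mathlib
import Fermat.Agent.SS.K1_helper3
import Fermat.Agent.SS.REG_helper8_Node

set_option autoImplicit false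
set_option linter.unusedSectionVars false
set_option linter.style.haveILetI false

namespace Fermat.Agent.SS

open IsLocalRing

section Retraction

variable {R₁ : Type*} [CommRing R₁] [IsLocalRing R₁]
variable {R : Type*} [CommRing R] [IsLocalRing R] [Algebra R₁ R]

/-- a retraction of local rings is a local homomorphism. -/
theorem retraction_mem_maximalIdeal (P : R →ₐ[R₁] R₁) {z : R} (hz : z ∈ maximalIdeal R) :
    P z ∈ maximalIdeal R₁ := by
  have hsurj : Function.Surjective P := fun a => ⟨algebraMap R₁ R a, by simp⟩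
  have hmax : (Ideal.comap (P : R →+* R₁) (maximalIdeal R₁)).IsMaximal :=
    Ideal.comap_isMaximal_of_surjective (P : R →+* R₁) hsurj
  have := IsLocalRing.eq_maximalIdeal hmax
  have hz' : z ∈ Ideal.comap (P : R →+* R₁) (maximalIdeal R₁) := by rw [this]; exact hz
  exact hz'

/-- the structure map of a retraction is local. -/
theorem algebraMap_mem_maximalIdeal_of_retraction (P : R →ₐ[R₁] R₁) {a : R₁}
    (ha : a ∈ maximalIdeal R₁) : algebraMap R₁ R a ∈ maximalIdeal R := by
  by_contra h
  have hu : IsUnit (algebraMap R₁ R a) := by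
    by_contra hnu
    exact h ((IsLocalRing.mem_maximalIdeal _).mpr hnu)
  have : IsUnit (P (algebraMap R₁ R a)) := hu.map P
  rw [AlgHom.commutes] at this
  exact ((IsLocalRing.mem_maximalIdeal _).mp ha) this

/-- `z − P z ∈ ker P`. -/
theorem sub_algebraMap_mem_ker (P : R →ₐ[R₁] R₁) (z : R) :
    z - algebraMap R₁ R (P z) ∈ RingHom.ker (P : R →+* R₁) := by
  rw [RingHom.mem_ker]
  simp

end Retraction

section NodePoint

variable {R₁ : Type*} [CommRing R₁] [IsDomain R₁] [IsDiscreteValuationRing R₁]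
variable {R : Type*} [CommRing R] [IsDomain R] [IsLocalRing R] [IsNoetherianRing R] [Algebra R₁ R]

/-- **(B1)** the kernel of a rational point through the node is `(x − ξ, y − η)`. -/
theorem ker_retraction_eq {ϖ : R₁} (hϖ : Irreducible ϖ) {x y : R}
    (hmax : maximalIdeal R = Ideal.span {x, y, algebraMap R₁ R ϖ}) (P : R →ₐ[R₁] R₁) :
    RingHom.ker (P : R →+* R₁) =
      Ideal.span {x - algebraMap R₁ R (P x), y - algebraMap R₁ R (P y)} := by
  set π : R := algebraMap R₁ R ϖ with hπ
  set I : Ideal R := Ideal.span {x - algebraMap R₁ R (P x), y - algebraMap R₁ R (P y)} with hI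
  have hxm : x ∈ maximalIdeal R := by rw [hmax]; exact Ideal.subset_span (by simp)
  have hym : y ∈ maximalIdeal R := by rw [hmax]; exact Ideal.subset_span (by simp)
  have hm1 : maximalIdeal R₁ = Ideal.span {ϖ} := hϖ.maximalIdeal_eq
  obtain ⟨ξ₁, hξ₁⟩ : ∃ ξ₁, P x = ϖ * ξ₁ := by
    have := retraction_mem_maximalIdeal P hxm
    rw [hm1, Ideal.mem_span_singleton] at this
    exact this
  obtain ⟨η₁, hη₁⟩ : ∃ η₁, P y = ϖ * η₁ := by
    have := retraction_mem_maximalIdeal P hym
    rw [hm1, Ideal.mem_span_singleton] at this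
    exact this
  have hIle : I ≤ RingHom.ker (P : R →+* R₁) := by
    rw [hI, Ideal.span_le]
    rintro z (rfl | rfl)
    · exact sub_algebraMap_mem_ker P x
    · exact sub_algebraMap_mem_ker P y
  apply le_antisymm _ hIle
  -- Nakayama
  have hfg : (RingHom.ker (P : R →+* R₁)).FG := IsNoetherian.noetherian _
  have hjac : maximalIdeal R ≤ Ideal.jacobson (⊥ : Ideal R) := by
    rw [IsLocalRing.jacobson_eq_maximalIdeal ⊥ bot_ne_top]
  refine Submodule.le_of_le_smul_of_le_jacobson_bot hfg hjac ?_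
  intro z hz
  have hzP : P z = 0 := by simpa [RingHom.mem_ker] using hz
  have hzm : z ∈ maximalIdeal R := by
    by_contra h
    have hu : IsUnit z := by
      by_contra hnu
      exact h ((IsLocalRing.mem_maximalIdeal _).mpr hnu)
    have := hu.map P
    rw [hzP] at this
    exact not_isUnit_zero this
  rw [hmax] at hzm
  obtain ⟨a, b, c, habc⟩ := Submodule.mem_span_triple.mp hzm
  simp only [smul_eq_mul] at habc
  -- z = a (x - ξ) + b (y - η) + π c'
  set c' : R := a * algebraMap R₁ R ξ₁ + b * algebraMap R₁ R η₁ + c with hc'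
  have hz_eq : z = (a * (x - algebraMap R₁ R (P x)) + b * (y - algebraMap R₁ R (P y))) + π * c' := by
    rw [hξ₁, hη₁, map_mul, map_mul, hc', ← habc]
    ring
  have hPc' : P c' = 0 := by
    have h1 : P z = ϖ * P c' := by
      conv_lhs => rw [hz_eq]
      simp [hπ]
    rw [hzP] at h1
    rcases mul_eq_zero.mp h1.symm with h | h
    · exact absurd h hϖ.ne_zero
    · exact h
  have hc'ker : c' ∈ RingHom.ker (P : R →+* R₁) := by
    rw [RingHom.mem_ker]; exact hPc'
  rw [hz_eq]
  refine Submodule.add_mem_sup ?_ ?_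
  · refine I.add_mem (I.mul_mem_left _ (Ideal.subset_span (by simp)))
      (I.mul_mem_left _ (Ideal.subset_span (by simp)))
  · have hπm : π ∈ maximalIdeal R := by rw [hmax]; exact Ideal.subset_span (by simp)
    exact Submodule.smul_mem_smul hπm hc'ker

/-- the basic identity at a rational point of a node `x y = π^m r`:
`(x − ξ)(y − π^m α) = (y − η)(π^m β − ξ)` where `r − P r = α (x − ξ) + β (y − η)`. -/
theorem exists_node_point_identity {ϖ : R₁} (hϖ : Irreducible ϖ) {x y r : R} {m : ℕ}
    (hmax : maximalIdeal R = Ideal.span {x, y, algebraMap R₁ R ϖ})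
    (hxy : x * y = algebraMap R₁ R ϖ ^ m * r) (P : R →ₐ[R₁] R₁) :
    ∃ α β : R, r - algebraMap R₁ R (P r) =
        α * (x - algebraMap R₁ R (P x)) + β * (y - algebraMap R₁ R (P y)) ∧
      (x - algebraMap R₁ R (P x)) * (y - algebraMap R₁ R ϖ ^ m * α) =
        (y - algebraMap R₁ R (P y)) * (algebraMap R₁ R ϖ ^ m * β - algebraMap R₁ R (P x)) := by
  have hker := ker_retraction_eq hϖ hmax P
  have hmem : r - algebraMap R₁ R (P r) ∈ RingHom.ker (P : R →+* R₁) := sub_algebraMap_mem_ker P r
  rw [hker, Ideal.mem_span_pair] at hmem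
  obtain ⟨α, β, hαβ⟩ := hmem
  refine ⟨α, β, hαβ.symm, ?_⟩
  have hP : P x * P y = ϖ ^ m * P r := by
    have := congrArg P hxy
    simpa using this
  have hP' : algebraMap R₁ R (P x) * algebraMap R₁ R (P y) =
      algebraMap R₁ R ϖ ^ m * algebraMap R₁ R (P r) := by
    rw [← map_mul, hP, map_mul, map_pow]
  linear_combination hxy - hP' - (algebraMap R₁ R ϖ ^ m) * hαβ

/-- **(B2)** `x − ξ` generates `ker P` locally at `ker P`: `x − ξ` is a uniformizer at the rational
place `P` through the node. -/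
theorem exists_notMem_ker_mul_mem {ϖ : R₁} (hϖ : Irreducible ϖ) {x y r : R} {m : ℕ}
    (hmax : maximalIdeal R = Ideal.span {x, y, algebraMap R₁ R ϖ})
    (hxy : x * y = algebraMap R₁ R ϖ ^ m * r) (hr : IsUnit r) (P : R →ₐ[R₁] R₁) :
    ∃ s : R, s ∉ RingHom.ker (P : R →+* R₁) ∧
      s * (y - algebraMap R₁ R (P y)) ∈ Ideal.span {x - algebraMap R₁ R (P x)} := by
  obtain ⟨α, β, -, hid⟩ := exists_node_point_identity hϖ hmax hxy P
  refine ⟨algebraMap R₁ R ϖ ^ m * β - algebraMap R₁ R (P x), ?_, ?_⟩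
  · intro hs
    rw [RingHom.mem_ker] at hs
    have hs' : ϖ ^ m * P β = P x := by
      have : P (algebraMap R₁ R ϖ ^ m * β - algebraMap R₁ R (P x)) = 0 := hs
      simp only [map_sub, map_mul, map_pow, AlgHom.commutes] at this
      exact sub_eq_zero.mp this
    have hP : P x * P y = ϖ ^ m * P r := by
      have := congrArg P hxy
      simpa using this
    rw [← hs', mul_assoc] at hP
    have h2 : P β * P y = P r := mul_left_cancel₀ (pow_ne_zero m hϖ.ne_zero) hP
    have hym : y ∈ maximalIdeal R := by rw [hmax]; exact Ideal.subset_span (by simp)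
    have h3 : P β * P y ∈ maximalIdeal R₁ :=
      Ideal.mul_mem_left _ _ (retraction_mem_maximalIdeal P hym)
    rw [h2] at h3
    exact ((IsLocalRing.mem_maximalIdeal _).mp h3) (hr.map P)
  · rw [Ideal.mem_span_singleton]
    exact ⟨y - algebraMap R₁ R ϖ ^ m * α, by rw [hid]; ring⟩

/-- **(C)** a prime `𝔮` of `R` not containing `π` and containing `x − ξ` is the kernel of `P`:
the function `x − ξ` vanishes at no other horizontal prime through the node. -/
theorem eq_ker_of_sub_mem {ϖ : R₁} (hϖ : Irreducible ϖ) {x y r : R} {m : ℕ}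
    (hmax : maximalIdeal R = Ideal.span {x, y, algebraMap R₁ R ϖ})
    (hxy : x * y = algebraMap R₁ R ϖ ^ m * r) (hr : IsUnit r) (P : R →ₐ[R₁] R₁)
    (𝔮 : Ideal R) [h𝔮 : 𝔮.IsPrime] (hπ𝔮 : algebraMap R₁ R ϖ ∉ 𝔮)
    (hx𝔮 : x - algebraMap R₁ R (P x) ∈ 𝔮) : 𝔮 = RingHom.ker (P : R →+* R₁) := by
  obtain ⟨α, β, -, hid⟩ := exists_node_point_identity hϖ hmax hxy P
  have hym : y ∈ maximalIdeal R := by rw [hmax]; exact Ideal.subset_span (by simp)
  have hP : P x * P y = ϖ ^ m * P r := by
    have := congrArg P hxy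
    simpa using this
  have hP' : algebraMap R₁ R (P x) * algebraMap R₁ R (P y) =
      algebraMap R₁ R ϖ ^ m * algebraMap R₁ R (P r) := by
    rw [← map_mul, hP, map_mul, map_pow]
  -- `y − η ∈ 𝔮`
  have hy𝔮 : y - algebraMap R₁ R (P y) ∈ 𝔮 := by
    have h1 : (y - algebraMap R₁ R (P y)) *
        (algebraMap R₁ R ϖ ^ m * β - algebraMap R₁ R (P x)) ∈ 𝔮 := by
      rw [← hid]; exact 𝔮.mul_mem_right _ hx𝔮
    rcases h𝔮.mem_or_mem h1 with h | h
    · exact h
    · exfalso
      -- `π^m (ρ − β η) ∈ 𝔮`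
      have h2 : algebraMap R₁ R ϖ ^ m *
          (algebraMap R₁ R (P r) - β * algebraMap R₁ R (P y)) ∈ 𝔮 := by
        have : algebraMap R₁ R ϖ ^ m * (algebraMap R₁ R (P r) - β * algebraMap R₁ R (P y)) =
            -(algebraMap R₁ R ϖ ^ m * β - algebraMap R₁ R (P x)) * algebraMap R₁ R (P y) := by
          linear_combination -hP'
        rw [this]
        exact 𝔮.mul_mem_right _ (𝔮.neg_mem h)
      have h3 : algebraMap R₁ R (P r) - β * algebraMap R₁ R (P y) ∈ 𝔮 := by
        rcases h𝔮.mem_or_mem h2 with h' | h'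
        · exact absurd (h𝔮.mem_of_pow_mem m h') hπ𝔮
        · exact h'
      -- but it is a unit
      have hηm : algebraMap R₁ R (P y) ∈ maximalIdeal R :=
        algebraMap_mem_maximalIdeal_of_retraction P (retraction_mem_maximalIdeal P hym)
      have hu : IsUnit (algebraMap R₁ R (P r) - β * algebraMap R₁ R (P y)) := by
        by_contra hnu
        have hm : algebraMap R₁ R (P r) - β * algebraMap R₁ R (P y) ∈ maximalIdeal R :=
          (IsLocalRing.mem_maximalIdeal _).mpr hnu
        have : algebraMap R₁ R (P r) ∈ maximalIdeal R := by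
          have h4 := (maximalIdeal R).add_mem hm ((maximalIdeal R).mul_mem_left β hηm)
          simpa using h4
        exact ((IsLocalRing.mem_maximalIdeal _).mp this) ((hr.map P).map (algebraMap R₁ R))
      exact h𝔮.ne_top (Ideal.eq_top_of_isUnit_mem _ h3 hu)
  have hker := ker_retraction_eq hϖ hmax P
  have hle : RingHom.ker (P : R →+* R₁) ≤ 𝔮 := by
    rw [hker, Ideal.span_le]
    rintro z (rfl | rfl)
    · exact hx𝔮
    · exact hy𝔮
  apply le_antisymm _ hle
  intro z hz
  rw [RingHom.mem_ker]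
  change P z = 0
  by_contra hPz
  have h1 : algebraMap R₁ R (P z) ∈ 𝔮 := by
    have := 𝔮.sub_mem hz (hle (sub_algebraMap_mem_ker P z))
    simpa using this
  obtain ⟨n, u, hu⟩ := IsDiscreteValuationRing.eq_unit_mul_pow_irreducible hPz hϖ
  rw [hu, map_mul, map_pow] at h1
  rcases h𝔮.mem_or_mem h1 with h | h
  · exact h𝔮.ne_top (Ideal.eq_top_of_isUnit_mem _ h (u.isUnit.map (algebraMap R₁ R)))
  · exact hπ𝔮 (h𝔮.mem_of_pow_mem n h)

end NodePoint

end Fermat.Agent.SS
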