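/-
(SS-q) — helper5 — **SS-NODEALG, part 3: the local Kummer factorisation at a node.**

`R` the local ring of the normal model at a node in normal form `x y = π^m r` (`IsNodePair`),
`R₁` the base DVR, `K = Frac R`. Let `f ∈ K^×` be such that

* its horizontal divisor through the node is `N · Σ e_i [P_i]` for rational points `P_i`
  (retractions `R →ₐ[R₁] R₁`): `f / ∏ (x − P_i x)^(N e_i)` is a unit at every prime of height one
  other than the two branches `P0`, `Pinf`;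
* `f` is a unit at the branch `Pinf` and its reduction in `Frac (R ⧸ Pinf)` is an `N`-th power.

Then `f = γ^N · v` with `v ∈ Rˣ` (`IsNodePair.exists_kummer_factorisation`): the Kummer extension
`K(f^{1/N})` is unramified (indeed split, when the residue field is algebraically closed of
characteristic prime to `N`) at the node.
-/
import Mathlib
import Fermat.Agent.SS.NODEALG_helper5_Point
import Fermat.Agent.SS.NODEALG_helper5_Div

set_option autoImplicit false
set_option linter.unusedSectionVars false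
set_option linter.style.haveILetI false

namespace Fermat.Agent.SS

open IsLocalRing

section DvrLike

variable {B : Type*} [CommRing B] [IsDomain B] [IsLocalRing B] [IsNoetherianRing B]

/-- in a noetherian local domain with principal maximal ideal `(t)`, every nonzero element is
`t^i ·` unit. -/
theorem exists_pow_mul_unit_of_maximalIdeal_eq_span {t : B}
    (ht : maximalIdeal B = Ideal.span {t}) {b : B} (hb : b ≠ 0) :
    ∃ (i : ℕ) (u : Bˣ), b = t ^ i * (u : B) := by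
  have htm : t ∈ maximalIdeal B := by rw [ht]; exact Ideal.mem_span_singleton_self t
  have hloc : ∀ z ∈ maximalIdeal B, ∃ s : B, s ∉ maximalIdeal B ∧ t ∣ s * z := by
    intro z hz
    refine ⟨1, fun h => (Ideal.IsPrime.ne_top inferInstance) ((Ideal.eq_top_iff_one _).mpr h), ?_⟩
    rw [ht, Ideal.mem_span_singleton] at hz
    simpa using hz
  obtain ⟨c, r, s, hr, hs, e⟩ := exists_pow_mul_eq_of_locally_principal (maximalIdeal B) htm hloc hb
  have hru : IsUnit r := by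
    by_contra h; exact hr ((IsLocalRing.mem_maximalIdeal _).mpr h)
  have hsu : IsUnit s := by
    by_contra h; exact hs ((IsLocalRing.mem_maximalIdeal _).mpr h)
  obtain ⟨ru, rfl⟩ := hru
  obtain ⟨su, rfl⟩ := hsu
  refine ⟨c, ru * su⁻¹, ?_⟩
  have : b = b * (su : B) * ((su⁻¹ : Bˣ) : B) := by
    rw [mul_assoc, Units.mul_inv, mul_one]
  rw [this, e, Units.val_mul]; ring

/-- the exponent in `t^i · unit` is unique. -/
theorem pow_mul_unit_exponent_unique {t : B} (ht0 : t ≠ 0) (htu : ¬ IsUnit t) {i j : ℕ} {u u' : Bˣ}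
    (h : t ^ i * (u : B) = t ^ j * (u' : B)) : i = j := by
  wlog hij : i ≤ j generalizing i j u u'
  · exact (this h.symm (by omega)).symm
  by_contra hne
  have hlt : i < j := lt_of_le_of_ne hij hne
  obtain ⟨d, rfl⟩ : ∃ d, j = i + (d + 1) := ⟨j - i - 1, by omega⟩
  rw [pow_add, mul_assoc] at h
  have h2 : (u : B) = t ^ (d + 1) * (u' : B) := mul_left_cancel₀ (pow_ne_zero i ht0) h
  have h3 : IsUnit (t ^ (d + 1) * (u' : B)) := h2 ▸ u.isUnit
  have h4 : IsUnit (t ^ (d + 1)) := (IsUnit.mul_iff.mp h3).1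
  exact htu ((isUnit_pow_iff (by omega)).mp h4)

/-- `t^ρ · unit` is an `N`-th power of a ratio only if `N ∣ ρ`. -/
theorem dvd_of_pow_eq_pow_mul_unit_mul_pow {t : B} (ht : maximalIdeal B = Ideal.span {t})
    (ht0 : t ≠ 0) {N ρ : ℕ} {C D : B} (hC : C ≠ 0) (hD : D ≠ 0) (v : Bˣ)
    (h : C ^ N = t ^ ρ * (v : B) * D ^ N) : N ∣ ρ := by
  have htu : ¬ IsUnit t := by
    have : t ∈ maximalIdeal B := by rw [ht]; exact Ideal.mem_span_singleton_self t
    exact (IsLocalRing.mem_maximalIdeal _).mp this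
  obtain ⟨i, u, rfl⟩ := exists_pow_mul_unit_of_maximalIdeal_eq_span ht hC
  obtain ⟨j, u', rfl⟩ := exists_pow_mul_unit_of_maximalIdeal_eq_span ht hD
  have h' : t ^ (N * i) * ((u ^ N : Bˣ) : B) = t ^ (ρ + N * j) * ((v * u' ^ N : Bˣ) : B) := by
    rw [Units.val_pow_eq_pow_val, Units.val_mul, Units.val_pow_eq_pow_val, pow_mul, pow_add, pow_mul]
    rw [mul_pow, mul_pow, ← pow_mul, ← pow_mul, mul_comm i N, mul_comm j N, pow_mul, pow_mul] at h
    rw [h]; ring
  have := pow_mul_unit_exponent_unique ht0 htu h'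
  exact ⟨i - j, by rw [Nat.mul_sub]; omega⟩

end DvrLike

section UnitAtProd

variable {R : Type*} [CommRing R] [IsDomain R]
variable {K : Type*} [Field K] [Algebra R K] [IsFractionRing R K]

theorem isUnitAtPrime_prod {𝔮 : Ideal R} [𝔮.IsPrime] {ι : Type*} (S : Finset ι) (F : ι → K)
    (h : ∀ i ∈ S, IsUnitAtPrime 𝔮 (F i)) : IsUnitAtPrime 𝔮 (∏ i ∈ S, F i) := by
  classical
  induction S using Finset.induction with
  | empty => simpa using isUnitAtPrime_one
  | insert a s has ih =>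
    rw [Finset.prod_insert has]
    exact (h a (Finset.mem_insert_self a s)).mul
      (ih (fun i hi => h i (Finset.mem_insert_of_mem hi)))

end UnitAtProd

section Branch

variable {R : Type*} [CommRing R] [IsDomain R] [IsLocalRing R] [IsNoetherianRing R]
variable {P0 Pinf : Ideal R} {x y : R}

/-- the branch `R ⧸ Pinf` is local. -/
theorem isLocalRing_quotient_of_isPrime (I : Ideal R) [hI : I.IsPrime] : IsLocalRing (R ⧸ I) :=
  haveI : Nontrivial (R ⧸ I) := Ideal.Quotient.nontrivial_iff.mpr hI.ne_top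
  IsLocalRing.of_surjective' (Ideal.Quotient.mk I) Ideal.Quotient.mk_surjective

/-- the maximal ideal of the branch `R ⧸ Pinf` is generated by the image of `x`. -/
theorem IsNodePair.maximalIdeal_quotient_eq (h : IsNodePair P0 Pinf x y) [P0.IsPrime]
    [hPinf : Pinf.IsPrime] :
    haveI := isLocalRing_quotient_of_isPrime Pinf
    maximalIdeal (R ⧸ Pinf) = Ideal.span {Ideal.Quotient.mk Pinf x} := by
  haveI := isLocalRing_quotient_of_isPrime Pinf
  have hxm : x ∈ maximalIdeal R := le_maximalIdeal (‹P0.IsPrime›).ne_top h.x_mem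
  apply le_antisymm
  · intro z hz
    obtain ⟨z, rfl⟩ := Ideal.Quotient.mk_surjective z
    have hzm : z ∈ maximalIdeal R := by
      by_contra hnm
      have hu : IsUnit z := by
        by_contra hnu; exact hnm ((IsLocalRing.mem_maximalIdeal _).mpr hnu)
      exact ((IsLocalRing.mem_maximalIdeal _).mp hz) (hu.map (Ideal.Quotient.mk Pinf))
    obtain ⟨a, ha⟩ := h.x_gen z hzm
    rw [Ideal.mem_span_singleton]
    refine ⟨Ideal.Quotient.mk Pinf a, ?_⟩
    rw [← map_mul, mul_comm, ← sub_eq_zero, ← map_sub, Ideal.Quotient.eq_zero_iff_mem]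
    exact ha
  · rw [Ideal.span_le]
    rintro z rfl
    rw [SetLike.mem_coe, IsLocalRing.mem_maximalIdeal, mem_nonunits_iff]
    intro hu
    obtain ⟨w, hw⟩ := hu.exists_right_inv
    obtain ⟨w, rfl⟩ := Ideal.Quotient.mk_surjective w
    rw [← map_mul, ← map_one (Ideal.Quotient.mk Pinf), Ideal.Quotient.eq] at hw
    have h1 : x * w - 1 ∈ maximalIdeal R := le_maximalIdeal hPinf.ne_top hw
    have h2 : x * w ∈ maximalIdeal R := Ideal.mul_mem_right _ _ hxm
    have h3 : (1 : R) ∈ maximalIdeal R := by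
      have := (maximalIdeal R).sub_mem h2 h1
      simp at this
    exact (Ideal.IsPrime.ne_top inferInstance) ((Ideal.eq_top_iff_one _).mpr h3)

end Branch

section KummerNode

variable {R₁ : Type*} [CommRing R₁] [IsDomain R₁] [IsDiscreteValuationRing R₁]
variable {R : Type*} [CommRing R] [IsDomain R] [IsLocalRing R] [IsNoetherianRing R]
  [IsIntegrallyClosed R] [Algebra R₁ R]
variable {K : Type*} [Field K] [Algebra R K] [IsFractionRing R K]
variable {P0 Pinf : Ideal R} {x y r : R} {m : ℕ}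

/-- the value of a rational point at an element of the maximal ideal is divisible by `π`. -/
theorem algebraMap_retraction_mem_span {ϖ : R₁} (hϖ : Irreducible ϖ) (P : R →ₐ[R₁] R₁) {z : R}
    (hz : z ∈ maximalIdeal R) :
    algebraMap R₁ R (P z) ∈ Ideal.span {algebraMap R₁ R ϖ} := by
  have h1 := retraction_mem_maximalIdeal P hz
  rw [hϖ.maximalIdeal_eq, Ideal.mem_span_singleton] at h1
  obtain ⟨w, hw⟩ := h1
  rw [Ideal.mem_span_singleton]
  exact ⟨algebraMap R₁ R w, by rw [hw, map_mul]⟩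

/-- **(E) the local Kummer factorisation at a node.** -/
theorem IsNodePair.exists_kummer_factorisation (h : IsNodePair P0 Pinf x y) [hP0 : P0.IsPrime]
    [hPinf : Pinf.IsPrime] {ϖ : R₁} (hϖ : Irreducible ϖ)
    (hπ0 : algebraMap R₁ R ϖ ∈ P0) (hπinf : algebraMap R₁ R ϖ ∈ Pinf)
    (hinf : P0 ⊓ Pinf ≤ Ideal.span {algebraMap R₁ R ϖ})
    (hxy : x * y = algebraMap R₁ R ϖ ^ m * r) (hr : IsUnit r) (hm : 1 ≤ m)
    {N : ℕ} (hN : N ≠ 0) {f : K} (hf : f ≠ 0)
    {ι : Type*} (S : Finset ι) (P : ι → (R →ₐ[R₁] R₁)) (e : ι → ℤ)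
    (hhor : ∀ 𝔮 : Ideal R, 𝔮.IsPrime → 𝔮.height = 1 → 𝔮 ≠ P0 → 𝔮 ≠ Pinf →
      IsUnitAtPrime 𝔮
        (f * (∏ i ∈ S, algebraMap R K (x - algebraMap R₁ R (P i x)) ^ ((N : ℤ) * e i))⁻¹))
    (hpow : ∃ a b c d : R, a ∉ Pinf ∧ b ∉ Pinf ∧ c ∉ Pinf ∧ d ∉ Pinf ∧
      f * algebraMap R K b = algebraMap R K a ∧ a * d ^ N - b * c ^ N ∈ Pinf) :
    ∃ (γ : K) (v : Rˣ), f = γ ^ N * algebraMap R K (v : R) := by
  classical
  have hinjK : Function.Injective (algebraMap R K) := IsFractionRing.injective R K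
  have hxm : x ∈ maximalIdeal R := le_maximalIdeal hP0.ne_top h.x_mem
  have hx0 : x ≠ 0 := fun h0 => h.x_notMem (h0 ▸ Pinf.zero_mem)
  have hxK : algebraMap R K x ≠ 0 := fun h' => hx0 (hinjK (by rw [h', map_zero]))
  -- the linear factors
  have hξ : ∀ i, algebraMap R₁ R (P i x) ∈ Pinf := fun i =>
    (Ideal.span_le.mpr (by simpa using hπinf)) (algebraMap_retraction_mem_span hϖ (P i) hxm)
  have hxi : ∀ i, x - algebraMap R₁ R (P i x) ∉ Pinf := fun i hmem =>
    h.x_notMem (by have := Pinf.add_mem hmem (hξ i); simpa using this)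
  have hK0 : ∀ z : R, z ∉ Pinf → algebraMap R K z ≠ 0 := by
    intro z hz h'
    have : z = 0 := hinjK (by rw [h', map_zero])
    exact hz (this ▸ Pinf.zero_mem)
  set Pr : K := ∏ i ∈ S, algebraMap R K (x - algebraMap R₁ R (P i x)) ^ ((N : ℤ) * e i) with hPr
  have hPrunit : IsUnitAtPrime Pinf Pr :=
    isUnitAtPrime_prod S _ (fun i _ => (isUnitAtPrime_algebraMap (hxi i)).zpow _)
  have hPr0 : Pr ≠ 0 := hPrunit.ne_zero
  obtain ⟨a, b, c, d, ha, hb, hc, hd, hfab, hcong⟩ := hpow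
  have hfunit : IsUnitAtPrime Pinf f := ⟨a, b, ha, hb, hfab⟩
  -- apply (D) to `f / Pr`
  have hf₁0 : f * Pr⁻¹ ≠ 0 := mul_ne_zero hf (inv_ne_zero hPr0)
  have hf₁unit : ∀ 𝔮 : Ideal R, 𝔮.IsPrime → 𝔮.height = 1 → 𝔮 ≠ P0 → IsUnitAtPrime 𝔮 (f * Pr⁻¹) := by
    intro 𝔮 h𝔮 hh hne
    by_cases hq : 𝔮 = Pinf
    · subst hq; exact hfunit.mul hPrunit.inv
    · exact hhor 𝔮 h𝔮 hh hne hq
  obtain ⟨k, v, hkv⟩ := h.exists_zpow_mul_unit hπ0 hinf hxy hr hm hf₁0 hf₁unit
  -- euclidean division of `k` by `N`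
  have hNZ : (N : ℤ) ≠ 0 := by exact_mod_cast hN
  set k' : ℤ := k / (N : ℤ) with hk'
  set ρ : ℤ := k % (N : ℤ) with hρ
  have hρ0 : 0 ≤ ρ := Int.emod_nonneg k hNZ
  have hρN : ρ < N := Int.emod_lt_of_pos k (by omega)
  have hkdiv : k = (N : ℤ) * k' + ρ := (Int.mul_ediv_add_emod k N).symm
  obtain ⟨ρn, hρn⟩ := Int.eq_ofNat_of_zero_le hρ0
  set γ : K := algebraMap R K x ^ k' *
    ∏ i ∈ S, algebraMap R K (x - algebraMap R₁ R (P i x)) ^ (e i) with hγ
  have hγunit : IsUnitAtPrime Pinf γ :=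
    ((isUnitAtPrime_algebraMap h.x_notMem).zpow _).mul
      (isUnitAtPrime_prod S _ (fun i _ => (isUnitAtPrime_algebraMap (hxi i)).zpow _))
  have hPreq : Pr = (∏ i ∈ S, algebraMap R K (x - algebraMap R₁ R (P i x)) ^ (e i)) ^ N := by
    rw [hPr, ← Finset.prod_pow]
    refine Finset.prod_congr rfl (fun i _ => ?_)
    rw [← zpow_natCast, ← zpow_mul, mul_comm]
  have hfeq : f = algebraMap R K x ^ ρn * algebraMap R K (v : R) * γ ^ N := by
    have h1 : f = algebraMap R K x ^ k * algebraMap R K (v : R) * Pr := by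
      rw [← hkv]; field_simp
    rw [h1, hkdiv, zpow_add₀ hxK, hρn, zpow_natCast, hγ, mul_pow, hPreq,
      ← zpow_natCast (algebraMap R K x ^ k') N, ← zpow_mul, mul_comm k' (N : ℤ)]
    ring
  -- clear denominators of `γ`
  obtain ⟨γn, γd, hγn, hγd, hγe⟩ := hγunit
  have hγdK : algebraMap R K γd ≠ 0 := hK0 γd hγd
  have hbK : algebraMap R K b ≠ 0 := hK0 b hb
  have hRe : a * γd ^ N = x ^ ρn * (v : R) * γn ^ N * b := by
    apply hinjK
    simp only [map_mul, map_pow]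
    rw [← hfab, ← hγe, hfeq]
    ring
  -- reduce modulo `Pinf`
  haveI := isLocalRing_quotient_of_isPrime Pinf
  set q := Ideal.Quotient.mk Pinf with hq
  have hmaxB := h.maximalIdeal_quotient_eq
  have hne : ∀ z : R, z ∉ Pinf → q z ≠ 0 := fun z hz h' =>
    hz (Ideal.Quotient.eq_zero_iff_mem.mp h')
  have hcongB : q a * q d ^ N = q b * q c ^ N := by
    rw [← map_pow, ← map_pow, ← map_mul, ← map_mul, ← sub_eq_zero, ← map_sub]
    exact Ideal.Quotient.eq_zero_iff_mem.mpr hcong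
  have hReB : q a * q γd ^ N = q x ^ ρn * q (v : R) * q γn ^ N * q b := by
    have := congrArg q hRe
    simpa only [map_mul, map_pow] using this
  have hkey : (q c * q γd) ^ N = q x ^ ρn * q (v : R) * (q γn * q d) ^ N := by
    apply mul_left_cancel₀ (hne b hb)
    calc q b * (q c * q γd) ^ N = (q b * q c ^ N) * q γd ^ N := by ring
      _ = (q a * q d ^ N) * q γd ^ N := by rw [hcongB]
      _ = (q a * q γd ^ N) * q d ^ N := by ring
      _ = (q x ^ ρn * q (v : R) * q γn ^ N * q b) * q d ^ N := by rw [hReB]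
      _ = q b * (q x ^ ρn * q (v : R) * (q γn * q d) ^ N) := by ring
  have hdvd : N ∣ ρn := by
    have hvB : IsUnit (q (v : R)) := v.isUnit.map q
    obtain ⟨vB, hvB'⟩ := hvB
    rw [← hvB'] at hkey
    exact dvd_of_pow_eq_pow_mul_unit_mul_pow hmaxB (hne x h.x_notMem)
      (mul_ne_zero (hne c hc) (hne γd hγd)) (mul_ne_zero (hne γn hγn) (hne d hd)) vB hkey
  have hρn0 : ρn = 0 := by
    have hlt : ρn < N := by omega
    exact Nat.eq_zero_of_dvd_of_lt hdvd hlt
  refine ⟨γ, v, ?_⟩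
  rw [hfeq, hρn0, pow_zero, one_mul, mul_comm]

/-- a prime of height one of a node containing `π` is one of the two branches. -/
theorem IsNodePair.eq_or_eq_of_mem_of_height_one (h : IsNodePair P0 Pinf x y) [hP0 : P0.IsPrime]
    [hPinf : Pinf.IsPrime] {π : R} (hπ0 : π ∈ P0) (hπinf : π ∈ Pinf)
    (hinf : P0 ⊓ Pinf ≤ Ideal.span {π}) (hπne : π ≠ 0)
    (hxy : x * y = π ^ m * r) (hm : 1 ≤ m) (𝔮 : Ideal R) [h𝔮 : 𝔮.IsPrime] (hh : 𝔮.height = 1)
    (hπ𝔮 : π ∈ 𝔮) : 𝔮 = P0 ∨ 𝔮 = Pinf := by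
  have h1 : x * y ∈ 𝔮 := by
    rw [hxy]; exact 𝔮.mul_mem_right _ (𝔮.pow_mem_of_mem hπ𝔮 m (by omega))
  rcases h𝔮.mem_or_mem h1 with hx | hy
  · left
    have hle : P0 ≤ 𝔮 := by
      rw [h.P0_eq hπ0 hinf, Ideal.span_le]
      rintro z (rfl | rfl)
      · exact hx
      · exact hπ𝔮
    have hne : P0 ≠ ⊥ := fun hb => hπne (by rw [hb] at hπ0; exact hπ0)
    exact (eq_of_le_of_height_eq_one hle hne hh).symm
  · right
    have hle : Pinf ≤ 𝔮 := by
      rw [h.Pinf_eq hπinf hinf, Ideal.span_le]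
      rintro z (rfl | rfl)
      · exact hy
      · exact hπ𝔮
    have hne : Pinf ≠ ⊥ := fun hb => hπne (by rw [hb] at hπinf; exact hπinf)
    exact (eq_of_le_of_height_eq_one hle hne hh).symm

/-- **(E′)** the local Kummer factorisation at a node, with the horizontal hypothesis stated prime
by prime: `f` is a unit at the horizontal primes of height one which are not among the `ker P_i`,
and `f / (x − P_i x)^(N e_i)` is a unit at `ker P_i`. -/
theorem IsNodePair.exists_kummer_factorisation' (h : IsNodePair P0 Pinf x y) [hP0 : P0.IsPrime]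
    [hPinf : Pinf.IsPrime] {ϖ : R₁} (hϖ : Irreducible ϖ)
    (hπ0 : algebraMap R₁ R ϖ ∈ P0) (hπinf : algebraMap R₁ R ϖ ∈ Pinf)
    (hinf : P0 ⊓ Pinf ≤ Ideal.span {algebraMap R₁ R ϖ})
    (hxy : x * y = algebraMap R₁ R ϖ ^ m * r) (hr : IsUnit r) (hm : 1 ≤ m)
    {N : ℕ} (hN : N ≠ 0) {f : K} (hf : f ≠ 0)
    {ι : Type*} (S : Finset ι) (P : ι → (R →ₐ[R₁] R₁)) (e : ι → ℤ)
    (hPinj : ∀ i ∈ S, ∀ j ∈ S,
      RingHom.ker (P i : R →+* R₁) = RingHom.ker (P j : R →+* R₁) → i = j)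
    (hfhor : ∀ 𝔮 : Ideal R, 𝔮.IsPrime → 𝔮.height = 1 → algebraMap R₁ R ϖ ∉ 𝔮 →
      (∀ i ∈ S, 𝔮 ≠ RingHom.ker (P i : R →+* R₁)) → IsUnitAtPrime 𝔮 f)
    (hfP : ∀ i ∈ S, IsUnitAtPrime (RingHom.ker (P i : R →+* R₁))
      (f * (algebraMap R K (x - algebraMap R₁ R (P i x)) ^ ((N : ℤ) * e i))⁻¹))
    (hpow : ∃ a b c d : R, a ∉ Pinf ∧ b ∉ Pinf ∧ c ∉ Pinf ∧ d ∉ Pinf ∧
      f * algebraMap R K b = algebraMap R K a ∧ a * d ^ N - b * c ^ N ∈ Pinf) :
    ∃ (γ : K) (v : Rˣ), f = γ ^ N * algebraMap R K (v : R) := by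
  classical
  have hx0 : x ≠ 0 := fun h0 => h.x_notMem (h0 ▸ Pinf.zero_mem)
  have hy0 : y ≠ 0 := fun h0 => h.y_notMem (h0 ▸ P0.zero_mem)
  have hπne : algebraMap R₁ R ϖ ≠ 0 := by
    intro h0
    have : x * y = 0 := by rw [hxy, h0, zero_pow (by omega), zero_mul]
    rcases mul_eq_zero.mp this with h' | h'
    · exact hx0 h'
    · exact hy0 h'
  have hmax := h.maximalIdeal_eq hπ0 hinf
  refine h.exists_kummer_factorisation hϖ hπ0 hπinf hinf hxy hr hm hN hf S P e ?_ hpow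
  intro 𝔮 h𝔮 hh hne0 hneinf
  have hπ𝔮 : algebraMap R₁ R ϖ ∉ 𝔮 := by
    intro hmem
    rcases h.eq_or_eq_of_mem_of_height_one hπ0 hπinf hinf hπne hxy hm 𝔮 hh hmem with h' | h'
    · exact hne0 h'
    · exact hneinf h'
  -- the factors `x − ξ_j` are units at `𝔮` unless `𝔮 = ker P_j`
  have hfac : ∀ j, 𝔮 ≠ RingHom.ker (P j : R →+* R₁) →
      IsUnitAtPrime 𝔮 (algebraMap R K (x - algebraMap R₁ R (P j x)) ^ ((N : ℤ) * e j)) := by
    intro j hj
    refine (isUnitAtPrime_algebraMap ?_).zpow _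
    intro hmem
    exact hj (eq_ker_of_sub_mem hϖ hmax hxy hr (P j) 𝔮 hπ𝔮 hmem)
  by_cases hex : ∃ i ∈ S, 𝔮 = RingHom.ker (P i : R →+* R₁)
  · obtain ⟨i₀, hi₀, hq⟩ := hex
    rw [← Finset.mul_prod_erase S _ hi₀, mul_inv, ← mul_assoc]
    refine IsUnitAtPrime.mul ?_ (IsUnitAtPrime.inv ?_)
    · rw [hq]; exact hfP i₀ hi₀
    · refine isUnitAtPrime_prod _ _ (fun j hj => hfac j ?_)
      intro hqj
      have : i₀ = j := hPinj i₀ hi₀ j (Finset.mem_of_mem_erase hj) (by rw [← hq, ← hqj])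
      exact (Finset.ne_of_mem_erase hj) this.symm
  · simp only [not_exists, not_and] at hex
    refine (hfhor 𝔮 h𝔮 hh hπ𝔮 (fun i hi => hex i hi)).mul (IsUnitAtPrime.inv ?_)
    exact isUnitAtPrime_prod _ _ (fun j hj => hfac j (hex j hj))

end KummerNode

end Fermat.Agent.SS
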