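/-
(SS-q) — helper5 — **SS-NODEALG, part 4: smooth closed points of the special fibre.**

`R` the local ring of the normal model at a closed point of the special fibre through which a
single component passes: `𝔪 = (z, π)`, `(π)` prime (cuspidal points included). `R₁` the base DVR.

* `ker_retraction_eq_of_smooth` : `ker P = (z − P z)` for a rational point `P : R →ₐ[R₁] R₁`.
* `eq_ker_of_sub_mem_of_smooth` : a prime `𝔮 ∌ π` containing `z − P z` is `ker P`.
* `exists_kummer_factorisation_of_smooth` : if the horizontal divisor of `f` through the point is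
  `N · Σ e_i [P_i]` and the order of `f` along the component is `N j`, then `f = γ^N · v`,
  `v ∈ Rˣ`.
-/
import Mathlib
import Fermat.Agent.SS.NODEALG_helper5_Kummer

set_option autoImplicit false
set_option linter.unusedSectionVars false
set_option linter.style.haveILetI false

namespace Fermat.Agent.SS

open IsLocalRing

section SmoothPoint

variable {R₁ : Type*} [CommRing R₁] [IsDomain R₁] [IsDiscreteValuationRing R₁]
variable {R : Type*} [CommRing R] [IsDomain R] [IsLocalRing R] [IsNoetherianRing R] [Algebra R₁ R]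

/-- **(F1)** the kernel of a rational point through a smooth point `𝔪 = (z, π)` is `(z − ζ)`. -/
theorem ker_retraction_eq_of_smooth {ϖ : R₁} (hϖ : Irreducible ϖ) {z : R}
    (hmax : maximalIdeal R = Ideal.span {z, algebraMap R₁ R ϖ}) (P : R →ₐ[R₁] R₁) :
    RingHom.ker (P : R →+* R₁) = Ideal.span {z - algebraMap R₁ R (P z)} := by
  set π : R := algebraMap R₁ R ϖ with hπ
  set I : Ideal R := Ideal.span {z - algebraMap R₁ R (P z)} with hI
  have hzm : z ∈ maximalIdeal R := by rw [hmax]; exact Ideal.subset_span (by simp)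
  have hm1 : maximalIdeal R₁ = Ideal.span {ϖ} := hϖ.maximalIdeal_eq
  obtain ⟨ζ₁, hζ₁⟩ : ∃ ζ₁, P z = ϖ * ζ₁ := by
    have := retraction_mem_maximalIdeal P hzm
    rw [hm1, Ideal.mem_span_singleton] at this
    exact this
  have hIle : I ≤ RingHom.ker (P : R →+* R₁) := by
    rw [hI, Ideal.span_le]
    rintro w rfl
    exact sub_algebraMap_mem_ker P z
  apply le_antisymm _ hIle
  have hfg : (RingHom.ker (P : R →+* R₁)).FG := IsNoetherian.noetherian _
  have hjac : maximalIdeal R ≤ Ideal.jacobson (⊥ : Ideal R) := by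
    rw [IsLocalRing.jacobson_eq_maximalIdeal ⊥ bot_ne_top]
  refine Submodule.le_of_le_smul_of_le_jacobson_bot hfg hjac ?_
  intro w hw
  have hwP : P w = 0 := by simpa [RingHom.mem_ker] using hw
  have hwm : w ∈ maximalIdeal R := by
    by_contra h
    have hu : IsUnit w := by
      by_contra hnu
      exact h ((IsLocalRing.mem_maximalIdeal _).mpr hnu)
    have := hu.map P
    rw [hwP] at this
    exact not_isUnit_zero this
  rw [hmax] at hwm
  obtain ⟨a, c, hac⟩ := Ideal.mem_span_pair.mp hwm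
  set c' : R := a * algebraMap R₁ R ζ₁ + c with hc'
  have hw_eq : w = a * (z - algebraMap R₁ R (P z)) + π * c' := by
    rw [hζ₁, map_mul, hc', ← hac]
    ring
  have hPc' : P c' = 0 := by
    have h1 : P w = ϖ * P c' := by
      conv_lhs => rw [hw_eq]
      simp [hπ]
    rw [hwP] at h1
    rcases mul_eq_zero.mp h1.symm with h | h
    · exact absurd h hϖ.ne_zero
    · exact h
  have hc'ker : c' ∈ RingHom.ker (P : R →+* R₁) := by
    rw [RingHom.mem_ker]; exact hPc'
  rw [hw_eq]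
  refine Submodule.add_mem_sup ?_ ?_
  · exact I.mul_mem_left _ (Ideal.subset_span (by simp))
  · have hπm : π ∈ maximalIdeal R := by rw [hmax]; exact Ideal.subset_span (by simp)
    exact Submodule.smul_mem_smul hπm hc'ker

/-- a prime containing the kernel of a rational point and not containing `π` is that kernel. -/
theorem eq_ker_of_ker_le {ϖ : R₁} (hϖ : Irreducible ϖ) (P : R →ₐ[R₁] R₁)
    (𝔮 : Ideal R) [h𝔮 : 𝔮.IsPrime] (hπ𝔮 : algebraMap R₁ R ϖ ∉ 𝔮)
    (hle : RingHom.ker (P : R →+* R₁) ≤ 𝔮) : 𝔮 = RingHom.ker (P : R →+* R₁) := by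
  apply le_antisymm _ hle
  intro w hw
  rw [RingHom.mem_ker]
  change P w = 0
  by_contra hPw
  have h1 : algebraMap R₁ R (P w) ∈ 𝔮 := by
    have := 𝔮.sub_mem hw (hle (sub_algebraMap_mem_ker P w))
    simpa using this
  obtain ⟨n, u, hu⟩ := IsDiscreteValuationRing.eq_unit_mul_pow_irreducible hPw hϖ
  rw [hu, map_mul, map_pow] at h1
  rcases h𝔮.mem_or_mem h1 with h | h
  · exact h𝔮.ne_top (Ideal.eq_top_of_isUnit_mem _ h (u.isUnit.map (algebraMap R₁ R)))
  · exact hπ𝔮 (h𝔮.mem_of_pow_mem n h)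

/-- **(F2)** a prime `𝔮 ∌ π` containing `z − ζ` is `ker P`. -/
theorem eq_ker_of_sub_mem_of_smooth {ϖ : R₁} (hϖ : Irreducible ϖ) {z : R}
    (hmax : maximalIdeal R = Ideal.span {z, algebraMap R₁ R ϖ}) (P : R →ₐ[R₁] R₁)
    (𝔮 : Ideal R) [h𝔮 : 𝔮.IsPrime] (hπ𝔮 : algebraMap R₁ R ϖ ∉ 𝔮)
    (hz𝔮 : z - algebraMap R₁ R (P z) ∈ 𝔮) : 𝔮 = RingHom.ker (P : R →+* R₁) := by
  refine eq_ker_of_ker_le hϖ P 𝔮 hπ𝔮 ?_
  rw [ker_retraction_eq_of_smooth hϖ hmax P, Ideal.span_le]
  rintro w rfl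
  exact hz𝔮

end SmoothPoint

section SmoothKummer

variable {R₁ : Type*} [CommRing R₁] [IsDomain R₁] [IsDiscreteValuationRing R₁]
variable {R : Type*} [CommRing R] [IsDomain R] [IsLocalRing R] [IsNoetherianRing R]
  [IsIntegrallyClosed R] [Algebra R₁ R]
variable {K : Type*} [Field K] [Algebra R K] [IsFractionRing R K]

/-- **(F4) the local Kummer factorisation at a smooth point.** -/
theorem exists_kummer_factorisation_of_smooth {ϖ : R₁} (hϖ : Irreducible ϖ) {z : R}
    (hmax : maximalIdeal R = Ideal.span {z, algebraMap R₁ R ϖ})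
    (hprime : (Ideal.span {algebraMap R₁ R ϖ} : Ideal R).IsPrime)
    (hπne : algebraMap R₁ R ϖ ≠ 0)
    (hz : z ∉ Ideal.span {algebraMap R₁ R ϖ})
    {N : ℕ} {f : K} (hf : f ≠ 0)
    {ι : Type*} (S : Finset ι) (P : ι → (R →ₐ[R₁] R₁)) (e : ι → ℤ)
    (hPinj : ∀ i ∈ S, ∀ j ∈ S,
      RingHom.ker (P i : R →+* R₁) = RingHom.ker (P j : R →+* R₁) → i = j)
    (hfhor : ∀ 𝔮 : Ideal R, 𝔮.IsPrime → 𝔮.height = 1 → algebraMap R₁ R ϖ ∉ 𝔮 →
      (∀ i ∈ S, 𝔮 ≠ RingHom.ker (P i : R →+* R₁)) → IsUnitAtPrime 𝔮 f)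
    (hfP : ∀ i ∈ S, IsUnitAtPrime (RingHom.ker (P i : R →+* R₁))
      (f * (algebraMap R K (z - algebraMap R₁ R (P i z)) ^ ((N : ℤ) * e i))⁻¹))
    (j : ℤ) (hfπ : IsUnitAtPrime (Ideal.span {algebraMap R₁ R ϖ})
      (f * (algebraMap R K (algebraMap R₁ R ϖ) ^ ((N : ℤ) * j))⁻¹)) :
    ∃ (γ : K) (v : Rˣ), f = γ ^ N * algebraMap R K (v : R) := by
  classical
  set π : R := algebraMap R₁ R ϖ with hπ
  have hinjK : Function.Injective (algebraMap R K) := IsFractionRing.injective R K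
  have hπK : algebraMap R K π ≠ 0 := fun h' => hπne (hinjK (by rw [h', map_zero]))
  have hzm : z ∈ maximalIdeal R := by rw [hmax]; exact Ideal.subset_span (by simp)
  have hξ : ∀ i, algebraMap R₁ R (P i z) ∈ Ideal.span {π} := fun i =>
    algebraMap_retraction_mem_span hϖ (P i) hzm
  have hzi : ∀ i, z - algebraMap R₁ R (P i z) ∉ Ideal.span {π} := fun i hmem =>
    hz (by have := (Ideal.span {π}).add_mem hmem (hξ i); simpa using this)
  have hziK : ∀ i, algebraMap R K (z - algebraMap R₁ R (P i z)) ≠ 0 := by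
    intro i h'
    have : z - algebraMap R₁ R (P i z) = 0 := hinjK (by rw [h', map_zero])
    exact hzi i (this ▸ Ideal.zero_mem _)
  set Pr : K := ∏ i ∈ S, algebraMap R K (z - algebraMap R₁ R (P i z)) ^ ((N : ℤ) * e i) with hPr
  have hPr0 : Pr ≠ 0 := Finset.prod_ne_zero_iff.mpr (fun i _ => zpow_ne_zero _ (hziK i))
  set T : K := f * Pr⁻¹ * (algebraMap R K π ^ ((N : ℤ) * j))⁻¹ with hT
  have hT0 : T ≠ 0 :=
    mul_ne_zero (mul_ne_zero hf (inv_ne_zero hPr0)) (inv_ne_zero (zpow_ne_zero _ hπK))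
  have hTunit : ∀ 𝔮 : Ideal R, 𝔮.IsPrime → 𝔮.height = 1 → IsUnitAtPrime 𝔮 T := by
    intro 𝔮 h𝔮 hh
    by_cases hπ𝔮 : π ∈ 𝔮
    · -- `𝔮 = (π)`
      have hle : Ideal.span {π} ≤ 𝔮 := by rw [Ideal.span_le]; rintro w rfl; exact hπ𝔮
      have hne : (Ideal.span {π} : Ideal R) ≠ ⊥ := by
        rw [Ne, Ideal.span_singleton_eq_bot]; exact hπne
      have heq : Ideal.span {π} = 𝔮 := eq_of_le_of_height_eq_one hle hne hh
      subst heq
      have h1 : IsUnitAtPrime (Ideal.span {π}) Pr :=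
        isUnitAtPrime_prod S _ (fun i _ => (isUnitAtPrime_algebraMap (hzi i)).zpow _)
      have : T = (f * (algebraMap R K π ^ ((N : ℤ) * j))⁻¹) * Pr⁻¹ := by rw [hT]; ring
      rw [this]
      exact hfπ.mul h1.inv
    · have hfac : ∀ i, 𝔮 ≠ RingHom.ker (P i : R →+* R₁) →
          IsUnitAtPrime 𝔮 (algebraMap R K (z - algebraMap R₁ R (P i z)) ^ ((N : ℤ) * e i)) := by
        intro i hi
        refine (isUnitAtPrime_algebraMap ?_).zpow _
        intro hmem
        exact hi (eq_ker_of_sub_mem_of_smooth hϖ hmax (P i) 𝔮 hπ𝔮 hmem)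
      have hπunit : IsUnitAtPrime 𝔮 (algebraMap R K π ^ ((N : ℤ) * j)) :=
        (isUnitAtPrime_algebraMap hπ𝔮).zpow _
      rw [hT]
      refine IsUnitAtPrime.mul ?_ hπunit.inv
      by_cases hex : ∃ i ∈ S, 𝔮 = RingHom.ker (P i : R →+* R₁)
      · obtain ⟨i₀, hi₀, hq⟩ := hex
        rw [hPr, ← Finset.mul_prod_erase S _ hi₀, mul_inv, ← mul_assoc]
        refine IsUnitAtPrime.mul ?_ (IsUnitAtPrime.inv ?_)
        · rw [hq]; exact hfP i₀ hi₀
        · refine isUnitAtPrime_prod _ _ (fun i hi => hfac i ?_)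
          intro hqi
          have : i₀ = i := hPinj i₀ hi₀ i (Finset.mem_of_mem_erase hi) (by rw [← hq, ← hqi])
          exact (Finset.ne_of_mem_erase hi) this.symm
      · simp only [not_exists, not_and] at hex
        refine (hfhor 𝔮 h𝔮 hh hπ𝔮 (fun i hi => hex i hi)).mul (IsUnitAtPrime.inv ?_)
        exact isUnitAtPrime_prod _ _ (fun i hi => hfac i (hex i hi))
  obtain ⟨v, hv⟩ := exists_unit_of_forall_height_one (R := R) T hT0 hTunit
  refine ⟨algebraMap R K π ^ j *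
    ∏ i ∈ S, algebraMap R K (z - algebraMap R₁ R (P i z)) ^ (e i), v, ?_⟩
  have hPreq : Pr = (∏ i ∈ S, algebraMap R K (z - algebraMap R₁ R (P i z)) ^ (e i)) ^ N := by
    rw [hPr, ← Finset.prod_pow]
    refine Finset.prod_congr rfl (fun i _ => ?_)
    rw [← zpow_natCast, ← zpow_mul, mul_comm]
  have hπeq : algebraMap R K π ^ ((N : ℤ) * j) = (algebraMap R K π ^ j) ^ N := by
    rw [← zpow_natCast, ← zpow_mul, mul_comm]
  rw [hv, hT, mul_pow, ← hPreq, ← hπeq]
  have : algebraMap R K π ^ ((N : ℤ) * j) ≠ 0 := zpow_ne_zero _ hπK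
  field_simp

end SmoothKummer

end Fermat.Agent.SS
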