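/-
(SS-q) — helper5 — **SS-NODEALG, part 5 (NODEPLACE, abstract half): orders at a locally principal
prime, and the comparison with a valuation.**

* `exists_zpow_isUnitAtPrime` / `zpow_isUnitAtPrime_unique` : if `𝔭 R_𝔭 = π R_𝔭`, every `f ∈ K^×` is
  `π^e ·` (unit at `𝔭`) for a unique `e : ℤ`.
* `valuation_eq_of_isUnitAtPrime` : a "valuation" `v : K → ℤ` (additive on products of nonzero
  elements, `≥ 0` on `R`, `0` on `R ∖ 𝔭`, `> 0` on `𝔭 ∖ 0`, taking the value `1`) has `v π = 1` and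
  `v f = e` whenever `f / π^e` is a unit at `𝔭`. To be applied to `v = Place.ord` of the place whose
  centre is `𝔭`.
* `locally_principal_ker_of_node`, `locally_principal_ker_of_smooth` : the kernel of a rational point
  through a node (smooth point) is locally principal, generated by `x − ξ` (resp. `z − ζ`).
-/
import Mathlib
import Fermat.Agent.SS.NODEALG_helper5_Smooth

set_option autoImplicit false
set_option linter.unusedSectionVars false
set_option linter.style.haveILetI false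

namespace Fermat.Agent.SS

open IsLocalRing

section Order

variable {R : Type*} [CommRing R] [IsDomain R] [IsNoetherianRing R]
variable {K : Type*} [Field K] [Algebra R K] [IsFractionRing R K]

/-- existence of the order at a locally principal prime. -/
theorem exists_zpow_isUnitAtPrime (𝔭 : Ideal R) [h𝔭 : 𝔭.IsPrime] {π : R} (hπ : π ∈ 𝔭)
    (hloc : ∀ z ∈ 𝔭, ∃ s : R, s ∉ 𝔭 ∧ π ∣ s * z) {f : K} (hf : f ≠ 0) :
    ∃ e : ℤ, IsUnitAtPrime 𝔭 (f * (algebraMap R K π ^ e)⁻¹) := by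
  have hinjK : Function.Injective (algebraMap R K) := IsFractionRing.injective R K
  obtain ⟨n, d, hd, rfl⟩ := IsFractionRing.div_surjective (A := R) f
  have hd0 : d ≠ 0 := nonZeroDivisors.ne_zero hd
  have hn0 : n ≠ 0 := by
    rintro rfl
    simp at hf
  obtain ⟨c₁, r₁, s₁, hr₁, hs₁, e₁⟩ := exists_pow_mul_eq_of_locally_principal 𝔭 hπ hloc hn0
  obtain ⟨c₂, r₂, s₂, hr₂, hs₂, e₂⟩ := exists_pow_mul_eq_of_locally_principal 𝔭 hπ hloc hd0
  have hK0 : ∀ z : R, z ≠ 0 → algebraMap R K z ≠ 0 := fun z hz h' =>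
    hz (hinjK (by rw [h', map_zero]))
  have hne : ∀ z : R, z ∉ 𝔭 → z ≠ 0 := fun z hz h0 => hz (h0 ▸ 𝔭.zero_mem)
  by_cases hπ0 : π = 0
  · -- then `𝔭 = ⊥`-like: all elements outside are units; take `e = 0`
    subst hπ0
    refine ⟨0, ?_⟩
    have hn𝔭 : n ∉ 𝔭 := by
      intro hmem
      obtain ⟨s, hs, hdiv⟩ := hloc n hmem
      rw [zero_dvd_iff] at hdiv
      rcases mul_eq_zero.mp hdiv with h | h
      · exact hne s hs h
      · exact hn0 h
    have hd𝔭 : d ∉ 𝔭 := by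
      intro hmem
      obtain ⟨s, hs, hdiv⟩ := hloc d hmem
      rw [zero_dvd_iff] at hdiv
      rcases mul_eq_zero.mp hdiv with h | h
      · exact hne s hs h
      · exact hd0 h
    simp only [zpow_zero, inv_one, mul_one]
    exact (isUnitAtPrime_algebraMap hn𝔭).div (isUnitAtPrime_algebraMap hd𝔭)
  have hπK : algebraMap R K π ≠ 0 := hK0 π hπ0
  refine ⟨(c₁ : ℤ) - (c₂ : ℤ), ?_⟩
  have e₁K : algebraMap R K n * algebraMap R K s₁ = algebraMap R K π ^ c₁ * algebraMap R K r₁ := by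
    rw [← map_mul, e₁, map_mul, map_pow]
  have e₂K : algebraMap R K d * algebraMap R K s₂ = algebraMap R K π ^ c₂ * algebraMap R K r₂ := by
    rw [← map_mul, e₂, map_mul, map_pow]
  have hs₁K := hK0 s₁ (hne s₁ hs₁)
  have hs₂K := hK0 s₂ (hne s₂ hs₂)
  have hr₂K := hK0 r₂ (hne r₂ hr₂)
  have hdK := hK0 d hd0
  have hn' : algebraMap R K n = algebraMap R K π ^ c₁ * algebraMap R K r₁ / algebraMap R K s₁ := by
    rw [← e₁K]; field_simp
  have hd' : algebraMap R K d = algebraMap R K π ^ c₂ * algebraMap R K r₂ / algebraMap R K s₂ := by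
    rw [← e₂K]; field_simp
  have heq : algebraMap R K n / algebraMap R K d * (algebraMap R K π ^ ((c₁ : ℤ) - (c₂ : ℤ)))⁻¹ =
      (algebraMap R K r₁ * algebraMap R K s₂) / (algebraMap R K s₁ * algebraMap R K r₂) := by
    rw [hn', hd', zpow_sub₀ hπK, zpow_natCast, zpow_natCast]
    field_simp
  rw [heq]
  exact ((isUnitAtPrime_algebraMap hr₁).mul (isUnitAtPrime_algebraMap hs₂)).div
    ((isUnitAtPrime_algebraMap hs₁).mul (isUnitAtPrime_algebraMap hr₂))

/-- a positive power of an element of `𝔭` is not a unit at `𝔭`. -/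
theorem not_isUnitAtPrime_zpow (𝔭 : Ideal R) [h𝔭 : 𝔭.IsPrime] {π : R} (hπ : π ∈ 𝔭) (hπ0 : π ≠ 0)
    {e : ℤ} (he : e ≠ 0) : ¬ IsUnitAtPrime 𝔭 (algebraMap R K π ^ e) := by
  have hinjK : Function.Injective (algebraMap R K) := IsFractionRing.injective R K
  have hπK : algebraMap R K π ≠ 0 := fun h' => hπ0 (hinjK (by rw [h', map_zero]))
  -- reduce to `e > 0`
  wlog hpos : 0 < e generalizing e
  · intro hu
    have hneg : 0 < -e := by omega
    have := this (e := -e) (by omega) hneg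
    apply this
    rw [zpow_neg]
    exact hu.inv
  intro hu
  obtain ⟨n, hn⟩ := Int.eq_ofNat_of_zero_le hpos.le
  have hn0 : n ≠ 0 := by rintro rfl; simp at hn; omega
  rw [hn, zpow_natCast] at hu
  obtain ⟨r, s, hr, hs, hrs⟩ := hu
  have : π ^ n * s = r := by
    apply hinjK
    rw [map_mul, map_pow, hrs]
  apply hr
  rw [← this]
  exact 𝔭.mul_mem_right _ (𝔭.pow_mem_of_mem hπ n (Nat.pos_of_ne_zero hn0))

/-- uniqueness of the order at a locally principal prime. -/
theorem zpow_isUnitAtPrime_unique (𝔭 : Ideal R) [h𝔭 : 𝔭.IsPrime] {π : R} (hπ : π ∈ 𝔭) (hπ0 : π ≠ 0)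
    {f : K} {e e' : ℤ} (h : IsUnitAtPrime 𝔭 (f * (algebraMap R K π ^ e)⁻¹))
    (h' : IsUnitAtPrime 𝔭 (f * (algebraMap R K π ^ e')⁻¹)) : e = e' := by
  have hinjK : Function.Injective (algebraMap R K) := IsFractionRing.injective R K
  have hπK : algebraMap R K π ≠ 0 := fun h'' => hπ0 (hinjK (by rw [h'', map_zero]))
  by_contra hne
  have hf : f ≠ 0 := by
    rintro rfl
    rw [zero_mul] at h
    exact h.ne_zero rfl
  have hq := h'.div h
  have : f * (algebraMap R K π ^ e')⁻¹ / (f * (algebraMap R K π ^ e)⁻¹) =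
      algebraMap R K π ^ (e - e') := by
    rw [zpow_sub₀ hπK]
    have h1 : algebraMap R K π ^ e ≠ 0 := zpow_ne_zero _ hπK
    have h2 : algebraMap R K π ^ e' ≠ 0 := zpow_ne_zero _ hπK
    field_simp
  rw [this] at hq
  exact not_isUnitAtPrime_zpow 𝔭 hπ hπ0 (by omega) hq

/-- **comparison with a valuation**: a `ℤ`-valued function on `K` which is additive on products
of nonzero elements, vanishes on `R ∖ 𝔭`, is positive on `𝔭 ∖ 0` and takes the value `1`, takes the
value `1` at `π` and the value `e` at `π^e ·` (unit at `𝔭`). -/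
theorem valuation_eq_of_isUnitAtPrime (𝔭 : Ideal R) [h𝔭 : 𝔭.IsPrime] {π : R} (hπ : π ∈ 𝔭)
    (hπ0 : π ≠ 0) (hloc : ∀ z ∈ 𝔭, ∃ s : R, s ∉ 𝔭 ∧ π ∣ s * z)
    (v : K → ℤ) (hmul : ∀ a b : K, a ≠ 0 → b ≠ 0 → v (a * b) = v a + v b)
    (hunit : ∀ a : R, a ∉ 𝔭 → v (algebraMap R K a) = 0)
    (hpos : ∀ a : R, a ∈ 𝔭 → a ≠ 0 → 0 < v (algebraMap R K a))
    (hone : ∃ ϖ : K, ϖ ≠ 0 ∧ v ϖ = 1) :
    v (algebraMap R K π) = 1 ∧
      ∀ (f : K) (e : ℤ), IsUnitAtPrime 𝔭 (f * (algebraMap R K π ^ e)⁻¹) → v f = e := by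
  have hinjK : Function.Injective (algebraMap R K) := IsFractionRing.injective R K
  have hπK : algebraMap R K π ≠ 0 := fun h' => hπ0 (hinjK (by rw [h', map_zero]))
  have hne : ∀ z : R, z ∉ 𝔭 → algebraMap R K z ≠ 0 := fun z hz h' =>
    hz (by rw [hinjK (by rw [h', map_zero] : algebraMap R K z = algebraMap R K 0)]; exact 𝔭.zero_mem)
  have hv1 : v 1 = 0 := by
    have := hunit 1 (fun h => h𝔭.ne_top ((Ideal.eq_top_iff_one _).mpr h))
    simpa using this
  have hvinv : ∀ a : K, a ≠ 0 → v a⁻¹ = -v a := by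
    intro a ha
    have := hmul a a⁻¹ ha (inv_ne_zero ha)
    rw [mul_inv_cancel₀ ha, hv1] at this
    omega
  have hvpow : ∀ (a : K) (n : ℕ), a ≠ 0 → v (a ^ n) = n * v a := by
    intro a n ha
    induction n with
    | zero => simp [hv1]
    | succ n ih =>
      rw [pow_succ, hmul _ _ (pow_ne_zero n ha) ha, ih]; push_cast; ring
  have hvzpow : ∀ (a : K) (n : ℤ), a ≠ 0 → v (a ^ n) = n * v a := by
    intro a n ha
    cases n with
    | ofNat n => simpa using hvpow a n ha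
    | negSucc n =>
      rw [zpow_negSucc, hvinv _ (pow_ne_zero _ ha), hvpow a _ ha, Int.negSucc_eq]
      push_cast; ring
  have hvunit : ∀ g : K, IsUnitAtPrime 𝔭 g → v g = 0 := by
    intro g hg
    have hg0 := hg.ne_zero
    obtain ⟨r, s, hr, hs, hrs⟩ := hg
    have h1 := hmul g (algebraMap R K s) hg0 (hne s hs)
    rw [hrs, hunit r hr, hunit s hs] at h1
    omega
  have hkey : ∀ (f : K) (e : ℤ), IsUnitAtPrime 𝔭 (f * (algebraMap R K π ^ e)⁻¹) →
      v f = e * v (algebraMap R K π) := by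
    intro f e hfe
    have hf : f ≠ 0 := by
      rintro rfl
      rw [zero_mul] at hfe
      exact hfe.ne_zero rfl
    have h1 := hvunit _ hfe
    rw [hmul _ _ hf (inv_ne_zero (zpow_ne_zero _ hπK)), hvinv _ (zpow_ne_zero _ hπK),
      hvzpow _ _ hπK] at h1
    omega
  have hvπ : v (algebraMap R K π) = 1 := by
    obtain ⟨ϖ, hϖ0, hϖ1⟩ := hone
    obtain ⟨e, he⟩ := exists_zpow_isUnitAtPrime 𝔭 hπ hloc hϖ0
    have h1 := hkey ϖ e he
    rw [hϖ1] at h1
    have h2 : 0 < v (algebraMap R K π) := hpos π hπ hπ0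
    -- `1 = e * a`, `a > 0` ⇒ `a = 1`
    have h3 : v (algebraMap R K π) ∣ 1 := ⟨e, by rw [h1]; ring⟩
    exact Int.eq_one_of_dvd_one h2.le h3
  refine ⟨hvπ, fun f e hfe => ?_⟩
  rw [hkey f e hfe, hvπ, mul_one]

end Order

section KerLocallyPrincipal

variable {R₁ : Type*} [CommRing R₁] [IsDomain R₁] [IsDiscreteValuationRing R₁]
variable {R : Type*} [CommRing R] [IsDomain R] [IsLocalRing R] [IsNoetherianRing R] [Algebra R₁ R]

/-- the kernel of a rational point through a node is locally generated by `x − ξ`. -/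
theorem locally_principal_ker_of_node {ϖ : R₁} (hϖ : Irreducible ϖ) {x y r : R} {m : ℕ}
    (hmax : maximalIdeal R = Ideal.span {x, y, algebraMap R₁ R ϖ})
    (hxy : x * y = algebraMap R₁ R ϖ ^ m * r) (hr : IsUnit r) (P : R →ₐ[R₁] R₁) :
    ∀ z ∈ RingHom.ker (P : R →+* R₁), ∃ s : R, s ∉ RingHom.ker (P : R →+* R₁) ∧
      (x - algebraMap R₁ R (P x)) ∣ s * z := by
  intro z hz
  obtain ⟨s, hs, hsy⟩ := exists_notMem_ker_mul_mem hϖ hmax hxy hr P
  rw [ker_retraction_eq hϖ hmax P, Ideal.mem_span_pair] at hz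
  obtain ⟨a, b, rfl⟩ := hz
  rw [Ideal.mem_span_singleton] at hsy
  obtain ⟨t, ht⟩ := hsy
  refine ⟨s, hs, ⟨s * a + b * t, ?_⟩⟩
  have : s * (a * (x - algebraMap R₁ R (P x)) + b * (y - algebraMap R₁ R (P y))) =
      s * a * (x - algebraMap R₁ R (P x)) + b * (s * (y - algebraMap R₁ R (P y))) := by ring
  rw [this, ht]; ring

/-- the kernel of a rational point through a smooth point is generated by `z − ζ`. -/
theorem locally_principal_ker_of_smooth {ϖ : R₁} (hϖ : Irreducible ϖ) {z : R}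
    (hmax : maximalIdeal R = Ideal.span {z, algebraMap R₁ R ϖ}) (P : R →ₐ[R₁] R₁) :
    ∀ w ∈ RingHom.ker (P : R →+* R₁), ∃ s : R, s ∉ RingHom.ker (P : R →+* R₁) ∧
      (z - algebraMap R₁ R (P z)) ∣ s * w := by
  intro w hw
  rw [ker_retraction_eq_of_smooth hϖ hmax P, Ideal.mem_span_singleton] at hw
  refine ⟨1, ?_, by simpa using hw⟩
  rw [RingHom.mem_ker]
  simp

/-- the kernel of a retraction is a prime ideal. -/
theorem ker_retraction_isPrime (P : R →ₐ[R₁] R₁) : (RingHom.ker (P : R →+* R₁)).IsPrime :=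
  RingHom.ker_isPrime (P : R →+* R₁)

end KerLocallyPrincipal

end Fermat.Agent.SS
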