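/-
(SS-q) — helper5 — **SS-LOCASM, part 1: transfer between a chart `B` and its local ring `R = B_𝔪`.**

`B` a domain (a chart of the normal model), `𝔪` a maximal ideal, `R` the localisation of `B` at `𝔪`,
`E` the common fraction field, `R₁` the base DVR.

* `isUnitAtPrime_of_comap`, `isUnitAtPrime_map_of_le` : units at a prime of `B` are units at the
  corresponding prime of `R`;
* `isUnitAtPrime_of_eq_pow_mul_unit` : `g = γ^N · v` with `v ∈ Rˣ` gives that `g / γ^N` is a unit
  at `𝔪` (over `B`);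
* `height_comap_eq_one`, `comap_ne_of_ne`, `eq_or_eq_of_mem_of_height_one_local` : primes of
  height one;
* `isUnit_retraction_of_notMem`, `exists_retraction_localization` : a rational point
  `P : B →ₐ[R₁] R₁` whose kernel is contained in `𝔪` extends to `R`;
* `valuation_transfer` : the hypotheses `hunit`, `hpos` of `valuation_eq_of_isUnitAtPrime` pass
  from `ker P` to the kernel of the extension.
-/
import Mathlib
import Fermat.Agent.SS.NODEALG_helper5_Order
import Fermat.Agent.SS.MODLOC_helper5_Core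

set_option autoImplicit false
set_option linter.unusedSectionVars false
set_option linter.style.haveILetI false

namespace Fermat.Agent.SS

open IsLocalRing

section UnitTransfer

variable {B : Type*} [CommRing B] [IsDomain B]
variable {R : Type*} [CommRing R] [IsDomain R] [Algebra B R]
variable {E : Type*} [Field E] [Algebra B E] [Algebra R E] [IsScalarTower B R E]
  [IsFractionRing B E] [IsFractionRing R E]

/-- a unit at the contraction of `𝔮` is a unit at `𝔮`. -/
theorem isUnitAtPrime_of_comap (𝔮 : Ideal R) {g : E}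
    (h : IsUnitAtPrime (𝔮.comap (algebraMap B R)) g) : IsUnitAtPrime 𝔮 g := by
  obtain ⟨r, s, hr, hs, hrs⟩ := h
  refine ⟨algebraMap B R r, algebraMap B R s, hr, hs, ?_⟩
  rw [← IsScalarTower.algebraMap_apply B R E, ← IsScalarTower.algebraMap_apply B R E]
  exact hrs

variable [IsLocalRing R]

/-- a unit at `𝔭 ≤ 𝔪` is a unit at the extension of `𝔭` to `B_𝔪`. -/
theorem isUnitAtPrime_map_of_le (𝔪 : Ideal B) [h𝔪 : 𝔪.IsPrime] [IsLocalization.AtPrime R 𝔪]
    (𝔭 : Ideal B) [h𝔭 : 𝔭.IsPrime] (hle : 𝔭 ≤ 𝔪) {g : E} (h : IsUnitAtPrime 𝔭 g) :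
    IsUnitAtPrime (𝔭.map (algebraMap B R)) g := by
  obtain ⟨r, s, hr, hs, hrs⟩ := h
  refine ⟨algebraMap B R r, algebraMap B R s, ?_, ?_, ?_⟩
  · rwa [algebraMap_mem_map_iff_of_le 𝔪 𝔭 hle]
  · rwa [algebraMap_mem_map_iff_of_le 𝔪 𝔭 hle]
  · rw [← IsScalarTower.algebraMap_apply B R E, ← IsScalarTower.algebraMap_apply B R E]
    exact hrs

/-- a unit of `B_𝔪` is a unit at `𝔪`. -/
theorem isUnitAtPrime_of_unit_localization (𝔪 : Ideal B) [h𝔪 : 𝔪.IsPrime]
    [IsLocalization.AtPrime R 𝔪] (v : Rˣ) : IsUnitAtPrime 𝔪 (algebraMap R E (v : R)) := by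
  obtain ⟨r, s, hrs⟩ := IsLocalization.exists_mk'_eq 𝔪.primeCompl (v : R)
  have hspec : (v : R) * algebraMap B R s = algebraMap B R r := by
    rw [← hrs]; exact IsLocalization.mk'_spec R r s
  refine ⟨r, s, ?_, s.2, ?_⟩
  · intro hr
    have h1 : algebraMap B R r ∈ maximalIdeal R :=
      (IsLocalization.AtPrime.to_map_mem_maximal_iff R 𝔪 r).mpr hr
    have h2 : IsUnit (algebraMap B R r) := by
      rw [← hspec]
      exact v.isUnit.mul (IsLocalization.map_units R s)
    exact (IsLocalRing.mem_maximalIdeal _).mp h1 h2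
  · rw [IsScalarTower.algebraMap_apply B R E, IsScalarTower.algebraMap_apply B R E r, ← hspec,
      map_mul]

/-- `g = γ^N · v` with `v` a unit of `B_𝔪`: `g / γ^N` is a unit at `𝔪`. -/
theorem isUnitAtPrime_of_eq_pow_mul_unit (𝔪 : Ideal B) [h𝔪 : 𝔪.IsPrime]
    [IsLocalization.AtPrime R 𝔪] {g γ : E} {N : ℕ} (hN : N ≠ 0) (hg : g ≠ 0) (v : Rˣ)
    (h : g = γ ^ N * algebraMap R E (v : R)) :
    γ ≠ 0 ∧ IsUnitAtPrime 𝔪 (g * (γ ^ N)⁻¹) := by
  have hγN : γ ^ N ≠ 0 := by
    intro h0
    rw [h0, zero_mul] at h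
    exact hg h
  refine ⟨fun h0 => hγN ?_, ?_⟩
  · rw [h0, zero_pow hN]
  · have : g * (γ ^ N)⁻¹ = algebraMap R E (v : R) := by
      rw [h]; field_simp
    rw [this]
    exact isUnitAtPrime_of_unit_localization 𝔪 v

end UnitTransfer

section Height

variable {B : Type*} [CommRing B] [IsDomain B]
variable {R : Type*} [CommRing R] [IsDomain R] [IsLocalRing R] [Algebra B R]

/-- the contraction of a prime of height one of `B_𝔪` has height one. -/
theorem height_comap_eq_one (𝔪 : Ideal B) [h𝔪 : 𝔪.IsPrime] [IsLocalization.AtPrime R 𝔪]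
    (𝔮 : Ideal R) (h : 𝔮.height = 1) : (𝔮.comap (algebraMap B R)).height = 1 := by
  have := IsLocalization.height_under 𝔪.primeCompl 𝔮
  rw [Ideal.under_def] at this
  rw [this, h]

/-- the contraction of a prime of `B_𝔪` is contained in `𝔪`. -/
theorem comap_le_of_isPrime (𝔪 : Ideal B) [h𝔪 : 𝔪.IsPrime] [IsLocalization.AtPrime R 𝔪]
    (𝔮 : Ideal R) [h𝔮 : 𝔮.IsPrime] : 𝔮.comap (algebraMap B R) ≤ 𝔪 := by
  intro a ha
  by_contra hna
  have h1 : IsUnit (algebraMap B R a) := IsLocalization.map_units R (⟨a, hna⟩ : 𝔪.primeCompl)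
  exact h𝔮.ne_top (Ideal.eq_top_of_isUnit_mem _ ha h1)

/-- two primes of `B_𝔪` with the same contraction are equal. -/
theorem eq_of_comap_eq_localization (𝔪 : Ideal B) [h𝔪 : 𝔪.IsPrime] [IsLocalization.AtPrime R 𝔪]
    {𝔮 𝔮' : Ideal R} (h : 𝔮.comap (algebraMap B R) = 𝔮'.comap (algebraMap B R)) : 𝔮 = 𝔮' := by
  have h1 := IsLocalization.map_under 𝔪.primeCompl R 𝔮
  have h2 := IsLocalization.map_under 𝔪.primeCompl R 𝔮'
  rw [Ideal.under_def] at h1 h2
  rw [← h1, ← h2, h]

/-- in the local ring of a point of the special fibre, a prime of height one containing `π` is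
one of the two components. -/
theorem eq_or_eq_of_mem_of_height_one_local {π : R} {P0 Pinf : Ideal R} [hP0 : P0.IsPrime]
    [hPinf : Pinf.IsPrime] (hπ0 : π ∈ P0) (hπinf : π ∈ Pinf) (hπne : π ≠ 0)
    (hinf : P0 ⊓ Pinf ≤ Ideal.span {π}) (P : Ideal R) (hP : P.IsPrime) (hht : P.height = 1)
    (hπP : π ∈ P) : P = P0 ∨ P = Pinf := by
  haveI := hP
  rcases le_or_le_of_mem hπ0 hπinf hinf P hπP with h | h
  · left
    refine (eq_of_le_of_height_eq_one h ?_ hht).symm
    intro hbot
    rw [hbot, Ideal.mem_bot] at hπ0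
    exact hπne hπ0
  · right
    refine (eq_of_le_of_height_eq_one h ?_ hht).symm
    intro hbot
    rw [hbot, Ideal.mem_bot] at hπinf
    exact hπne hπinf

end Height

section Retraction

variable {R₁ : Type*} [CommRing R₁] [IsDomain R₁] [IsDiscreteValuationRing R₁]
variable {B : Type*} [CommRing B] [IsDomain B] [Algebra R₁ B]
variable {R : Type*} [CommRing R] [IsDomain R] [IsLocalRing R] [Algebra B R] [Algebra R₁ R]
  [IsScalarTower R₁ B R]

/-- a rational point whose kernel is contained in the maximal ideal `𝔪` is centred at `𝔪`: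
elements outside `𝔪` have unit values. -/
theorem isUnit_retraction_of_notMem (𝔪 : Ideal B) [h𝔪 : 𝔪.IsMaximal] (P : B →ₐ[R₁] R₁)
    (hP : RingHom.ker (P : B →+* R₁) ≤ 𝔪) {s : B} (hs : s ∉ 𝔪) : IsUnit (P s) := by
  by_contra hns
  obtain ⟨b, a, ha, hab⟩ := h𝔪.exists_inv hs
  -- `b * s + a = 1`
  have h1 : P b * P s + P a = 1 := by
    rw [← map_mul, ← map_add, hab, map_one]
  have hsm : P s ∈ maximalIdeal R₁ := (IsLocalRing.mem_maximalIdeal _).mpr hns
  have hau : IsUnit (P a) := by
    by_contra hna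
    have ham : P a ∈ maximalIdeal R₁ := (IsLocalRing.mem_maximalIdeal _).mpr hna
    have : (1 : R₁) ∈ maximalIdeal R₁ := by
      rw [← h1]
      exact Ideal.add_mem _ (Ideal.mul_mem_left _ _ hsm) ham
    exact (Ideal.IsPrime.ne_top inferInstance) ((Ideal.eq_top_iff_one _).mpr this)
  have hker : a - algebraMap R₁ B (P a) ∈ RingHom.ker (P : B →+* R₁) := by
    rw [RingHom.mem_ker]
    change P (a - algebraMap R₁ B (P a)) = 0
    rw [map_sub, AlgHom.commutes, Algebra.algebraMap_self_apply, sub_self]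
  have hc : algebraMap R₁ B (P a) ∈ 𝔪 := by
    have := 𝔪.sub_mem ha (hP hker)
    simpa using this
  exact h𝔪.ne_top (Ideal.eq_top_of_isUnit_mem _ hc (hau.map (algebraMap R₁ B)))

/-- **extension of a rational point to the local ring of its centre.** -/
theorem exists_retraction_localization (𝔪 : Ideal B) [h𝔪 : 𝔪.IsMaximal]
    [IsLocalization.AtPrime R 𝔪] (P : B →ₐ[R₁] R₁) (hP : RingHom.ker (P : B →+* R₁) ≤ 𝔪) :
    ∃ P' : R →ₐ[R₁] R₁, (∀ b : B, P' (algebraMap B R b) = P b) ∧
      (RingHom.ker (P' : R →+* R₁)).comap (algebraMap B R) = RingHom.ker (P : B →+* R₁) := by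
  have hunits : ∀ s : 𝔪.primeCompl, IsUnit ((P : B →+* R₁) s) := fun s =>
    isUnit_retraction_of_notMem 𝔪 P hP s.2
  let φ : R →+* R₁ := IsLocalization.lift (M := 𝔪.primeCompl) (S := R) hunits
  have hφ : ∀ b : B, φ (algebraMap B R b) = P b := fun b => IsLocalization.lift_eq hunits b
  let P' : R →ₐ[R₁] R₁ :=
    { φ with
      commutes' := by
        intro r
        change φ (algebraMap R₁ R r) = algebraMap R₁ R₁ r
        rw [IsScalarTower.algebraMap_apply R₁ B R, hφ, AlgHom.commutes] }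
  refine ⟨P', hφ, ?_⟩
  ext b
  rw [Ideal.mem_comap, RingHom.mem_ker, RingHom.mem_ker]
  change φ (algebraMap B R b) = 0 ↔ P b = 0
  rw [hφ]

/-- the hypotheses of `valuation_eq_of_isUnitAtPrime` pass to the extension of the point. -/
theorem valuation_transfer {E : Type*} [Field E] [Algebra B E] [Algebra R E] [IsScalarTower B R E]
    [IsFractionRing B E] [IsFractionRing R E] (𝔪 : Ideal B) [h𝔪 : 𝔪.IsMaximal]
    [IsLocalization.AtPrime R 𝔪] (P : B →ₐ[R₁] R₁) (hP : RingHom.ker (P : B →+* R₁) ≤ 𝔪)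
    (P' : R →ₐ[R₁] R₁) (hP' : ∀ b : B, P' (algebraMap B R b) = P b)
    (v : E → ℤ) (hmul : ∀ a b : E, a ≠ 0 → b ≠ 0 → v (a * b) = v a + v b)
    (hunit : ∀ a : B, a ∉ RingHom.ker (P : B →+* R₁) → v (algebraMap B E a) = 0)
    (hpos : ∀ a : B, a ∈ RingHom.ker (P : B →+* R₁) → a ≠ 0 → 0 < v (algebraMap B E a)) :
    (∀ a : R, a ∉ RingHom.ker (P' : R →+* R₁) → v (algebraMap R E a) = 0) ∧
      (∀ a : R, a ∈ RingHom.ker (P' : R →+* R₁) → a ≠ 0 → 0 < v (algebraMap R E a)) := by
  have hinjB : Function.Injective (algebraMap B E) := IsFractionRing.injective B E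
  have hinjR : Function.Injective (algebraMap R E) := IsFractionRing.injective R E
  have hinjBR : Function.Injective (algebraMap B R) := by
    intro a b hab
    apply hinjB
    rw [IsScalarTower.algebraMap_apply B R E, hab, ← IsScalarTower.algebraMap_apply B R E]
  -- every `a : R` is `b / s`
  have key : ∀ a : R, a ≠ 0 → ∃ (b s : B), s ∉ 𝔪 ∧ b ≠ 0 ∧ P' a * P s = P b ∧
      v (algebraMap R E a) = v (algebraMap B E b) := by
    intro a ha
    obtain ⟨b, s, rfl⟩ := IsLocalization.exists_mk'_eq 𝔪.primeCompl a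
    have hspec : IsLocalization.mk' R b s * algebraMap B R s = algebraMap B R b :=
      IsLocalization.mk'_spec R b s
    have hs0 : (s : B) ≠ 0 := fun h0 => s.2 (h0 ▸ 𝔪.zero_mem)
    have hb0 : b ≠ 0 := by
      rintro rfl
      apply ha
      rw [IsLocalization.mk'_zero]
    refine ⟨b, s, s.2, hb0, ?_, ?_⟩
    · rw [← hP' s, ← map_mul, hspec, hP']
    · have hsP : (s : B) ∉ RingHom.ker (P : B →+* R₁) := fun h => s.2 (hP h)
      have hvs := hunit s hsP
      have h1 : algebraMap R E (IsLocalization.mk' R b s) * algebraMap B E s = algebraMap B E b := by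
        rw [IsScalarTower.algebraMap_apply B R E, ← map_mul, hspec,
          ← IsScalarTower.algebraMap_apply B R E]
      have h2 := hmul (algebraMap R E (IsLocalization.mk' R b s)) (algebraMap B E s)
        (fun h0 => ha (hinjR (by rw [h0, map_zero])))
        (fun h0 => hs0 (hinjB (by rw [h0, map_zero])))
      rw [h1, hvs, add_zero] at h2
      exact h2.symm
  constructor
  · intro a ha
    have ha0 : a ≠ 0 := by
      rintro rfl
      exact ha (Ideal.zero_mem _)
    obtain ⟨b, s, hs, hb0, hPab, hv⟩ := key a ha0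
    rw [hv]
    apply hunit
    intro hb
    rw [RingHom.mem_ker] at hb
    change P b = 0 at hb
    rw [hb] at hPab
    rcases mul_eq_zero.mp hPab with h | h
    · exact ha h
    · exact hs (hP h)
  · intro a ha ha0
    obtain ⟨b, s, hs, hb0, hPab, hv⟩ := key a ha0
    rw [hv]
    apply hpos _ _ hb0
    rw [RingHom.mem_ker] at ha ⊢
    change P' a = 0 at ha
    change P b = 0
    rw [← hPab, ha, zero_mul]

end Retraction

end Fermat.Agent.SS
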