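/-
(SS-q) — helper6 — **the modular unit at a node, abstractly**: in a noetherian integrally closed
local domain `R` with two vertical primes `P0`, `Pinf` (the only primes of height one containing
`π`), an element `g` of the fraction field which is a unit at `Pinf`, is `π^c` times a unit at `P0`
(`1 ≤ c`) and is a unit at every horizontal prime of height one, is an element `u ∈ 𝔪` satisfying
the hypotheses `hu_max hu_ne hu_hor hu_c` of helper8's `IsNodePair.exists_normal_form`.
-/
import Mathlib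
import Fermat.Agent.SS.NODEALG_helper5_Div
import Fermat.Agent.SS.REG_helper8_Node

set_option autoImplicit false
set_option linter.unusedSectionVars false
set_option linter.style.haveILetI false

namespace Fermat.Agent.SS

open IsLocalRing

section NodeUnit

variable {R : Type*} [CommRing R] [IsDomain R] [IsLocalRing R] [IsNoetherianRing R]
  [IsIntegrallyClosed R] {K : Type*} [Field K] [Algebra R K] [IsFractionRing R K]
  {π : R} {P0 Pinf : Ideal R}

/-- **the unit at a node**: the hypotheses on `u` of `IsNodePair.exists_normal_form`. -/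
theorem exists_nodeUnit [P0.IsPrime] [Pinf.IsPrime] (hπ0 : π ∈ P0)
    (hvert : ∀ P : Ideal R, P.IsPrime → P.height = 1 → π ∈ P → P = P0 ∨ P = Pinf)
    {g : K} (hg_inf : IsUnitAtPrime Pinf g) {c : ℕ} (hc : 1 ≤ c)
    (hg_0 : IsUnitAtPrime P0 (g * (algebraMap R K π ^ c)⁻¹))
    (hg_hor : ∀ P : Ideal R, P.IsPrime → P.height = 1 → π ∉ P → IsUnitAtPrime P g) :
    ∃ u : R, algebraMap R K u = g ∧ u ∈ maximalIdeal R ∧ u ≠ 0 ∧
      (∀ P : Ideal R, P.IsPrime → P.height = 1 → u ∈ P → P = P0) ∧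
      ∃ s r : R, s ∉ P0 ∧ π ^ c * s = u * r := by
  have hg0 : g ≠ 0 := hg_inf.ne_zero
  have hπne : π ≠ 0 := by
    rintro rfl
    have h1 := hg_0.ne_zero
    rw [map_zero, zero_pow (by omega), inv_zero, mul_zero] at h1
    exact h1 rfl
  have hπK : algebraMap R K π ^ c ≠ 0 :=
    pow_ne_zero _ ((IsFractionRing.to_map_eq_zero_iff (K := K)).not.mpr hπne)
  obtain ⟨r0, s0, hr0, hs0, h0⟩ := hg_0
  -- `g * s0 = π^c * r0`
  have h0' : g * algebraMap R K s0 = algebraMap R K (π ^ c * r0) := by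
    rw [map_mul, map_pow, ← h0]
    field_simp
  -- membership
  have hmem : g ∈ (algebraMap R K).range := by
    apply mem_range_algebraMap_of_forall_height_one
    intro P hP hht
    by_cases hπP : π ∈ P
    · rcases hvert P hP hht hπP with rfl | rfl
      · exact ⟨π ^ c * r0, s0, hs0, h0'⟩
      · obtain ⟨r, s, _, hs, hrs⟩ := hg_inf
        exact ⟨r, s, hs, hrs⟩
    · obtain ⟨r, s, _, hs, hrs⟩ := hg_hor P hP hht hπP
      exact ⟨r, s, hs, hrs⟩
  obtain ⟨u, hu⟩ := hmem
  have hinj := IsFractionRing.injective R K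
  have hus : u * s0 = π ^ c * r0 := by
    apply hinj
    rw [map_mul, hu, h0']
  have hu0 : u ≠ 0 := by
    rintro rfl
    rw [map_zero] at hu
    exact hg0 hu.symm
  have huP0 : u ∈ P0 := by
    have h1 : u * s0 ∈ P0 := by
      rw [hus]
      obtain ⟨d, rfl⟩ : ∃ d, c = d + 1 := ⟨c - 1, by omega⟩
      rw [pow_succ, mul_assoc]
      exact P0.mul_mem_left _ (P0.mul_mem_right _ hπ0)
    rcases Ideal.IsPrime.mem_or_mem ‹P0.IsPrime› h1 with h | h
    · exact h
    · exact (hs0 h).elim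
  have notMem_of_unit : ∀ P : Ideal R, P.IsPrime → IsUnitAtPrime P g → u ∉ P := by
    intro P hP ⟨r, s, hr, _, hrs⟩ huP
    have h1 : u * s = r := by
      apply hinj
      rw [map_mul, hu, hrs]
    exact hr (h1 ▸ P.mul_mem_right _ huP)
  refine ⟨u, hu, le_maximalIdeal (Ideal.IsPrime.ne_top ‹P0.IsPrime›) huP0, hu0, ?_,
    r0, s0, hr0, hus.symm⟩
  intro P hP hht huP
  by_cases hπP : π ∈ P
  · rcases hvert P hP hht hπP with h | h
    · exact h
    · exact (notMem_of_unit P hP (h ▸ hg_inf) huP).elim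
  · exact (notMem_of_unit P hP (hg_hor P hP hht hπP) huP).elim

/-- the normal form of a node from a unit `g` of the fraction field with divisor `c • P0`. -/
theorem IsNodePair.exists_normal_form_of_unit {x y : R} (h : IsNodePair P0 Pinf x y)
    [P0.IsPrime] [Pinf.IsPrime] (hπ0 : π ∈ P0) (hπinf : π ∈ Pinf)
    (hinf : P0 ⊓ Pinf ≤ Ideal.span {π})
    (hvert : ∀ P : Ideal R, P.IsPrime → P.height = 1 → π ∈ P → P = P0 ∨ P = Pinf)
    {g : K} (hg_inf : IsUnitAtPrime Pinf g) {c : ℕ} (hc : 1 ≤ c)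
    (hg_0 : IsUnitAtPrime P0 (g * (algebraMap R K π ^ c)⁻¹))
    (hg_hor : ∀ P : Ideal R, P.IsPrime → P.height = 1 → π ∉ P → IsUnitAtPrime P g) :
    ∃ (x' y' r : R) (m : ℕ), IsNodePair P0 Pinf x' y' ∧ x' - x ∈ Ideal.span {π} ∧
      y' - y ∈ Ideal.span {π} ∧ 1 ≤ m ∧ m ≤ c ∧ IsUnit r ∧ x' * y' = π ^ m * r := by
  obtain ⟨u, -, hu_max, hu_ne, hu_hor, hu_c⟩ :=
    exists_nodeUnit hπ0 hvert hg_inf hc hg_0 hg_hor
  have hπne : π ≠ 0 := by
    rintro rfl
    have h1 := hg_0.ne_zero
    rw [map_zero, zero_pow (by omega), inv_zero, mul_zero] at h1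
    exact h1 rfl
  exact h.exists_normal_form hπne hπ0 hπinf hinf hu_max hu_ne hu_hor hu_c

end NodeUnit

end Fermat.Agent.SS
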