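/-
(SS-q) — helper5 — **SS-LOCASM, part 2: clause (b) of `Γ₁` at every closed point of the special fibre
of a chart of the two-component normal model** (assembly of MODLOC + REG + UNITNODE + NODEALG).

`B` a chart (noetherian integrally closed domain, `R₁`-algebra, `E = Frac B`), `π` the image of the
uniformizer `ϖ` of the base DVR `R₁`, `𝔭∞ ≠ 𝔭0` the two primes over `π`, `𝔪 ∋ π` a maximal ideal.

* `IsKummerAtPrime R₁ m g 𝔮` : the hypothesis on `g` at a horizontal prime `𝔮` of height one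
  (`g` is a unit at `𝔮`, or `𝔮 = ker P` for a rational point `P : B →ₐ[R₁] R₁` and `m ∣ ord_𝔮 g`,
  the order being measured by a normalised valuation `v : E → ℤ` adapted to `𝔮`);
* `exists_local_points` : the finitely many rational points of `B_𝔪` in the support of `g`;
* `exists_kummer_at_smooth`, `exists_kummer_at_node` : `g = γ^m ·` unit of `B_𝔪` (abstract
  localisation `R` of `B` at `𝔪`);
* `exists_kummer_of_chart` : the same for `Localization.AtPrime 𝔪`, all cases together.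
-/
import Mathlib
import Fermat.Agent.SS.LOCASM_helper5_Transfer
import Fermat.Agent.SS.NODEALG_helper5_Kummer
import Fermat.Agent.SS.NODEALG_helper5_Smooth
import Fermat.Agent.SS.UNITNODE_helper6

set_option autoImplicit false
set_option linter.unusedSectionVars false
set_option linter.style.haveILetI false

namespace Fermat.Agent.SS

open IsLocalRing

section Data

variable (R₁ : Type*) [CommRing R₁]
variable {B : Type*} [CommRing B] [Algebra R₁ B]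
variable {E : Type*} [Field E] [Algebra B E]

/-- the hypothesis on the horizontal divisor of `g` at a horizontal prime `𝔮` of height one of the
chart `B`: either `g` is a unit at `𝔮`, or `𝔮` is the kernel of a rational point `P : B → R₁` and
the order of `g` at `𝔮` (measured by a normalised valuation `v` adapted to `𝔮`) is divisible by
`m`. -/
def IsKummerAtPrime (m : ℕ) (g : E) (𝔮 : Ideal B) : Prop :=
  IsUnitAtPrime 𝔮 g ∨ ∃ (P : B →ₐ[R₁] R₁) (v : E → ℤ) (k : ℤ),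
    RingHom.ker (P : B →+* R₁) = 𝔮 ∧
    (∀ a b : E, a ≠ 0 → b ≠ 0 → v (a * b) = v a + v b) ∧
    (∀ a : B, a ∉ 𝔮 → v (algebraMap B E a) = 0) ∧
    (∀ a : B, a ∈ 𝔮 → a ≠ 0 → 0 < v (algebraMap B E a)) ∧
    (∃ ϖ' : E, ϖ' ≠ 0 ∧ v ϖ' = 1) ∧ v g = (m : ℤ) * k

end Data

section LocalPoints

universe uR

variable {R₁ : Type*} [CommRing R₁] [IsDomain R₁] [IsDiscreteValuationRing R₁]
variable {B : Type*} [CommRing B] [IsDomain B] [Algebra R₁ B]
variable {R : Type uR} [CommRing R] [IsDomain R] [IsLocalRing R] [IsNoetherianRing R]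
  [Algebra B R] [Algebra R₁ R] [IsScalarTower R₁ B R]
variable {E : Type*} [Field E] [Algebra B E] [Algebra R E] [IsScalarTower B R E]
  [IsFractionRing B E] [IsFractionRing R E]

/-- the set of primes of height one of a noetherian domain at which a nonzero `g` is not a unit is
finite. -/
theorem finite_setOf_not_isUnitAtPrime {g : E} (hg : g ≠ 0) :
    {𝔮 : Ideal R | 𝔮.IsPrime ∧ 𝔮.height = 1 ∧ ¬ IsUnitAtPrime 𝔮 g}.Finite := by
  obtain ⟨a, b, hb, rfl⟩ := IsFractionRing.div_surjective (A := R) g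
  have hb0 : b ≠ 0 := nonZeroDivisors.ne_zero hb
  have ha0 : a ≠ 0 := by
    rintro rfl
    simp at hg
  have hab : a * b ≠ 0 := mul_ne_zero ha0 hb0
  refine (Ideal.finite_minimalPrimes_of_isNoetherianRing R (Ideal.span {a * b})).subset ?_
  rintro 𝔮 ⟨h𝔮, hht, hnu⟩
  haveI := h𝔮
  have hmem : a * b ∈ 𝔮 := by
    by_contra hn
    apply hnu
    have ha : a ∉ 𝔮 := fun h => hn (𝔮.mul_mem_right _ h)
    have hb' : b ∉ 𝔮 := fun h => hn (𝔮.mul_mem_left _ h)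
    exact (isUnitAtPrime_algebraMap ha).div (isUnitAtPrime_algebraMap hb')
  have hle : Ideal.span {a * b} ≤ 𝔮 := by
    rw [Ideal.span_le]
    rintro w rfl
    exact hmem
  obtain ⟨𝔭, h𝔭min, h𝔭le⟩ := Ideal.exists_minimalPrimes_le hle
  haveI : 𝔭.IsPrime := h𝔭min.1.1
  have h𝔭bot : 𝔭 ≠ ⊥ := by
    intro hbot
    have : a * b ∈ 𝔭 := h𝔭min.1.2 (Ideal.mem_span_singleton_self _)
    rw [hbot, Ideal.mem_bot] at this
    exact hab this
  have := eq_of_le_of_height_eq_one h𝔭le h𝔭bot hht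
  rw [← this]
  exact h𝔭min

/-- **the rational points through a closed point**: from the hypothesis `IsKummerAtPrime` at the
horizontal primes of height one of the chart through `𝔪`, a finite family of rational points of
the local ring `R = B_𝔪` carrying the horizontal divisor of `g`. -/
theorem exists_local_points (𝔪 : Ideal B) [h𝔪 : 𝔪.IsMaximal] [IsLocalization.AtPrime R 𝔪]
    {ϖ : R₁} {m : ℕ} {g : E} (hg : g ≠ 0)
    (hdiv : ∀ 𝔮 : Ideal B, 𝔮.IsPrime → 𝔮.height = 1 → algebraMap R₁ B ϖ ∉ 𝔮 → 𝔮 ≤ 𝔪 →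
      IsKummerAtPrime R₁ m g 𝔮) :
    ∃ (ι : Type uR) (S : Finset ι) (P : ι → (R →ₐ[R₁] R₁)) (e : ι → ℤ) (v : ι → E → ℤ),
      (∀ i ∈ S, ∀ j ∈ S, RingHom.ker (P i : R →+* R₁) = RingHom.ker (P j : R →+* R₁) → i = j) ∧
      (∀ 𝔮 : Ideal R, 𝔮.IsPrime → 𝔮.height = 1 → algebraMap R₁ R ϖ ∉ 𝔮 →
        (∀ i ∈ S, 𝔮 ≠ RingHom.ker (P i : R →+* R₁)) → IsUnitAtPrime 𝔮 g) ∧
      ∀ i ∈ S, (∀ a b : E, a ≠ 0 → b ≠ 0 → v i (a * b) = v i a + v i b) ∧
        (∀ a : R, a ∉ RingHom.ker (P i : R →+* R₁) → v i (algebraMap R E a) = 0) ∧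
        (∀ a : R, a ∈ RingHom.ker (P i : R →+* R₁) → a ≠ 0 → 0 < v i (algebraMap R E a)) ∧
        (∃ ϖ' : E, ϖ' ≠ 0 ∧ v i ϖ' = 1) ∧ v i g = (m : ℤ) * e i := by
  classical
  set 𝒮 : Set (Ideal R) := {𝔮 : Ideal R | 𝔮.IsPrime ∧ 𝔮.height = 1 ∧ ¬ IsUnitAtPrime 𝔮 g ∧
    algebraMap R₁ R ϖ ∉ 𝔮} with h𝒮
  have hfin : 𝒮.Finite := by
    refine (finite_setOf_not_isUnitAtPrime (R := R) hg).subset ?_
    rintro 𝔮 ⟨h1, h2, h3, -⟩
    exact ⟨h1, h2, h3⟩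
  haveI : Fintype ↥𝒮 := hfin.fintype
  have hpt : ∀ i : ↥𝒮, ∃ (P : R →ₐ[R₁] R₁) (v : E → ℤ) (k : ℤ),
      RingHom.ker (P : R →+* R₁) = i.1 ∧
      (∀ a b : E, a ≠ 0 → b ≠ 0 → v (a * b) = v a + v b) ∧
      (∀ a : R, a ∉ RingHom.ker (P : R →+* R₁) → v (algebraMap R E a) = 0) ∧
      (∀ a : R, a ∈ RingHom.ker (P : R →+* R₁) → a ≠ 0 → 0 < v (algebraMap R E a)) ∧
      (∃ ϖ' : E, ϖ' ≠ 0 ∧ v ϖ' = 1) ∧ v g = (m : ℤ) * k := by
    rintro ⟨𝔮, h𝔮, hht, hnu, hhor⟩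
    haveI := h𝔮
    have hprime : (𝔮.comap (algebraMap B R)).IsPrime := Ideal.comap_isPrime _ _
    have hht' := height_comap_eq_one 𝔪 𝔮 hht
    have hhor' : algebraMap R₁ B ϖ ∉ 𝔮.comap (algebraMap B R) := by
      rw [Ideal.mem_comap, ← IsScalarTower.algebraMap_apply R₁ B R]
      exact hhor
    have hle := comap_le_of_isPrime 𝔪 𝔮
    rcases hdiv _ hprime hht' hhor' hle with hu | ⟨P, v, k, hker, hmul, hunit, hpos, hone, hvg⟩
    · exact absurd (isUnitAtPrime_of_comap 𝔮 hu) hnu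
    · have hPle : RingHom.ker (P : B →+* R₁) ≤ 𝔪 := hker ▸ hle
      obtain ⟨P', hP', hcomap⟩ := exists_retraction_localization (R := R) 𝔪 P hPle
      have hkerP' : RingHom.ker (P' : R →+* R₁) = 𝔮 := by
        apply eq_of_comap_eq_localization 𝔪
        rw [hcomap, hker]
      obtain ⟨hunit', hpos'⟩ := valuation_transfer (E := E) 𝔪 P hPle P' hP' v hmul
        (fun a ha => hunit a (hker ▸ ha)) (fun a ha => hpos a (hker ▸ ha))
      exact ⟨P', v, k, hkerP', hmul, hunit', hpos', hone, hvg⟩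
  choose P v k hker hmul hunit hpos hone hvg using hpt
  refine ⟨↥𝒮, Finset.univ, P, k, v, ?_, ?_, ?_⟩
  · intro i _ j _ hij
    rw [hker, hker] at hij
    exact Subtype.ext hij
  · intro 𝔮 h𝔮 hht hhor hne
    by_contra hnu
    have hmem : 𝔮 ∈ 𝒮 := ⟨h𝔮, hht, hnu, hhor⟩
    exact hne ⟨𝔮, hmem⟩ (Finset.mem_univ _) (hker ⟨𝔮, hmem⟩).symm
  · intro i _
    exact ⟨hmul i, hunit i, hpos i, hone i, hvg i⟩

end LocalPoints

section LocalKummer

variable {R₁ : Type*} [CommRing R₁] [IsDomain R₁] [IsDiscreteValuationRing R₁]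
variable {B : Type*} [CommRing B] [IsDomain B] [Algebra R₁ B]
variable {R : Type*} [CommRing R] [IsDomain R] [IsLocalRing R] [IsNoetherianRing R]
  [IsIntegrallyClosed R] [Algebra B R] [Algebra R₁ R] [IsScalarTower R₁ B R]
variable {E : Type*} [Field E] [Algebra B E] [Algebra R E] [IsScalarTower B R E]
  [IsFractionRing B E] [IsFractionRing R E]

omit [IsDomain R₁] [IsDiscreteValuationRing R₁] [IsDomain B] [IsDomain R] [IsLocalRing R]
  [IsNoetherianRing R] [IsIntegrallyClosed R] [IsFractionRing B E] [IsFractionRing R E] in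
/-- the image of the base uniformizer in `E`, computed through `R`. -/
theorem algebraMap_base_eq (ϖ : R₁) :
    algebraMap B E (algebraMap R₁ B ϖ) = algebraMap R E (algebraMap R₁ R ϖ) := by
  rw [IsScalarTower.algebraMap_apply B R E, ← IsScalarTower.algebraMap_apply R₁ B R]

/-- the order of `g` at a rational point of the local ring, from the valuation. -/
theorem isUnitAtPrime_of_valuation {P : R →ₐ[R₁] R₁} {t : R}
    (ht : t ∈ RingHom.ker (P : R →+* R₁)) (ht0 : t ≠ 0)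
    (hloc : ∀ z ∈ RingHom.ker (P : R →+* R₁), ∃ s : R, s ∉ RingHom.ker (P : R →+* R₁) ∧ t ∣ s * z)
    {g : E} (hg : g ≠ 0) {v : E → ℤ} {k : ℤ}
    (hmul : ∀ a b : E, a ≠ 0 → b ≠ 0 → v (a * b) = v a + v b)
    (hunit : ∀ a : R, a ∉ RingHom.ker (P : R →+* R₁) → v (algebraMap R E a) = 0)
    (hpos : ∀ a : R, a ∈ RingHom.ker (P : R →+* R₁) → a ≠ 0 → 0 < v (algebraMap R E a))
    (hone : ∃ ϖ' : E, ϖ' ≠ 0 ∧ v ϖ' = 1) (hvg : v g = k) :
    IsUnitAtPrime (RingHom.ker (P : R →+* R₁)) (g * (algebraMap R E t ^ k)⁻¹) := by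
  haveI : (RingHom.ker (P : R →+* R₁)).IsPrime := ker_retraction_isPrime P
  obtain ⟨e', he'⟩ := exists_zpow_isUnitAtPrime (K := E) (RingHom.ker (P : R →+* R₁)) ht hloc hg
  have h2 := (valuation_eq_of_isUnitAtPrime (K := E) (RingHom.ker (P : R →+* R₁)) ht ht0 hloc v
    hmul hunit hpos hone).2 g e' he'
  rw [hvg] at h2
  rw [h2]
  exact he'

/-- **(b) at a smooth closed point of the special fibre.** -/
theorem exists_kummer_at_smooth (𝔪 : Ideal B) [h𝔪 : 𝔪.IsMaximal] [IsLocalization.AtPrime R 𝔪]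
    {ϖ : R₁} (hϖ : Irreducible ϖ) (hπne : algebraMap R₁ B ϖ ≠ 0)
    {𝔭 𝔭' : Ideal B} [h𝔭 : 𝔭.IsPrime] (hπ : algebraMap R₁ B ϖ ∈ 𝔭)
    (hinf : 𝔭 ⊓ 𝔭' ≤ Ideal.span {algebraMap R₁ B ϖ}) (hle : 𝔭 ≤ 𝔪) (hnle : ¬ 𝔭' ≤ 𝔪)
    {z : B} (hz : IsBranchUniformizer 𝔭 𝔪 z)
    {m : ℕ} (hm : m ≠ 0) {g : E} (hg : g ≠ 0)
    (hdiv : ∀ 𝔮 : Ideal B, 𝔮.IsPrime → 𝔮.height = 1 → algebraMap R₁ B ϖ ∉ 𝔮 → 𝔮 ≤ 𝔪 →
      IsKummerAtPrime R₁ m g 𝔮)
    (j : ℤ) (hgπ : IsUnitAtPrime 𝔭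
      (g * (algebraMap B E (algebraMap R₁ B ϖ) ^ ((m : ℤ) * j))⁻¹)) :
    ∃ γ : E, γ ≠ 0 ∧ IsUnitAtPrime 𝔪 (g * (γ ^ m)⁻¹) := by
  have hinjB : Function.Injective (algebraMap B E) := IsFractionRing.injective B E
  have hinjBR : Function.Injective (algebraMap B R) := by
    intro a b hab
    apply hinjB
    rw [IsScalarTower.algebraMap_apply B R E, hab, ← IsScalarTower.algebraMap_apply B R E]
  have hπR : algebraMap B R (algebraMap R₁ B ϖ) = algebraMap R₁ R ϖ :=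
    (IsScalarTower.algebraMap_apply R₁ B R ϖ).symm
  have hπne' : algebraMap R₁ R ϖ ≠ 0 := by
    rw [← hπR]
    intro h0
    exact hπne (hinjBR (by rw [h0, map_zero]))
  obtain ⟨hmax, hprime, hznot⟩ := smooth_point_of_branch (R := R) 𝔪 hπ hinf hle hnle hz
  rw [hπR] at hmax hprime hznot
  have hmap := map_eq_span_of_not_le (R := R) 𝔪 hπ hinf hnle
  rw [hπR] at hmap
  obtain ⟨ι, S, P, e, v, hPinj, hfhor, hval⟩ := exists_local_points (R := R) 𝔪 hg hdiv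
  have hzm : algebraMap B R z ∈ maximalIdeal R := by
    rw [hmax]; exact Ideal.subset_span (by simp)
  have hfP : ∀ i ∈ S, IsUnitAtPrime (RingHom.ker (P i : R →+* R₁))
      (g * (algebraMap R E (algebraMap B R z - algebraMap R₁ R (P i (algebraMap B R z))) ^
        ((m : ℤ) * e i))⁻¹) := by
    intro i hi
    obtain ⟨hmul, hunit, hpos, hone, hvg⟩ := hval i hi
    refine isUnitAtPrime_of_valuation (sub_algebraMap_mem_ker (P i) _) ?_
      (locally_principal_ker_of_smooth hϖ hmax (P i)) hg hmul hunit hpos hone hvg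
    intro h0
    apply hznot
    rw [sub_eq_zero] at h0
    rw [h0]
    exact algebraMap_retraction_mem_span hϖ (P i) hzm
  have hfπ : IsUnitAtPrime (Ideal.span {algebraMap R₁ R ϖ})
      (g * (algebraMap R E (algebraMap R₁ R ϖ) ^ ((m : ℤ) * j))⁻¹) := by
    have := isUnitAtPrime_map_of_le (R := R) 𝔪 𝔭 hle hgπ
    rw [hmap, algebraMap_base_eq (R := R)] at this
    exact this
  obtain ⟨γ, w, hγ⟩ := exists_kummer_factorisation_of_smooth (K := E) hϖ hmax hprime hπne' hznot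
    (N := m) hg S P e hPinj hfhor hfP j hfπ
  exact ⟨γ, isUnitAtPrime_of_eq_pow_mul_unit 𝔪 hm hg w hγ⟩

/-- **(b) at a node of the special fibre.** -/
theorem exists_kummer_at_node (𝔪 : Ideal B) [h𝔪 : 𝔪.IsMaximal] [IsLocalization.AtPrime R 𝔪]
    {ϖ : R₁} (hϖ : Irreducible ϖ) (hπne : algebraMap R₁ B ϖ ≠ 0)
    {𝔭inf 𝔭0 : Ideal B} [h𝔭inf : 𝔭inf.IsPrime] [h𝔭0 : 𝔭0.IsPrime]
    (hπinf : algebraMap R₁ B ϖ ∈ 𝔭inf) (hπ0 : algebraMap R₁ B ϖ ∈ 𝔭0)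
    (hinf : 𝔭inf ⊓ 𝔭0 ≤ Ideal.span {algebraMap R₁ B ϖ})
    (hleinf : 𝔭inf ≤ 𝔪) (hle0 : 𝔭0 ≤ 𝔪) {x y : B}
    (hx : IsBranchUniformizer 𝔭inf 𝔪 x) (hx0 : x ∈ 𝔭0)
    (hy : IsBranchUniformizer 𝔭0 𝔪 y) (hyinf : y ∈ 𝔭inf)
    {u : E} {c : ℕ} (hc : 1 ≤ c) (hu_inf : IsUnitAtPrime 𝔭inf u)
    (hu_0 : IsUnitAtPrime 𝔭0 (u * (algebraMap B E (algebraMap R₁ B ϖ) ^ c)⁻¹))
    (hu_hor : ∀ 𝔮 : Ideal B, 𝔮.IsPrime → 𝔮.height = 1 → algebraMap R₁ B ϖ ∉ 𝔮 → 𝔮 ≤ 𝔪 →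
      IsUnitAtPrime 𝔮 u)
    {m : ℕ} (hm : m ≠ 0) {g : E} (hg : g ≠ 0)
    (hdiv : ∀ 𝔮 : Ideal B, 𝔮.IsPrime → 𝔮.height = 1 → algebraMap R₁ B ϖ ∉ 𝔮 → 𝔮 ≤ 𝔪 →
      IsKummerAtPrime R₁ m g 𝔮)
    (hpow : ∃ a b c d : B, a ∉ 𝔭inf ∧ b ∉ 𝔭inf ∧ c ∉ 𝔭inf ∧ d ∉ 𝔭inf ∧
      g * algebraMap B E b = algebraMap B E a ∧ a * d ^ m - b * c ^ m ∈ 𝔭inf) :
    ∃ γ : E, γ ≠ 0 ∧ IsUnitAtPrime 𝔪 (g * (γ ^ m)⁻¹) := by
  have hinjB : Function.Injective (algebraMap B E) := IsFractionRing.injective B E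
  have hinjBR : Function.Injective (algebraMap B R) := by
    intro a b hab
    apply hinjB
    rw [IsScalarTower.algebraMap_apply B R E, hab, ← IsScalarTower.algebraMap_apply B R E]
  have hπR : algebraMap B R (algebraMap R₁ B ϖ) = algebraMap R₁ R ϖ :=
    (IsScalarTower.algebraMap_apply R₁ B R ϖ).symm
  have hπne' : algebraMap R₁ R ϖ ≠ 0 := by
    rw [← hπR]
    intro h0
    exact hπne (hinjBR (by rw [h0, map_zero]))
  haveI hP0 : (𝔭0.map (algebraMap B R)).IsPrime := map_isPrime_of_le 𝔪 𝔭0 hle0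
  haveI hPinf : (𝔭inf.map (algebraMap B R)).IsPrime := map_isPrime_of_le 𝔪 𝔭inf hleinf
  have hnode := isNodePair_of_branches (R := R) 𝔪 hleinf hle0 hx hx0 hy hyinf
  have hπ0' : algebraMap R₁ R ϖ ∈ 𝔭0.map (algebraMap B R) := by
    rw [← hπR]; exact Ideal.mem_map_of_mem _ hπ0
  have hπinf' : algebraMap R₁ R ϖ ∈ 𝔭inf.map (algebraMap B R) := by
    rw [← hπR]; exact Ideal.mem_map_of_mem _ hπinf
  have hinf' : 𝔭0.map (algebraMap B R) ⊓ 𝔭inf.map (algebraMap B R) ≤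
      Ideal.span {algebraMap R₁ R ϖ} := by
    have := map_inf_map_le_span (R := R) 𝔪 hinf
    rwa [hπR] at this
  have hvert := eq_or_eq_of_mem_of_height_one_local hπ0' hπinf' hπne' hinf'
  -- the unit
  have hu_inf' : IsUnitAtPrime (𝔭inf.map (algebraMap B R)) u :=
    isUnitAtPrime_map_of_le 𝔪 𝔭inf hleinf hu_inf
  have hu_0' : IsUnitAtPrime (𝔭0.map (algebraMap B R))
      (u * (algebraMap R E (algebraMap R₁ R ϖ) ^ c)⁻¹) := by
    have := isUnitAtPrime_map_of_le (R := R) 𝔪 𝔭0 hle0 hu_0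
    rwa [algebraMap_base_eq (R := R)] at this
  have hu_hor' : ∀ Q : Ideal R, Q.IsPrime → Q.height = 1 → algebraMap R₁ R ϖ ∉ Q →
      IsUnitAtPrime Q u := by
    intro Q hQ hht hhor
    haveI := hQ
    refine isUnitAtPrime_of_comap Q (hu_hor _ (Ideal.comap_isPrime _ _)
      (height_comap_eq_one 𝔪 Q hht) ?_ (comap_le_of_isPrime 𝔪 Q))
    rw [Ideal.mem_comap, hπR]
    exact hhor
  obtain ⟨x', y', r, m', hnode', -, -, hm', -, hr, hxy⟩ :=
    hnode.exists_normal_form_of_unit (K := E) hπ0' hπinf' hinf' hvert hu_inf' hc hu_0' hu_hor'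
  have hmax := hnode'.maximalIdeal_eq hπ0' hinf'
  obtain ⟨ι, S, P, e, v, hPinj, hfhor, hval⟩ := exists_local_points (R := R) 𝔪 hg hdiv
  have hx'm : x' ∈ maximalIdeal R := by
    rw [hmax]; exact Ideal.subset_span (by simp)
  have hfP : ∀ i ∈ S, IsUnitAtPrime (RingHom.ker (P i : R →+* R₁))
      (g * (algebraMap R E (x' - algebraMap R₁ R (P i x')) ^ ((m : ℤ) * e i))⁻¹) := by
    intro i hi
    obtain ⟨hmul, hunit, hpos, hone, hvg⟩ := hval i hi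
    refine isUnitAtPrime_of_valuation (sub_algebraMap_mem_ker (P i) _) ?_
      (locally_principal_ker_of_node hϖ hmax hxy hr (P i)) hg hmul hunit hpos hone hvg
    intro h0
    apply hnode'.x_notMem
    rw [sub_eq_zero] at h0
    rw [h0]
    have h1 := algebraMap_retraction_mem_span hϖ (P i) hx'm
    rw [Ideal.mem_span_singleton] at h1
    obtain ⟨w, hw⟩ := h1
    rw [hw]
    exact Ideal.mul_mem_right _ _ hπinf'
  have hpow' : ∃ a b c d : R, a ∉ 𝔭inf.map (algebraMap B R) ∧ b ∉ 𝔭inf.map (algebraMap B R) ∧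
      c ∉ 𝔭inf.map (algebraMap B R) ∧ d ∉ 𝔭inf.map (algebraMap B R) ∧
      g * algebraMap R E b = algebraMap R E a ∧ a * d ^ m - b * c ^ m ∈ 𝔭inf.map (algebraMap B R) := by
    obtain ⟨a, b, c', d, ha, hb, hc', hd, hab, hmem⟩ := hpow
    refine ⟨algebraMap B R a, algebraMap B R b, algebraMap B R c', algebraMap B R d, ?_, ?_, ?_, ?_,
      ?_, ?_⟩
    · rwa [algebraMap_mem_map_iff_of_le 𝔪 𝔭inf hleinf]
    · rwa [algebraMap_mem_map_iff_of_le 𝔪 𝔭inf hleinf]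
    · rwa [algebraMap_mem_map_iff_of_le 𝔪 𝔭inf hleinf]
    · rwa [algebraMap_mem_map_iff_of_le 𝔪 𝔭inf hleinf]
    · rw [← IsScalarTower.algebraMap_apply B R E, ← IsScalarTower.algebraMap_apply B R E]
      exact hab
    · have := Ideal.mem_map_of_mem (algebraMap B R) hmem
      simpa only [map_sub, map_mul, map_pow] using this
  obtain ⟨γ, w, hγ⟩ := hnode'.exists_kummer_factorisation' (K := E) hϖ hπ0' hπinf' hinf' hxy hr hm'
    hm hg S P e hPinj hfhor hfP hpow'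
  exact ⟨γ, isUnitAtPrime_of_eq_pow_mul_unit 𝔪 hm hg w hγ⟩

end LocalKummer

section Chart

variable {R₁ : Type*} [CommRing R₁] [IsDomain R₁] [IsDiscreteValuationRing R₁]
variable {B : Type*} [CommRing B] [IsDomain B] [IsNoetherianRing B] [IsIntegrallyClosed B]
  [Algebra R₁ B]
variable {E : Type*} [Field E] [Algebra B E] [IsFractionRing B E]

/-- **SS-LOCASM: clause (b) of `Γ₁` at a closed point `𝔪` of the special fibre of a chart `B` of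
the two-component normal model.**

Data at `𝔪`: the two components `𝔭∞ ≠ 𝔭0` (`π` in both, `𝔭∞ ⊓ 𝔭0 ≤ (π)`); if only one component
passes through `𝔪`, a branch uniformizer of it at `𝔪`; if both do (a node), branch uniformizers
`x ∈ 𝔭0` of `𝔭∞` and `y ∈ 𝔭∞` of `𝔭0`, and a function `u` (the modular unit) which is a unit at
`𝔭∞`, `π^c ·` unit at `𝔭0` and a unit at the horizontal primes of height one through `𝔪`.
Hypotheses on `g`: `IsKummerAtPrime` at the horizontal primes of height one through `𝔪`; unit and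
an `m`-th power modulo `𝔭∞`; order divisible by `m` at `𝔭0`. Conclusion: `g = γ^m ·` (unit of
`B_𝔪`). -/
theorem exists_kummer_of_chart (𝔪 : Ideal B) [h𝔪 : 𝔪.IsMaximal]
    {ϖ : R₁} (hϖ : Irreducible ϖ) (hπne : algebraMap R₁ B ϖ ≠ 0)
    (hπ𝔪 : algebraMap R₁ B ϖ ∈ 𝔪)
    {𝔭inf 𝔭0 : Ideal B} [h𝔭inf : 𝔭inf.IsPrime] [h𝔭0 : 𝔭0.IsPrime]
    (hπinf : algebraMap R₁ B ϖ ∈ 𝔭inf) (hπ0 : algebraMap R₁ B ϖ ∈ 𝔭0)
    (hinf : 𝔭inf ⊓ 𝔭0 ≤ Ideal.span {algebraMap R₁ B ϖ})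
    (hbr_inf : 𝔭inf ≤ 𝔪 → ¬ 𝔭0 ≤ 𝔪 → ∃ z : B, IsBranchUniformizer 𝔭inf 𝔪 z)
    (hbr_0 : 𝔭0 ≤ 𝔪 → ¬ 𝔭inf ≤ 𝔪 → ∃ z : B, IsBranchUniformizer 𝔭0 𝔪 z)
    (hnode : 𝔭inf ≤ 𝔪 → 𝔭0 ≤ 𝔪 → ∃ x y : B,
      IsBranchUniformizer 𝔭inf 𝔪 x ∧ x ∈ 𝔭0 ∧ IsBranchUniformizer 𝔭0 𝔪 y ∧ y ∈ 𝔭inf ∧
      ∃ (u : E) (c : ℕ), 1 ≤ c ∧ IsUnitAtPrime 𝔭inf u ∧
        IsUnitAtPrime 𝔭0 (u * (algebraMap B E (algebraMap R₁ B ϖ) ^ c)⁻¹) ∧
        ∀ 𝔮 : Ideal B, 𝔮.IsPrime → 𝔮.height = 1 → algebraMap R₁ B ϖ ∉ 𝔮 → 𝔮 ≤ 𝔪 →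
          IsUnitAtPrime 𝔮 u)
    {m : ℕ} (hm : m ≠ 0) {g : E} (hg : g ≠ 0)
    (hdiv : ∀ 𝔮 : Ideal B, 𝔮.IsPrime → 𝔮.height = 1 → algebraMap R₁ B ϖ ∉ 𝔮 → 𝔮 ≤ 𝔪 →
      IsKummerAtPrime R₁ m g 𝔮)
    (hpow : ∃ a b c d : B, a ∉ 𝔭inf ∧ b ∉ 𝔭inf ∧ c ∉ 𝔭inf ∧ d ∉ 𝔭inf ∧
      g * algebraMap B E b = algebraMap B E a ∧ a * d ^ m - b * c ^ m ∈ 𝔭inf)
    (j : ℤ) (hg0 : IsUnitAtPrime 𝔭0
      (g * (algebraMap B E (algebraMap R₁ B ϖ) ^ ((m : ℤ) * j))⁻¹)) :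
    ∃ γ : E, γ ≠ 0 ∧ IsUnitAtPrime 𝔪 (g * (γ ^ m)⁻¹) := by
  -- the local ring
  have hS : 𝔪.primeCompl ≤ nonZeroDivisors B := by
    intro s hs
    exact mem_nonZeroDivisors_of_ne_zero (fun h0 => hs (h0 ▸ 𝔪.zero_mem))
  haveI : IsIntegrallyClosed (Localization.AtPrime 𝔪) :=
    isIntegrallyClosed_of_isLocalization (Localization.AtPrime 𝔪) 𝔪.primeCompl hS
  have hunits : ∀ s : 𝔪.primeCompl, IsUnit (algebraMap B E s) := fun s =>
    Localization.map_isUnit_of_le E 𝔪.primeCompl hS s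
  letI : Algebra (Localization.AtPrime 𝔪) E :=
    (IsLocalization.lift (M := 𝔪.primeCompl) (S := Localization.AtPrime 𝔪) hunits).toAlgebra
  haveI : IsScalarTower B (Localization.AtPrime 𝔪) E :=
    IsScalarTower.of_algebraMap_eq (fun b => (IsLocalization.lift_eq hunits b).symm)
  haveI : IsFractionRing (Localization.AtPrime 𝔪) E :=
    IsFractionRing.isFractionRing_of_isDomain_of_isLocalization 𝔪.primeCompl
      (Localization.AtPrime 𝔪) E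
  rcases le_or_le_of_mem hπinf hπ0 hinf 𝔪 hπ𝔪 with hleinf | hle0
  · by_cases hle0 : 𝔭0 ≤ 𝔪
    · -- a node
      obtain ⟨x, y, hx, hx0, hy, hyinf, u, c, hc, hu_inf, hu_0, hu_hor⟩ := hnode hleinf hle0
      exact exists_kummer_at_node (R := Localization.AtPrime 𝔪) 𝔪 hϖ hπne hπinf hπ0 hinf hleinf hle0
        hx hx0 hy hyinf hc hu_inf hu_0 hu_hor hm hg hdiv hpow
    · -- a smooth point of `𝔭∞`
      obtain ⟨z, hz⟩ := hbr_inf hleinf hle0
      obtain ⟨a, b, c', d, ha, hb, -, -, hab, -⟩ := hpow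
      have hgu : IsUnitAtPrime 𝔭inf g := ⟨a, b, ha, hb, hab⟩
      refine exists_kummer_at_smooth (R := Localization.AtPrime 𝔪) 𝔪 hϖ hπne hπinf hinf hleinf hle0
        hz hm hg hdiv 0 ?_
      simpa using hgu
  · by_cases hleinf : 𝔭inf ≤ 𝔪
    · obtain ⟨x, y, hx, hx0, hy, hyinf, u, c, hc, hu_inf, hu_0, hu_hor⟩ := hnode hleinf hle0
      exact exists_kummer_at_node (R := Localization.AtPrime 𝔪) 𝔪 hϖ hπne hπinf hπ0 hinf hleinf hle0
        hx hx0 hy hyinf hc hu_inf hu_0 hu_hor hm hg hdiv hpow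
    · -- a smooth point of `𝔭0`
      obtain ⟨z, hz⟩ := hbr_0 hle0 hleinf
      have hinf' : 𝔭0 ⊓ 𝔭inf ≤ Ideal.span {algebraMap R₁ B ϖ} := by
        rw [inf_comm]; exact hinf
      exact exists_kummer_at_smooth (R := Localization.AtPrime 𝔪) 𝔪 hϖ hπne hπ0 hinf' hle0 hleinf
        hz hm hg hdiv j hg0

end Chart

end Fermat.Agent.SS
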