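/-
(SS-q), glue NODEPLACE, helper1. **Horizontal height-one primes are centres of places.**
`O ⊂ E` a noetherian integrally closed domain with `Frac O = E`, an `R₁`-algebra (`R₁` a discrete
valuation ring with uniformizer `π`, `K₁ = Frac R₁`, `E/K₁`). A prime `𝔮` of height one of `O` with
`π ∉ 𝔮` is the centre of a place of `E/K₁` containing `O`, it is locally principal, and a function
of order zero at that place is a unit at `𝔮`.
-/
import Mathlib
import Fermat.Agent.FF.Gal_helper7_OfOrd
import Fermat.Agent.SS.RETR_helper1_Place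

set_option autoImplicit false
set_option linter.style.haveILetI false
set_option linter.unusedSectionVars false

open AlgebraicCurve IsLocalRing IsDedekindDomain

namespace Fermat.Agent.SS

open Fermat.Agent.FF Fermat.Agent.FF.Gal Fermat.Agent.JA

section HeightOne

variable {O : Type*} [CommRing O] [IsDomain O] [IsNoetherianRing O] [IsIntegrallyClosed O]

/-- **the localisation of a noetherian integrally closed domain at a prime of height one is a
discrete valuation ring.** -/
theorem isDiscreteValuationRing_of_height_eq_one (𝔮 : Ideal O) [𝔮.IsPrime] (h𝔮 : 𝔮.height = 1)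
    (S : Type*) [CommRing S] [IsDomain S] [Algebra O S] [IsLocalization.AtPrime S 𝔮] :
    IsDiscreteValuationRing S := by
  classical
  have hle : 𝔮.primeCompl ≤ nonZeroDivisors O := Ideal.primeCompl_le_nonZeroDivisors _
  haveI : IsLocalRing S := IsLocalization.AtPrime.isLocalRing S 𝔮
  haveI : IsNoetherianRing S := IsLocalization.isNoetherianRing 𝔮.primeCompl S inferInstance
  haveI : IsIntegrallyClosed S := isIntegrallyClosed_of_isLocalization S 𝔮.primeCompl hle
  have hdim : ringKrullDim S = 1 := by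
    rw [IsLocalization.AtPrime.ringKrullDim_eq_height 𝔮 S, h𝔮]
    rfl
  have hmh : (maximalIdeal S).height = 1 := by
    have h1 := IsLocalRing.maximalIdeal_height_eq_ringKrullDim (R := S)
    rw [hdim] at h1
    exact_mod_cast h1
  have hnf : ¬ IsField S := by
    intro hf
    have h1 : maximalIdeal S = ⊥ := IsLocalRing.isField_iff_maximalIdeal_eq.mp hf
    rw [h1, Ideal.height_bot] at hmh
    exact zero_ne_one hmh
  have h1 := (IsDiscreteValuationRing.TFAE S hnf).out 0 3
  rw [h1]
  refine ⟨inferInstance, maximalIdeal S, ⟨?_, inferInstance⟩, ?_⟩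
  · intro h0
    rw [h0, Ideal.height_bot] at hmh
    exact zero_ne_one hmh
  · rintro p ⟨hp0, hp⟩
    haveI := hp
    haveI : (maximalIdeal S).FiniteHeight := by
      rw [Ideal.finiteHeight_iff_lt]
      right
      rw [hmh]
      exact ENat.one_lt_top
    haveI : p.FiniteHeight := Ideal.finiteHeight_of_le (le_maximalIdeal hp.ne_top)
      (Ideal.IsPrime.ne_top inferInstance)
    refine Ideal.eq_of_le_of_height_le (I := p) (le_maximalIdeal hp.ne_top) ?_
    rw [hmh]
    have h2 : p.height ≠ 0 := fun h => hp0 (Ideal.height_eq_zero_iff_eq_bot.mp h)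
    exact Order.one_le_iff_pos.mpr (pos_iff_ne_zero.mpr h2)

/-- a prime of height one of a noetherian integrally closed domain is locally principal. -/
theorem exists_local_generator_of_height_eq_one (𝔮 : Ideal O) [𝔮.IsPrime] (h𝔮 : 𝔮.height = 1) :
    ∃ z ∈ 𝔮, z ≠ 0 ∧ ∀ w ∈ 𝔮, ∃ s : O, s ∉ 𝔮 ∧ z ∣ s * w := by
  classical
  have hle : 𝔮.primeCompl ≤ nonZeroDivisors O := Ideal.primeCompl_le_nonZeroDivisors _
  haveI : IsDomain (Localization.AtPrime 𝔮) := IsLocalization.isDomain_localization hle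
  haveI := isDiscreteValuationRing_of_height_eq_one 𝔮 h𝔮 (Localization.AtPrime 𝔮)
  have hinj : Function.Injective (algebraMap O (Localization.AtPrime 𝔮)) :=
    IsLocalization.injective _ hle
  obtain ⟨ϖ, hϖ⟩ := IsDiscreteValuationRing.exists_irreducible (Localization.AtPrime 𝔮)
  obtain ⟨z, s₀, rfl⟩ := IsLocalization.exists_mk'_eq 𝔮.primeCompl ϖ
  have hmax := hϖ.maximalIdeal_eq
  have hz : z ∈ 𝔮 := by
    have h1 : IsLocalization.mk' (Localization.AtPrime 𝔮) z s₀ ∈
        maximalIdeal (Localization.AtPrime 𝔮) := by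
      rw [hmax]
      exact Ideal.subset_span rfl
    exact (IsLocalization.AtPrime.mk'_mem_maximal_iff (Localization.AtPrime 𝔮) 𝔮 z s₀).mp h1
  have hz0 : z ≠ 0 := by
    rintro rfl
    rw [IsLocalization.mk'_zero] at hϖ
    exact hϖ.ne_zero rfl
  refine ⟨z, hz, hz0, fun w hw => ?_⟩
  have h1 : algebraMap O (Localization.AtPrime 𝔮) w ∈ maximalIdeal (Localization.AtPrime 𝔮) := by
    rw [← IsLocalization.mk'_one (M := 𝔮.primeCompl) (Localization.AtPrime 𝔮) w]
    exact (IsLocalization.AtPrime.mk'_mem_maximal_iff (Localization.AtPrime 𝔮) 𝔮 w 1).mpr hw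
  rw [hmax, Ideal.mem_span_singleton] at h1
  obtain ⟨y, hy⟩ := h1
  obtain ⟨a, t, rfl⟩ := IsLocalization.exists_mk'_eq 𝔮.primeCompl y
  rw [← IsLocalization.mk'_mul, eq_comm, IsLocalization.mk'_eq_iff_eq_mul, ← map_mul] at hy
  have h2 := hinj hy
  refine ⟨((s₀ * t : 𝔮.primeCompl) : O), (s₀ * t).2, ⟨a, ?_⟩⟩
  rw [h2, mul_comm]

end HeightOne

section Horizontal

variable {K₁ : Type*} [Field K₁] {E : Type*} [Field E] [Algebra K₁ E]
  {O : Type*} [CommRing O] [IsDomain O] [IsNoetherianRing O] [IsIntegrallyClosed O]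
  [Algebra O E] [IsFractionRing O E]

/-- **a prime `𝔮` of height one of `O` such that `K₁ ⊂ O_𝔮` is the centre of a place of `E/K₁`
containing `O`.** -/
theorem exists_place_centreIdeal_eq_of_height_eq_one (𝔮 : Ideal O) [𝔮.IsPrime]
    (h𝔮 : 𝔮.height = 1)
    (hK : ∀ c : K₁, ∃ x s : O, s ∉ 𝔮 ∧ algebraMap K₁ E c * algebraMap O E s = algebraMap O E x) :
    ∃ (P : Place K₁ E) (hO : ∀ x : O, algebraMap O E x ∈ P.toValuationSubring),
      centreIdeal P hO = 𝔮 := by
  classical
  have hinj : Function.Injective (algebraMap O E) := IsFractionRing.injective O E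
  have hS : 𝔮.primeCompl ≤ nonZeroDivisors O := Ideal.primeCompl_le_nonZeroDivisors _
  set Oq : Subalgebra O E := Localization.subalgebra.ofField E 𝔮.primeCompl hS with hOq
  haveI : IsLocalization.AtPrime ↥Oq 𝔮 := Localization.subalgebra.isLocalization_ofField E _ hS
  haveI : IsLocalRing ↥Oq := IsLocalization.AtPrime.isLocalRing ↥Oq 𝔮
  haveI : IsDiscreteValuationRing ↥Oq := isDiscreteValuationRing_of_height_eq_one 𝔮 h𝔮 ↥Oq
  let w : HeightOneSpectrum ↥Oq := IsDiscreteValuationRing.maximalIdeal ↥Oq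
  have hwI : w.asIdeal = maximalIdeal ↥Oq := rfl
  have hmemOq : ∀ z : ↥Oq, w.valuation E (z : E) ≤ 1 := fun z => w.valuation_le_one z
  have hcoe : ∀ x : O, ((algebraMap O ↥Oq x : ↥Oq) : E) = algebraMap O E x := fun x => rfl
  have hunitval : ∀ x : O, x ∉ 𝔮 → w.valuation E (algebraMap O E x) = 1 := by
    intro x hx
    have hxu : IsUnit (algebraMap O ↥Oq x) :=
      IsLocalization.map_units ↥Oq (⟨x, hx⟩ : 𝔮.primeCompl)
    have h1 : w.intValuation (algebraMap O ↥Oq x) = 1 := by
      rw [HeightOneSpectrum.intValuation_eq_one_iff, hwI, IsLocalRing.mem_maximalIdeal,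
        mem_nonunits_iff, not_not]
      exact hxu
    rw [← hcoe x]
    have := w.valuation_of_algebraMap (K := E) (algebraMap O ↥Oq x)
    rw [← h1, ← this]
    rfl
  have hmemval : ∀ x : O, x ∈ 𝔮 → w.valuation E (algebraMap O E x) < 1 := by
    intro x hx
    rw [← hcoe x]
    have h1 : (algebraMap ↥Oq E (algebraMap O ↥Oq x)) = ((algebraMap O ↥Oq x : ↥Oq) : E) := rfl
    rw [← h1, HeightOneSpectrum.valuation_lt_one_iff_mem, hwI,
      ← IsLocalization.mk'_one (M := 𝔮.primeCompl) ↥Oq x]
    exact (IsLocalization.AtPrime.mk'_mem_maximal_iff ↥Oq 𝔮 x 1).mpr hx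
  have hKmem : ∀ c : K₁, algebraMap K₁ E c ∈ (w.valuation E).valuationSubring := by
    intro c
    obtain ⟨x, s, hs, hcs⟩ := hK c
    rw [Valuation.mem_valuationSubring_iff]
    have hs0 : algebraMap O E s ≠ 0 :=
      (map_ne_zero_iff _ hinj).mpr (by rintro rfl; exact hs 𝔮.zero_mem)
    have h1 : algebraMap K₁ E c = algebraMap O E x * (algebraMap O E s)⁻¹ := by
      field_simp
      exact hcs
    rw [h1, map_mul, map_inv₀, hunitval s hs, inv_one, mul_one, ← hcoe x]
    exact hmemOq _
  have hν := isOrdFun_valuation (K := K₁) w hKmem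
  have hO : ∀ x : O, algebraMap O E x ∈ hν.place.toValuationSubring := by
    intro x
    rw [IsOrdFun.place_toValuationSubring, IsOrdFun.mem_valuationSubring_iff]
    by_cases hx0 : algebraMap O E x = 0
    · exact Or.inl hx0
    · right
      have h1 := hmemOq (algebraMap O ↥Oq x)
      rw [hcoe] at h1
      have h2 : w.valuation E (algebraMap O E x) ≠ 0 := (Valuation.ne_zero_iff _).mpr hx0
      have := (WithZero.log_le_log h2 one_ne_zero).mpr h1
      rw [WithZero.log_one] at this
      show 0 ≤ -WithZero.log (w.valuation E (algebraMap O E x))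
      omega
  refine ⟨hν.place, hO, ?_⟩
  ext x
  rw [mem_centreIdeal_iff, Place.isZeroAt_iff]
  constructor
  · rintro ⟨-, h0 | hinv⟩
    · rw [(map_eq_zero_iff _ hinj).mp h0]
      exact 𝔮.zero_mem
    · by_contra hx
      apply hinv
      rw [IsOrdFun.place_toValuationSubring, IsOrdFun.mem_valuationSubring_iff]
      right
      show 0 ≤ -WithZero.log (w.valuation E (algebraMap O E x)⁻¹)
      rw [map_inv₀, hunitval x hx, inv_one, WithZero.log_one, neg_zero]
  · intro hx
    refine ⟨hO x, ?_⟩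
    by_cases hx0 : algebraMap O E x = 0
    · exact Or.inl hx0
    right
    intro hmem
    rw [IsOrdFun.place_toValuationSubring, IsOrdFun.mem_valuationSubring_iff] at hmem
    rcases hmem with h0 | h0
    · exact inv_ne_zero hx0 h0
    · have h1 : 0 ≤ -WithZero.log (w.valuation E (algebraMap O E x)⁻¹) := h0
      rw [map_inv₀, WithZero.log_inv, neg_neg] at h1
      have h2 : w.valuation E (algebraMap O E x) ≠ 0 := (Valuation.ne_zero_iff _).mpr hx0
      have h3 := (WithZero.log_lt_log h2 one_ne_zero).mpr (hmemval x hx)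
      rw [WithZero.log_one] at h3
      omega

/-- a function of order zero at a place whose centre on `O` has height one is a unit at the
centre. -/
theorem isUnitAtPrime_of_ord_eq_zero_of_height_eq_one (P : Place K₁ E)
    (hO : ∀ x : O, algebraMap O E x ∈ P.toValuationSubring)
    (h𝔮 : (centreIdeal P hO).height = 1) {f : E} (hf0 : f ≠ 0) (hf : P.ord f = 0) :
    IsUnitAtPrime (centreIdeal P hO) f := by
  obtain ⟨z, hz, hz0, hloc⟩ := exists_local_generator_of_height_eq_one (centreIdeal P hO) h𝔮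
  exact (isUnitAtPrime_iff_ord_eq_zero P hO hz hz0 hloc hf0).mpr hf

end Horizontal

section HorizontalBase

variable {R₁ : Type*} [CommRing R₁] [IsDomain R₁] [IsDiscreteValuationRing R₁]
  {K₁ : Type*} [Field K₁] [Algebra R₁ K₁] [IsFractionRing R₁ K₁]
  {E : Type*} [Field E] [Algebra K₁ E] [Algebra R₁ E] [IsScalarTower R₁ K₁ E]
  {O : Type*} [CommRing O] [IsDomain O] [IsNoetherianRing O] [IsIntegrallyClosed O]
  [Algebra R₁ O] [Algebra O E] [IsScalarTower R₁ O E] [IsFractionRing O E]

/-- every element of `K₁` is a fraction of elements of `O` with denominator a power of `π`. -/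
theorem exists_mul_pow_eq_algebraMap {π : R₁} (hπ : Irreducible π) (c : K₁) :
    ∃ (x : O) (n : ℕ), algebraMap K₁ E c * algebraMap O E (algebraMap R₁ O π ^ n) =
      algebraMap O E x := by
  by_cases hc : c = 0
  · exact ⟨0, 0, by rw [hc, map_zero, zero_mul, map_zero]⟩
  obtain ⟨a, b, hb, rfl⟩ := IsFractionRing.div_surjective (A := R₁) c
  have hb0 : b ≠ 0 := nonZeroDivisors.ne_zero hb
  obtain ⟨n, u, rfl⟩ := IsDiscreteValuationRing.eq_unit_mul_pow_irreducible hb0 hπ
  refine ⟨algebraMap R₁ O (a * ((u⁻¹ : R₁ˣ) : R₁)), n, ?_⟩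
  have hu : algebraMap R₁ K₁ (u : R₁) ≠ 0 :=
    (map_ne_zero_iff _ (IsFractionRing.injective R₁ K₁)).mpr u.ne_zero
  have hπK : algebraMap R₁ K₁ π ≠ 0 :=
    (map_ne_zero_iff _ (IsFractionRing.injective R₁ K₁)).mpr hπ.ne_zero
  have huinv : algebraMap R₁ K₁ ((u⁻¹ : R₁ˣ) : R₁) = (algebraMap R₁ K₁ (u : R₁))⁻¹ := by
    apply eq_inv_of_mul_eq_one_left
    rw [← map_mul, Units.inv_mul, map_one]
  rw [← IsScalarTower.algebraMap_apply R₁ O E, ← map_pow, ← IsScalarTower.algebraMap_apply R₁ O E,
    IsScalarTower.algebraMap_apply R₁ K₁ E, IsScalarTower.algebraMap_apply R₁ K₁ E (a * _),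
    ← map_mul]
  congr 1
  simp only [map_mul, map_pow, huinv]
  field_simp

/-- **every horizontal prime of height one of `O` is the centre of a place of `E/K₁`** containing
`O`. -/
theorem exists_place_centreIdeal_eq {π : R₁} (hπ : Irreducible π) (𝔮 : Ideal O) [𝔮.IsPrime]
    (h𝔮 : 𝔮.height = 1) (hπ𝔮 : algebraMap R₁ O π ∉ 𝔮) :
    ∃ (P : Place K₁ E) (hO : ∀ x : O, algebraMap O E x ∈ P.toValuationSubring),
      centreIdeal P hO = 𝔮 := by
  refine exists_place_centreIdeal_eq_of_height_eq_one 𝔮 h𝔮 fun c => ?_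
  obtain ⟨x, n, hx⟩ := exists_mul_pow_eq_algebraMap (O := O) (E := E) hπ c
  exact ⟨x, algebraMap R₁ O π ^ n, fun h => hπ𝔮 (Ideal.IsPrime.mem_of_pow_mem inferInstance n h),
    hx⟩

/-- **(hfhor)**: a function which has order zero at every place of `E/K₁` containing `O` whose
centre is the horizontal height-one prime `𝔮` is a unit at `𝔮`. -/
theorem isUnitAtPrime_of_forall_place {π : R₁} (hπ : Irreducible π) (𝔮 : Ideal O) [𝔮.IsPrime]
    (h𝔮 : 𝔮.height = 1) (hπ𝔮 : algebraMap R₁ O π ∉ 𝔮) {f : E} (hf0 : f ≠ 0)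
    (hf : ∀ (P : Place K₁ E) (hO : ∀ x : O, algebraMap O E x ∈ P.toValuationSubring),
      centreIdeal P hO = 𝔮 → P.ord f = 0) : IsUnitAtPrime 𝔮 f := by
  obtain ⟨P, hO, hP⟩ := exists_place_centreIdeal_eq (K₁ := K₁) (E := E) hπ 𝔮 h𝔮 hπ𝔮
  have h1 := isUnitAtPrime_of_ord_eq_zero_of_height_eq_one P hO (by rw [hP]; exact h𝔮) hf0
    (hf P hO hP)
  rwa [hP] at h1

end HorizontalBase

end Fermat.Agent.SS
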