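/-
(SS-q) MODEL-GLOBAL leaf [D] ETALE — helper1 — part 1: **generic algebra**.

`A → B` finite, `π ∈ A`, `B / π B` free over `A / π` with a basis whose discriminant divides a power
of `c̄`.  For a maximal ideal `𝔫 ∋ π` of `B` with `c ∉ 𝔫`, and `J = 𝔫 ∩ A`:
* `mem_map_of_pow_mem_of_discr_dvd_pow` : the fibre `B / J B` is reduced;
* `exists_notMem_mul_mem_map` : every `w ∈ 𝔫` is killed modulo `J B` by some `s ∉ 𝔫`
  (`B / J B` is artinian and reduced, hence a product of fields);
* `exists_mul_sub_mul_mem_map_span` : if `J ≤ (π, z)` then `z` generates `𝔫` modulo `π`, locally at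
  `𝔫` (the `gen` clause of `IsBranchUniformizer`).
-/
import Mathlib
import Fermat.Agent.JA.PUR_lead_Main

set_option autoImplicit false
set_option linter.unusedSectionVars false
set_option linter.style.haveILetI false

namespace Fermat.Agent.SS

open Fermat.Agent.JA Module

section Gen

variable {A B : Type*} [CommRing A] [CommRing B] [Algebra A B] {π : A}

/-- the fibre of `B` over a maximal ideal `J ∋ π`, `c ∉ J`, is reduced as soon as `B / π B` has a
basis over `A / π` whose discriminant divides a power of `c̄`. -/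
theorem mem_map_of_pow_mem_of_discr_dvd_pow {ι : Type*} [Fintype ι] [DecidableEq ι]
    (b : Basis ι (Abar A π) (Bbar A B π)) (c : A) (m : ℕ)
    (hb : Algebra.discr (Abar A π) b ∣ mkA π c ^ m)
    (J : Ideal A) [hJ : J.IsMaximal] (hπJ : π ∈ J) (hcJ : c ∉ J) (x : B) (k : ℕ)
    (hx : x ^ k ∈ J.map (algebraMap A B)) : x ∈ J.map (algebraMap A B) := by
  have hle : Ideal.span {π} ≤ J := (Ideal.span_singleton_le_iff_mem J).mpr hπJ
  set Jb : Ideal (Abar A π) := J.map (mkA π) with hJb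
  have hmemJb : ∀ a : A, mkA π a ∈ Jb ↔ a ∈ J := fun a => Ideal.mem_quotient_iff_mem hle
  have hJbmax : Jb.IsMaximal := by
    rcases Ideal.map_eq_top_or_isMaximal_of_surjective (mkA π) Ideal.Quotient.mk_surjective hJ
      with h | h
    · exfalso
      have h1 : mkA π 1 ∈ Jb := by rw [hJb, h]; trivial
      exact hJ.ne_top ((Ideal.eq_top_iff_one J).mpr ((hmemJb 1).mp h1))
    · exact h
  have hcomp : (mkB (A := A) (B := B) π).comp (algebraMap A B) =
      (algebraMap (Abar A π) (Bbar A B π)).comp (mkA π) := RingHom.ext fun _ => rfl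
  have hmap : (J.map (algebraMap A B)).map (mkB (A := A) π) =
      Jb.map (algebraMap (Abar A π) (Bbar A B π)) := by
    rw [Ideal.map_map, hcomp, ← Ideal.map_map]
  have hx' : (mkB (A := A) π x) ^ k ∈ Jb.map (algebraMap (Abar A π) (Bbar A B π)) := by
    rw [← hmap, ← map_pow]
    exact Ideal.mem_map_of_mem _ hx
  have h1 := smul_mem_map_of_pow_mem_of_discr_dvd b _ hb Jb hJbmax.isPrime.isRadical _ k hx'
  have hd : mkA π c ^ m ∉ Jb := by
    intro h
    rw [← map_pow, hmemJb] at h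
    exact hcJ (hJ.isPrime.mem_of_pow_mem m h)
  obtain ⟨y, i, hi, hyi⟩ := hJbmax.exists_inv hd
  have h2 : mkB (A := A) π x ∈ Jb.map (algebraMap (Abar A π) (Bbar A B π)) := by
    have : mkB (A := A) π x = y • (mkA π c ^ m • mkB (A := A) π x) +
        algebraMap (Abar A π) (Bbar A B π) i * mkB (A := A) π x := by
      rw [smul_smul, ← Algebra.smul_def, ← add_smul, hyi, one_smul]
    rw [this]
    refine Ideal.add_mem _ ?_ (Ideal.mul_mem_right _ _ (Ideal.mem_map_of_mem _ hi))
    rw [Algebra.smul_def]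
    exact Ideal.mul_mem_left _ _ h1
  rw [← hmap] at h2
  exact (Ideal.mem_quotient_iff_mem (Ideal.map_mono hle)).mp h2

/-- in a finite algebra with reduced fibre over the maximal ideal `J`, every element of a proper
ideal `𝔫` is killed modulo `J B` by an element outside `𝔫`. -/
theorem exists_notMem_mul_mem_map [Module.Finite A B] (J : Ideal A) [hJ : J.IsMaximal]
    (hred : ∀ (x : B) (k : ℕ), x ^ k ∈ J.map (algebraMap A B) → x ∈ J.map (algebraMap A B))
    (𝔫 : Ideal B) (h𝔫 : 𝔫 ≠ ⊤) (w : B) (hw : w ∈ 𝔫) :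
    ∃ s : B, s ∉ 𝔫 ∧ s * w ∈ J.map (algebraMap A B) := by
  letI : Field (A ⧸ J) := Ideal.Quotient.field J
  haveI : Module.Finite A (B ⧸ J.map (algebraMap A B)) :=
    Module.Finite.of_surjective (Ideal.Quotient.mkₐ A _).toLinearMap Ideal.Quotient.mk_surjective
  haveI : Module.Finite (A ⧸ J) (B ⧸ J.map (algebraMap A B)) :=
    Module.Finite.of_restrictScalars_finite A _ _
  haveI : IsArtinianRing (B ⧸ J.map (algebraMap A B)) :=
    IsArtinianRing.of_finite (A ⧸ J) (B ⧸ J.map (algebraMap A B))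
  obtain ⟨n, y, hy⟩ := IsArtinian.exists_pow_succ_smul_dvd
    (Ideal.Quotient.mk (J.map (algebraMap A B)) w) (1 : B ⧸ J.map (algebraMap A B))
  obtain ⟨y, rfl⟩ := Ideal.Quotient.mk_surjective y
  rw [smul_eq_mul, smul_eq_mul, mul_one, ← map_pow, ← map_pow, ← map_mul, Ideal.Quotient.eq] at hy
  refine ⟨1 - w * y, ?_, ?_⟩
  · intro hs
    apply h𝔫
    rw [Ideal.eq_top_iff_one]
    have : (1 : B) = (1 - w * y) + w * y := by ring
    rw [this]
    exact 𝔫.add_mem hs (𝔫.mul_mem_right _ hw)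
  · apply hred _ (n + 1)
    have : ((1 - w * y) * w) ^ (n + 1) =
        -((w ^ n.succ * y - w ^ n) * (w * (1 - w * y) ^ n)) := by
      rw [Nat.succ_eq_add_one, mul_pow, pow_succ, pow_succ]; ring
    rw [this]
    exact Ideal.neg_mem_iff _ |>.mpr (Ideal.mul_mem_right _ _ hy)

/-- **the `gen` clause**: if `𝔫 ∩ A ≤ (π, z)` and the fibre of `B` over `𝔫 ∩ A` is reduced, then `z`
generates `𝔫` modulo `π`, locally at `𝔫`. -/
theorem exists_mul_sub_mul_mem_map_span [Module.Finite A B] (𝔫 : Ideal B) [h𝔫 : 𝔫.IsMaximal]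
    (z : A) (hJz : 𝔫.comap (algebraMap A B) ≤ Ideal.span {π, z})
    (hred : ∀ (x : B) (k : ℕ), x ^ k ∈ (𝔫.comap (algebraMap A B)).map (algebraMap A B) →
      x ∈ (𝔫.comap (algebraMap A B)).map (algebraMap A B))
    (w : B) (hw : w ∈ 𝔫) :
    ∃ a s : B, s ∉ 𝔫 ∧ s * w - a * algebraMap A B z ∈ (Ideal.span {π}).map (algebraMap A B) := by
  haveI : Algebra.IsIntegral A B := Algebra.IsIntegral.of_finite A B
  haveI hJ : (𝔫.comap (algebraMap A B)).IsMaximal :=
    Ideal.isMaximal_comap_of_isIntegral_of_isMaximal 𝔫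
  obtain ⟨s, hs, hsw⟩ := exists_notMem_mul_mem_map (𝔫.comap (algebraMap A B)) hred 𝔫
    h𝔫.ne_top w hw
  have h1 : s * w ∈ (Ideal.span {π, z}).map (algebraMap A B) := Ideal.map_mono hJz hsw
  rw [Ideal.map_span, Set.image_pair, Ideal.mem_span_pair] at h1
  obtain ⟨β, α, hβα⟩ := h1
  refine ⟨α, s, hs, ?_⟩
  rw [← hβα, add_sub_cancel_right, Ideal.map_span, Set.image_singleton]
  exact Ideal.mul_mem_left _ _ (Ideal.subset_span rfl)

end Gen

end Fermat.Agent.SS
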