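/-
(SS-q) MODEL-GLOBAL leaf [D] ETALE — helper1 — part 2: **the chart `B = integralClosure R[t] E`**
under `GeoHyps`: the discriminant of `B / π B` over `(R / π)[t]` divides a power of
`∏_{s ∈ S} (t - s)`; polynomial-ring lemmas for `A = R[t]`.
-/
import Mathlib
import Fermat.Agent.JA.GEOBASE_helper8_Hyps
import Fermat.Agent.SS.ETALE_helper1_Gen

set_option autoImplicit false
set_option linter.unusedSectionVars false
set_option linter.style.haveILetI false

namespace Fermat.Agent.SS

open Fermat.Agent.JA Polynomial Module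

section PolyRing

variable {R : Type*} [CommRing R] [IsDomain R] [IsDiscreteValuationRing R]
  {A : Type*} [CommRing A] [Algebra R A] (T : A)

/-- a proper ideal of `A = R[T]` containing `T - a` lies in `(π, T - a)`. -/
theorem le_span_pair_of_sub_mem (hT : Function.Surjective (aeval T : R[X] →ₐ[R] A))
    {π : R} (hπ : Irreducible π) (J : Ideal A) (hJ : J ≠ ⊤) (a : R)
    (hTa : T - algebraMap R A a ∈ J) :
    J ≤ Ideal.span {algebraMap R A π, T - algebraMap R A a} := by
  intro f hf
  obtain ⟨p, rfl⟩ := hT f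
  obtain ⟨q, hq⟩ := X_sub_C_dvd_sub_C_eval (a := a) (p := p)
  have h1 : aeval T p = (T - algebraMap R A a) * aeval T q + algebraMap R A (p.eval a) := by
    have := congrArg (aeval T) hq
    rw [map_sub, map_mul, map_sub, aeval_X, aeval_C, aeval_C] at this
    rw [← this]; ring
  have h2 : algebraMap R A (p.eval a) ∈ J := by
    have : algebraMap R A (p.eval a) = aeval T p - (T - algebraMap R A a) * aeval T q := by
      rw [h1]; ring
    rw [this]
    exact J.sub_mem hf (J.mul_mem_right _ hTa)
  have h3 : p.eval a ∈ IsLocalRing.maximalIdeal R := by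
    by_contra hcon
    have hu : IsUnit (p.eval a) := IsLocalRing.notMem_maximalIdeal.mp hcon
    exact hJ (Ideal.eq_top_of_isUnit_mem J h2 (hu.map (algebraMap R A)))
  rw [hπ.maximalIdeal_eq, Ideal.mem_span_singleton] at h3
  obtain ⟨r, hr⟩ := h3
  rw [h1, hr, map_mul, Ideal.mem_span_pair]
  exact ⟨algebraMap R A r, aeval T q, by ring⟩

/-- a prime ideal of `A` containing `T - a` does not contain `∏_{s ∈ S} (T - s)` if all `a - s` are
units. -/
theorem prod_sub_notMem_of_sub_mem (J : Ideal A) [hJ : J.IsPrime] (a : R) (S : Finset R)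
    (ha : ∀ s ∈ S, IsUnit (a - s)) (hTa : T - algebraMap R A a ∈ J) :
    ∏ s ∈ S, (T - algebraMap R A s) ∉ J := by
  intro hmem
  obtain ⟨s, hs, hsJ⟩ := (hJ.prod_mem_iff).mp hmem
  have h1 : algebraMap R A (a - s) ∈ J := by
    have : algebraMap R A (a - s) = (T - algebraMap R A s) - (T - algebraMap R A a) := by
      rw [map_sub]; ring
    rw [this]; exact J.sub_mem hsJ hTa
  exact hJ.ne_top (Ideal.eq_top_of_isUnit_mem J h1 ((ha s hs).map (algebraMap R A)))

variable (hT : Function.Bijective (aeval T : R[X] →ₐ[R] A))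

include hT in
/-- `π ∤ T - a` in `A = R[T]`. -/
theorem not_algebraMap_dvd_sub {π : R} (hπ : ¬ IsUnit π) (a : R) :
    ¬ algebraMap R A π ∣ T - algebraMap R A a := by
  intro hdvd
  have h1 : T - algebraMap R A a = aeval T (X - C a) := by
    rw [map_sub, aeval_X, aeval_C]
  rw [h1, ← C_dvd_iff_algebraMap_dvd_aeval T hT, C_dvd_iff_dvd_coeff] at hdvd
  have := hdvd 1
  rw [coeff_sub, coeff_X_one, coeff_C_succ, sub_zero] at this
  exact hπ (isUnit_of_dvd_one this)

include hT in
/-- `A / π = (R / π)[T]` is not a field. -/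
theorem not_isField_quotient_span_algebraMap {π : R} (hπ : ¬ IsUnit π) :
    ¬ IsField (A ⧸ Ideal.span {algebraMap R A π}) := by
  intro hF
  have hT0 : Ideal.Quotient.mk (Ideal.span {algebraMap R A π}) T ≠ 0 := by
    rw [Ne, Ideal.Quotient.eq_zero_iff_mem, Ideal.mem_span_singleton]
    intro hdvd
    have := not_algebraMap_dvd_sub T hT hπ 0
    rw [map_zero, sub_zero] at this
    exact this hdvd
  obtain ⟨y, hy⟩ := hF.mul_inv_cancel hT0
  obtain ⟨y, rfl⟩ := Ideal.Quotient.mk_surjective y
  rw [← map_mul, ← map_one (Ideal.Quotient.mk (Ideal.span {algebraMap R A π})),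
    Ideal.Quotient.eq, Ideal.mem_span_singleton] at hy
  obtain ⟨q, rfl⟩ := hT.2 y
  have h1 : T * aeval T q - 1 = aeval T (X * q - 1) := by
    rw [map_sub, map_mul, aeval_X, map_one]
  rw [h1, ← C_dvd_iff_algebraMap_dvd_aeval T hT, C_dvd_iff_dvd_coeff] at hy
  have := hy 0
  rw [coeff_sub, coeff_X_mul_zero, coeff_one_zero, zero_sub] at this
  exact hπ (isUnit_of_dvd_one ((dvd_neg).mp this))

end PolyRing

section Chart

variable {R : Type*} [CommRing R] [IsDomain R] [IsDiscreteValuationRing R] [CharZero R]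
  {K₁ : Type*} [Field K₁] [Algebra R K₁] [IsFractionRing R K₁]
  {K : Type*} [Field K] [Algebra K₁ K] [Algebra R K] [IsScalarTower R K₁ K]
  {E : Type*} [Field E] [Algebra K E] [Algebra K₁ E] [IsScalarTower K₁ K E]
  {π : R} {t : K} {n : ℕ} {S : Finset R}

/-- **the discriminant of the special fibre of the chart** divides a power of
`∏_{s ∈ S} (t - s)`. -/
theorem GeoHyps.exists_basis_discr_dvd_prod (h : GeoHyps K₁ π t E n S) :
    ∃ (N : ℕ) (b : Basis (Fin N)
        (Abar ↥(Algebra.adjoin R {t}) (algebraMap R ↥(Algebra.adjoin R {t}) π))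
        (Bbar ↥(Algebra.adjoin R {t}) ↥(integralClosure ↥(Algebra.adjoin R {t}) E)
          (algebraMap R ↥(Algebra.adjoin R {t}) π))) (m : ℕ),
      Algebra.discr (Abar ↥(Algebra.adjoin R {t}) (algebraMap R ↥(Algebra.adjoin R {t}) π)) b ∣
        mkA (algebraMap R ↥(Algebra.adjoin R {t}) π)
          (∏ s ∈ S, ((⟨t, Algebra.self_mem_adjoin_singleton R t⟩ : ↥(Algebra.adjoin R {t})) -
            algebraMap R ↥(Algebra.adjoin R {t}) s)) ^ m := by
  classical
  haveI := h.finite
  set A := ↥(Algebra.adjoin R {t}) with hA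
  set T : A := ⟨t, Algebra.self_mem_adjoin_singleton R t⟩ with hTdef
  have hT := aeval_adjoin_bijective (R := R) (K₁ := K₁) t h.transcendental
  obtain ⟨iDom, iUFD, iNoeth, iChar, hπA, iPID⟩ := poly_instances T hT π h.irreducible
  have fracA : IsFractionRing A K := isFractionRing_adjoin (R := R) (K₁ := K₁) t h.adjoin_eq_top
  obtain ⟨i1, i2, i3⟩ := integralClosure_instances A K E
  have hAR : ∀ r : R, algebraMap A K (algebraMap R A r) = algebraMap R K r := fun r => rfl
  have hTK : algebraMap A K T = t := rfl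
  refine exists_basis_discr_dvd (B := ↥(integralClosure A E)) hπA _ ?_
  intro p hp _ hpc
  refine trNondeg_of_unr (K := K) hp ?_
  by_cases hassoc : Associated p (algebraMap R A π)
  · rw [primeValSubring_eq_of_associated hp hπA hassoc]
    have := isGaussAt_primeValSubring (K := K) T hT hπA
    rw [hTK] at this
    exact h.gauss _ this
  · have hπinv : (algebraMap R K π)⁻¹ ∈ primeValSubring K hp := by
      rw [← hAR]
      apply inv_algebraMap_mem_primeValSubring hp
      intro hdvd
      exact hassoc (hp.irreducible.associated_of_dvd hπA.irreducible hdvd)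
    refine h.unr _ (primeValSubring_ne_top hp) ?_ ?_ ?_
    · intro a
      refine algebraMap_mem_of_inv_mem h.irreducible _ (fun r => ?_) hπinv a
      rw [← hAR]
      exact algebraMap_mem_primeValSubring (K := K) hp (algebraMap R A r)
    · have := algebraMap_mem_primeValSubring (K := K) hp T
      rwa [hTK] at this
    · intro a ha
      have h1 : ¬ p ∣ T - algebraMap R A a := fun hd =>
        hpc (hd.trans (Finset.dvd_prod_of_mem (fun s => T - algebraMap R A s) ha))
      have h2 := inv_algebraMap_mem_primeValSubring (K := K) hp h1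
      rwa [map_sub, hTK, hAR] at h2

end Chart

end Fermat.Agent.SS
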