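/-
(SS-q) MODEL-GLOBAL leaf [D] ETALE — helper3 — part 1 (pure algebra): in a Dedekind domain `D`, if
the fibre `D / z` is "reduced away from `c`" (`x ^ n ∈ (z) → c x ∈ (z)`) and `c ∉ M` for a maximal
ideal `M ∋ z`, then `z` generates `M` locally: `∀ w ∈ M, ∃ s ∉ M, s w ∈ (z)`.
-/
import Mathlib

set_option autoImplicit false
set_option linter.unusedSectionVars false
set_option linter.style.haveILetI false

namespace Fermat.Agent.SS

theorem exists_mul_mem_span_of_reduced_away {D : Type*} [CommRing D] [IsDedekindDomain D]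
    (M : Ideal D) [hM : M.IsMaximal] (z : D) (hz0 : z ≠ 0) (hzM : z ∈ M) (c : D) (hc : c ∉ M)
    (hred : ∀ x : D, ∀ n : ℕ, x ^ n ∈ Ideal.span {z} → c * x ∈ Ideal.span {z}) :
    ∀ w ∈ M, ∃ s : D, s ∉ M ∧ s * w ∈ Ideal.span {z} := by
  classical
  set I : Ideal D := Ideal.span {z} with hI
  have hIM : I ≤ M := by
    rw [hI, Ideal.span_le, Set.singleton_subset_iff]; exact hzM
  have hfin : I.minimalPrimes.Finite := Ideal.finite_minimalPrimes_of_isNoetherianRing D I
  -- every minimal prime over `(z)` is maximal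
  have hmax : ∀ P ∈ I.minimalPrimes, P.IsMaximal := by
    intro P hP
    have hPprime : P.IsPrime := hP.1.1
    refine hPprime.isMaximal ?_
    intro hbot
    have : z ∈ P := hP.1.2 (Ideal.mem_span_singleton_self z)
    rw [hbot, Ideal.mem_bot] at this
    exact hz0 this
  set 𝒫' : Finset (Ideal D) := hfin.toFinset.erase M with h𝒫'
  have hQ : ¬ 𝒫'.inf id ≤ M := by
    intro hle
    obtain ⟨P, hP, hPM⟩ := (Ideal.IsPrime.inf_le' hM.isPrime).1 hle
    rw [h𝒫', Finset.mem_erase, Set.Finite.mem_toFinset] at hP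
    exact hP.1 ((hmax P hP.2).eq_of_le hM.ne_top hPM)
  obtain ⟨ε, hεQ, hεM⟩ := Set.not_subset.mp hQ
  intro w hw
  have hrad : ε * w ∈ I.radical := by
    rw [← Ideal.sInf_minimalPrimes, Ideal.mem_sInf]
    intro P hP
    by_cases hPM : P = M
    · rw [hPM]; exact M.mul_mem_left _ hw
    · have hP' : P ∈ 𝒫' := by
        rw [h𝒫', Finset.mem_erase, Set.Finite.mem_toFinset]
        exact ⟨hPM, hP⟩
      have : 𝒫'.inf id ≤ P := Finset.inf_le (f := id) hP'
      exact P.mul_mem_right _ (this hεQ)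
  obtain ⟨n, hn⟩ := hrad
  refine ⟨c * ε, ?_, ?_⟩
  · intro h
    rcases hM.isPrime.mem_or_mem h with h1 | h1
    · exact hc h1
    · exact hεM h1
  · have := hred (ε * w) n hn
    rwa [← mul_assoc] at this

end Fermat.Agent.SS
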