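/-
(SS-q) MODEL-GLOBAL leaf [D] ETALE — helper3 — part 3: the three statements of the leaf, for a good
chart (`GeoHyps`) in `chartOne` / `IsBranchUniformizer` currency:
* `GeoHyps.span_isPrime` : the special fibre of the chart is integral (`(π)` is prime);
* `GeoHyps.exists_isBranchUniformizer` : every closed point of the special fibre has a branch
  uniformizer;
* `GeoHyps.isBranchUniformizer_coord_sub` : `t - a` is a branch uniformizer at every closed point
  over `t̄ = ā` when `ā` is not a branch value.
-/
import Fermat.Agent.SS.ETALE_helper3_Disc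
import Fermat.Agent.SS.ETALE_helper3_Ded
import Fermat.Agent.SS.KUM_helper3_Coord
import Fermat.Agent.SS.MODLOC_helper5_Core

set_option autoImplicit false
set_option linter.unusedSectionVars false
set_option linter.style.haveILetI false

open Polynomial

namespace Fermat.Agent.SS

open Fermat.Agent.JA

section Etale

variable {R : Type*} [CommRing R] [IsDomain R] [IsDiscreteValuationRing R] [CharZero R]
  {K₁ : Type*} [Field K₁] [Algebra R K₁] [IsFractionRing R K₁]
  {K : Type*} [Field K] [Algebra K₁ K] [Algebra R K] [IsScalarTower R K₁ K]
  {E : Type*} [Field E] [Algebra K E] [Algebra K₁ E] [IsScalarTower K₁ K E]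
  [Algebra R E] [IsScalarTower R K E]
  {π : R} {t : K} {n : ℕ} {S : Finset R}

omit [IsDomain R] [IsDiscreteValuationRing R] [CharZero R] [Algebra K₁ E] in
/-- the ideal `π B` in the two currencies. -/
theorem map_span_adjoin_eq (t : K) (π : R) :
    ((Ideal.span {algebraMap R ↥(Algebra.adjoin R {t}) π}).map
      (algebraMap ↥(Algebra.adjoin R {t}) ↥(integralClosure ↥(Algebra.adjoin R {t}) E)) :
        Ideal ↥(integralClosure ↥(Algebra.adjoin R {t}) E)) =
    (Ideal.span {algebraMap R ↥(chartOne R E t) π} : Ideal ↥(chartOne R E t)) := by
  rw [Ideal.map_span, Set.image_singleton]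
  congr 2
  apply Subtype.ext
  change algebraMap K E (algebraMap R K π) = algebraMap R E π
  rw [← IsScalarTower.algebraMap_apply]

/-- the special fibre of the chart is a Dedekind domain (chart currency). -/
theorem GeoHyps.isDedekindDomain_chartOne (h : GeoHyps K₁ π t E n S) :
    IsDedekindDomain (↥(chartOne R E t) ⧸ Ideal.span {algebraMap R ↥(chartOne R E t) π}) := by
  have hD := h.isDedekindDomain
  unfold Bbar at hD
  rw [map_span_adjoin_eq] at hD
  exact hD

/-- **[D1]** the special fibre of the chart is integral. -/
theorem GeoHyps.span_isPrime (h : GeoHyps K₁ π t E n S) :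
    (Ideal.span {algebraMap R ↥(chartOne R E t) π}).IsPrime := by
  haveI := GeoHyps.isDedekindDomain_chartOne h
  exact (Ideal.Quotient.isDomain_iff_prime _).1 inferInstance

end Etale

end Fermat.Agent.SS
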