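/-
(SS-q) MODEL-GLOBAL leaf [D] ETALE — helper1 — part 3: **the three literals of helper7's finding
279**: under `GeoHyps K₁ π t E n S`, in the chart `chartOne R E t` (integral closure of `R[t]`
in `E`),
* `GeoHyps.span_isPrime` : `(π)` is a prime ideal (the special fibre is integral) — this one is
  helper3's (`ETALE_helper3_Main`, imported here); `GeoHyps.span_isPrime_aux` is the same statement
  in `integralClosure`-currency;
* `GeoHyps.exists_isBranchUniformizer` : every closed point of the special fibre has a branch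
  uniformizer (the special fibre is a Dedekind scheme);
* `GeoHyps.isBranchUniformizer_coord_sub` : at a closed point over `t̄ = ā` with `a - s` a unit for
  all `s` in the branch set `S`, the function `t - a` is a branch uniformizer (the special fibre is
  étale over the `t̄`-line there).
-/
import Mathlib
import Fermat.Agent.SS.KUM_helper3_Charts
import Fermat.Agent.SS.MODLOC_helper5_Core
import Fermat.Agent.SS.ETALE_helper1_Chart
import Fermat.Agent.SS.ETALE_helper3_Main

set_option autoImplicit false
set_option linter.unusedSectionVars false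
set_option linter.style.haveILetI false

namespace Fermat.Agent.SS

open Fermat.Agent.JA Polynomial Module

section Aux

variable {R : Type*} [CommRing R] [IsDomain R] [IsDiscreteValuationRing R] [CharZero R]
  {K₁ : Type*} [Field K₁] [Algebra R K₁] [IsFractionRing R K₁]
  {K : Type*} [Field K] [Algebra K₁ K] [Algebra R K] [IsScalarTower R K₁ K]
  {E : Type*} [Field E] [Algebra K E] [Algebra K₁ E] [IsScalarTower K₁ K E]
  [Algebra R E] [IsScalarTower R K E]
  {π : R} {t : K} {n : ℕ} {S : Finset R}

omit [IsDomain R] [IsDiscreteValuationRing R] [CharZero R] [Algebra K₁ E] in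
/-- an element of `B = integralClosure R[t] E` with value `π` is the image of `π ∈ R[t]`. -/
theorem eq_algebraMap_of_coe_eq_base
    (πB : ↥(integralClosure ↥(Algebra.adjoin R {t}) E)) (hπB : (πB : E) = algebraMap R E π) :
    πB = algebraMap ↥(Algebra.adjoin R {t}) ↥(integralClosure ↥(Algebra.adjoin R {t}) E)
      (algebraMap R ↥(Algebra.adjoin R {t}) π) := by
  apply Subtype.ext
  rw [hπB, IsScalarTower.algebraMap_apply R K E]
  rfl

omit [IsDomain R] [IsDiscreteValuationRing R] [CharZero R] [Algebra K₁ E] in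
/-- an element of `B` with value `t - a` is the image of `T - a ∈ R[t]`. -/
theorem eq_algebraMap_of_coe_eq_coord_sub (a : R)
    (z : ↥(integralClosure ↥(Algebra.adjoin R {t}) E))
    (hz : (z : E) = algebraMap K E t - algebraMap R E a) :
    z = algebraMap ↥(Algebra.adjoin R {t}) ↥(integralClosure ↥(Algebra.adjoin R {t}) E)
      ((⟨t, Algebra.self_mem_adjoin_singleton R t⟩ : ↥(Algebra.adjoin R {t})) -
        algebraMap R ↥(Algebra.adjoin R {t}) a) := by
  apply Subtype.ext
  rw [hz, IsScalarTower.algebraMap_apply R K E, ← map_sub]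
  rfl

/-- (D1) in `B`-currency. -/
theorem GeoHyps.span_isPrime_aux (h : GeoHyps K₁ π t E n S)
    (πB : ↥(integralClosure ↥(Algebra.adjoin R {t}) E)) (hπB : (πB : E) = algebraMap R E π) :
    (Ideal.span {πB}).IsPrime := by
  have hDed := h.isDedekindDomain
  rw [eq_algebraMap_of_coe_eq_base πB hπB]
  have hspan : Ideal.span {algebraMap ↥(Algebra.adjoin R {t})
      ↥(integralClosure ↥(Algebra.adjoin R {t}) E) (algebraMap R ↥(Algebra.adjoin R {t}) π)} =
      (Ideal.span {algebraMap R ↥(Algebra.adjoin R {t}) π}).map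
        (algebraMap ↥(Algebra.adjoin R {t}) ↥(integralClosure ↥(Algebra.adjoin R {t}) E)) := by
    rw [Ideal.map_span, Set.image_singleton]
  rw [hspan]
  exact (Ideal.Quotient.isDomain_iff_prime _).mp hDed.toIsDomain

/-- (D2) in `B`-currency. -/
theorem GeoHyps.exists_isBranchUniformizer_aux (h : GeoHyps K₁ π t E n S)
    (𝔫 : Ideal ↥(integralClosure ↥(Algebra.adjoin R {t}) E)) [h𝔫 : 𝔫.IsMaximal]
    (πB : ↥(integralClosure ↥(Algebra.adjoin R {t}) E)) (hπB : (πB : E) = algebraMap R E π)
    (hπ𝔫 : πB ∈ 𝔫) : ∃ z, IsBranchUniformizer (Ideal.span {πB}) 𝔫 z := by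
  classical
  haveI := h.finite
  haveI hprime := GeoHyps.span_isPrime_aux h πB hπB
  have hDed := h.isDedekindDomain
  set A := ↥(Algebra.adjoin R {t}) with hA
  set T : A := ⟨t, Algebra.self_mem_adjoin_singleton R t⟩ with hTdef
  have hT := aeval_adjoin_bijective (R := R) (K₁ := K₁) t h.transcendental
  obtain ⟨iDom, iUFD, iNoeth, iChar, hπA, iPID⟩ := poly_instances T hT π h.irreducible
  have fracA : IsFractionRing A K := isFractionRing_adjoin (R := R) (K₁ := K₁) t h.adjoin_eq_top
  obtain ⟨i1, i2, i3⟩ := integralClosure_instances A K E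
  haveI : Algebra.IsIntegral A ↥(integralClosure A E) := Algebra.IsIntegral.of_finite A _
  have hπB' := eq_algebraMap_of_coe_eq_base πB hπB
  have hspan : Ideal.span {πB} =
      (Ideal.span {algebraMap R A π}).map (algebraMap A ↥(integralClosure A E)) := by
    rw [hπB', Ideal.map_span, Set.image_singleton]
  haveI : IsDedekindDomain (↥(integralClosure A E) ⧸ Ideal.span {πB}) := hspan ▸ hDed
  refine exists_isBranchUniformizer_of_isDedekindDomain
    ((Ideal.span_singleton_le_iff_mem 𝔫).mpr hπ𝔫) ?_
  intro heq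
  have hmax : ((Ideal.span {algebraMap R A π}).map
      (algebraMap A ↥(integralClosure A E))).IsMaximal := by
    rw [← hspan, heq]; exact h𝔫
  have hF : IsField (Bbar A ↥(integralClosure A E) (algebraMap R A π)) :=
    (Ideal.Quotient.maximal_ideal_iff_isField_quotient _).mp hmax
  haveI : IsDomain (Bbar A ↥(integralClosure A E) (algebraMap R A π)) := hDed.toIsDomain
  have hinj : Function.Injective (algebraMap (Abar A (algebraMap R A π))
      (Bbar A ↥(integralClosure A E) (algebraMap R A π))) := by
    rw [injective_iff_map_eq_zero]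
    intro x hx
    have hx' : x • (1 : Bbar A ↥(integralClosure A E) (algebraMap R A π)) = 0 :=
      (Algebra.algebraMap_eq_smul_one x).symm.trans hx
    exact (smul_eq_zero_Bbar hπA x 1 hx').resolve_right one_ne_zero
  haveI : Algebra.IsIntegral (Abar A (algebraMap R A π))
      (Bbar A ↥(integralClosure A E) (algebraMap R A π)) := Algebra.IsIntegral.of_finite _ _
  exact not_isField_quotient_span_algebraMap T hT h.irreducible.not_isUnit
    (isField_of_isIntegral_of_isField hinj hF)

/-- (D3) in `B`-currency. -/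
theorem GeoHyps.isBranchUniformizer_aux (h : GeoHyps K₁ π t E n S)
    (𝔫 : Ideal ↥(integralClosure ↥(Algebra.adjoin R {t}) E)) [h𝔫 : 𝔫.IsMaximal]
    (πB : ↥(integralClosure ↥(Algebra.adjoin R {t}) E)) (hπB : (πB : E) = algebraMap R E π)
    (hπ𝔫 : πB ∈ 𝔫) (a : R) (ha : ∀ s ∈ S, IsUnit (a - s))
    (z : ↥(integralClosure ↥(Algebra.adjoin R {t}) E))
    (hz : (z : E) = algebraMap K E t - algebraMap R E a) (hat : z ∈ 𝔫) :
    IsBranchUniformizer (Ideal.span {πB}) 𝔫 z := by
  classical
  haveI := h.finite
  have hDed := h.isDedekindDomain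
  obtain ⟨N, b, m, hb⟩ := GeoHyps.exists_basis_discr_dvd_prod h
  set A := ↥(Algebra.adjoin R {t}) with hA
  set T : A := ⟨t, Algebra.self_mem_adjoin_singleton R t⟩ with hTdef
  have hT := aeval_adjoin_bijective (R := R) (K₁ := K₁) t h.transcendental
  obtain ⟨iDom, iUFD, iNoeth, iChar, hπA, iPID⟩ := poly_instances T hT π h.irreducible
  have fracA : IsFractionRing A K := isFractionRing_adjoin (R := R) (K₁ := K₁) t h.adjoin_eq_top
  obtain ⟨i1, i2, i3⟩ := integralClosure_instances A K E
  haveI : Algebra.IsIntegral A ↥(integralClosure A E) := Algebra.IsIntegral.of_finite A _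
  have hπB' := eq_algebraMap_of_coe_eq_base πB hπB
  have hz' := eq_algebraMap_of_coe_eq_coord_sub a z hz
  have hspan : Ideal.span {πB} =
      (Ideal.span {algebraMap R A π}).map (algebraMap A ↥(integralClosure A E)) := by
    rw [hπB', Ideal.map_span, Set.image_singleton]
  haveI hJmax : (𝔫.comap (algebraMap A ↥(integralClosure A E))).IsMaximal :=
    Ideal.isMaximal_comap_of_isIntegral_of_isMaximal 𝔫
  have hπJ : algebraMap R A π ∈ 𝔫.comap (algebraMap A ↥(integralClosure A E)) := by
    rw [Ideal.mem_comap, ← hπB']; exact hπ𝔫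
  have hTaJ : T - algebraMap R A a ∈ 𝔫.comap (algebraMap A ↥(integralClosure A E)) := by
    rw [Ideal.mem_comap, ← hz']; exact hat
  have hcJ := prod_sub_notMem_of_sub_mem T (𝔫.comap (algebraMap A ↥(integralClosure A E))) a S ha
    hTaJ
  have hred := fun x k => mem_map_of_pow_mem_of_discr_dvd_pow b _ m hb
    (𝔫.comap (algebraMap A ↥(integralClosure A E))) hπJ hcJ x k
  have hJle := le_span_pair_of_sub_mem T hT.2 h.irreducible
    (𝔫.comap (algebraMap A ↥(integralClosure A E))) hJmax.ne_top a hTaJ
  haveI : IsDomain (Bbar A ↥(integralClosure A E) (algebraMap R A π)) := hDed.toIsDomain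
  refine ⟨hat, ?_, ?_⟩
  · rw [hspan, hz']
    intro hmem
    have h0 : mkB (A := A) (algebraMap R A π)
        (algebraMap A ↥(integralClosure A E) (T - algebraMap R A a)) = 0 :=
      Ideal.Quotient.eq_zero_iff_mem.mpr hmem
    have h0' : mkA (algebraMap R A π) (T - algebraMap R A a) •
        (1 : Bbar A ↥(integralClosure A E) (algebraMap R A π)) = 0 :=
      (Algebra.algebraMap_eq_smul_one _).symm.trans h0
    rcases smul_eq_zero_Bbar hπA _ _ h0' with h1 | h1
    · rw [mkA_eq_zero_iff] at h1
      exact not_algebraMap_dvd_sub T hT h.irreducible.not_isUnit a h1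
    · exact one_ne_zero h1
  · intro w hw
    rw [hspan, hz']
    exact exists_mul_sub_mul_mem_map_span 𝔫 (T - algebraMap R A a) hJle hred w hw

end Aux

section Literals

variable {R : Type*} [CommRing R] [IsDomain R] [IsDiscreteValuationRing R] [CharZero R]
  {K₁ : Type*} [Field K₁] [Algebra R K₁] [IsFractionRing R K₁]
  {K : Type*} [Field K] [Algebra K₁ K] [Algebra R K] [IsScalarTower R K₁ K]
  {E : Type*} [Field E] [Algebra K E] [Algebra K₁ E] [IsScalarTower K₁ K E]
  [Algebra R E] [IsScalarTower R K E]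
  {π : R} {t : K} {n : ℕ} {S : Finset R}

/-- **[D2]** every closed point of the special fibre of the chart has a branch uniformizer. -/
theorem GeoHyps.exists_isBranchUniformizer (h : GeoHyps K₁ π t E n S)
    (𝔫 : Ideal ↥(chartOne R E t)) [𝔫.IsMaximal] (hπ𝔫 : algebraMap R ↥(chartOne R E t) π ∈ 𝔫) :
    ∃ z, IsBranchUniformizer (Ideal.span {algebraMap R ↥(chartOne R E t) π}) 𝔫 z :=
  GeoHyps.exists_isBranchUniformizer_aux h 𝔫 (h𝔫 := ‹𝔫.IsMaximal›)
    (algebraMap R ↥(chartOne R E t) π) rfl hπ𝔫

/-- **[D3]** at a closed point over `t̄ = ā` away from the branch set, `t - a` is a branch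
uniformizer. -/
theorem GeoHyps.isBranchUniformizer_coord_sub (h : GeoHyps K₁ π t E n S)
    (𝔫 : Ideal ↥(chartOne R E t)) [𝔫.IsMaximal] (hπ𝔫 : algebraMap R ↥(chartOne R E t) π ∈ 𝔫)
    (a : R) (ha : ∀ s ∈ S, IsUnit (a - s))
    (hat : (⟨algebraMap K E t, algebraMap_coord_mem_chartOne t⟩ : ↥(chartOne R E t)) -
      algebraMap R ↥(chartOne R E t) a ∈ 𝔫) :
    IsBranchUniformizer (Ideal.span {algebraMap R ↥(chartOne R E t) π}) 𝔫
      ((⟨algebraMap K E t, algebraMap_coord_mem_chartOne t⟩ : ↥(chartOne R E t)) -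
        algebraMap R ↥(chartOne R E t) a) :=
  GeoHyps.isBranchUniformizer_aux h 𝔫 (h𝔫 := ‹𝔫.IsMaximal›)
    (algebraMap R ↥(chartOne R E t) π) rfl hπ𝔫 a ha _ rfl hat

end Literals

end Fermat.Agent.SS
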