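/-
(SS-q) MODEL-GLOBAL leaf [C] VERT — helper4 — part 2: **(V6)** closed points of the special fibre of
a chart have residue field `k` (the residue field of `R`, algebraically closed): Zariski's lemma over
`k` for the finitely generated `R`-algebra `chartOne R E u`.
-/
import Mathlib
import Fermat.Agent.SS.VERT_helper4

set_option autoImplicit false
set_option linter.unusedSectionVars false
set_option linter.style.haveILetI false
set_option linter.unusedVariables false

namespace Fermat.Agent.SS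

open Fermat.Agent.JA Polynomial

/-- closed points of a finitely generated algebra over a local ring with algebraically closed
residue field, lying over the closed point, have residue field `k`. -/
theorem exists_sub_algebraMap_mem_of_isMaximal {R B : Type*} [CommRing R] [IsLocalRing R]
    [CommRing B] [Algebra R B] [Algebra.FiniteType R B]
    [IsAlgClosed (IsLocalRing.ResidueField R)]
    (𝔪 : Ideal B) [h𝔪 : 𝔪.IsMaximal]
    (hmem : ∀ a ∈ IsLocalRing.maximalIdeal R, algebraMap R B a ∈ 𝔪) (b : B) :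
    ∃ r : R, b - algebraMap R B r ∈ 𝔪 := by
  letI : Field (B ⧸ 𝔪) := Ideal.Quotient.field 𝔪
  have hloc : IsLocalHom (algebraMap R (B ⧸ 𝔪)) := by
    refine ⟨fun a ha => ?_⟩
    by_contra hna
    have h1 : a ∈ IsLocalRing.maximalIdeal R := (IsLocalRing.mem_maximalIdeal a).mpr hna
    have h2 : algebraMap R (B ⧸ 𝔪) a = 0 := by
      rw [IsScalarTower.algebraMap_apply R B (B ⧸ 𝔪)]
      exact Ideal.Quotient.eq_zero_iff_mem.mpr (hmem a h1)
    rw [h2] at ha
    exact not_isUnit_zero ha
  haveI := hloc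
  let ψ : IsLocalRing.ResidueField R →+* (B ⧸ 𝔪) :=
    IsLocalRing.ResidueField.lift (algebraMap R (B ⧸ 𝔪))
  letI : Algebra (IsLocalRing.ResidueField R) (B ⧸ 𝔪) := ψ.toAlgebra
  haveI : IsScalarTower R (IsLocalRing.ResidueField R) (B ⧸ 𝔪) :=
    IsScalarTower.of_algebraMap_eq (fun a =>
      (IsLocalRing.ResidueField.lift_residue_apply (algebraMap R (B ⧸ 𝔪)) a).symm)
  haveI : Algebra.FiniteType R (B ⧸ 𝔪) :=
    Algebra.FiniteType.of_surjective (Ideal.Quotient.mkₐ R 𝔪) (Ideal.Quotient.mkₐ_surjective R 𝔪)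
  haveI : Algebra.FiniteType (IsLocalRing.ResidueField R) (B ⧸ 𝔪) :=
    Algebra.FiniteType.of_restrictScalars_finiteType R _ _
  haveI : Module.Finite (IsLocalRing.ResidueField R) (B ⧸ 𝔪) :=
    finite_of_finite_type_of_isJacobsonRing _ _
  haveI : Algebra.IsIntegral (IsLocalRing.ResidueField R) (B ⧸ 𝔪) := Algebra.IsIntegral.of_finite _ _
  obtain ⟨rbar, hr⟩ := (IsAlgClosed.algebraMap_bijective_of_isIntegral
    (k := IsLocalRing.ResidueField R) (K := B ⧸ 𝔪)).2 (Ideal.Quotient.mk 𝔪 b)
  obtain ⟨r, rfl⟩ := IsLocalRing.residue_surjective rbar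
  refine ⟨r, ?_⟩
  rw [← Ideal.Quotient.eq_zero_iff_mem, map_sub, ← hr]
  have : algebraMap (IsLocalRing.ResidueField R) (B ⧸ 𝔪) (IsLocalRing.residue R r) =
      Ideal.Quotient.mk 𝔪 (algebraMap R B r) :=
    IsLocalRing.ResidueField.lift_residue_apply (algebraMap R (B ⧸ 𝔪)) r
  rw [this, sub_self]

section

variable {R : Type*} [CommRing R] [IsDomain R] [IsIntegrallyClosed R] [IsNoetherianRing R]
  [CharZero R] {K₁ : Type*} [Field K₁] [Algebra R K₁]
  [IsFractionRing R K₁] {K : Type*} [Field K] [Algebra K₁ K] [Algebra R K] [IsScalarTower R K₁ K]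
  {E : Type*} [Field E] [Algebra K E] [Algebra R E] [IsScalarTower R K E] [FiniteDimensional K E]

theorem finiteType_chartOne (t : K) (ht : Transcendental K₁ t)
    (hK : IntermediateField.adjoin K₁ {t} = ⊤) : Algebra.FiniteType R ↥(chartOne R E t) := by
  haveI : IsFractionRing ↥(Algebra.adjoin R {t}) K := isFractionRing_adjoin (R := R) t hK
  haveI : IsIntegrallyClosed ↥(Algebra.adjoin R {t}) := isIntegrallyClosed_adjoin (R := R) t ht
  haveI : IsNoetherianRing ↥(Algebra.adjoin R {t}) := isNoetherianRing_adjoin (R := R) t ht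
  have hinj : Function.Injective (algebraMap R K) := by
    rw [IsScalarTower.algebraMap_eq R K₁ K]
    exact (algebraMap K₁ K).injective.comp (IsFractionRing.injective R K₁)
  haveI : CharZero K := charZero_of_injective_algebraMap hinj
  haveI : Algebra.IsSeparable K E := Algebra.IsAlgebraic.isSeparable_of_perfectField
  haveI : Module.Finite ↥(Algebra.adjoin R {t}) ↥(integralClosure ↥(Algebra.adjoin R {t}) E) :=
    IsIntegralClosure.finite ↥(Algebra.adjoin R {t}) K E _
  haveI h1 : Algebra.FiniteType R ↥(Algebra.adjoin R {t}) :=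
    (Subalgebra.fg_iff_finiteType _).mp ⟨{t}, by simp⟩
  haveI h2 : Algebra.FiniteType ↥(Algebra.adjoin R {t})
      ↥(integralClosure ↥(Algebra.adjoin R {t}) E) := inferInstance
  have h3 : Algebra.FiniteType R ↥(integralClosure ↥(Algebra.adjoin R {t}) E) :=
    Algebra.FiniteType.trans h1 h2
  let e : ↥(integralClosure ↥(Algebra.adjoin R {t}) E) ≃ₐ[R] ↥(chartOne R E t) :=
    { toFun := fun x => ⟨x.1, x.2⟩
      invFun := fun x => ⟨x.1, x.2⟩
      left_inv := fun _ => rfl
      right_inv := fun _ => rfl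
      map_mul' := fun _ _ => rfl
      map_add' := fun _ _ => rfl
      commutes' := fun _ => rfl }
  exact Algebra.FiniteType.equiv h3 e

end


section Vert

variable {R : Type*} [CommRing R] [IsDomain R] [IsDiscreteValuationRing R] [CharZero R]
  {K₁ : Type*} [Field K₁] [Algebra R K₁] [IsFractionRing R K₁]
  {K : Type*} [Field K] [Algebra K₁ K] [Algebra R K] [IsScalarTower R K₁ K]
  {E : Type*} [Field E] [Algebra K E] [Algebra R E] [IsScalarTower R K E] [FiniteDimensional K E]
  {π : R} {u : K} {Winf W0 : ValuationSubring E}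

/-- (V6), general form (no sheet data needed). -/
theorem exists_sub_mem_of_isMaximal_chartOne (hπ : Irreducible π)
    (hu : Transcendental K₁ u) (hK : IntermediateField.adjoin K₁ {u} = ⊤)
    [IsAlgClosed (IsLocalRing.ResidueField R)]
    (𝔪 : Ideal ↥(chartOne R E u)) [𝔪.IsMaximal] (hπ𝔪 : algebraMap R ↥(chartOne R E u) π ∈ 𝔪)
    (b : ↥(chartOne R E u)) : ∃ r : R, b - algebraMap R ↥(chartOne R E u) r ∈ 𝔪 := by
  haveI := finiteType_chartOne (R := R) (K₁ := K₁) (E := E) u hu hK
  refine exists_sub_algebraMap_mem_of_isMaximal 𝔪 (fun a ha => ?_) b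
  rw [hπ.maximalIdeal_eq, Ideal.mem_span_singleton] at ha
  obtain ⟨c, rfl⟩ := ha
  rw [map_mul]
  exact Ideal.mul_mem_right _ _ hπ𝔪

/-- (V6) closed points of the special fibre have residue field `k`. -/
theorem IsTwoSheet.exists_sub_mem_of_isMaximal (h : IsTwoSheet π u Winf W0) (hπ : Irreducible π)
    (hu : Transcendental K₁ u) (hK : IntermediateField.adjoin K₁ {u} = ⊤)
    [IsAlgClosed (IsLocalRing.ResidueField R)]
    (𝔪 : Ideal ↥(chartOne R E u)) [𝔪.IsMaximal] (hπ𝔪 : algebraMap R ↥(chartOne R E u) π ∈ 𝔪)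
    (b : ↥(chartOne R E u)) : ∃ r : R, b - algebraMap R ↥(chartOne R E u) r ∈ 𝔪 :=
  exists_sub_mem_of_isMaximal_chartOne hπ hu hK 𝔪 hπ𝔪 b

end Vert

end Fermat.Agent.SS
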