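/-
(SS-q) MODEL-GLOBAL leaf [DVRFORM] — helper1.

* `IsBranchUniformizer.exists_pow_mul_sub_mem` : a branch uniformizer `z` of `𝔭` at `𝔪` in a
  noetherian ring is a uniformizer of the discrete valuation ring `(B ⧸ 𝔭)_𝔪`, elementwise: every
  `a ∉ 𝔭` is `unit × z ^ k` modulo `𝔭`, locally at `𝔪`.
* `GeoHyps.exists_dvrForm` : under `GeoHyps`, every closed point `𝔫 ∋ π` of the chart
  `chartOne R E t` has such a `z` (the hypotheses `z, hz, hzπ, hdvr` of SINF-EMB).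
* `GeoHyps.exists_coord_sub_dvrForm` : if the residue field of `R` is algebraically closed and no
  `t - s`, `s ∈ S`, lies in `𝔫`, one can take `z = t - a` with `a ∈ R`.
-/
import Mathlib
import Fermat.Agent.SS.ETALE_helper1_Main
import Fermat.Agent.SS.VERT_helper4_Closed

set_option autoImplicit false
set_option linter.unusedSectionVars false
set_option linter.style.haveILetI false

namespace Fermat.Agent.SS

open Fermat.Agent.JA

section Generic

variable {B : Type*} [CommRing B]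

/-- every element of `𝔪 ^ k` is a multiple of `z ^ k` modulo `𝔭`, locally at `𝔪`. -/
theorem IsBranchUniformizer.exists_mul_sub_mul_pow_mem {𝔭 𝔪 : Ideal B} [h𝔪 : 𝔪.IsPrime] {z : B}
    (hz : IsBranchUniformizer 𝔭 𝔪 z) (k : ℕ) :
    ∀ x ∈ 𝔪 ^ k, ∃ s e : B, s ∉ 𝔪 ∧ s * x - e * z ^ k ∈ 𝔭 := by
  induction k with
  | zero =>
    intro x _
    exact ⟨1, x, fun h => h𝔪.ne_top ((Ideal.eq_top_iff_one 𝔪).mpr h), by
      rw [pow_zero, one_mul, mul_one, sub_self]; exact 𝔭.zero_mem⟩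
  | succ k ih =>
    intro x hx
    rw [pow_succ'] at hx
    refine Submodule.smul_induction_on hx ?_ ?_
    · intro w hw y hy
      obtain ⟨a, s, hs, has⟩ := hz.gen w hw
      obtain ⟨s', e, hs', hse⟩ := ih y hy
      refine ⟨s * s', a * e, fun h => (h𝔪.mem_or_mem h).elim hs hs', ?_⟩
      have : s * s' * (w • y) - a * e * z ^ (k + 1) =
          (s * w - a * z) * (s' * y) + a * z * (s' * y - e * z ^ k) := by
        rw [smul_eq_mul, pow_succ]; ring
      rw [this]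
      exact 𝔭.add_mem (𝔭.mul_mem_right _ has) (𝔭.mul_mem_left _ hse)
    · rintro x y ⟨s, e, hs, hse⟩ ⟨s', e', hs', hse'⟩
      refine ⟨s * s', s' * e + s * e', fun h => (h𝔪.mem_or_mem h).elim hs hs', ?_⟩
      have : s * s' * (x + y) - (s' * e + s * e') * z ^ (k + 1) =
          s' * (s * x - e * z ^ (k + 1)) + s * (s' * y - e' * z ^ (k + 1)) := by ring
      rw [this]
      exact 𝔭.add_mem (𝔭.mul_mem_left _ hse) (𝔭.mul_mem_left _ hse')

/-- an element outside the maximal ideal `𝔪` is invertible modulo `𝔪 ^ k ⊔ 𝔭`. -/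
theorem mem_pow_sup_of_mul_mem {𝔭 𝔪 : Ideal B} [h𝔪 : 𝔪.IsMaximal] {u a : B} (hu : u ∉ 𝔪)
    (k : ℕ) (hua : u * a ∈ 𝔪 ^ k ⊔ 𝔭) : a ∈ 𝔪 ^ k ⊔ 𝔭 := by
  obtain ⟨v, m, hm, hvm⟩ := h𝔪.exists_inv hu
  have hcop : IsCoprime u m := ⟨v, 1, by rw [one_mul]; exact hvm⟩
  obtain ⟨α, β, hαβ⟩ := hcop.pow_right (n := k)
  have : a = α * (u * a) + β * m ^ k * a := by
    calc a = (α * u + β * m ^ k) * a := by rw [hαβ, one_mul]
      _ = _ := by ring
  rw [this]
  refine Ideal.add_mem _ (Ideal.mul_mem_left _ _ hua) ?_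
  exact Ideal.mem_sup_left (Ideal.mul_mem_right _ _ (Ideal.mul_mem_left _ _
    (Ideal.pow_mem_pow hm k)))

/-- **DVR form of a branch uniformizer**: `(B ⧸ 𝔭)_𝔪` is a discrete valuation ring with uniformizer
`z`, elementwise. -/
theorem IsBranchUniformizer.exists_pow_mul_sub_mem [IsNoetherianRing B] {𝔭 𝔪 : Ideal B}
    [h𝔭 : 𝔭.IsPrime] [h𝔪 : 𝔪.IsMaximal] (hle : 𝔭 ≤ 𝔪) {z : B} (hz : IsBranchUniformizer 𝔭 𝔪 z)
    (a : B) (ha : a ∉ 𝔭) :
    ∃ (k : ℕ) (s e : B), s ∉ 𝔪 ∧ e ∉ 𝔪 ∧ s * a - e * z ^ k ∈ 𝔭 := by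
  classical
  haveI : IsDomain (B ⧸ 𝔭) := Ideal.Quotient.isDomain 𝔭
  -- Krull intersection in `B ⧸ 𝔭`
  have hMtop : 𝔪.map (Ideal.Quotient.mk 𝔭) ≠ ⊤ := by
    intro h
    have h1 : Ideal.Quotient.mk 𝔭 1 ∈ 𝔪.map (Ideal.Quotient.mk 𝔭) := by rw [h]; trivial
    rw [Ideal.mem_quotient_iff_mem hle] at h1
    exact h𝔪.ne_top ((Ideal.eq_top_iff_one 𝔪).mpr h1)
  have hkrull := Ideal.iInf_pow_eq_bot_of_isDomain (𝔪.map (Ideal.Quotient.mk 𝔭)) hMtop
  have hex : ∃ k : ℕ, a ∉ 𝔪 ^ k ⊔ 𝔭 := by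
    by_contra hcon
    rw [not_exists] at hcon
    apply ha
    rw [← Ideal.Quotient.eq_zero_iff_mem, ← Ideal.mem_bot, ← hkrull, Ideal.mem_iInf]
    intro k
    rw [← Ideal.map_pow, Ideal.mem_quotient_iff_mem_sup]
    exact not_not.mp (hcon k)
  have hk0 : Nat.find hex ≠ 0 := by
    intro h0
    have := Nat.find_spec hex
    rw [h0, pow_zero, Ideal.one_eq_top, top_sup_eq] at this
    exact this trivial
  obtain ⟨k, hk⟩ := Nat.exists_eq_succ_of_ne_zero hk0
  have hmem : a ∈ 𝔪 ^ k ⊔ 𝔭 := not_not.mp (Nat.find_min hex (by rw [hk]; exact Nat.lt_succ_self k))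
  have hnmem : a ∉ 𝔪 ^ (k + 1) ⊔ 𝔭 := by
    have := Nat.find_spec hex
    rwa [hk] at this
  obtain ⟨x, hx, p, hp, rfl⟩ := Submodule.mem_sup.mp hmem
  obtain ⟨s, e, hs, hse⟩ := hz.exists_mul_sub_mul_pow_mem k x hx
  refine ⟨k, s, e, hs, ?_, ?_⟩
  · intro he
    obtain ⟨a', s', hs', hse'⟩ := hz.gen e he
    apply hnmem
    apply mem_pow_sup_of_mul_mem (u := s' * s) (fun h => (h𝔪.isPrime.mem_or_mem h).elim hs' hs)
    have : s' * s * (x + p) = a' * z ^ (k + 1) +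
        (s' * (s * x - e * z ^ k) + (s' * e - a' * z) * z ^ k + s' * s * p) := by
      rw [pow_succ]; ring
    rw [this]
    refine Ideal.add_mem _ (Ideal.mem_sup_left (Ideal.mul_mem_left _ _
      (Ideal.pow_mem_pow hz.mem _))) (Ideal.mem_sup_right ?_)
    exact 𝔭.add_mem (𝔭.add_mem (𝔭.mul_mem_left _ hse) (𝔭.mul_mem_right _ hse'))
      (𝔭.mul_mem_left _ hp)
  · have : s * (x + p) - e * z ^ k = (s * x - e * z ^ k) + s * p := by ring
    rw [this]
    exact 𝔭.add_mem hse (𝔭.mul_mem_left _ hp)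

end Generic

section Chart

variable {R : Type*} [CommRing R] [IsDomain R] [IsDiscreteValuationRing R] [CharZero R]
  {K₁ : Type*} [Field K₁] [Algebra R K₁] [IsFractionRing R K₁]
  {K : Type*} [Field K] [Algebra K₁ K] [Algebra R K] [IsScalarTower R K₁ K]
  {E : Type*} [Field E] [Algebra K E] [Algebra K₁ E] [IsScalarTower K₁ K E]
  [Algebra R E] [IsScalarTower R K E]
  {π : R} {t : K} {n : ℕ} {S : Finset R}

/-- **[DVRFORM] (a)**: every closed point of the special fibre of the chart `chartOne R E t` is a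
regular point of the special fibre, with a uniformizer `z`, in the elementwise form of SINF-EMB. -/
theorem GeoHyps.exists_dvrForm (h : GeoHyps K₁ π t E n S)
    (𝔫 : Ideal ↥(chartOne R E t)) [𝔫.IsMaximal] (hπ𝔫 : algebraMap R ↥(chartOne R E t) π ∈ 𝔫) :
    ∃ z : ↥(chartOne R E t), z ∈ 𝔫 ∧ z ∉ Ideal.span {algebraMap R ↥(chartOne R E t) π} ∧
      IsBranchUniformizer (Ideal.span {algebraMap R ↥(chartOne R E t) π}) 𝔫 z ∧
      ∀ a : ↥(chartOne R E t), a ∉ Ideal.span {algebraMap R ↥(chartOne R E t) π} →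
        ∃ (k : ℕ) (s e : ↥(chartOne R E t)), s ∉ 𝔫 ∧ e ∉ 𝔫 ∧
          s * a - e * z ^ k ∈ Ideal.span {algebraMap R ↥(chartOne R E t) π} := by
  haveI := h.finite
  haveI : IsNoetherianRing ↥(chartOne R E t) :=
    isNoetherianRing_chartOne (K₁ := K₁) t h.transcendental h.adjoin_eq_top
  haveI := GeoHyps.span_isPrime h
  obtain ⟨z, hz⟩ := GeoHyps.exists_isBranchUniformizer h 𝔫 hπ𝔫
  exact ⟨z, hz.mem, hz.notMem, hz, fun a ha =>
    hz.exists_pow_mul_sub_mem ((Ideal.span_singleton_le_iff_mem 𝔫).mpr hπ𝔫) a ha⟩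

/-- **[DVRFORM] (b)**: at a closed point of the special fibre away from the branch set, with
algebraically closed residue field, the uniformizer can be taken of the form `t - a`, `a ∈ R`. -/
theorem GeoHyps.exists_coord_sub_dvrForm [IsAlgClosed (IsLocalRing.ResidueField R)]
    (h : GeoHyps K₁ π t E n S)
    (𝔫 : Ideal ↥(chartOne R E t)) [𝔫.IsMaximal] (hπ𝔫 : algebraMap R ↥(chartOne R E t) π ∈ 𝔫)
    (hS : ∀ s ∈ S, (⟨algebraMap K E t, algebraMap_coord_mem_chartOne t⟩ : ↥(chartOne R E t)) -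
      algebraMap R ↥(chartOne R E t) s ∉ 𝔫) :
    ∃ a : R, (∀ s ∈ S, IsUnit (a - s)) ∧
      (⟨algebraMap K E t, algebraMap_coord_mem_chartOne t⟩ : ↥(chartOne R E t)) -
        algebraMap R ↥(chartOne R E t) a ∈ 𝔫 ∧
      (⟨algebraMap K E t, algebraMap_coord_mem_chartOne t⟩ : ↥(chartOne R E t)) -
        algebraMap R ↥(chartOne R E t) a ∉ Ideal.span {algebraMap R ↥(chartOne R E t) π} ∧
      IsBranchUniformizer (Ideal.span {algebraMap R ↥(chartOne R E t) π}) 𝔫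
        ((⟨algebraMap K E t, algebraMap_coord_mem_chartOne t⟩ : ↥(chartOne R E t)) -
          algebraMap R ↥(chartOne R E t) a) ∧
      ∀ b : ↥(chartOne R E t), b ∉ Ideal.span {algebraMap R ↥(chartOne R E t) π} →
        ∃ (k : ℕ) (s e : ↥(chartOne R E t)), s ∉ 𝔫 ∧ e ∉ 𝔫 ∧
          s * b - e * ((⟨algebraMap K E t, algebraMap_coord_mem_chartOne t⟩ :
            ↥(chartOne R E t)) - algebraMap R ↥(chartOne R E t) a) ^ k ∈
            Ideal.span {algebraMap R ↥(chartOne R E t) π} := by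
  haveI := h.finite
  haveI : IsNoetherianRing ↥(chartOne R E t) :=
    isNoetherianRing_chartOne (K₁ := K₁) t h.transcendental h.adjoin_eq_top
  haveI := GeoHyps.span_isPrime h
  obtain ⟨a, ha⟩ := exists_sub_mem_of_isMaximal_chartOne (K₁ := K₁) h.irreducible h.transcendental
    h.adjoin_eq_top 𝔫 hπ𝔫 (⟨algebraMap K E t, algebraMap_coord_mem_chartOne t⟩ : ↥(chartOne R E t))
  have hunit : ∀ s ∈ S, IsUnit (a - s) := by
    intro s hs
    by_contra hcon
    have h1 : a - s ∈ IsLocalRing.maximalIdeal R := (IsLocalRing.mem_maximalIdeal _).mpr hcon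
    rw [h.irreducible.maximalIdeal_eq, Ideal.mem_span_singleton] at h1
    obtain ⟨c, hc⟩ := h1
    apply hS s hs
    have : (⟨algebraMap K E t, algebraMap_coord_mem_chartOne t⟩ : ↥(chartOne R E t)) -
        algebraMap R ↥(chartOne R E t) s =
        ((⟨algebraMap K E t, algebraMap_coord_mem_chartOne t⟩ : ↥(chartOne R E t)) -
          algebraMap R ↥(chartOne R E t) a) +
          algebraMap R ↥(chartOne R E t) π * algebraMap R ↥(chartOne R E t) c := by
      rw [← map_mul, ← hc, map_sub]; ring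
    rw [this]
    exact 𝔫.add_mem ha (𝔫.mul_mem_right _ hπ𝔫)
  have hz := GeoHyps.isBranchUniformizer_coord_sub h 𝔫 hπ𝔫 a hunit ha
  exact ⟨a, hunit, ha, hz.notMem, hz, fun b hb =>
    hz.exists_pow_mul_sub_mem ((Ideal.span_singleton_le_iff_mem 𝔫).mpr hπ𝔫) b hb⟩

end Chart

end Fermat.Agent.SS
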