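/-
(SS-q) — helper7 — **SS-VAL2 part 3: Gauss valuation subrings of subfields of `L⸨x⸩`.**

Generalities on `gaussValSub R L M hM` (`M ≤ gaussField R L`):
* valuation `< 1` in terms of the reduction;
* `IsGaussAt` for the restriction to an abstract copy of `L(s)`, `s` Gauss-integral with
  transcendental reduction (generalising helper8's `isGaussAt_comap_gaussValSub`);
* compatibility with inclusions `M ≤ M'` and with `x ↦ x ^ q` (`qExpand`);
* the independence lemma: `1, J, …, J^{q-1}` are linearly independent over `k⸨x^q⸩` when the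
  order of `J` is prime to `q`.
-/
import Mathlib
import Fermat.Agent.Igusa.V_helper5_Val
import Fermat.Agent.Igusa.V_helper5_Funct
import Fermat.Agent.JA.GEO_lead_Spec
import Fermat.Agent.JA.HOST_helper3_Emb
import Fermat.Agent.SS.VAL2_helper7_TwoExt

set_option autoImplicit false
set_option linter.unusedSectionVars false
set_option linter.style.haveILetI false

open Polynomial ModularCurve

namespace Fermat.Agent.SS

open Fermat.Agent.JA Fermat.Agent.Igusa

section Val

variable {R : Type*} [CommRing R] [IsDomain R] [IsDiscreteValuationRing R]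
  {L : Type*} [Field L] [Algebra R L] [IsFractionRing R L]
  (M : IntermediateField L (LaurentSeries L)) (hM : M ≤ gaussField R L)

/-- the maximal ideal of the Gauss valuation subring: integral series with reduction zero. -/
theorem gaussValSub_valuation_lt_one_iff (x : ↥M) :
    (gaussValSub R L M hM).valuation x < 1 ↔
      ∃ h : (x : LaurentSeries L) ∈ gaussInt R L, gaussRed R L ⟨(x : LaurentSeries L), h⟩ = 0 := by
  constructor
  · intro hlt
    have hmem : x ∈ gaussValSub R L M hM :=
      (ValuationSubring.valuation_le_one_iff _ _).mp hlt.le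
    refine ⟨hmem, ?_⟩
    have h1 := (ValuationSubring.valuation_lt_one_iff (gaussValSub R L M hM) ⟨x, hmem⟩).mpr hlt
    rw [mem_maximalIdeal_gaussValSub_iff] at h1
    exact h1
  · rintro ⟨h, h0⟩
    have hmem : x ∈ gaussValSub R L M hM := h
    refine (ValuationSubring.valuation_lt_one_iff (gaussValSub R L M hM) ⟨x, hmem⟩).mp ?_
    rw [mem_maximalIdeal_gaussValSub_iff]
    exact h0

theorem gaussValSub_valuation_le_one_iff (x : ↥M) :
    (gaussValSub R L M hM).valuation x ≤ 1 ↔ (x : LaurentSeries L) ∈ gaussInt R L :=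
  ValuationSubring.valuation_le_one_iff _ _

end Val

section Gauss

variable {R : Type*} [CommRing R] [IsDomain R] [IsDiscreteValuationRing R]
  {L : Type*} [Field L] [Algebra R L] [IsFractionRing R L]

/-- the constants `R → gaussInt R L`. -/
noncomputable def gaussIntC : R →+* gaussInt R L where
  toFun r := ⟨HahnSeries.C (algebraMap R L r), C_algebraMap_mem_gaussInt r⟩
  map_one' := Subtype.ext (by simp)
  map_mul' a b := Subtype.ext (by simp)
  map_zero' := Subtype.ext (by simp)
  map_add' a b := Subtype.ext (by simp)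

theorem coe_gaussIntC (r : R) :
    ((gaussIntC (L := L) r : gaussInt R L) : LaurentSeries L) = HahnSeries.C (algebraMap R L r) :=
  rfl

theorem gaussRed_gaussIntC (r : R) :
    gaussRed R L (gaussIntC r) = HahnSeries.C (IsLocalRing.residue R r) := by
  have h : (gaussIntC (L := L) r : gaussInt R L) =
      ⟨emb R L (HahnSeries.C r), emb_mem_gaussInt R L _⟩ := Subtype.ext (by
    show HahnSeries.C (algebraMap R L r) = emb R L (HahnSeries.C r)
    rw [emb_C])
  rw [h, gaussRed_emb, red_C]

/-- evaluation of polynomials over `R` at a Gauss-integral series. -/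
noncomputable def gaussEval (s : gaussInt R L) : R[X] →+* gaussInt R L :=
  Polynomial.eval₂RingHom gaussIntC s

theorem gaussRed_gaussEval (s : gaussInt R L) (f : R[X]) :
    gaussRed R L (gaussEval s f) =
      Polynomial.aeval (gaussRed R L s) (f.map (IsLocalRing.residue R)) := by
  have h : (gaussRed R L).comp (gaussEval s) =
      ((Polynomial.aeval (gaussRed R L s) :
        (IsLocalRing.ResidueField R)[X] →ₐ[_] _) : _ →+* _).comp
        (Polynomial.mapRingHom (IsLocalRing.residue R)) := by
    apply Polynomial.ringHom_ext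
    · intro a
      simp [gaussEval, gaussRed_gaussIntC, HahnSeries.C_apply, algebraMap_laurentSeries_eq_single]
    · simp [gaussEval]
  exact congrFun (congrArg DFunLike.coe h) f

variable (M : IntermediateField L (LaurentSeries L)) (hM : M ≤ gaussField R L)
  {K₀ : Type*} [Field K₀] [Algebra R K₀] (φ : K₀ →+* ↥M)
  (hφ : ∀ r : R, ((φ (algebraMap R K₀ r) : ↥M) : LaurentSeries L) =
    HahnSeries.C (algebraMap R L r))

include hφ in
theorem coe_map_aeval (j₀ : K₀) (hs : ((φ j₀ : ↥M) : LaurentSeries L) ∈ gaussInt R L)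
    (f : R[X]) :
    ((φ (Polynomial.aeval j₀ f) : ↥M) : LaurentSeries L) =
      ((gaussEval ⟨_, hs⟩ f : gaussInt R L) : LaurentSeries L) := by
  have h : (M.val : ↥M →+* LaurentSeries L).comp (φ.comp
      ((Polynomial.aeval j₀ : R[X] →ₐ[R] K₀) : R[X] →+* K₀)) =
      ((gaussInt R L).subtype).comp (gaussEval ⟨_, hs⟩) := by
    apply Polynomial.ringHom_ext
    · intro a
      simp only [RingHom.comp_apply, RingHom.coe_coe, Polynomial.aeval_C, gaussEval,
        Polynomial.coe_eval₂RingHom, Polynomial.eval₂_C]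
      exact hφ a
    · simp [gaussEval]
  exact congrFun (congrArg DFunLike.coe h) f

include hφ in
/-- **the restriction of a Gauss valuation subring to a copy of `L(s)`** is a Gauss valuation
subring in the sense of `IsGaussAt`, for `s` Gauss-integral with transcendental reduction. -/
theorem isGaussAt_comap_gaussValSub' {π : R} (hπ : Irreducible π) (j₀ : K₀)
    (hs : ((φ j₀ : ↥M) : LaurentSeries L) ∈ gaussInt R L)
    (hst : Transcendental (IsLocalRing.ResidueField R) (gaussRed R L ⟨_, hs⟩)) :
    IsGaussAt R π j₀ ((gaussValSub R L M hM).comap φ) := by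
  refine ⟨fun f => ?_, ?_, fun f hf => ?_⟩
  · show ((φ (Polynomial.aeval j₀ f) : ↥M) : LaurentSeries L) ∈ gaussInt R L
    rw [coe_map_aeval M φ hφ j₀ hs f]
    exact (gaussEval ⟨_, hs⟩ f).2
  · show ((φ (algebraMap R K₀ π)⁻¹ : ↥M) : LaurentSeries L) ∉ gaussInt R L
    rw [map_inv₀, IntermediateField.coe_inv, hφ]
    intro hmem
    have hC0 := C_algebraMap_ne_zero (L := L) hπ.ne_zero
    have hunit : IsUnit (⟨HahnSeries.C (algebraMap R L π), C_algebraMap_mem_gaussInt π⟩ :
        gaussInt R L) := by
      refine IsUnit.of_mul_eq_one ⟨_, hmem⟩ (Subtype.ext ?_)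
      exact mul_inv_cancel₀ hC0
    rw [isUnit_gaussInt_iff] at hunit
    apply hunit
    rw [gaussRed_eq_zero_iff hπ]
    exact ⟨1, by simp⟩
  · show ((φ (Polynomial.aeval j₀ f)⁻¹ : ↥M) : LaurentSeries L) ∈ gaussInt R L
    rw [map_inv₀, IntermediateField.coe_inv, coe_map_aeval M φ hφ j₀ hs f]
    apply inv_mem_gaussInt_of_gaussRed_ne_zero
    rw [gaussRed_gaussEval]
    intro h0
    have h1 : f.map (IsLocalRing.residue R) = 0 := (transcendental_iff.mp hst) _ h0
    apply hf
    rw [Polynomial.C_dvd_iff_dvd_coeff]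
    intro i
    have h2 : IsLocalRing.residue R (f.coeff i) = 0 := by
      rw [← Polynomial.coeff_map, h1, Polynomial.coeff_zero]
    rw [IsLocalRing.residue_eq_zero_iff, hπ.maximalIdeal_eq, Ideal.mem_span_singleton] at h2
    exact h2

end Gauss

section Indep

variable {k : Type*} [Field k]

/-- **independence of `1, J, …, J^{q-1}` over `k⸨x^q⸩`** when the order of `J` is prime to `q`. -/
theorem eq_zero_of_sum_qExpand_mul_pow_eq_zero (q w : ℕ) [NeZero q] (hcop : Nat.Coprime w q)
    (J : LaurentSeries k) (hJo : J.order = -(w : ℤ)) (hJ : J ≠ 0)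
    (c : Fin q → LaurentSeries k)
    (h : ∑ i, qExpand k q (c i) * J ^ (i : ℕ) = 0) : ∀ i, c i = 0 := by
  classical
  by_contra hcon
  rw [not_forall] at hcon
  set T : Fin q → LaurentSeries k := fun i => qExpand k q (c i) * J ^ (i : ℕ) with hT
  set S : Finset (Fin q) := Finset.univ.filter (fun i => c i ≠ 0) with hS
  have hSne : S.Nonempty := by
    obtain ⟨i, hi⟩ := hcon
    exact ⟨i, by rw [hS, Finset.mem_filter]; exact ⟨Finset.mem_univ _, hi⟩⟩
  have hTne : ∀ i ∈ S, T i ≠ 0 := by
    intro i hi
    rw [hS, Finset.mem_filter] at hi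
    exact mul_ne_zero ((map_ne_zero_iff _ (qExpand_injective (R := k) (N := q))).mpr hi.2)
      (pow_ne_zero _ hJ)
  have hord : ∀ i ∈ S, (T i).order = (q : ℤ) * (c i).order - (w : ℤ) * ((i : ℕ) : ℤ) := by
    intro i hi
    have hi' := hi
    rw [hS, Finset.mem_filter] at hi'
    rw [hT]
    simp only
    rw [HahnSeries.order_mul
      ((map_ne_zero_iff _ (qExpand_injective (R := k) (N := q))).mpr hi'.2) (pow_ne_zero _ hJ),
      Fermat.Agent.JA.order_qExpand, HahnSeries.order_pow, hJo]
    simp only [nsmul_eq_mul]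
    ring
  -- distinct orders
  have hinj : ∀ i ∈ S, ∀ i' ∈ S, (T i).order = (T i').order → i = i' := by
    intro i hi i' hi' heq
    rw [hord i hi, hord i' hi'] at heq
    have hdvd : (q : ℤ) ∣ (w : ℤ) * (((i : ℕ) : ℤ) - ((i' : ℕ) : ℤ)) := by
      refine ⟨(c i).order - (c i').order, ?_⟩
      linarith
    have hcop' : IsCoprime (q : ℤ) (w : ℤ) := by
      rw [Int.isCoprime_iff_gcd_eq_one]
      rw [Int.gcd_natCast_natCast]
      exact Nat.Coprime.symm hcop
    have hdvd' : (q : ℤ) ∣ ((i : ℕ) : ℤ) - ((i' : ℕ) : ℤ) := hcop'.dvd_of_dvd_mul_left hdvd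
    have hi_lt : ((i : ℕ) : ℤ) < q := by exact_mod_cast i.2
    have hi'_lt : ((i' : ℕ) : ℤ) < q := by exact_mod_cast i'.2
    have hi0 : (0 : ℤ) ≤ ((i : ℕ) : ℤ) := Int.natCast_nonneg _
    have hi'0 : (0 : ℤ) ≤ ((i' : ℕ) : ℤ) := Int.natCast_nonneg _
    have hzero : ((i : ℕ) : ℤ) - ((i' : ℕ) : ℤ) = 0 := by
      apply Int.eq_zero_of_abs_lt_dvd hdvd'
      rw [abs_lt]
      constructor <;> linarith
    apply Fin.ext
    have : ((i : ℕ) : ℤ) = ((i' : ℕ) : ℤ) := by linarith
    exact_mod_cast this
  -- the index of minimal order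
  obtain ⟨i₀, hi₀, hmin⟩ := Finset.exists_min_image S (fun i => (T i).order) hSne
  have hcoeff : (∑ i, T i).coeff (T i₀).order = (T i₀).coeff (T i₀).order := by
    rw [HahnSeries.coeff_sum]
    apply Finset.sum_eq_single i₀
    · intro i _ hne
      by_cases hiS : i ∈ S
      · apply HahnSeries.coeff_eq_zero_of_lt_order
        refine lt_of_le_of_ne (hmin i hiS) ?_
        intro heq
        exact hne (hinj i hiS i₀ hi₀ heq.symm)
      · have : c i = 0 := by
          by_contra h0
          exact hiS (by rw [hS, Finset.mem_filter]; exact ⟨Finset.mem_univ _, h0⟩)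
        rw [hT]
        simp only
        rw [this, map_zero, zero_mul, HahnSeries.coeff_zero]
    · intro h0
      exact absurd (Finset.mem_univ _) h0
  have h1 : (T i₀).coeff (T i₀).order ≠ 0 := by
    rw [Ne, HahnSeries.coeff_order_eq_zero]
    exact hTne i₀ hi₀
  apply h1
  rw [← hcoeff, h, HahnSeries.coeff_zero]

end Indep

end Fermat.Agent.SS
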