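/-
(SS-q) — helper7 — SS-VAL2, part 1b: the two-extension lemma with the elements `b_i` only assumed
to lie in `V₂` (not integral over `O`).
-/
import Mathlib
import Fermat.Agent.SS.VAL2_helper7_TwoExt

set_option autoImplicit false
set_option linter.unusedSectionVars false
set_option linter.unusedVariables false
set_option linter.style.haveILetI false

open IsLocalRing

namespace Fermat.Agent.SS.TwoExt

variable {F L : Type*} [Field F] [Field L] [Algebra F L]
  {O : ValuationSubring F} [IsDiscreteValuationRing ↥O] [FiniteDimensional F L]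
  [Algebra.IsSeparable F L]

theorem val_sum_sub_lt_one {V : ValuationSubring L} (h : IsExt O V) {r : ℕ}
    (a : Fin r → ↥O) (b s : Fin r → L) (hbs : ∀ i, V.valuation (b i - s i) < 1) :
    V.valuation (∑ i, algebraMap F L (a i : F) * b i - ∑ i, algebraMap F L (a i : F) * s i)
      < 1 := by
  rw [← Finset.sum_sub_distrib]
  refine Valuation.map_sum_lt _ one_ne_zero (fun i _ => ?_)
  rw [← mul_sub, map_mul]
  have h1 : V.valuation (algebraMap F L (a i : F)) ≤ 1 :=
    (ValuationSubring.valuation_le_one_iff _ _).mpr ((h.mem_iff _).mpr (a i).2)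
  calc V.valuation (algebraMap F L (a i : F)) * V.valuation (b i - s i)
      ≤ 1 * V.valuation (b i - s i) := mul_le_mul_left h1 _
    _ = V.valuation (b i - s i) := one_mul _
    _ < 1 := hbs i

theorem val_lt_one_of_sub {V : ValuationSubring L} {x y : L} (hxy : V.valuation (x - y) < 1)
    (hy : V.valuation y < 1) : V.valuation x < 1 := by
  have : x = (x - y) + y := by ring
  rw [this]
  exact lt_of_le_of_lt (Valuation.map_add _ _ _) (max_lt hxy hy)

/-- **The two-extension lemma**, with `b_i ∈ V₂` only. -/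
theorem two_ext' {V₁ V₂ : ValuationSubring L} (h₁ : IsExt O V₁) (h₂ : IsExt O V₂)
    (hne : V₁ ≠ V₂) {r : ℕ} (hr0 : 0 < r) (hr : Module.finrank F L ≤ r + 1)
    (b : Fin r → L) (hb : ∀ i, b i ∈ V₂)
    (hind : ∀ a : Fin r → ↥O, V₂.valuation (∑ i, algebraMap F L (a i : F) * b i) < 1 →
      ∀ i, a i ∈ maximalIdeal ↥O) :
    Module.finrank F L = r + 1 ∧
    (∀ V : ValuationSubring L, IsExt O V → V = V₁ ∨ V = V₂) ∧
    (∀ ϖ : ↥O, Irreducible ϖ → ∀ x : L, V₁.valuation x < 1 →
      x * (algebraMap F L (ϖ : F))⁻¹ ∈ V₁) ∧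
    (∀ ϖ : ↥O, Irreducible ϖ → ∀ x : L, V₂.valuation x < 1 →
      x * (algebraMap F L (ϖ : F))⁻¹ ∈ V₂) ∧
    (∀ x ∈ V₁, ∃ a : ↥O, V₁.valuation (x - algebraMap F L (a : F)) < 1) ∧
    (∀ x ∈ V₂, ∃ a : Fin r → ↥O,
      V₂.valuation (x - ∑ i, algebraMap F L (a i : F) * b i) < 1) ∧
    (∀ x : L, x ∈ V₁ → x ∈ V₂ → IsIntegral ↥O x) := by
  choose s hs using fun i => exists_intCl_sub_val_lt_one h₂ (hb i)
  have hind' : ∀ a : Fin r → ↥O,
      V₂.valuation (∑ i, algebraMap F L (a i : F) * ((s i : intCl L O) : L)) < 1 →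
      ∀ i, a i ∈ maximalIdeal ↥O := by
    intro a ha
    apply hind a
    exact val_lt_one_of_sub (val_sum_sub_lt_one h₂ a b (fun i => ((s i : intCl L O) : L)) hs) ha
  obtain ⟨c1, c2, c3, c4, c5, c6, c7⟩ := two_ext h₁ h₂ hne hr0 hr
    (fun i => ((s i : intCl L O) : L)) (fun i => (s i).2) hind'
  refine ⟨c1, c2, c3, c4, c5, ?_, c7⟩
  intro x hx
  obtain ⟨a, ha⟩ := c6 x hx
  refine ⟨a, ?_⟩
  have h3 := val_sum_sub_lt_one h₂ a b (fun i => ((s i : intCl L O) : L)) hs
  have : x - ∑ i, algebraMap F L (a i : F) * b i =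
      (x - ∑ i, algebraMap F L (a i : F) * ((s i : intCl L O) : L)) -
      (∑ i, algebraMap F L (a i : F) * b i -
        ∑ i, algebraMap F L (a i : F) * ((s i : intCl L O) : L)) := by ring
  rw [this]
  exact lt_of_le_of_lt (Valuation.map_sub _ _ _) (max_lt ha h3)

end Fermat.Agent.SS.TwoExt
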