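/-
(SS-q) — helper7 — **SS-VAL2 part 4: the two sheets of a host of level `N = M q`** (abstract form
inside `L⸨x⸩`).

`E_M ≤ E_N ≤ gaussField R L` intermediate fields of `L⸨x⸩`, `B = (x ↦ x^q)` maps `E_M` into `E_N`,
`A` the inclusion.  `V_M`, `W_∞` the coefficientwise Gauss valuation subrings, `W_0` a valuation
subring of `E_N` with `W_0 ∩ A E_M = V_M`, `W_0 ∩ B E_M = B V_M` and `A J ≡ (B J)^q` on `W_0` for a
Gauss-integral `J ∈ E_M` whose reduction has order prime to `q`.  If `[E_N : A E_M] ≤ q + 1` and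
`[E_N : B E_M] ≤ q + 1`, then `W_∞`, `W_0` are the only extensions of `V_M` (along `A` and along
`B`), both are unramified, the residue field of `W_∞` is that of `V_M` along `A` and the residue
field of `W_0` is that of `V_M` along `B`.
-/
import Mathlib
import Fermat.Agent.SS.VAL2_helper7_HostGauss
import Fermat.Agent.SS.VAL2_helper7_TwoExtB
import Fermat.Agent.JA.ES_helper4_Frob

set_option autoImplicit false
set_option linter.unusedSectionVars false
set_option linter.style.haveILetI false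

open Polynomial ModularCurve IsLocalRing

namespace Fermat.Agent.SS

open Fermat.Agent.JA Fermat.Agent.Igusa

section Hom

variable {F L : Type*} [Field F] [Field L]

/-- the two-extension lemma along a ring homomorphism. -/
theorem two_ext_hom (ι : F →+* L) (O : ValuationSubring F) [IsDiscreteValuationRing ↥O]
    (hfin : letI := ι.toAlgebra; FiniteDimensional F L)
    (hsep : letI := ι.toAlgebra; Algebra.IsSeparable F L)
    {V₁ V₂ : ValuationSubring L} (h₁ : V₁.comap ι = O) (h₂ : V₂.comap ι = O)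
    (hne : V₁ ≠ V₂) {r : ℕ} (hr0 : 0 < r)
    (hr : letI := ι.toAlgebra; Module.finrank F L ≤ r + 1)
    (b : Fin r → L) (hb : ∀ i, b i ∈ V₂)
    (hind : ∀ a : Fin r → ↥O, V₂.valuation (∑ i, ι (a i : F) * b i) < 1 →
      ∀ i, a i ∈ maximalIdeal ↥O) :
    (letI := ι.toAlgebra; Module.finrank F L = r + 1) ∧
    (∀ V : ValuationSubring L, V.comap ι = O → V = V₁ ∨ V = V₂) ∧
    (∀ ϖ : ↥O, Irreducible ϖ → ∀ x : L, V₁.valuation x < 1 → x * (ι (ϖ : F))⁻¹ ∈ V₁) ∧
    (∀ ϖ : ↥O, Irreducible ϖ → ∀ x : L, V₂.valuation x < 1 → x * (ι (ϖ : F))⁻¹ ∈ V₂) ∧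
    (∀ x ∈ V₁, ∃ a : ↥O, V₁.valuation (x - ι (a : F)) < 1) ∧
    (∀ x ∈ V₂, ∃ a : Fin r → ↥O, V₂.valuation (x - ∑ i, ι (a i : F) * b i) < 1) := by
  letI := ι.toAlgebra
  haveI := hfin
  haveI := hsep
  obtain ⟨c1, c2, c3, c4, c5, c6, -⟩ := TwoExt.two_ext' (O := O) (V₁ := V₁) (V₂ := V₂) h₁ h₂ hne
    hr0 hr b hb hind
  exact ⟨c1, c2, c3, c4, c5, c6⟩

end Hom

section CharP

/-- a field in which the prime `q` vanishes has characteristic `q`. -/
theorem charP_of_prime_of_natCast_eq_zero {K : Type*} [Field K] {q : ℕ} (hq : q.Prime)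
    (h : (q : K) = 0) : CharP K q := by
  have h1 : ringChar K ∣ q := ringChar.dvd h
  have h2 : ringChar K = q := by
    rcases (Nat.dvd_prime hq).mp h1 with h3 | h3
    · exact absurd h3 (CharP.ringChar_ne_one)
    · exact h3
  rw [← h2]
  exact ringChar.charP K

end CharP

section Host

variable {R : Type*} [CommRing R] [IsDomain R] [IsDiscreteValuationRing R]
  {L : Type*} [Field L] [Algebra R L] [IsFractionRing R L]
  (EM EN : IntermediateField L (LaurentSeries L))
  (hle : EM ≤ EN) (q : ℕ) [NeZero q] (hB : ∀ f ∈ EM, qExpand L q f ∈ EN)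

/-- the inclusion `A : E_M → E_N`. -/
noncomputable def hostA : ↥EM →ₐ[L] ↥EN := IntermediateField.inclusion hle

/-- the dilation `B : E_M → E_N`, `f(x) ↦ f(x^q)`. -/
noncomputable def hostB : ↥EM →ₐ[L] ↥EN :=
  ((qExpandAlgHomC L q).comp EM.val).codRestrict EN.toSubalgebra (fun f => hB f f.2)

theorem coe_hostA (f : ↥EM) : ((hostA EM EN hle f : ↥EN) : LaurentSeries L) = f := rfl

theorem coe_hostB (f : ↥EM) :
    ((hostB EM EN q hB f : ↥EN) : LaurentSeries L) = qExpand L q (f : LaurentSeries L) := rfl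

variable (hEM : EM ≤ gaussField R L) (hEN : EN ≤ gaussField R L)

theorem comap_hostA_gaussValSub :
    (gaussValSub R L EN hEN).comap (hostA EM EN hle : ↥EM →+* ↥EN) = gaussValSub R L EM hEM := by
  ext x
  rfl

theorem comap_hostB_gaussValSub :
    (gaussValSub R L EN hEN).comap (hostB EM EN q hB : ↥EM →+* ↥EN) =
      gaussValSub R L EM hEM := by
  ext x
  show qExpand L q (x : LaurentSeries L) ∈ gaussInt R L ↔ (x : LaurentSeries L) ∈ gaussInt R L
  constructor
  · exact (gaussHomQExpand R L q).mem_gaussInt_of_map_mem (hEM x.2)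
  · exact fun h => (gaussHomQExpand R L q).map_mem_gaussInt h

/-- reduction of a dilation. -/
theorem gaussRed_qExpand {x : LaurentSeries L} (hx : x ∈ gaussInt R L) :
    gaussRed R L ⟨qExpand L q x, (gaussHomQExpand R L q).map_mem_gaussInt hx⟩ =
      qExpand _ q (gaussRed R L ⟨x, hx⟩) :=
  (gaussHomQExpand R L q).gaussRed_map hx

/-- `valuation < 1` along a ring homomorphism with prescribed restriction. -/
theorem comap_val_lt_one_iff {F L' : Type*} [Field F] [Field L'] (ι : F →+* L')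
    {V : ValuationSubring L'} {O : ValuationSubring F} (h : V.comap ι = O) (a : F) :
    V.valuation (ι a) < 1 ↔ O.valuation a < 1 := by
  letI := ι.toAlgebra
  exact TwoExt.IsExt.val_lt_one_iff (O := O) (V := V) h a

theorem comap_mem_iff {F L' : Type*} [Field F] [Field L'] (ι : F →+* L')
    {V : ValuationSubring L'} {O : ValuationSubring F} (h : V.comap ι = O) (a : F) :
    ι a ∈ V ↔ a ∈ O := by
  rw [← h]
  rfl

section Hind

variable (w : ℕ) (hcop : Nat.Coprime w q) (J : ↥EM) (hJ : (J : LaurentSeries L) ∈ gaussInt R L)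
  (hJo : (gaussRed R L ⟨(J : LaurentSeries L), hJ⟩).order = -(w : ℤ))
  (hJ0 : gaussRed R L ⟨(J : LaurentSeries L), hJ⟩ ≠ 0)

include hcop hJo hJ0 in
/-- independence on the `B`-side: the residues of `1, J, …, J^{q-1}` at `W_∞` are independent over
the residue field of `B V_M`. -/
theorem hind_B (a : Fin q → ↥(gaussValSub R L EM hEM))
    (h : (gaussValSub R L EN hEN).valuation
      (∑ i, hostB EM EN q hB (a i : ↥EM) * hostA EM EN hle J ^ (i : ℕ)) < 1) :
    ∀ i, a i ∈ maximalIdeal ↥(gaussValSub R L EM hEM) := by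
  rw [gaussValSub_valuation_lt_one_iff] at h
  obtain ⟨hmem, hred⟩ := h
  set α : Fin q → gaussInt R L := fun i => ⟨((a i : ↥EM) : LaurentSeries L), (a i).2⟩ with hα
  set Bα : Fin q → gaussInt R L := fun i =>
    ⟨qExpand L q ((a i : ↥EM) : LaurentSeries L),
      (gaussHomQExpand R L q).map_mem_gaussInt (a i).2⟩ with hBα
  set Jg : gaussInt R L := ⟨(J : LaurentSeries L), hJ⟩ with hJg
  have hS : (⟨_, hmem⟩ : gaussInt R L) = ∑ i, Bα i * Jg ^ (i : ℕ) := by
    apply Subtype.ext
    simp only [IntermediateField.coe_sum, IntermediateField.coe_mul, IntermediateField.coe_pow,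
      coe_hostA, coe_hostB]
    rw [show ((∑ i, Bα i * Jg ^ (i : ℕ) : gaussInt R L) : LaurentSeries L) =
      (gaussInt R L).subtype (∑ i, Bα i * Jg ^ (i : ℕ)) from rfl, map_sum]
    rfl
  rw [hS, map_sum] at hred
  have hred' : ∑ i, qExpand _ q (gaussRed R L (α i)) * gaussRed R L Jg ^ (i : ℕ) = 0 := by
    rw [← hred]
    refine Finset.sum_congr rfl (fun i _ => ?_)
    rw [map_mul, map_pow]
    congr 1
    exact (gaussRed_qExpand q (a i).2).symm
  have hz := eq_zero_of_sum_qExpand_mul_pow_eq_zero q w hcop _ hJo hJ0 _ hred'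
  intro i
  rw [mem_maximalIdeal_gaussValSub_iff]
  exact hz i

/-- the prime `q` is a non-unit of `V_M` when the residue characteristic is `q`. -/
theorem natCast_val_lt_one (hchar : (q : ResidueField R) = 0) :
    (gaussValSub R L EM hEM).valuation ((q : ℕ) : ↥EM) < 1 := by
  rw [gaussValSub_valuation_lt_one_iff]
  have hmem : (((q : ℕ) : ↥EM) : LaurentSeries L) ∈ gaussInt R L := by
    have : (((q : ℕ) : ↥EM) : LaurentSeries L) = ((q : ℕ) : LaurentSeries L) := by
      simp
    rw [this]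
    exact natCast_mem _ q
  refine ⟨hmem, ?_⟩
  have h1 : (⟨_, hmem⟩ : gaussInt R L) = ((q : ℕ) : gaussInt R L) := by
    apply Subtype.ext
    simp
  rw [h1, map_natCast]
  have : ((q : ℕ) : LaurentSeries (ResidueField R)) = HahnSeries.C ((q : ℕ) : ResidueField R) :=
    (map_natCast (HahnSeries.C (Γ := ℤ) (R := ResidueField R)) q).symm
  rw [this, hchar, map_zero]

include hcop hJo hJ0 in
/-- independence on the `A`-side: the residues of `1, BJ, …, (BJ)^{q-1}` at `W_0` are independent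
over the residue field of `A V_M`, if `A J ≡ (B J)^q` on `W_0`. -/
theorem hind_A (hq : q.Prime) (hchar : (q : ResidueField R) = 0)
    (W0 : ValuationSubring ↥EN)
    (hW0A : W0.comap (hostA EM EN hle : ↥EM →+* ↥EN) = gaussValSub R L EM hEM)
    (hW0B : W0.comap (hostB EM EN q hB : ↥EM →+* ↥EN) = gaussValSub R L EM hEM)
    (hkron : W0.valuation (hostA EM EN hle J - hostB EM EN q hB J ^ q) < 1)
    (a : Fin q → ↥(gaussValSub R L EM hEM))
    (h : W0.valuation
      (∑ i, hostA EM EN hle (a i : ↥EM) * hostB EM EN q hB J ^ (i : ℕ)) < 1) :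
    ∀ i, a i ∈ maximalIdeal ↥(gaussValSub R L EM hEM) := by
  classical
  haveI : Fact q.Prime := ⟨hq⟩
  haveI hck : CharP (ResidueField R) q := charP_of_prime_of_natCast_eq_zero hq hchar
  haveI : ExpChar (ResidueField R) q := ExpChar.prime hq
  -- elements of `W0`
  have hJM : J ∈ gaussValSub R L EM hEM := hJ
  have hAmem : ∀ x : ↥EM, x ∈ gaussValSub R L EM hEM → hostA EM EN hle x ∈ W0 := fun x hx =>
    (comap_mem_iff (hostA EM EN hle : ↥EM →+* ↥EN) hW0A x).mpr hx
  have hBmem : ∀ x : ↥EM, x ∈ gaussValSub R L EM hEM → hostB EM EN q hB x ∈ W0 := fun x hx =>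
    (comap_mem_iff (hostB EM EN q hB : ↥EM →+* ↥EN) hW0B x).mpr hx
  set uA : Fin q → ↥W0 := fun i => ⟨hostA EM EN hle (a i : ↥EM), hAmem _ (a i).2⟩ with huA
  set uJq : ↥W0 := ⟨hostB EM EN q hB J, hBmem J hJM⟩ with huJq
  set uJ : ↥W0 := ⟨hostA EM EN hle J, hAmem J hJM⟩ with huJ
  -- the residue field of `W0` has characteristic `q`
  have hqW0 : ((q : ℕ) : ResidueField ↥W0) = 0 := by
    have h1 : W0.valuation (hostA EM EN hle ((q : ℕ) : ↥EM)) < 1 :=
      (comap_val_lt_one_iff (hostA EM EN hle : ↥EM →+* ↥EN) hW0A _).mpr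
        (natCast_val_lt_one EM q hEM hchar)
    rw [map_natCast] at h1
    have h2 : (((q : ℕ) : ↥W0) : ↥EN) = ((q : ℕ) : ↥EN) := by simp
    have h3 : ((q : ℕ) : ↥W0) ∈ maximalIdeal ↥W0 := by
      rw [ValuationSubring.valuation_lt_one_iff, h2]
      exact h1
    rw [← map_natCast (residue ↥W0)]
    exact (residue_eq_zero_iff _).mpr h3
  haveI : CharP (ResidueField ↥W0) q := charP_of_prime_of_natCast_eq_zero hq hqW0
  -- the relation in the residue field
  have hy : (∑ i, uA i * uJq ^ (i : ℕ) : ↥W0) ∈ maximalIdeal ↥W0 := by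
    rw [ValuationSubring.valuation_lt_one_iff]
    have : (((∑ i, uA i * uJq ^ (i : ℕ) : ↥W0) : ↥W0) : ↥EN) =
        ∑ i, hostA EM EN hle (a i : ↥EM) * hostB EM EN q hB J ^ (i : ℕ) := by
      rw [show (((∑ i, uA i * uJq ^ (i : ℕ) : ↥W0) : ↥W0) : ↥EN) =
        W0.subtype (∑ i, uA i * uJq ^ (i : ℕ)) from rfl, map_sum]
      rfl
    rw [this]
    exact h
  have hres : ∑ i, residue ↥W0 (uA i) * residue ↥W0 uJq ^ (i : ℕ) = 0 := by
    rw [← residue_eq_zero_iff] at hy
    rw [← hy, map_sum]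
    refine Finset.sum_congr rfl (fun i _ => ?_)
    rw [map_mul, map_pow]
  have hkr : residue ↥W0 uJq ^ q = residue ↥W0 uJ := by
    have h1 : uJ - uJq ^ q ∈ maximalIdeal ↥W0 := by
      rw [ValuationSubring.valuation_lt_one_iff]
      exact hkron
    rw [← residue_eq_zero_iff, map_sub, map_pow, sub_eq_zero] at h1
    exact h1.symm
  have hres2 : ∑ i, residue ↥W0 (uA i) ^ q * residue ↥W0 uJ ^ (i : ℕ) = 0 := by
    have h1 : (∑ i, residue ↥W0 (uA i) * residue ↥W0 uJq ^ (i : ℕ)) ^ q = 0 := by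
      rw [hres, zero_pow hq.ne_zero]
    rw [sum_pow_char] at h1
    rw [← h1]
    refine Finset.sum_congr rfl (fun i _ => ?_)
    rw [mul_pow, ← pow_mul, mul_comm (i : ℕ) q, pow_mul, hkr]
  -- back to `V_M`
  set z : ↥EM := ∑ i, (a i : ↥EM) ^ q * J ^ (i : ℕ) with hz
  have hzW0 : W0.valuation (hostA EM EN hle z) < 1 := by
    have hmem : hostA EM EN hle z ∈ W0 := by
      apply hAmem
      rw [hz]
      refine sum_mem (fun i _ => ?_)
      exact mul_mem (pow_mem (a i).2 _) (pow_mem hJM _)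
    have h1 : (⟨hostA EM EN hle z, hmem⟩ : ↥W0) = ∑ i, uA i ^ q * uJ ^ (i : ℕ) := by
      apply Subtype.ext
      show hostA EM EN hle z = _
      have e1 : (((∑ i, uA i ^ q * uJ ^ (i : ℕ) : ↥W0) : ↥W0) : ↥EN) =
          ∑ i, W0.subtype (uA i ^ q * uJ ^ (i : ℕ)) := by
        rw [show (((∑ i, uA i ^ q * uJ ^ (i : ℕ) : ↥W0) : ↥W0) : ↥EN) =
          W0.subtype (∑ i, uA i ^ q * uJ ^ (i : ℕ)) from rfl, map_sum]
      rw [e1, hz, map_sum]
      refine Finset.sum_congr rfl (fun i _ => ?_)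
      rw [map_mul, map_pow, map_pow]
      rfl
    have h2 : (⟨hostA EM EN hle z, hmem⟩ : ↥W0) ∈ maximalIdeal ↥W0 := by
      rw [← residue_eq_zero_iff, h1, map_sum, ← hres2]
      refine Finset.sum_congr rfl (fun i _ => ?_)
      rw [map_mul, map_pow, map_pow]
    rw [ValuationSubring.valuation_lt_one_iff] at h2
    exact h2
  have hzVM : (gaussValSub R L EM hEM).valuation z < 1 :=
    (comap_val_lt_one_iff (hostA EM EN hle : ↥EM →+* ↥EN) hW0A z).mp hzW0
  rw [gaussValSub_valuation_lt_one_iff] at hzVM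
  obtain ⟨hmem, hred⟩ := hzVM
  set α : Fin q → gaussInt R L := fun i => ⟨((a i : ↥EM) : LaurentSeries L), (a i).2⟩ with hα
  set Jg : gaussInt R L := ⟨(J : LaurentSeries L), hJ⟩ with hJg
  have hS : (⟨_, hmem⟩ : gaussInt R L) = ∑ i, α i ^ q * Jg ^ (i : ℕ) := by
    apply Subtype.ext
    show (z : LaurentSeries L) = _
    have e1 : ((∑ i, α i ^ q * Jg ^ (i : ℕ) : gaussInt R L) : LaurentSeries L) =
        ∑ i, (gaussInt R L).subtype (α i ^ q * Jg ^ (i : ℕ)) := by
      rw [show ((∑ i, α i ^ q * Jg ^ (i : ℕ) : gaussInt R L) : LaurentSeries L) =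
        (gaussInt R L).subtype (∑ i, α i ^ q * Jg ^ (i : ℕ)) from rfl, map_sum]
    rw [e1, hz]
    simp only [IntermediateField.coe_sum, IntermediateField.coe_mul, IntermediateField.coe_pow]
    rfl
  rw [hS, map_sum] at hred
  have hred' : ∑ i, qExpand _ q (coeffMap (frobenius (ResidueField R) q) (gaussRed R L (α i))) *
      gaussRed R L Jg ^ (i : ℕ) = 0 := by
    rw [← hred]
    refine Finset.sum_congr rfl (fun i _ => ?_)
    rw [map_mul, map_pow, map_pow, laurent_pow_char q]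
  have hz0 := eq_zero_of_sum_qExpand_mul_pow_eq_zero q w hcop _ hJo hJ0 _ hred'
  intro i
  rw [mem_maximalIdeal_gaussValSub_iff]
  have h1 := hz0 i
  have hinj : Function.Injective (coeffMap (frobenius (ResidueField R) q) :
      LaurentSeries (ResidueField R) → LaurentSeries (ResidueField R)) :=
    coeffMapV_injective (frobenius_inj (ResidueField R) q)
  have h2 : gaussRed R L (α i) = 0 := by
    apply hinj
    rw [h1, map_zero]
  exact h2

end Hind

section Main

variable [CharZero L]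

theorem hostA_gaussValSubC (π : R) :
    hostA EM EN hle ((gaussValSubC EM hEM π : ↥(gaussValSub R L EM hEM)) : ↥EM) =
      algebraMap R ↥EN π := by
  apply Subtype.ext
  rw [coe_hostA, coe_gaussValSubC, IsScalarTower.algebraMap_apply R L ↥EN,
    IntermediateField.coe_algebraMap_apply, algebraMap_laurentSeries_eq_single]
  rfl

/-- **the two sheets of a host of level `N = M q`** (see the file header). -/
theorem host_two_sheet (hq : q.Prime) (hchar : (q : ResidueField R) = 0)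
    {π : R} (hπ : Irreducible π)
    (w : ℕ) (hcop : Nat.Coprime w q) (J : ↥EM) (hJ : (J : LaurentSeries L) ∈ gaussInt R L)
    (hJo : (gaussRed R L ⟨(J : LaurentSeries L), hJ⟩).order = -(w : ℤ))
    (hJ0 : gaussRed R L ⟨(J : LaurentSeries L), hJ⟩ ≠ 0)
    (hfinA : letI := (hostA EM EN hle : ↥EM →+* ↥EN).toAlgebra; FiniteDimensional ↥EM ↥EN)
    (hdegA : letI := (hostA EM EN hle : ↥EM →+* ↥EN).toAlgebra;
      Module.finrank ↥EM ↥EN ≤ q + 1)
    (hfinB : letI := (hostB EM EN q hB : ↥EM →+* ↥EN).toAlgebra; FiniteDimensional ↥EM ↥EN)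
    (hdegB : letI := (hostB EM EN q hB : ↥EM →+* ↥EN).toAlgebra;
      Module.finrank ↥EM ↥EN ≤ q + 1)
    (W0 : ValuationSubring ↥EN)
    (hW0A : W0.comap (hostA EM EN hle : ↥EM →+* ↥EN) = gaussValSub R L EM hEM)
    (hW0B : W0.comap (hostB EM EN q hB : ↥EM →+* ↥EN) = gaussValSub R L EM hEM)
    (hkron : W0.valuation (hostA EM EN hle J - hostB EM EN q hB J ^ q) < 1) :
    gaussValSub R L EN hEN ≠ W0 ∧
    (∀ V : ValuationSubring ↥EN,
      V.comap (hostA EM EN hle : ↥EM →+* ↥EN) = gaussValSub R L EM hEM →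
        V = gaussValSub R L EN hEN ∨ V = W0) ∧
    (∀ V : ValuationSubring ↥EN,
      V.comap (hostB EM EN q hB : ↥EM →+* ↥EN) = gaussValSub R L EM hEM →
        V = gaussValSub R L EN hEN ∨ V = W0) ∧
    (∀ x : ↥EN, (gaussValSub R L EN hEN).valuation x < 1 →
      x * (algebraMap R ↥EN π)⁻¹ ∈ gaussValSub R L EN hEN) ∧
    (∀ x : ↥EN, W0.valuation x < 1 → x * (algebraMap R ↥EN π)⁻¹ ∈ W0) ∧
    (∀ x ∈ gaussValSub R L EN hEN, ∃ a ∈ gaussValSub R L EM hEM,
      (gaussValSub R L EN hEN).valuation (x - hostA EM EN hle a) < 1) ∧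
    (∀ x ∈ W0, ∃ a ∈ gaussValSub R L EM hEM, W0.valuation (x - hostB EM EN q hB a) < 1) := by
  classical
  have hw0 : 0 < w := by
    rcases Nat.eq_zero_or_pos w with h0 | h0
    · rw [h0, Nat.coprime_zero_left] at hcop
      exact absurd hcop hq.one_lt.ne'
    · exact h0
  have hJM : J ∈ gaussValSub R L EM hEM := hJ
  have hAinf := comap_hostA_gaussValSub (R := R) EM EN hle hEM hEN
  have hBinf := comap_hostB_gaussValSub (R := R) EM EN q hB hEM hEN
  -- the two sheets are different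
  have hne : gaussValSub R L EN hEN ≠ W0 := by
    intro heq
    rw [← heq, gaussValSub_valuation_lt_one_iff] at hkron
    obtain ⟨hmem, hred⟩ := hkron
    have hBJ : qExpand L q (J : LaurentSeries L) ∈ gaussInt R L :=
      (gaussHomQExpand R L q).map_mem_gaussInt hJ
    have h1 : (⟨_, hmem⟩ : gaussInt R L) =
        (⟨(J : LaurentSeries L), hJ⟩ : gaussInt R L) -
          (⟨qExpand L q (J : LaurentSeries L), hBJ⟩ : gaussInt R L) ^ q := by
      apply Subtype.ext
      rfl
    rw [h1, map_sub, map_pow, sub_eq_zero, gaussRed_qExpand q hJ] at hred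
    have h2 := congrArg HahnSeries.order hred
    rw [HahnSeries.order_pow, Fermat.Agent.JA.order_qExpand, hJo, nsmul_eq_mul] at h2
    have hq2 : (2 : ℤ) ≤ q := by exact_mod_cast hq.two_le
    have hw1 : (1 : ℤ) ≤ w := by exact_mod_cast hw0
    have h3 : (4 : ℤ) ≤ (q : ℤ) * q := by nlinarith
    have h4 : (w : ℤ) * ((q : ℤ) * q) = w := by linarith
    nlinarith
  haveI : CharZero ↥EM := charZero_of_injective_algebraMap (algebraMap L ↥EM).injective
  -- `A`-side
  have hsepA : letI := (hostA EM EN hle : ↥EM →+* ↥EN).toAlgebra;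
      Algebra.IsSeparable ↥EM ↥EN := by
    letI := (hostA EM EN hle : ↥EM →+* ↥EN).toAlgebra
    haveI := hfinA
    exact Algebra.IsAlgebraic.isSeparable_of_perfectField
  have hsepB : letI := (hostB EM EN q hB : ↥EM →+* ↥EN).toAlgebra;
      Algebra.IsSeparable ↥EM ↥EN := by
    letI := (hostB EM EN q hB : ↥EM →+* ↥EN).toAlgebra
    haveI := hfinB
    exact Algebra.IsAlgebraic.isSeparable_of_perfectField
  have hBJ0 : hostB EM EN q hB J ∈ W0 :=
    (comap_mem_iff (hostB EM EN q hB : ↥EM →+* ↥EN) hW0B J).mpr hJM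
  have hAJinf : hostA EM EN hle J ∈ gaussValSub R L EN hEN :=
    (comap_mem_iff (hostA EM EN hle : ↥EM →+* ↥EN) hAinf J).mpr hJM
  obtain ⟨-, a2, a3, a4, a5, -⟩ := two_ext_hom (hostA EM EN hle : ↥EM →+* ↥EN)
    (gaussValSub R L EM hEM) hfinA hsepA hAinf hW0A hne hq.pos hdegA
    (fun i : Fin q => hostB EM EN q hB J ^ (i : ℕ)) (fun i => pow_mem hBJ0 _)
    (fun a ha => hind_A EM EN hle q hB hEM w hcop J hJ hJo hJ0 hq hchar W0 hW0A hW0B hkron a ha)
  obtain ⟨-, b2, -, -, b5, -⟩ := two_ext_hom (hostB EM EN q hB : ↥EM →+* ↥EN)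
    (gaussValSub R L EM hEM) hfinB hsepB hW0B hBinf hne.symm hq.pos hdegB
    (fun i : Fin q => hostA EM EN hle J ^ (i : ℕ)) (fun i => pow_mem hAJinf _)
    (fun a ha => hind_B EM EN hle q hB hEM hEN w hcop J hJ hJo hJ0 a ha)
  refine ⟨hne, a2, fun V hV => (b2 V hV).symm, ?_, ?_, ?_, ?_⟩
  · intro x hx
    have := a3 (gaussValSubC EM hEM π) (irreducible_gaussValSubC hπ EM hEM) x hx
    rw [← hostA_gaussValSubC EM EN hle hEM π]
    exact this
  · intro x hx
    have := a4 (gaussValSubC EM hEM π) (irreducible_gaussValSubC hπ EM hEM) x hx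
    rw [← hostA_gaussValSubC EM EN hle hEM π]
    exact this
  · intro x hx
    obtain ⟨a, ha⟩ := a5 x hx
    exact ⟨a, a.2, ha⟩
  · intro x hx
    obtain ⟨a, ha⟩ := b5 x hx
    exact ⟨a, a.2, ha⟩

end Main

end Host

end Fermat.Agent.SS
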