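/-
(S36 / MODEL36) — helper7 — **[THREEXT] part 1 (pure algebra, Mathlib + VAL2 only)**: the
multi-extension lemma with lower bounds.  `O ⊆ F` a discrete valuation ring, `L / F` finite
separable, `V i` (`i : I`) pairwise distinct extensions of `O` with witnesses `e_i ≥ a_i`
(an element `x_i` with `V_i(x_i ^ a_i) = V_i(ϖ)`) and `f_i ≥ b_i` (`b_i` elements of `V_i` whose
residues are independent over the residue field of `O`).  If `[L : F] ≤ ∑ a_i b_i` then the `V_i`
are all the extensions of `O`, `e_i = a_i`, `f_i = b_i`, `[L : F] = ∑ a_i b_i`, `x_i` is a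
uniformiser of `V_i`, the given elements span the residue field of `V_i`, and the integral closure
of `O` is `⋂ V_i`.
-/
import Mathlib
import Fermat.Agent.SS.VAL2_helper7_TwoExtB

set_option autoImplicit false
set_option linter.unusedSectionVars false
set_option linter.unusedVariables false
set_option linter.style.haveILetI false

open IsLocalRing IsDedekindDomain

namespace Fermat.Agent.SS.TwoExt

variable {F L : Type*} [Field F] [Field L] [Algebra F L]

section Val

variable (V : ValuationSubring L)

/-- a unit of `V` has valuation one. -/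
theorem val_eq_one_of_mem_of_inv_mem {u : L} (hu0 : u ≠ 0) (hu : u ∈ V) (hu' : u⁻¹ ∈ V) :
    V.valuation u = 1 := by
  have h1 : V.valuation u ≤ 1 := (ValuationSubring.valuation_le_one_iff V u).mpr hu
  have h2 : V.valuation u⁻¹ ≤ 1 := (ValuationSubring.valuation_le_one_iff V _).mpr hu'
  have h0 : V.valuation u ≠ 0 := (Valuation.ne_zero_iff _).mpr hu0
  rw [map_inv₀, inv_le_one₀ (zero_lt_iff.mpr h0)] at h2
  exact le_antisymm h1 h2

/-- elements differing by a unit of `V` have the same valuation. -/
theorem val_eq_of_eq_mul_unit {x y u : L} (hu0 : u ≠ 0) (hu : u ∈ V) (hu' : u⁻¹ ∈ V)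
    (h : x = y * u) : V.valuation x = V.valuation y := by
  rw [h, map_mul, val_eq_one_of_mem_of_inv_mem V hu0 hu hu', mul_one]

/-- valuations agree iff the two quotients are integral. -/
theorem val_eq_iff_mul_inv_mem {x y : L} (hx : x ≠ 0) (hy : y ≠ 0) :
    V.valuation x = V.valuation y ↔ x * y⁻¹ ∈ V ∧ y * x⁻¹ ∈ V := by
  have hx0 : V.valuation x ≠ 0 := (Valuation.ne_zero_iff _).mpr hx
  have hy0 : V.valuation y ≠ 0 := (Valuation.ne_zero_iff _).mpr hy
  rw [← ValuationSubring.valuation_le_one_iff, ← ValuationSubring.valuation_le_one_iff,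
    map_mul, map_mul, map_inv₀, map_inv₀, mul_inv_le_iff₀ (zero_lt_iff.mpr hy0),
    mul_inv_le_iff₀ (zero_lt_iff.mpr hx0), one_mul, one_mul]
  exact ⟨fun h => ⟨h.le, h.ge⟩, fun h => le_antisymm h.1 h.2⟩

end Val

section Adic

variable {O : ValuationSubring F} [IsDiscreteValuationRing ↥O] [FiniteDimensional F L]
  [Algebra.IsSeparable F L] {V : ValuationSubring L}

/-- `V`-valuations agree ⇒ the adic valuations at the center agree. -/
theorem adic_val_eq_of_val_eq (h : IsExt O V) {x y : L}
    (hxy : V.valuation x = V.valuation y) :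
    (centerSpec h).valuation L x = (centerSpec h).valuation L y := by
  by_cases hy : y = 0
  · subst hy
    rw [map_zero, Valuation.zero_iff] at hxy
    rw [hxy]
  have hy0 : V.valuation y ≠ 0 := (Valuation.ne_zero_iff _).mpr hy
  have hx : x ≠ 0 := by
    intro hx
    rw [hx, map_zero] at hxy
    exact hy0 hxy.symm
  obtain ⟨h1, h2⟩ := (val_eq_iff_mul_inv_mem V hx hy).mp hxy
  rw [← val_le_one_iff h, map_mul, map_inv₀] at h1 h2
  have hx0 : (centerSpec h).valuation L x ≠ 0 := (Valuation.ne_zero_iff _).mpr hx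
  have hy0' : (centerSpec h).valuation L y ≠ 0 := (Valuation.ne_zero_iff _).mpr hy
  rw [mul_inv_le_iff₀ (zero_lt_iff.mpr hy0'), one_mul] at h1
  rw [mul_inv_le_iff₀ (zero_lt_iff.mpr hx0), one_mul] at h2
  exact le_antisymm h1 h2

/-- the key relation: if `V(x^a) = V(ϖ)` then `a · log w(x) = -e`. -/
theorem log_adic_val_of_pow_eq (h : IsExt O V) {ϖ : ↥O} (hϖ : Irreducible ϖ) {a : ℕ}
    (ha : 0 < a) {x : L}
    (hx : V.valuation (x ^ a) = V.valuation (algebraMap F L (ϖ : F))) :
    (centerSpec h).valuation L x ≠ 0 ∧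
    (a : ℤ) * WithZero.log ((centerSpec h).valuation L x) =
      -((center h).ramificationIdx ↥O : ℤ) := by
  have hw := adic_val_eq_of_val_eq h hx
  rw [valuation_uniformizer h hϖ, map_pow] at hw
  have hx0 : (centerSpec h).valuation L x ≠ 0 := by
    intro h0
    rw [h0, zero_pow ha.ne'] at hw
    exact WithZero.exp_ne_zero hw.symm
  refine ⟨hx0, ?_⟩
  have hlog := congrArg WithZero.log hw
  rw [WithZero.log_pow, WithZero.log_exp, nsmul_eq_mul] at hlog
  exact hlog

/-- **lower bound for the ramification index** from an element `x` with `V(x^a) = V(ϖ)`. -/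
theorem le_ramificationIdx_center (h : IsExt O V) {ϖ : ↥O} (hϖ : Irreducible ϖ) {a : ℕ} {x : L}
    (hx : V.valuation (x ^ a) = V.valuation (algebraMap F L (ϖ : F))) :
    a ≤ (center h).ramificationIdx ↥O := by
  rcases Nat.eq_zero_or_pos a with ha | ha
  · omega
  obtain ⟨hx0, hlog⟩ := log_adic_val_of_pow_eq h hϖ ha hx
  have he : 0 < (center h).ramificationIdx ↥O := ramificationIdx_pos (centerOver h)
  set m := WithZero.log ((centerSpec h).valuation L x) with hm
  have ha' : (0 : ℤ) < a := by exact_mod_cast ha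
  have he' : (0 : ℤ) < ((center h).ramificationIdx ↥O : ℤ) := by exact_mod_cast he
  have hm1 : m ≤ -1 := by
    by_contra hcon
    have : 0 ≤ m := by omega
    nlinarith
  have : (a : ℤ) ≤ ((center h).ramificationIdx ↥O : ℤ) := by nlinarith
  exact_mod_cast this

/-- if the ramification index is exactly `a`, then `x` is a uniformiser of `V`: its adic valuation
is `exp (-1)`. -/
theorem adic_val_of_ramificationIdx_eq (h : IsExt O V) {ϖ : ↥O} (hϖ : Irreducible ϖ) {a : ℕ}
    {x : L} (hx : V.valuation (x ^ a) = V.valuation (algebraMap F L (ϖ : F)))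
    (he : (center h).ramificationIdx ↥O = a) :
    (centerSpec h).valuation L x = WithZero.exp (-1 : ℤ) := by
  have hepos : 0 < (center h).ramificationIdx ↥O := ramificationIdx_pos (centerOver h)
  have ha : 0 < a := he ▸ hepos
  obtain ⟨hx0, hlog⟩ := log_adic_val_of_pow_eq h hϖ ha hx
  rw [he] at hlog
  have ha' : (0 : ℤ) < a := by exact_mod_cast ha
  have hm : WithZero.log ((centerSpec h).valuation L x) = -1 := by nlinarith
  rw [← WithZero.exp_log hx0, hm]

/-- if the ramification index is exactly `a`, every non-unit of `V` is divisible by `x`. -/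
theorem mul_inv_mem_of_ramificationIdx_eq (h : IsExt O V) {ϖ : ↥O} (hϖ : Irreducible ϖ) {a : ℕ}
    {x : L} (hx : V.valuation (x ^ a) = V.valuation (algebraMap F L (ϖ : F)))
    (he : (center h).ramificationIdx ↥O = a) {y : L} (hy : V.valuation y < 1) :
    y * x⁻¹ ∈ V := by
  rw [← val_le_one_iff h, map_mul, map_inv₀, adic_val_of_ramificationIdx_eq h hϖ hx he]
  rw [← val_lt_one_iff h] at hy
  by_cases hy0 : y = 0
  · subst hy0; simp
  set z := (centerSpec h).valuation L y with hz
  have hz0 : z ≠ 0 := (Valuation.ne_zero_iff _).mpr hy0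
  have hle : z ≤ WithZero.exp (-1 : ℤ) := by
    rw [← WithZero.exp_log hz0] at hy ⊢
    rw [← WithZero.exp_zero, WithZero.exp_lt_exp] at hy
    rw [WithZero.exp_le_exp]
    omega
  have hpos : (0 : WithZero (Multiplicative ℤ)) < WithZero.exp (-1 : ℤ) := WithZero.exp_pos
  rw [mul_inv_le_iff₀ hpos, one_mul]
  exact hle

end Adic

section Residue'

variable {O : ValuationSubring F} [IsDiscreteValuationRing ↥O] [FiniteDimensional F L]
  [Algebra.IsSeparable F L] {V : ValuationSubring L}

/-- lower bound for the inertia degree from elements of `V` with independent residues. -/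
theorem le_inertiaDeg_center' (h : IsExt O V) {r : ℕ} (b : Fin r → L) (hb : ∀ i, b i ∈ V)
    (hind : ∀ a : Fin r → ↥O, V.valuation (∑ i, algebraMap F L (a i : F) * b i) < 1 →
      ∀ i, a i ∈ maximalIdeal ↥O) :
    r ≤ (center h).inertiaDeg ↥O := by
  choose s hs using fun i => exists_intCl_sub_val_lt_one h (hb i)
  refine le_inertiaDeg_center h (fun i => ((s i : intCl L O) : L)) (fun i => (s i).2) ?_
  intro a ha
  apply hind a
  exact val_lt_one_of_sub (val_sum_sub_lt_one h a b (fun i => ((s i : intCl L O) : L)) hs) ha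

/-- inertia degree `r` with `r` elements of `V` with independent residues: they span the residue
field of `V`. -/
theorem exists_sum_sub_val_lt_one_of_inertiaDeg_eq' (h : IsExt O V) {r : ℕ}
    (hf : (center h).inertiaDeg ↥O = r) (b : Fin r → L) (hb : ∀ i, b i ∈ V)
    (hind : ∀ a : Fin r → ↥O, V.valuation (∑ i, algebraMap F L (a i : F) * b i) < 1 →
      ∀ i, a i ∈ maximalIdeal ↥O) {x : L} (hx : x ∈ V) :
    ∃ a : Fin r → ↥O, V.valuation (x - ∑ i, algebraMap F L (a i : F) * b i) < 1 := by
  choose s hs using fun i => exists_intCl_sub_val_lt_one h (hb i)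
  have hind' : ∀ a : Fin r → ↥O,
      V.valuation (∑ i, algebraMap F L (a i : F) * ((s i : intCl L O) : L)) < 1 →
      ∀ i, a i ∈ maximalIdeal ↥O := by
    intro a ha
    apply hind a
    exact val_lt_one_of_sub (val_sum_sub_lt_one h a b (fun i => ((s i : intCl L O) : L)) hs) ha
  obtain ⟨a, ha⟩ := exists_sum_sub_val_lt_one_of_inertiaDeg_eq h hf
    (fun i => ((s i : intCl L O) : L)) (fun i => (s i).2) hind' hx
  refine ⟨a, ?_⟩
  have h3 := val_sum_sub_lt_one h a b (fun i => ((s i : intCl L O) : L)) hs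
  have : x - ∑ i, algebraMap F L (a i : F) * b i =
      (x - ∑ i, algebraMap F L (a i : F) * ((s i : intCl L O) : L)) -
      (∑ i, algebraMap F L (a i : F) * b i -
        ∑ i, algebraMap F L (a i : F) * ((s i : intCl L O) : L)) := by ring
  rw [this]
  exact lt_of_le_of_lt (Valuation.map_sub _ _ _) (max_lt ha h3)

end Residue'

section CountFamily

variable {O : ValuationSubring F} [IsDiscreteValuationRing ↥O] [FiniteDimensional F L]
  [Algebra.IsSeparable F L]

/-- **the counting step for a family**: pairwise distinct extensions `V i` with lower bounds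
`a i ≤ e_i`, `b i ≤ f_i` and `[L : F] ≤ ∑ a i * b i`. -/
theorem count_family {I : Type*} [Fintype I] {V : I → ValuationSubring L}
    (h : ∀ i, IsExt O (V i)) (hinj : Function.Injective V) (a b : I → ℕ)
    (ha : ∀ i, a i ≤ (center (h i)).ramificationIdx ↥O)
    (hb : ∀ i, b i ≤ (center (h i)).inertiaDeg ↥O)
    (hr : Module.finrank F L ≤ ∑ i, a i * b i) :
    (∀ q : (maximalIdeal ↥O).primesOver (intCl L O), ∃ i, q = centerOver (h i)) ∧
      (∀ i, (center (h i)).ramificationIdx ↥O = a i) ∧
      (∀ i, (center (h i)).inertiaDeg ↥O = b i) ∧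
      Module.finrank F L = ∑ i, a i * b i := by
  classical
  let _ : Fintype ((maximalIdeal ↥O).primesOver (intCl L O)) := Fintype.ofFinite _
  have hsum := Ideal.sum_ramification_inertia_eq_finrank (maximalIdeal ↥O) (intCl L O)
  have h3 : Module.finrank ↥O (intCl L O) = Module.finrank F L :=
    (IsFractionRing.finrank_eq ↥O F (intCl L O) L).symm
  rw [h3] at hsum
  set g : (maximalIdeal ↥O).primesOver (intCl L O) → ℕ :=
    fun q => q.1.ramificationIdx ↥O * q.1.inertiaDeg ↥O with hg
  have hsum' : ∑ q, g q = Module.finrank F L := hsum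
  have hg1 : ∀ q, 1 ≤ g q := fun q =>
    Nat.one_le_iff_ne_zero.mpr (Nat.mul_ne_zero (ramificationIdx_pos q).ne' (inertiaDeg_pos' q).ne')
  set c : I → (maximalIdeal ↥O).primesOver (intCl L O) := fun i => centerOver (h i) with hc
  have hcinj : Function.Injective c := fun i j hij =>
    hinj (centerOver_injective (h i) (h j) hij)
  set S := Finset.univ.image c with hS
  have h4 : ∑ q ∈ S, g q = ∑ i, g (c i) := Finset.sum_image (fun i _ j _ hij => hcinj hij)
  have h5 : ∑ q ∈ S, g q + ∑ q ∈ Sᶜ, g q = ∑ q, g q := Finset.sum_add_sum_compl S g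
  have h6 : ∀ i, a i * b i ≤ g (c i) := fun i => Nat.mul_le_mul (ha i) (hb i)
  have h7 : ∑ i, a i * b i ≤ ∑ i, g (c i) := Finset.sum_le_sum (fun i _ => h6 i)
  have hTle : (Sᶜ).card ≤ ∑ q ∈ Sᶜ, g q := by
    have := Finset.card_nsmul_le_sum Sᶜ g 1 (fun x _ => hg1 x)
    simpa using this
  have h8 : ∑ q ∈ Sᶜ, g q = 0 := by omega
  have h9 : (Sᶜ).card = 0 := by omega
  have h10 : ∑ i, a i * b i = ∑ i, g (c i) := by omega
  have h11 : ∀ i, a i * b i = g (c i) := by
    intro i
    by_contra hne
    have hlt : a i * b i < g (c i) := lt_of_le_of_ne (h6 i) hne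
    have : ∑ i, a i * b i < ∑ i, g (c i) :=
      Finset.sum_lt_sum (fun i _ => h6 i) ⟨i, Finset.mem_univ _, hlt⟩
    omega
  have hfr : Module.finrank F L = ∑ i, a i * b i := by
    rw [← hsum', ← h5, h8, h4, h10]
    omega
  have hab : ∀ i, (center (h i)).ramificationIdx ↥O = a i ∧
      (center (h i)).inertiaDeg ↥O = b i := by
    intro i
    have he1 : 1 ≤ (center (h i)).ramificationIdx ↥O := ramificationIdx_pos (c i)
    have hf1 : 1 ≤ (center (h i)).inertiaDeg ↥O := inertiaDeg_pos' (c i)
    have heq : a i * b i =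
        (center (h i)).ramificationIdx ↥O * (center (h i)).inertiaDeg ↥O := h11 i
    have hai := ha i
    have hbi := hb i
    constructor
    · by_contra hne
      have hlt : a i < (center (h i)).ramificationIdx ↥O := lt_of_le_of_ne hai (Ne.symm hne)
      have h12 : a i * b i ≤ a i * (center (h i)).inertiaDeg ↥O := Nat.mul_le_mul_left _ hbi
      have h13 : a i * (center (h i)).inertiaDeg ↥O <
          (center (h i)).ramificationIdx ↥O * (center (h i)).inertiaDeg ↥O :=
        Nat.mul_lt_mul_of_pos_right hlt hf1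
      omega
    · by_contra hne
      have hlt : b i < (center (h i)).inertiaDeg ↥O := lt_of_le_of_ne hbi (Ne.symm hne)
      have h12 : a i * b i ≤ (center (h i)).ramificationIdx ↥O * b i :=
        Nat.mul_le_mul_right _ hai
      have h13 : (center (h i)).ramificationIdx ↥O * b i <
          (center (h i)).ramificationIdx ↥O * (center (h i)).inertiaDeg ↥O :=
        Nat.mul_lt_mul_of_pos_left hlt he1
      omega
  refine ⟨?_, fun i => (hab i).1, fun i => (hab i).2, hfr⟩
  intro q
  by_contra hcon
  rw [not_exists] at hcon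
  have : q ∈ Sᶜ := by
    rw [Finset.mem_compl, hS, Finset.mem_image]
    rintro ⟨i, -, hi⟩
    exact hcon i hi.symm
  rw [Finset.card_eq_zero] at h9
  rw [h9] at this
  exact absurd this (Finset.notMem_empty _)

/-- if the `V i` are the only centers, the integral closure is `⋂ V i`. -/
theorem isIntegral_of_forall_mem {I : Type*} {V : I → ValuationSubring L}
    (h : ∀ i, IsExt O (V i))
    (hall : ∀ q : (maximalIdeal ↥O).primesOver (intCl L O), ∃ i, q = centerOver (h i))
    {x : L} (hx : ∀ i, x ∈ V i) : IsIntegral ↥O x := by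
  have hmem : x ∈ (algebraMap (intCl L O) L).range := by
    apply HeightOneSpectrum.mem_integers_of_valuation_le_one L x
    intro P
    have hP : P.asIdeal ∈ (maximalIdeal ↥O).primesOver (intCl L O) :=
      ⟨P.isPrime, ⟨(heightOne_under P).symm⟩⟩
    obtain ⟨i, hq⟩ := hall ⟨P.asIdeal, hP⟩
    have : P = centerSpec (h i) := HeightOneSpectrum.ext (congrArg Subtype.val hq)
    rw [this, val_le_one_iff]
    exact hx i
  obtain ⟨s, rfl⟩ := hmem
  exact s.2

end CountFamily

section MultiExt

variable {O : ValuationSubring F} [IsDiscreteValuationRing ↥O] [FiniteDimensional F L]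
  [Algebra.IsSeparable F L]

/-- **The multi-extension lemma** (see the file header). -/
theorem multi_ext {I : Type*} [Fintype I] {V : I → ValuationSubring L}
    (h : ∀ i, IsExt O (V i)) (hinj : Function.Injective V) {ϖ : ↥O} (hϖ : Irreducible ϖ)
    (a : I → ℕ) (x : I → L)
    (hx : ∀ i, (V i).valuation (x i ^ a i) = (V i).valuation (algebraMap F L (ϖ : F)))
    (b : I → ℕ) (y : ∀ i, Fin (b i) → L) (hy : ∀ i j, y i j ∈ V i)
    (hind : ∀ i (c : Fin (b i) → ↥O),
      (V i).valuation (∑ j, algebraMap F L (c j : F) * y i j) < 1 →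
        ∀ j, c j ∈ maximalIdeal ↥O)
    (hr : Module.finrank F L ≤ ∑ i, a i * b i) :
    Module.finrank F L = ∑ i, a i * b i ∧
    (∀ W : ValuationSubring L, IsExt O W → ∃ i, W = V i) ∧
    (∀ i, (center (h i)).ramificationIdx ↥O = a i) ∧
    (∀ i, (center (h i)).inertiaDeg ↥O = b i) ∧
    (∀ i, ∀ z : L, (V i).valuation z < 1 → z * (x i)⁻¹ ∈ V i) ∧
    (∀ i, ∀ z ∈ V i, ∃ c : Fin (b i) → ↥O,
      (V i).valuation (z - ∑ j, algebraMap F L (c j : F) * y i j) < 1) ∧
    (∀ z : L, (∀ i, z ∈ V i) → IsIntegral ↥O z) := by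
  obtain ⟨hall, he, hf, hdeg⟩ := count_family h hinj a b
    (fun i => le_ramificationIdx_center (h i) hϖ (hx i))
    (fun i => le_inertiaDeg_center' (h i) (y i) (hy i) (hind i)) hr
  refine ⟨hdeg, ?_, he, hf, ?_, ?_, ?_⟩
  · intro W hW
    obtain ⟨i, hi⟩ := hall (centerOver hW)
    exact ⟨i, centerOver_injective hW (h i) hi⟩
  · intro i z hz
    exact mul_inv_mem_of_ramificationIdx_eq (h i) hϖ (hx i) (he i) hz
  · intro i z hz
    exact exists_sum_sub_val_lt_one_of_inertiaDeg_eq' (h i) (hf i) (y i) (hy i) (hind i) hz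
  · intro z hz
    exact isIntegral_of_forall_mem h hall hz

end MultiExt

end Fermat.Agent.SS.TwoExt
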