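/-
(S36 / MODEL36) — helper7 — **[THREEXT] part 2**: the two-sheet lemma with one ramified sheet
(`(e, f) = (1, 1)` and `(a, 1)`, `[L : F] ≤ a + 1`), and the ring-homomorphism forms of it and of the
multi-extension lemma (à la `two_ext_hom`).
-/
import Mathlib
import Fermat.Agent.SS.VAL3_helper7_Count

set_option autoImplicit false
set_option linter.unusedSectionVars false
set_option linter.unusedVariables false
set_option linter.style.haveILetI false

open IsLocalRing IsDedekindDomain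

namespace Fermat.Agent.SS.TwoExt

variable {F L : Type*} [Field F] [Field L] [Algebra F L]

section TwoRam

variable {O : ValuationSubring F} [IsDiscreteValuationRing ↥O] [FiniteDimensional F L]
  [Algebra.IsSeparable F L]

/-- the counting step: `V₁ ≠ V₂` extend `O`, `a ≤ e(V₂)`, `[L : F] ≤ a + 1`. -/
theorem count_two_ram {V₁ V₂ : ValuationSubring L} (h₁ : IsExt O V₁) (h₂ : IsExt O V₂)
    (hne : V₁ ≠ V₂) {a : ℕ} (ha : a ≤ (center h₂).ramificationIdx ↥O)
    (hr : Module.finrank F L ≤ a + 1) :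
    (∀ q : (maximalIdeal ↥O).primesOver (intCl L O), q = centerOver h₁ ∨ q = centerOver h₂) ∧
      (center h₁).ramificationIdx ↥O = 1 ∧ (center h₁).inertiaDeg ↥O = 1 ∧
      (center h₂).ramificationIdx ↥O = a ∧ (center h₂).inertiaDeg ↥O = 1 ∧
      Module.finrank F L = a + 1 := by
  have h : ∀ i : Fin 2, IsExt O (![V₁, V₂] i) := by
    intro i
    fin_cases i
    · exact h₁
    · exact h₂
  have hinj : Function.Injective ![V₁, V₂] := by
    intro i j hij
    fin_cases i <;> fin_cases j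
    · rfl
    · exact absurd hij hne
    · exact absurd hij.symm hne
    · rfl
  have hA : ∀ i : Fin 2, ![1, a] i ≤ (center (h i)).ramificationIdx ↥O := by
    intro i
    fin_cases i
    · exact ramificationIdx_pos (centerOver h₁)
    · exact ha
  have hB : ∀ i : Fin 2, ![1, 1] i ≤ (center (h i)).inertiaDeg ↥O := by
    intro i
    fin_cases i
    · exact inertiaDeg_pos' (centerOver h₁)
    · exact inertiaDeg_pos' (centerOver h₂)
  have hsum : ∑ i : Fin 2, ![1, a] i * ![1, 1] i = a + 1 := by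
    rw [Fin.sum_univ_two]
    simp
    omega
  obtain ⟨hall, he, hf, hdeg⟩ := count_family h hinj ![1, a] ![1, 1] hA hB (by rw [hsum]; exact hr)
  refine ⟨?_, he 0, hf 0, he 1, hf 1, by rw [hdeg, hsum]⟩
  intro q
  obtain ⟨i, hi⟩ := hall q
  fin_cases i
  · left; exact hi
  · right; exact hi

/-- **The two-sheet lemma with one ramified sheet.**  `V₁ ≠ V₂` extend the discrete valuation ring
`O`, `x ∈ L` satisfies `V₂(x ^ a) = V₂(ϖ)` and `[L : F] ≤ a + 1`.  Then `[L : F] = a + 1`, `V₁, V₂`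
are the only extensions of `O`, `ϖ` is a uniformiser of `V₁`, `x` is a uniformiser of `V₂`, both
residue fields are that of `O`, and the integral closure of `O` is `V₁ ∩ V₂`. -/
theorem two_ext_ram {V₁ V₂ : ValuationSubring L} (h₁ : IsExt O V₁) (h₂ : IsExt O V₂)
    (hne : V₁ ≠ V₂) {ϖ : ↥O} (hϖ : Irreducible ϖ) {a : ℕ} {x : L}
    (hx : V₂.valuation (x ^ a) = V₂.valuation (algebraMap F L (ϖ : F)))
    (hr : Module.finrank F L ≤ a + 1) :
    Module.finrank F L = a + 1 ∧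
    (∀ V : ValuationSubring L, IsExt O V → V = V₁ ∨ V = V₂) ∧
    (∀ z : L, V₁.valuation z < 1 → z * (algebraMap F L (ϖ : F))⁻¹ ∈ V₁) ∧
    (∀ z : L, V₂.valuation z < 1 → z * x⁻¹ ∈ V₂) ∧
    (∀ z ∈ V₁, ∃ c : ↥O, V₁.valuation (z - algebraMap F L (c : F)) < 1) ∧
    (∀ z ∈ V₂, ∃ c : ↥O, V₂.valuation (z - algebraMap F L (c : F)) < 1) ∧
    (∀ z : L, z ∈ V₁ → z ∈ V₂ → IsIntegral ↥O z) := by
  obtain ⟨hall, he₁, hf₁, he₂, hf₂, hdeg⟩ :=
    count_two_ram h₁ h₂ hne (le_ramificationIdx_center h₂ hϖ hx) hr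
  refine ⟨hdeg, ?_, ?_, ?_, ?_, ?_, ?_⟩
  · intro V hV
    rcases hall (centerOver hV) with hq | hq
    · left; exact centerOver_injective hV h₁ hq
    · right; exact centerOver_injective hV h₂ hq
  · intro z hz
    exact mul_inv_mem_of_ramificationIdx_eq_one h₁ he₁ hϖ hz
  · intro z hz
    exact mul_inv_mem_of_ramificationIdx_eq h₂ hϖ hx he₂ hz
  · intro z hz
    exact exists_sub_val_lt_one_of_inertiaDeg_eq_one h₁ hf₁ hz
  · intro z hz
    exact exists_sub_val_lt_one_of_inertiaDeg_eq_one h₂ hf₂ hz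
  · intro z hz₁ hz₂
    exact isIntegral_of_mem_of_mem h₁ h₂ hall hz₁ hz₂

end TwoRam

end Fermat.Agent.SS.TwoExt

namespace Fermat.Agent.SS

section Hom

variable {F L : Type*} [Field F] [Field L]

/-- the two-sheet lemma with one ramified sheet, along a ring homomorphism. -/
theorem two_ext_ram_hom (ι : F →+* L) (O : ValuationSubring F) [IsDiscreteValuationRing ↥O]
    (hfin : letI := ι.toAlgebra; FiniteDimensional F L)
    (hsep : letI := ι.toAlgebra; Algebra.IsSeparable F L)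
    {V₁ V₂ : ValuationSubring L} (h₁ : V₁.comap ι = O) (h₂ : V₂.comap ι = O)
    (hne : V₁ ≠ V₂) {ϖ : ↥O} (hϖ : Irreducible ϖ) {a : ℕ} {x : L}
    (hx : V₂.valuation (x ^ a) = V₂.valuation (ι (ϖ : F)))
    (hr : letI := ι.toAlgebra; Module.finrank F L ≤ a + 1) :
    (letI := ι.toAlgebra; Module.finrank F L = a + 1) ∧
    (∀ V : ValuationSubring L, V.comap ι = O → V = V₁ ∨ V = V₂) ∧
    (∀ z : L, V₁.valuation z < 1 → z * (ι (ϖ : F))⁻¹ ∈ V₁) ∧
    (∀ z : L, V₂.valuation z < 1 → z * x⁻¹ ∈ V₂) ∧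
    (∀ z ∈ V₁, ∃ c : ↥O, V₁.valuation (z - ι (c : F)) < 1) ∧
    (∀ z ∈ V₂, ∃ c : ↥O, V₂.valuation (z - ι (c : F)) < 1) := by
  letI := ι.toAlgebra
  haveI := hfin
  haveI := hsep
  obtain ⟨c1, c2, c3, c4, c5, c6, -⟩ := TwoExt.two_ext_ram (O := O) (V₁ := V₁) (V₂ := V₂) h₁ h₂
    hne hϖ hx hr
  exact ⟨c1, c2, c3, c4, c5, c6⟩

/-- the one-extension lemma along a ring homomorphism. -/
theorem one_ext_hom (ι : F →+* L) (O : ValuationSubring F) [IsDiscreteValuationRing ↥O]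
    (hfin : letI := ι.toAlgebra; FiniteDimensional F L)
    (hsep : letI := ι.toAlgebra; Algebra.IsSeparable F L)
    {V : ValuationSubring L} (h : V.comap ι = O) {r : ℕ} (hr0 : 0 < r)
    (hr : letI := ι.toAlgebra; Module.finrank F L ≤ r)
    (b : Fin r → L) (hb : ∀ i, b i ∈ V)
    (hind : ∀ a : Fin r → ↥O, V.valuation (∑ i, ι (a i : F) * b i) < 1 →
      ∀ i, a i ∈ maximalIdeal ↥O) :
    (letI := ι.toAlgebra; Module.finrank F L = r) ∧
    (∀ V' : ValuationSubring L, V'.comap ι = O → V' = V) ∧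
    (∀ ϖ : ↥O, Irreducible ϖ → ∀ x : L, V.valuation x < 1 → x * (ι (ϖ : F))⁻¹ ∈ V) ∧
    (∀ x ∈ V, ∃ a : Fin r → ↥O, V.valuation (x - ∑ i, ι (a i : F) * b i) < 1) := by
  letI := ι.toAlgebra
  haveI := hfin
  haveI := hsep
  have hV : TwoExt.IsExt O V := h
  obtain ⟨hall, he, hf, hdeg⟩ := TwoExt.count_one hV hr0 hr
    (TwoExt.le_inertiaDeg_center' hV b hb hind)
  refine ⟨hdeg, ?_, ?_, ?_⟩
  · intro V' hV'
    exact TwoExt.centerOver_injective (O := O) hV' hV (hall (TwoExt.centerOver hV'))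
  · intro ϖ hϖ x hx
    exact TwoExt.mul_inv_mem_of_ramificationIdx_eq_one hV he hϖ hx
  · intro x hx
    exact TwoExt.exists_sum_sub_val_lt_one_of_inertiaDeg_eq' hV hf b hb hind hx

/-- **the multi-extension lemma along a ring homomorphism.** -/
theorem multi_ext_hom (ι : F →+* L) (O : ValuationSubring F) [IsDiscreteValuationRing ↥O]
    (hfin : letI := ι.toAlgebra; FiniteDimensional F L)
    (hsep : letI := ι.toAlgebra; Algebra.IsSeparable F L)
    {I : Type*} [Fintype I] {V : I → ValuationSubring L}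
    (h : ∀ i, (V i).comap ι = O) (hinj : Function.Injective V) {ϖ : ↥O} (hϖ : Irreducible ϖ)
    (a : I → ℕ) (x : I → L)
    (hx : ∀ i, (V i).valuation (x i ^ a i) = (V i).valuation (ι (ϖ : F)))
    (b : I → ℕ) (y : ∀ i, Fin (b i) → L) (hy : ∀ i j, y i j ∈ V i)
    (hind : ∀ i (c : Fin (b i) → ↥O),
      (V i).valuation (∑ j, ι (c j : F) * y i j) < 1 → ∀ j, c j ∈ maximalIdeal ↥O)
    (hr : letI := ι.toAlgebra; Module.finrank F L ≤ ∑ i, a i * b i) :
    (letI := ι.toAlgebra; Module.finrank F L = ∑ i, a i * b i) ∧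
    (∀ W : ValuationSubring L, W.comap ι = O → ∃ i, W = V i) ∧
    (∀ i, ∀ z : L, (V i).valuation z < 1 → z * (x i)⁻¹ ∈ V i) ∧
    (∀ i, ∀ z ∈ V i, ∃ c : Fin (b i) → ↥O,
      (V i).valuation (z - ∑ j, ι (c j : F) * y i j) < 1) := by
  letI := ι.toAlgebra
  haveI := hfin
  haveI := hsep
  obtain ⟨c1, c2, -, -, c5, c6, -⟩ := TwoExt.multi_ext (O := O) (V := V) h hinj hϖ a x hx b y hy
    hind hr
  exact ⟨c1, c2, c5, c6⟩

end Hom

end Fermat.Agent.SS
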