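/-
(S36 / MODEL36) — helper7 — **[THREEXT] part 3**: extensions of a DVR are DVRs, and the purely
inseparable independence lemma.

* `isDiscreteValuationRing_of_comap` : an extension of a discrete valuation ring to a finite
  separable extension is a discrete valuation ring.
* `IsQIndep O q u` : `1, u, …, u^{q-1}` are independent over the `q`-th powers of the residue field
  of `O`.  It holds for Gauss valuation subrings (`isQIndep_gaussValSub`, `u = J` of order prime to
  `q`), transfers along extensions of residue degree one (`IsQIndep.transfer`), and gives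
  `f ≥ q` for a sheet `W` over `O` carrying a `q`-th root of `u` mod `𝔪_W` (`hind_of_isQIndep`).
-/
import Mathlib
import Fermat.Agent.SS.VAL3_helper7_Hom
import Fermat.Agent.SS.VAL2_helper7_HostTwo

set_option autoImplicit false
set_option linter.unusedSectionVars false
set_option linter.unusedVariables false
set_option linter.style.haveILetI false

open Polynomial ModularCurve IsLocalRing IsDedekindDomain

namespace Fermat.Agent.SS

open Fermat.Agent.JA Fermat.Agent.Igusa

section Dvr

variable {F L : Type*} [Field F] [Field L]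

/-- an extension of a discrete valuation ring to a finite separable extension is a discrete
valuation ring. -/
theorem TwoExt.IsExt.isDiscreteValuationRing [Algebra F L] {O : ValuationSubring F}
    [IsDiscreteValuationRing ↥O] [FiniteDimensional F L] [Algebra.IsSeparable F L]
    {V : ValuationSubring L} (h : TwoExt.IsExt O V) : IsDiscreteValuationRing ↥V := by
  have e := TwoExt.valuationSubring_eq h
  rw [← HeightOneSpectrum.valuationSubringAtPrime_eq_valuationSubring] at e
  have hd : IsDiscreteValuationRing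
      ↥(HeightOneSpectrum.valuationSubringAtPrime L (TwoExt.centerSpec h)) :=
    IsLocalization.AtPrime.isDiscreteValuationRing_of_dedekind_domain (TwoExt.intCl L O)
      (TwoExt.centerSpec h).ne_bot _
  exact e ▸ hd

/-- ring-homomorphism form. -/
theorem isDiscreteValuationRing_of_comap (ι : F →+* L) (O : ValuationSubring F)
    [IsDiscreteValuationRing ↥O]
    (hfin : letI := ι.toAlgebra; FiniteDimensional F L)
    (hsep : letI := ι.toAlgebra; Algebra.IsSeparable F L)
    {V : ValuationSubring L} (h : V.comap ι = O) : IsDiscreteValuationRing ↥V := by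
  letI := ι.toAlgebra
  haveI := hfin
  haveI := hsep
  exact TwoExt.IsExt.isDiscreteValuationRing (O := O) (V := V) h

end Dvr

section ValLemmas

variable {L : Type*} [Field L] (V : ValuationSubring L)

theorem val_lt_one_add {x y : L} (hx : V.valuation x < 1) (hy : V.valuation y < 1) :
    V.valuation (x + y) < 1 :=
  lt_of_le_of_lt (Valuation.map_add _ _ _) (max_lt hx hy)

theorem val_lt_one_sub {x y : L} (hx : V.valuation x < 1) (hy : V.valuation y < 1) :
    V.valuation (x - y) < 1 :=
  lt_of_le_of_lt (Valuation.map_sub _ _ _) (max_lt hx hy)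

theorem val_lt_one_mul_mem {x y : L} (hx : V.valuation x < 1) (hy : y ∈ V) :
    V.valuation (x * y) < 1 := by
  rw [map_mul]
  have h1 : V.valuation y ≤ 1 := (ValuationSubring.valuation_le_one_iff V y).mpr hy
  calc V.valuation x * V.valuation y ≤ V.valuation x * 1 := mul_le_mul_right h1 _
    _ = V.valuation x := mul_one _
    _ < 1 := hx

theorem val_lt_one_mem_mul {x y : L} (hx : x ∈ V) (hy : V.valuation y < 1) :
    V.valuation (x * y) < 1 := by
  rw [mul_comm]
  exact val_lt_one_mul_mem V hy hx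

/-- `a ≡ b` implies `a ^ n ≡ b ^ n` modulo the maximal ideal. -/
theorem val_pow_sub_pow_lt_one {a b : L} (ha : a ∈ V) (hb : b ∈ V)
    (hab : V.valuation (a - b) < 1) (n : ℕ) : V.valuation (a ^ n - b ^ n) < 1 := by
  obtain ⟨c, hc⟩ := sub_dvd_pow_sub_pow (⟨a, ha⟩ : ↥V) ⟨b, hb⟩ n
  have hc' : a ^ n - b ^ n = (a - b) * (c : L) := by
    have := congrArg (fun z : ↥V => (z : L)) hc
    simpa using this
  rw [hc']
  exact val_lt_one_mul_mem V hab c.2

end ValLemmas

section QIndep

variable {F : Type*} [Field F]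

/-- `1, u, …, u^{q-1}` are independent over the `q`-th powers of the residue field of `O`. -/
def IsQIndep (O : ValuationSubring F) (q : ℕ) (u : F) : Prop :=
  ∀ a : Fin q → ↥O, O.valuation (∑ i, ((a i : ↥O) : F) ^ q * u ^ (i : ℕ)) < 1 →
    ∀ i, a i ∈ maximalIdeal ↥O

/-- transfer of `IsQIndep` along an extension of residue degree one. -/
theorem IsQIndep.transfer {F' : Type*} [Field F'] (ι' : F' →+* F) {O' : ValuationSubring F'}
    {O : ValuationSubring F} (hO : O.comap ι' = O')
    (hres : ∀ x ∈ O, ∃ α ∈ O', O.valuation (x - ι' α) < 1)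
    {q : ℕ} {u' : F'} (hu' : u' ∈ O') (h : IsQIndep O' q u') : IsQIndep O q (ι' u') := by
  intro a ha
  choose α hαO hα using fun i => hres (a i : F) (a i).2
  have hιmem : ∀ z : F', z ∈ O' → ι' z ∈ O := fun z hz => (comap_mem_iff ι' hO z).mpr hz
  have huO : ι' u' ∈ O := hιmem u' hu'
  -- the sum of the approximations
  have hdiff : O.valuation (∑ i, ((a i : ↥O) : F) ^ q * ι' u' ^ (i : ℕ) -
      ι' (∑ i, α i ^ q * u' ^ (i : ℕ))) < 1 := by
    rw [map_sum, ← Finset.sum_sub_distrib]
    refine Valuation.map_sum_lt _ one_ne_zero (fun i _ => ?_)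
    rw [map_mul, map_pow, map_pow, ← sub_mul]
    refine val_lt_one_mul_mem O ?_ (pow_mem huO _)
    exact val_pow_sub_pow_lt_one O (a i).2 (hιmem _ (hαO i)) (hα i) q
  have h1 : O.valuation (ι' (∑ i, α i ^ q * u' ^ (i : ℕ))) < 1 := by
    have : ι' (∑ i, α i ^ q * u' ^ (i : ℕ)) = ∑ i, ((a i : ↥O) : F) ^ q * ι' u' ^ (i : ℕ) -
        (∑ i, ((a i : ↥O) : F) ^ q * ι' u' ^ (i : ℕ) - ι' (∑ i, α i ^ q * u' ^ (i : ℕ))) := by
      ring
    rw [this]
    exact val_lt_one_sub O ha hdiff
  have h2 : O'.valuation (∑ i, α i ^ q * u' ^ (i : ℕ)) < 1 :=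
    (comap_val_lt_one_iff ι' hO _).mp h1
  have h3 := h (fun i => ⟨α i, hαO i⟩) h2
  intro i
  have h4 : O'.valuation (α i) < 1 := by
    have := h3 i
    rw [ValuationSubring.valuation_lt_one_iff] at this
    exact this
  have h5 : O.valuation (ι' (α i)) < 1 := (comap_val_lt_one_iff ι' hO _).mpr h4
  rw [ValuationSubring.valuation_lt_one_iff]
  have : ((a i : ↥O) : F) = ((a i : ↥O) : F) - ι' (α i) + ι' (α i) := by ring
  rw [this]
  exact val_lt_one_add O (hα i) h5

/-- **the purely inseparable independence lemma**: if `W` lies over `O` along `ι`, the residue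
characteristic is `q`, `ι u ≡ y ^ q` on `W` and `1, u, …, u^{q-1}` are independent over the `q`-th
powers of the residue field of `O`, then `1, y, …, y^{q-1}` are independent over the residue field
of `O` at `W`. -/
theorem hind_of_isQIndep {L : Type*} [Field L] (ι : F →+* L) {O : ValuationSubring F}
    {W : ValuationSubring L} (hW : W.comap ι = O) {q : ℕ} (hq : q.Prime)
    (hqO : O.valuation ((q : ℕ) : F) < 1) {u : F} (hu : u ∈ O) {y : L} (hy : y ∈ W)
    (hkron : W.valuation (ι u - y ^ q) < 1) (hind : IsQIndep O q u)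
    (a : Fin q → ↥O) (h : W.valuation (∑ i, ι ((a i : ↥O) : F) * y ^ (i : ℕ)) < 1) :
    ∀ i, a i ∈ maximalIdeal ↥O := by
  classical
  haveI : Fact q.Prime := ⟨hq⟩
  have hιmem : ∀ z : F, z ∈ O → ι z ∈ W := fun z hz => (comap_mem_iff ι hW z).mpr hz
  set uA : Fin q → ↥W := fun i => ⟨ι ((a i : ↥O) : F), hιmem _ (a i).2⟩ with huA
  set uy : ↥W := ⟨y, hy⟩ with huy
  set uu : ↥W := ⟨ι u, hιmem u hu⟩ with huu
  -- the residue field of `W` has characteristic `q`
  have hqW : ((q : ℕ) : ResidueField ↥W) = 0 := by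
    have h1 : W.valuation (ι ((q : ℕ) : F)) < 1 := (comap_val_lt_one_iff ι hW _).mpr hqO
    rw [map_natCast] at h1
    have h2 : (((q : ℕ) : ↥W) : L) = ((q : ℕ) : L) := by simp
    have h3 : ((q : ℕ) : ↥W) ∈ maximalIdeal ↥W := by
      rw [ValuationSubring.valuation_lt_one_iff, h2]
      exact h1
    rw [← map_natCast (residue ↥W)]
    exact (residue_eq_zero_iff _).mpr h3
  haveI : CharP (ResidueField ↥W) q := charP_of_prime_of_natCast_eq_zero hq hqW
  have hsum : (∑ i, uA i * uy ^ (i : ℕ) : ↥W) ∈ maximalIdeal ↥W := by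
    rw [ValuationSubring.valuation_lt_one_iff]
    have : (((∑ i, uA i * uy ^ (i : ℕ) : ↥W) : ↥W) : L) =
        ∑ i, ι ((a i : ↥O) : F) * y ^ (i : ℕ) := by
      rw [show (((∑ i, uA i * uy ^ (i : ℕ) : ↥W) : ↥W) : L) =
        W.subtype (∑ i, uA i * uy ^ (i : ℕ)) from rfl, map_sum]
      rfl
    rw [this]
    exact h
  have hres : ∑ i, residue ↥W (uA i) * residue ↥W uy ^ (i : ℕ) = 0 := by
    rw [← residue_eq_zero_iff] at hsum
    rw [← hsum, map_sum]
    refine Finset.sum_congr rfl (fun i _ => ?_)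
    rw [map_mul, map_pow]
  have hkr : residue ↥W uy ^ q = residue ↥W uu := by
    have h1 : uu - uy ^ q ∈ maximalIdeal ↥W := by
      rw [ValuationSubring.valuation_lt_one_iff]
      exact hkron
    rw [← residue_eq_zero_iff, map_sub, map_pow, sub_eq_zero] at h1
    exact h1.symm
  have hres2 : ∑ i, residue ↥W (uA i) ^ q * residue ↥W uu ^ (i : ℕ) = 0 := by
    have h1 : (∑ i, residue ↥W (uA i) * residue ↥W uy ^ (i : ℕ)) ^ q = 0 := by
      rw [hres, zero_pow hq.ne_zero]
    rw [sum_pow_char] at h1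
    rw [← h1]
    refine Finset.sum_congr rfl (fun i _ => ?_)
    rw [mul_pow, ← pow_mul, mul_comm (i : ℕ) q, pow_mul, hkr]
  -- back to `O`
  set z : F := ∑ i, ((a i : ↥O) : F) ^ q * u ^ (i : ℕ) with hz
  have hzO : z ∈ O := by
    rw [hz]
    exact sum_mem (fun i _ => mul_mem (pow_mem (a i).2 _) (pow_mem hu _))
  have hzW : W.valuation (ι z) < 1 := by
    have hmem : ι z ∈ W := hιmem z hzO
    have h1 : (⟨ι z, hmem⟩ : ↥W) = ∑ i, uA i ^ q * uu ^ (i : ℕ) := by
      apply Subtype.ext
      show ι z = _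
      have e1 : (((∑ i, uA i ^ q * uu ^ (i : ℕ) : ↥W) : ↥W) : L) =
          ∑ i, W.subtype (uA i ^ q * uu ^ (i : ℕ)) := by
        rw [show (((∑ i, uA i ^ q * uu ^ (i : ℕ) : ↥W) : ↥W) : L) =
          W.subtype (∑ i, uA i ^ q * uu ^ (i : ℕ)) from rfl, map_sum]
      rw [e1, hz, map_sum]
      refine Finset.sum_congr rfl (fun i _ => ?_)
      rw [map_mul, map_pow, map_pow]
      rfl
    have h2 : (⟨ι z, hmem⟩ : ↥W) ∈ maximalIdeal ↥W := by
      rw [← residue_eq_zero_iff, h1, map_sum, ← hres2]
      refine Finset.sum_congr rfl (fun i _ => ?_)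
      rw [map_mul, map_pow, map_pow]
    rw [ValuationSubring.valuation_lt_one_iff] at h2
    exact h2
  exact hind a ((comap_val_lt_one_iff ι hW z).mp hzW)

end QIndep

section GaussQIndep

variable {R : Type*} [CommRing R] [IsDomain R] [IsDiscreteValuationRing R]
  {L : Type*} [Field L] [Algebra R L] [IsFractionRing R L]
  (EM : IntermediateField L (LaurentSeries L)) (q : ℕ) [NeZero q]
  (hEM : EM ≤ gaussField R L)

/-- `IsQIndep` for a Gauss valuation subring and a Gauss-integral `J` whose reduction has order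
prime to `q`. -/
theorem isQIndep_gaussValSub (hq : q.Prime) (hchar : (q : ResidueField R) = 0)
    (w : ℕ) (hcop : Nat.Coprime w q) (J : ↥EM) (hJ : (J : LaurentSeries L) ∈ gaussInt R L)
    (hJo : (gaussRed R L ⟨(J : LaurentSeries L), hJ⟩).order = -(w : ℤ))
    (hJ0 : gaussRed R L ⟨(J : LaurentSeries L), hJ⟩ ≠ 0) :
    IsQIndep (gaussValSub R L EM hEM) q J := by
  classical
  haveI : Fact q.Prime := ⟨hq⟩
  haveI hck : CharP (ResidueField R) q := charP_of_prime_of_natCast_eq_zero hq hchar
  haveI : ExpChar (ResidueField R) q := ExpChar.prime hq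
  intro a hzVM
  set z : ↥EM := ∑ i, ((a i : ↥(gaussValSub R L EM hEM)) : ↥EM) ^ q * J ^ (i : ℕ) with hz
  rw [gaussValSub_valuation_lt_one_iff] at hzVM
  obtain ⟨hmem, hred⟩ := hzVM
  set α : Fin q → gaussInt R L := fun i => ⟨((a i : ↥EM) : LaurentSeries L), (a i).2⟩ with hα
  set Jg : gaussInt R L := ⟨(J : LaurentSeries L), hJ⟩ with hJg
  have hS : (⟨_, hmem⟩ : gaussInt R L) = ∑ i, α i ^ q * Jg ^ (i : ℕ) := by
    apply Subtype.ext
    show (z : LaurentSeries L) = _
    have e1 : ((∑ i, α i ^ q * Jg ^ (i : ℕ) : gaussInt R L) : LaurentSeries L) =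
        ∑ i, (gaussInt R L).subtype (α i ^ q * Jg ^ (i : ℕ)) := by
      rw [show ((∑ i, α i ^ q * Jg ^ (i : ℕ) : gaussInt R L) : LaurentSeries L) =
        (gaussInt R L).subtype (∑ i, α i ^ q * Jg ^ (i : ℕ)) from rfl, map_sum]
    rw [e1, hz]
    simp only [IntermediateField.coe_sum, IntermediateField.coe_mul, IntermediateField.coe_pow]
    rfl
  rw [hS, map_sum] at hred
  have hred' : ∑ i, qExpand _ q (coeffMap (frobenius (ResidueField R) q) (gaussRed R L (α i))) *
      gaussRed R L Jg ^ (i : ℕ) = 0 := by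
    rw [← hred]
    refine Finset.sum_congr rfl (fun i _ => ?_)
    rw [map_mul, map_pow, map_pow, laurent_pow_char q]
  have hz0 := eq_zero_of_sum_qExpand_mul_pow_eq_zero q w hcop _ hJo hJ0 _ hred'
  intro i
  rw [mem_maximalIdeal_gaussValSub_iff]
  have h1 := hz0 i
  have hinj : Function.Injective (coeffMap (frobenius (ResidueField R) q) :
      LaurentSeries (ResidueField R) → LaurentSeries (ResidueField R)) :=
    coeffMapV_injective (frobenius_inj (ResidueField R) q)
  have h2 : gaussRed R L (α i) = 0 := by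
    apply hinj
    rw [h1, map_zero]
  exact h2

end GaussQIndep

end Fermat.Agent.SS
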