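/-
(S36 / MODEL36) — helper7 — **[THREEXT] part 4: the three sheets of a host of level `N = M q²`**
(abstract form inside `L⸨x⸩`, à la `host_two_sheet`).

`E_L ≤ E_M ≤ E_N ≤ gaussField R L` (levels `M`, `M q`, `M q²`), `A` the inclusions, `B` the dilations
`x ↦ x^q`.  At level `M q` we are given the second sheet `V_{M,0}` (with the conclusions of
`host_two_sheet`), at level `M q²` two valuation subrings `W11`, `W02` with
`W11 ∩ A E_M = V_{M,∞}`, `W11 ∩ B E_M = V_{M,0}`, `W02 ∩ A E_M = V_{M,0} = W02 ∩ B E_M`, an element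
`δ` with `W11(δ^{q-1}) = W11(π)` and the Kronecker congruence `A J₁ ≡ (B J₁)^q` on `W02`
(`J₁ = B J`).  If `[E_N : A E_M] ≤ q` and `[E_N : B E_M] ≤ q`, then along `A`: `W20 = Gauss`, `W11` are
the only sheets over `V_{M,∞}` (`(e,f) = (1,1), (q-1,1)`, uniformisers `π`, `δ`), `W02` is the only
sheet over `V_{M,0}` (`e = 1`, `f = q`); along `B`: `W02`, `W11` are the only sheets over `V_{M,0}`
(`(1,1), (q-1,1)`), `W20` is the only sheet over `V_{M,∞}` (`e = 1`, `f = q`).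
-/
import Mathlib
import Fermat.Agent.SS.VAL3_helper7_Insep

set_option autoImplicit false
set_option linter.unusedSectionVars false
set_option linter.unusedVariables false
set_option linter.style.haveILetI false

open Polynomial ModularCurve IsLocalRing

namespace Fermat.Agent.SS

open Fermat.Agent.JA Fermat.Agent.Igusa

section Three

variable {R : Type*} [CommRing R] [IsDomain R] [IsDiscreteValuationRing R]
  {L : Type*} [Field L] [Algebra R L] [IsFractionRing R L] [CharZero L]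
  (EL EM EN : IntermediateField L (LaurentSeries L))
  (hLM : EL ≤ EM) (hMN : EM ≤ EN) (q : ℕ) [NeZero q]
  (hBL : ∀ f ∈ EL, qExpand L q f ∈ EM) (hBM : ∀ f ∈ EM, qExpand L q f ∈ EN)
  (hEL : EL ≤ gaussField R L) (hEM : EM ≤ gaussField R L) (hEN : EN ≤ gaussField R L)

theorem hostB_algebraMap (r : R) :
    hostB EM EN q hBM (algebraMap R ↥EM r) = algebraMap R ↥EN r := by
  apply Subtype.ext
  show qExpand L q ((algebraMap R ↥EM r : ↥EM) : LaurentSeries L) =
    ((algebraMap R ↥EN r : ↥EN) : LaurentSeries L)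
  rw [IsScalarTower.algebraMap_apply R L ↥EM,
    IntermediateField.coe_algebraMap_apply, IsScalarTower.algebraMap_apply R L ↥EN,
    IntermediateField.coe_algebraMap_apply, algebraMap_laurentSeries_eq_single]
  exact qExpand_C q _

theorem hostA_algebraMap (r : R) :
    hostA EM EN hMN (algebraMap R ↥EM r) = algebraMap R ↥EN r := Subtype.ext rfl

theorem coe_gaussValSubC_eq_algebraMap (r : R) :
    ((gaussValSubC EM hEM r : ↥(gaussValSub R L EM hEM)) : ↥EM) = algebraMap R ↥EM r :=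
  (IsScalarTower.algebraMap_apply R L ↥EM r).symm

include hLM in
/-- **the three sheets of a host of level `M q²`** (see the file header). -/
theorem host_three_sheet (hq : q.Prime) (hchar : (q : ResidueField R) = 0)
    {π : R} (hπ : Irreducible π)
    (w : ℕ) (hcop : Nat.Coprime w q) (J : ↥EL) (hJ : (J : LaurentSeries L) ∈ gaussInt R L)
    (hJo : (gaussRed R L ⟨(J : LaurentSeries L), hJ⟩).order = -(w : ℤ))
    (hJ0 : gaussRed R L ⟨(J : LaurentSeries L), hJ⟩ ≠ 0)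
    (VM0 : ValuationSubring ↥EM) (hdvr : IsDiscreteValuationRing ↥VM0)
    (hVM0B : VM0.comap (hostB EL EM q hBL : ↥EL →+* ↥EM) = gaussValSub R L EL hEL)
    (hVM0res : ∀ x ∈ VM0, ∃ a ∈ gaussValSub R L EL hEL,
      VM0.valuation (x - hostB EL EM q hBL a) < 1)
    (hVM0π : ∀ x : ↥EM, VM0.valuation x < 1 → x * (algebraMap R ↥EM π)⁻¹ ∈ VM0)
    (hVM0ne : gaussValSub R L EM hEM ≠ VM0)
    (hfinA : letI := (hostA EM EN hMN : ↥EM →+* ↥EN).toAlgebra; FiniteDimensional ↥EM ↥EN)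
    (hdegA : letI := (hostA EM EN hMN : ↥EM →+* ↥EN).toAlgebra; Module.finrank ↥EM ↥EN ≤ q)
    (hfinB : letI := (hostB EM EN q hBM : ↥EM →+* ↥EN).toAlgebra; FiniteDimensional ↥EM ↥EN)
    (hdegB : letI := (hostB EM EN q hBM : ↥EM →+* ↥EN).toAlgebra; Module.finrank ↥EM ↥EN ≤ q)
    (W11 W02 : ValuationSubring ↥EN)
    (h11A : W11.comap (hostA EM EN hMN : ↥EM →+* ↥EN) = gaussValSub R L EM hEM)
    (h11B : W11.comap (hostB EM EN q hBM : ↥EM →+* ↥EN) = VM0)
    (h02A : W02.comap (hostA EM EN hMN : ↥EM →+* ↥EN) = VM0)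
    (h02B : W02.comap (hostB EM EN q hBM : ↥EM →+* ↥EN) = VM0)
    (δ : ↥EN) (hδ : W11.valuation (δ ^ (q - 1)) = W11.valuation (algebraMap R ↥EN π))
    (hkron02 : W02.valuation (hostA EM EN hMN (hostB EL EM q hBL J) -
      hostB EM EN q hBM (hostB EL EM q hBL J) ^ q) < 1) :
    (gaussValSub R L EN hEN ≠ W11 ∧ gaussValSub R L EN hEN ≠ W02 ∧ W11 ≠ W02) ∧
    -- along `A`
    (∀ V : ValuationSubring ↥EN,
      V.comap (hostA EM EN hMN : ↥EM →+* ↥EN) = gaussValSub R L EM hEM →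
        V = gaussValSub R L EN hEN ∨ V = W11) ∧
    (∀ V : ValuationSubring ↥EN,
      V.comap (hostA EM EN hMN : ↥EM →+* ↥EN) = VM0 → V = W02) ∧
    -- along `B`
    (∀ V : ValuationSubring ↥EN,
      V.comap (hostB EM EN q hBM : ↥EM →+* ↥EN) = VM0 → V = W02 ∨ V = W11) ∧
    (∀ V : ValuationSubring ↥EN,
      V.comap (hostB EM EN q hBM : ↥EM →+* ↥EN) = gaussValSub R L EM hEM →
        V = gaussValSub R L EN hEN) ∧
    -- uniformisers
    (∀ x : ↥EN, (gaussValSub R L EN hEN).valuation x < 1 →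
      x * (algebraMap R ↥EN π)⁻¹ ∈ gaussValSub R L EN hEN) ∧
    (∀ x : ↥EN, W11.valuation x < 1 → x * δ⁻¹ ∈ W11) ∧
    (∀ x : ↥EN, W02.valuation x < 1 → x * (algebraMap R ↥EN π)⁻¹ ∈ W02) ∧
    -- residue fields
    (∀ x ∈ gaussValSub R L EN hEN, ∃ a ∈ gaussValSub R L EM hEM,
      (gaussValSub R L EN hEN).valuation (x - hostA EM EN hMN a) < 1) ∧
    (∀ x ∈ W11, ∃ a ∈ gaussValSub R L EM hEM, W11.valuation (x - hostA EM EN hMN a) < 1) ∧
    (∀ x ∈ W11, ∃ a ∈ VM0, W11.valuation (x - hostB EM EN q hBM a) < 1) ∧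
    (∀ x ∈ W02, ∃ a ∈ VM0, W02.valuation (x - hostB EM EN q hBM a) < 1) := by
  classical
  haveI := hdvr
  have hq1 : q - 1 + 1 = q := Nat.sub_add_cancel hq.one_le
  have hAinf := comap_hostA_gaussValSub (R := R) EM EN hMN hEM hEN
  have hBinf := comap_hostB_gaussValSub (R := R) EM EN q hBM hEM hEN
  -- distinctness
  have hne1 : gaussValSub R L EN hEN ≠ W11 := by
    intro heq
    apply hVM0ne
    rw [← hBinf, heq, h11B]
  have hne2 : gaussValSub R L EN hEN ≠ W02 := by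
    intro heq
    apply hVM0ne
    rw [← hAinf, heq, h02A]
  have hne3 : W11 ≠ W02 := by
    intro heq
    apply hVM0ne
    rw [← h11A, heq, h02A]
  haveI : CharZero ↥EM := charZero_of_injective_algebraMap (algebraMap L ↥EM).injective
  have hsepA : letI := (hostA EM EN hMN : ↥EM →+* ↥EN).toAlgebra;
      Algebra.IsSeparable ↥EM ↥EN := by
    letI := (hostA EM EN hMN : ↥EM →+* ↥EN).toAlgebra
    haveI := hfinA
    exact Algebra.IsAlgebraic.isSeparable_of_perfectField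
  have hsepB : letI := (hostB EM EN q hBM : ↥EM →+* ↥EN).toAlgebra;
      Algebra.IsSeparable ↥EM ↥EN := by
    letI := (hostB EM EN q hBM : ↥EM →+* ↥EN).toAlgebra
    haveI := hfinB
    exact Algebra.IsAlgebraic.isSeparable_of_perfectField
  -- the uniformiser of `VM0`
  have hJL : J ∈ gaussValSub R L EL hEL := hJ
  have hπM0mem : algebraMap R ↥EM π ∈ VM0 := by
    rw [← hostB_algebraMap EL EM q hBL π, ← coe_gaussValSubC_eq_algebraMap EL hEL π]
    exact (comap_mem_iff (hostB EL EM q hBL : ↥EL →+* ↥EM) hVM0B _).mpr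
      (gaussValSubC EL hEL π).2
  have hπM0lt : VM0.valuation (algebraMap R ↥EM π) < 1 := by
    rw [← hostB_algebraMap EL EM q hBL π, ← coe_gaussValSubC_eq_algebraMap EL hEL π]
    refine (comap_val_lt_one_iff (hostB EL EM q hBL : ↥EL →+* ↥EM) hVM0B _).mpr ?_
    have h1 : gaussValSubC EL hEL π ∈ maximalIdeal ↥(gaussValSub R L EL hEL) := by
      rw [maximalIdeal_gaussValSub hπ EL hEL]
      exact Ideal.subset_span rfl
    rw [ValuationSubring.valuation_lt_one_iff] at h1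
    exact h1
  set ϖ₀ : ↥VM0 := ⟨algebraMap R ↥EM π, hπM0mem⟩ with hϖ₀
  have hπ0 : algebraMap R ↥EM π ≠ 0 := by
    intro h0
    have h1 : algebraMap R ↥EM π = algebraMap L ↥EM (algebraMap R L π) :=
      IsScalarTower.algebraMap_apply R L ↥EM π
    rw [h1, map_eq_zero, IsFractionRing.to_map_eq_zero_iff] at h0
    exact hπ.ne_zero h0
  have hϖ₀irr : Irreducible ϖ₀ := by
    rw [IsDiscreteValuationRing.irreducible_iff_uniformizer]
    apply le_antisymm
    · intro x hx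
      rw [ValuationSubring.valuation_lt_one_iff] at hx
      rw [Ideal.mem_span_singleton]
      refine ⟨⟨_, hVM0π _ hx⟩, Subtype.ext ?_⟩
      show (x : ↥EM) = algebraMap R ↥EM π * ((x : ↥EM) * (algebraMap R ↥EM π)⁻¹)
      field_simp
    · rw [Ideal.span_le, Set.singleton_subset_iff]
      show ϖ₀ ∈ maximalIdeal ↥VM0
      rw [ValuationSubring.valuation_lt_one_iff]
      exact hπM0lt
  -- `A`-side over `V_{M,∞}`
  have hδA : W11.valuation (δ ^ (q - 1)) = W11.valuation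
      ((hostA EM EN hMN : ↥EM →+* ↥EN)
        ((gaussValSubC EM hEM π : ↥(gaussValSub R L EM hEM)) : ↥EM)) := by
    rw [hδ]
    congr 1
    exact (hostA_gaussValSubC EM EN hMN hEM π).symm
  obtain ⟨-, a2, a3, a4, a5, a6⟩ := two_ext_ram_hom (hostA EM EN hMN : ↥EM →+* ↥EN)
    (gaussValSub R L EM hEM) hfinA hsepA hAinf h11A hne1
    (irreducible_gaussValSubC hπ EM hEM) hδA (by rw [hq1]; exact hdegA)
  -- `B`-side over `V_{M,0}`
  have hδB : W11.valuation (δ ^ (q - 1)) = W11.valuation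
      ((hostB EM EN q hBM : ↥EM →+* ↥EN) ((ϖ₀ : ↥VM0) : ↥EM)) := by
    rw [hδ]
    congr 1
    exact (hostB_algebraMap EM EN q hBM π).symm
  obtain ⟨-, b2, b3, -, b5, b6⟩ := two_ext_ram_hom (hostB EM EN q hBM : ↥EM →+* ↥EN)
    VM0 hfinB hsepB h02B h11B hne3.symm hϖ₀irr hδB (by rw [hq1]; exact hdegB)
  -- `A`-side over `V_{M,0}`
  set J1 : ↥EM := hostB EL EM q hBL J with hJ1
  have hJ1mem : J1 ∈ VM0 := (comap_mem_iff (hostB EL EM q hBL : ↥EL →+* ↥EM) hVM0B J).mpr hJL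
  have hqVM0 : VM0.valuation ((q : ℕ) : ↥EM) < 1 := by
    have h1 := (comap_val_lt_one_iff (hostB EL EM q hBL : ↥EL →+* ↥EM) hVM0B _).mpr
      (natCast_val_lt_one EL q hEL hchar)
    rw [map_natCast] at h1
    exact h1
  have hQ : IsQIndep VM0 q J1 :=
    IsQIndep.transfer (hostB EL EM q hBL : ↥EL →+* ↥EM) hVM0B hVM0res hJL
      (isQIndep_gaussValSub EL q hEL hq hchar w hcop J hJ hJo hJ0)
  have hBJ1mem : hostB EM EN q hBM J1 ∈ W02 :=
    (comap_mem_iff (hostB EM EN q hBM : ↥EM →+* ↥EN) h02B J1).mpr hJ1mem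
  obtain ⟨-, c2, c3, -⟩ := one_ext_hom (hostA EM EN hMN : ↥EM →+* ↥EN) VM0 hfinA hsepA h02A
    hq.pos hdegA (fun i : Fin q => hostB EM EN q hBM J1 ^ (i : ℕ)) (fun i => pow_mem hBJ1mem _)
    (fun a ha => hind_of_isQIndep (hostA EM EN hMN : ↥EM →+* ↥EN) h02A hq hqVM0 hJ1mem hBJ1mem
      hkron02 hQ a ha)
  -- `B`-side over `V_{M,∞}`
  set JM : ↥EM := hostA EL EM hLM J with hJM
  have hJMg : (JM : LaurentSeries L) ∈ gaussInt R L := hJ
  have hAJMmem : hostA EM EN hMN JM ∈ gaussValSub R L EN hEN := hJ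
  obtain ⟨-, d2, -, -⟩ := one_ext_hom (hostB EM EN q hBM : ↥EM →+* ↥EN)
    (gaussValSub R L EM hEM) hfinB hsepB hBinf hq.pos hdegB
    (fun i : Fin q => hostA EM EN hMN JM ^ (i : ℕ)) (fun i => pow_mem hAJMmem _)
    (fun a ha => hind_B EM EN hMN q hBM hEM hEN w hcop JM hJMg hJo hJ0 a ha)
  refine ⟨⟨hne1, hne2, hne3⟩, a2, c2, b2, d2, ?_, a4, ?_, ?_, ?_, ?_, ?_⟩
  · intro x hx
    have := a3 x hx
    rw [← hostA_gaussValSubC EM EN hMN hEM π]
    exact this
  · intro x hx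
    have := c3 ϖ₀ hϖ₀irr x hx
    rw [← hostA_algebraMap EM EN hMN π]
    exact this
  · intro x hx
    obtain ⟨a, ha⟩ := a5 x hx
    exact ⟨a, a.2, ha⟩
  · intro x hx
    obtain ⟨a, ha⟩ := a6 x hx
    exact ⟨a, a.2, ha⟩
  · intro x hx
    obtain ⟨a, ha⟩ := b6 x hx
    exact ⟨a, a.2, ha⟩
  · intro x hx
    obtain ⟨a, ha⟩ := b5 x hx
    exact ⟨a, a.2, ha⟩

end Three

end Fermat.Agent.SS
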