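/-
(SS-q) HOSTINT — helper6 — part 2: **the Hesse equation over a commutative ring with `3` invertible**
(Hensel in `A⟦X⟧`): `s = x · S`, `S(0) = 3`, `27 (1 + 8 s³)³ = j(x³) · s³ (1 − s³)³` in `A⸨x⸩`, and
the two transforms `1/s` and `(1 + 2 s)/(1 − s)` of `s` as elements of `A⸨x⸩` with a unit
coefficient in nonzero degree.
-/
import Mathlib
import Fermat.Agent.JA.HENS_helper3_Line

set_option autoImplicit false
set_option linter.unusedSectionVars false
set_option linter.style.haveILetI false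

open Polynomial ModularCurve

namespace Fermat.Agent.SS

open Fermat.Agent.JA

section HesseRing

variable {A : Type*} [CommRing A]

/-- the Hesse equation in `A⟦X⟧` for a commutative ring `A` with `3 ∈ Aˣ`. -/
theorem exists_hesse_powerSeries_ring (h3 : IsUnit (3 : A)) (P : PowerSeries A)
    (hP : PowerSeries.constantCoeff P = 1) :
    ∃ S : PowerSeries A, PowerSeries.constantCoeff S = 3 ∧
      P * S ^ 3 * (1 - PowerSeries.X ^ 3 * S ^ 3) ^ 3 =
        27 * (1 + 8 * (PowerSeries.X ^ 3 * S ^ 3)) ^ 3 := by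
  set f : (PowerSeries A)[X] :=
    C P * X ^ 3 * (1 - C PowerSeries.X ^ 3 * X ^ 3) ^ 3 -
      27 * (1 + 8 * (C PowerSeries.X ^ 3 * X ^ 3)) ^ 3 with hf
  have hmap : f.map (PowerSeries.constantCoeff (R := A)) = X ^ 3 - 27 := by
    rw [hf]
    simp only [Polynomial.map_sub, Polynomial.map_mul, Polynomial.map_pow, map_C, map_X,
      Polynomial.map_one, Polynomial.map_add, Polynomial.map_ofNat, hP,
      PowerSeries.constantCoeff_X, C_0, C_1]
    ring
  obtain ⟨S, hS, hS0⟩ := powerSeries_hensel f 3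
    (by rw [hmap]; simp; norm_num)
    (by
      rw [hmap]
      simp only [derivative_sub, derivative_X_pow, derivative_ofNat, sub_zero, eval_mul, eval_C,
        eval_pow, eval_X, Nat.cast_ofNat]
      have : (3 : A) * 3 ^ (3 - 1) = 3 ^ 3 := by norm_num
      rw [this]
      exact h3.pow 3)
  refine ⟨S, hS0, ?_⟩
  have h := hS
  rw [IsRoot.def, hf] at h
  simp only [eval_sub, eval_mul, eval_pow, eval_C, eval_X, eval_one, eval_add, eval_ofNat] at h
  exact sub_eq_zero.mp h

/-- the Hesse equation for `j(x³)` in `A⸨x⸩`, in terms of `s = 1/t = x · S`, `S(0) = 3`. -/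
theorem exists_hesse_root_ring (h3 : IsUnit (3 : A)) :
    ∃ S : PowerSeries A, PowerSeries.constantCoeff S = 3 ∧
      27 * (1 + 8 * (HahnSeries.ofPowerSeries ℤ A (PowerSeries.X * S)) ^ 3) ^ 3 =
        jqNModC A 3 * ((HahnSeries.ofPowerSeries ℤ A (PowerSeries.X * S)) ^ 3 *
          (1 - (HahnSeries.ofPowerSeries ℤ A (PowerSeries.X * S)) ^ 3) ^ 3) := by
  obtain ⟨S, hS0, heq⟩ := exists_hesse_powerSeries_ring h3 (psDil 3 (jNumK A))
    (by rw [constantCoeff_psDil, constantCoeff_jNumK])
  refine ⟨S, hS0, ?_⟩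
  rw [jqNModC_eq]
  have hx : (HahnSeries.single (1 : ℤ) (1 : A) : LaurentSeries A) =
      HahnSeries.ofPowerSeries ℤ A PowerSeries.X := HahnSeries.ofPowerSeries_X.symm
  have hinv : (HahnSeries.single (-3 : ℤ) (1 : A) : LaurentSeries A) *
      (HahnSeries.ofPowerSeries ℤ A PowerSeries.X) ^ 3 = 1 := by
    rw [← hx, HahnSeries.single_pow, HahnSeries.single_mul_single]
    simp
  have heq' := congrArg (HahnSeries.ofPowerSeries ℤ A) heq
  simp only [map_mul, map_sub, map_pow, map_add, map_one, map_ofNat] at heq'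
  have hcast : (HahnSeries.single (-((3 : ℕ) : ℤ)) (1 : A) : LaurentSeries A) =
      HahnSeries.single (-3 : ℤ) (1 : A) := by norm_num
  rw [hcast, map_mul]
  linear_combination (-1 : LaurentSeries A) * heq' -
    (HahnSeries.ofPowerSeries ℤ A (psDil 3 (jNumK A)) * (HahnSeries.ofPowerSeries ℤ A S) ^ 3 *
      (1 - (HahnSeries.ofPowerSeries ℤ A PowerSeries.X) ^ 3 *
        (HahnSeries.ofPowerSeries ℤ A S) ^ 3) ^ 3) * hinv

/-- the inverse of `x · S` (`S(0)` a unit) in `A⸨x⸩`, with a unit coefficient in degree `-1`. -/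
theorem exists_inv_X_mul (S : PowerSeries A) (hS : IsUnit (PowerSeries.constantCoeff S)) :
    ∃ F : LaurentSeries A, F * HahnSeries.ofPowerSeries ℤ A (PowerSeries.X * S) = 1 ∧
      IsUnit (F.coeff (-1)) := by
  obtain ⟨u, hu⟩ := hS
  refine ⟨HahnSeries.single (-1 : ℤ) (1 : A) *
    HahnSeries.ofPowerSeries ℤ A (PowerSeries.invOfUnit S u), ?_, ?_⟩
  · have h1 : PowerSeries.invOfUnit S u * S = 1 := by
      rw [mul_comm]
      exact PowerSeries.mul_invOfUnit S u hu.symm
    have hx : (HahnSeries.single (-1 : ℤ) (1 : A) : LaurentSeries A) *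
        HahnSeries.ofPowerSeries ℤ A PowerSeries.X = 1 := by
      rw [HahnSeries.ofPowerSeries_X, HahnSeries.single_mul_single]
      simp
    rw [map_mul]
    have h1' := congrArg (HahnSeries.ofPowerSeries ℤ A) h1
    rw [map_mul, map_one] at h1'
    linear_combination (HahnSeries.ofPowerSeries ℤ A (PowerSeries.invOfUnit S u) *
      HahnSeries.ofPowerSeries ℤ A S) * hx + h1'
  · rw [HahnSeries.coeff_single_mul, one_mul, sub_self,
      show (0 : ℤ) = ((0 : ℕ) : ℤ) from rfl, HahnSeries.ofPowerSeries_apply_coeff,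
      PowerSeries.coeff_zero_eq_constantCoeff_apply, PowerSeries.constantCoeff_invOfUnit]
    exact (u⁻¹).isUnit

/-- the transform `(1 + 2 s)/(1 − s)` of `s = x · S` (`S(0) = 3`, `3` a unit) in `A⸨x⸩`, with a unit
coefficient in degree `1`. -/
theorem exists_hesse_transform (h3 : IsUnit (3 : A)) (S : PowerSeries A)
    (hS : PowerSeries.constantCoeff S = 3) :
    ∃ F : LaurentSeries A, F * (1 - HahnSeries.ofPowerSeries ℤ A (PowerSeries.X * S)) =
        1 + 2 * HahnSeries.ofPowerSeries ℤ A (PowerSeries.X * S) ∧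
      IsUnit (F.coeff 1) := by
  set D : PowerSeries A := 1 - PowerSeries.X * S with hD
  have hD0 : PowerSeries.constantCoeff D = ((1 : Aˣ) : A) := by
    rw [hD, map_sub, map_one, map_mul, PowerSeries.constantCoeff_X, zero_mul, sub_zero,
      Units.val_one]
  set G : PowerSeries A := 3 * S * PowerSeries.invOfUnit D 1 with hG
  have hGD : G * D = 3 * S := by
    rw [hG, mul_assoc, mul_comm (PowerSeries.invOfUnit D 1) D, PowerSeries.mul_invOfUnit D 1 hD0,
      mul_one]
  refine ⟨HahnSeries.ofPowerSeries ℤ A (1 + PowerSeries.X * G), ?_, ?_⟩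
  · have h1 : (1 + PowerSeries.X * G) * (1 - PowerSeries.X * S) =
        1 + 2 * (PowerSeries.X * S) := by
      rw [← hD]
      linear_combination (PowerSeries.X : PowerSeries A) * hGD + hD
    have h1' := congrArg (HahnSeries.ofPowerSeries ℤ A) h1
    simpa only [map_mul, map_sub, map_add, map_one, map_ofNat] using h1'
  · rw [show (1 : ℤ) = ((1 : ℕ) : ℤ) from rfl, HahnSeries.ofPowerSeries_apply_coeff, map_add,
      PowerSeries.coeff_one, if_neg one_ne_zero, zero_add,
      show (1 : ℕ) = 0 + 1 from rfl, PowerSeries.coeff_succ_X_mul,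
      PowerSeries.coeff_zero_eq_constantCoeff_apply, hG, map_mul, map_mul,
      PowerSeries.constantCoeff_invOfUnit, hS, inv_one, Units.val_one, mul_one, map_ofNat]
    exact h3.mul h3

end HesseRing

end Fermat.Agent.SS
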