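/-
(SS-q) HOSTINT — helper6 — part 3: **the Hesse coordinate `hesT₀ ∈ ℚ⸨x⸩` is defined over every ring
`A → ℚ` with `3 ∈ Aˣ`** (e.g. `ℤ[1/3]`).  Root analysis of the Hesse equation of degree 12 in a
field without primitive cube roots of unity: a root `T` is `1/s` or `(1 + 2 s)/(1 − s)` for the
Hensel root `s = 3 x + …`.
-/
import Mathlib
import Fermat.Agent.JA.GEOBASE_helper8_Coord
import Fermat.Agent.JA.HENS_helper3_Roots
import Fermat.Agent.SS.HOSTINT_helper6_HesRoot

set_option autoImplicit false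
set_option linter.unusedSectionVars false
set_option linter.style.haveILetI false

open Polynomial ModularCurve

namespace Fermat.Agent.SS

open Fermat.Agent.JA

section FieldRoots

variable {F : Type*} [Field F]

/-- in a field without primitive cube roots of unity the norm form `a² + a b + b²` is
anisotropic. -/
theorem eq_zero_of_sq_add_mul_add_sq (hω : ∀ w : F, w ^ 2 + w + 1 ≠ 0) {a b : F}
    (h : a ^ 2 + a * b + b ^ 2 = 0) : a = 0 ∧ b = 0 := by
  by_cases hb : b = 0
  · subst hb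
    refine ⟨?_, rfl⟩
    have : a ^ 2 = 0 := by linear_combination h
    exact pow_eq_zero_iff (two_ne_zero) |>.mp this
  · exfalso
    apply hω (a / b)
    field_simp
    linear_combination h

/-- in a field without primitive cube roots of unity cubing is injective. -/
theorem eq_of_pow_three_eq (hω : ∀ w : F, w ^ 2 + w + 1 ≠ 0) {a b : F} (h : a ^ 3 = b ^ 3) :
    a = b := by
  have h1 : (a - b) * (a ^ 2 + a * b + b ^ 2) = 0 := by linear_combination h
  rcases mul_eq_zero.mp h1 with h2 | h2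
  · exact sub_eq_zero.mp h2
  · obtain ⟨ha, hb⟩ := eq_zero_of_sq_add_mul_add_sq hω h2
    rw [ha, hb]

/-- **the roots of the Hesse equation** in a field without primitive cube roots of unity, in
terms of a root `s` of the inverted equation. -/
theorem hesse_roots (h3 : (3 : F) ≠ 0) (hω : ∀ w : F, w ^ 2 + w + 1 ≠ 0) {j T s : F}
    (hT : j * (T ^ 3 - 1) ^ 3 = 27 * T ^ 3 * (T ^ 3 + 8) ^ 3)
    (hs : 27 * (1 + 8 * s ^ 3) ^ 3 = j * (s ^ 3 * (1 - s ^ 3) ^ 3))
    (hne : (1 + 3 * s - s ^ 3) * (12 * s ^ 2 - 6 * s) -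
      (1 - 6 * s + 8 * s ^ 3) * (3 * s + 3 * s ^ 2) ≠ 0) :
    T * s = 1 ∨ T * (1 - s) = 1 + 2 * s := by
  have h27 : (27 : F) ≠ 0 := by
    have : (27 : F) = 3 ^ 3 := by norm_num
    rw [this]; exact pow_ne_zero 3 h3
  have hcross : T ^ 3 * (T ^ 3 + 8) ^ 3 * (s ^ 3 * (1 - s ^ 3) ^ 3) -
      (1 + 8 * s ^ 3) ^ 3 * (T ^ 3 - 1) ^ 3 = 0 := by
    apply mul_left_cancel₀ h27
    linear_combination (-(s ^ 3 * (1 - s ^ 3) ^ 3)) * hT - (T ^ 3 - 1) ^ 3 * hs
  have hprod : (T ^ 3 * s ^ 3 - 1) * ((1 - s) ^ 3 * T ^ 3 - (1 + 2 * s) ^ 3) *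
      (((1 + 3 * s - s ^ 3) * T ^ 3 - (1 - 6 * s + 8 * s ^ 3)) ^ 2 -
        ((1 + 3 * s - s ^ 3) * T ^ 3 - (1 - 6 * s + 8 * s ^ 3)) *
          ((3 * s + 3 * s ^ 2) * T ^ 3 - (12 * s ^ 2 - 6 * s)) +
        ((3 * s + 3 * s ^ 2) * T ^ 3 - (12 * s ^ 2 - 6 * s)) ^ 2) = 0 := by
    linear_combination hcross
  rcases mul_eq_zero.mp hprod with h | h
  · rcases mul_eq_zero.mp h with h | h
    · left
      have : (T * s) ^ 3 = 1 ^ 3 := by linear_combination h
      exact eq_of_pow_three_eq hω this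
    · right
      have : (T * (1 - s)) ^ 3 = (1 + 2 * s) ^ 3 := by linear_combination h
      exact eq_of_pow_three_eq hω this
  · exfalso
    set U := (1 + 3 * s - s ^ 3) * T ^ 3 - (1 - 6 * s + 8 * s ^ 3) with hU
    set V := (3 * s + 3 * s ^ 2) * T ^ 3 - (12 * s ^ 2 - 6 * s) with hV
    have h' : U ^ 2 + U * (-V) + (-V) ^ 2 = 0 := by linear_combination h
    obtain ⟨hU0, hV0⟩ := eq_zero_of_sq_add_mul_add_sq hω h'
    rw [neg_eq_zero] at hV0
    apply hne
    linear_combination (3 * s + 3 * s ^ 2) * hU0 - (1 + 3 * s - s ^ 3) * hV0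

end FieldRoots

section Rat

/-- `ℚ⸨x⸩` contains no primitive cube root of unity. -/
theorem laurentSeries_rat_sq_add_self_add_one_ne_zero (w : LaurentSeries ℚ) :
    w ^ 2 + w + 1 ≠ 0 := by
  intro h
  have halg : IsAlgebraic ℚ w := by
    refine ⟨X ^ 2 + X + 1, ?_, ?_⟩
    · intro h0
      have := congrArg (Polynomial.eval 0) h0
      simp at this
    · simpa only [map_add, map_pow, aeval_X, map_one] using h
  obtain ⟨c, rfl⟩ := laurentSeries_mem_range_algebraMap_of_isAlgebraic w halg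
  have hc : c ^ 2 + c + 1 = 0 := by
    apply (algebraMap ℚ (LaurentSeries ℚ)).injective
    rw [map_add, map_add, map_pow, map_one, map_zero]
    exact h
  nlinarith [sq_nonneg (2 * c + 1)]

variable {A : Type*} [CommRing A]

/-- **the Hesse coordinate over `ℚ` is defined over every ring `A → ℚ` with `3 ∈ Aˣ`**, by a series
with a unit coefficient in nonzero degree. -/
theorem exists_hesT₀_eq_coeffMap (h3 : IsUnit (3 : A)) (φ : A →+* ℚ) :
    ∃ F : LaurentSeries A, hesT₀ = coeffMap φ F ∧ ∃ n : ℤ, n ≠ 0 ∧ IsUnit (F.coeff n) := by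
  obtain ⟨S, hS0, hS⟩ := exists_hesse_root_ring h3
  set sA : LaurentSeries A := HahnSeries.ofPowerSeries ℤ A (PowerSeries.X * S) with hsA
  set s : LaurentSeries ℚ := coeffMap φ sA with hs_def
  -- the equation over `ℚ`
  have hrel : 27 * (1 + 8 * s ^ 3) ^ 3 = jqNModC ℚ 3 * (s ^ 3 * (1 - s ^ 3) ^ 3) := by
    have := congrArg (coeffMap φ) hS
    simp only [map_mul, map_pow, map_sub, map_add, map_one, map_ofNat] at this
    rw [coeffMap_jqNModC] at this
    exact this
  -- `s` is transcendental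
  have hc1 : s.coeff 1 = 3 := by
    rw [hs_def, coeffMap_coeff, hsA, show (1 : ℤ) = ((1 : ℕ) : ℤ) from rfl,
      HahnSeries.ofPowerSeries_apply_coeff, show (1 : ℕ) = 0 + 1 from rfl,
      PowerSeries.coeff_succ_X_mul, PowerSeries.coeff_zero_eq_constantCoeff_apply, hS0,
      map_ofNat]
  have hstr : Transcendental ℚ s :=
    Host.transcendental_of_coeff_ne_zero (n := 1) one_ne_zero (by rw [hc1]; norm_num)
  have hs1 : (1 : LaurentSeries ℚ) - s ≠ 0 := by
    intro h0
    apply hstr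
    have : s = 1 := by linear_combination -h0
    rw [this]
    exact isAlgebraic_one
  have hne : (1 + 3 * s - s ^ 3) * (12 * s ^ 2 - 6 * s) -
      (1 - 6 * s + 8 * s ^ 3) * (3 * s + 3 * s ^ 2) ≠ 0 := by
    intro h0
    apply hstr
    refine ⟨(1 + 3 * X - X ^ 3) * (12 * X ^ 2 - 6 * X) -
      (1 - 6 * X + 8 * X ^ 3) * (3 * X + 3 * X ^ 2), ?_, ?_⟩
    · intro hp
      have := congrArg (Polynomial.eval 2) hp
      simp at this
      norm_num at this
    · simpa only [map_sub, map_mul, map_add, map_pow, aeval_X, map_one, map_ofNat] using h0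
  -- the relation for `hesT₀`
  have hT : jqNModC ℚ 3 * (hesT₀ ^ 3 - 1) ^ 3 = 27 * hesT₀ ^ 3 * (hesT₀ ^ 3 + 8) ^ 3 := by
    have := hesT₀_spec.2.2
    rw [Host.aeval_hesA, Host.aeval_hesB] at this
    exact this
  have h3Q : (3 : LaurentSeries ℚ) ≠ 0 := by
    have h : (3 : LaurentSeries ℚ) = algebraMap ℚ (LaurentSeries ℚ) 3 :=
      (map_ofNat (algebraMap ℚ (LaurentSeries ℚ)) 3).symm
    rw [h]
    exact (_root_.map_ne_zero _).mpr (by norm_num)
  have hS0u : IsUnit (PowerSeries.constantCoeff S) := by rw [hS0]; exact h3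
  rcases hesse_roots h3Q laurentSeries_rat_sq_add_self_add_one_ne_zero hT hrel hne with h | h
  · obtain ⟨F, hF, hFu⟩ := exists_inv_X_mul S hS0u
    refine ⟨F, ?_, -1, by norm_num, hFu⟩
    have hF' : coeffMap φ F * s = 1 := by
      have := congrArg (coeffMap φ) hF
      rwa [map_mul, map_one] at this
    calc hesT₀ = hesT₀ * (coeffMap φ F * s) := by rw [hF', mul_one]
      _ = (hesT₀ * s) * coeffMap φ F := by ring
      _ = coeffMap φ F := by rw [h, one_mul]
  · obtain ⟨F, hF, hFu⟩ := exists_hesse_transform h3 S hS0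
    refine ⟨F, ?_, 1, one_ne_zero, hFu⟩
    have hF' : coeffMap φ F * (1 - s) = 1 + 2 * s := by
      have e1 : coeffMap φ (1 - sA) = 1 - s := by rw [map_sub, map_one]
      have e2 : coeffMap φ (1 + 2 * sA) = 1 + 2 * s := by
        rw [map_add, map_one, map_mul, map_ofNat]
      rw [← e1, ← e2, ← map_mul]
      exact congrArg (coeffMap φ) hF
    apply mul_right_cancel₀ hs1
    rw [h, hF']

end Rat

end Fermat.Agent.SS
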