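/-
(SS-q) — helper7 — **SS-VAL2 part 2: the Legendre coordinate is Gauss-integral.**

For a discrete valuation ring `R` with `2 ∈ Rˣ` and fraction field `L` (characteristic zero), the
Legendre coordinate `legT L ∈ L⸨x⸩` lies in the Gauss valuation ring `gaussInt R L`, its reduction
is transcendental over the residue field, and the Legendre host `legE L N` is contained in
`gaussField R L`.

Route: Hensel's lemma in `R⟦X⟧` produces a root `x · S` (`S(0) = 16`) of the Legendre sextic with
coefficients in `R`; the six roots of the sextic in a field are the anharmonic transforms of one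
of them.
-/
import Mathlib
import Fermat.Agent.Igusa.V_helper5_Val
import Fermat.Agent.Igusa.V_helper5_Funct
import Fermat.Agent.JA.HENS_helper3_Line
import Fermat.Agent.JA.GEOBASE_helper8_Compat
import Fermat.Agent.JA.G1_helper5_Bases

set_option autoImplicit false
set_option linter.unusedSectionVars false
set_option linter.style.haveILetI false

open Polynomial ModularCurve

namespace Fermat.Agent.SS

open Fermat.Agent.JA Fermat.Agent.Igusa

section RingHensel

variable {A : Type*} [CommRing A]

/-- the Legendre equation in `A⟦X⟧` for a commutative ring `A` with `2 ∈ Aˣ`. -/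
theorem exists_legendre_powerSeries_ring (h2 : IsUnit (2 : A)) (P : PowerSeries A)
    (hP : PowerSeries.constantCoeff P = 1) :
    ∃ S : PowerSeries A, PowerSeries.constantCoeff S = 16 ∧
      P * S ^ 2 * (PowerSeries.X * S - 1) ^ 2 =
        256 * (PowerSeries.X ^ 2 * S ^ 2 - PowerSeries.X * S + 1) ^ 3 := by
  set f : (PowerSeries A)[X] :=
    C P * X ^ 2 * (C PowerSeries.X * X - 1) ^ 2 -
      256 * (C PowerSeries.X ^ 2 * X ^ 2 - C PowerSeries.X * X + 1) ^ 3 with hf
  have hmap : f.map (PowerSeries.constantCoeff (R := A)) = X ^ 2 - 256 := by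
    rw [hf]
    simp only [Polynomial.map_sub, Polynomial.map_mul, Polynomial.map_pow, map_C, map_X,
      Polynomial.map_one, Polynomial.map_add, Polynomial.map_ofNat, hP,
      PowerSeries.constantCoeff_X, C_0, C_1]
    ring
  obtain ⟨S, hS, hS0⟩ := powerSeries_hensel f 16
    (by rw [hmap]; simp; norm_num)
    (by
      rw [hmap]
      simp only [derivative_sub, derivative_X_pow, derivative_ofNat, sub_zero, eval_mul, eval_C,
        eval_X, Nat.cast_ofNat, Nat.add_one_sub_one, pow_one]
      have : (2 : A) * 16 = 2 ^ 5 := by norm_num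
      rw [this]
      exact h2.pow 5)
  refine ⟨S, hS0, ?_⟩
  have h := hS
  rw [IsRoot.def, hf] at h
  simp only [eval_sub, eval_mul, eval_pow, eval_C, eval_X, eval_one, eval_add, eval_ofNat] at h
  exact sub_eq_zero.mp h

/-- the Legendre equation for `j(x²)` in `A⸨x⸩`, with a root `x · S`, `S ∈ A⟦X⟧`, `S(0) = 16`. -/
theorem exists_legendre_root_ring (h2 : IsUnit (2 : A)) :
    ∃ S : PowerSeries A, PowerSeries.constantCoeff S = 16 ∧
      256 * ((HahnSeries.single (1 : ℤ) (1 : A) * HahnSeries.ofPowerSeries ℤ A S) ^ 2 -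
          HahnSeries.single (1 : ℤ) (1 : A) * HahnSeries.ofPowerSeries ℤ A S + 1) ^ 3 =
        jqNModC A 2 *
          ((HahnSeries.single (1 : ℤ) (1 : A) * HahnSeries.ofPowerSeries ℤ A S) ^ 2 *
            (HahnSeries.single (1 : ℤ) (1 : A) * HahnSeries.ofPowerSeries ℤ A S - 1) ^ 2) := by
  obtain ⟨S, hS0, heq⟩ := exists_legendre_powerSeries_ring h2 (psDil 2 (jNumK A))
    (by rw [constantCoeff_psDil, constantCoeff_jNumK])
  refine ⟨S, hS0, ?_⟩
  rw [jqNModC_eq]
  have hx : (HahnSeries.single (1 : ℤ) (1 : A) : LaurentSeries A) =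
      HahnSeries.ofPowerSeries ℤ A PowerSeries.X := HahnSeries.ofPowerSeries_X.symm
  have hinv : (HahnSeries.single (-2 : ℤ) (1 : A) : LaurentSeries A) *
      (HahnSeries.ofPowerSeries ℤ A PowerSeries.X) ^ 2 = 1 := by
    rw [← hx, HahnSeries.single_pow, HahnSeries.single_mul_single]
    simp
  have heq' := congrArg (HahnSeries.ofPowerSeries ℤ A) heq
  simp only [map_mul, map_sub, map_pow, map_add, map_one, map_ofNat] at heq'
  rw [hx]
  have hcast : (HahnSeries.single (-((2 : ℕ) : ℤ)) (1 : A) : LaurentSeries A) =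
      HahnSeries.single (-2 : ℤ) (1 : A) := by norm_num
  rw [hcast]
  linear_combination (-1 : LaurentSeries A) * heq' -
    (HahnSeries.ofPowerSeries ℤ A (psDil 2 (jNumK A)) * (HahnSeries.ofPowerSeries ℤ A S) ^ 2 *
      (HahnSeries.ofPowerSeries ℤ A PowerSeries.X * HahnSeries.ofPowerSeries ℤ A S - 1) ^ 2) * hinv

end RingHensel

section SixRoots

variable {F : Type*} [Field F]

/-- the six roots of the Legendre sextic are the anharmonic transforms of one of them. -/
theorem legendre_roots (h2 : (2 : F) ≠ 0) {j t u : F}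
    (ht : 256 * (t ^ 2 - t + 1) ^ 3 = j * (t ^ 2 * (t - 1) ^ 2))
    (hu : 256 * (u ^ 2 - u + 1) ^ 3 = j * (u ^ 2 * (u - 1) ^ 2))
    (hu0 : u ≠ 0) (hu1 : u ≠ 1) :
    t = u ∨ t = 1 - u ∨ t = u⁻¹ ∨ t = (1 - u)⁻¹ ∨ t = (u - 1) / u ∨ t = u / (u - 1) := by
  have h256 : (256 : F) ≠ 0 := by
    have : (256 : F) = 2 ^ 8 := by norm_num
    rw [this]; exact pow_ne_zero 8 h2
  have hu1' : u - 1 ≠ 0 := sub_ne_zero.mpr hu1
  have hu1'' : 1 - u ≠ 0 := sub_ne_zero.mpr (Ne.symm hu1)
  have hcross : (t ^ 2 - t + 1) ^ 3 * (u ^ 2 * (u - 1) ^ 2) =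
      (u ^ 2 - u + 1) ^ 3 * (t ^ 2 * (t - 1) ^ 2) := by
    apply mul_left_cancel₀ h256
    linear_combination (u ^ 2 * (u - 1) ^ 2) * ht - (t ^ 2 * (t - 1) ^ 2) * hu
  have hprod : (t - u) * (t - 1 + u) * (t * u - 1) * (t * (1 - u) - 1) * (t * u - u + 1) *
      (t * (u - 1) - u) = 0 := by
    linear_combination (-1 : F) * hcross
  rcases mul_eq_zero.mp hprod with h | h
  · rcases mul_eq_zero.mp h with h | h
    · rcases mul_eq_zero.mp h with h | h
      · rcases mul_eq_zero.mp h with h | h
        · rcases mul_eq_zero.mp h with h | h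
          · exact Or.inl (sub_eq_zero.mp h)
          · right; left; linear_combination h
        · right; right; left
          apply eq_inv_of_mul_eq_one_left; linear_combination h
      · right; right; right; left
        apply eq_inv_of_mul_eq_one_left; linear_combination h
    · right; right; right; right; left
      rw [eq_div_iff hu0]; linear_combination h
  · right; right; right; right; right
    rw [eq_div_iff hu1']; linear_combination h

end SixRoots

section GaussInt

variable (R : Type*) [CommRing R] [IsDomain R] [IsDiscreteValuationRing R]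
variable (L : Type*) [Field L] [Algebra R L] [IsFractionRing R L]

local notation "k" => IsLocalRing.ResidueField R

variable {R L}

/-- the reduction of an inverse. -/
theorem gaussRed_inv (x : gaussInt R L) (hx : gaussRed R L x ≠ 0) :
    gaussRed R L ⟨(x : LaurentSeries L)⁻¹, inv_mem_gaussInt_of_gaussRed_ne_zero x hx⟩ =
      (gaussRed R L x)⁻¹ := by
  have hx0 : (x : LaurentSeries L) ≠ 0 := by
    intro h0
    apply hx
    have : x = 0 := Subtype.ext h0
    rw [this, map_zero]
  apply eq_inv_of_mul_eq_one_left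
  rw [← map_mul]
  have : (⟨(x : LaurentSeries L)⁻¹, inv_mem_gaussInt_of_gaussRed_ne_zero x hx⟩ : gaussInt R L) * x
      = 1 := Subtype.ext (inv_mul_cancel₀ hx0)
  rw [this, map_one]

/-- **anharmonic transforms of a Gauss-integral series with reduction `≠ 0, 1`** are
Gauss-integral, and the reduction of the original series is a rational expression of the
reduction of the transform. -/
theorem anharmonic_mem_gaussInt {u t : LaurentSeries L} (hu : u ∈ gaussInt R L)
    (hu0 : gaussRed R L ⟨u, hu⟩ ≠ 0) (hu1 : gaussRed R L ⟨u, hu⟩ ≠ 1)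
    (h : t = u ∨ t = 1 - u ∨ t = u⁻¹ ∨ t = (1 - u)⁻¹ ∨ t = (u - 1) / u ∨ t = u / (u - 1)) :
    ∃ ht : t ∈ gaussInt R L,
      (IsAlgebraic k (gaussRed R L ⟨t, ht⟩) → IsAlgebraic k (gaussRed R L ⟨u, hu⟩)) := by
  set U : gaussInt R L := ⟨u, hu⟩ with hU
  have h1u : (1 : LaurentSeries L) - u ∈ gaussInt R L := (gaussInt R L).sub_mem (gaussInt R L).one_mem hu
  set U1 : gaussInt R L := ⟨1 - u, h1u⟩ with hU1
  have hU1eq : U1 = 1 - U := Subtype.ext rfl
  have hU1red : gaussRed R L U1 = 1 - gaussRed R L U := by rw [hU1eq, map_sub, map_one]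
  have hU1ne : gaussRed R L U1 ≠ 0 := by
    rw [hU1red]
    exact sub_ne_zero.mpr (Ne.symm hu1)
  have hinv : u⁻¹ ∈ gaussInt R L := inv_mem_gaussInt_of_gaussRed_ne_zero U hu0
  have hinv1 : (1 - u)⁻¹ ∈ gaussInt R L := inv_mem_gaussInt_of_gaussRed_ne_zero U1 hU1ne
  have hredinv : gaussRed R L ⟨u⁻¹, hinv⟩ = (gaussRed R L U)⁻¹ := gaussRed_inv U hu0
  have hredinv1 : gaussRed R L ⟨(1 - u)⁻¹, hinv1⟩ = (1 - gaussRed R L U)⁻¹ := by
    rw [← hU1red]
    exact gaussRed_inv U1 hU1ne
  have hu_ne : u ≠ 0 := by
    rintro rfl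
    apply hu0
    have : U = 0 := Subtype.ext rfl
    rw [this, map_zero]
  have hu1_ne : u - 1 ≠ 0 := by
    intro h0
    apply hU1ne
    have : U1 = 0 := Subtype.ext (by show (1 : LaurentSeries L) - u = 0; rw [← neg_sub, h0, neg_zero])
    rw [this, map_zero]
  set ū := gaussRed R L U with hū
  have hone : IsAlgebraic k (1 : LaurentSeries k) := isAlgebraic_one
  rcases h with rfl | rfl | rfl | rfl | rfl | rfl
  · exact ⟨hu, fun h => h⟩
  · refine ⟨h1u, fun h => ?_⟩
    have h2 : gaussRed R L ⟨1 - u, h1u⟩ = 1 - ū := hU1red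
    rw [h2] at h
    have := hone.sub h
    rwa [sub_sub_cancel] at this
  · refine ⟨hinv, fun h => ?_⟩
    rw [hredinv] at h
    have := h.inv
    rwa [inv_inv] at this
  · refine ⟨hinv1, fun h => ?_⟩
    rw [hredinv1] at h
    have h3 := hone.sub h.inv
    rwa [inv_inv, sub_sub_cancel] at h3
  · have hmem : (u - 1) / u ∈ gaussInt R L := by
      have : (u - 1) / u = 1 - u⁻¹ := by field_simp
      rw [this]
      exact (gaussInt R L).sub_mem (gaussInt R L).one_mem hinv
    refine ⟨hmem, fun h => ?_⟩
    have h2 : (⟨(u - 1) / u, hmem⟩ : gaussInt R L) = 1 - ⟨u⁻¹, hinv⟩ := by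
      apply Subtype.ext
      show (u - 1) / u = 1 - u⁻¹
      field_simp
    rw [h2, map_sub, map_one, hredinv] at h
    have h3 := (hone.sub h)
    rw [sub_sub_cancel] at h3
    have := h3.inv
    rwa [inv_inv] at this
  · have hmem : u / (u - 1) ∈ gaussInt R L := by
      have : u / (u - 1) = 1 - (1 - u)⁻¹ := by
        have h1 : (1 : LaurentSeries L) - u ≠ 0 := by
          intro h0; apply hu1_ne; rw [← neg_sub, h0, neg_zero]
        field_simp
        ring
      rw [this]
      exact (gaussInt R L).sub_mem (gaussInt R L).one_mem hinv1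
    refine ⟨hmem, fun h => ?_⟩
    have h2 : (⟨u / (u - 1), hmem⟩ : gaussInt R L) = 1 - ⟨(1 - u)⁻¹, hinv1⟩ := by
      apply Subtype.ext
      show u / (u - 1) = 1 - (1 - u)⁻¹
      have h1 : (1 : LaurentSeries L) - u ≠ 0 := by
        intro h0; apply hu1_ne; rw [← neg_sub, h0, neg_zero]
      field_simp
      ring
    rw [h2, map_sub, map_one, hredinv1] at h
    have h3 := (hone.sub h)
    rw [sub_sub_cancel] at h3
    have h4 := hone.sub h3.inv
    rwa [inv_inv, sub_sub_cancel] at h4

end GaussInt

section Main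

variable (R : Type*) [CommRing R] [IsDomain R] [IsDiscreteValuationRing R]
variable (L : Type*) [Field L] [Algebra R L] [IsFractionRing R L] [Algebra ℚ L]

local notation "k" => IsLocalRing.ResidueField R

theorem two_ne_zero_laurent : (2 : LaurentSeries L) ≠ 0 := by
  haveI : CharZero L := algebraRat.charZero L
  have h : (2 : LaurentSeries L) = algebraMap L (LaurentSeries L) 2 :=
    (map_ofNat (algebraMap L (LaurentSeries L)) 2).symm
  rw [h]
  exact (_root_.map_ne_zero _).mpr two_ne_zero

/-- **the Legendre coordinate is Gauss-integral with transcendental reduction** (`2 ∈ Rˣ`). -/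
theorem legT_mem_gaussInt (h2 : IsUnit (2 : R)) :
    ∃ h : legT L ∈ gaussInt R L, Transcendental k (gaussRed R L ⟨legT L, h⟩) := by
  obtain ⟨S, hS0, hS⟩ := exists_legendre_root_ring (A := R) h2
  set y : LaurentSeries R := HahnSeries.single (1 : ℤ) (1 : R) * HahnSeries.ofPowerSeries ℤ R S
    with hy
  set u : LaurentSeries L := emb R L y with hu_def
  have hu : u ∈ gaussInt R L := emb_mem_gaussInt R L y
  have hred : gaussRed R L ⟨u, hu⟩ = red R y := gaussRed_emb R L y
  -- the reduction of `y`
  have hredy : red R y = HahnSeries.single (1 : ℤ) (1 : k) *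
      HahnSeries.ofPowerSeries ℤ k (S.map (IsLocalRing.residue R)) := by
    rw [hy, map_mul]
    show coeffMap (IsLocalRing.residue R) _ * coeffMap (IsLocalRing.residue R) _ = _
    rw [coeffMap_single, map_one, coeffMap_ofPowerSeries]
  have h16 : IsLocalRing.residue R (16 : R) ≠ 0 := by
    have h16u : IsUnit (16 : R) := by
      have : (16 : R) = 2 ^ 4 := by norm_num
      rw [this]; exact h2.pow 4
    exact (h16u.map (IsLocalRing.residue R)).ne_zero
  have hc1 : (red R y).coeff 1 = IsLocalRing.residue R (16 : R) := by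
    rw [hredy, HahnSeries.coeff_single_mul, one_mul, sub_self,
      show (0 : ℤ) = ((0 : ℕ) : ℤ) from rfl, HahnSeries.ofPowerSeries_apply_coeff,
      PowerSeries.coeff_map, PowerSeries.coeff_zero_eq_constantCoeff_apply, hS0]
  have hc0 : (red R y).coeff 0 = 0 := by
    rw [hredy, HahnSeries.coeff_single_mul, one_mul]
    exact ModularCurve.ofPowerSeries_coeff_of_neg _ (by norm_num)
  have hu0 : gaussRed R L ⟨u, hu⟩ ≠ 0 := by
    rw [hred]
    intro h0
    rw [h0, HahnSeries.coeff_zero] at hc1
    exact h16 hc1.symm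
  have hu1 : gaussRed R L ⟨u, hu⟩ ≠ 1 := by
    rw [hred]
    intro h0
    rw [h0, HahnSeries.coeff_one, if_pos rfl] at hc0
    exact one_ne_zero hc0
  have htrans : Transcendental k (gaussRed R L ⟨u, hu⟩) := by
    rw [hred]
    exact Host.transcendental_of_coeff_ne_zero (n := 1) one_ne_zero (by rw [hc1]; exact h16)
  -- the relation for `u`
  have hrelu : 256 * (u ^ 2 - u + 1) ^ 3 = jqNModC L 2 * (u ^ 2 * (u - 1) ^ 2) := by
    have := congrArg (emb R L) hS
    simp only [map_mul, map_pow, map_sub, map_add, map_one, map_ofNat] at this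
    have hj : emb R L (jqNModC R 2) = jqNModC L 2 := coeffMap_jqNModC (algebraMap R L) 2
    rw [hj] at this
    exact this
  -- the relation for `legT`
  have hrelt : 256 * (legT L ^ 2 - legT L + 1) ^ 3 =
      jqNModC L 2 * (legT L ^ 2 * (legT L - 1) ^ 2) := by
    have := jqNModC_mul_aeval_legT L
    rw [Host.aeval_legA, Host.aeval_legB] at this
    exact this.symm
  have hune0 : u ≠ 0 := by
    intro h0
    apply hu0
    have : (⟨u, hu⟩ : gaussInt R L) = 0 := Subtype.ext h0
    rw [this, map_zero]
  have hune1 : u ≠ 1 := by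
    intro h0
    apply hu1
    have : (⟨u, hu⟩ : gaussInt R L) = 1 := Subtype.ext h0
    rw [this, map_one]
  have hcases := legendre_roots (two_ne_zero_laurent L) hrelt hrelu hune0 hune1
  obtain ⟨ht, halg⟩ := anharmonic_mem_gaussInt hu hu0 hu1 hcases
  exact ⟨ht, fun h => htrans (halg h)⟩

/-- the function field in the host variable (`q = x ^ w`) consists of Gauss-bounded series. -/
theorem keyFw_le_gaussField (N w : ℕ) [NeZero N] [NeZero w] :
    keyFw L N w ≤ gaussField R L := by
  rintro x ⟨y, hy, rfl⟩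
  exact (gaussHomQExpand R L w).map_mem_gaussField
    (laurentBaseChange_full_le_gaussField R L N hy)

/-- **the Legendre host consists of Gauss-bounded series** (`2 ∈ Rˣ`). -/
theorem legE_le_gaussField (h2 : IsUnit (2 : R)) (N : ℕ) [NeZero N] :
    legE L N ≤ gaussField R L := by
  rw [legE_eq_sup]
  refine sup_le ?_ (keyFw_le_gaussField R L N 2)
  rw [IntermediateField.adjoin_simple_le_iff]
  exact gaussInt_le_gaussField (legT_mem_gaussInt R L h2).1

end Main

end Fermat.Agent.SS
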