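/-
(SS-q) HOSTINT — helper6 — part 4: **the Legendre coordinate `legT₀ ∈ ℚ⸨x⸩` is defined over every ring
`A → ℚ` with `2 ∈ Aˣ`** (e.g. `ℤ[1/2]`): it is one of the six anharmonic transforms of the Hensel
root `x · S`, `S(0) = 16`, and each of them lies in `A⸨x⸩` with a unit coefficient in nonzero degree.
-/
import Mathlib
import Fermat.Agent.SS.VAL2_helper7_LegInt
import Fermat.Agent.SS.HOSTINT_helper6_HesRoot

set_option autoImplicit false
set_option linter.unusedSectionVars false
set_option linter.style.haveILetI false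

open Polynomial ModularCurve

namespace Fermat.Agent.SS

open Fermat.Agent.JA

section Transforms

variable {A : Type*} [CommRing A]

/-- `1 − F` has the same unit coefficients in nonzero degree as `F`. -/
theorem isUnit_coeff_one_sub {F : LaurentSeries A} {n : ℤ} (hn : n ≠ 0)
    (h : IsUnit (F.coeff n)) : IsUnit ((1 - F).coeff n) := by
  have : (1 - F).coeff n = -F.coeff n := by
    rw [HahnSeries.coeff_sub, HahnSeries.coeff_one, if_neg hn, zero_sub]
  rw [this]
  exact h.neg

/-- the inverse of `1 − x · S` in `A⸨x⸩`, with coefficient `S(0)` in degree `1`. -/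
theorem exists_inv_one_sub_X_mul (S : PowerSeries A) :
    ∃ F : LaurentSeries A, F * (1 - HahnSeries.ofPowerSeries ℤ A (PowerSeries.X * S)) = 1 ∧
      F.coeff 1 = PowerSeries.constantCoeff S := by
  set D : PowerSeries A := 1 - PowerSeries.X * S with hD
  have hD0 : PowerSeries.constantCoeff D = ((1 : Aˣ) : A) := by
    rw [hD, map_sub, map_one, map_mul, PowerSeries.constantCoeff_X, zero_mul, sub_zero,
      Units.val_one]
  set I : PowerSeries A := PowerSeries.invOfUnit D 1 with hI
  have hID : I * D = 1 := by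
    rw [mul_comm]
    exact PowerSeries.mul_invOfUnit D 1 hD0
  have hI' : I = 1 + PowerSeries.X * (S * I) := by
    rw [hD] at hID
    linear_combination hID
  refine ⟨HahnSeries.ofPowerSeries ℤ A I, ?_, ?_⟩
  · have h1' := congrArg (HahnSeries.ofPowerSeries ℤ A) hID
    rw [hD] at h1'
    simpa only [map_mul, map_sub, map_one] using h1'
  · have h2 : PowerSeries.coeff 1 I = PowerSeries.coeff 1 (1 + PowerSeries.X * (S * I)) :=
      congrArg _ hI'
    rw [show (1 : ℤ) = ((1 : ℕ) : ℤ) from rfl, HahnSeries.ofPowerSeries_apply_coeff, h2, map_add,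
      PowerSeries.coeff_one, if_neg one_ne_zero, zero_add,
      show (1 : ℕ) = 0 + 1 from rfl, PowerSeries.coeff_succ_X_mul,
      PowerSeries.coeff_zero_eq_constantCoeff_apply, map_mul, hI,
      PowerSeries.constantCoeff_invOfUnit, inv_one, Units.val_one, mul_one]

end Transforms

section Rat

variable {A : Type*} [CommRing A]

/-- **the Legendre coordinate over `ℚ` is defined over every ring `A → ℚ` with `2 ∈ Aˣ`**, by a
series with a unit coefficient in nonzero degree. -/
theorem exists_legT₀_eq_coeffMap (h2 : IsUnit (2 : A)) (φ : A →+* ℚ) :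
    ∃ F : LaurentSeries A, legT₀ = coeffMap φ F ∧ ∃ n : ℤ, n ≠ 0 ∧ IsUnit (F.coeff n) := by
  obtain ⟨S, hS0, hS⟩ := exists_legendre_root_ring (A := A) h2
  have hy : (HahnSeries.single (1 : ℤ) (1 : A) * HahnSeries.ofPowerSeries ℤ A S :
      LaurentSeries A) = HahnSeries.ofPowerSeries ℤ A (PowerSeries.X * S) := by
    rw [map_mul, HahnSeries.ofPowerSeries_X]
  rw [hy] at hS
  set y : LaurentSeries A := HahnSeries.ofPowerSeries ℤ A (PowerSeries.X * S) with hy_def
  set u : LaurentSeries ℚ := coeffMap φ y with hu_def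
  have h16 : IsUnit (16 : A) := by
    have : (16 : A) = 2 ^ 4 := by norm_num
    rw [this]; exact h2.pow 4
  have hS0u : IsUnit (PowerSeries.constantCoeff S) := by rw [hS0]; exact h16
  have hyc1 : y.coeff 1 = 16 := by
    rw [hy_def, show (1 : ℤ) = ((1 : ℕ) : ℤ) from rfl,
      HahnSeries.ofPowerSeries_apply_coeff, show (1 : ℕ) = 0 + 1 from rfl,
      PowerSeries.coeff_succ_X_mul, PowerSeries.coeff_zero_eq_constantCoeff_apply, hS0]
  have hyu : IsUnit (y.coeff 1) := by rw [hyc1]; exact h16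
  have hc1 : u.coeff 1 = 16 := by
    rw [hu_def, coeffMap_coeff, hyc1, map_ofNat]
  have hutr : Transcendental ℚ u :=
    Host.transcendental_of_coeff_ne_zero (n := 1) one_ne_zero (by rw [hc1]; norm_num)
  have hu0 : u ≠ 0 := by
    intro h0
    apply hutr
    rw [h0]
    exact isAlgebraic_zero
  have hu1 : u ≠ 1 := by
    intro h0
    apply hutr
    rw [h0]
    exact isAlgebraic_one
  have hu1' : u - 1 ≠ 0 := sub_ne_zero.mpr hu1
  have hu1'' : (1 : LaurentSeries ℚ) - u ≠ 0 := sub_ne_zero.mpr (Ne.symm hu1)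
  -- the relations
  have hrelu : 256 * (u ^ 2 - u + 1) ^ 3 = jqNModC ℚ 2 * (u ^ 2 * (u - 1) ^ 2) := by
    have := congrArg (coeffMap φ) hS
    simp only [map_mul, map_pow, map_sub, map_add, map_one, map_ofNat] at this
    rw [coeffMap_jqNModC] at this
    exact this
  have hrelt : 256 * (legT₀ ^ 2 - legT₀ + 1) ^ 3 =
      jqNModC ℚ 2 * (legT₀ ^ 2 * (legT₀ - 1) ^ 2) := by
    have := legT₀_spec.2.2
    rw [Host.aeval_legA, Host.aeval_legB] at this
    exact this.symm
  have h2Q : (2 : LaurentSeries ℚ) ≠ 0 := by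
    have h : (2 : LaurentSeries ℚ) = algebraMap ℚ (LaurentSeries ℚ) 2 :=
      (map_ofNat (algebraMap ℚ (LaurentSeries ℚ)) 2).symm
    rw [h]
    exact (_root_.map_ne_zero _).mpr (by norm_num)
  -- the inverse transforms over `A`
  obtain ⟨F₁, hF₁, hF₁u⟩ := exists_inv_X_mul S hS0u
  obtain ⟨F₂, hF₂, hF₂c⟩ := exists_inv_one_sub_X_mul S
  have hF₂u : IsUnit (F₂.coeff 1) := by rw [hF₂c]; exact hS0u
  have hF₁' : coeffMap φ F₁ = u⁻¹ := by
    apply eq_inv_of_mul_eq_one_left
    have := congrArg (coeffMap φ) hF₁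
    rwa [map_mul, map_one] at this
  have hF₂' : coeffMap φ F₂ = (1 - u)⁻¹ := by
    apply eq_inv_of_mul_eq_one_left
    have e1 : coeffMap φ (1 - y) = 1 - u := by rw [map_sub, map_one]
    rw [← e1, ← map_mul, hF₂, map_one]
  have hm1 : (-1 : ℤ) ≠ 0 := by norm_num
  rcases legendre_roots h2Q hrelt hrelu hu0 hu1 with h | h | h | h | h | h
  · exact ⟨y, h, 1, one_ne_zero, hyu⟩
  · refine ⟨1 - y, ?_, 1, one_ne_zero, isUnit_coeff_one_sub one_ne_zero hyu⟩
    rw [h, map_sub, map_one]
  · exact ⟨F₁, by rw [h, hF₁'], -1, hm1, hF₁u⟩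
  · exact ⟨F₂, by rw [h, hF₂'], 1, one_ne_zero, hF₂u⟩
  · refine ⟨1 - F₁, ?_, -1, hm1, isUnit_coeff_one_sub hm1 hF₁u⟩
    rw [h, map_sub, map_one, hF₁']
    field_simp
  · refine ⟨1 - F₂, ?_, 1, one_ne_zero, isUnit_coeff_one_sub one_ne_zero hF₂u⟩
    rw [h, map_sub, map_one, hF₂']
    field_simp
    ring

end Rat

end Fermat.Agent.SS
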