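/-
(SS-q) HOSTINT — helper6 — part 1: **series defined over a ring with unique homomorphisms**
(`ℤ`, `ℤ[1/n]`).  If `T₀ ∈ ℚ⸨x⸩` is the coefficientwise image of `F ∈ A⸨x⸩` and ring homomorphisms
out of `A` are unique, then for every discrete valuation ring `R` receiving `A`, with fraction field
`L ⊇ ℚ`, the coefficient extension of `T₀` to `L` is `emb R L (coeffMap ψ F)`: it is Gauss-integral,
its reduction has coefficients in the prime field, hence (**Kronecker**)
`T(x^q) − T(x)^q ∈ ϖ · R⸨x⸩` for the residue characteristic `q`.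
-/
import Mathlib
import Fermat.Agent.Igusa.V_helper5_Gauss
import Fermat.Agent.JA.ES_helper4_Frob
import Fermat.Agent.JA.HOST_helper3_Line

set_option autoImplicit false
set_option linter.unusedSectionVars false
set_option linter.style.haveILetI false

open ModularCurve

namespace Fermat.Agent.SS

open Fermat.Agent.JA Fermat.Agent.Igusa

section UniqueHoms

/-- ring homomorphisms out of `ℤ[1/n]` are unique. -/
theorem ringHom_away_int_ext (n : ℤ) {S : Type*} [Semiring S]
    (f g : Localization.Away n →+* S) : f = g :=
  IsLocalization.ringHom_ext (Submonoid.powers n) (RingHom.ext_int _ _)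

end UniqueHoms

section Transport

variable {A : Type*} [CommRing A]
variable (R : Type*) [CommRing R] [IsDomain R] [IsDiscreteValuationRing R]
variable (L : Type*) [Field L] [Algebra R L] [IsFractionRing R L] [Algebra ℚ L]

local notation "k" => IsLocalRing.ResidueField R

variable {R L}

/-- the coefficient extension of a series defined over `A` is the image of a series over `R`. -/
theorem coeffMap_rat_eq_emb (φ : A →+* ℚ) (ψ : A →+* R)
    (hψ : (algebraMap R L).comp ψ = (algebraMap ℚ L).comp φ) (F : LaurentSeries A) :
    coeffMap (algebraMap ℚ L) (coeffMap φ F) = emb R L (coeffMap ψ F) := by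
  rw [coeffMap_coeffMap, emb, coeffMap_coeffMap]
  exact coeffMap_congr hψ.symm F

/-- **Kronecker congruence over `R`**: for a series over `R` whose reduction has Frobenius-fixed
coefficients, `y(x^q) − y(x)^q ∈ ϖ · R⸨x⸩`. -/
theorem exists_qExpand_sub_pow_eq_C_mul {ϖ : R} (hϖ : Irreducible ϖ) (q : ℕ) [NeZero q]
    [ExpChar k q] (y : LaurentSeries R)
    (hy : coeffMap (frobenius k q) (red R y) = red R y) :
    ∃ g : LaurentSeries R, qExpand R q y - y ^ q = HahnSeries.C ϖ * g := by
  rw [← red_eq_zero_iff hϖ, map_sub, map_pow, laurent_pow_char q (red R y), hy]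
  have : red R (qExpand R q y) = qExpand k q (red R y) :=
    coeffMap_qExpand (IsLocalRing.residue R) q y
  rw [this, sub_self]

/-- a series over `R` coming from a ring with unique homomorphisms has Frobenius-fixed
reduction. -/
theorem coeffMap_frobenius_red_coeffMap (q : ℕ) [ExpChar k q] (ψ : A →+* R)
    (huniq : ∀ f g : A →+* k, f = g) (F : LaurentSeries A) :
    coeffMap (frobenius k q) (red R (coeffMap ψ F)) = red R (coeffMap ψ F) := by
  have h1 : red R (coeffMap ψ F) = coeffMap ((IsLocalRing.residue R).comp ψ) F :=
    coeffMap_coeffMap _ _ F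
  rw [h1, coeffMap_coeffMap]
  exact coeffMap_congr (huniq _ _) F

/-- **Kronecker congruence** for the `L`-coefficient extension of a series defined over a ring
`A` with unique homomorphisms. -/
theorem exists_qExpand_sub_pow_eq_C_mul_emb {ϖ : R} (hϖ : Irreducible ϖ) (q : ℕ) [NeZero q]
    [ExpChar k q] (φ : A →+* ℚ) (ψ : A →+* R)
    (hψ : (algebraMap R L).comp ψ = (algebraMap ℚ L).comp φ)
    (huniq : ∀ f g : A →+* k, f = g) (F : LaurentSeries A) :
    ∃ g : LaurentSeries R,
      qExpand L q (coeffMap (algebraMap ℚ L) (coeffMap φ F)) -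
          coeffMap (algebraMap ℚ L) (coeffMap φ F) ^ q =
        HahnSeries.C (algebraMap R L ϖ) * emb R L g := by
  obtain ⟨g, hg⟩ := exists_qExpand_sub_pow_eq_C_mul hϖ q (coeffMap ψ F)
    (coeffMap_frobenius_red_coeffMap q ψ huniq F)
  refine ⟨g, ?_⟩
  rw [coeffMap_rat_eq_emb φ ψ hψ F, ← emb_C, ← map_mul, ← hg, map_sub, map_pow]
  congr 1
  exact (coeffMap_qExpand (algebraMap R L) q _).symm

/-- a series over `R` with a coefficient in nonzero degree which is a unit has transcendental
reduction. -/
theorem transcendental_red_of_isUnit_coeff (y : LaurentSeries R) {n : ℤ} (hn : n ≠ 0)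
    (hu : IsUnit (y.coeff n)) : Transcendental k (red R y) := by
  refine Host.transcendental_of_coeff_ne_zero hn ?_
  rw [red_coeff]
  exact (hu.map (IsLocalRing.residue R)).ne_zero

end Transport

end Fermat.Agent.SS
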