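/-
(SS-q) HOSTINT — helper6 — part 5: **the host coordinates are Gauss-integral and defined over the
prime ring; Kronecker congruences.**

For a discrete valuation ring `R` with fraction field `L ⊇ ℚ` and residue field `k`:
* `legT L` (`2 ∈ Rˣ`), `hesT L` (`3 ∈ Rˣ`), `jqNModC L w` are of the form `emb R L y`, `y ∈ R⸨x⸩` with
  a unit coefficient in nonzero degree and with reduction fixed by the coefficientwise Frobenius
  of `k` (coefficients in the prime field);
* hence they lie in `gaussInt R L` with transcendental reduction, `hesE L N ≤ gaussField R L`;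
* **Kronecker**: for every Gauss-integral `x` with Frobenius-fixed reduction (a subring closed
  under inverses of units and `qExpand`), `x(x^q) − x^q` reduces to `0`, `q` the residue
  characteristic.
-/
import Mathlib
import Fermat.Agent.SS.HOSTINT_helper6_Univ
import Fermat.Agent.SS.HOSTINT_helper6_HesTwo
import Fermat.Agent.SS.HOSTINT_helper6_LegSix

set_option autoImplicit false
set_option linter.unusedSectionVars false
set_option linter.style.haveILetI false

open Polynomial ModularCurve

namespace Fermat.Agent.SS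

open Fermat.Agent.JA Fermat.Agent.Igusa

section PrimeDefined

variable (R : Type*) [CommRing R] [IsDomain R] [IsDiscreteValuationRing R]
variable (L : Type*) [Field L] [Algebra R L] [IsFractionRing R L] [Algebra ℚ L]

local notation "k" => IsLocalRing.ResidueField R

/-- `T ∈ L⸨x⸩` **is defined over the prime ring**: it is the image of a series over `R` with a unit
coefficient in nonzero degree whose reduction is fixed by every coefficientwise Frobenius. -/
def IsPrimeSeries (T : LaurentSeries L) : Prop :=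
  ∃ y : LaurentSeries R, T = emb R L y ∧ (∃ n : ℤ, n ≠ 0 ∧ IsUnit (y.coeff n)) ∧
    ∀ (q : ℕ) [ExpChar k q], coeffMap (frobenius k q) (red R y) = red R y

variable {R L}

/-- transport from a ring `A` with unique homomorphisms (`ℤ`, `ℤ[1/n]`). -/
theorem isPrimeSeries_of_coeffMap {A : Type*} [CommRing A] (φ : A →+* ℚ) (ψ : A →+* R)
    (hψ : (algebraMap R L).comp ψ = (algebraMap ℚ L).comp φ)
    (huniq : ∀ f g : A →+* k, f = g) (F : LaurentSeries A) {n : ℤ} (hn : n ≠ 0)
    (hF : IsUnit (F.coeff n)) :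
    IsPrimeSeries R L (coeffMap (algebraMap ℚ L) (coeffMap φ F)) :=
  ⟨coeffMap ψ F, coeffMap_rat_eq_emb φ ψ hψ F, ⟨n, hn, by rw [coeffMap_coeff]; exact hF.map ψ⟩,
    fun q _ => coeffMap_frobenius_red_coeffMap q ψ huniq F⟩

/-- transport from `ℤ[1/m]`, `m ∈ Rˣ`. -/
theorem isPrimeSeries_of_away (m : ℤ) (hm : IsUnit ((m : ℤ) : R))
    (φ : Localization.Away m →+* ℚ) (F : LaurentSeries (Localization.Away m)) {n : ℤ}
    (hn : n ≠ 0) (hF : IsUnit (F.coeff n)) :
    IsPrimeSeries R L (coeffMap (algebraMap ℚ L) (coeffMap φ F)) :=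
  isPrimeSeries_of_coeffMap φ
    (IsLocalization.Away.lift (S := Localization.Away m) m (g := Int.castRingHom R) hm)
    (ringHom_away_int_ext m _ _) (ringHom_away_int_ext m) F hn hF

theorem IsPrimeSeries.mem_gaussInt {T : LaurentSeries L} (h : IsPrimeSeries R L T) :
    T ∈ gaussInt R L := by
  obtain ⟨y, rfl, -, -⟩ := h
  exact emb_mem_gaussInt R L y

theorem IsPrimeSeries.transcendental_gaussRed {T : LaurentSeries L} (h : IsPrimeSeries R L T)
    (hT : T ∈ gaussInt R L) : Transcendental k (gaussRed R L ⟨T, hT⟩) := by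
  obtain ⟨y, rfl, ⟨n, hn, hu⟩, -⟩ := h
  rw [gaussRed_emb]
  exact transcendental_red_of_isUnit_coeff y hn hu

theorem IsPrimeSeries.frobenius_gaussRed {T : LaurentSeries L} (h : IsPrimeSeries R L T)
    (hT : T ∈ gaussInt R L) (q : ℕ) [ExpChar k q] :
    coeffMap (frobenius k q) (gaussRed R L ⟨T, hT⟩) = gaussRed R L ⟨T, hT⟩ := by
  obtain ⟨y, rfl, -, hy⟩ := h
  rw [gaussRed_emb]
  exact hy q

end PrimeDefined

section Kronecker

variable {R : Type*} [CommRing R] [IsDomain R] [IsDiscreteValuationRing R]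
variable {L : Type*} [Field L] [Algebra R L] [IsFractionRing R L]

local notation "k" => IsLocalRing.ResidueField R

variable (R L) in
/-- the subring of Gauss-integral series whose reduction is fixed by the coefficientwise
Frobenius (coefficients in `𝔽_q`). -/
noncomputable def frobFixedInt (q : ℕ) [ExpChar k q] : Subring (gaussInt R L) :=
  RingHom.eqLocus ((coeffMap (frobenius k q)).comp (gaussRed R L)) (gaussRed R L)

theorem mem_frobFixedInt_iff (q : ℕ) [ExpChar k q] (x : gaussInt R L) :
    x ∈ frobFixedInt R L q ↔ coeffMap (frobenius k q) (gaussRed R L x) = gaussRed R L x :=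
  Iff.rfl

/-- inverses of units of the Gauss ring with Frobenius-fixed reduction have Frobenius-fixed
reduction. -/
theorem inv_mem_frobFixedInt (q : ℕ) [ExpChar k q] {x : gaussInt R L}
    (hx : x ∈ frobFixedInt R L q) (hx0 : gaussRed R L x ≠ 0) :
    (⟨(x : LaurentSeries L)⁻¹, inv_mem_gaussInt_of_gaussRed_ne_zero x hx0⟩ : gaussInt R L) ∈
      frobFixedInt R L q := by
  rw [mem_frobFixedInt_iff] at hx ⊢
  rw [gaussRed_inv x hx0, map_inv₀, hx]

/-- `x ↦ x(x^n)` preserves Frobenius-fixed reduction. -/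
theorem qExpand_mem_frobFixedInt (q : ℕ) [ExpChar k q] (n : ℕ) [NeZero n] {x : gaussInt R L}
    (hx : x ∈ frobFixedInt R L q) :
    (⟨qExpand L n x, (gaussHomQExpand R L n).map_mem_gaussInt x.2⟩ : gaussInt R L) ∈
      frobFixedInt R L q := by
  rw [mem_frobFixedInt_iff] at hx ⊢
  have h1 : gaussRed R L ⟨qExpand L n x, (gaussHomQExpand R L n).map_mem_gaussInt x.2⟩ =
      qExpand k n (gaussRed R L x) := (gaussHomQExpand R L n).gaussRed_map x.2
  rw [h1, coeffMap_qExpand, hx]

/-- **Kronecker congruence in the Gauss ring**: `x(x^q) ≡ x^q` for `x` with Frobenius-fixed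
reduction. -/
theorem gaussRed_qExpand_sub_pow (q : ℕ) [NeZero q] [ExpChar k q] {x : gaussInt R L}
    (hx : x ∈ frobFixedInt R L q) :
    gaussRed R L
      ((⟨qExpand L q x, (gaussHomQExpand R L q).map_mem_gaussInt x.2⟩ : gaussInt R L) - x ^ q)
      = 0 := by
  rw [mem_frobFixedInt_iff] at hx
  have h1 : gaussRed R L ⟨qExpand L q x, (gaussHomQExpand R L q).map_mem_gaussInt x.2⟩ =
      qExpand k q (gaussRed R L x) := (gaussHomQExpand R L q).gaussRed_map x.2
  rw [map_sub, map_pow, h1, laurent_pow_char q (gaussRed R L x), hx, sub_self]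

/-- **Kronecker congruence**, membership form. -/
theorem exists_gaussRed_qExpand_sub_pow_eq_zero (q : ℕ) [NeZero q] [ExpChar k q]
    {T : LaurentSeries L} (hT : T ∈ gaussInt R L)
    (hfix : coeffMap (frobenius k q) (gaussRed R L ⟨T, hT⟩) = gaussRed R L ⟨T, hT⟩) :
    ∃ h : qExpand L q T - T ^ q ∈ gaussInt R L, gaussRed R L ⟨_, h⟩ = 0 :=
  ⟨(gaussInt R L).sub_mem ((gaussHomQExpand R L q).map_mem_gaussInt hT)
      ((gaussInt R L).pow_mem hT q),
    gaussRed_qExpand_sub_pow q (x := ⟨T, hT⟩) hfix⟩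

/-- the residue field has characteristic `q` when `q ∈ (ϖ)`. -/
theorem charP_residueField_of_mem_span {ϖ : R} (hϖ : Irreducible ϖ) {q : ℕ} (hq : q.Prime)
    (hqϖ : (q : R) ∈ Ideal.span {ϖ}) : CharP k q := by
  rw [CharP.charP_iff_prime_eq_zero hq]
  have : ((q : ℕ) : k) = IsLocalRing.residue R (q : R) := (map_natCast _ q).symm
  rw [this, IsLocalRing.residue_eq_zero_iff,
    (IsDiscreteValuationRing.irreducible_iff_uniformizer ϖ).1 hϖ]
  exact hqϖ

end Kronecker

section Main

variable (R : Type*) [CommRing R] [IsDomain R] [IsDiscreteValuationRing R]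
variable (L : Type*) [Field L] [Algebra R L] [IsFractionRing R L] [Algebra ℚ L]

local notation "k" => IsLocalRing.ResidueField R

/-- **the Legendre coordinate is defined over the prime ring** (`2 ∈ Rˣ`). -/
theorem isPrimeSeries_legT (h2 : IsUnit (2 : R)) : IsPrimeSeries R L (legT L) := by
  have h2A : IsUnit (2 : Localization.Away (2 : ℤ)) := by
    have := IsLocalization.Away.algebraMap_isUnit (S := Localization.Away (2 : ℤ)) (2 : ℤ)
    rwa [map_ofNat] at this
  have h2Q : IsUnit (Int.castRingHom ℚ (2 : ℤ)) := by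
    rw [map_ofNat]; exact (two_ne_zero : (2 : ℚ) ≠ 0).isUnit
  obtain ⟨F, hF, n, hn, hu⟩ := exists_legT₀_eq_coeffMap h2A
    (IsLocalization.Away.lift (S := Localization.Away (2 : ℤ)) (2 : ℤ)
      (g := Int.castRingHom ℚ) h2Q)
  rw [legT, hF]
  exact isPrimeSeries_of_away (2 : ℤ) (by rw [Int.cast_ofNat]; exact h2) _ F hn hu

/-- **the Hesse coordinate is defined over the prime ring** (`3 ∈ Rˣ`). -/
theorem isPrimeSeries_hesT (h3 : IsUnit (3 : R)) : IsPrimeSeries R L (hesT L) := by
  have h3A : IsUnit (3 : Localization.Away (3 : ℤ)) := by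
    have := IsLocalization.Away.algebraMap_isUnit (S := Localization.Away (3 : ℤ)) (3 : ℤ)
    rwa [map_ofNat] at this
  have h3Q : IsUnit (Int.castRingHom ℚ (3 : ℤ)) := by
    rw [map_ofNat]; exact (three_ne_zero : (3 : ℚ) ≠ 0).isUnit
  obtain ⟨F, hF, n, hn, hu⟩ := exists_hesT₀_eq_coeffMap h3A
    (IsLocalization.Away.lift (S := Localization.Away (3 : ℤ)) (3 : ℤ)
      (g := Int.castRingHom ℚ) h3Q)
  rw [hesT, hF]
  exact isPrimeSeries_of_away (3 : ℤ) (by rw [Int.cast_ofNat]; exact h3) _ F hn hu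

/-- **`j(x^w)` is defined over the prime ring.** -/
theorem isPrimeSeries_jqNModC (w : ℕ) [NeZero w] : IsPrimeSeries R L (jqNModC L w) := by
  have h1 : jqNModC L w =
      coeffMap (algebraMap ℚ L) (coeffMap (Int.castRingHom ℚ) (jqNModC ℤ w)) := by
    rw [coeffMap_jqNModC, coeffMap_jqNModC]
  rw [h1]
  refine isPrimeSeries_of_coeffMap (Int.castRingHom ℚ) (Int.castRingHom R)
    (RingHom.ext_int _ _) (fun f g => RingHom.ext_int f g) (jqNModC ℤ w)
    (n := -(w : ℤ)) ?_ ?_
  · rw [neg_ne_zero]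
    exact_mod_cast NeZero.ne w
  · have h := ModularCurve.qExpand_coeff_mul (R := ℤ) w (ModularCurve.jqModC ℤ) (-1)
    rw [ModularCurve.coeff_jqModC_neg_one, mul_neg_one] at h
    rw [jqNModC, h]
    exact isUnit_one

/-- **the Hesse coordinate is Gauss-integral with transcendental reduction** (`3 ∈ Rˣ`). -/
theorem hesT_mem_gaussInt (h3 : IsUnit (3 : R)) :
    ∃ h : hesT L ∈ gaussInt R L, Transcendental k (gaussRed R L ⟨hesT L, h⟩) :=
  ⟨(isPrimeSeries_hesT R L h3).mem_gaussInt,
    (isPrimeSeries_hesT R L h3).transcendental_gaussRed _⟩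

/-- **the Hesse host consists of Gauss-bounded series** (`3 ∈ Rˣ`). -/
theorem hesE_le_gaussField (h3 : IsUnit (3 : R)) (N : ℕ) [NeZero N] :
    hesE L N ≤ gaussField R L := by
  rw [hesE_eq_sup]
  refine sup_le ?_ (keyFw_le_gaussField R L N 3)
  rw [IntermediateField.adjoin_simple_le_iff]
  exact gaussInt_le_gaussField (isPrimeSeries_hesT R L h3).mem_gaussInt

variable {R L}

/-- **Kronecker congruence for a series defined over the prime ring**: `T(x^q) − T^q` is
Gauss-integral with reduction `0`, and is `ϖ ·` a series over `R`. -/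
theorem IsPrimeSeries.kronecker_gaussRed {T : LaurentSeries L} (hT : IsPrimeSeries R L T) (q : ℕ)
    [NeZero q] [ExpChar k q] :
    ∃ h : qExpand L q T - T ^ q ∈ gaussInt R L, gaussRed R L ⟨_, h⟩ = 0 :=
  exists_gaussRed_qExpand_sub_pow_eq_zero q hT.mem_gaussInt (hT.frobenius_gaussRed _ q)

theorem IsPrimeSeries.kronecker_emb {T : LaurentSeries L} (hT : IsPrimeSeries R L T) {ϖ : R}
    (hϖ : Irreducible ϖ) (q : ℕ) [NeZero q] [ExpChar k q] :
    ∃ g : LaurentSeries R,
      qExpand L q T - T ^ q = HahnSeries.C (algebraMap R L ϖ) * emb R L g := by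
  obtain ⟨y, rfl, -, hy⟩ := hT
  obtain ⟨g, hg⟩ := exists_qExpand_sub_pow_eq_C_mul hϖ q y (hy q)
  refine ⟨g, ?_⟩
  rw [← emb_C, ← map_mul, ← hg, map_sub, map_pow]
  congr 1
  exact (coeffMap_qExpand (algebraMap R L) q _).symm

end Main

end Fermat.Agent.SS
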