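/-
(SS-q) concrete `SSModel` fields — helper3 — part 1: **Gauss valuations at prime series through
ring homomorphisms.**

Generic engine (in the style of helper6's `valuation_lt_one_of_gaussRed_eq_zero_of_ringHom`):
`g : F → K⸨x⸩` measures Gauss integrality (e.g. `g = coe ∘ atkinLehnerN`), `θ : F →ₐ[K] E` is the
map into the host `E` carrying the valuation subring `V`, every `f` with `g f` Gauss-integral has
`θ f ∈ V`, and `ϖ` is not a unit of `V`.  If `g z` is a prime series (Gauss-integral with
transcendental reduction), then `V` is a Gauss valuation subring with respect to `θ z`: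
`IsGaussAt R ϖ (θ z) V`.
-/
import Mathlib
import Fermat.Agent.SS.HOSTINT_helper6_Main
import Fermat.Agent.SS.VAL2_helper7_HostGauss

set_option autoImplicit false
set_option linter.unusedSectionVars false
set_option linter.style.haveILetI false

open Polynomial ModularCurve

namespace Fermat.Agent.SS

open Fermat.Agent.JA Fermat.Agent.Igusa

section Engine

variable {R : Type*} [CommRing R] [IsDomain R] [IsDiscreteValuationRing R]
  {K : Type*} [Field K] [Algebra R K] [IsFractionRing R K] [Algebra ℚ K]

/-- the value of `g` at a polynomial expression in `z`. -/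
theorem field_map_aeval_eq_gaussEval {F : Type*} [Field F] [Algebra K F]
    (g : F →+* LaurentSeries K) (hg : ∀ c : K, g (algebraMap K F c) = HahnSeries.C c)
    (z : F) (hz : g z ∈ gaussInt R K) (f : R[X]) :
    g (aeval z (f.map (algebraMap R K))) =
      ((gaussEval (⟨g z, hz⟩ : gaussInt R K) f : gaussInt R K) : LaurentSeries K) := by
  have h : (g.comp ((aeval z : K[X] →ₐ[K] F) : K[X] →+* F)).comp
      (Polynomial.mapRingHom (algebraMap R K)) =
      ((gaussInt R K).subtype).comp (gaussEval (⟨g z, hz⟩ : gaussInt R K)) := by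
    apply Polynomial.ringHom_ext
    · intro a
      simp only [RingHom.comp_apply, Polynomial.coe_mapRingHom, Polynomial.map_C, RingHom.coe_coe,
        aeval_C, gaussEval, Polynomial.coe_eval₂RingHom, Polynomial.eval₂_C]
      rw [hg]
      rfl
    · simp [gaussEval]
  exact congrFun (congrArg DFunLike.coe h) f

/-- **Gauss valuation at a prime series through ring homomorphisms.** -/
theorem isGaussAt_of_ringHom_of_isPrimeSeries {ϖ : R} (hϖ : Irreducible ϖ)
    {F : Type*} [Field F] [Algebra K F]
    (g : F →+* LaurentSeries K) (hg : ∀ c : K, g (algebraMap K F c) = HahnSeries.C c)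
    (E : IntermediateField K (LaurentSeries K)) (θ : F →ₐ[K] ↥E) (V : ValuationSubring ↥E)
    (hV : ∀ f : F, g f ∈ gaussInt R K → θ f ∈ V)
    (hϖV : (algebraMap K ↥E (algebraMap R K ϖ))⁻¹ ∉ V)
    (z : F) (hT : IsPrimeSeries R K (g z)) : IsGaussAt R ϖ (θ z) V := by
  have hz : g z ∈ gaussInt R K := hT.mem_gaussInt
  have hst := hT.transcendental_gaussRed hz
  have key1 : ∀ f : R[X], θ (aeval z (f.map (algebraMap R K))) = aeval (θ z) f := by
    intro f
    rw [← aeval_algHom_apply, aeval_map_algebraMap]
  refine ⟨fun f => ?_, ?_, fun f hf => ?_⟩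
  · rw [← key1]
    apply hV
    rw [field_map_aeval_eq_gaussEval g hg z hz f]
    exact (gaussEval (⟨g z, hz⟩ : gaussInt R K) f).2
  · rw [IsScalarTower.algebraMap_apply R K ↥E]
    exact hϖV
  · rw [← key1, ← map_inv₀]
    apply hV
    rw [map_inv₀, field_map_aeval_eq_gaussEval g hg z hz f]
    apply inv_mem_gaussInt_of_gaussRed_ne_zero
    rw [gaussRed_gaussEval]
    intro h0
    have h1 : f.map (IsLocalRing.residue R) = 0 := (transcendental_iff.mp hst) _ h0
    apply hf
    rw [Polynomial.C_dvd_iff_dvd_coeff]
    intro i
    have h2 : IsLocalRing.residue R (f.coeff i) = 0 := by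
      rw [← Polynomial.coeff_map, h1, Polynomial.coeff_zero]
    rw [IsLocalRing.residue_eq_zero_iff, hϖ.maximalIdeal_eq, Ideal.mem_span_singleton] at h2
    exact h2

end Engine

end Fermat.Agent.SS
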