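/-
(SS-q) MODEL-GLOBAL leaf [CUSPT] — helper3 — part 2: **integrality of the Legendre and Hesse
coordinates over `R[j]`** (no cusp where `j` is regular), pure algebra.

`E` a field, `R → E` a ring with `2` (resp. `3`) invertible. If `t` satisfies the Legendre relation
`256 (t² - t + 1)³ = j t² (t - 1)²`, then `t`, `t⁻¹`, `(t - 1)⁻¹` are integral over `R[j]`; if `t`
satisfies the Hesse relation `27 t³ (t³ + 8)³ = j (t³ - 1)³` and `ω ∈ R` is a primitive cube root of
unity, then `t`, `(t - 1)⁻¹`, `(t - ω)⁻¹`, `(t - ω²)⁻¹` are integral over `R[j]`.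
-/
import Mathlib

set_option autoImplicit false
set_option linter.unusedSectionVars false
set_option linter.unusedVariables false

open Polynomial

namespace Fermat.Agent.SS

section General

variable {A : Type*} [CommRing A] {E : Type*} [Field E] [Algebra A E]

/-- a root of a polynomial `c Xⁿ + q`, `c` a unit, `deg q < n`, is integral. -/
theorem isIntegral_of_leading_unit (x : E) (n : ℕ) (c : A) (hc : IsUnit c) (q : A[X])
    (hq : q.natDegree < n) (h : algebraMap A E c * x ^ n + aeval x q = 0) : IsIntegral A x := by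
  obtain ⟨u, rfl⟩ := hc
  refine ⟨X ^ n + C ((u⁻¹ : Aˣ) : A) * q, ?_, ?_⟩
  · apply monic_X_pow_add
    have h1 : (C ((u⁻¹ : Aˣ) : A) * q).natDegree ≤ q.natDegree := natDegree_C_mul_le _ _
    exact lt_of_le_of_lt (degree_le_of_natDegree_le (h1.trans (Nat.le_refl _)))
      (by exact_mod_cast hq)
  · rw [← aeval_def, map_add, map_mul, map_pow, aeval_X, aeval_C]
    have h2 : algebraMap A E ((u⁻¹ : Aˣ) : A) * algebraMap A E (u : A) = 1 := by
      rw [← map_mul, Units.inv_mul, map_one]
    calc x ^ n + algebraMap A E ((u⁻¹ : Aˣ) : A) * aeval x q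
        = algebraMap A E ((u⁻¹ : Aˣ) : A) * (algebraMap A E (u : A) * x ^ n + aeval x q) := by
          rw [mul_add, ← mul_assoc, h2, one_mul]
      _ = 0 := by rw [h, mul_zero]

end General

section Coordinates

variable {R : Type*} [CommRing R] {E : Type*} [Field E] [Algebra R E]

/-- the generator of `R[j]`. -/
noncomputable def adjoinGen (R : Type*) [CommRing R] {E : Type*} [Field E] [Algebra R E] (j : E) :
    ↥(Algebra.adjoin R {j}) := ⟨j, Algebra.self_mem_adjoin_singleton R j⟩

theorem algebraMap_adjoinGen (j : E) :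
    algebraMap ↥(Algebra.adjoin R {j}) E (adjoinGen R j) = j := rfl

theorem isUnit_algebraMap_adjoin {c : R} (hc : IsUnit c) (j : E) :
    IsUnit (algebraMap R ↥(Algebra.adjoin R {j}) c) := hc.map _

/-- `m = t (t - 1)` and `m⁻¹` are integral over `R[j]` (Legendre). -/
theorem legendre_isIntegral_mul (h2 : IsUnit (2 : R)) {j t : E}
    (hrel : 256 * (t ^ 2 - t + 1) ^ 3 = j * (t ^ 2 * (t - 1) ^ 2)) :
    IsIntegral ↥(Algebra.adjoin R {j}) (t * (t - 1)) ∧
      IsIntegral ↥(Algebra.adjoin R {j}) (t * (t - 1))⁻¹ := by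
  set A := ↥(Algebra.adjoin R {j}) with hA
  have h256 : IsUnit (algebraMap R A 256) := by
    have : (256 : R) = 2 ^ 8 := by norm_num
    rw [this]
    exact (h2.pow 8).map _
  have h256E : algebraMap A E (algebraMap R A 256) = 256 := by
    rw [← IsScalarTower.algebraMap_apply, map_ofNat]
  have h2E : (2 : E) ≠ 0 := by
    have := (h2.map (algebraMap R E)).ne_zero
    rwa [map_ofNat] at this
  have h256ne : (256 : E) ≠ 0 := by
    have : (256 : E) = 2 ^ 8 := by norm_num
    rw [this]; exact pow_ne_zero _ h2E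
  have ht0 : t ≠ 0 := by
    rintro rfl
    apply h256ne
    simpa using hrel
  have ht1 : t - 1 ≠ 0 := by
    intro h1
    have ht : t = 1 := sub_eq_zero.mp h1
    subst ht
    apply h256ne
    simpa using hrel
  constructor
  · refine isIntegral_of_leading_unit (t * (t - 1)) 3 (algebraMap R A 256) h256
      (C (768 : A) * X ^ 2 + C (768 : A) * X + C (256 : A) - C (adjoinGen R j) * X ^ 2) ?_ ?_
    · refine lt_of_le_of_lt (b := 2) ?_ (by norm_num)
      compute_degree
    · rw [h256E]
      simp only [map_add, map_sub, map_mul, map_pow, aeval_X, aeval_C, algebraMap_adjoinGen,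
        map_ofNat]
      linear_combination hrel
  · refine isIntegral_of_leading_unit (t * (t - 1))⁻¹ 3 (algebraMap R A 256) h256
      (C (768 : A) * X ^ 2 + C (768 : A) * X + C (256 : A) - C (adjoinGen R j) * X) ?_ ?_
    · refine lt_of_le_of_lt (b := 2) ?_ (by norm_num)
      compute_degree
    · rw [h256E]
      simp only [map_add, map_sub, map_mul, map_pow, aeval_X, aeval_C, algebraMap_adjoinGen,
        map_ofNat]
      field_simp
      linear_combination hrel

/-- **the Legendre coordinate is integral over `R[j]`.** -/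
theorem legendre_isIntegral_adjoin (h2 : IsUnit (2 : R)) {j t : E}
    (hrel : 256 * (t ^ 2 - t + 1) ^ 3 = j * (t ^ 2 * (t - 1) ^ 2)) :
    IsIntegral ↥(Algebra.adjoin R {j}) t := by
  set A := ↥(Algebra.adjoin R {j}) with hA
  obtain ⟨hm, -⟩ := legendre_isIntegral_mul h2 hrel
  -- `(2 t - 1)² = 4 m + 1`
  have h1 : IsIntegral A ((2 * t - 1) ^ 2) := by
    have : (2 * t - 1) ^ 2 = algebraMap R E 4 * (t * (t - 1)) + 1 := by
      rw [map_ofNat]; ring
    rw [this]
    have h4 : IsIntegral A (algebraMap R E 4) := by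
      rw [IsScalarTower.algebraMap_apply R A E]; exact isIntegral_algebraMap
    exact (h4.mul hm).add isIntegral_one
  have h2' : IsIntegral A (2 * t - 1) := IsIntegral.of_pow (by norm_num : 0 < 2) h1
  obtain ⟨u, hu⟩ := h2
  have h3 : t = algebraMap R E ((u⁻¹ : Rˣ) : R) * ((2 * t - 1) + 1) := by
    have h4 : algebraMap R E ((u⁻¹ : Rˣ) : R) * 2 = 1 := by
      have : (2 : E) = algebraMap R E (u : R) := by rw [hu, map_ofNat]
      rw [this, ← map_mul, Units.inv_mul, map_one]
    calc t = (algebraMap R E ((u⁻¹ : Rˣ) : R) * 2) * t := by rw [h4, one_mul]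
      _ = _ := by ring
  rw [h3]
  have h5 : IsIntegral A (algebraMap R E ((u⁻¹ : Rˣ) : R)) := by
    rw [IsScalarTower.algebraMap_apply R A E]
    exact isIntegral_algebraMap
  exact h5.mul (h2'.add isIntegral_one)

/-- **the inverses of `t` and `t - 1` are integral over `R[j]`** (Legendre; `S = {0, 1}`). -/
theorem legendre_isIntegral_adjoin_sub_inv [DecidableEq R] (h2 : IsUnit (2 : R)) {j t : E}
    (hrel : 256 * (t ^ 2 - t + 1) ^ 3 = j * (t ^ 2 * (t - 1) ^ 2)) :
    ∀ s ∈ ({0, 1} : Finset R), IsIntegral ↥(Algebra.adjoin R {j}) (t - algebraMap R E s)⁻¹ := by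
  set A := ↥(Algebra.adjoin R {j}) with hA
  obtain ⟨-, hn⟩ := legendre_isIntegral_mul h2 hrel
  have ht := legendre_isIntegral_adjoin h2 hrel
  have h2E : (2 : E) ≠ 0 := by
    have := (h2.map (algebraMap R E)).ne_zero
    rwa [map_ofNat] at this
  have h256ne : (256 : E) ≠ 0 := by
    have : (256 : E) = 2 ^ 8 := by norm_num
    rw [this]; exact pow_ne_zero _ h2E
  have ht0 : t ≠ 0 := by
    rintro rfl
    apply h256ne
    simpa using hrel
  have ht1 : t - 1 ≠ 0 := by
    intro h1
    have ht : t = 1 := sub_eq_zero.mp h1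
    subst ht
    apply h256ne
    simpa using hrel
  intro s hs
  rw [Finset.mem_insert, Finset.mem_singleton] at hs
  rcases hs with rfl | rfl
  · rw [map_zero, sub_zero]
    have : t⁻¹ = (t * (t - 1))⁻¹ * (t - 1) := by field_simp
    rw [this]
    exact hn.mul (ht.sub isIntegral_one)
  · rw [map_one]
    have : (t - 1)⁻¹ = (t * (t - 1))⁻¹ * t := by field_simp
    rw [this]
    exact hn.mul ht

/-- `y = t³ - 1` and `y⁻¹` are integral over `R[j]` (Hesse). -/
theorem hesse_isIntegral_cube_sub (h3 : IsUnit (3 : R)) {j t : E}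
    (hrel : 27 * t ^ 3 * (t ^ 3 + 8) ^ 3 = j * (t ^ 3 - 1) ^ 3) :
    IsIntegral ↥(Algebra.adjoin R {j}) (t ^ 3 - 1) ∧
      IsIntegral ↥(Algebra.adjoin R {j}) (t ^ 3 - 1)⁻¹ := by
  set A := ↥(Algebra.adjoin R {j}) with hA
  have h27 : IsUnit (algebraMap R A 27) := by
    have : (27 : R) = 3 ^ 3 := by norm_num
    rw [this]
    exact (h3.pow 3).map _
  have h27E : algebraMap A E (algebraMap R A 27) = 27 := by
    rw [← IsScalarTower.algebraMap_apply, map_ofNat]
  have h39 : IsUnit (algebraMap R A 19683) := by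
    have : (19683 : R) = 3 ^ 9 := by norm_num
    rw [this]
    exact (h3.pow 9).map _
  have h39E : algebraMap A E (algebraMap R A 19683) = 19683 := by
    rw [← IsScalarTower.algebraMap_apply, map_ofNat]
  have h3E : (3 : E) ≠ 0 := by
    have := (h3.map (algebraMap R E)).ne_zero
    rwa [map_ofNat] at this
  have h27ne : (27 : E) ≠ 0 := by
    have : (27 : E) = 3 ^ 3 := by norm_num
    rw [this]; exact pow_ne_zero _ h3E
  have h9ne : (9 : E) ≠ 0 := by
    have : (9 : E) = 3 ^ 2 := by norm_num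
    rw [this]; exact pow_ne_zero _ h3E
  have hy : t ^ 3 - 1 ≠ 0 := by
    intro h0
    rw [h0] at hrel
    have h1 : t ^ 3 = 1 := sub_eq_zero.mp h0
    rw [h1] at hrel
    have : (27 : E) * 1 * (1 + 8) ^ 3 = 0 := by rw [hrel]; ring
    have h2 : (27 : E) * 1 * (1 + 8) ^ 3 = 27 * 9 ^ 3 := by norm_num
    rw [h2] at this
    exact (mul_ne_zero h27ne (pow_ne_zero _ h9ne)) this
  constructor
  · refine isIntegral_of_leading_unit (t ^ 3 - 1) 4 (algebraMap R A 27) h27
      (C (756 : A) * X ^ 3 + C (7290 : A) * X ^ 2 + C (26244 : A) * X + C (19683 : A)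
        - C (adjoinGen R j) * X ^ 3) ?_ ?_
    · refine lt_of_le_of_lt (b := 3) ?_ (by norm_num)
      compute_degree
    · rw [h27E]
      simp only [map_add, map_sub, map_mul, map_pow, aeval_X, aeval_C, algebraMap_adjoinGen,
        map_ofNat]
      linear_combination hrel
  · refine isIntegral_of_leading_unit (t ^ 3 - 1)⁻¹ 4 (algebraMap R A 19683) h39
      (C (26244 : A) * X ^ 3 + C (7290 : A) * X ^ 2 + C (756 : A) * X + C (27 : A)
        - C (adjoinGen R j) * X) ?_ ?_
    · refine lt_of_le_of_lt (b := 3) ?_ (by norm_num)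
      compute_degree
    · rw [h39E]
      simp only [map_add, map_sub, map_mul, map_pow, aeval_X, aeval_C, algebraMap_adjoinGen,
        map_ofNat]
      field_simp
      linear_combination hrel

/-- **the Hesse coordinate is integral over `R[j]`.** -/
theorem hesse_isIntegral_adjoin (h3 : IsUnit (3 : R)) {j t : E}
    (hrel : 27 * t ^ 3 * (t ^ 3 + 8) ^ 3 = j * (t ^ 3 - 1) ^ 3) :
    IsIntegral ↥(Algebra.adjoin R {j}) t := by
  obtain ⟨hy, -⟩ := hesse_isIntegral_cube_sub h3 hrel
  refine IsIntegral.of_pow (by norm_num : 0 < 3) ?_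
  have : t ^ 3 = (t ^ 3 - 1) + 1 := by ring
  rw [this]
  exact hy.add isIntegral_one

/-- **the inverses of `t - 1`, `t - ω`, `t - ω²` are integral over `R[j]`** (Hesse). -/
theorem hesse_isIntegral_adjoin_sub_inv [DecidableEq R] (h3 : IsUnit (3 : R)) (ω : R)
    (hω : ω ^ 2 + ω + 1 = 0) {j t : E}
    (hrel : 27 * t ^ 3 * (t ^ 3 + 8) ^ 3 = j * (t ^ 3 - 1) ^ 3) :
    ∀ s ∈ ({1, ω, ω ^ 2} : Finset R),
      IsIntegral ↥(Algebra.adjoin R {j}) (t - algebraMap R E s)⁻¹ := by
  set A := ↥(Algebra.adjoin R {j}) with hA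
  obtain ⟨hy, hn⟩ := hesse_isIntegral_cube_sub h3 hrel
  have ht := hesse_isIntegral_adjoin h3 hrel
  have hc : ∀ r : R, IsIntegral A (algebraMap R E r) := fun r => by
    rw [IsScalarTower.algebraMap_apply R A E]
    exact isIntegral_algebraMap
  have hωE : algebraMap R E ω ^ 2 + algebraMap R E ω + 1 = 0 := by
    rw [← map_pow, ← map_add, ← map_one (algebraMap R E), ← map_add, hω, map_zero]
  set w := algebraMap R E ω with hw
  have hfac : t ^ 3 - 1 = (t - 1) * (t - w) * (t - w ^ 2) := by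
    have hw3 : w ^ 3 = 1 := by
      have : w ^ 3 - 1 = (w - 1) * (w ^ 2 + w + 1) := by ring
      rw [hωE, mul_zero] at this
      exact sub_eq_zero.mp this
    have hw4 : w ^ 2 = -w - 1 := by linear_combination hωE
    have : (t - 1) * (t - w) * (t - w ^ 2) =
        t ^ 3 - (1 + w + w ^ 2) * t ^ 2 + (w + w ^ 2 + w ^ 3) * t - w ^ 3 := by ring
    rw [this, hw3]
    have h0 : 1 + w + w ^ 2 = 0 := by linear_combination hωE
    have h1 : w + w ^ 2 + 1 = 0 := by linear_combination hωE
    rw [h0, h1]; ring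
  have h3E : (3 : E) ≠ 0 := by
    have := (h3.map (algebraMap R E)).ne_zero
    rwa [map_ofNat] at this
  have hyne : t ^ 3 - 1 ≠ 0 := by
    have h27ne : (27 : E) ≠ 0 := by
      have : (27 : E) = 3 ^ 3 := by norm_num
      rw [this]; exact pow_ne_zero _ h3E
    have h9ne : (9 : E) ≠ 0 := by
      have : (9 : E) = 3 ^ 2 := by norm_num
      rw [this]; exact pow_ne_zero _ h3E
    intro h0
    rw [h0] at hrel
    have h1 : t ^ 3 = 1 := sub_eq_zero.mp h0
    rw [h1] at hrel
    have : (27 : E) * 1 * (1 + 8) ^ 3 = 0 := by rw [hrel]; ring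
    have h2 : (27 : E) * 1 * (1 + 8) ^ 3 = 27 * 9 ^ 3 := by norm_num
    rw [h2] at this
    exact (mul_ne_zero h27ne (pow_ne_zero _ h9ne)) this
  have hne : (t - 1) * (t - w) * (t - w ^ 2) ≠ 0 := hfac ▸ hyne
  have h1ne : t - 1 ≠ 0 := fun h => hne (by rw [h, zero_mul, zero_mul])
  have hwne : t - w ≠ 0 := fun h => hne (by rw [h, mul_zero, zero_mul])
  have hw2ne : t - w ^ 2 ≠ 0 := fun h => hne (by rw [h, mul_zero])
  intro s hs
  rw [Finset.mem_insert, Finset.mem_insert, Finset.mem_singleton] at hs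
  rcases hs with h | h | h
  · rw [h, map_one]
    have : (t - 1)⁻¹ = (t ^ 3 - 1)⁻¹ * ((t - w) * (t - w ^ 2)) := by
      rw [hfac]; field_simp
    rw [this]
    exact hn.mul ((ht.sub (hc ω)).mul (ht.sub ((hc ω).pow 2)))
  · rw [h]
    have : (t - w)⁻¹ = (t ^ 3 - 1)⁻¹ * ((t - 1) * (t - w ^ 2)) := by
      rw [hfac]; field_simp
    rw [this]
    exact hn.mul ((ht.sub isIntegral_one).mul (ht.sub ((hc ω).pow 2)))
  · rw [h, map_pow]
    have : (t - w ^ 2)⁻¹ = (t ^ 3 - 1)⁻¹ * ((t - 1) * (t - w)) := by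
      rw [hfac]; field_simp
    rw [this]
    exact hn.mul ((ht.sub isIntegral_one).mul (ht.sub (hc ω)))

end Coordinates

end Fermat.Agent.SS
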