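/-
(SS-q) — helper3 — **GAUSSUP**: a valuation subring `𝒱` of a field `E` that is a Gauss valuation
with respect to `j` (`IsGaussAt R π j 𝒱`) is a Gauss valuation with respect to any `t ∈ 𝒱` tied to
`j` by a relation `D(t) · j = N(t)` with `N`, `D ∈ R[X]` coprime up to a unit of `R`
(`a N + b D = u`).  Applied to the Legendre relation `t²(t-1)² j = 256 (t²-t+1)³` (`2 ∈ Rˣ`) and the
Hesse relation `(t³-1)³ j = 27 t³ (t³+8)³` (`3 ∈ Rˣ`).

Use: an extension to the host `E_M` of the Gauss valuation of `K₁(j)` restricts to the Gauss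
valuation of `K₁(t)`; with the uniqueness of the latter's extension (`GeoHyps`) this identifies
`W.comap A`, `W.comap B` with `V_M` for the sheets `W` of level `N = M q`.
-/
import Mathlib
import Fermat.Agent.JA.GEO_lead_Spec
import Fermat.Agent.SS.CUSPT_helper3_Int

set_option autoImplicit false
set_option linter.unusedSectionVars false
set_option linter.style.haveILetI false

open Polynomial IsLocalRing

namespace Fermat.Agent.SS

open Fermat.Agent.JA

section Abstract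

variable {R : Type*} [CommRing R] [IsDomain R] [IsDiscreteValuationRing R]
  {E : Type*} [Field E] [Algebra R E]

/-- `C π ∣ g` iff `g` vanishes modulo the maximal ideal. -/
theorem gaussup_C_dvd_iff {π : R} (hπ : Irreducible π) (g : R[X]) :
    C π ∣ g ↔ g.map (residue R) = 0 := by
  rw [Polynomial.C_dvd_iff_dvd_coeff, Polynomial.ext_iff]
  refine forall_congr' fun n => ?_
  rw [Polynomial.coeff_map, Polynomial.coeff_zero, residue_eq_zero_iff, hπ.maximalIdeal_eq,
    Ideal.mem_span_singleton]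

variable {π : R} {𝒱 : ValuationSubring E}

/-- the structure map `R → 𝒱` of a valuation subring containing `R`. -/
noncomputable def gaussupHom (𝒱 : ValuationSubring E) (hR : ∀ r : R, algebraMap R E r ∈ 𝒱) :
    R →+* ↥𝒱 :=
  (algebraMap R E).codRestrict 𝒱.toSubring hR

theorem coe_eval₂_gaussupHom (hR : ∀ r : R, algebraMap R E r ∈ 𝒱) (x : ↥𝒱) (g : R[X]) :
    ((eval₂ (gaussupHom 𝒱 hR) x g : ↥𝒱) : E) = aeval (x : E) g := by
  have h := Polynomial.hom_eval₂ g (gaussupHom 𝒱 hR) 𝒱.subtype x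
  rw [aeval_def]
  exact h

theorem gaussup_aeval_mem (hR : ∀ r : R, algebraMap R E r ∈ 𝒱) {t : E} (ht : t ∈ 𝒱) (g : R[X]) :
    aeval t g ∈ 𝒱 := by
  rw [← coe_eval₂_gaussupHom hR ⟨t, ht⟩ g]
  exact (eval₂ (gaussupHom 𝒱 hR) ⟨t, ht⟩ g).2

/-- **GAUSSUP, abstract form.** -/
theorem isGaussAt_of_rel (hπ : Irreducible π) {t j : E} (Nm Dn a b : R[X]) (u : R)
    (hu : IsUnit u) (hbez : a * Nm + b * Dn = C u) (hrel : aeval t Dn * j = aeval t Nm)
    (ht : t ∈ 𝒱) (hG : IsGaussAt R π j 𝒱) : IsGaussAt R π t 𝒱 := by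
  classical
  obtain ⟨hG1, hG2, hG3⟩ := hG
  have hR : ∀ r : R, algebraMap R E r ∈ 𝒱 := by
    intro r
    have := hG1 (C r)
    rwa [aeval_C] at this
  have hj : j ∈ 𝒱 := by
    have := hG1 X
    rwa [aeval_X] at this
  refine ⟨fun f => gaussup_aeval_mem hR ht f, hG2, fun f hf => ?_⟩
  -- notation
  set ρ : R →+* ↥𝒱 := gaussupHom 𝒱 hR with hρ
  set κ := ResidueField ↥𝒱 with hκ
  set φ : R →+* κ := (residue ↥𝒱).comp ρ with hφ
  have hπ𝒱 : ρ π ∈ maximalIdeal ↥𝒱 := by
    rw [mem_maximalIdeal, mem_nonunits_iff]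
    intro hunit
    apply hG2
    obtain ⟨v, hv⟩ := hunit
    have h1 : ((v⁻¹ : (↥𝒱)ˣ) : ↥𝒱) * ρ π = 1 := by rw [← hv]; exact v.inv_mul
    have hρπ : ((ρ π : ↥𝒱) : E) = algebraMap R E π := rfl
    have h2 : (((v⁻¹ : (↥𝒱)ˣ) : ↥𝒱) : E) * algebraMap R E π = 1 := by
      have := congrArg (fun z : ↥𝒱 => (z : E)) h1
      rw [← hρπ]
      simpa using this
    have h3 : (algebraMap R E π)⁻¹ = (((v⁻¹ : (↥𝒱)ˣ) : ↥𝒱) : E) :=
      (eq_inv_of_mul_eq_one_left h2).symm
    rw [h3]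
    exact ((v⁻¹ : (↥𝒱)ˣ) : ↥𝒱).2
  have hφπ : φ π = 0 := by
    rw [hφ, RingHom.comp_apply, residue_eq_zero_iff]
    exact hπ𝒱
  haveI : IsLocalHom φ := by
    refine ⟨fun r hr => ?_⟩
    by_contra hnu
    have hmem : r ∈ maximalIdeal R := by rwa [mem_maximalIdeal, mem_nonunits_iff]
    rw [hπ.maximalIdeal_eq, Ideal.mem_span_singleton] at hmem
    obtain ⟨c, rfl⟩ := hmem
    rw [map_mul, hφπ, zero_mul] at hr
    exact not_isUnit_zero hr
  set ψ : ResidueField R →+* κ := ResidueField.lift φ with hψ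
  have hψres : ∀ r : R, ψ (residue R r) = φ r := fun r => ResidueField.lift_residue_apply φ r
  letI : Algebra (ResidueField R) κ := ψ.toAlgebra
  have halg : algebraMap (ResidueField R) κ = ψ := rfl
  -- reduction of polynomial values
  have hred : ∀ (x : ↥𝒱) (g : R[X]),
      residue ↥𝒱 (eval₂ ρ x g) = aeval (residue ↥𝒱 x) (g.map (residue R)) := by
    intro x g
    have hcomp : ψ.comp (residue R) = φ := ResidueField.lift_comp_residue φ
    rw [aeval_def, Polynomial.eval₂_map, halg, Polynomial.hom_eval₂, hcomp]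
  -- the elements
  set tv : ↥𝒱 := ⟨t, ht⟩ with htv
  set jv : ↥𝒱 := ⟨j, hj⟩ with hjv
  set tb : κ := residue ↥𝒱 tv with htb
  set jb : κ := residue ↥𝒱 jv with hjb
  -- the reduced relation
  have hrelv : eval₂ ρ tv Dn * jv = eval₂ ρ tv Nm := by
    apply Subtype.ext
    rw [MulMemClass.coe_mul, coe_eval₂_gaussupHom, coe_eval₂_gaussupHom]
    exact hrel
  have hrelb : aeval tb (Dn.map (residue R)) * jb = aeval tb (Nm.map (residue R)) := by
    rw [← hred, ← hred, ← hrelv, map_mul]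
  have hbezb : aeval tb (a.map (residue R)) * aeval tb (Nm.map (residue R)) +
      aeval tb (b.map (residue R)) * aeval tb (Dn.map (residue R)) = ψ (residue R u) := by
    have h1 := congrArg (fun p : R[X] => aeval tb (p.map (residue R))) hbez
    simp only [Polynomial.map_add, Polynomial.map_mul, map_add, map_mul, Polynomial.map_C,
      aeval_C] at h1
    rw [h1, halg]
  have hub : ψ (residue R u) ≠ 0 := by
    rw [hψres]
    exact (hu.map φ).ne_zero
  -- it suffices that the residue of `f(t)` is nonzero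
  suffices hne : residue ↥𝒱 (eval₂ ρ tv f) ≠ 0 by
    have hunit : IsUnit (eval₂ ρ tv f) := by
      by_contra hnu
      exact hne ((residue_eq_zero_iff _).mpr ((mem_maximalIdeal _).mpr hnu))
    obtain ⟨v, hv⟩ := hunit
    have h1 : ((v⁻¹ : (↥𝒱)ˣ) : ↥𝒱) * eval₂ ρ tv f = 1 := by rw [← hv]; exact v.inv_mul
    have h2 : (((v⁻¹ : (↥𝒱)ˣ) : ↥𝒱) : E) * aeval t f = 1 := by
      have := congrArg (fun z : ↥𝒱 => (z : E)) h1
      rw [← coe_eval₂_gaussupHom hR tv f]
      simpa using this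
    have h3 : (aeval t f)⁻¹ = (((v⁻¹ : (↥𝒱)ˣ) : ↥𝒱) : E) :=
      (eq_inv_of_mul_eq_one_left h2).symm
    rw [h3]
    exact ((v⁻¹ : (↥𝒱)ˣ) : ↥𝒱).2
  intro h0
  rw [hred] at h0
  -- `t̄` is algebraic over `k`
  have hfne : f.map (residue R) ≠ 0 := fun h => hf ((gaussup_C_dvd_iff hπ f).mpr h)
  have htalg : IsAlgebraic (ResidueField R) tb := ⟨f.map (residue R), hfne, h0⟩
  have htint : IsIntegral (ResidueField R) tb := htalg.isIntegral
  have hval : ∀ p : (ResidueField R)[X], IsIntegral (ResidueField R) (aeval tb p) := by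
    intro p
    have h1 := Polynomial.aeval_subalgebra_coe p (integralClosure (ResidueField R) κ) ⟨tb, htint⟩
    have h2 : (aeval (⟨tb, htint⟩ : integralClosure (ResidueField R) κ) p : κ) ∈
        integralClosure (ResidueField R) κ :=
      (aeval (⟨tb, htint⟩ : ↥(integralClosure (ResidueField R) κ)) p).2
    rw [h1] at h2
    exact h2
  -- `D̄(t̄) ≠ 0`
  have hD : aeval tb (Dn.map (residue R)) ≠ 0 := by
    intro hD0
    have hN0 : aeval tb (Nm.map (residue R)) = 0 := by rw [← hrelb, hD0, zero_mul]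
    rw [hD0, hN0, mul_zero, mul_zero, add_zero] at hbezb
    exact hub hbezb.symm
  -- `j̄` is algebraic over `k`
  have hjeq : jb = aeval tb (Nm.map (residue R)) * (aeval tb (Dn.map (residue R)))⁻¹ := by
    rw [← hrelb, mul_comm (aeval tb (Dn.map (residue R))) jb, mul_assoc, mul_inv_cancel₀ hD,
      mul_one]
  have hjint : IsIntegral (ResidueField R) jb := by
    rw [hjeq]
    exact (hval _).mul (hval _).inv
  obtain ⟨gb, hgb0, hgb⟩ := hjint.isAlgebraic
  obtain ⟨g, rfl⟩ := Polynomial.map_surjective (residue R) residue_surjective gb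
  have hg : ¬ C π ∣ g := fun h => hgb0 ((gaussup_C_dvd_iff hπ g).mp h)
  have hginv := hG3 g hg
  have hgres : residue ↥𝒱 (eval₂ ρ jv g) = 0 := by rw [hred]; exact hgb
  have hgmem : eval₂ ρ jv g ∈ maximalIdeal ↥𝒱 := (residue_eq_zero_iff _).mp hgres
  apply (mem_maximalIdeal _).mp hgmem
  have h1 : aeval j g ≠ 0 := by
    intro h
    have hg2 : ¬ C π ∣ g + C π := fun h' => hg ((dvd_add_left (dvd_refl (C π))).mp h')
    have hginv2 := hG3 (g + C π) hg2
    rw [map_add, h, zero_add, aeval_C] at hginv2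
    exact hG2 hginv2
  refine isUnit_iff_exists_inv.mpr ⟨⟨(aeval j g)⁻¹, hginv⟩, ?_⟩
  apply Subtype.ext
  rw [MulMemClass.coe_mul, coe_eval₂_gaussupHom]
  show aeval j g * (aeval j g)⁻¹ = 1
  exact mul_inv_cancel₀ h1

/-- an element integral over `R[j]`, `R ⊆ 𝒱`, `j ∈ 𝒱`, lies in the valuation subring `𝒱`. -/
theorem mem_of_isIntegral_adjoin_of_mem (hR : ∀ r : R, algebraMap R E r ∈ 𝒱) {j x : E}
    (hj : j ∈ 𝒱) (hx : IsIntegral ↥(Algebra.adjoin R {j}) x) : x ∈ 𝒱 := by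
  let S : Subalgebra R E := { 𝒱.toSubring.toSubsemiring with algebraMap_mem' := hR }
  have hle : Algebra.adjoin R {j} ≤ S := Algebra.adjoin_le (by
    intro y hy
    rw [Set.mem_singleton_iff] at hy
    rw [hy]
    exact hj)
  let g : ↥(Algebra.adjoin R {j}) →+* ↥𝒱 :=
    (algebraMap ↥(Algebra.adjoin R {j}) E).codRestrict 𝒱.toSubring (fun a => hle a.2)
  have hcomp : algebraMap ↥(Algebra.adjoin R {j}) E = (𝒱.subtype).comp g := by
    ext a; rfl
  have hx' : (𝒱.subtype).IsIntegralElem x := by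
    have : (algebraMap ↥(Algebra.adjoin R {j}) E).IsIntegralElem x := hx
    rw [hcomp] at this
    exact RingHom.IsIntegralElem.of_comp this
  have h1 : IsIntegral ↥𝒱 x := hx'
  obtain ⟨y, hy⟩ := IsIntegrallyClosed.algebraMap_eq_of_integral h1
  rw [← hy]
  exact y.2

/-- **GAUSSUP, Legendre**: a `j`-Gauss valuation subring is `t`-Gauss for the Legendre
coordinate. -/
theorem legendre_isGaussAt (hπ : Irreducible π) (h2 : IsUnit (2 : R)) {t j : E}
    (hrel : 256 * (t ^ 2 - t + 1) ^ 3 = j * (t ^ 2 * (t - 1) ^ 2))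
    (hG : IsGaussAt R π j 𝒱) : IsGaussAt R π t 𝒱 := by
  have hR : ∀ r : R, algebraMap R E r ∈ 𝒱 := by
    intro r
    have := hG.1 (C r)
    rwa [aeval_C] at this
  have hj : j ∈ 𝒱 := by
    have := hG.1 X
    rwa [aeval_X] at this
  have ht : t ∈ 𝒱 := mem_of_isIntegral_adjoin_of_mem hR hj (legendre_isIntegral_adjoin h2 hrel)
  refine isGaussAt_of_rel hπ (256 * (X ^ 2 - X + 1) ^ 3) (X ^ 2 * (X - 1) ^ 2)
    (1 - 3 * (X ^ 2 - X)) (256 * (6 + 8 * (X ^ 2 - X) + 3 * (X ^ 2 - X) ^ 2)) ((2 : R) ^ 8)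
    (h2.pow 8) ?_ ?_ ht hG
  · rw [map_pow, map_ofNat]
    ring
  · simp only [map_mul, map_pow, map_sub, map_add, aeval_X, map_one, map_ofNat]
    rw [hrel]
    ring

/-- **GAUSSUP, Hesse**: a `j`-Gauss valuation subring is `t`-Gauss for the Hesse coordinate. -/
theorem hesse_isGaussAt (hπ : Irreducible π) (h3 : IsUnit (3 : R)) {t j : E}
    (hrel : 27 * t ^ 3 * (t ^ 3 + 8) ^ 3 = j * (t ^ 3 - 1) ^ 3)
    (hG : IsGaussAt R π j 𝒱) : IsGaussAt R π t 𝒱 := by
  have hR : ∀ r : R, algebraMap R E r ∈ 𝒱 := by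
    intro r
    have := hG.1 (C r)
    rwa [aeval_C] at this
  have hj : j ∈ 𝒱 := by
    have := hG.1 X
    rwa [aeval_X] at this
  have ht : t ∈ 𝒱 := mem_of_isIntegral_adjoin_of_mem hR hj (hesse_isIntegral_adjoin h3 hrel)
  refine isGaussAt_of_rel hπ (27 * X ^ 3 * (X ^ 3 + 8) ^ 3) ((X ^ 3 - 1) ^ 3)
    (38 * (X ^ 3 - 1) ^ 2 - 36 * (X ^ 3 - 1) + 27)
    (-(27 * (38 * (X ^ 3 - 1) ^ 3 + 1028 * (X ^ 3 - 1) ^ 2 + 9279 * (X ^ 3 - 1) + 27972)))
    ((3 : R) ^ 12) (h3.pow 12) ?_ ?_ ht hG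
  · rw [map_pow, map_ofNat]
    ring
  · simp only [map_mul, map_pow, map_sub, map_add, aeval_X, map_one, map_ofNat]
    rw [hrel]
    ring

end Abstract

end Fermat.Agent.SS
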