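/-
(SS-q) MODEL-GLOBAL leaf [HART] — helper4.  Hartogs for a two-sheeted chart `B = chartOne R E u`
(VERT setting):
* `IsTwoSheet.inv` : the two-sheet data for the coordinate `u⁻¹`;
* (G) `IsTwoSheet.mem_chartOne_of_forall` : an element of `E` lying in both sheets `W_∞`, `W_0` and in
  every "horizontal" valuation subring containing the chart lies in the chart;
* (L) `IsTwoSheet.mem_locRing_of_forall` : the same at a prime `𝔪` of the chart (conclusion in the
  local ring `locRing B 𝔪`, i.e. `∃ r s : B, s ∉ 𝔪 ∧ x * s = r`);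
* the one-sheet lemma at a level of good reduction: `GeoHyps.valuation_lt_one_iff_mem_span`
  (`V_M`-non-units of the chart are the multiples of `π`) and `GeoHyps.exists_mul_eq_of_mem`
  (`V_M` is the local ring of the chart at `(π)`).
-/
import Mathlib
import Fermat.Agent.SS.EXPORT_helper4_Loc
import Fermat.Agent.SS.ETALE_helper3_Main
import Fermat.Agent.JA.CHARTADJ_helper6_Adjoin

set_option autoImplicit false
set_option linter.unusedSectionVars false
set_option linter.style.haveILetI false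

namespace Fermat.Agent.SS

open Fermat.Agent.JA Polynomial

section Hart

variable {R : Type*} [CommRing R] [IsDomain R] [IsDiscreteValuationRing R] [CharZero R]
  {K₁ : Type*} [Field K₁] [Algebra R K₁] [IsFractionRing R K₁]
  {K : Type*} [Field K] [Algebra K₁ K] [Algebra R K] [IsScalarTower R K₁ K]
  {E : Type*} [Field E] [Algebra K E] [Algebra R E] [IsScalarTower R K E] [FiniteDimensional K E]
  {π : R} {u : K} {Winf W0 : ValuationSubring E}

/-- the two-sheet data for the coordinate `u⁻¹`. -/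
theorem IsTwoSheet.inv (h : IsTwoSheet π u Winf W0) (hπ : Irreducible π) :
    IsTwoSheet π u⁻¹ Winf W0 where
  ne := h.ne
  gauss_inf := isGaussAt_inv π hπ.prime u _ h.gauss_inf
  gauss_zero := isGaussAt_inv π hπ.prime u _ h.gauss_zero
  only := fun W hW => h.only W (by
    have := isGaussAt_inv π hπ.prime u⁻¹ _ hW
    rwa [inv_inv] at this)
  e_inf := h.e_inf
  e_zero := h.e_zero

/-- the valuation subring dominating the local ring of the chart at a horizontal prime of height
one is that local ring; it contains `π⁻¹`. -/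
theorem exists_horizontal_valuationSubring (hu : Transcendental K₁ u)
    (hK : IntermediateField.adjoin K₁ {u} = ⊤) (𝔮 : Ideal ↥(chartOne R E u)) [h𝔮 : 𝔮.IsPrime]
    (hh : 𝔮.height = 1) (hπ𝔮 : algebraMap R ↥(chartOne R E u) π ∉ 𝔮) :
    ∃ V : ValuationSubring E, (algebraMap R E π)⁻¹ ∈ V ∧ (∀ b ∈ chartOne R E u, b ∈ V) ∧
      (∀ b : ↥(chartOne R E u), V.valuation (b : E) < 1 → b ∈ 𝔮) ∧
      ∀ x ∈ V, x ∈ locRing (chartOne R E u) 𝔮 := by
  haveI : IsFractionRing ↥(chartOne R E u) E := isFractionRing_chartOne (K₁ := K₁) u hK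
  haveI : IsIntegrallyClosed ↥(chartOne R E u) := isIntegrallyClosed_chartOne (K₁ := K₁) u hK
  haveI : IsNoetherianRing ↥(chartOne R E u) := isNoetherianRing_chartOne (K₁ := K₁) u hu hK
  obtain ⟨V, hV1, hV2, hV3⟩ := exists_valuationSubring_dominating (chartOne R E u) 𝔮
  refine ⟨V, hV2 _ hπ𝔮, hV1, fun b hb => ?_, fun x hx =>
    mem_locRing_of_mem_valuationSubring_of_height_one hh V hV2 hV3 hx⟩
  by_contra hb𝔮
  have h1 : (b : E)⁻¹ ∈ V := hV2 b hb𝔮
  have hb0 : (b : E) ≠ 0 := by
    intro h0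
    apply hb𝔮
    have : b = 0 := Subtype.ext h0
    rw [this]; exact 𝔮.zero_mem
  exact (TwoExt.val_lt_one_iff_inv_not_mem V hb0).mp hb h1

/-- **[HART] (L)**: local Hartogs for a two-sheeted chart. -/
theorem IsTwoSheet.mem_locRing_of_forall (h : IsTwoSheet π u Winf W0) (hπ : Irreducible π)
    (hu : Transcendental K₁ u) (hK : IntermediateField.adjoin K₁ {u} = ⊤)
    (𝔪 : Ideal ↥(chartOne R E u)) [h𝔪 : 𝔪.IsPrime] (x : E)
    (hxinf : sheetIdeal u Winf h.chart_le_inf ≤ 𝔪 → x ∈ Winf)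
    (hx0 : sheetIdeal u W0 h.chart_le_zero ≤ 𝔪 → x ∈ W0)
    (hhor : ∀ V : ValuationSubring E, (algebraMap R E π)⁻¹ ∈ V → (∀ b ∈ chartOne R E u, b ∈ V) →
      (∀ b : ↥(chartOne R E u), V.valuation (b : E) < 1 → b ∈ 𝔪) → x ∈ V) :
    x ∈ locRing (chartOne R E u) 𝔪 := by
  haveI : IsFractionRing ↥(chartOne R E u) E := isFractionRing_chartOne (K₁ := K₁) u hK
  haveI : IsIntegrallyClosed ↥(chartOne R E u) := isIntegrallyClosed_chartOne (K₁ := K₁) u hK
  haveI : IsNoetherianRing ↥(chartOne R E u) := isNoetherianRing_chartOne (K₁ := K₁) u hu hK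
  refine mem_locRing_of_forall_height_one x (fun 𝔮 h𝔮 hh hle => ?_)
  haveI := h𝔮
  by_cases hπ𝔮 : algebraMap R ↥(chartOne R E u) π ∈ 𝔮
  · rcases h.eq_or_eq_of_height_one hπ hu hK 𝔮 hh hπ𝔮 with hP | hP
    · obtain ⟨r, s, hs, hrs⟩ := h.exists_mul_eq_of_mem_inf hπ hu hK x (hxinf (hP ▸ hle))
      exact ⟨r, s, hP ▸ hs, hrs⟩
    · obtain ⟨r, s, hs, hrs⟩ := h.exists_mul_eq_of_mem_zero hπ hu hK x (hx0 (hP ▸ hle))
      exact ⟨r, s, hP ▸ hs, hrs⟩
  · obtain ⟨V, hV1, hV2, hV3, hV4⟩ := exists_horizontal_valuationSubring hu hK 𝔮 hh hπ𝔮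
    exact hV4 x (hhor V hV1 hV2 (fun b hb => hle (hV3 b hb)))

/-- **[HART] (G)**: Hartogs for a two-sheeted chart. -/
theorem IsTwoSheet.mem_chartOne_of_forall (h : IsTwoSheet π u Winf W0) (hπ : Irreducible π)
    (hu : Transcendental K₁ u) (hK : IntermediateField.adjoin K₁ {u} = ⊤) (x : E)
    (hxinf : x ∈ Winf) (hx0 : x ∈ W0)
    (hhor : ∀ V : ValuationSubring E, (algebraMap R E π)⁻¹ ∈ V → (∀ b ∈ chartOne R E u, b ∈ V) →
      x ∈ V) :
    x ∈ chartOne R E u := by
  haveI : IsFractionRing ↥(chartOne R E u) E := isFractionRing_chartOne (K₁ := K₁) u hK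
  haveI : IsIntegrallyClosed ↥(chartOne R E u) := isIntegrallyClosed_chartOne (K₁ := K₁) u hK
  haveI : IsNoetherianRing ↥(chartOne R E u) := isNoetherianRing_chartOne (K₁ := K₁) u hu hK
  have hmem : x ∈ (algebraMap ↥(chartOne R E u) E).range := by
    apply mem_range_algebraMap_of_forall_height_one
    intro 𝔮 h𝔮 hh
    haveI := h𝔮
    by_cases hπ𝔮 : algebraMap R ↥(chartOne R E u) π ∈ 𝔮
    · rcases h.eq_or_eq_of_height_one hπ hu hK 𝔮 hh hπ𝔮 with hP | hP
      · obtain ⟨r, s, hs, hrs⟩ := h.exists_mul_eq_of_mem_inf hπ hu hK x hxinf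
        exact ⟨r, s, hP ▸ hs, hrs⟩
      · obtain ⟨r, s, hs, hrs⟩ := h.exists_mul_eq_of_mem_zero hπ hu hK x hx0
        exact ⟨r, s, hP ▸ hs, hrs⟩
    · obtain ⟨V, hV1, hV2, -, hV4⟩ := exists_horizontal_valuationSubring hu hK 𝔮 hh hπ𝔮
      exact hV4 x (hhor V hV1 hV2)
  obtain ⟨b, rfl⟩ := hmem
  exact b.2

end Hart

section OneSheet

variable {R : Type*} [CommRing R] [IsDomain R] [IsDiscreteValuationRing R] [CharZero R]
  {K₁ : Type*} [Field K₁] [Algebra R K₁] [IsFractionRing R K₁]
  {K : Type*} [Field K] [Algebra K₁ K] [Algebra R K] [IsScalarTower R K₁ K]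
  {E : Type*} [Field E] [Algebra K E] [Algebra K₁ E] [IsScalarTower K₁ K E]
  [Algebra R E] [IsScalarTower R K E]
  {π : R} {t : K} {n : ℕ} {S : Finset R}

/-- at a level of good reduction the Gauss valuation has a unique extension. -/
theorem GeoHyps.valuationSubring_unique (h : GeoHyps K₁ π t E n S) {V V' : ValuationSubring E}
    (hG : IsGaussAt R π t (V.comap (algebraMap K E)))
    (hG' : IsGaussAt R π t (V'.comap (algebraMap K E))) : V = V' := by
  haveI := h.finite
  have hπ := h.irreducible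
  have hu := h.transcendental
  have hK := h.adjoin_eq_top
  set 𝒢 := V.comap (algebraMap K E) with h𝒢def
  have h𝒢 : V'.comap (algebraMap K E) = 𝒢 := isGaussAt_unique π hπ t hu hK hG' hG
  haveI : IsDiscreteValuationRing ↥𝒢 := isDiscreteValuationRing_of_isGaussAt π hπ t hu hK hG
  have hinj : Function.Injective (algebraMap R K) := by
    rw [IsScalarTower.algebraMap_eq R K₁ K]
    exact (algebraMap K₁ K).injective.comp (IsFractionRing.injective R K₁)
  haveI : CharZero K := charZero_of_injective_algebraMap hinj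
  haveI : Algebra.IsSeparable K E := Algebra.IsAlgebraic.isSeparable_of_perfectField
  have hExt : TwoExt.IsExt 𝒢 V := rfl
  have hExt' : TwoExt.IsExt 𝒢 V' := h𝒢
  haveI : IsLocalRing ↥(TwoExt.intCl E 𝒢) := GeoHyps.isLocalRing h 𝒢 hG
  have h1 : TwoExt.center hExt = IsLocalRing.maximalIdeal _ :=
    IsLocalRing.eq_maximalIdeal (TwoExt.center_isMaximal hExt)
  have h2 : TwoExt.center hExt' = IsLocalRing.maximalIdeal _ :=
    IsLocalRing.eq_maximalIdeal (TwoExt.center_isMaximal hExt')
  exact TwoExt.eq_of_center_eq hExt hExt' (h1.trans h2.symm)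

/-- **the one-sheet lemma**: at a level of good reduction, the non-units of the extension `V_M` of
the Gauss valuation in the chart are the multiples of `π`. -/
theorem GeoHyps.valuation_lt_one_iff_mem_span (h : GeoHyps K₁ π t E n S) (VM : ValuationSubring E)
    (hG : IsGaussAt R π t (VM.comap (algebraMap K E))) (b : ↥(chartOne R E t)) :
    VM.valuation (b : E) < 1 ↔ b ∈ Ideal.span {algebraMap R ↥(chartOne R E t) π} := by
  haveI := h.finite
  have hπ := h.irreducible
  have hu := h.transcendental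
  have hK := h.adjoin_eq_top
  haveI hP : (Ideal.span {algebraMap R ↥(chartOne R E t) π}).IsPrime := GeoHyps.span_isPrime h
  have hπE : algebraMap R E π ≠ 0 := algebraMap_pi_ne_zero (K₁ := K₁) (K := K) hπ
  have hmin : Ideal.span {algebraMap R ↥(chartOne R E t) π} ∈
      (Ideal.span {algebraMap R ↥(chartOne R E t) π}).minimalPrimes := by
    rw [Ideal.minimalPrimes_eq_subsingleton_self]; rfl
  have hPh := height_eq_one_of_mem_minimalPrimes_chartOne (K₁ := K₁) t hu hK π hπE _ hmin
  obtain ⟨V', hG', hPV'⟩ := exists_isGaussAt_eq_sheetIdeal hπ hu hK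
    (Ideal.span {algebraMap R ↥(chartOne R E t) π}) hPh (Ideal.subset_span rfl)
  have hVV' : VM = V' := GeoHyps.valuationSubring_unique h hG hG'
  subst hVV'
  rw [hPV', mem_sheetIdeal_iff]

/-- **(V5) at a level of good reduction**: `V_M` is the local ring of the chart at `(π)`. -/
theorem GeoHyps.exists_mul_eq_of_mem (h : GeoHyps K₁ π t E n S) (VM : ValuationSubring E)
    (hG : IsGaussAt R π t (VM.comap (algebraMap K E))) (x : E) (hx : x ∈ VM) :
    ∃ r s : ↥(chartOne R E t), s ∉ Ideal.span {algebraMap R ↥(chartOne R E t) π} ∧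
      x * (s : E) = (r : E) := by
  haveI := h.finite
  obtain ⟨r, s, hs, hrs⟩ := exists_mul_eq_of_mem_of_isGaussAt h.irreducible h.transcendental
    h.adjoin_eq_top hG x hx
  refine ⟨r, s, fun hmem => hs ?_, hrs⟩
  rw [mem_sheetIdeal_iff]
  exact (GeoHyps.valuation_lt_one_iff_mem_span h VM hG s).mpr hmem

end OneSheet

end Fermat.Agent.SS
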