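/-
(SS-q) MODEL-GLOBAL leaf [CUSPT] — helper3 — part 1: **the cusps of the Legendre and Hesse
coordinates, pure field algebra.**

`O` an integrally closed "local" subring of a field `E` (`a + b = 1 ⇒ a` or `b` is a unit),
`j⁻¹ ∈ O`, `j ∉ O` (a cuspidal point). If `t` satisfies the Legendre relation
`256 (t² - t + 1)³ = j t² (t - 1)²` (resp. the Hesse relation `27 t³ (t³ + 8)³ = j (t³ - 1)³`), then
`t ∈ O` or `t⁻¹ ∈ O` (with the unit clauses needed downstream).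

* `legendre_mem_or_inv_mem`, `hesse_mem_or_inv_mem` (helper7's literals).
-/
import Mathlib

set_option autoImplicit false
set_option linter.unusedSectionVars false
set_option linter.unusedVariables false

open Polynomial

namespace Fermat.Agent.SS

section CuspT

variable {E : Type*} [Field E]

/-- elements of `O` are integral over `O`. -/
theorem isIntegral_of_mem_subring (O : Subring E) {x : E} (hx : x ∈ O) : IsIntegral ↥O x := by
  have : x = algebraMap ↥O E ⟨x, hx⟩ := rfl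
  rw [this]
  exact isIntegral_algebraMap

/-- a square root of an element of an integrally closed subring lies in it. -/
theorem mem_of_sq_mem_subring (O : Subring E) (hic : ∀ x : E, IsIntegral ↥O x → x ∈ O) {x : E}
    (hx : x ^ 2 ∈ O) : x ∈ O :=
  hic x (IsIntegral.of_pow (by norm_num : 0 < 2) (isIntegral_of_mem_subring O hx))

/-- a cube root of an element of an integrally closed subring lies in it. -/
theorem mem_of_cube_mem_subring (O : Subring E) (hic : ∀ x : E, IsIntegral ↥O x → x ∈ O) {x : E}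
    (hx : x ^ 3 ∈ O) : x ∈ O :=
  hic x (IsIntegral.of_pow (by norm_num : 0 < 3) (isIntegral_of_mem_subring O hx))

/-- a root of `X (X - 1)² = w`, `w ∈ O`, lies in the integrally closed subring `O`. -/
theorem mem_of_cubic_subring (O : Subring E) (hic : ∀ x : E, IsIntegral ↥O x → x ∈ O) {x w : E}
    (hw : w ∈ O) (hx : x * (x - 1) ^ 2 = w) : x ∈ O := by
  apply hic
  refine ⟨X ^ 3 + (-2 * X ^ 2 + X - C (⟨w, hw⟩ : ↥O)), ?_, ?_⟩
  · apply monic_X_pow_add
    have h : (-2 * X ^ 2 + X - C (⟨w, hw⟩ : ↥O) : (↥O)[X]).natDegree ≤ 2 := by compute_degree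
    exact lt_of_le_of_lt (degree_le_of_natDegree_le h) (by exact_mod_cast (by norm_num : (2 : ℕ) < 3))
  · have hw' : algebraMap ↥O E ⟨w, hw⟩ = w := rfl
    simp only [eval₂_add, eval₂_sub, eval₂_mul, eval₂_pow, eval₂_X, eval₂_C, eval₂_neg, eval₂_ofNat,
      hw']
    rw [← hx]
    ring

/-- a root of `X⁴ + 8 u X³ - X + u`, `u ∈ O`, lies in the integrally closed subring `O`. -/
theorem mem_of_quartic_subring (O : Subring E) (hic : ∀ x : E, IsIntegral ↥O x → x ∈ O) {x u : E}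
    (hu : u ∈ O) (hx : x ^ 4 + 8 * u * x ^ 3 - x + u = 0) : x ∈ O := by
  apply hic
  refine ⟨X ^ 4 + (8 * C (⟨u, hu⟩ : ↥O) * X ^ 3 - X + C (⟨u, hu⟩ : ↥O)), ?_, ?_⟩
  · apply monic_X_pow_add
    have h : (8 * C (⟨u, hu⟩ : ↥O) * X ^ 3 - X + C (⟨u, hu⟩ : ↥O) : (↥O)[X]).natDegree ≤ 3 := by
      compute_degree
    exact lt_of_le_of_lt (degree_le_of_natDegree_le h) (by exact_mod_cast (by norm_num : (3 : ℕ) < 4))
  · have hu' : algebraMap ↥O E ⟨u, hu⟩ = u := rfl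
    simp only [eval₂_add, eval₂_sub, eval₂_mul, eval₂_pow, eval₂_X, eval₂_C, eval₂_ofNat, hu']
    rw [← hx]
    ring

/-- **(CUSPT, Legendre)** at a cuspidal point of an integrally closed local subring the Legendre
coordinate or its inverse is regular. -/
theorem legendre_mem_or_inv_mem (O : Subring E) (hic : ∀ x : E, IsIntegral ↥O x → x ∈ O)
    (hloc : ∀ a ∈ O, ∀ b ∈ O, a + b = 1 → a⁻¹ ∈ O ∨ b⁻¹ ∈ O)
    (h2 : (2 : E)⁻¹ ∈ O) (h20 : (2 : E) ≠ 0) {j t : E} (hj : j ≠ 0) (hjO : j⁻¹ ∈ O) (hjO' : j ∉ O)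
    (hrel : 256 * (t ^ 2 - t + 1) ^ 3 = j * (t ^ 2 * (t - 1) ^ 2)) :
    (t ∈ O ∧ (t ^ 2 - t + 1)⁻¹ ∈ O) ∨ (t⁻¹ ∈ O ∧ ((t⁻¹) ^ 2 - t⁻¹ + 1)⁻¹ ∈ O) := by
  have h256 : (256 : E) ≠ 0 := by
    have : (256 : E) = 2 ^ 8 := by norm_num
    rw [this]; exact pow_ne_zero _ h20
  have ht0 : t ≠ 0 := by
    rintro rfl
    apply h256
    have : (256 : E) * (0 ^ 2 - 0 + 1) ^ 3 = j * (0 ^ 2 * (0 - 1) ^ 2) := hrel
    simpa using this
  have ht1 : t - 1 ≠ 0 := by
    intro h1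
    have ht : t = 1 := sub_eq_zero.mp h1
    subst ht
    apply h256
    simpa using hrel
  have hD : t ^ 2 - t + 1 ≠ 0 := by
    intro hD0
    rw [hD0] at hrel
    have : j * (t ^ 2 * (t - 1) ^ 2) = 0 := by rw [← hrel]; ring
    rcases mul_eq_zero.mp this with h | h
    · exact hj h
    · rcases mul_eq_zero.mp h with h | h
      · exact ht0 (pow_eq_zero_iff (by norm_num) |>.mp h)
      · exact ht1 (pow_eq_zero_iff (by norm_num) |>.mp h)
  set D := t ^ 2 - t + 1 with hDdef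
  have hw : 256 * j⁻¹ ∈ O := by
    have h256O : (256 : E) ∈ O := by
      have : (256 : E) = ((256 : ℕ) : E) := by norm_num
      rw [this]; exact natCast_mem O 256
    exact O.mul_mem h256O hjO
  have hkey : t ^ 2 * (t - 1) ^ 2 * (D ^ 3)⁻¹ = 256 * j⁻¹ := by
    field_simp
    linear_combination -hrel
  -- the three roots of `X (X - 1)² = 256 / j`
  have hc : D⁻¹ ∈ O := by
    refine mem_of_cubic_subring O hic hw ?_
    rw [← hkey]
    field_simp
    ring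
  have ha : t ^ 2 * D⁻¹ ∈ O := by
    refine mem_of_cubic_subring O hic hw ?_
    rw [← hkey]
    field_simp
    ring
  have hb : (t - 1) ^ 2 * D⁻¹ ∈ O := by
    refine mem_of_cubic_subring O hic hw ?_
    rw [← hkey]
    field_simp
    ring
  have hsum : (t ^ 2 * D⁻¹) * ((t - 1) ^ 2 * D⁻¹) +
      D⁻¹ * (t ^ 2 * D⁻¹ + (t - 1) ^ 2 * D⁻¹) = 1 := by
    field_simp
    ring
  by_cases hcu : D ∈ O
  · left
    refine ⟨mem_of_sq_mem_subring O hic ?_, hc⟩
    have : t ^ 2 = t ^ 2 * D⁻¹ * D := by field_simp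
    rw [this]
    exact O.mul_mem ha hcu
  · right
    have ha0 : t ^ 2 * D⁻¹ ≠ 0 := mul_ne_zero (pow_ne_zero _ ht0) (inv_ne_zero hD)
    have hb0 : (t - 1) ^ 2 * D⁻¹ ≠ 0 := mul_ne_zero (pow_ne_zero _ ht1) (inv_ne_zero hD)
    have hainv : (t ^ 2 * D⁻¹)⁻¹ ∈ O := by
      rcases hloc _ (O.mul_mem ha hb) _ (O.mul_mem hc (O.add_mem ha hb)) hsum with h | h
      · have : (t ^ 2 * D⁻¹)⁻¹ =
            ((t - 1) ^ 2 * D⁻¹) * ((t ^ 2 * D⁻¹) * ((t - 1) ^ 2 * D⁻¹))⁻¹ := by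
          field_simp
        rw [this]
        exact O.mul_mem hb h
      · by_cases hab : t ^ 2 * D⁻¹ + (t - 1) ^ 2 * D⁻¹ = 0
        · have h1 : (t ^ 2 * D⁻¹) * ((t - 1) ^ 2 * D⁻¹) = 1 := by
            rw [hab, mul_zero, add_zero] at hsum
            exact hsum
          have : (t ^ 2 * D⁻¹)⁻¹ = (t - 1) ^ 2 * D⁻¹ := inv_eq_of_mul_eq_one_right h1
          rw [this]
          exact hb
        · exfalso
          apply hcu
          have hgen : ∀ A : E, A ≠ 0 → D = A * (D⁻¹ * A)⁻¹ := fun A hA => by field_simp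
          have : D = (t ^ 2 * D⁻¹ + (t - 1) ^ 2 * D⁻¹) *
              (D⁻¹ * (t ^ 2 * D⁻¹ + (t - 1) ^ 2 * D⁻¹))⁻¹ := hgen _ hab
          rw [this]
          exact O.mul_mem (O.add_mem ha hb) h
    have hD' : (t⁻¹) ^ 2 - t⁻¹ + 1 = D * (t ^ 2)⁻¹ := by
      rw [hDdef]
      field_simp
      ring
    refine ⟨mem_of_sq_mem_subring O hic ?_, ?_⟩
    · have : t⁻¹ ^ 2 = D⁻¹ * (t ^ 2 * D⁻¹)⁻¹ := by
        field_simp
      rw [this]
      exact O.mul_mem hc hainv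
    · rw [hD']
      have : (D * (t ^ 2)⁻¹)⁻¹ = t ^ 2 * D⁻¹ := by
        field_simp
      rw [this]
      exact ha

/-- **(CUSPT, Hesse)**. -/
theorem hesse_mem_or_inv_mem (O : Subring E) (hic : ∀ x : E, IsIntegral ↥O x → x ∈ O)
    (hloc : ∀ a ∈ O, ∀ b ∈ O, a + b = 1 → a⁻¹ ∈ O ∨ b⁻¹ ∈ O)
    (h3 : (3 : E)⁻¹ ∈ O) (h30 : (3 : E) ≠ 0) {j t : E} (hj : j ≠ 0) (hjO : j⁻¹ ∈ O) (hjO' : j ∉ O)
    (hrel : 27 * t ^ 3 * (t ^ 3 + 8) ^ 3 = j * (t ^ 3 - 1) ^ 3) :
    (t ∈ O ∧ (t * (t ^ 3 + 8))⁻¹ ∈ O) ∨ (t⁻¹ ∈ O ∧ (1 + 8 * (t⁻¹) ^ 3)⁻¹ ∈ O) := by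
  have h27 : (27 : E) ≠ 0 := by
    have : (27 : E) = 3 ^ 3 := by norm_num
    rw [this]; exact pow_ne_zero _ h30
  have h9 : (9 : E) ≠ 0 := by
    have : (9 : E) = 3 ^ 2 := by norm_num
    rw [this]; exact pow_ne_zero _ h30
  have ht0 : t ≠ 0 := by
    rintro rfl
    apply hj
    have : (27 : E) * 0 ^ 3 * (0 ^ 3 + 8) ^ 3 = j * (0 ^ 3 - 1) ^ 3 := hrel
    have h2 : j * (-1) = 0 := by
      have h3 : j * (0 ^ 3 - 1) ^ 3 = j * (-1) := by ring
      rw [← h3, ← this]; ring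
    simpa using h2
  have hy : t ^ 3 - 1 ≠ 0 := by
    intro h0
    rw [h0] at hrel
    have h1 : t ^ 3 = 1 := sub_eq_zero.mp h0
    rw [h1] at hrel
    have : (27 : E) * 1 * (1 + 8) ^ 3 = 0 := by rw [hrel]; ring
    have h2 : (27 : E) * 1 * (1 + 8) ^ 3 = 27 * 9 ^ 3 := by norm_num
    rw [h2] at this
    exact (mul_ne_zero h27 (pow_ne_zero _ h9)) this
  have h8 : t ^ 3 + 8 ≠ 0 := by
    intro h0
    rw [h0] at hrel
    have : j * (t ^ 3 - 1) ^ 3 = 0 := by rw [← hrel]; ring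
    rcases mul_eq_zero.mp this with h | h
    · exact hj h
    · exact hy (pow_eq_zero_iff (by norm_num) |>.mp h)
  set u := (t ^ 3 - 1) * (t * (t ^ 3 + 8))⁻¹ with hu
  have h27O : (27 : E) ∈ O := by
    have : (27 : E) = ((27 : ℕ) : E) := by norm_num
    rw [this]; exact natCast_mem O 27
  have hu3 : u ^ 3 = 27 * j⁻¹ := by
    rw [hu]
    field_simp
    linear_combination -hrel
  have huO : u ∈ O := mem_of_cube_mem_subring O hic (by rw [hu3]; exact O.mul_mem h27O hjO)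
  have hu0 : u ≠ 0 := mul_ne_zero hy (inv_ne_zero (mul_ne_zero ht0 h8))
  -- `u` is not a unit of `O`
  have hunu : u⁻¹ ∉ O := by
    intro h
    apply hjO'
    have h27inv : (27 : E)⁻¹ ∈ O := by
      have : (27 : E)⁻¹ = (3 : E)⁻¹ ^ 3 := by rw [inv_pow]; norm_num
      rw [this]; exact O.pow_mem h3 3
    have : j = 27 * (u⁻¹) ^ 3 := by
      rw [inv_pow, hu3]
      field_simp
    rw [this]
    exact O.mul_mem h27O (O.pow_mem h 3)
  -- `t⁻¹ ∈ O`
  have hr : t⁻¹ ∈ O := by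
    refine mem_of_quartic_subring O hic huO ?_
    rw [hu]
    field_simp
    ring
  have h9inv : (9 : E)⁻¹ ∈ O := by
    have : (9 : E)⁻¹ = (3 : E)⁻¹ ^ 2 := by rw [inv_pow]; norm_num
    rw [this]; exact O.pow_mem h3 2
  by_cases htO : t ∈ O
  · left
    refine ⟨htO, ?_⟩
    have hvO : t * (t ^ 3 + 8) ∈ O := by
      refine O.mul_mem htO (O.add_mem (O.pow_mem htO 3) ?_)
      have : (8 : E) = ((8 : ℕ) : E) := by norm_num
      rw [this]; exact natCast_mem O 8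
    have hxy : (t ^ 3 + 8) * 9⁻¹ + (1 - t ^ 3) * 9⁻¹ = 1 := by
      field_simp
      ring
    have hxO : (t ^ 3 + 8) * 9⁻¹ ∈ O := by
      refine O.mul_mem (O.add_mem (O.pow_mem htO 3) ?_) h9inv
      have : (8 : E) = ((8 : ℕ) : E) := by norm_num
      rw [this]; exact natCast_mem O 8
    have hyO : (1 - t ^ 3) * 9⁻¹ ∈ O :=
      O.mul_mem (O.sub_mem O.one_mem (O.pow_mem htO 3)) h9inv
    rcases hloc _ hxO _ hyO hxy with h | h
    · have : (t * (t ^ 3 + 8))⁻¹ = t⁻¹ * (((t ^ 3 + 8) * 9⁻¹)⁻¹ * 9⁻¹) := by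
        field_simp
      rw [this]
      exact O.mul_mem hr (O.mul_mem h h9inv)
    · exfalso
      apply hunu
      have hy' : 1 - t ^ 3 ≠ 0 := by
        intro h0
        apply hy
        rw [← neg_eq_zero]
        rw [← h0]
        ring
      have : u⁻¹ = -(t * (t ^ 3 + 8)) * 9⁻¹ * ((1 - t ^ 3) * 9⁻¹)⁻¹ := by
        rw [hu]
        field_simp
        ring
      rw [this]
      exact O.mul_mem (O.mul_mem (O.neg_mem hvO) h9inv) h
  · right
    refine ⟨hr, ?_⟩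
    by_cases h8E : (8 : E) = 0
    · rw [h8E, zero_mul, add_zero, inv_one]
      exact O.one_mem
    have h8O : (8 : E) ∈ O := by
      have : (8 : E) = ((8 : ℕ) : E) := by norm_num
      rw [this]; exact natCast_mem O 8
    have hsum : (1 + 8 * (t⁻¹) ^ 3) + (-(8 * (t⁻¹) ^ 3)) = 1 := by ring
    rcases hloc _ (O.add_mem O.one_mem (O.mul_mem h8O (O.pow_mem hr 3))) _
      (O.neg_mem (O.mul_mem h8O (O.pow_mem hr 3))) hsum with h | h
    · exact h
    · exfalso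
      apply htO
      have : t = -(8 * (t⁻¹) ^ 2) * (-(8 * (t⁻¹) ^ 3))⁻¹ := by
        field_simp
      rw [this]
      exact O.mul_mem (O.neg_mem (O.mul_mem h8O (O.pow_mem hr 2))) h

end CuspT

end Fermat.Agent.SS
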