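/-
(SS-q) MODEL-GLOBAL leaf [CUSPT] — helper3 — part 3: **the fields `t_int`, `t_sub_inv_int`, `cusp_t`
of `SSModel`** (helper7's interface) for the Legendre host `legE K₁ M` (coordinate `legT`,
`j = jqNModC K₁ 2`, `S = {0, 1}`) and the Hesse host `hesE K₁ M` (coordinate `hesT`,
`j = jqNModC K₁ 3`, `S = {1, ω, ω²}`), over any base ring `R` acting on the host.

Abstract forms (any fields `KM → EM`, relation as a hypothesis): `legendre_ssModel_fields`,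
`hesse_ssModel_fields`.
-/
import Fermat.Agent.SS.CUSPT_helper3_Abs
import Fermat.Agent.SS.CUSPT_helper3_Int
import Fermat.Agent.JA.GEOBASE_helper8_Base

set_option autoImplicit false
set_option linter.unusedSectionVars false
set_option linter.unusedVariables false
set_option linter.style.haveILetI false

open Polynomial IntermediateField ModularCurve

namespace Fermat.Agent.SS

open Fermat.Agent.JA

section AbstractFields

variable {R : Type*} [CommRing R] {KM : Type*} [Field KM] {EM : Type*} [Field EM] [Algebra KM EM]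
  [Algebra R EM]

/-- **the three cusp fields of `SSModel`, Legendre form**: from the Legendre relation between the
coordinate `t` and `jM` in `EM`. -/
theorem legendre_ssModel_fields [DecidableEq R] (h2 : IsUnit (2 : R)) (t : KM) (jM : EM)
    (hrel : 256 * ((algebraMap KM EM t) ^ 2 - algebraMap KM EM t + 1) ^ 3 =
      jM * ((algebraMap KM EM t) ^ 2 * (algebraMap KM EM t - 1) ^ 2)) :
    IsIntegral ↥(Algebra.adjoin R {jM}) (algebraMap KM EM t) ∧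
    (∀ s ∈ ({0, 1} : Finset R), IsIntegral ↥(Algebra.adjoin R {jM})
      (algebraMap KM EM t - algebraMap R EM s)⁻¹) ∧
    (∀ O : Subring EM, (∀ x : EM, IsIntegral ↥O x → x ∈ O) →
      (∀ a ∈ O, ∀ b ∈ O, a + b = 1 → a⁻¹ ∈ O ∨ b⁻¹ ∈ O) → (∀ r : R, algebraMap R EM r ∈ O) →
      jM⁻¹ ∈ O → jM ∉ O → algebraMap KM EM t ∈ O ∨ (algebraMap KM EM t)⁻¹ ∈ O) := by
  refine ⟨legendre_isIntegral_adjoin h2 hrel, legendre_isIntegral_adjoin_sub_inv h2 hrel, ?_⟩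
  intro O hic hloc hR hjO hjO'
  have hj : jM ≠ 0 := fun h => hjO' (h ▸ O.zero_mem)
  obtain ⟨u, hu⟩ := h2
  have h2E : (2 : EM) = algebraMap R EM (u : R) := by rw [hu, map_ofNat]
  have h20 : (2 : EM) ≠ 0 := by
    rw [h2E]; exact (u.isUnit.map (algebraMap R EM)).ne_zero
  have h2O : (2 : EM)⁻¹ ∈ O := by
    have : (2 : EM)⁻¹ = algebraMap R EM ((u⁻¹ : Rˣ) : R) := by
      rw [h2E]
      apply inv_eq_of_mul_eq_one_right
      rw [← map_mul, Units.mul_inv, map_one]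
    rw [this]; exact hR _
  rcases legendre_mem_or_inv_mem O hic hloc h2O h20 hj hjO hjO' hrel with h | h
  · exact Or.inl h.1
  · exact Or.inr h.1

/-- **the three cusp fields of `SSModel`, Hesse form**. -/
theorem hesse_ssModel_fields [DecidableEq R] (h3 : IsUnit (3 : R)) (ω : R) (hω : ω ^ 2 + ω + 1 = 0)
    (t : KM) (jM : EM)
    (hrel : 27 * (algebraMap KM EM t) ^ 3 * ((algebraMap KM EM t) ^ 3 + 8) ^ 3 =
      jM * ((algebraMap KM EM t) ^ 3 - 1) ^ 3) :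
    IsIntegral ↥(Algebra.adjoin R {jM}) (algebraMap KM EM t) ∧
    (∀ s ∈ ({1, ω, ω ^ 2} : Finset R), IsIntegral ↥(Algebra.adjoin R {jM})
      (algebraMap KM EM t - algebraMap R EM s)⁻¹) ∧
    (∀ O : Subring EM, (∀ x : EM, IsIntegral ↥O x → x ∈ O) →
      (∀ a ∈ O, ∀ b ∈ O, a + b = 1 → a⁻¹ ∈ O ∨ b⁻¹ ∈ O) → (∀ r : R, algebraMap R EM r ∈ O) →
      jM⁻¹ ∈ O → jM ∉ O → algebraMap KM EM t ∈ O ∨ (algebraMap KM EM t)⁻¹ ∈ O) := by
  refine ⟨hesse_isIntegral_adjoin h3 hrel, hesse_isIntegral_adjoin_sub_inv h3 ω hω hrel, ?_⟩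
  intro O hic hloc hR hjO hjO'
  have hj : jM ≠ 0 := fun h => hjO' (h ▸ O.zero_mem)
  obtain ⟨u, hu⟩ := h3
  have h3E : (3 : EM) = algebraMap R EM (u : R) := by rw [hu, map_ofNat]
  have h30 : (3 : EM) ≠ 0 := by
    rw [h3E]; exact (u.isUnit.map (algebraMap R EM)).ne_zero
  have h3O : (3 : EM)⁻¹ ∈ O := by
    have : (3 : EM)⁻¹ = algebraMap R EM ((u⁻¹ : Rˣ) : R) := by
      rw [h3E]
      apply inv_eq_of_mul_eq_one_right
      rw [← map_mul, Units.mul_inv, map_one]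
    rw [this]; exact hR _
  rcases hesse_mem_or_inv_mem O hic hloc h3O h30 hj hjO hjO' hrel with h | h
  · exact Or.inl h.1
  · exact Or.inr h.1

end AbstractFields

section Hosts

open scoped Fermat.Agent.JA.Host

variable (K₁ : Type*) [Field K₁] [Algebra ℚ K₁] (M : ℕ) [NeZero M]

theorem cuspt_legT_mem_legE : legT K₁ ∈ legE K₁ M :=
  (le_sup_left : K₁⟮legT K₁⟯ ≤ legE K₁ M) (mem_adjoin_simple_self K₁ _)

theorem cuspt_hesT_mem_hesE : hesT K₁ ∈ hesE K₁ M :=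
  (le_sup_left : K₁⟮hesT K₁⟯ ≤ hesE K₁ M) (mem_adjoin_simple_self K₁ _)

theorem jqNModC_mem_legE : jqNModC K₁ 2 ∈ legE K₁ M :=
  (Fact.out : keyFw K₁ M 2 ≤ legE K₁ M) (jqNModC_mem_keyFw M 2)

theorem jqNModC_mem_hesE : jqNModC K₁ 3 ∈ hesE K₁ M :=
  (Fact.out : keyFw K₁ M 3 ≤ hesE K₁ M) (jqNModC_mem_keyFw M 3)

/-- the `j`-function of the Legendre host. -/
noncomputable def legJE : ↥(legE K₁ M) := ⟨jqNModC K₁ 2, jqNModC_mem_legE K₁ M⟩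

/-- the `j`-function of the Hesse host. -/
noncomputable def hesJE : ↥(hesE K₁ M) := ⟨jqNModC K₁ 3, jqNModC_mem_hesE K₁ M⟩

theorem coe_legJE : ((legJE K₁ M : ↥(legE K₁ M)) : LaurentSeries K₁) = jqNModC K₁ 2 := rfl

theorem coe_hesJE : ((hesJE K₁ M : ↥(hesE K₁ M)) : LaurentSeries K₁) = jqNModC K₁ 3 := rfl

/-- the Legendre relation in the host. -/
theorem legendre_rel_legE :
    256 * ((algebraMap ↥K₁⟮legT K₁⟯ ↥(legE K₁ M) (AdjoinSimple.gen K₁ (legT K₁))) ^ 2 -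
        algebraMap ↥K₁⟮legT K₁⟯ ↥(legE K₁ M) (AdjoinSimple.gen K₁ (legT K₁)) + 1) ^ 3 =
      legJE K₁ M * ((algebraMap ↥K₁⟮legT K₁⟯ ↥(legE K₁ M) (AdjoinSimple.gen K₁ (legT K₁))) ^ 2 *
        (algebraMap ↥K₁⟮legT K₁⟯ ↥(legE K₁ M) (AdjoinSimple.gen K₁ (legT K₁)) - 1) ^ 2) := by
  apply Subtype.ext
  have h := jqNModC_mul_aeval_legT K₁
  rw [Host.aeval_legA, Host.aeval_legB] at h
  have hcoe : ((algebraMap ↥K₁⟮legT K₁⟯ ↥(legE K₁ M) (AdjoinSimple.gen K₁ (legT K₁)) :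
      ↥(legE K₁ M)) : LaurentSeries K₁) = legT K₁ := rfl
  push_cast
  rw [hcoe, coe_legJE]
  exact h.symm

/-- the Hesse relation in the host. -/
theorem hesse_rel_hesE :
    27 * (algebraMap ↥K₁⟮hesT K₁⟯ ↥(hesE K₁ M) (AdjoinSimple.gen K₁ (hesT K₁))) ^ 3 *
        ((algebraMap ↥K₁⟮hesT K₁⟯ ↥(hesE K₁ M) (AdjoinSimple.gen K₁ (hesT K₁))) ^ 3 + 8) ^ 3 =
      hesJE K₁ M *
        ((algebraMap ↥K₁⟮hesT K₁⟯ ↥(hesE K₁ M) (AdjoinSimple.gen K₁ (hesT K₁))) ^ 3 - 1) ^ 3 := by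
  apply Subtype.ext
  have h := jqNModC_mul_aeval_hesT K₁
  rw [Host.aeval_hesA, Host.aeval_hesB] at h
  have hcoe : ((algebraMap ↥K₁⟮hesT K₁⟯ ↥(hesE K₁ M) (AdjoinSimple.gen K₁ (hesT K₁)) :
      ↥(hesE K₁ M)) : LaurentSeries K₁) = hesT K₁ := rfl
  push_cast
  rw [hcoe, coe_hesJE]
  exact h.symm

variable {R : Type*} [CommRing R] [DecidableEq R]

/-- **`t_int`, `t_sub_inv_int`, `cusp_t` for the Legendre host.** -/
theorem legE_ssModel_fields [Algebra R ↥(legE K₁ M)] (h2 : IsUnit (2 : R)) :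
    IsIntegral ↥(Algebra.adjoin R {legJE K₁ M})
      (algebraMap ↥K₁⟮legT K₁⟯ ↥(legE K₁ M) (AdjoinSimple.gen K₁ (legT K₁))) ∧
    (∀ s ∈ ({0, 1} : Finset R), IsIntegral ↥(Algebra.adjoin R {legJE K₁ M})
      (algebraMap ↥K₁⟮legT K₁⟯ ↥(legE K₁ M) (AdjoinSimple.gen K₁ (legT K₁)) -
        algebraMap R ↥(legE K₁ M) s)⁻¹) ∧
    (∀ O : Subring ↥(legE K₁ M), (∀ x : ↥(legE K₁ M), IsIntegral ↥O x → x ∈ O) →
      (∀ a ∈ O, ∀ b ∈ O, a + b = 1 → a⁻¹ ∈ O ∨ b⁻¹ ∈ O) →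
      (∀ r : R, algebraMap R ↥(legE K₁ M) r ∈ O) →
      (legJE K₁ M)⁻¹ ∈ O → legJE K₁ M ∉ O →
      algebraMap ↥K₁⟮legT K₁⟯ ↥(legE K₁ M) (AdjoinSimple.gen K₁ (legT K₁)) ∈ O ∨
        (algebraMap ↥K₁⟮legT K₁⟯ ↥(legE K₁ M) (AdjoinSimple.gen K₁ (legT K₁)))⁻¹ ∈ O) :=
  legendre_ssModel_fields h2 _ _ (legendre_rel_legE K₁ M)

/-- **`t_int`, `t_sub_inv_int`, `cusp_t` for the Hesse host.** -/
theorem hesE_ssModel_fields [Algebra R ↥(hesE K₁ M)] (h3 : IsUnit (3 : R)) (ω : R)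
    (hω : ω ^ 2 + ω + 1 = 0) :
    IsIntegral ↥(Algebra.adjoin R {hesJE K₁ M})
      (algebraMap ↥K₁⟮hesT K₁⟯ ↥(hesE K₁ M) (AdjoinSimple.gen K₁ (hesT K₁))) ∧
    (∀ s ∈ ({1, ω, ω ^ 2} : Finset R), IsIntegral ↥(Algebra.adjoin R {hesJE K₁ M})
      (algebraMap ↥K₁⟮hesT K₁⟯ ↥(hesE K₁ M) (AdjoinSimple.gen K₁ (hesT K₁)) -
        algebraMap R ↥(hesE K₁ M) s)⁻¹) ∧
    (∀ O : Subring ↥(hesE K₁ M), (∀ x : ↥(hesE K₁ M), IsIntegral ↥O x → x ∈ O) →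
      (∀ a ∈ O, ∀ b ∈ O, a + b = 1 → a⁻¹ ∈ O ∨ b⁻¹ ∈ O) →
      (∀ r : R, algebraMap R ↥(hesE K₁ M) r ∈ O) →
      (hesJE K₁ M)⁻¹ ∈ O → hesJE K₁ M ∉ O →
      algebraMap ↥K₁⟮hesT K₁⟯ ↥(hesE K₁ M) (AdjoinSimple.gen K₁ (hesT K₁)) ∈ O ∨
        (algebraMap ↥K₁⟮hesT K₁⟯ ↥(hesE K₁ M) (AdjoinSimple.gen K₁ (hesT K₁)))⁻¹ ∈ O) :=
  hesse_ssModel_fields h3 ω hω _ _ (hesse_rel_hesE K₁ M)

end Hosts

end Fermat.Agent.SS
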