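/-
(SS-q) HOST-B — helper8 — interface file for the leaves: the indices of determinant `w`, the
coefficient statements at level 2 (Legendre) and level 3 (Hesse), and the two purely algebraic
statements.  Leaves prove `LegCoeffStatement`, `HesCoeffStatement`, `LegAlgStatement`,
`HesAlgStatement`.
-/
import Mathlib
import Fermat.Agent.Igusa.A_helper2_Poly
import Fermat.Agent.Igusa.A_helper2_Subst

set_option autoImplicit false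

open HahnSeries ModularCurve Fermat.Agent.Igusa Polynomial

namespace Fermat.Agent.SS

noncomputable section

/-- the index `(1 b; 0 w)`. -/
def idxB (w b : ℕ) (hb : b < w) : Idx w :=
  ⟨1, b, w, one_pos, lt_of_le_of_lt (Nat.zero_le b) hb, by simp, hb⟩

/-- the index `(w 0; 0 1)` (literal form; equal to `Idx.diag w w _ _`). -/
def idxI (w : ℕ) (hw : 0 < w) : Idx w := ⟨w, 0, 1, hw, one_pos, by simp, one_pos⟩

/-- **coefficients at level 2**: with `A, B, C = φ_{(2 0;0 1)}, φ_{(1 0;0 2)}, φ_{(1 1;0 2)}` and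
`J = j(x²)`, the three series `A + B + C + 48`, `A B C + 4096`,
`A⁻¹ + B⁻¹ + C⁻¹ - (J - 768)/4096` have no terms in degrees `0, -2, -4, …`. -/
def LegCoeffStatement : Prop :=
  let A := phiSer ℂ (zetaC 2) 2 (idxI 2 (by norm_num))
  let B := phiSer ℂ (zetaC 2) 2 (idxB 2 0 (by norm_num))
  let C := phiSer ℂ (zetaC 2) 2 (idxB 2 1 (by norm_num))
  let J := jtSer ℂ 2
  (∀ m : ℕ, (A + B + C + 48).coeff (-(2 * (m : ℤ))) = 0) ∧
  (∀ m : ℕ, (A * B * C + 4096).coeff (-(2 * (m : ℤ))) = 0) ∧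
  (∀ m : ℕ, (A⁻¹ + B⁻¹ + C⁻¹ - HahnSeries.C (4096⁻¹ : ℂ) * (J - 768)).coeff
    (-(2 * (m : ℤ))) = 0)

/-- **coefficients at level 3**: with `A = φ_{(3 0;0 1)}`, `B_b = φ_{(1 b;0 3)}` and `J = j(x³)`:
`Σ φ = 756`, `Π φ = 3¹²`, `Σ φ⁻¹ = (J² - 1512 J + 177876)/3¹²`,
`Σ_{i<k} (φ_i φ_k)⁻¹ = (72 J + 19926)/3¹²`, in degrees `0, -3, -6, …`. -/
def HesCoeffStatement : Prop :=
  let A := phiSer ℂ (zetaC 3) 3 (idxI 3 (by norm_num))
  let B0 := phiSer ℂ (zetaC 3) 3 (idxB 3 0 (by norm_num))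
  let B1 := phiSer ℂ (zetaC 3) 3 (idxB 3 1 (by norm_num))
  let B2 := phiSer ℂ (zetaC 3) 3 (idxB 3 2 (by norm_num))
  let J := jtSer ℂ 3
  (∀ m : ℕ, (A + B0 + B1 + B2 - 756).coeff (-(3 * (m : ℤ))) = 0) ∧
  (∀ m : ℕ, (A * B0 * B1 * B2 - 3 ^ 12).coeff (-(3 * (m : ℤ))) = 0) ∧
  (∀ m : ℕ, (A⁻¹ + B0⁻¹ + B1⁻¹ + B2⁻¹ -
    HahnSeries.C ((3 ^ 12 : ℂ)⁻¹) * (J ^ 2 - 1512 * J + 177876)).coeff (-(3 * (m : ℤ))) = 0) ∧
  (∀ m : ℕ, (A⁻¹ * (B0⁻¹ + B1⁻¹ + B2⁻¹) + (B0⁻¹ * B1⁻¹ + B0⁻¹ * B2⁻¹ + B1⁻¹ * B2⁻¹) -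
    HahnSeries.C ((3 ^ 12 : ℂ)⁻¹) * (72 * J + 19926)).coeff (-(3 * (m : ℤ))) = 0)

/-- **Legendre algebra**: if the cubic `(X + 16)³ - j X` splits with roots `φ_i` in a subfield `M`
and `t` is a transcendental solution of `j t²(t-1)² = 256 (t²-t+1)³`, then `t ∈ M` and two distinct
roots are `-16/(t(1-t))`, `-16 t²/(t-1)`. -/
def LegAlgStatement : Prop :=
  ∀ {F : Type} [Field F] [CharZero F] (M : Subfield F) (j t : F) (φ : Fin 3 → F),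
    j ∈ M → (∀ i, φ i ∈ M) →
    (∀ X : F, (X + 16) ^ 3 - j * X = ∏ i, (X - φ i)) →
    j * (t ^ 2 * (t - 1) ^ 2) = 256 * (t ^ 2 - t + 1) ^ 3 →
    Transcendental ℚ t →
    t ∈ M ∧ ∃ i k, i ≠ k ∧ φ i = -16 / (t * (1 - t)) ∧ φ k = -16 * t ^ 2 / (t - 1)

/-- **Hesse algebra**: if the quartic
`X⁴ - 756 X³ + (72 j + 19926) X² - (j² - 1512 j + 177876) X + 3¹²` splits with roots `φ_i` in a
subfield `M`, `j - 756 - 36 φ_i ≠ 0`, and `t` is a transcendental solution of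
`j (t³-1)³ = 27 t³ (t³+8)³`, then `t ∈ M` and two distinct roots are `(27/(a-1))²` for
`a = t³` and `a = ((t+2)/(t-1))³`. -/
def HesAlgStatement : Prop :=
  ∀ {F : Type} [Field F] [CharZero F] (M : Subfield F) (j t : F) (φ : Fin 4 → F),
    j ∈ M → (∀ i, φ i ∈ M) →
    (∀ X : F, X ^ 4 - 756 * X ^ 3 + (72 * j + 19926) * X ^ 2 -
      (j ^ 2 - 1512 * j + 177876) * X + 3 ^ 12 = ∏ i, (X - φ i)) →
    (∀ i, j - 756 - 36 * φ i ≠ 0) →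
    j * (t ^ 3 - 1) ^ 3 = 27 * t ^ 3 * (t ^ 3 + 8) ^ 3 →
    Transcendental ℚ t →
    t ∈ M ∧ ∃ i k, i ≠ k ∧ φ i = (27 / (t ^ 3 - 1)) ^ 2 ∧
      φ k = (27 / (((t + 2) / (t - 1)) ^ 3 - 1)) ^ 2

end

end Fermat.Agent.SS
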