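/-
(SS-q) HOST-B — helper2 — leaves (LA) and (HA): the two purely algebraic statements of
`SS/HOSTB_helper8_Iface`: from a splitting of the Legendre cubic `(X + 16)³ - j X`
(resp. of the Hesse quartic) in a subfield `M` one recovers the Legendre (resp. Hesse)
coordinate `t` inside `M`.
-/
import Mathlib
import Fermat.Agent.SS.HOSTB_helper8_Iface

set_option autoImplicit false

open Polynomial

namespace Fermat.Agent.SS

section Tools

variable {F : Type} [Field F] [CharZero F]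

theorem hb2_aeval_ne_zero {t : F} (ht : Transcendental ℚ t) (p : ℚ[X]) (c : ℚ)
    (hc : p.eval c ≠ 0) : aeval t p ≠ 0 := by
  intro h
  apply ht
  refine ⟨p, ?_, h⟩
  rintro rfl
  simp at hc

omit [CharZero F] in
theorem hb2_exists_eq_of_prod {n : ℕ} (φ : Fin n → F) (x : F) (h : ∏ i, (x - φ i) = 0) :
    ∃ i, φ i = x := by
  obtain ⟨i, -, hi⟩ := Finset.prod_eq_zero_iff.mp h
  exact ⟨i, (sub_eq_zero.mp hi).symm⟩

/-- a root `a ≠ 1` of `27 a (a+8)³ = j (a-1)³` gives the root `(27/(a-1))²` of the Hesse quartic,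
and lies in `M`. -/
theorem hb2_hes_root (M : Subfield F) (j a : F) (φ : Fin 4 → F) (hφM : ∀ i, φ i ∈ M) (hjM : j ∈ M)
    (hsplit : ∀ X : F, X ^ 4 - 756 * X ^ 3 + (72 * j + 19926) * X ^ 2 -
      (j ^ 2 - 1512 * j + 177876) * X + 3 ^ 12 = ∏ i, (X - φ i))
    (hne : ∀ i, j - 756 - 36 * φ i ≠ 0) (ha1 : a - 1 ≠ 0)
    (ha : j * (a - 1) ^ 3 = 27 * a * (a + 8) ^ 3) :
    a ∈ M ∧ ∃ i, φ i = (27 / (a - 1)) ^ 2 := by
  obtain ⟨g, hg⟩ : ∃ g : F, g = 27 / (a - 1) := ⟨_, rfl⟩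
  rw [← hg]
  have hga : g * (a - 1) = 27 := by rw [hg]; field_simp
  have hg0 : g ≠ 0 := by
    intro h
    rw [h, zero_mul] at hga
    norm_num at hga
  have hjg : j * g = (g + 27) * (g + 3) ^ 3 := by
    have h4 : (a - 1) ^ 4 ≠ 0 := pow_ne_zero 4 ha1
    apply mul_right_cancel₀ h4
    have e1 : j * g * (a - 1) ^ 4 = 27 * (j * (a - 1) ^ 3) := by
      linear_combination (j * (a - 1) ^ 3) * hga
    have e2 : (g + 27) * (g + 3) ^ 3 * (a - 1) ^ 4 =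
        (g * (a - 1) + 27 * (a - 1)) * (g * (a - 1) + 3 * (a - 1)) ^ 3 := by ring
    rw [e1, e2, hga, ha]
    ring
  have hΨ : (g ^ 2) ^ 4 - 756 * (g ^ 2) ^ 3 + (72 * j + 19926) * (g ^ 2) ^ 2 -
      (j ^ 2 - 1512 * j + 177876) * (g ^ 2) + 3 ^ 12 = 0 := by
    linear_combination (-(g ^ 4 + 270 * g ^ 2 + 729 + g * (j - 756 - 36 * g ^ 2))) * hjg
  obtain ⟨i, hi⟩ := hb2_exists_eq_of_prod φ (g ^ 2) (by rw [← hsplit, hΨ])
  have hgi : g = ((φ i) ^ 2 + 270 * φ i + 729) / (j - 756 - 36 * φ i) := by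
    rw [eq_div_iff (hne i), hi]
    linear_combination hjg
  have hgM : g ∈ M := by
    rw [hgi]
    have h270 : (270 : F) ∈ M := ofNat_mem M 270
    have h729 : (729 : F) ∈ M := ofNat_mem M 729
    have h756 : (756 : F) ∈ M := ofNat_mem M 756
    have h36 : (36 : F) ∈ M := ofNat_mem M 36
    exact M.div_mem (M.add_mem (M.add_mem (M.pow_mem (hφM i) 2) (M.mul_mem h270 (hφM i))) h729)
      (M.sub_mem (M.sub_mem hjM h756) (M.mul_mem h36 (hφM i)))
  refine ⟨?_, i, hi⟩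
  have haM : a = 1 + 27 / g := by
    field_simp
    linear_combination hga
  rw [haM]
  exact M.add_mem M.one_mem (M.div_mem (ofNat_mem M 27) hgM)

end Tools

/-! ### Legendre -/

theorem legAlgStatement : LegAlgStatement := by
  intro F _ _ M j t φ hjM hφM hsplit hj ht
  -- non-vanishing facts
  have h0 : t ≠ 0 := by
    have := hb2_aeval_ne_zero ht X 1 (by simp)
    simpa using this
  have h1 : t - 1 ≠ 0 := by
    have := hb2_aeval_ne_zero ht (X - 1) 0 (by simp)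
    simpa using this
  have h1' : 1 - t ≠ 0 := by
    intro h; apply h1; linear_combination -h
  have h2 : t ^ 2 - t + 1 ≠ 0 := by
    have := hb2_aeval_ne_zero ht (X ^ 2 - X + 1) 0 (by simp)
    simpa using this
  have h3 : t ^ 3 + 1 ≠ 0 := by
    have := hb2_aeval_ne_zero ht (X ^ 3 + 1) 0 (by simp)
    simpa using this
  set r₁ : F := -16 / (t * (1 - t)) with hr₁
  set r₂ : F := -16 * t ^ 2 / (t - 1) with hr₂
  -- both are roots of the cubic
  have hroot₁ : (r₁ + 16) ^ 3 - j * r₁ = 0 := by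
    rw [hr₁]
    field_simp
    linear_combination (16 : F) * hj
  have hroot₂ : (r₂ + 16) ^ 3 - j * r₂ = 0 := by
    rw [hr₂]
    field_simp
    linear_combination (16 : F) * hj
  obtain ⟨i, hi⟩ := hb2_exists_eq_of_prod φ r₁ (by rw [← hsplit, hroot₁])
  obtain ⟨k, hk⟩ := hb2_exists_eq_of_prod φ r₂ (by rw [← hsplit, hroot₂])
  have hne : r₁ ≠ r₂ := by
    rw [hr₁, hr₂]
    intro h
    rw [div_eq_div_iff (mul_ne_zero h0 h1') h1] at h
    have h4 : (t - 1) * (t ^ 3 + 1) = 0 := by linear_combination (-1 / 16 : F) * h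
    rcases mul_eq_zero.mp h4 with h5 | h5
    · exact h1 h5
    · exact h3 h5
  have hik : i ≠ k := by
    rintro rfl
    exact hne (hi.symm.trans hk)
  have hr16 : r₁ + 16 = -16 * (t ^ 2 - t + 1) / (t * (1 - t)) := by
    rw [hr₁]
    field_simp
    ring
  have hr16' : r₁ + 16 ≠ 0 := by
    rw [hr16]
    exact div_ne_zero (mul_ne_zero (by norm_num) h2) (mul_ne_zero h0 h1')
  have hnum : 2 * r₂ + r₁ + 48 = (1 - 2 * t) * (r₁ + 16) := by
    rw [hr16, hr₁, hr₂]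
    field_simp
    ring
  have htM : t = (1 - (2 * φ k + φ i + 48) / (φ i + 16)) / 2 := by
    rw [hi, hk, hnum, mul_div_assoc, div_self hr16']
    ring
  refine ⟨?_, i, k, hik, hi, hk⟩
  rw [htM]
  have h48 : (48 : F) ∈ M := ofNat_mem M 48
  have h16 : (16 : F) ∈ M := ofNat_mem M 16
  have h2' : (2 : F) ∈ M := ofNat_mem M 2
  exact M.div_mem (M.sub_mem M.one_mem (M.div_mem (M.add_mem (M.add_mem (M.mul_mem h2' (hφM k))
    (hφM i)) h48) (M.add_mem (hφM i) h16))) h2'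

/-! ### Hesse -/

theorem hesAlgStatement : HesAlgStatement := by
  intro F _ _ M j t φ hjM hφM hsplit hne hj ht
  -- non-vanishing facts
  have h1 : t - 1 ≠ 0 := by
    have := hb2_aeval_ne_zero ht (X - 1) 0 (by simp)
    simpa [map_ofNat] using this
  have h2 : t ^ 2 + t + 1 ≠ 0 := by
    have := hb2_aeval_ne_zero ht (X ^ 2 + X + 1) 0 (by simp)
    simpa [map_ofNat] using this
  have h3 : (t ^ 2 + t + 1) ^ 2 + 3 * (t - 1) ^ 2 ≠ 0 := by
    have := hb2_aeval_ne_zero ht ((X ^ 2 + X + 1) ^ 2 + 3 * (X - 1) ^ 2) 0 (by simp; norm_num)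
    simpa [map_ofNat] using this
  have h4 : t ^ 4 - t ^ 3 + 3 * t ^ 2 + 2 * t + 4 ≠ 0 := by
    have := hb2_aeval_ne_zero ht (X ^ 4 - X ^ 3 + 3 * X ^ 2 + 2 * X + 4) 0 (by simp)
    simpa [map_ofNat] using this
  have h5 : (t - 1) ^ 8 - 81 ≠ 0 := by
    have := hb2_aeval_ne_zero ht ((X - 1) ^ 8 - 81) 0 (by simp; norm_num)
    simpa [map_ofNat] using this
  have ha1 : t ^ 3 - 1 ≠ 0 := by
    have e : t ^ 3 - 1 = (t - 1) * (t ^ 2 + t + 1) := by ring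
    rw [e]
    exact mul_ne_zero h1 h2
  obtain ⟨u, hu⟩ : ∃ u : F, u = (t + 2) / (t - 1) := ⟨_, rfl⟩
  have hb1e : u ^ 3 - 1 = 9 * (t ^ 2 + t + 1) / (t - 1) ^ 3 := by
    rw [hu]
    field_simp
    ring
  have hb1 : u ^ 3 - 1 ≠ 0 := by
    rw [hb1e]
    exact div_ne_zero (mul_ne_zero (by norm_num) h2) (pow_ne_zero 3 h1)
  have hjt : j = 27 * t ^ 3 * (t ^ 3 + 8) ^ 3 / (t ^ 3 - 1) ^ 3 := by
    rw [eq_div_iff (pow_ne_zero 3 ha1)]
    exact hj
  have hb : j * (u ^ 3 - 1) ^ 3 = 27 * u ^ 3 * (u ^ 3 + 8) ^ 3 := by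
    rw [hjt, hu]
    field_simp
    ring
  obtain ⟨haM, i, hi⟩ := hb2_hes_root M j (t ^ 3) φ hφM hjM hsplit hne ha1 hj
  obtain ⟨hbM, k, hk⟩ := hb2_hes_root M j (u ^ 3) φ hφM hjM hsplit hne hb1 hb
  have hy : (u ^ 3 - 1) * (t - 1) ^ 3 = 9 * (t ^ 2 + t + 1) := by
    rw [hb1e]
    field_simp
  have hik : i ≠ k := by
    rintro rfl
    rw [hi, div_pow, div_pow, div_eq_div_iff (pow_ne_zero 2 ha1) (pow_ne_zero 2 hb1)] at hk
    apply h5
    have key : (t ^ 2 + t + 1) ^ 2 * ((t - 1) ^ 8 - 81) = 0 := by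
      linear_combination (-(t - 1) ^ 6 / 729) * hk +
        ((u ^ 3 - 1) * (t - 1) ^ 3 + 9 * (t ^ 2 + t + 1)) * hy
    rcases mul_eq_zero.mp key with h | h
    · exact (h2 ((pow_eq_zero_iff two_ne_zero).mp h)).elim
    · exact h
  refine ⟨?_, i, k, hik, hi, by rw [hk, hu]⟩
  -- `t ∈ M`
  obtain ⟨S, hS⟩ : ∃ S : F, S = t + u + 1 := ⟨_, rfl⟩
  have hS2 : S ^ 2 = (t ^ 3 - 1) * (u ^ 3 - 1) / 9 := by
    rw [hS, hu]
    field_simp
    ring
  have hS3 : S * (S ^ 2 + 3) = t ^ 3 * u ^ 3 - 1 - 3 * S ^ 2 := by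
    rw [hS, hu]
    field_simp
    ring
  have hS23 : S ^ 2 + 3 = ((t ^ 2 + t + 1) ^ 2 + 3 * (t - 1) ^ 2) / (t - 1) ^ 2 := by
    rw [hS, hu]
    field_simp
    ring
  have hS23' : S ^ 2 + 3 ≠ 0 := by
    rw [hS23]
    exact div_ne_zero h3 (pow_ne_zero 2 h1)
  have hsp : (S - 1) ^ 2 - (S + 1) = (t ^ 4 - t ^ 3 + 3 * t ^ 2 + 2 * t + 4) / (t - 1) ^ 2 := by
    rw [hS, hu]
    field_simp
    ring
  have hsp' : (S - 1) ^ 2 - (S + 1) ≠ 0 := by
    rw [hsp]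
    exact div_ne_zero h4 (pow_ne_zero 2 h1)
  have ht' : t * ((S - 1) ^ 2 - (S + 1)) = t ^ 3 + (S - 1) * (S + 1) := by
    rw [hS, hu]
    field_simp
    ring
  have h9 : (9 : F) ∈ M := ofNat_mem M 9
  have h3M : (3 : F) ∈ M := ofNat_mem M 3
  have hS2M : S ^ 2 ∈ M := by
    rw [hS2]
    exact M.div_mem (M.mul_mem (M.sub_mem haM M.one_mem) (M.sub_mem hbM M.one_mem)) h9
  have hSM : S ∈ M := by
    have : S = (t ^ 3 * u ^ 3 - 1 - 3 * S ^ 2) / (S ^ 2 + 3) := by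
      rw [eq_div_iff hS23']
      exact hS3
    rw [this]
    exact M.div_mem (M.sub_mem (M.sub_mem (M.mul_mem haM hbM) M.one_mem) (M.mul_mem h3M hS2M))
      (M.add_mem hS2M h3M)
  have : t = (t ^ 3 + (S - 1) * (S + 1)) / ((S - 1) ^ 2 - (S + 1)) := by
    rw [eq_div_iff hsp']
    exact ht'
  rw [this]
  exact M.div_mem (M.add_mem haM (M.mul_mem (M.sub_mem hSM M.one_mem) (M.add_mem hSM M.one_mem)))
    (M.sub_mem (M.pow_mem (M.sub_mem hSM M.one_mem) 2) (M.add_mem hSM M.one_mem))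

end Fermat.Agent.SS
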