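/-
(SS-q) HOST-B leaf (HB-COEFF) — helper6 — the first coefficients of the Prelude power series
`dedekindEtaUnit = ∏ (1 - Xⁿ)^24`, `dedekindEtaUnitInv`, `jNum` (Mathlib + Prelude only).
-/
import Mathlib
import Fermat.Prelude.Def_ModularCurve_X0

set_option autoImplicit false
set_option linter.unusedSectionVars false
set_option linter.style.haveILetI false

open ModularCurve PowerSeries Filter Topology
open scoped PowerSeries.WithPiTopology

namespace Fermat.Agent.SS

/-- the partial products of Euler's product. -/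
noncomputable def etaPartial (j : ℕ) : PowerSeries ℤ :=
  ∏ i ∈ Finset.range j, (1 - PowerSeries.X ^ (i + 1))

theorem coeff_etaPartial_succ {m j : ℕ} (hj : m < j + 1) :
    coeff m (etaPartial (j + 1)) = coeff m (etaPartial j) := by
  rw [etaPartial, Finset.prod_range_succ, ← etaPartial, mul_sub, mul_one, map_sub,
    PowerSeries.coeff_mul_X_pow', if_neg (by omega), sub_zero]

theorem coeff_etaPartial_of_le {m k j : ℕ} (hk : m ≤ k) (hkj : k ≤ j) :
    coeff m (etaPartial j) = coeff m (etaPartial k) := by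
  induction j, hkj using Nat.le_induction with
  | base => rfl
  | succ j hj ih => rw [coeff_etaPartial_succ (by omega), ih]

/-- the coefficients of Euler's product are those of its partial products. -/
theorem coeff_etaProd_eq {m k : ℕ} (hk : m ≤ k) : coeff m etaProd = coeff m (etaPartial k) := by
  have hF := (PowerSeries.WithPiTopology.multipliable_one_sub_X_pow ℤ).hasProd
  have h1 : Tendsto (fun j : ℕ => coeff m (etaPartial j)) atTop (𝓝 (coeff m etaProd)) :=
    ((PowerSeries.WithPiTopology.continuous_coeff ℤ m).tendsto _).comp hF.tendsto_prod_nat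
  have h2 : Tendsto (fun j : ℕ => coeff m (etaPartial j)) atTop (𝓝 (coeff m (etaPartial k))) := by
    refine Tendsto.congr' ?_ tendsto_const_nhds
    filter_upwards [eventually_ge_atTop k] with j hj
    exact (coeff_etaPartial_of_le hk hj).symm
  exact tendsto_nhds_unique h1 h2

/-- the first five coefficients of a power series. -/
structure C5 (f : PowerSeries ℤ) (a0 a1 a2 a3 a4 : ℤ) : Prop where
  h0 : coeff 0 f = a0
  h1 : coeff 1 f = a1
  h2 : coeff 2 f = a2
  h3 : coeff 3 f = a3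
  h4 : coeff 4 f = a4

theorem C5.mul {f g : PowerSeries ℤ} {a0 a1 a2 a3 a4 b0 b1 b2 b3 b4 : ℤ}
    (hf : C5 f a0 a1 a2 a3 a4) (hg : C5 g b0 b1 b2 b3 b4) :
    C5 (f * g) (a0 * b0) (a0 * b1 + a1 * b0) (a0 * b2 + a1 * b1 + a2 * b0)
      (a0 * b3 + a1 * b2 + a2 * b1 + a3 * b0)
      (a0 * b4 + a1 * b3 + a2 * b2 + a3 * b1 + a4 * b0) := by
  obtain ⟨f0, f1, f2, f3, f4⟩ := hf
  obtain ⟨g0, g1, g2, g3, g4⟩ := hg
  refine ⟨?_, ?_, ?_, ?_, ?_⟩ <;>
  · rw [PowerSeries.coeff_mul]
    simp [Finset.Nat.antidiagonal_succ, f0, f1, f2, f3, f4, g0, g1, g2, g3, g4]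
    try ring

theorem C5.congr {f : PowerSeries ℤ} {a0 a1 a2 a3 a4 b0 b1 b2 b3 b4 : ℤ}
    (hf : C5 f a0 a1 a2 a3 a4) (e0 : a0 = b0) (e1 : a1 = b1) (e2 : a2 = b2) (e3 : a3 = b3)
    (e4 : a4 = b4) : C5 f b0 b1 b2 b3 b4 := by
  subst e0 e1 e2 e3 e4
  exact hf

theorem c5_etaProd : C5 etaProd 1 (-1) (-1) 0 0 := by
  have hP : etaPartial 4 = 1 - X - X ^ 2 + X ^ 5 + X ^ 5 - X ^ 8 - X ^ 9 + X ^ 10 := by
    simp only [etaPartial, Finset.prod_range_succ, Finset.prod_range_zero]
    ring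
  have hc : ∀ m, m ≤ 4 → coeff m etaProd =
      coeff m (1 - X - X ^ 2 + X ^ 5 + X ^ 5 - X ^ 8 - X ^ 9 + X ^ 10 : PowerSeries ℤ) := by
    intro m hm
    rw [coeff_etaProd_eq hm, hP]
  refine ⟨?_, ?_, ?_, ?_, ?_⟩
  · rw [hc 0 (by norm_num)]
    simp
  · rw [hc 1 (by norm_num)]
    simp [PowerSeries.coeff_X_pow, PowerSeries.coeff_one, PowerSeries.coeff_X]
  · rw [hc 2 (by norm_num)]
    simp [PowerSeries.coeff_X_pow, PowerSeries.coeff_one, PowerSeries.coeff_X]
  · rw [hc 3 (by norm_num)]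
    simp [PowerSeries.coeff_X_pow, PowerSeries.coeff_one, PowerSeries.coeff_X]
  · rw [hc 4 (by norm_num)]
    simp [PowerSeries.coeff_X_pow, PowerSeries.coeff_one, PowerSeries.coeff_X]

theorem c5_dedekindEtaUnit : C5 dedekindEtaUnit 1 (-24) 252 (-1472) 4830 := by
  have h1 := c5_etaProd
  have h2 : C5 (etaProd ^ 2) 1 (-2) (-1) 2 1 := by
    rw [pow_two]
    exact (h1.mul h1).congr (by norm_num) (by norm_num) (by norm_num) (by norm_num) (by norm_num)
  have h3 : C5 (etaProd ^ 3) 1 (-3) 0 5 0 := by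
    rw [pow_succ]
    exact (h2.mul h1).congr (by norm_num) (by norm_num) (by norm_num) (by norm_num) (by norm_num)
  have h6 : C5 (etaProd ^ 6) 1 (-6) 9 10 (-30) := by
    rw [show 6 = 3 + 3 from rfl, pow_add]
    exact (h3.mul h3).congr (by norm_num) (by norm_num) (by norm_num) (by norm_num) (by norm_num)
  have h12 : C5 (etaProd ^ 12) 1 (-12) 54 (-88) (-99) := by
    rw [show 12 = 6 + 6 from rfl, pow_add]
    exact (h6.mul h6).congr (by norm_num) (by norm_num) (by norm_num) (by norm_num) (by norm_num)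
  rw [dedekindEtaUnit, show 24 = 12 + 12 from rfl, pow_add]
  exact (h12.mul h12).congr (by norm_num) (by norm_num) (by norm_num) (by norm_num) (by norm_num)

theorem c5_dedekindEtaUnitInv : C5 dedekindEtaUnitInv 1 24 324 3200 25650 := by
  have hu := c5_dedekindEtaUnit
  have hmul := dedekindEtaUnit_mul_inv
  have hc : ∀ n, coeff n (dedekindEtaUnit * dedekindEtaUnitInv) = coeff n (1 : PowerSeries ℤ) :=
    fun n => by rw [hmul]
  have e0 := hc 0
  have e1 := hc 1
  have e2 := hc 2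
  have e3 := hc 3
  have e4 := hc 4
  rw [PowerSeries.coeff_mul] at e0 e1 e2 e3 e4
  simp [Finset.Nat.antidiagonal_succ, hu.h0, hu.h1, hu.h2, hu.h3, hu.h4,
    PowerSeries.coeff_one] at e0 e1 e2 e3 e4
  refine ⟨?_, ?_, ?_, ?_, ?_⟩
  · rw [PowerSeries.coeff_zero_eq_constantCoeff_apply]
    exact e0
  · linarith
  · linarith
  · linarith
  · linarith

theorem c5_eisenstein4 : C5 eisenstein4 1 240 2160 6720 17520 := by
  refine ⟨?_, ?_, ?_, ?_, ?_⟩
  · simp [eisenstein4]
  · simp [eisenstein4]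
  · have h : Nat.divisors 2 = {1, 2} := by decide
    simp [eisenstein4, h]
  · have h : Nat.divisors 3 = {1, 3} := by decide
    simp [eisenstein4, h]
  · have h : Nat.divisors 4 = {1, 2, 4} := by decide
    simp [eisenstein4, h]

theorem c5_jNum : C5 jNum 1 744 196884 21493760 864299970 := by
  have h1 := c5_eisenstein4
  have h2 : C5 (eisenstein4 ^ 2) 1 480 61920 1050240 7926240 := by
    rw [pow_two]
    exact (h1.mul h1).congr (by norm_num) (by norm_num) (by norm_num) (by norm_num) (by norm_num)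
  have h3 : C5 (eisenstein4 ^ 3) 1 720 179280 16954560 396974160 := by
    rw [pow_succ]
    exact (h2.mul h1).congr (by norm_num) (by norm_num) (by norm_num) (by norm_num) (by norm_num)
  rw [jNum]
  exact (h3.mul c5_dedekindEtaUnitInv).congr (by norm_num) (by norm_num) (by norm_num)
    (by norm_num) (by norm_num)

/-! ### the literals asked for by HOST-B -/

theorem coeff_dedekindEtaUnit_small :
    coeff 0 dedekindEtaUnit = 1 ∧ coeff 1 dedekindEtaUnit = -24 ∧ coeff 2 dedekindEtaUnit = 252 :=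
  ⟨c5_dedekindEtaUnit.h0, c5_dedekindEtaUnit.h1, c5_dedekindEtaUnit.h2⟩

theorem coeff_dedekindEtaUnitInv_small :
    coeff 0 dedekindEtaUnitInv = 1 ∧ coeff 1 dedekindEtaUnitInv = 24 ∧
      coeff 2 dedekindEtaUnitInv = 324 ∧ coeff 3 dedekindEtaUnitInv = 3200 ∧
      coeff 4 dedekindEtaUnitInv = 25650 :=
  ⟨c5_dedekindEtaUnitInv.h0, c5_dedekindEtaUnitInv.h1, c5_dedekindEtaUnitInv.h2,
    c5_dedekindEtaUnitInv.h3, c5_dedekindEtaUnitInv.h4⟩

theorem coeff_jNum_small :
    coeff 0 jNum = 1 ∧ coeff 1 jNum = 744 ∧ coeff 2 jNum = 196884 :=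
  ⟨c5_jNum.h0, c5_jNum.h1, c5_jNum.h2⟩

end Fermat.Agent.SS
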