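/-
(SS-q) HOST-B leaves (LC)/(HC) — helper6 — **truncated Laurent data**: a small calculus for the
lowest coefficients of Laurent series (`LTrunc f a k c`: `f` vanishes below degree `a` and its
coefficients in degrees `a, …, a + k` are the integers `c 0, …, c k`), stable under sums, products,
shifts, dilations `x ↦ x^e`; all coefficient functions are computable, so side conditions are
discharged by `decide`.
-/
import Mathlib
import Fermat.Prelude.Def_ModularCurve_X0

set_option autoImplicit false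
set_option linter.unusedSectionVars false
set_option linter.style.haveILetI false

open HahnSeries ModularCurve

namespace Fermat.Agent.SS

section Mul

variable {R : Type*} [CommRing R]

/-- the product of two Laurent series vanishing below `a`, `b` vanishes below `a + b`. -/
theorem coeff_mul_eq_zero_of_lt {f g : LaurentSeries R} {a b : ℤ}
    (hf : ∀ n : ℤ, n < a → f.coeff n = 0) (hg : ∀ n : ℤ, n < b → g.coeff n = 0) {n : ℤ}
    (hn : n < a + b) : (f * g).coeff n = 0 := by
  rw [HahnSeries.coeff_mul]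
  apply Finset.sum_eq_zero
  intro ij hij
  rw [Finset.mem_antidiagonal] at hij
  obtain ⟨h1, h2, h3⟩ := hij
  by_cases h : ij.1 < a
  · exact absurd (hf _ h) h1
  · have : ij.2 < b := by omega
    exact absurd (hg _ this) h2

/-- the Cauchy product formula for Laurent series with lower bounds on their supports. -/
theorem coeff_mul_eq_sum_range {f g : LaurentSeries R} {a b : ℤ}
    (hf : ∀ n : ℤ, n < a → f.coeff n = 0) (hg : ∀ n : ℤ, n < b → g.coeff n = 0) (i : ℕ) :
    (f * g).coeff (a + b + i) =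
      ∑ j ∈ Finset.range (i + 1), f.coeff (a + j) * g.coeff (b + ((i - j : ℕ) : ℤ)) := by
  classical
  rw [HahnSeries.coeff_mul]
  have hinj : Function.Injective (fun j : ℕ => ((a + (j : ℤ), b + ((i - j : ℕ) : ℤ)) : ℤ × ℤ)) := by
    intro j j' h
    have := congrArg Prod.fst h
    simp only at this
    omega
  have key := Finset.sum_map (Finset.range (i + 1))
    (⟨fun j : ℕ => ((a + (j : ℤ), b + ((i - j : ℕ) : ℤ)) : ℤ × ℤ), hinj⟩ : ℕ ↪ ℤ × ℤ)
    (fun ij : ℤ × ℤ => f.coeff ij.1 * g.coeff ij.2)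
  simp only [Function.Embedding.coeFn_mk] at key
  rw [← key]
  apply Finset.sum_subset
  · intro ij hij
    rw [Finset.mem_antidiagonal] at hij
    obtain ⟨h1, h2, h3⟩ := hij
    have ha : a ≤ ij.1 := by
      by_contra h
      exact h1 (hf _ (not_le.mp h))
    have hb : b ≤ ij.2 := by
      by_contra h
      exact h2 (hg _ (not_le.mp h))
    rw [Finset.mem_map]
    refine ⟨(ij.1 - a).toNat, ?_, ?_⟩
    · rw [Finset.mem_range]
      omega
    · simp only [Function.Embedding.coeFn_mk]
      apply Prod.ext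
      · simp only
        omega
      · simp only
        omega
  · intro ij hij hnot
    rw [Finset.mem_map] at hij
    obtain ⟨j, hj, rfl⟩ := hij
    rw [Finset.mem_range] at hj
    simp only [Function.Embedding.coeFn_mk] at hnot ⊢
    rw [Finset.mem_antidiagonal] at hnot
    by_contra hne
    apply hnot
    refine ⟨?_, ?_, ?_⟩
    · intro h0
      apply hne
      simp only at h0
      rw [h0, zero_mul]
    · intro h0
      apply hne
      simp only at h0
      rw [h0, mul_zero]
    · simp only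
      omega

end Mul

section LTrunc

variable {R : Type*} [CommRing R]

/-- **truncated Laurent data**: `f` vanishes below degree `a` and `f.coeff (a + i) = c i` for
`i ≤ k`. -/
structure LTrunc (f : LaurentSeries R) (a : ℤ) (k : ℕ) (c : ℕ → ℤ) : Prop where
  low : ∀ n : ℤ, n < a → f.coeff n = 0
  eq : ∀ i : ℕ, i ≤ k → f.coeff (a + i) = ((c i : ℤ) : R)

/-- the Cauchy product of two coefficient functions. -/
def lconv (c d : ℕ → ℤ) (i : ℕ) : ℤ := ∑ j ∈ Finset.range (i + 1), c j * d (i - j)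

/-- shifting a coefficient function by `m` places. -/
def lshift (m : ℕ) (c : ℕ → ℤ) (i : ℕ) : ℤ := if i < m then 0 else c (i - m)

/-- the coefficient function of `f(x^e)`. -/
def ldil (e : ℕ) (c : ℕ → ℤ) (i : ℕ) : ℤ := if e ∣ i then c (i / e) else 0

/-- the coefficient function of a constant. -/
def lconst (n : ℤ) (i : ℕ) : ℤ := if i = 0 then n else 0

theorem LTrunc.congr {f : LaurentSeries R} {a : ℤ} {k : ℕ} {c c' : ℕ → ℤ} (h : LTrunc f a k c)
    (hc : ∀ i : ℕ, i ≤ k → c i = c' i) : LTrunc f a k c' :=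
  ⟨h.low, fun i hi => by rw [h.eq i hi, hc i hi]⟩

theorem LTrunc.cast {f : LaurentSeries R} {a a' : ℤ} {k : ℕ} {c : ℕ → ℤ} (h : LTrunc f a k c)
    (ha : a = a') : LTrunc f a' k c := ha ▸ h

theorem LTrunc.mono {f : LaurentSeries R} {a : ℤ} {k k' : ℕ} {c : ℕ → ℤ} (h : LTrunc f a k c)
    (hk : k' ≤ k) : LTrunc f a k' c :=
  ⟨h.low, fun i hi => h.eq i (hi.trans hk)⟩

theorem LTrunc.mul {f g : LaurentSeries R} {a b : ℤ} {k : ℕ} {c d : ℕ → ℤ} (hf : LTrunc f a k c)
    (hg : LTrunc g b k d) : LTrunc (f * g) (a + b) k (lconv c d) := by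
  refine ⟨fun n hn => coeff_mul_eq_zero_of_lt hf.low hg.low hn, fun i hi => ?_⟩
  rw [coeff_mul_eq_sum_range hf.low hg.low i, lconv, Int.cast_sum]
  refine Finset.sum_congr rfl fun j hj => ?_
  rw [Finset.mem_range] at hj
  rw [hf.eq j (by omega), hg.eq (i - j) (by omega), Int.cast_mul]

theorem LTrunc.add {f g : LaurentSeries R} {a : ℤ} {k : ℕ} {c d : ℕ → ℤ} (hf : LTrunc f a k c)
    (hg : LTrunc g a k d) : LTrunc (f + g) a k (fun i => c i + d i) := by
  refine ⟨fun n hn => ?_, fun i hi => ?_⟩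
  · rw [HahnSeries.coeff_add, hf.low n hn, hg.low n hn, add_zero]
  · rw [HahnSeries.coeff_add, hf.eq i hi, hg.eq i hi, Int.cast_add]

theorem LTrunc.neg {f : LaurentSeries R} {a : ℤ} {k : ℕ} {c : ℕ → ℤ} (hf : LTrunc f a k c) :
    LTrunc (-f) a k (fun i => -c i) := by
  refine ⟨fun n hn => ?_, fun i hi => ?_⟩
  · rw [HahnSeries.coeff_neg, hf.low n hn, neg_zero]
  · rw [HahnSeries.coeff_neg, hf.eq i hi, Int.cast_neg]

theorem LTrunc.sub {f g : LaurentSeries R} {a : ℤ} {k : ℕ} {c d : ℕ → ℤ} (hf : LTrunc f a k c)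
    (hg : LTrunc g a k d) : LTrunc (f - g) a k (fun i => c i - d i) := by
  refine ⟨fun n hn => ?_, fun i hi => ?_⟩
  · rw [HahnSeries.coeff_sub, hf.low n hn, hg.low n hn, sub_zero]
  · rw [HahnSeries.coeff_sub, hf.eq i hi, hg.eq i hi, Int.cast_sub]

/-- lowering the bound `a` by `m`. -/
theorem LTrunc.shift {f : LaurentSeries R} {a : ℤ} {k : ℕ} {c : ℕ → ℤ} (hf : LTrunc f a k c) (m : ℕ) :
    LTrunc f (a - m) (k + m) (lshift m c) := by
  refine ⟨fun n hn => hf.low n (by omega), fun i hi => ?_⟩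
  unfold lshift
  split_ifs with h
  · rw [hf.low _ (by omega), Int.cast_zero]
  · have : a - (m : ℤ) + (i : ℤ) = a + ((i - m : ℕ) : ℤ) := by omega
    rw [this, hf.eq (i - m) (by omega)]

/-- `shift` with prescribed new bound and length. -/
theorem LTrunc.shift' {f : LaurentSeries R} {a : ℤ} {k : ℕ} {c : ℕ → ℤ} (hf : LTrunc f a k c) (m : ℕ)
    {a' : ℤ} {k' : ℕ} (ha : a' = a - m) (hk : k' ≤ k + m) : LTrunc f a' k' (lshift m c) := by
  subst ha
  exact (hf.shift m).mono hk

theorem LTrunc.single_mul {f : LaurentSeries R} {a : ℤ} {k : ℕ} {c : ℕ → ℤ} (hf : LTrunc f a k c)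
    (n : ℤ) : LTrunc (HahnSeries.single n (1 : R) * f) (n + a) k c := by
  refine ⟨fun m hm => ?_, fun i hi => ?_⟩
  · rw [HahnSeries.coeff_single_mul, hf.low _ (by omega), mul_zero]
  · rw [HahnSeries.coeff_single_mul, one_mul]
    have : n + a + (i : ℤ) - n = a + i := by ring
    rw [this, hf.eq i hi]

theorem LTrunc.intCast (n : ℤ) (k : ℕ) : LTrunc ((n : ℤ) : LaurentSeries R) 0 k (lconst n) := by
  have h : ((n : ℤ) : LaurentSeries R) = HahnSeries.C ((n : ℤ) : R) := (map_intCast _ n).symm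
  refine ⟨fun m hm => ?_, fun i hi => ?_⟩
  · rw [h, HahnSeries.C_apply, HahnSeries.coeff_single_of_ne (by omega)]
  · rw [h, HahnSeries.C_apply]
    unfold lconst
    by_cases h0 : i = 0
    · subst h0
      simp
    · rw [if_neg h0, HahnSeries.coeff_single_of_ne (by omega), Int.cast_zero]

theorem LTrunc.natCast (n : ℕ) (k : ℕ) : LTrunc ((n : ℕ) : LaurentSeries R) 0 k (lconst n) := by
  have := LTrunc.intCast (R := R) (n : ℤ) k
  rwa [Int.cast_natCast] at this

theorem LTrunc.ofNat (n : ℕ) [n.AtLeastTwo] (k : ℕ) :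
    LTrunc (OfNat.ofNat n : LaurentSeries R) 0 k (lconst n) := by
  exact LTrunc.natCast (R := R) n k

theorem LTrunc.one (k : ℕ) : LTrunc (1 : LaurentSeries R) 0 k (lconst 1) := by
  have := LTrunc.natCast (R := R) 1 k
  rwa [Nat.cast_one] at this

/-- integer power series. -/
theorem LTrunc.ofPowerSeries (p : PowerSeries ℤ) (k : ℕ) :
    LTrunc (HahnSeries.ofPowerSeries ℤ R (p.map (Int.castRingHom R))) 0 k
      (fun i => PowerSeries.coeff i p) := by
  refine ⟨fun n hn => ?_, fun i hi => ?_⟩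
  · exact ModularCurve.ofPowerSeries_coeff_of_neg _ hn
  · have h := HahnSeries.ofPowerSeries_apply_coeff (Γ := ℤ) (p.map (Int.castRingHom R)) i
    rw [zero_add, h, PowerSeries.coeff_map]
    rfl

/-- dilation `x ↦ x^e`. -/
theorem LTrunc.qExpand {f : LaurentSeries R} {a : ℤ} {k : ℕ} {c : ℕ → ℤ} (hf : LTrunc f a k c)
    (e : ℕ) [NeZero e] : LTrunc (qExpand R e f) ((e : ℤ) * a) (e * k) (ldil e c) := by
  have he : (0 : ℤ) < e := by exact_mod_cast Nat.pos_of_ne_zero (NeZero.ne e)
  refine ⟨fun n hn => ?_, fun i hi => ?_⟩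
  · by_cases hd : (e : ℤ) ∣ n
    · obtain ⟨m, rfl⟩ := hd
      rw [qExpand_coeff_mul]
      apply hf.low
      by_contra h
      push Not at h
      nlinarith
    · exact qExpand_coeff_of_not_dvd _ _ hd
  · unfold ldil
    by_cases hd : e ∣ i
    · obtain ⟨m, rfl⟩ := hd
      rw [if_pos (Dvd.intro _ rfl), Nat.mul_div_cancel_left _ (Nat.pos_of_ne_zero (NeZero.ne e))]
      have : (e : ℤ) * a + ((e * m : ℕ) : ℤ) = (e : ℤ) * (a + m) := by push_cast; ring
      rw [this, qExpand_coeff_mul]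
      apply hf.eq
      exact Nat.le_of_mul_le_mul_left hi (Nat.pos_of_ne_zero (NeZero.ne e))
    · rw [if_neg hd, Int.cast_zero]
      apply qExpand_coeff_of_not_dvd
      intro h
      apply hd
      have h2 : (e : ℤ) ∣ (i : ℤ) := by
        have := Dvd.dvd.mul_right (dvd_refl (e : ℤ)) a
        exact (Int.dvd_add_right this).mp h
      exact_mod_cast h2

/-- reading off a coefficient. -/
theorem LTrunc.coeff_eq {f : LaurentSeries R} {a : ℤ} {k : ℕ} {c : ℕ → ℤ} (hf : LTrunc f a k c)
    {n : ℤ} (i : ℕ) (hn : n = a + i) (hi : i ≤ k) : f.coeff n = ((c i : ℤ) : R) := by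
  rw [hn, hf.eq i hi]

/-- a series whose truncated data vanish has vanishing coefficients up to degree `a + k`. -/
theorem LTrunc.coeff_eq_zero {f : LaurentSeries R} {a : ℤ} {k : ℕ} {c : ℕ → ℤ} (hf : LTrunc f a k c)
    (hc : ∀ i : ℕ, i ≤ k → c i = 0) {n : ℤ} (hn : n ≤ a + k) : f.coeff n = 0 := by
  by_cases h : n < a
  · exact hf.low n h
  · have : n = a + ((n - a).toNat : ℤ) := by omega
    rw [this, hf.eq _ (by omega), hc _ (by omega), Int.cast_zero]

/-- the same in the degrees divisible by `w` only. -/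
theorem LTrunc.coeff_eq_zero_of_dvd {f : LaurentSeries R} {a : ℤ} {k : ℕ} {c : ℕ → ℤ} (hf : LTrunc f a k c)
    (w : ℤ) (hc : ∀ i : ℕ, i ≤ k → w ∣ a + (i : ℤ) → c i = 0) {n : ℤ} (hn : n ≤ a + k)
    (hw : w ∣ n) : f.coeff n = 0 := by
  by_cases h : n < a
  · exact hf.low n h
  · have h1 : n = a + ((n - a).toNat : ℤ) := by omega
    rw [h1, hf.eq _ (by omega), hc _ (by omega) (h1 ▸ hw), Int.cast_zero]

/-- the coefficient of a constant multiple. -/
theorem coeff_C_mul' (r : R) (f : LaurentSeries R) (n : ℤ) :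
    (HahnSeries.C r * f).coeff n = r * f.coeff n := by
  rw [HahnSeries.C_mul_eq_smul, HahnSeries.coeff_smul, smul_eq_mul]

end LTrunc

end Fermat.Agent.SS
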