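/-
(SS-q) HOST-B leaves (LC)/(HC) — helper6 — **the shapes of the units `φ_α` of determinant `w`**
(`α = (1 b; 0 w)` and `α = (w 0; 0 1)`) in terms of the formal eta products, their inverses, the
behaviour under `x ↦ ξ x` (`ξ^w = 1`), and the truncated data of the basic series.
-/
import Mathlib
import Fermat.Agent.SS.HOSTB_helper8_Iface
import Fermat.Agent.SS.HOSTB_helper6_LT
import Fermat.Agent.SS.HOSTB_helper6_Coeff

set_option autoImplicit false
set_option linter.unusedSectionVars false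
set_option linter.style.haveILetI false

open HahnSeries ModularCurve Fermat.Agent.Igusa

namespace Fermat.Agent.SS

noncomputable section

section Shape

variable {A : Type*} [CommRing A] (ζ : Aˣ) (w : ℕ) [NeZero w]

theorem idxB_e (b : ℕ) (hb : b < w) : (idxB w b hb).e = 1 := by
  simp [Idx.e, idxB, Nat.div_self (Nat.pos_of_ne_zero (NeZero.ne w))]

theorem idxB_c (b : ℕ) (hb : b < w) : (idxB w b hb).c = b := by
  simp [Idx.c, idxB, Nat.div_self (Nat.pos_of_ne_zero (NeZero.ne w))]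

theorem idxI_e (hw : 0 < w) : (idxI w hw).e = w * w := by
  simp [Idx.e, idxI]

theorem idxI_c (hw : 0 < w) : (idxI w hw).c = 0 := by
  simp [Idx.c, idxI]

variable (A)

/-- `Δ(x)/Δ(x^w)` : the unit `φ_{(1 0; 0 w)}`. -/
def phiP (w : ℕ) [NeZero w] : LaurentSeries A := deltaSer A * qExpand A w (deltaInvSer A)

/-- the inverse of `phiP`. -/
def phiPi (w : ℕ) [NeZero w] : LaurentSeries A :=
  HahnSeries.single ((w : ℤ) - 1) (1 : A) * etaUnitInvSer A * qExpand A w (etaUnitSer A)

/-- `Δ(x^{w²})/Δ(x^w)` : the unit `φ_{(w 0; 0 1)}` divided by `w^12`. -/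
def phiQ (w : ℕ) [NeZero w] : LaurentSeries A :=
  qExpand A (w * w) (deltaSer A) * qExpand A w (deltaInvSer A)

/-- the inverse of `phiQ`. -/
def phiQi (w : ℕ) [NeZero w] : LaurentSeries A :=
  HahnSeries.single ((w : ℤ) - (w : ℤ) * w) (1 : A) * qExpand A (w * w) (etaUnitInvSer A) *
    qExpand A w (etaUnitSer A)

theorem single_one_mul_single_one {a b c : ℤ} (h : a + b = c) :
    HahnSeries.single a (1 : A) * HahnSeries.single b (1 : A) = HahnSeries.single c (1 : A) := by
  rw [HahnSeries.single_mul_single, mul_one, h]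

theorem phiP_eq : phiP A w =
    HahnSeries.single ((1 : ℤ) - w) (1 : A) * etaUnitSer A * qExpand A w (etaUnitInvSer A) := by
  rw [phiP, deltaSer, deltaInvSer, qExpand_single_mul]
  have h : HahnSeries.single (1 : ℤ) (1 : A) * HahnSeries.single ((w : ℤ) * -1) (1 : A) =
      HahnSeries.single ((1 : ℤ) - w) (1 : A) :=
    single_one_mul_single_one A (by ring)
  rw [← h]
  ring

theorem phiQ_eq : phiQ A w =
    HahnSeries.single ((w : ℤ) * w - w) (1 : A) * qExpand A (w * w) (etaUnitSer A) *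
      qExpand A w (etaUnitInvSer A) := by
  rw [phiQ, deltaSer, deltaInvSer, qExpand_single_mul, qExpand_single_mul]
  have h : HahnSeries.single (((w * w : ℕ) : ℤ) * 1) (1 : A) *
      HahnSeries.single ((w : ℤ) * -1) (1 : A) =
      HahnSeries.single ((w : ℤ) * w - w) (1 : A) :=
    single_one_mul_single_one A (by push_cast; ring)
  rw [← h]
  ring

theorem phiP_mul_phiPi : phiP A w * phiPi A w = 1 := by
  rw [phiP_eq, phiPi]
  have h : HahnSeries.single ((1 : ℤ) - w) (1 : A) * HahnSeries.single ((w : ℤ) - 1) (1 : A) = 1 :=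
    single_one_mul_single_one A (by ring)
  have h2 : qExpand A w (etaUnitInvSer A) * qExpand A w (etaUnitSer A) = 1 := by
    rw [← map_mul, mul_comm, etaUnitSer_mul_etaUnitInvSer, map_one]
  calc _ = (HahnSeries.single ((1 : ℤ) - w) (1 : A) * HahnSeries.single ((w : ℤ) - 1) (1 : A)) *
        (etaUnitSer A * etaUnitInvSer A) *
        (qExpand A w (etaUnitInvSer A) * qExpand A w (etaUnitSer A)) := by ring
    _ = 1 := by rw [h, h2, etaUnitSer_mul_etaUnitInvSer, mul_one, mul_one]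

theorem phiQ_mul_phiQi : phiQ A w * phiQi A w = 1 := by
  rw [phiQ_eq, phiQi]
  have h : HahnSeries.single ((w : ℤ) * w - w) (1 : A) *
      HahnSeries.single ((w : ℤ) - (w : ℤ) * w) (1 : A) = 1 :=
    single_one_mul_single_one A (by ring)
  have h2 : qExpand A w (etaUnitInvSer A) * qExpand A w (etaUnitSer A) = 1 := by
    rw [← map_mul, mul_comm, etaUnitSer_mul_etaUnitInvSer, map_one]
  have h3 : qExpand A (w * w) (etaUnitSer A) * qExpand A (w * w) (etaUnitInvSer A) = 1 := by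
    rw [← map_mul, etaUnitSer_mul_etaUnitInvSer, map_one]
  calc _ = (HahnSeries.single ((w : ℤ) * w - w) (1 : A) *
          HahnSeries.single ((w : ℤ) - (w : ℤ) * w) (1 : A)) *
        (qExpand A (w * w) (etaUnitSer A) * qExpand A (w * w) (etaUnitInvSer A)) *
        (qExpand A w (etaUnitInvSer A) * qExpand A w (etaUnitSer A)) := by ring
    _ = 1 := by rw [h, h2, h3, mul_one, mul_one]

variable {A}

/-- `x ↦ ξ x` with `ξ^w = 1` fixes the series in `x^w`. -/
theorem twist_qExpand_fixed {ξ : Aˣ} (hξ : ξ ^ w = 1) (f : LaurentSeries A) :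
    twist ξ (qExpand A w f) = qExpand A w f := by
  rw [twist_qExpand, hξ, twist_one]

theorem twist_qExpand_mul_fixed {ξ : Aˣ} (hξ : ξ ^ w = 1) (r : ℕ) [NeZero (w * r)]
    (f : LaurentSeries A) : twist ξ (qExpand A (w * r) f) = qExpand A (w * r) f := by
  rw [twist_qExpand, pow_mul, hξ, one_pow, twist_one]

/-- coefficients in degrees divisible by `w` are not changed by `x ↦ ξ x`, `ξ^w = 1`. -/
theorem coeff_twist_of_dvd {ξ : Aˣ} (hξ : ξ ^ w = 1) (f : LaurentSeries A) {n : ℤ}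
    (hn : (w : ℤ) ∣ n) : (twist ξ f).coeff n = f.coeff n := by
  obtain ⟨m, rfl⟩ := hn
  rw [twist_coeff, zpow_mul, zpow_natCast, hξ, one_zpow, Units.val_one, one_mul]

theorem twist_phiQi {ξ : Aˣ} (hξ : ξ ^ w = 1) : twist ξ (phiQi A w) = phiQi A w := by
  rw [phiQi, map_mul, map_mul, twist_qExpand_mul_fixed w hξ w,
    twist_qExpand_fixed w hξ, twist_single]
  have : (ξ ^ ((w : ℤ) - (w : ℤ) * w) : Aˣ) = 1 := by
    have h : (w : ℤ) - (w : ℤ) * w = (w : ℤ) * (1 - w) := by ring
    rw [h, zpow_mul, zpow_natCast, hξ, one_zpow]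
  rw [this, Units.val_one, one_mul]

/-- **shape of `φ_{(1 b; 0 w)}`.** -/
theorem phiSer_idxB (hζ : ζ ^ w = 1) (b : ℕ) (hb : b < w) :
    phiSer A ζ w (idxB w b hb) = twist (ζ ^ b) (phiP A w) := by
  have hξ : (ζ ^ b) ^ w = 1 := by rw [← pow_mul, mul_comm, pow_mul, hζ, one_pow]
  rw [phiSer, deltaSubSer, qExpand_congr (idxB_e w b hb), qExpand_one_apply, idxB_c, phiP,
    map_mul, twist_qExpand_fixed w hξ]
  have : ((idxB w b hb).a : A) = 1 := by simp [idxB]
  rw [this, one_pow, map_one, one_mul]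

/-- **shape of `φ_{(w 0; 0 1)}`.** -/
theorem phiSer_idxI (hw : 0 < w) :
    phiSer A ζ w (idxI w hw) = HahnSeries.C ((w : A) ^ 12) * phiQ A w := by
  rw [phiSer, deltaSubSer, qExpand_congr (idxI_e w hw), idxI_c, pow_zero, twist_one, phiQ,
    mul_assoc]
  rfl

end Shape

section Field

variable {K : Type*} [Field K] (ζ : Kˣ) (w : ℕ) [NeZero w]

theorem inv_phiSer_idxB (hζ : ζ ^ w = 1) (b : ℕ) (hb : b < w) :
    (phiSer K ζ w (idxB w b hb))⁻¹ = twist (ζ ^ b) (phiPi K w) := by
  rw [phiSer_idxB ζ w hζ b hb, ← map_inv₀]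
  congr 1
  exact inv_eq_of_mul_eq_one_right (phiP_mul_phiPi K w)

theorem inv_phiSer_idxI [CharZero K] (hw : 0 < w) :
    (phiSer K ζ w (idxI w hw))⁻¹ = HahnSeries.C (((w : K) ^ 12)⁻¹) * phiQi K w := by
  rw [phiSer_idxI ζ w hw]
  apply inv_eq_of_mul_eq_one_right
  have hw0 : ((w : K) ^ 12) ≠ 0 := pow_ne_zero _ (Nat.cast_ne_zero.mpr hw.ne')
  calc HahnSeries.C ((w : K) ^ 12) * phiQ K w * (HahnSeries.C (((w : K) ^ 12)⁻¹) * phiQi K w)
      = (HahnSeries.C ((w : K) ^ 12) * HahnSeries.C (((w : K) ^ 12)⁻¹)) *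
          (phiQ K w * phiQi K w) := by ring
    _ = 1 := by
      rw [phiQ_mul_phiQi, mul_one, ← map_mul, mul_inv_cancel₀ hw0, map_one]

end Field

end

end Fermat.Agent.SS
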