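/-
(SS-q) HOST-B leaves (LC)/(HC) — helper6 — truncated data of the basic series
(`etaUnitSer`, `etaUnitInvSer`, `jqModC`) and small facts on `zetaC`.
-/
import Mathlib
import Fermat.Agent.SS.HOSTB_helper6_PhiShape

set_option autoImplicit false
set_option linter.unusedSectionVars false
set_option linter.style.haveILetI false

open HahnSeries ModularCurve Fermat.Agent.Igusa

namespace Fermat.Agent.SS

/-- the first coefficients of `∏ (1 - xⁿ)^24`. -/
def cEta : ℕ → ℤ
  | 0 => 1
  | 1 => -24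
  | 2 => 252
  | 3 => -1472
  | 4 => 4830
  | _ => 0

/-- the first coefficients of `∏ (1 - xⁿ)^{-24}`. -/
def cEtaInv : ℕ → ℤ
  | 0 => 1
  | 1 => 24
  | 2 => 324
  | 3 => 3200
  | 4 => 25650
  | _ => 0

/-- the first coefficients of `x · j(x)`. -/
def cJ : ℕ → ℤ
  | 0 => 1
  | 1 => 744
  | 2 => 196884
  | 3 => 21493760
  | 4 => 864299970
  | _ => 0

section Data

variable (R : Type*) [CommRing R]

theorem lt_etaUnitSer : LTrunc (etaUnitSer R) 0 4 cEta := by
  refine (LTrunc.ofPowerSeries (R := R) dedekindEtaUnit 4).congr ?_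
  intro i hi
  obtain ⟨h0, h1, h2, h3, h4⟩ := c5_dedekindEtaUnit
  interval_cases i
  · exact h0
  · exact h1
  · exact h2
  · exact h3
  · exact h4

theorem lt_etaUnitInvSer : LTrunc (etaUnitInvSer R) 0 4 cEtaInv := by
  refine (LTrunc.ofPowerSeries (R := R) dedekindEtaUnitInv 4).congr ?_
  intro i hi
  obtain ⟨h0, h1, h2, h3, h4⟩ := c5_dedekindEtaUnitInv
  interval_cases i
  · exact h0
  · exact h1
  · exact h2
  · exact h3
  · exact h4

theorem lt_jqModC : LTrunc (jqModC R) (-1) 4 cJ := by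
  have h : LTrunc (HahnSeries.ofPowerSeries ℤ R (jNum.map (Int.castRingHom R))) 0 4 cJ := by
    refine (LTrunc.ofPowerSeries (R := R) jNum 4).congr ?_
    intro i hi
    obtain ⟨h0, h1, h2, h3, h4⟩ := c5_jNum
    interval_cases i
    · exact h0
    · exact h1
    · exact h2
    · exact h3
    · exact h4
  exact (h.single_mul (-1)).cast (by norm_num)

end Data

theorem zetaC_pow_self (w : ℕ) [NeZero w] : zetaC w ^ w = 1 := by
  apply Units.ext
  rw [Units.val_pow_eq_pow_val, coe_zetaC, Units.val_one]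
  exact Fermat.Agent.X0N.zetaH_nat_pow_self w

theorem coe_zetaC_two : ((zetaC 2 : ℂˣ) : ℂ) = -1 := by
  rw [coe_zetaC, Fermat.Agent.X0N.zetaH]
  have : (2 : ℂ) * (Real.pi : ℂ) * Complex.I / (((2 : ℕ) : ℝ) : ℂ) = (Real.pi : ℂ) * Complex.I := by
    push_cast
    ring
  rw [this, Complex.exp_pi_mul_I]

end Fermat.Agent.SS
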