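/-
(SS-q) HOST-B leaf (HC) — helper6 — **`HesCoeffStatement`**: the coefficients in degrees
`0, -3, -6, …` of the symmetric functions of the four units of determinant `3`.
-/
import Mathlib
import Fermat.Agent.SS.HOSTB_helper6_Data

set_option autoImplicit false
set_option linter.unusedSectionVars false
set_option linter.style.haveILetI false

open HahnSeries ModularCurve Fermat.Agent.Igusa

namespace Fermat.Agent.SS

noncomputable section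

/-! ### truncated data at level 3 -/

theorem lt_phiP_three : LTrunc (phiP ℂ 3) (-2) 2 (lconv cEta (ldil 3 cEtaInv)) := by
  rw [phiP_eq, mul_assoc]
  have h1 := (lt_etaUnitSer ℂ).mono (show 2 ≤ 4 by norm_num)
  have h2 := ((lt_etaUnitInvSer ℂ).qExpand 3).mono (show 2 ≤ 3 * 4 by norm_num)
  exact ((h1.mul h2).single_mul _).cast (by norm_num)

theorem lt_phiPi_three : LTrunc (phiPi ℂ 3) 2 4 (lconv cEtaInv (ldil 3 cEta)) := by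
  rw [phiPi, mul_assoc]
  have h1 := (lt_etaUnitInvSer ℂ).mono (show 4 ≤ 4 by norm_num)
  have h2 := ((lt_etaUnitSer ℂ).qExpand 3).mono (show 4 ≤ 3 * 4 by norm_num)
  exact ((h1.mul h2).single_mul _).cast (by norm_num)

theorem lt_phiQ_three : LTrunc (phiQ ℂ 3) 6 0 (lconv (ldil (3 * 3) cEta) (ldil 3 cEtaInv)) := by
  rw [phiQ_eq, mul_assoc]
  have h1 := ((lt_etaUnitSer ℂ).qExpand (3 * 3)).mono (show 0 ≤ 3 * 3 * 4 by norm_num)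
  have h2 := ((lt_etaUnitInvSer ℂ).qExpand 3).mono (show 0 ≤ 3 * 4 by norm_num)
  exact ((h1.mul h2).single_mul _).cast (by norm_num)

theorem lt_phiQi_three :
    LTrunc (phiQi ℂ 3) (-6) 6 (lconv (ldil (3 * 3) cEtaInv) (ldil 3 cEta)) := by
  rw [phiQi, mul_assoc]
  have h1 := ((lt_etaUnitInvSer ℂ).qExpand (3 * 3)).mono (show 6 ≤ 3 * 3 * 4 by norm_num)
  have h2 := ((lt_etaUnitSer ℂ).qExpand 3).mono (show 6 ≤ 3 * 4 by norm_num)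
  exact ((h1.mul h2).single_mul _).cast (by norm_num)

theorem lt_jtSer_three : LTrunc (jtSer ℂ 3) (-3) 6 (ldil 3 cJ) := by
  have h := ((lt_jqModC ℂ).qExpand 3).mono (show 6 ≤ 3 * 4 by norm_num)
  exact h.cast (by norm_num)

theorem zetaC_three_pow (b : ℕ) : (zetaC 3 ^ b) ^ 3 = 1 := by
  rw [← pow_mul, mul_comm, pow_mul, zetaC_pow_self 3, one_pow]

/-- `x ↦ ξ x` preserves lower bounds. -/
theorem twist_coeff_eq_zero {ξ : ℂˣ} {f : LaurentSeries ℂ} {a : ℤ}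
    (hf : ∀ n : ℤ, n < a → f.coeff n = 0) : ∀ n : ℤ, n < a → (twist ξ f).coeff n = 0 := by
  intro n hn
  rw [twist_coeff, hf n hn, mul_zero]

/-! ### the four statements -/

theorem hes_coeff_sum {n : ℤ} (hn : n ≤ 0) (h3 : (3 : ℤ) ∣ n) :
    (phiSer ℂ (zetaC 3) 3 (idxI 3 (by norm_num)) + phiSer ℂ (zetaC 3) 3 (idxB 3 0 (by norm_num)) +
      phiSer ℂ (zetaC 3) 3 (idxB 3 1 (by norm_num)) +
      phiSer ℂ (zetaC 3) 3 (idxB 3 2 (by norm_num)) - 756).coeff n = 0 := by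
  have hζ := zetaC_pow_self 3
  rw [phiSer_idxI, phiSer_idxB _ _ hζ, phiSer_idxB _ _ hζ, phiSer_idxB _ _ hζ]
  have hU : LTrunc (phiP ℂ 3 + phiP ℂ 3 + phiP ℂ 3 - 756) (-2) 2 _ :=
    ((lt_phiP_three.add lt_phiP_three).add lt_phiP_three).sub
      ((LTrunc.ofNat (R := ℂ) 756 0).shift' 2 (by norm_num) (by norm_num))
  have h0 := hU.coeff_eq_zero_of_dvd 3 (by decide) (show n ≤ -2 + ((2 : ℕ) : ℤ) by simpa using hn) h3
  rw [HahnSeries.coeff_sub, HahnSeries.coeff_add, HahnSeries.coeff_add] at h0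
  rw [HahnSeries.coeff_sub, HahnSeries.coeff_add, HahnSeries.coeff_add, HahnSeries.coeff_add,
    coeff_C_mul', lt_phiQ_three.low n (by omega), mul_zero, zero_add,
    coeff_twist_of_dvd 3 (zetaC_three_pow 0) _ (by exact_mod_cast h3),
    coeff_twist_of_dvd 3 (zetaC_three_pow 1) _ (by exact_mod_cast h3),
    coeff_twist_of_dvd 3 (zetaC_three_pow 2) _ (by exact_mod_cast h3)]
  exact h0

theorem hes_coeff_prod {n : ℤ} (hn : n ≤ 0) :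
    (phiSer ℂ (zetaC 3) 3 (idxI 3 (by norm_num)) * phiSer ℂ (zetaC 3) 3 (idxB 3 0 (by norm_num)) *
      phiSer ℂ (zetaC 3) 3 (idxB 3 1 (by norm_num)) *
      phiSer ℂ (zetaC 3) 3 (idxB 3 2 (by norm_num)) - 3 ^ 12).coeff n = 0 := by
  obtain ⟨u1, hu1, h1⟩ := phiSer_eq (A := ℂ) (zetaC 3) 3 (idxI 3 (by norm_num))
  obtain ⟨u2, hu2, h2⟩ := phiSer_eq (A := ℂ) (zetaC 3) 3 (idxB 3 0 (by norm_num))
  obtain ⟨u3, hu3, h3⟩ := phiSer_eq (A := ℂ) (zetaC 3) 3 (idxB 3 1 (by norm_num))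
  obtain ⟨u4, hu4, h4⟩ := phiSer_eq (A := ℂ) (zetaC 3) 3 (idxB 3 2 (by norm_num))
  rw [idxI_e, idxI_c] at h1
  rw [idxB_e, idxB_c] at h2 h3 h4
  have hζ3 : ((zetaC 3 : ℂˣ) : ℂ) * (((zetaC 3 : ℂˣ) : ℂ) * ((zetaC 3 : ℂˣ) : ℂ)) = 1 := by
    have := congrArg (fun u : ℂˣ => (u : ℂ)) (zetaC_pow_self 3)
    simp only [Units.val_pow_eq_pow_val, Units.val_one] at this
    rw [← this]
    ring
  have hprod : phiSer ℂ (zetaC 3) 3 (idxI 3 (by norm_num)) *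
      phiSer ℂ (zetaC 3) 3 (idxB 3 0 (by norm_num)) *
      phiSer ℂ (zetaC 3) 3 (idxB 3 1 (by norm_num)) *
      phiSer ℂ (zetaC 3) 3 (idxB 3 2 (by norm_num)) =
      HahnSeries.single (0 : ℤ) ((3 : ℂ) ^ 12) * (u1 * u2 * u3 * u4) := by
    rw [h1, h2, h3, h4]
    have hs : HahnSeries.single (((3 * 3 : ℕ) : ℤ) - ((3 : ℕ) : ℤ))
          ((((idxI 3 (by norm_num)).a : ℕ) : ℂ) ^ 12 * ((zetaC 3 ^ 0 : ℂˣ) : ℂ)) *
        HahnSeries.single (((1 : ℕ) : ℤ) - ((3 : ℕ) : ℤ))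
          ((((idxB 3 0 (by norm_num)).a : ℕ) : ℂ) ^ 12 * ((zetaC 3 ^ 0 : ℂˣ) : ℂ)) *
        HahnSeries.single (((1 : ℕ) : ℤ) - ((3 : ℕ) : ℤ))
          ((((idxB 3 1 (by norm_num)).a : ℕ) : ℂ) ^ 12 * ((zetaC 3 ^ 1 : ℂˣ) : ℂ)) *
        HahnSeries.single (((1 : ℕ) : ℤ) - ((3 : ℕ) : ℤ))
          ((((idxB 3 2 (by norm_num)).a : ℕ) : ℂ) ^ 12 * ((zetaC 3 ^ 2 : ℂˣ) : ℂ)) =
        HahnSeries.single (0 : ℤ) ((3 : ℂ) ^ 12) := by
      rw [HahnSeries.single_mul_single, HahnSeries.single_mul_single,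
        HahnSeries.single_mul_single]
      congr 1
      rw [pow_zero, pow_one, Units.val_one, Units.val_pow_eq_pow_val]
      simp only [idxI, idxB]
      have : ((3 : ℕ) : ℂ) ^ 12 * 1 * (((1 : ℕ) : ℂ) ^ 12 * 1) *
          (((1 : ℕ) : ℂ) ^ 12 * ((zetaC 3 : ℂˣ) : ℂ)) *
          (((1 : ℕ) : ℂ) ^ 12 * ((zetaC 3 : ℂˣ) : ℂ) ^ 2) =
          (3 : ℂ) ^ 12 * (((zetaC 3 : ℂˣ) : ℂ) * (((zetaC 3 : ℂˣ) : ℂ) * ((zetaC 3 : ℂˣ) : ℂ))) := by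
        push_cast
        ring
      rw [this, hζ3, mul_one]
    rw [← hs]
    ring
  rw [HahnSeries.coeff_sub, hprod]
  have hu := ((hu1.mul hu2).mul hu3).mul hu4
  obtain ⟨hc0, hclt⟩ := coeff_single_mul_of_isOneUnit hu (0 : ℤ) ((3 : ℂ) ^ 12)
  have h312 : ((3 : LaurentSeries ℂ) ^ 12) = HahnSeries.C ((3 : ℂ) ^ 12) := by
    rw [map_pow, map_ofNat]
  rcases lt_or_eq_of_le hn with hlt | rfl
  · rw [hclt n hlt, h312, HahnSeries.C_apply, HahnSeries.coeff_single_of_ne hlt.ne, sub_zero]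
  · rw [hc0, h312, HahnSeries.C_apply, HahnSeries.coeff_single_same, sub_self]

theorem hes_coeff_inv {n : ℤ} (hn : n ≤ 0) (h3 : (3 : ℤ) ∣ n) :
    ((phiSer ℂ (zetaC 3) 3 (idxI 3 (by norm_num)))⁻¹ +
      (phiSer ℂ (zetaC 3) 3 (idxB 3 0 (by norm_num)))⁻¹ +
      (phiSer ℂ (zetaC 3) 3 (idxB 3 1 (by norm_num)))⁻¹ +
      (phiSer ℂ (zetaC 3) 3 (idxB 3 2 (by norm_num)))⁻¹ -
      HahnSeries.C ((3 ^ 12 : ℂ)⁻¹) *
        (jtSer ℂ 3 ^ 2 - 1512 * jtSer ℂ 3 + 177876)).coeff n = 0 := by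
  have hζ := zetaC_pow_self 3
  rw [inv_phiSer_idxI, inv_phiSer_idxB _ _ hζ, inv_phiSer_idxB _ _ hζ, inv_phiSer_idxB _ _ hζ]
  rw [pow_two (jtSer ℂ 3)]
  have hJ2 : LTrunc (jtSer ℂ 3 * jtSer ℂ 3) (-6) 6 _ :=
    (lt_jtSer_three.mul lt_jtSer_three).cast (show (-3 : ℤ) + -3 = -6 by norm_num)
  have hJ1 : LTrunc (1512 * jtSer ℂ 3) (-6) 6 _ :=
    (((LTrunc.ofNat (R := ℂ) 1512 6).mul lt_jtSer_three).cast
      (show (0 : ℤ) + -3 = -3 by norm_num)).shift' 3 (by norm_num) (by norm_num)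
  have hc : LTrunc (177876 : LaurentSeries ℂ) (-6) 6 _ :=
    (LTrunc.ofNat (R := ℂ) 177876 0).shift' 6 (by norm_num) (by norm_num)
  have hU : LTrunc (phiQi ℂ 3 - (jtSer ℂ 3 * jtSer ℂ 3 - 1512 * jtSer ℂ 3 + 177876)) (-6) 6 _ :=
    lt_phiQi_three.sub ((hJ2.sub hJ1).add hc)
  have h0 := hU.coeff_eq_zero_of_dvd 3 (by decide) (show n ≤ -6 + ((6 : ℕ) : ℤ) by simpa using hn) h3
  rw [HahnSeries.coeff_sub] at h0
  rw [HahnSeries.coeff_sub, HahnSeries.coeff_add, HahnSeries.coeff_add, HahnSeries.coeff_add,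
    coeff_C_mul', coeff_C_mul',
    coeff_twist_of_dvd 3 (zetaC_three_pow 0) _ (by exact_mod_cast h3),
    coeff_twist_of_dvd 3 (zetaC_three_pow 1) _ (by exact_mod_cast h3),
    coeff_twist_of_dvd 3 (zetaC_three_pow 2) _ (by exact_mod_cast h3),
    lt_phiPi_three.low n (by omega), add_zero, add_zero, add_zero]
  have h4 : (((3 : ℕ) : ℂ) ^ 12)⁻¹ = ((3 ^ 12 : ℂ)⁻¹) := by norm_num
  rw [h4, ← mul_sub, h0, mul_zero]

theorem hes_coeff_inv_pairs {n : ℤ} (hn : n ≤ 0) (h3 : (3 : ℤ) ∣ n) :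
    ((phiSer ℂ (zetaC 3) 3 (idxI 3 (by norm_num)))⁻¹ *
        ((phiSer ℂ (zetaC 3) 3 (idxB 3 0 (by norm_num)))⁻¹ +
          (phiSer ℂ (zetaC 3) 3 (idxB 3 1 (by norm_num)))⁻¹ +
          (phiSer ℂ (zetaC 3) 3 (idxB 3 2 (by norm_num)))⁻¹) +
      ((phiSer ℂ (zetaC 3) 3 (idxB 3 0 (by norm_num)))⁻¹ *
          (phiSer ℂ (zetaC 3) 3 (idxB 3 1 (by norm_num)))⁻¹ +
        (phiSer ℂ (zetaC 3) 3 (idxB 3 0 (by norm_num)))⁻¹ *
          (phiSer ℂ (zetaC 3) 3 (idxB 3 2 (by norm_num)))⁻¹ +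
        (phiSer ℂ (zetaC 3) 3 (idxB 3 1 (by norm_num)))⁻¹ *
          (phiSer ℂ (zetaC 3) 3 (idxB 3 2 (by norm_num)))⁻¹) -
      HahnSeries.C ((3 ^ 12 : ℂ)⁻¹) * (72 * jtSer ℂ 3 + 19926)).coeff n = 0 := by
  have hζ := zetaC_pow_self 3
  rw [inv_phiSer_idxI, inv_phiSer_idxB _ _ hζ, inv_phiSer_idxB _ _ hζ, inv_phiSer_idxB _ _ hζ]
  -- the mixed term
  have key : HahnSeries.C ((((3 : ℕ) : ℂ) ^ 12)⁻¹) * phiQi ℂ 3 *
      (twist (zetaC 3 ^ 0) (phiPi ℂ 3) + twist (zetaC 3 ^ 1) (phiPi ℂ 3) +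
        twist (zetaC 3 ^ 2) (phiPi ℂ 3)) =
      HahnSeries.C ((((3 : ℕ) : ℂ) ^ 12)⁻¹) *
        (twist (zetaC 3 ^ 0) (phiQi ℂ 3 * phiPi ℂ 3) + twist (zetaC 3 ^ 1) (phiQi ℂ 3 * phiPi ℂ 3) +
          twist (zetaC 3 ^ 2) (phiQi ℂ 3 * phiPi ℂ 3)) := by
    rw [map_mul, map_mul, map_mul, twist_phiQi 3 (zetaC_three_pow 0),
      twist_phiQi 3 (zetaC_three_pow 1), twist_phiQi 3 (zetaC_three_pow 2)]
    ring
  rw [key]
  have hlow : ∀ b : ℕ, ∀ m : ℤ, m < 2 → (twist (zetaC 3 ^ b) (phiPi ℂ 3)).coeff m = 0 :=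
    fun b => twist_coeff_eq_zero lt_phiPi_three.low
  have hn4 : n < 2 + 2 := by omega
  have hQP : LTrunc (phiQi ℂ 3 * phiPi ℂ 3) (-4) 4 _ :=
    ((lt_phiQi_three.mono (show 4 ≤ 6 by norm_num)).mul lt_phiPi_three).cast
      (show (-6 : ℤ) + 2 = -4 by norm_num)
  have hJ1 : LTrunc (72 * jtSer ℂ 3) (-4) 4 _ :=
    (((LTrunc.ofNat (R := ℂ) 72 6).mul lt_jtSer_three).cast
      (show (0 : ℤ) + -3 = -3 by norm_num)).shift' 1 (by norm_num) (by norm_num)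
  have hc : LTrunc (19926 : LaurentSeries ℂ) (-4) 4 _ :=
    (LTrunc.ofNat (R := ℂ) 19926 0).shift' 4 (by norm_num) (by norm_num)
  have hU : LTrunc (phiQi ℂ 3 * phiPi ℂ 3 + phiQi ℂ 3 * phiPi ℂ 3 + phiQi ℂ 3 * phiPi ℂ 3 -
      (72 * jtSer ℂ 3 + 19926)) (-4) 4 _ :=
    ((hQP.add hQP).add hQP).sub (hJ1.add hc)
  have h0 := hU.coeff_eq_zero_of_dvd 3 (by decide) (show n ≤ -4 + ((4 : ℕ) : ℤ) by simpa using hn) h3
  rw [HahnSeries.coeff_sub, HahnSeries.coeff_add, HahnSeries.coeff_add] at h0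
  rw [HahnSeries.coeff_sub, HahnSeries.coeff_add, HahnSeries.coeff_add, HahnSeries.coeff_add,
    coeff_C_mul', coeff_C_mul', HahnSeries.coeff_add, HahnSeries.coeff_add,
    coeff_twist_of_dvd 3 (zetaC_three_pow 0) _ (by exact_mod_cast h3),
    coeff_twist_of_dvd 3 (zetaC_three_pow 1) _ (by exact_mod_cast h3),
    coeff_twist_of_dvd 3 (zetaC_three_pow 2) _ (by exact_mod_cast h3),
    coeff_mul_eq_zero_of_lt (hlow 0) (hlow 1) hn4, coeff_mul_eq_zero_of_lt (hlow 0) (hlow 2) hn4,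
    coeff_mul_eq_zero_of_lt (hlow 1) (hlow 2) hn4, add_zero, add_zero, add_zero]
  have h4 : (((3 : ℕ) : ℂ) ^ 12)⁻¹ = ((3 ^ 12 : ℂ)⁻¹) := by norm_num
  rw [h4, ← mul_sub, h0, mul_zero]

/-- **(HC)** -/
theorem hesCoeffStatement : HesCoeffStatement := by
  unfold HesCoeffStatement
  intro A B0 B1 B2 J
  refine ⟨fun m => ?_, fun m => ?_, fun m => ?_, fun m => ?_⟩
  · exact hes_coeff_sum (by omega) ⟨-(m : ℤ), by ring⟩
  · exact hes_coeff_prod (by omega)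
  · exact hes_coeff_inv (by omega) ⟨-(m : ℤ), by ring⟩
  · exact hes_coeff_inv_pairs (by omega) ⟨-(m : ℤ), by ring⟩

end

end Fermat.Agent.SS
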