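/-
(SS-q) HOST-B leaf (LC) — helper6 — **`LegCoeffStatement`**: the coefficients in degrees
`0, -2, -4, …` of the elementary symmetric functions of the three units of determinant `2`.
-/
import Mathlib
import Fermat.Agent.SS.HOSTB_helper6_Data

set_option autoImplicit false
set_option linter.unusedSectionVars false
set_option linter.style.haveILetI false

open HahnSeries ModularCurve Fermat.Agent.Igusa

namespace Fermat.Agent.SS

noncomputable section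

/-! ### truncated data at level 2 -/

theorem lt_phiP_two : LTrunc (phiP ℂ 2) (-1) 1 (lconv cEta (ldil 2 cEtaInv)) := by
  rw [phiP_eq, mul_assoc]
  have h1 := (lt_etaUnitSer ℂ).mono (show 1 ≤ 4 by norm_num)
  have h2 := ((lt_etaUnitInvSer ℂ).qExpand 2).mono (show 1 ≤ 2 * 4 by norm_num)
  exact ((h1.mul h2).single_mul _).cast (by norm_num)

theorem lt_phiPi_two : LTrunc (phiPi ℂ 2) 1 0 (lconv cEtaInv (ldil 2 cEta)) := by
  rw [phiPi, mul_assoc]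
  have h1 := (lt_etaUnitInvSer ℂ).mono (show 0 ≤ 4 by norm_num)
  have h2 := ((lt_etaUnitSer ℂ).qExpand 2).mono (show 0 ≤ 2 * 4 by norm_num)
  exact ((h1.mul h2).single_mul _).cast (by norm_num)

theorem lt_phiQ_two : LTrunc (phiQ ℂ 2) 2 0 (lconv (ldil (2 * 2) cEta) (ldil 2 cEtaInv)) := by
  rw [phiQ_eq, mul_assoc]
  have h1 := ((lt_etaUnitSer ℂ).qExpand (2 * 2)).mono (show 0 ≤ 2 * 2 * 4 by norm_num)
  have h2 := ((lt_etaUnitInvSer ℂ).qExpand 2).mono (show 0 ≤ 2 * 4 by norm_num)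
  exact ((h1.mul h2).single_mul _).cast (by norm_num)

theorem lt_phiQi_two : LTrunc (phiQi ℂ 2) (-2) 2 (lconv (ldil (2 * 2) cEtaInv) (ldil 2 cEta)) := by
  rw [phiQi, mul_assoc]
  have h1 := ((lt_etaUnitInvSer ℂ).qExpand (2 * 2)).mono (show 2 ≤ 2 * 2 * 4 by norm_num)
  have h2 := ((lt_etaUnitSer ℂ).qExpand 2).mono (show 2 ≤ 2 * 4 by norm_num)
  exact ((h1.mul h2).single_mul _).cast (by norm_num)

theorem lt_jtSer_two : LTrunc (jtSer ℂ 2) (-2) 2 (ldil 2 cJ) := by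
  have h := ((lt_jqModC ℂ).qExpand 2).mono (show 2 ≤ 2 * 4 by norm_num)
  exact h.cast (by norm_num)

/-! ### the three statements -/

theorem leg_coeff_sum {n : ℤ} (hn : n ≤ 0) (h2 : (2 : ℤ) ∣ n) :
    (phiSer ℂ (zetaC 2) 2 (idxI 2 (by norm_num)) + phiSer ℂ (zetaC 2) 2 (idxB 2 0 (by norm_num)) +
      phiSer ℂ (zetaC 2) 2 (idxB 2 1 (by norm_num)) + 48).coeff n = 0 := by
  have hζ := zetaC_pow_self 2
  have hξ : ∀ b : ℕ, (zetaC 2 ^ b) ^ 2 = 1 := fun b => by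
    rw [← pow_mul, mul_comm, pow_mul, hζ, one_pow]
  rw [phiSer_idxI, phiSer_idxB _ _ hζ, phiSer_idxB _ _ hζ]
  have hU : LTrunc (phiP ℂ 2 + phiP ℂ 2 + 48) (-1) 1 _ :=
    (lt_phiP_two.add lt_phiP_two).add ((LTrunc.ofNat (R := ℂ) 48 0).shift' 1 (by norm_num) (by norm_num))
  have h0 := hU.coeff_eq_zero_of_dvd 2 (by decide) (show n ≤ -1 + ((1 : ℕ) : ℤ) by simpa using hn) h2
  rw [HahnSeries.coeff_add, HahnSeries.coeff_add] at h0
  rw [HahnSeries.coeff_add, HahnSeries.coeff_add, HahnSeries.coeff_add, coeff_C_mul',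
    lt_phiQ_two.low n (by omega), mul_zero, zero_add,
    coeff_twist_of_dvd 2 (hξ 0) _ (by exact_mod_cast h2),
    coeff_twist_of_dvd 2 (hξ 1) _ (by exact_mod_cast h2)]
  exact h0

theorem leg_coeff_prod {n : ℤ} (hn : n ≤ 0) :
    (phiSer ℂ (zetaC 2) 2 (idxI 2 (by norm_num)) * phiSer ℂ (zetaC 2) 2 (idxB 2 0 (by norm_num)) *
      phiSer ℂ (zetaC 2) 2 (idxB 2 1 (by norm_num)) + 4096).coeff n = 0 := by
  obtain ⟨u1, hu1, h1⟩ := phiSer_eq (A := ℂ) (zetaC 2) 2 (idxI 2 (by norm_num))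
  obtain ⟨u2, hu2, h2⟩ := phiSer_eq (A := ℂ) (zetaC 2) 2 (idxB 2 0 (by norm_num))
  obtain ⟨u3, hu3, h3⟩ := phiSer_eq (A := ℂ) (zetaC 2) 2 (idxB 2 1 (by norm_num))
  rw [idxI_e, idxI_c] at h1
  rw [idxB_e, idxB_c] at h2 h3
  have hprod : phiSer ℂ (zetaC 2) 2 (idxI 2 (by norm_num)) *
      phiSer ℂ (zetaC 2) 2 (idxB 2 0 (by norm_num)) *
      phiSer ℂ (zetaC 2) 2 (idxB 2 1 (by norm_num)) =
      HahnSeries.single (0 : ℤ) (-4096 : ℂ) * (u1 * u2 * u3) := by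
    rw [h1, h2, h3]
    have hs : HahnSeries.single (((2 * 2 : ℕ) : ℤ) - ((2 : ℕ) : ℤ))
          ((((idxI 2 (by norm_num)).a : ℕ) : ℂ) ^ 12 * ((zetaC 2 ^ 0 : ℂˣ) : ℂ)) *
        HahnSeries.single (((1 : ℕ) : ℤ) - ((2 : ℕ) : ℤ))
          ((((idxB 2 0 (by norm_num)).a : ℕ) : ℂ) ^ 12 * ((zetaC 2 ^ 0 : ℂˣ) : ℂ)) *
        HahnSeries.single (((1 : ℕ) : ℤ) - ((2 : ℕ) : ℤ))
          ((((idxB 2 1 (by norm_num)).a : ℕ) : ℂ) ^ 12 * ((zetaC 2 ^ 1 : ℂˣ) : ℂ)) =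
        HahnSeries.single (0 : ℤ) (-4096 : ℂ) := by
      rw [HahnSeries.single_mul_single, HahnSeries.single_mul_single]
      congr 1
      rw [pow_zero, pow_one, Units.val_one, coe_zetaC_two]
      simp only [idxI, idxB]
      norm_num
    rw [← hs]
    ring
  rw [HahnSeries.coeff_add, hprod]
  have hu := (hu1.mul hu2).mul hu3
  obtain ⟨hc0, hclt⟩ := coeff_single_mul_of_isOneUnit hu (0 : ℤ) (-4096 : ℂ)
  have h4096 : (4096 : LaurentSeries ℂ) = HahnSeries.C (4096 : ℂ) := (map_ofNat _ 4096).symm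
  rcases lt_or_eq_of_le hn with hlt | rfl
  · rw [hclt n hlt, h4096, HahnSeries.C_apply, HahnSeries.coeff_single_of_ne hlt.ne, add_zero]
  · rw [hc0, h4096, HahnSeries.C_apply, HahnSeries.coeff_single_same]
    norm_num

theorem leg_coeff_inv {n : ℤ} (hn : n ≤ 0) (h2 : (2 : ℤ) ∣ n) :
    ((phiSer ℂ (zetaC 2) 2 (idxI 2 (by norm_num)))⁻¹ +
      (phiSer ℂ (zetaC 2) 2 (idxB 2 0 (by norm_num)))⁻¹ +
      (phiSer ℂ (zetaC 2) 2 (idxB 2 1 (by norm_num)))⁻¹ -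
      HahnSeries.C (4096⁻¹ : ℂ) * (jtSer ℂ 2 - 768)).coeff n = 0 := by
  have hζ := zetaC_pow_self 2
  have hξ : ∀ b : ℕ, (zetaC 2 ^ b) ^ 2 = 1 := fun b => by
    rw [← pow_mul, mul_comm, pow_mul, hζ, one_pow]
  rw [inv_phiSer_idxI, inv_phiSer_idxB _ _ hζ, inv_phiSer_idxB _ _ hζ]
  have hU : LTrunc (phiQi ℂ 2 - (jtSer ℂ 2 - 768)) (-2) 2 _ :=
    lt_phiQi_two.sub (lt_jtSer_two.sub
      ((LTrunc.ofNat (R := ℂ) 768 0).shift' 2 (by norm_num) (by norm_num)))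
  have h0 := hU.coeff_eq_zero_of_dvd 2 (by decide) (show n ≤ -2 + ((2 : ℕ) : ℤ) by simpa using hn) h2
  rw [HahnSeries.coeff_sub] at h0
  rw [HahnSeries.coeff_sub, HahnSeries.coeff_add, HahnSeries.coeff_add, coeff_C_mul', coeff_C_mul',
    coeff_twist_of_dvd 2 (hξ 0) _ (by exact_mod_cast h2),
    coeff_twist_of_dvd 2 (hξ 1) _ (by exact_mod_cast h2),
    lt_phiPi_two.low n (by omega), add_zero, add_zero]
  have h3 : (((2 : ℕ) : ℂ) ^ 12)⁻¹ = (4096⁻¹ : ℂ) := by norm_num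
  rw [h3, ← mul_sub, h0, mul_zero]

/-- **(LC)** -/
theorem legCoeffStatement : LegCoeffStatement := by
  unfold LegCoeffStatement
  intro A B C J
  refine ⟨fun m => ?_, fun m => ?_, fun m => ?_⟩
  · exact leg_coeff_sum (by omega) ⟨-(m : ℤ), by ring⟩
  · exact leg_coeff_prod (by omega)
  · exact leg_coeff_inv (by omega) ⟨-(m : ℤ), by ring⟩

end

end Fermat.Agent.SS
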