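/-
(SS-q) HOST-B leaf (HB-LD) — helper6 — **descent along a linearly disjoint homomorphism**:
for `φ : E₀ → E` over `k → L` preserving linear independence (`IsLinDisjHom k L φ`) and an
intermediate field `k ⊆ F₀ ⊆ E₀`:
* `linearIndependent_adjoin_image` : a family which is linearly independent over `F₀` has an image
  which is linearly independent over `L·φ(F₀)` (generalises `IsLinDisjHom.linearIndependent_adjoin`
  from `F₀ = k(x)` to arbitrary `F₀`);
* `mem_of_map_mem_adjoin` : `φ z ∈ L·φ(F₀) → z ∈ F₀`.
-/
import Mathlib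
import Fermat.Agent.X0N.LD_helper1_Abstract

set_option autoImplicit false
set_option linter.unusedSectionVars false
set_option linter.style.haveILetI false

namespace Fermat.Agent.SS

open IntermediateField Fermat.Agent.X0N

section Desc

variable {k L E₀ E : Type*} [Field k] [Field L] [Algebra k L] [Field E₀] [Field E]
  [Algebra k E₀] [Algebra L E] {φ : E₀ →+* E}

/-- `IsLinDisjHom.linIndep` for index types in any universe. -/
theorem linIndep_of_isLinDisjHom (hφ : IsLinDisjHom k L φ) {ι : Type*} {f : ι → E₀}
    (h : LinearIndependent k f) : LinearIndependent L (fun i => φ (f i)) := by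
  classical
  rw [linearIndependent_iff_finset_linearIndependent]
  intro s
  have h1 : LinearIndependent k (fun i : Fin s.card => f ((s.equivFin.symm i : s) : ι)) :=
    h.comp _ (fun a b hab => s.equivFin.symm.injective (Subtype.ext hab))
  have h2 := hφ.linIndep h1
  have h3 := h2.comp s.equivFin s.equivFin.injective
  convert h3 using 1
  ext i
  simp

theorem map_smul_of_isLinDisjHom (hφ : IsLinDisjHom k L φ) (c : k) (x : E₀) :
    φ (c • x) = algebraMap k L c • φ x := by
  rw [Algebra.smul_def, map_mul, hφ.map_algebraMap, Algebra.smul_def]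

/-- the `L`-algebra generated by `φ(F₀)` is spanned over `L` by the image of a `k`-basis of
`F₀`. -/
theorem adjoin_image_le_span_basis (hφ : IsLinDisjHom k L φ) (F₀ : IntermediateField k E₀)
    {A : Type*} (e : Module.Basis A k F₀) :
    (Algebra.adjoin L (φ '' (F₀ : Set E₀))).toSubmodule ≤
      Submodule.span L (Set.range fun α => φ (e α : E₀)) := by
  classical
  have hM : (φ '' (F₀ : Set E₀)) =
      ((F₀.toSubalgebra.toSubmonoid.map (φ : E₀ →* E) : Submonoid E) : Set E) := by
    ext x
    simp
  rw [Algebra.adjoin_eq_span, hM, Submonoid.closure_eq, Submodule.span_le]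
  rintro _ ⟨a, ha, rfl⟩
  -- `a ∈ F₀` is a `k`-combination of the basis
  obtain ⟨a', rfl⟩ : ∃ a' : F₀, (a' : E₀) = a := ⟨⟨a, ha⟩, rfl⟩
  have h1 : (a' : E₀) = ∑ α ∈ (e.repr a').support, (e.repr a' α) • (e α : E₀) := by
    have h2 := congrArg (fun y : F₀ => (y : E₀)) (e.linearCombination_repr a')
    simp only [Finsupp.linearCombination_apply, Finsupp.sum] at h2
    rw [← h2]
    simp
  show (φ : E₀ →* E) (a' : E₀) ∈ _
  rw [MonoidHom.coe_coe, h1, map_sum]
  refine Submodule.sum_mem _ (fun α _ => ?_)
  rw [map_smul_of_isLinDisjHom hφ]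
  exact Submodule.smul_mem _ _ (Submodule.subset_span ⟨α, rfl⟩)

/-- **linear disjointness over an intermediate field, algebra form.** -/
theorem linearIndependent_algebraAdjoin_image (hφ : IsLinDisjHom k L φ)
    (F₀ : IntermediateField k E₀) {ι : Type*} {b : ι → E₀} (hb : LinearIndependent F₀ b) :
    LinearIndependent (Algebra.adjoin L (φ '' (F₀ : Set E₀))) (fun i => φ (b i)) := by
  classical
  set e := Module.Basis.ofVectorSpace k F₀ with he
  have h2 := linearIndependent_smul e.linearIndependent hb
  have h3 := linIndep_of_isLinDisjHom hφ h2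
  have h4 : LinearIndependent L
      (fun p : Module.Basis.ofVectorSpaceIndex k F₀ × ι => φ (e p.1 : E₀) * φ (b p.2)) := by
    have e' : (fun p : Module.Basis.ofVectorSpaceIndex k F₀ × ι => φ (e p.1 : E₀) * φ (b p.2)) =
        fun p => φ (e p.1 • b p.2) := by
      ext p : 1
      rw [IntermediateField.smul_def, smul_eq_mul, map_mul]
    rw [e']
    exact h3
  rw [linearIndependent_iff']
  intro s g hg i hi
  have hspan : ∀ j, ∃ c : Module.Basis.ofVectorSpaceIndex k F₀ →₀ L,
      (c.sum fun α a => a • φ (e α : E₀)) = (g j : E) := by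
    intro j
    have h := adjoin_image_le_span_basis hφ F₀ e (g j).2
    exact Finsupp.mem_span_range_iff_exists_finsupp.mp h
  choose c hc using hspan
  set As := s.biUnion (fun j => (c j).support) with hAs
  rw [linearIndependent_iff'] at h4
  have h6 : ∑ p ∈ As ×ˢ s, (c p.2 p.1) • (φ (e p.1 : E₀) * φ (b p.2)) = 0 := by
    rw [Finset.sum_product_right, ← hg]
    apply Finset.sum_congr rfl
    intro j hj
    rw [Subalgebra.smul_def, ← hc j, smul_eq_mul, Finsupp.sum, Finset.sum_mul]
    have hsub : (c j).support ⊆ As := Finset.subset_biUnion_of_mem (fun j => (c j).support) hj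
    rw [← Finset.sum_subset hsub (fun α _ hα => by
      simp [Finsupp.notMem_support_iff.mp hα])]
    apply Finset.sum_congr rfl
    intro α _
    rw [smul_mul_assoc]
  have h7 := h4 (As ×ˢ s) (fun p => c p.2 p.1) h6
  have h8 : c i = 0 := by
    ext α
    by_cases hα : α ∈ (c i).support
    · exact h7 (α, i) (Finset.mem_product.mpr
        ⟨Finset.mem_biUnion.mpr ⟨i, hi, hα⟩, hi⟩)
    · exact Finsupp.notMem_support_iff.mp hα
  apply Subtype.ext
  rw [← hc i, h8]
  simp

open IntermediateField.algebraAdjoinAdjoin in
/-- **linear disjointness over an intermediate field**: a family which is linearly independent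
over `F₀` has an image which is linearly independent over `L·φ(F₀)`. -/
theorem linearIndependent_adjoin_image (hφ : IsLinDisjHom k L φ)
    (F₀ : IntermediateField k E₀) {ι : Type*} {b : ι → E₀} (hb : LinearIndependent F₀ b) :
    LinearIndependent (adjoin L (φ '' (F₀ : Set E₀))) (fun i => φ (b i)) :=
  (LinearIndependent.iff_fractionRing (Algebra.adjoin L (φ '' (F₀ : Set E₀)))
    (adjoin L (φ '' (F₀ : Set E₀)))).mp (linearIndependent_algebraAdjoin_image hφ F₀ hb)

/-- **(HB-LD) descent**: an element of `E₀` whose image lies in `L·φ(F₀)` lies in `F₀`. -/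
theorem mem_of_map_mem_adjoin (hφ : IsLinDisjHom k L φ) (F₀ : IntermediateField k E₀) (z : E₀)
    (hz : φ z ∈ adjoin L (φ '' (F₀ : Set E₀))) : z ∈ F₀ := by
  by_contra hzF
  have hb : LinearIndependent F₀ ![(1 : E₀), z] := by
    rw [LinearIndependent.pair_iff]
    intro s t hst
    have ht : t = 0 := by
      by_contra ht
      apply hzF
      have h1 : z = -(s : E₀) * (t : E₀)⁻¹ := by
        have ht' : (t : E₀) ≠ 0 := fun h => ht (Subtype.ext h)
        rw [IntermediateField.smul_def, IntermediateField.smul_def, smul_eq_mul, smul_eq_mul,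
          mul_one] at hst
        field_simp
        linear_combination hst
      rw [h1]
      exact F₀.mul_mem (F₀.neg_mem s.2) (F₀.inv_mem t.2)
    refine ⟨?_, ht⟩
    rw [ht, zero_smul, add_zero, IntermediateField.smul_def, smul_eq_mul, mul_one] at hst
    exact Subtype.ext hst
  have h := linearIndependent_adjoin_image hφ F₀ hb
  have h' : LinearIndependent (adjoin L (φ '' (F₀ : Set E₀))) ![φ 1, φ z] := by
    convert h using 1
    ext i
    fin_cases i <;> rfl
  rw [LinearIndependent.pair_iff] at h'
  have h1 := h' ⟨φ z, hz⟩ (-1) (by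
    rw [IntermediateField.smul_def, smul_eq_mul, map_one, mul_one, neg_smul, one_smul,
      add_neg_cancel])
  have h2 : (-1 : ↥(adjoin L (φ '' (F₀ : Set E₀)))) = 0 := h1.2
  exact one_ne_zero (neg_eq_zero.mp h2)

end Desc

end Fermat.Agent.SS
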