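/-
(SS-q) HOST-B — helper8 — part 1: level raising and dilation on helper2's fields `fieldM`.

For `r ∣ m` the substitution `t ↦ t ^ (m r)` maps `M_w = fieldM ℂ ζ_w w` into
`M_{w m} = fieldM ℂ ζ_{w m} (w m)`; on the analytic side it is the dilation `z ↦ r z`.
-/
import Mathlib
import Fermat.Agent.Igusa.A_helper2_Bridge
import Fermat.Agent.JA.ES1_helper2_Dilate

set_option autoImplicit false
set_option linter.unusedSectionVars false

open HahnSeries ModularCurve Fermat.Agent.Igusa Fermat.Agent.X0N Fermat.Agent.RatStr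
open UpperHalfPlane hiding I
open scoped MatrixGroups

namespace Fermat.Agent.SS

noncomputable section

/-! ### the index map `α ↦ α · diag(r, 1)` -/

section Idx

variable {w m : ℕ}

/-- `(a b; 0 d) ↦ (a r  b; 0 d)`, from level `w` to level `w m` (`r ∣ m`). -/
def liftIdx (α : Idx w) (r : ℕ) (hr0 : 0 < r) (hr : r ∣ m) : Idx (w * m) :=
  ⟨α.a * r, α.b, α.d, Nat.mul_pos α.ha hr0, α.hd, by
    have h : α.a * r * α.d = (α.a * α.d) * r := by ring
    rw [h]
    exact Nat.mul_dvd_mul α.hdvd hr, α.hb⟩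

@[simp] theorem liftIdx_a (α : Idx w) (r : ℕ) (hr0 : 0 < r) (hr : r ∣ m) :
    (liftIdx α r hr0 hr).a = α.a * r := rfl
@[simp] theorem liftIdx_b (α : Idx w) (r : ℕ) (hr0 : 0 < r) (hr : r ∣ m) :
    (liftIdx α r hr0 hr).b = α.b := rfl
@[simp] theorem liftIdx_d (α : Idx w) (r : ℕ) (hr0 : 0 < r) (hr : r ∣ m) :
    (liftIdx α r hr0 hr).d = α.d := rfl

theorem liftIdx_e (α : Idx w) (r : ℕ) (hr0 : 0 < r) (hr : r ∣ m) :
    (liftIdx α r hr0 hr).e = m * r * α.e := by
  obtain ⟨k, hk⟩ := α.d_dvd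
  have hd : 0 < α.d := α.hd
  simp only [Idx.e, liftIdx_a, liftIdx_d]
  have h1 : w * m / α.d = k * m :=
    Nat.div_eq_of_eq_mul_right hd (by rw [← mul_assoc, ← hk])
  have h2 : w / α.d = k := Nat.div_eq_of_eq_mul_right hd hk
  rw [h1, h2]
  ring

theorem liftIdx_c (α : Idx w) (r : ℕ) (hr0 : 0 < r) (hr : r ∣ m) :
    (liftIdx α r hr0 hr).c = m * α.c := by
  obtain ⟨k, hk⟩ := α.d_dvd
  have hd : 0 < α.d := α.hd
  simp only [Idx.c, liftIdx_b, liftIdx_d]
  have h1 : w * m / α.d = k * m :=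
    Nat.div_eq_of_eq_mul_right hd (by rw [← mul_assoc, ← hk])
  have h2 : w / α.d = k := Nat.div_eq_of_eq_mul_right hd hk
  rw [h1, h2]
  ring

end Idx

/-! ### the formal side -/

section Series

variable {A : Type*} [CommRing A] (ζ : Aˣ) {w m : ℕ} [NeZero w] [NeZero m]

theorem qExpand_qExpand' (a b : ℕ) [NeZero a] [NeZero b] (c : ℕ) [NeZero c] (h : c = a * b)
    (f : LaurentSeries A) : qExpand A a (qExpand A b f) = qExpand A c f := by
  subst h
  exact qExpand_qExpand b a f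

/-- `x_{α · diag(r,1)} = x_α(t^{m r})`. -/
theorem xSer_liftIdx (α : Idx w) (r : ℕ) [NeZero r] (hr0 : 0 < r) (hr : r ∣ m) :
    xSer A ζ (w * m) (liftIdx α r hr0 hr) = qExpand A (m * r) (xSer A (ζ ^ m) w α) := by
  rw [xSer, xSer, qExpand_qExpand' (m * r) α.e (liftIdx α r hr0 hr).e (liftIdx_e α r hr0 hr),
    liftIdx_c, pow_mul]

/-- `Δ_{α · diag(r,1)} = Δ_α(t^{m r})`. -/
theorem deltaSubSer_liftIdx (α : Idx w) (r : ℕ) [NeZero r] (hr0 : 0 < r) (hr : r ∣ m) :
    deltaSubSer A ζ (w * m) (liftIdx α r hr0 hr) =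
      qExpand A (m * r) (deltaSubSer A (ζ ^ m) w α) := by
  rw [deltaSubSer, deltaSubSer,
    qExpand_qExpand' (m * r) α.e (liftIdx α r hr0 hr).e (liftIdx_e α r hr0 hr),
    liftIdx_c, pow_mul]

theorem deltaSubSer_diag (r : ℕ) [NeZero r] (hr0 : 0 < r) (hr : r ∣ w * m) [NeZero (w * m * r)] :
    deltaSubSer A ζ (w * m) (Idx.diag (w * m) r hr hr0) = qExpand A (w * m * r) (deltaSer A) := by
  rw [deltaSubSer, Idx.diag_c, pow_zero, twist_one]
  exact qExpand_congr (Idx.diag_e r hr hr0) _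

/-- `φ_{α · diag(r,1)} = φ_α(t^{m r}) · φ_{diag(r,1)}`. -/
theorem phiSer_liftIdx (α : Idx w) (r : ℕ) [NeZero r] (hr0 : 0 < r) (hr : r ∣ m) :
    phiSer A ζ (w * m) (liftIdx α r hr0 hr) =
      qExpand A (m * r) (phiSer A (ζ ^ m) w α) *
        phiSer A ζ (w * m) (Idx.diag (w * m) r (hr.trans (dvd_mul_left m w)) hr0) := by
  haveI : NeZero (w * m * r) := ⟨mul_ne_zero (NeZero.ne _) (NeZero.ne r)⟩
  rw [phiSer, phiSer, phiSer, deltaSubSer_liftIdx, deltaSubSer_diag, map_mul, map_mul,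
    qExpand_qExpand' (m * r) w (w * m * r) (by ring), qExpand_C, liftIdx_a, Idx.diag_a]
  have h1 : qExpand A (w * m * r) (deltaSer A) * qExpand A (w * m * r) (deltaInvSer A) = 1 := by
    rw [← map_mul, deltaSer_mul_deltaInvSer, map_one]
  have h2 : (HahnSeries.C (((α.a * r : ℕ) : A) ^ 12) : LaurentSeries A) =
      HahnSeries.C ((α.a : A) ^ 12) * HahnSeries.C ((r : A) ^ 12) := by
    rw [← map_mul, Nat.cast_mul, mul_pow]
  rw [h2]
  calc HahnSeries.C ((α.a : A) ^ 12) * HahnSeries.C ((r : A) ^ 12) *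
        qExpand A (m * r) (deltaSubSer A (ζ ^ m) w α) * qExpand A (w * m) (deltaInvSer A)
      = HahnSeries.C ((α.a : A) ^ 12) * HahnSeries.C ((r : A) ^ 12) *
        qExpand A (m * r) (deltaSubSer A (ζ ^ m) w α) * qExpand A (w * m) (deltaInvSer A) *
        (qExpand A (w * m * r) (deltaSer A) * qExpand A (w * m * r) (deltaInvSer A)) := by
        rw [h1, mul_one]
    _ = _ := by ring

end Series

/-! ### the fields `M_w ⊆ M_{w m}` over `ℂ` -/

section Field

variable {w m : ℕ} [NeZero w] [NeZero m]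

/-- `hζ` for `L = ℂ`. -/
theorem hzetaC (n : ℕ) : algebraMap ℂ ℂ ((zetaC n : ℂˣ) : ℂ) = zetaH (n : ℝ) := rfl

theorem zetaC_mul_pow (w m : ℕ) [NeZero w] [NeZero m] : zetaC (w * m) ^ m = zetaC w := by
  apply Units.ext
  rw [Units.val_pow_eq_pow_val, coe_zetaC, coe_zetaC, zetaH, zetaH, ← Complex.exp_nat_mul]
  congr 1
  have hw : (w : ℂ) ≠ 0 := by exact_mod_cast NeZero.ne w
  have hm : (m : ℂ) ≠ 0 := by exact_mod_cast NeZero.ne m
  push_cast
  field_simp

theorem phiSer_ne_zero {n : ℕ} [NeZero n] (ζ : ℂˣ) (α : Idx n) : phiSer ℂ ζ n α ≠ 0 := by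
  intro h
  have h1 := (phiSer_coeff (A := ℂ) ζ n α).1
  rw [h, HahnSeries.coeff_zero] at h1
  have ha : (α.a : ℂ) ≠ 0 := by exact_mod_cast α.ha.ne'
  exact (mul_ne_zero (pow_ne_zero 12 ha) (Units.ne_zero _)) h1.symm

/-- the substitution `t ↦ t^{m r}` maps `M_w` into `M_{w m}`. -/
theorem qExpand_mul_mem_fieldM (r : ℕ) [NeZero r] (hr : r ∣ m) {x : LaurentSeries ℂ}
    (hx : x ∈ fieldM ℂ (zetaC w) w) :
    qExpand ℂ (m * r) x ∈ fieldM ℂ (zetaC (w * m)) (w * m) := by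
  have hr0 : 0 < r := Nat.pos_of_ne_zero (NeZero.ne r)
  have hle : fieldM ℂ (zetaC w) w ≤
      (fieldM ℂ (zetaC (w * m)) (w * m)).comap (qExpandAlgHomC ℂ (m * r)) := by
    rw [fieldM, IntermediateField.adjoin_le_iff]
    rintro y (⟨α, rfl⟩ | ⟨α, rfl⟩)
    · show qExpand ℂ (m * r) (xSer ℂ (zetaC w) w α) ∈ fieldM ℂ (zetaC (w * m)) (w * m)
      have h := xSer_liftIdx (zetaC (w * m)) α r hr0 hr
      rw [zetaC_mul_pow w m] at h
      rw [← h]
      exact xSer_mem_fieldM _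
    · show qExpand ℂ (m * r) (phiSer ℂ (zetaC w) w α) ∈ fieldM ℂ (zetaC (w * m)) (w * m)
      have h := phiSer_liftIdx (zetaC (w * m)) α r hr0 hr
      rw [zetaC_mul_pow w m] at h
      have hne := phiSer_ne_zero (zetaC (w * m))
        (Idx.diag (w * m) r (hr.trans (dvd_mul_left m w)) hr0)
      have h' : qExpand ℂ (m * r) (phiSer ℂ (zetaC w) w α) =
          phiSer ℂ (zetaC (w * m)) (w * m) (liftIdx α r hr0 hr) /
            phiSer ℂ (zetaC (w * m)) (w * m)
              (Idx.diag (w * m) r (hr.trans (dvd_mul_left m w)) hr0) := by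
        rw [eq_div_iff hne]
        exact h.symm
      rw [h']
      exact div_mem (phiSer_mem_fieldM _) (phiSer_mem_fieldM _)
  exact hle hx

/-- **level raising + dilation** `M_w → M_{w m}`, `x(t) ↦ x(t^{m r})`. -/
def liftM (r : ℕ) [NeZero r] (hr : r ∣ m) :
    ↥(fieldM ℂ (zetaC w) w) →+* ↥(fieldM ℂ (zetaC (w * m)) (w * m)) where
  toFun x := ⟨qExpand ℂ (m * r) (x : LaurentSeries ℂ), qExpand_mul_mem_fieldM r hr x.2⟩
  map_one' := Subtype.ext (map_one _)
  map_mul' _ _ := Subtype.ext (map_mul _ _ _)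
  map_zero' := Subtype.ext (map_zero _)
  map_add' _ _ := Subtype.ext (map_add _ _ _)

@[simp] theorem coe_liftM (r : ℕ) [NeZero r] (hr : r ∣ m) (x : ↥(fieldM ℂ (zetaC w) w)) :
    ((liftM r hr x : ↥(fieldM ℂ (zetaC (w * m)) (w * m))) : LaurentSeries ℂ) =
      qExpand ℂ (m * r) (x : LaurentSeries ℂ) := rfl

theorem liftM_injective (r : ℕ) [NeZero r] (hr : r ∣ m) :
    Function.Injective (liftM (w := w) r hr) := RingHom.injective _

/-- `liftM` on the generators `x_α`. -/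
theorem liftM_xM (r : ℕ) [NeZero r] (hr : r ∣ m) (α : Idx w) :
    liftM r hr (xM α : ↥(fieldM ℂ (zetaC w) w)) =
      xM (liftIdx α r (Nat.pos_of_ne_zero (NeZero.ne r)) hr) := by
  apply Subtype.ext
  rw [coe_liftM, coe_xM, coe_xM]
  have h := xSer_liftIdx (zetaC (w * m)) α r (Nat.pos_of_ne_zero (NeZero.ne r)) hr
  rw [zetaC_mul_pow w m] at h
  exact h.symm

/-- `liftM` on the generators `φ_α`. -/
theorem liftM_phiM (r : ℕ) [NeZero r] (hr : r ∣ m) (α : Idx w) :
    liftM r hr (phiM α : ↥(fieldM ℂ (zetaC w) w)) *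
        phiM (Idx.diag (w * m) r (hr.trans (dvd_mul_left m w))
          (Nat.pos_of_ne_zero (NeZero.ne r))) =
      phiM (liftIdx α r (Nat.pos_of_ne_zero (NeZero.ne r)) hr) := by
  apply Subtype.ext
  rw [MulMemClass.coe_mul, coe_liftM, coe_phiM, coe_phiM, coe_phiM]
  have h := phiSer_liftIdx (zetaC (w * m)) α r (Nat.pos_of_ne_zero (NeZero.ne r)) hr
  rw [zetaC_mul_pow w m] at h
  exact h.symm

theorem liftM_algebraMap (r : ℕ) [NeZero r] (hr : r ∣ m) (c : ℂ) :
    liftM r hr (algebraMap ℂ ↥(fieldM ℂ (zetaC w) w) c) =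
      algebraMap ℂ ↥(fieldM ℂ (zetaC (w * m)) (w * m)) c := by
  apply Subtype.ext
  rw [coe_liftM]
  show qExpand ℂ (m * r) (algebraMap ℂ (LaurentSeries ℂ) c) = algebraMap ℂ (LaurentSeries ℂ) c
  rw [algebraMap_laurentSeries_eq_single, qExpand_single, mul_zero]

/-! ### the analytic side -/

theorem liftIdx_toGL_smul (r : ℕ) [NeZero r] (hr : r ∣ m) (α : Idx w) (z : ℍ) :
    (liftIdx α r (Nat.pos_of_ne_zero (NeZero.ne r)) hr).toGL • z =
      α.toGL • (ModularForm.heckeDiagMatrix r • z) := by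
  apply UpperHalfPlane.ext
  rw [Idx.coe_toGL_smul, Idx.coe_toGL_smul, ModularForm.coe_heckeDiagMatrix_smul (NeZero.ne r)]
  simp only [liftIdx_a, liftIdx_b, liftIdx_d]
  push_cast
  ring

theorem diag_toGL_smul {n : ℕ} [NeZero n] (r : ℕ) [NeZero r] (hr : r ∣ n) (z : ℍ) :
    (Idx.diag n r hr (Nat.pos_of_ne_zero (NeZero.ne r))).toGL • z =
      ModularForm.heckeDiagMatrix r • z := by
  apply UpperHalfPlane.ext
  rw [Idx.coe_toGL_smul, ModularForm.coe_heckeDiagMatrix_smul (NeZero.ne r)]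
  simp

theorem jA_liftIdx (r : ℕ) [NeZero r] (hr : r ∣ m) (α : Idx w) :
    jA (liftIdx α r (Nat.pos_of_ne_zero (NeZero.ne r)) hr) = HolH.dilateHom r (jA α) := by
  ext z
  rw [jA_apply, HolH.dilateHom_apply, jA_apply, liftIdx_toGL_smul]

theorem phiHol_liftIdx (r : ℕ) [NeZero r] (hr : r ∣ m) (α : Idx w) :
    phiHol (liftIdx α r (Nat.pos_of_ne_zero (NeZero.ne r)) hr) =
      HolH.dilateHom r (phiHol α) *
        phiHol (Idx.diag (w * m) r (hr.trans (dvd_mul_left m w))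
          (Nat.pos_of_ne_zero (NeZero.ne r))) := by
  ext z
  show phiFn _ z = phiFn α (ModularForm.heckeDiagMatrix r • z) * phiFn _ z
  simp only [phiFn]
  rw [liftIdx_toGL_smul, diag_toGL_smul]
  have h1 : ModularForm.discriminant (ModularForm.heckeDiagMatrix r • z) ≠ 0 :=
    ModularForm.discriminant_ne_zero _
  simp only [liftIdx_a, Idx.diag_a]
  push_cast
  field_simp

/-- **the realisation of `liftM r` is the dilation by `r`**. -/
theorem realM_liftM (r : ℕ) [NeZero r] (hr : r ∣ m) (x : ↥(fieldM ℂ (zetaC w) w)) :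
    realM (hzetaC (w * m)) (liftM r hr x) = MerH.dilate r (realM (hzetaC w) x) := by
  induction x using fieldM_induction with
  | hconst c =>
    rw [liftM_algebraMap, realM_algebraMap, realM_algebraMap, MerH.dilate_const]
  | hx α =>
    rw [liftM_xM, realM_xM, realM_xM, MerH.dilate_ofHol, jA_liftIdx]
  | hphi α =>
    have hne : realM (hzetaC (w * m))
        (phiM (Idx.diag (w * m) r (hr.trans (dvd_mul_left m w))
          (Nat.pos_of_ne_zero (NeZero.ne r)))) ≠ 0 := by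
      rw [map_ne_zero_iff _ (realM_injective _)]
      intro h
      exact phiSer_ne_zero _ _ (congrArg Subtype.val h)
    apply mul_right_cancel₀ hne
    rw [← map_mul, liftM_phiM, realM_phiM, realM_phiM, realM_phiM, phiA_eq_ofHol, phiA_eq_ofHol,
      phiA_eq_ofHol, MerH.dilate_ofHol, ← map_mul, phiHol_liftIdx]
  | hadd x y h1 h2 => rw [map_add, map_add, map_add, map_add, h1, h2]
  | hmul x y h1 h2 => rw [map_mul, map_mul, map_mul, map_mul, h1, h2]
  | hinv x h1 => rw [map_inv₀, map_inv₀, map_inv₀, map_inv₀, h1]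

end Field

end

end Fermat.Agent.SS
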