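/-
(SS-q) HOST-B — helper8 — part 2: conjugation by `diag(r, 1)` and the action `ρ` on lifted elements.
-/
import Mathlib
import Fermat.Agent.SS.HOSTB_helper8_Lift
import Fermat.Agent.Igusa.A_helper2_Fixed

set_option autoImplicit false
set_option linter.unusedSectionVars false

open HahnSeries ModularCurve Fermat.Agent.Igusa Fermat.Agent.X0N Fermat.Agent.RatStr
open UpperHalfPlane hiding I
open scoped MatrixGroups

namespace Fermat.Agent.SS

noncomputable section

/-! ### conjugation by `diag(r, 1)` -/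

/-- `diag(r,1) g diag(r,1)⁻¹` for `g` with lower left entry `r c`. -/
def conjDiag (r : ℕ) (g : SL(2, ℤ)) (c : ℤ) (hc : g 1 0 = r * c) : SL(2, ℤ) :=
  ⟨!![g 0 0, r * g 0 1; c, g 1 1], by
    have h := g.det_coe
    rw [Matrix.det_fin_two, hc] at h
    rw [Matrix.det_fin_two_of]
    linarith⟩

@[simp] theorem conjDiag_00 (r : ℕ) (g : SL(2, ℤ)) (c : ℤ) (hc : g 1 0 = r * c) :
    conjDiag r g c hc 0 0 = g 0 0 := rfl
@[simp] theorem conjDiag_01 (r : ℕ) (g : SL(2, ℤ)) (c : ℤ) (hc : g 1 0 = r * c) :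
    conjDiag r g c hc 0 1 = r * g 0 1 := rfl
@[simp] theorem conjDiag_10 (r : ℕ) (g : SL(2, ℤ)) (c : ℤ) (hc : g 1 0 = r * c) :
    conjDiag r g c hc 1 0 = c := rfl
@[simp] theorem conjDiag_11 (r : ℕ) (g : SL(2, ℤ)) (c : ℤ) (hc : g 1 0 = r * c) :
    conjDiag r g c hc 1 1 = g 1 1 := rfl

theorem heckeDiag_smul_smul (r : ℕ) [NeZero r] (g : SL(2, ℤ)) (c : ℤ) (hc : g 1 0 = r * c)
    (z : ℍ) :
    ModularForm.heckeDiagMatrix r • (g • z) =
      conjDiag r g c hc • (ModularForm.heckeDiagMatrix r • z) := by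
  apply UpperHalfPlane.ext
  rw [ModularForm.coe_heckeDiagMatrix_smul (NeZero.ne r), coe_specialLinearGroup_apply,
    coe_specialLinearGroup_apply, ModularForm.coe_heckeDiagMatrix_smul (NeZero.ne r)]
  simp only [conjDiag_00, conjDiag_01, conjDiag_10, conjDiag_11, hc]
  simp only [algebraMap_int_eq, eq_intCast, Int.cast_mul, Int.cast_natCast, Complex.ofReal_mul,
    Complex.ofReal_intCast, Complex.ofReal_natCast]
  ring

theorem HolH.comp_dilateHom (r : ℕ) [NeZero r] (g : SL(2, ℤ)) (c : ℤ) (hc : g 1 0 = r * c)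
    (a : HolH) :
    HolH.comp g (HolH.dilateHom r a) = HolH.dilateHom r (HolH.comp (conjDiag r g c hc) a) := by
  ext z
  rw [HolH.comp_apply, HolH.dilateHom_apply, HolH.dilateHom_apply, HolH.comp_apply,
    heckeDiag_smul_smul]

/-- **precomposition with `g` after dilation = dilation after precomposition with the conjugate.**-/
theorem MerH.comp_dilate (r : ℕ) [NeZero r] (g : SL(2, ℤ)) (c : ℤ) (hc : g 1 0 = r * c)
    (x : MerH) :
    MerH.comp g (MerH.dilate r x) = MerH.dilate r (MerH.comp (conjDiag r g c hc) x) := by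
  obtain ⟨a, b, -, rfl⟩ := MerH.exists_div x
  simp only [map_div₀, MerH.dilate_ofHol, MerH.comp_algebraMap, HolH.comp_dilateHom r g c hc]

theorem HolH.dilateHom_one (a : HolH) : HolH.dilateHom 1 a = a := by
  ext z
  rw [HolH.dilateHom_apply]
  have h : ModularForm.heckeDiagMatrix 1 • z = z := by
    apply UpperHalfPlane.ext
    rw [ModularForm.coe_heckeDiagMatrix_smul one_ne_zero]
    simp
  rw [h]

theorem MerH.dilate_one (x : MerH) : MerH.dilate 1 x = x := by
  obtain ⟨a, b, -, rfl⟩ := MerH.exists_div x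
  simp only [map_div₀, MerH.dilate_ofHol, HolH.dilateHom_one]

/-! ### `ρ` on lifted elements -/

section Rho

variable {w m : ℕ} [NeZero w] [NeZero m]

/-- `ρ_{w m}(γ)` on `ι(M_w)` is `ρ_w(γ)`. -/
theorem rho_liftM_one (γ : SL(2, ℤ)) (x : ↥(fieldM ℂ (zetaC w) w)) :
    rho (hzetaC (w * m)) γ (liftM 1 (one_dvd m) x) =
      liftM 1 (one_dvd m) (rho (hzetaC w) γ x) := by
  apply realM_injective (hzetaC (w * m))
  rw [realM_rho, realM_liftM, realM_liftM, realM_rho, MerH.dilate_one, MerH.dilate_one]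

/-- `ρ_{w m}(γ)` on `B_r(M_w)`, for `γ⁻¹` with lower left entry `r c`. -/
theorem rho_liftM (r : ℕ) [NeZero r] (hr : r ∣ m) (γ : SL(2, ℤ)) (c : ℤ)
    (hc : (γ⁻¹ : SL(2, ℤ)) 1 0 = r * c) (x : ↥(fieldM ℂ (zetaC w) w)) :
    rho (hzetaC (w * m)) γ (liftM r hr x) =
      liftM r hr (rho (hzetaC w) (conjDiag r γ⁻¹ c hc)⁻¹ x) := by
  apply realM_injective (hzetaC (w * m))
  rw [realM_rho, realM_liftM, realM_liftM, realM_rho, inv_inv, MerH.comp_dilate r γ⁻¹ c hc]

end Rho

end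

end Fermat.Agent.SS
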