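/-
(SS-q) HOST-B — helper8 — part 3: stabilisers.  `ρ(γ)` fixing `j(q ·)` forces `γ⁻¹ ∈ Γ₀(q)`;
`ρ_w(γ)` fixing the two modular units `φ_{diag(w,1)}`, `φ_{(1 0; 0 w)}` forces `γ ≡ ± 1 mod w`
(`w = 2, 3`); `± Γ(w)` acts trivially.
-/
import Mathlib
import Fermat.Agent.SS.HOSTB_helper8_Conj
import Fermat.Agent.X0N.Mer_helper6_Conj

set_option autoImplicit false
set_option linter.unusedSectionVars false

open HahnSeries ModularCurve Fermat.Agent.Igusa Fermat.Agent.X0N Fermat.Agent.RatStr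
open UpperHalfPlane hiding I
open scoped MatrixGroups
open CongruenceSubgroup

namespace Fermat.Agent.SS

noncomputable section

/-! ### `-1` acts trivially -/

theorem HolH.comp_neg (γ : SL(2, ℤ)) (a : HolH) : HolH.comp (-γ) a = HolH.comp γ a := by
  ext z
  rw [HolH.comp_apply, HolH.comp_apply, ModularGroup.SL_neg_smul]

theorem MerH.comp_neg (γ : SL(2, ℤ)) (x : MerH) : MerH.comp (-γ) x = MerH.comp γ x := by
  obtain ⟨a, b, -, rfl⟩ := MerH.exists_div x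
  simp only [map_div₀, MerH.comp_algebraMap, HolH.comp_neg]

section Level

variable {n : ℕ} [NeZero n]

theorem rho_neg (γ : SL(2, ℤ)) (x : ↥(fieldM ℂ (zetaC n) n)) :
    rho (hzetaC n) (-γ) x = rho (hzetaC n) γ x := by
  apply realM_injective (hzetaC n)
  rw [realM_rho, realM_rho]
  have h : (-γ)⁻¹ = -γ⁻¹ := by
    apply inv_eq_of_mul_eq_one_right
    rw [neg_mul_neg, mul_inv_cancel]
  rw [h, MerH.comp_neg]

/-- `± Γ(n)` acts trivially on `M_n`. -/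
theorem rho_eq_self_of_mem_or_neg_mem {γ : SL(2, ℤ)} (h : γ ∈ Gamma n ∨ -γ ∈ Gamma n)
    (x : ↥(fieldM ℂ (zetaC n) n)) : rho (hzetaC n) γ x = x := by
  rcases h with h | h
  · have := Gamma_le_ker_rho (hzetaC n) h
    rw [MonoidHom.mem_ker] at this
    rw [this]
    rfl
  · have := Gamma_le_ker_rho (hzetaC n) h
    rw [MonoidHom.mem_ker] at this
    rw [← rho_neg, this]
    rfl

/-! ### the stabiliser of `j(q ·)` -/

theorem inv_mem_Gamma0_of_rho_xM_diag {q : ℕ} [NeZero q] (hq : q ∣ n) {γ : SL(2, ℤ)}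
    (h : rho (hzetaC n) γ (xM (Idx.diag n q hq (Nat.pos_of_ne_zero (NeZero.ne q)))) =
      xM (Idx.diag n q hq (Nat.pos_of_ne_zero (NeZero.ne q)))) :
    γ⁻¹ ∈ Gamma0 q := by
  rw [rho_eq_iff, realM_xM, jA_diag, jdHol_eq_jNHol] at h
  exact (comp_jNHol_eq_iff q γ⁻¹).mp h

/-! ### injectivity of `α ↦ φ_α` on the indices of full determinant -/

theorem Idx.e_eq_of_det {α : Idx n} (ha : α.a * α.d = n) : α.e = α.a * α.a := by
  have h : n / α.d = α.a := Nat.div_eq_of_eq_mul_left α.hd ha.symm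
  rw [Idx.e, h]

theorem Idx.c_eq_of_det {α : Idx n} (ha : α.a * α.d = n) : α.c = α.a * α.b := by
  have h : n / α.d = α.a := Nat.div_eq_of_eq_mul_left α.hd ha.symm
  rw [Idx.c, h]

theorem phiSer_injective_of_det {α β : Idx n} (ha : α.a * α.d = n) (hb : β.a * β.d = n)
    (h : phiSer ℂ (zetaC n) n α = phiSer ℂ (zetaC n) n β) : α = β := by
  obtain ⟨h1, h2⟩ := phiSer_coeff (A := ℂ) (zetaC n) n α
  obtain ⟨h1', h2'⟩ := phiSer_coeff (A := ℂ) (zetaC n) n β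
  have haC : (α.a : ℂ) ≠ 0 := by exact_mod_cast α.ha.ne'
  have hbC : (β.a : ℂ) ≠ 0 := by exact_mod_cast β.ha.ne'
  have hne : (α.a : ℂ) ^ 12 * ((zetaC n ^ α.c : ℂˣ) : ℂ) ≠ 0 :=
    mul_ne_zero (pow_ne_zero 12 haC) (Units.ne_zero _)
  have hne' : (β.a : ℂ) ^ 12 * ((zetaC n ^ β.c : ℂˣ) : ℂ) ≠ 0 :=
    mul_ne_zero (pow_ne_zero 12 hbC) (Units.ne_zero _)
  have he : α.e = β.e := by
    rcases lt_trichotomy α.e β.e with hlt | heq | hgt
    · exfalso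
      have := h2' ((α.e : ℤ) - n) (by
        have : (α.e : ℤ) < β.e := by exact_mod_cast hlt
        linarith)
      rw [← h, h1] at this
      exact hne this
    · exact heq
    · exfalso
      have := h2 ((β.e : ℤ) - n) (by
        have : (β.e : ℤ) < α.e := by exact_mod_cast hgt
        linarith)
      rw [h, h1'] at this
      exact hne' this
  have haa : α.a = β.a := by
    rw [Idx.e_eq_of_det ha, Idx.e_eq_of_det hb] at he
    exact Nat.mul_self_inj.mp he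
  have hdd : α.d = β.d := by
    have h3 : α.a * α.d = α.a * β.d := by rw [ha, haa, hb]
    exact Nat.eq_of_mul_eq_mul_left α.ha h3
  have hcc : α.c = β.c := by
    rw [he, h, h1', haa] at h1
    have h4 : ((zetaC n ^ β.c : ℂˣ) : ℂ) = ((zetaC n ^ α.c : ℂˣ) : ℂ) :=
      mul_left_cancel₀ (pow_ne_zero 12 hbC) h1
    rw [Units.val_pow_eq_pow_val, Units.val_pow_eq_pow_val] at h4
    have hprim : IsPrimitiveRoot ((zetaC n : ℂˣ) : ℂ) n := isPrimitiveRoot_zeta (hzetaC n)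
    have hcα : α.c < n := by
      rw [Idx.c_eq_of_det ha]
      calc α.a * α.b < α.a * α.d := Nat.mul_lt_mul_of_pos_left α.hb α.ha
        _ = n := ha
    have hcβ : β.c < n := by
      rw [Idx.c_eq_of_det hb]
      calc β.a * β.b < β.a * β.d := Nat.mul_lt_mul_of_pos_left β.hb β.ha
        _ = n := hb
    exact (hprim.pow_inj hcβ hcα h4).symm
  have hbb : α.b = β.b := by
    rw [Idx.c_eq_of_det ha, Idx.c_eq_of_det hb, haa] at hcc
    exact Nat.eq_of_mul_eq_mul_left β.ha hcc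
  exact Idx.ext haa hbb hdd

/-- `ρ(γ)` fixing `φ_α` (`det α = n`) means `α γ⁻¹ α⁻¹ ∈ SL(2,ℤ)`. -/
theorem exists_conj_of_rho_phiM {α : Idx n} (ha : α.a * α.d = n) {γ : SL(2, ℤ)}
    (h : rho (hzetaC n) γ (phiM α) = phiM α) :
    ∃ δ : SL(2, ℤ), α.toGL * ((γ⁻¹ : SL(2, ℤ)) : GL (Fin 2) ℝ) = (δ : GL (Fin 2) ℝ) * α.toGL := by
  obtain ⟨δ, α', had, hd⟩ := α.exists_act γ⁻¹
  rw [rho_eq_iff, realM_phiM, comp_phiA_of_decomp had hd, ← realM_phiM (hzetaC n),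
    ← realM_phiM (hzetaC n)] at h
  have h' := congrArg Subtype.val (realM_injective (hzetaC n) h)
  have hα : α' = α := phiSer_injective_of_det (had.trans ha) ha h'
  subst hα
  exact ⟨δ, hd⟩

/-- entries of a conjugation identity `α g = δ α`. -/
theorem entries_of_conj {α : Idx n} {g δ : SL(2, ℤ)}
    (h : α.toGL * (g : GL (Fin 2) ℝ) = (δ : GL (Fin 2) ℝ) * α.toGL) :
    (α.d : ℤ) * g 1 0 = δ 1 0 * α.a ∧
      (α.a : ℤ) * g 0 1 + α.b * g 1 1 = δ 0 0 * α.b + δ 0 1 * α.d ∧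
      (α.a : ℤ) * g 0 0 + α.b * g 1 0 = δ 0 0 * α.a := by
  have h' := congrArg (fun M : GL (Fin 2) ℝ => (M : Matrix (Fin 2) (Fin 2) ℝ)) h
  simp only [Units.val_mul] at h'
  have e1 : ((g : GL (Fin 2) ℝ) : Matrix (Fin 2) (Fin 2) ℝ) =
      (g : Matrix (Fin 2) (Fin 2) ℤ).map (algebraMap ℤ ℝ) :=
    Matrix.SpecialLinearGroup.mapGL_coe_matrix g
  have e2 : ((δ : GL (Fin 2) ℝ) : Matrix (Fin 2) (Fin 2) ℝ) =
      (δ : Matrix (Fin 2) (Fin 2) ℤ).map (algebraMap ℤ ℝ) :=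
    Matrix.SpecialLinearGroup.mapGL_coe_matrix δ
  rw [e1, e2, Idx.val_toGL] at h'
  have h10 := congrFun (congrFun h' 1) 0
  have h01 := congrFun (congrFun h' 0) 1
  have h00 := congrFun (congrFun h' 0) 0
  simp [Matrix.mul_apply, Fin.sum_univ_two] at h10 h01 h00
  refine ⟨?_, ?_, ?_⟩
  · exact_mod_cast h10
  · exact_mod_cast h01
  · exact_mod_cast h00

end Level

/-! ### matrices congruent to `± 1` -/

/-- `g ≡ ± 1 mod w`. -/
def IsPM (w : ℕ) (g : SL(2, ℤ)) : Prop := g ∈ Gamma w ∨ -g ∈ Gamma w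

theorem isPM_iff {w : ℕ} {g : SL(2, ℤ)} : IsPM w g ↔
    (((g 0 0 : ℤ) : ZMod w) = 1 ∧ ((g 0 1 : ℤ) : ZMod w) = 0 ∧ ((g 1 0 : ℤ) : ZMod w) = 0 ∧
      ((g 1 1 : ℤ) : ZMod w) = 1) ∨
    (((g 0 0 : ℤ) : ZMod w) = -1 ∧ ((g 0 1 : ℤ) : ZMod w) = 0 ∧ ((g 1 0 : ℤ) : ZMod w) = 0 ∧
      ((g 1 1 : ℤ) : ZMod w) = -1) := by
  unfold IsPM
  rw [Gamma_mem, Gamma_mem]
  simp only [Matrix.SpecialLinearGroup.coe_neg, Matrix.neg_apply, Int.cast_neg,
    neg_eq_iff_eq_neg, neg_zero]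

theorem IsPM.inv {w : ℕ} {g : SL(2, ℤ)} (h : IsPM w g) : IsPM w g⁻¹ := by
  rcases h with h | h
  · exact Or.inl ((Gamma w).inv_mem h)
  · right
    have h1 : -g⁻¹ = (-g)⁻¹ := by
      symm
      apply inv_eq_of_mul_eq_one_right
      rw [neg_mul_neg, mul_inv_cancel]
    rw [h1]
    exact (Gamma w).inv_mem h

theorem IsPM.rho_eq {n : ℕ} [NeZero n] {g : SL(2, ℤ)} (h : IsPM n g)
    (x : ↥(fieldM ℂ (zetaC n) n)) : rho (hzetaC n) g x = x :=
  rho_eq_self_of_mem_or_neg_mem h x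

theorem IsPM.conjDiag {w q : ℕ} (hcop : Nat.Coprime q w) {g : SL(2, ℤ)} (hg : IsPM w g) (c : ℤ)
    (hc : g 1 0 = q * c) : IsPM w (conjDiag q g c hc) := by
  rw [isPM_iff] at hg ⊢
  simp only [conjDiag_00, conjDiag_01, conjDiag_10, conjDiag_11]
  have hu : IsUnit ((q : ℕ) : ZMod w) := (ZMod.isUnit_iff_coprime q w).mpr hcop
  have hc0 : ((g 1 0 : ℤ) : ZMod w) = 0 → ((c : ℤ) : ZMod w) = 0 := by
    intro h0
    rw [hc] at h0
    push_cast at h0
    exact (hu.mul_right_eq_zero).mp h0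
  rcases hg with ⟨h00, h01, h10, h11⟩ | ⟨h00, h01, h10, h11⟩
  · left
    refine ⟨h00, ?_, hc0 h10, h11⟩
    push_cast
    rw [h01, mul_zero]
  · right
    refine ⟨h00, ?_, hc0 h10, h11⟩
    push_cast
    rw [h01, mul_zero]

/-- the condition `g` fixes the point of `P¹(ℤ/w)` attached to an index of determinant `w`, read off
from a conjugation identity. -/
theorem fixCond_of_conj {w : ℕ} [NeZero w] (hw : w.Prime) {α : Idx w} (hα : α.a * α.d = w)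
    {g δ : SL(2, ℤ)}
    (h : α.toGL * (g : GL (Fin 2) ℝ) = (δ : GL (Fin 2) ℝ) * α.toGL) :
    (α.d = 1 ∧ ((g 1 0 : ℤ) : ZMod w) = 0) ∨
    (α.d = w ∧ ((g 0 1 : ℤ) : ZMod w) + (α.b : ZMod w) * ((g 1 1 : ℤ) : ZMod w) =
      (((g 0 0 : ℤ) : ZMod w) + (α.b : ZMod w) * ((g 1 0 : ℤ) : ZMod w)) * (α.b : ZMod w)) := by
  obtain ⟨f1, f2, f3⟩ := entries_of_conj h
  have hd : α.d ∣ w := Dvd.intro_left _ hα
  rcases (Nat.dvd_prime hw).mp hd with hd1 | hdw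
  · left
    refine ⟨hd1, ?_⟩
    have ha : α.a = w := by rw [hd1, mul_one] at hα; exact hα
    rw [hd1, ha, Nat.cast_one, one_mul] at f1
    rw [f1]
    push_cast
    rw [ZMod.natCast_self, mul_zero]
  · right
    refine ⟨hdw, ?_⟩
    have ha : α.a = 1 := by
      rw [hdw] at hα
      exact Nat.eq_of_mul_eq_mul_right hw.pos (by rw [hα, one_mul])
    rw [ha, Nat.cast_one, one_mul] at f3
    rw [ha, hdw, Nat.cast_one, one_mul] at f2
    have f2' := congrArg (fun z : ℤ => (z : ZMod w)) f2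
    have f3' := congrArg (fun z : ℤ => (z : ZMod w)) f3
    simp only [Int.cast_add, Int.cast_mul, Int.cast_natCast, ZMod.natCast_self, mul_zero,
      add_zero, mul_one] at f2' f3'
    rw [f2', ← f3']

/-- **the simultaneous stabiliser of two distinct units `φ_α`, `φ_β` (determinant `w = 2, 3`) is
`± Γ(w)`.** -/
theorem isPM_inv_of_rho_phiM {w : ℕ} [NeZero w] (hw : w = 2 ∨ w = 3) {α β : Idx w}
    (hα : α.a * α.d = w) (hβ : β.a * β.d = w) (hne : α ≠ β) {γ : SL(2, ℤ)}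
    (h1 : rho (hzetaC w) γ (phiM α) = phiM α)
    (h2 : rho (hzetaC w) γ (phiM β) = phiM β) : IsPM w γ⁻¹ := by
  have hwp : w.Prime := by rcases hw with rfl | rfl <;> norm_num
  obtain ⟨δ₁, e1⟩ := exists_conj_of_rho_phiM hα h1
  obtain ⟨δ₂, e2⟩ := exists_conj_of_rho_phiM hβ h2
  have c1 := fixCond_of_conj hwp hα e1
  have c2 := fixCond_of_conj hwp hβ e2
  set g := γ⁻¹ with hg
  have hdet : ((g 0 0 : ℤ) : ZMod w) * ((g 1 1 : ℤ) : ZMod w) -
      ((g 0 1 : ℤ) : ZMod w) * ((g 1 0 : ℤ) : ZMod w) = 1 := by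
    have h := g.det_coe
    rw [Matrix.det_fin_two] at h
    have h' := congrArg (fun z : ℤ => (z : ZMod w)) h
    simp only [Int.cast_sub, Int.cast_mul, Int.cast_one] at h'
    exact h'
  -- the two points are distinct
  have hbne : α.d = w → β.d = w → (α.b : ZMod w) ≠ (β.b : ZMod w) := by
    intro hd1 hd2 hb
    apply hne
    have ha1 : α.a = 1 := by
      rw [hd1] at hα
      exact Nat.eq_of_mul_eq_mul_right hwp.pos (by rw [hα, one_mul])
    have ha2 : β.a = 1 := by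
      rw [hd2] at hβ
      exact Nat.eq_of_mul_eq_mul_right hwp.pos (by rw [hβ, one_mul])
    have hb' : α.b = β.b := by
      have hbα : α.b < w := by have := α.hb; omega
      have hbβ : β.b < w := by have := β.hb; omega
      have := (ZMod.natCast_eq_natCast_iff' α.b β.b w).mp hb
      rwa [Nat.mod_eq_of_lt hbα, Nat.mod_eq_of_lt hbβ] at this
    exact Idx.ext (ha1.trans ha2.symm) hb' (hd1.trans hd2.symm)
  have hdd : ¬ (α.d = 1 ∧ β.d = 1) := by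
    rintro ⟨hd1, hd2⟩
    apply hne
    have ha1 : α.a = w := by rw [hd1, mul_one] at hα; exact hα
    have ha2 : β.a = w := by rw [hd2, mul_one] at hβ; exact hβ
    have hb1 : α.b = 0 := by have := α.hb; omega
    have hb2 : β.b = 0 := by have := β.hb; omega
    exact Idx.ext (ha1.trans ha2.symm) (hb1.trans hb2.symm) (hd1.trans hd2.symm)
  rw [isPM_iff]
  rcases hw with rfl | rfl
  · have K1 : ∀ g00 g01 g10 g11 b : ZMod 2, g00 * g11 - g01 * g10 = 1 → g10 = 0 →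
        g01 + b * g11 = (g00 + b * g10) * b →
        (g00 = 1 ∧ g01 = 0 ∧ g10 = 0 ∧ g11 = 1) ∨ (g00 = -1 ∧ g01 = 0 ∧ g10 = 0 ∧ g11 = -1) := by
      decide
    have K2 : ∀ g00 g01 g10 g11 b b' : ZMod 2, g00 * g11 - g01 * g10 = 1 → b ≠ b' →
        g01 + b * g11 = (g00 + b * g10) * b → g01 + b' * g11 = (g00 + b' * g10) * b' →
        (g00 = 1 ∧ g01 = 0 ∧ g10 = 0 ∧ g11 = 1) ∨ (g00 = -1 ∧ g01 = 0 ∧ g10 = 0 ∧ g11 = -1) := by
      decide
    rcases c1 with ⟨d1, c1⟩ | ⟨d1, c1⟩ <;> rcases c2 with ⟨d2, c2⟩ | ⟨d2, c2⟩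
    · exact absurd ⟨d1, d2⟩ hdd
    · exact K1 _ _ _ _ _ hdet c1 c2
    · exact K1 _ _ _ _ _ hdet c2 c1
    · exact K2 _ _ _ _ _ _ hdet (hbne d1 d2) c1 c2
  · have K1 : ∀ g00 g01 g10 g11 b : ZMod 3, g00 * g11 - g01 * g10 = 1 → g10 = 0 →
        g01 + b * g11 = (g00 + b * g10) * b →
        (g00 = 1 ∧ g01 = 0 ∧ g10 = 0 ∧ g11 = 1) ∨ (g00 = -1 ∧ g01 = 0 ∧ g10 = 0 ∧ g11 = -1) := by
      decide
    have K2 : ∀ g00 g01 g10 g11 b b' : ZMod 3, g00 * g11 - g01 * g10 = 1 → b ≠ b' →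
        g01 + b * g11 = (g00 + b * g10) * b → g01 + b' * g11 = (g00 + b' * g10) * b' →
        (g00 = 1 ∧ g01 = 0 ∧ g10 = 0 ∧ g11 = 1) ∨ (g00 = -1 ∧ g01 = 0 ∧ g10 = 0 ∧ g11 = -1) := by
      decide
    rcases c1 with ⟨d1, c1⟩ | ⟨d1, c1⟩ <;> rcases c2 with ⟨d2, c2⟩ | ⟨d2, c2⟩
    · exact absurd ⟨d1, d2⟩ hdd
    · exact K1 _ _ _ _ _ hdet c1 c2
    · exact K1 _ _ _ _ _ hdet c2 c1
    · exact K2 _ _ _ _ _ _ hdet (hbne d1 d2) c1 c2

end

end Fermat.Agent.SS
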