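/-
(SS-q) HOST-B — helper8 — part 4: the Galois argument.  If `t ∈ M_w` (`w = 2, 3`) generates a field
containing two distinct modular units `φ_α`, `φ_β` of level `w` and determinant `w`, then `t(x^q) ∈ ℂ(t, j(x^w), j(x^{w q}))`
for every `q` prime to `w`.
-/
import Mathlib
import Fermat.Agent.SS.HOSTB_helper8_Stab

set_option autoImplicit false
set_option linter.unusedSectionVars false

open HahnSeries ModularCurve Fermat.Agent.Igusa Fermat.Agent.X0N Fermat.Agent.RatStr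
open UpperHalfPlane hiding I
open scoped MatrixGroups
open CongruenceSubgroup IntermediateField

namespace Fermat.Agent.SS

noncomputable section

/-- an automorphism `ρ(γ)` fixing `t` fixes `ℂ(t)` pointwise. -/
theorem rho_fix_of_mem_adjoin {n : ℕ} [NeZero n] {γ : SL(2, ℤ)} {t y : LaurentSeries ℂ}
    (ht : t ∈ fieldM ℂ (zetaC n) n)
    (hfix : rho (hzetaC n) γ ⟨t, ht⟩ = ⟨t, ht⟩) (hy : y ∈ ℂ⟮t⟯) :
    ∃ hy' : y ∈ fieldM ℂ (zetaC n) n, rho (hzetaC n) γ ⟨y, hy'⟩ = ⟨y, hy'⟩ := by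
  induction hy using IntermediateField.adjoin_induction with
  | mem x hx =>
    rw [Set.mem_singleton_iff] at hx
    subst hx
    exact ⟨ht, hfix⟩
  | algebraMap c =>
    refine ⟨(fieldM ℂ (zetaC n) n).algebraMap_mem c, ?_⟩
    exact (rho (hzetaC n) γ).commutes c
  | add x y _ _ hx hy =>
    obtain ⟨hx', hx''⟩ := hx
    obtain ⟨hy', hy''⟩ := hy
    refine ⟨add_mem hx' hy', ?_⟩
    have : (⟨x + y, add_mem hx' hy'⟩ : ↥(fieldM ℂ (zetaC n) n)) = ⟨x, hx'⟩ + ⟨y, hy'⟩ := rfl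
    rw [this, map_add, hx'', hy'']
  | inv x _ hx =>
    obtain ⟨hx', hx''⟩ := hx
    refine ⟨inv_mem hx', ?_⟩
    have : (⟨x⁻¹, inv_mem hx'⟩ : ↥(fieldM ℂ (zetaC n) n)) = (⟨x, hx'⟩)⁻¹ := rfl
    rw [this, map_inv₀, hx'']
  | mul x y _ _ hx hy =>
    obtain ⟨hx', hx''⟩ := hx
    obtain ⟨hy', hy''⟩ := hy
    refine ⟨mul_mem hx' hy', ?_⟩
    have : (⟨x * y, mul_mem hx' hy'⟩ : ↥(fieldM ℂ (zetaC n) n)) = ⟨x, hx'⟩ * ⟨y, hy'⟩ := rfl
    rw [this, map_mul, hx'', hy'']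

section Main

variable {w q : ℕ} [NeZero w] [NeZero q]

set_option maxHeartbeats 1600000 in
/-- the Galois step inside `M_{w q}`. -/
theorem liftM_mem_adjoin (hw : w = 2 ∨ w = 3) (hcop : Nat.Coprime q w) {t : LaurentSeries ℂ}
    (ht : t ∈ fieldM ℂ (zetaC w) w) {α β : Idx w}
    (hα : α.a * α.d = w) (hβ : β.a * β.d = w) (hne : α ≠ β)
    (h1 : phiSer ℂ (zetaC w) w α ∈ ℂ⟮t⟯)
    (h2 : phiSer ℂ (zetaC w) w β ∈ ℂ⟮t⟯) :
    liftM q (dvd_refl q) (⟨t, ht⟩ : ↥(fieldM ℂ (zetaC w) w)) ∈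
      IntermediateField.adjoin ℂ
        ({(jt : ↥(fieldM ℂ (zetaC (w * q)) (w * q))),
          liftM 1 (one_dvd q) (⟨t, ht⟩ : ↥(fieldM ℂ (zetaC w) w)),
          xM (Idx.diag (w * q) q (dvd_mul_left q w) (Nat.pos_of_ne_zero (NeZero.ne q)))} :
          Set ↥(fieldM ℂ (zetaC (w * q)) (w * q))) := by
  set tw : ↥(fieldM ℂ (zetaC w) w) := ⟨t, ht⟩ with htw
  set tM := liftM 1 (one_dvd q) tw with htM
  set t'M := liftM q (dvd_refl q) tw with ht'M
  set xq : ↥(fieldM ℂ (zetaC (w * q)) (w * q)) :=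
    xM (Idx.diag (w * q) q (dvd_mul_left q w) (Nat.pos_of_ne_zero (NeZero.ne q))) with hxq
  haveI := isGalois_fieldM (hzetaC (w * q))
  haveI := finiteDimensional_fieldM (hzetaC (w * q))
  set E : IntermediateField ↥(ℂ⟮(jt : ↥(fieldM ℂ (zetaC (w * q)) (w * q)))⟯)
      ↥(fieldM ℂ (zetaC (w * q)) (w * q)) :=
    IntermediateField.adjoin _ {tM, xq} with hE
  have key : t'M ∈ E := by
    rw [← IsGalois.fixedField_fixingSubgroup E, IntermediateField.mem_fixedField_iff]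
    intro σ hσ
    obtain ⟨γ, rfl⟩ := rhoK_surjective (hzetaC (w * q)) σ
    rw [IntermediateField.mem_fixingSubgroup_iff] at hσ
    have f1 : rho (hzetaC (w * q)) γ tM = tM :=
      hσ tM (IntermediateField.subset_adjoin _ _ (Set.mem_insert _ _))
    have f2 : rho (hzetaC (w * q)) γ xq = xq :=
      hσ xq (IntermediateField.subset_adjoin _ _ (Set.mem_insert_of_mem _ rfl))
    have hΓ := inv_mem_Gamma0_of_rho_xM_diag (dvd_mul_left q w) f2
    obtain ⟨c, hc⟩ : ∃ c : ℤ, (γ⁻¹ : SL(2, ℤ)) 1 0 = q * c := by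
      rw [Gamma0_mem, ZMod.intCast_zmod_eq_zero_iff_dvd] at hΓ
      exact hΓ
    have f3 : rho (hzetaC w) γ tw = tw := by
      apply liftM_injective 1 (one_dvd q)
      rw [← rho_liftM_one]
      exact f1
    obtain ⟨hy1, g1⟩ := rho_fix_of_mem_adjoin ht f3 h1
    obtain ⟨hy2, g2⟩ := rho_fix_of_mem_adjoin ht f3 h2
    have hPM : IsPM w γ⁻¹ := isPM_inv_of_rho_phiM hw hα hβ hne g1 g2
    have hPM' := (hPM.conjDiag hcop c hc).inv
    show rho (hzetaC (w * q)) γ t'M = t'M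
    rw [ht'M, rho_liftM q (dvd_refl q) γ c hc, hPM'.rho_eq]
  have h3 := IntermediateField.adjoin_adjoin_left ℂ
    ({(jt : ↥(fieldM ℂ (zetaC (w * q)) (w * q)))} : Set _) ({tM, xq} : Set _)
  have h4 : t'M ∈ (IntermediateField.adjoin ℂ
      (({(jt : ↥(fieldM ℂ (zetaC (w * q)) (w * q)))} : Set _) ∪ ({tM, xq} : Set _))) := by
    rw [← h3]
    exact key
  have h5 : (({(jt : ↥(fieldM ℂ (zetaC (w * q)) (w * q)))} : Set _) ∪ ({tM, xq} : Set _)) =
      {(jt : ↥(fieldM ℂ (zetaC (w * q)) (w * q))), tM, xq} := Set.singleton_union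
  rw [h5] at h4
  exact h4

/-- **HOST-B, abstract form over `ℂ`.** -/
theorem qExpand_mem_adjoin_of_mem_fieldM (hw : w = 2 ∨ w = 3) (hcop : Nat.Coprime q w)
    {t : LaurentSeries ℂ} (ht : t ∈ fieldM ℂ (zetaC w) w) {α β : Idx w}
    (hα : α.a * α.d = w) (hβ : β.a * β.d = w) (hne : α ≠ β)
    (h1 : phiSer ℂ (zetaC w) w α ∈ ℂ⟮t⟯)
    (h2 : phiSer ℂ (zetaC w) w β ∈ ℂ⟮t⟯) :
    qExpand ℂ q t ∈ IntermediateField.adjoin ℂ
      ({jqNModC ℂ w, t, qExpand ℂ (w * q) (jqModC ℂ)} : Set (LaurentSeries ℂ)) := by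
  have h := liftM_mem_adjoin hw hcop ht hα hβ hne h1 h2
  have hq0 : 0 < q := Nat.pos_of_ne_zero (NeZero.ne q)
  haveI : NeZero (w * q * q) := ⟨mul_ne_zero (NeZero.ne _) (NeZero.ne q)⟩
  -- push forward to Laurent series
  have h' : ((liftM q (dvd_refl q) (⟨t, ht⟩ : ↥(fieldM ℂ (zetaC w) w)) :
        ↥(fieldM ℂ (zetaC (w * q)) (w * q))) : LaurentSeries ℂ) ∈
      (IntermediateField.adjoin ℂ
        ({(jt : ↥(fieldM ℂ (zetaC (w * q)) (w * q))),
          liftM 1 (one_dvd q) (⟨t, ht⟩ : ↥(fieldM ℂ (zetaC w) w)),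
          xM (Idx.diag (w * q) q (dvd_mul_left q w) hq0)} :
          Set ↥(fieldM ℂ (zetaC (w * q)) (w * q)))).map (fieldM ℂ (zetaC (w * q)) (w * q)).val :=
    ⟨_, h, rfl⟩
  rw [IntermediateField.adjoin_map, Set.image_insert_eq, Set.image_insert_eq,
    Set.image_singleton] at h'
  simp only [IntermediateField.coe_val, coe_jt, coe_liftM, coe_xM] at h'
  rw [xSer_diag (zetaC (w * q)) (w * q) q (dvd_mul_left q w) hq0] at h'
  -- everything is in the image of `x ↦ x^q`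
  have e1 : qExpand ℂ (w * q) (jqModC ℂ) = qExpandAlgHomC ℂ q (jqNModC ℂ w) := by
    rw [qExpandAlgHomC_apply, jqNModC, qExpand_qExpand' q w (w * q) (mul_comm w q)]
  have e2 : qExpand ℂ (q * 1) t = qExpandAlgHomC ℂ q t := by
    rw [qExpandAlgHomC_apply]
    exact qExpand_congr (mul_one q) t
  have e3 : qExpand ℂ (w * q * q) (jqModC ℂ) =
      qExpandAlgHomC ℂ q (qExpand ℂ (w * q) (jqModC ℂ)) := by
    rw [qExpandAlgHomC_apply, qExpand_qExpand' q (w * q) (w * q * q) (by ring)]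
  have e4 : qExpand ℂ (q * q) t = qExpandAlgHomC ℂ q (qExpand ℂ q t) := by
    rw [qExpandAlgHomC_apply, qExpand_qExpand]
  rw [e1, e2, e3, e4, ← Set.image_singleton, ← Set.image_insert_eq, ← Set.image_insert_eq,
    ← IntermediateField.adjoin_map] at h'
  obtain ⟨y, hy, hyq⟩ := h'
  have : y = qExpand ℂ q t := qExpand_injective q hyq
  rw [← this]
  exact hy

end Main

end

end Fermat.Agent.SS
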