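/-
(SS-q) HOST-B — helper8 — part 5: the identification lemma.  An element of `M_n` (over `ℂ`) which is
`ρ`-fixed, holomorphic on `ℍ`, and has no terms in the degrees `-n·ℕ` vanishes.
-/
import Mathlib
import Fermat.Agent.SS.HOSTB_helper8_Galois
import Fermat.Agent.Igusa.A_helper2_Integral

set_option autoImplicit false
set_option linter.unusedSectionVars false

open HahnSeries ModularCurve Fermat.Agent.Igusa Fermat.Agent.X0N Fermat.Agent.RatStr
open UpperHalfPlane hiding I
open scoped MatrixGroups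
open CongruenceSubgroup IntermediateField

namespace Fermat.Agent.SS

noncomputable section

/-- a polynomial `P` with `P(j(x^n))` free of terms in degrees `-n·ℕ` vanishes. -/
theorem poly_eq_zero_of_aeval_jtSer_coeff {n : ℕ} [NeZero n] (P : Polynomial ℂ)
    (h : ∀ m : ℕ, (Polynomial.aeval (jtSer ℂ n) P).coeff (-((n : ℤ) * m)) = 0) : P = 0 := by
  by_contra hP
  have h1 := aeval_jtSer_coeff n P P.natDegree le_rfl
  rw [h P.natDegree] at h1
  exact hP (Polynomial.leadingCoeff_eq_zero.mp h1.symm)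

/-- **(ID)**: a `ρ`-fixed element of `M_n` whose realisation is holomorphic on `ℍ` and whose
expansion has no terms in the degrees `0, -n, -2n, …` vanishes. -/
theorem eq_zero_of_rho_fixed {n : ℕ} [NeZero n] (c : ↥(fieldM ℂ (zetaC n) n))
    (hfix : ∀ γ, rho (hzetaC n) γ c = c)
    (hhol : realM (hzetaC n) c ∈ (MerH.ofHol).range)
    (hcoeff : ∀ m : ℕ, (c : LaurentSeries ℂ).coeff (-((n : ℤ) * m)) = 0) : c = 0 := by
  have hinv : ∀ γ : SL(2, ℤ), MerH.comp γ (realM (hzetaC n) c) = realM (hzetaC n) c := by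
    intro γ
    have h1 := realM_rho (hzetaC n) γ⁻¹ c
    rw [hfix γ⁻¹, inv_inv] at h1
    exact h1.symm
  obtain ⟨P, Q, hQ, hPQ⟩ := (isModFun_realM (hzetaC n) c).exists_rat_of_invariant hinv
  have hmem : realM (hzetaC n) c ∈ CjM := mem_CjM_of_mul_eq hQ hPQ
  obtain ⟨f, hf⟩ := hhol
  obtain ⟨P', hP'⟩ := exists_poly_of_mem_CjM_of_hol hmem f hf.symm
  have h2 := coeffMap_eq_aeval_of_realM_eq (hzetaC n) c P' hP'
  have h3 : (c : LaurentSeries ℂ) = Polynomial.aeval (jtSer ℂ n) P' := by
    rw [← h2]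
    exact (coeffMap_id _).symm
  have h4 : P' = 0 := by
    apply poly_eq_zero_of_aeval_jtSer_coeff (n := n)
    intro m
    rw [← h3]
    exact hcoeff m
  apply Subtype.ext
  rw [h3, h4, map_zero]
  rfl

end

end Fermat.Agent.SS
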