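/-
(SS-q) HOST-B — helper8 — part 6: the `w + 1` modular units of prime level `w` and determinant `w`
are permuted by `ρ`; their power sums, inverse power sums and product are `ρ`-fixed; they and their
inverses are holomorphic on `ℍ`.
-/
import Mathlib
import Fermat.Agent.SS.HOSTB_helper8_Ident
import Fermat.Agent.SS.HOSTB_helper8_Iface

set_option autoImplicit false
set_option linter.unusedSectionVars false

open HahnSeries ModularCurve Fermat.Agent.Igusa Fermat.Agent.X0N Fermat.Agent.RatStr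
open UpperHalfPlane hiding I
open scoped MatrixGroups Manifold
open CongruenceSubgroup IntermediateField ModularForm

namespace Fermat.Agent.SS

noncomputable section

/-! ### the indices of determinant `w` -/

/-- the `w + 1` indices `(w 0; 0 1)`, `(1 b; 0 w)` (`b < w`). -/
def primIdx (w : ℕ) [NeZero w] : Fin (w + 1) → Idx w :=
  Fin.cons (α := fun _ => Idx w) (idxI w (Nat.pos_of_ne_zero (NeZero.ne w)))
    (fun b : Fin w => idxB w b b.2)

variable {w : ℕ} [NeZero w]

@[simp] theorem primIdx_zero : primIdx w 0 = idxI w (Nat.pos_of_ne_zero (NeZero.ne w)) := rfl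

@[simp] theorem primIdx_succ (b : Fin w) : primIdx w b.succ = idxB w b b.2 := by
  rw [primIdx, Fin.cons_succ]

theorem primIdx_det (i : Fin (w + 1)) : (primIdx w i).a * (primIdx w i).d = w := by
  refine Fin.cases ?_ (fun b => ?_) i
  · rw [primIdx_zero]
    show w * 1 = w
    rw [mul_one]
  · rw [primIdx_succ]
    show 1 * w = w
    rw [one_mul]

theorem exists_primIdx_of_det (hw : w.Prime) (α : Idx w) (h : α.a * α.d = w) :
    ∃ i, primIdx w i = α := by
  have h1 : α.a ∣ w := ⟨α.d, h.symm⟩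
  rcases (Nat.dvd_prime hw).mp h1 with ha | ha
  · have hd : α.d = w := by rw [ha, one_mul] at h; exact h
    have hb : α.b < w := by
      have := α.hb
      omega
    refine ⟨(⟨α.b, hb⟩ : Fin w).succ, ?_⟩
    rw [primIdx_succ]
    apply Idx.ext
    · exact ha.symm
    · rfl
    · exact hd.symm
  · have hd : α.d = 1 := by
      rw [ha] at h
      exact Nat.eq_of_mul_eq_mul_left hw.pos (h.trans (mul_one w).symm)
    have hb : α.b = 0 := by
      have := α.hb
      omega
    refine ⟨0, ?_⟩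
    rw [primIdx_zero]
    apply Idx.ext
    · exact ha.symm
    · exact hb.symm
    · exact hd.symm

/-- the `w + 1` units `φ_i` as elements of `M_w`. -/
def primPhi (w : ℕ) [NeZero w] (i : Fin (w + 1)) : ↥(fieldM ℂ (zetaC w) w) := phiM (primIdx w i)

theorem primPhi_injective (hw : 1 < w) : Function.Injective (primPhi w) := by
  intro i k h
  have h1 : primIdx w i = primIdx w k :=
    phiSer_injective_of_det (primIdx_det i) (primIdx_det k) (congrArg Subtype.val h)
  revert h1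
  refine Fin.cases ?_ (fun b => ?_) i <;> refine Fin.cases ?_ (fun c => ?_) k
  · intro _; rfl
  · intro h1
    rw [primIdx_zero, primIdx_succ] at h1
    have := congrArg Idx.d h1
    have h2 : (1 : ℕ) = w := this
    omega
  · intro h1
    rw [primIdx_zero, primIdx_succ] at h1
    have := congrArg Idx.d h1
    have h2 : w = 1 := this
    omega
  · intro h1
    rw [primIdx_succ, primIdx_succ] at h1
    have := congrArg Idx.b h1
    have h2 : (b : ℕ) = c := this
    rw [Fin.ext h2]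

theorem primPhi_ne_zero (i : Fin (w + 1)) : primPhi w i ≠ 0 := by
  intro h
  exact phiSer_ne_zero (zetaC w) (primIdx w i) (congrArg Subtype.val h)

/-- `ρ(γ)` permutes the `φ_i`. -/
theorem exists_perm_rho (hw : w.Prime) (γ : SL(2, ℤ)) :
    ∃ σ : Equiv.Perm (Fin (w + 1)), ∀ i, rho (hzetaC w) γ (primPhi w i) = primPhi w (σ i) := by
  have h : ∀ i, ∃ k, rho (hzetaC w) γ (primPhi w i) = primPhi w k := by
    intro i
    obtain ⟨α', hdet, -, h2⟩ := rho_xM (hzetaC w) γ (primIdx w i)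
    obtain ⟨k, rfl⟩ := exists_primIdx_of_det hw α' (hdet.trans (primIdx_det i))
    exact ⟨k, h2⟩
  choose σ hσ using h
  have hinj : Function.Injective σ := by
    intro i k hik
    have h1 : rho (hzetaC w) γ (primPhi w i) = rho (hzetaC w) γ (primPhi w k) := by
      rw [hσ, hσ, hik]
    exact primPhi_injective hw.one_lt ((rho (hzetaC w) γ).injective h1)
  exact ⟨Equiv.ofBijective σ (Finite.injective_iff_bijective.mp hinj), hσ⟩

/-- symmetric sums of the `φ_i` are `ρ`-fixed. -/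
theorem rho_sum_primPhi (hw : w.Prime) (γ : SL(2, ℤ))
    (g : ↥(fieldM ℂ (zetaC w) w) → ↥(fieldM ℂ (zetaC w) w))
    (hg : ∀ x, rho (hzetaC w) γ (g x) = g (rho (hzetaC w) γ x)) :
    rho (hzetaC w) γ (∑ i, g (primPhi w i)) = ∑ i, g (primPhi w i) := by
  obtain ⟨σ, hσ⟩ := exists_perm_rho hw γ
  rw [map_sum]
  rw [← Equiv.sum_comp σ (fun i => g (primPhi w i))]
  refine Finset.sum_congr rfl fun i _ => ?_
  rw [hg, hσ]

theorem rho_prod_primPhi (hw : w.Prime) (γ : SL(2, ℤ)) :
    rho (hzetaC w) γ (∏ i, primPhi w i) = ∏ i, primPhi w i := by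
  obtain ⟨σ, hσ⟩ := exists_perm_rho hw γ
  rw [map_prod]
  rw [← Equiv.prod_comp σ (fun i => primPhi w i)]
  refine Finset.prod_congr rfl fun i _ => ?_
  rw [hσ]

theorem rho_sum_inv_pow_primPhi (hw : w.Prime) (γ : SL(2, ℤ)) (k : ℕ) :
    rho (hzetaC w) γ (∑ i, ((primPhi w i)⁻¹) ^ k) = ∑ i, ((primPhi w i)⁻¹) ^ k :=
  rho_sum_primPhi hw γ (fun x => x⁻¹ ^ k) (fun x => by rw [map_pow, map_inv₀])

/-! ### holomorphy -/

/-- the inverse of a nowhere vanishing holomorphic function. -/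
def holInv (f : HolH) (hf : ∀ z : ℍ, (f : ℍ → ℂ) z ≠ 0) : HolH :=
  ⟨fun z => ((f : ℍ → ℂ) z)⁻¹, by
    have h := f.2
    have h' : MDiff (f : ℍ → ℂ) := h
    show MDiff fun z => ((f : ℍ → ℂ) z)⁻¹
    rw [UpperHalfPlane.mdifferentiable_iff] at h' ⊢
    have : DifferentiableOn ℂ (fun z => (((f : ℍ → ℂ) ∘ ofComplex) z)⁻¹) {z : ℂ | 0 < z.im} := by
      refine h'.inv ?_
      intro z _
      exact hf _
    exact this⟩

theorem ofHol_holInv (f : HolH) (hf : ∀ z : ℍ, (f : ℍ → ℂ) z ≠ 0) :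
    MerH.ofHol (holInv f hf) = (MerH.ofHol f)⁻¹ := by
  have hf0 : f ≠ 0 := by
    intro h
    apply hf UpperHalfPlane.I
    rw [h]
    rfl
  symm
  apply inv_eq_of_mul_eq_one_left
  rw [← map_mul]
  have : holInv f hf * f = 1 := by
    apply Subtype.ext
    funext z
    show ((f : ℍ → ℂ) z)⁻¹ * (f : ℍ → ℂ) z = 1
    exact inv_mul_cancel₀ (hf z)
  rw [this, map_one]

theorem phiFn_ne_zero' {N : ℕ} [NeZero N] (α : Idx N) (z : ℍ) : phiFn α z ≠ 0 := by
  rw [phiFn]
  have ha : (α.a : ℂ) ≠ 0 := by exact_mod_cast α.ha.ne'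
  exact mul_ne_zero (mul_ne_zero (pow_ne_zero 12 ha) (discriminant_ne_zero _))
    (inv_ne_zero (discriminant_ne_zero z))

/-- the holomorphic elements of `M_n`. -/
def holM (n : ℕ) [NeZero n] : Subring ↥(fieldM ℂ (zetaC n) n) :=
  (MerH.ofHol.range).comap (realM (hzetaC n))

theorem mem_holM {n : ℕ} [NeZero n] {x : ↥(fieldM ℂ (zetaC n) n)} :
    x ∈ holM n ↔ realM (hzetaC n) x ∈ (MerH.ofHol).range := Iff.rfl

theorem phiM_mem_holM {n : ℕ} [NeZero n] (α : Idx n) :
    (phiM α : ↥(fieldM ℂ (zetaC n) n)) ∈ holM n := by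
  rw [mem_holM, realM_phiM, phiA_eq_ofHol]
  exact ⟨_, rfl⟩

theorem inv_phiM_mem_holM {n : ℕ} [NeZero n] (α : Idx n) :
    (phiM α : ↥(fieldM ℂ (zetaC n) n))⁻¹ ∈ holM n := by
  rw [mem_holM, map_inv₀, realM_phiM, phiA_eq_ofHol]
  exact ⟨holInv (phiHol α) (fun z => phiFn_ne_zero' α z), ofHol_holInv _ _⟩

theorem algebraMap_mem_holM {n : ℕ} [NeZero n] (c : ℂ) :
    algebraMap ℂ ↥(fieldM ℂ (zetaC n) n) c ∈ holM n := by
  rw [mem_holM, realM_algebraMap]
  exact ⟨HolH.const c, rfl⟩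

theorem jt_mem_holM {n : ℕ} [NeZero n] : (jt : ↥(fieldM ℂ (zetaC n) n)) ∈ holM n := by
  rw [mem_holM, realM_jt]
  exact ⟨_, rfl⟩

end

end Fermat.Agent.SS
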