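/-
(SS-q) HOST-B — helper8 — part 7: Legendre over `ℂ`.  From the coefficient statement at level 2 and
the algebraic statement: the Legendre coordinate lies in `M_2`, two distinct units of determinant 2
lie in `ℂ(t)`, hence `t(x^q) ∈ ℂ(t, j(x²), j(x^{2q}))` for odd `q`.
-/
import Mathlib
import Fermat.Agent.SS.HOSTB_helper8_Sym
import Fermat.Agent.JA.GEOBASE_helper8_Coord

set_option autoImplicit false
set_option linter.unusedSectionVars false
set_option linter.style.haveILetI false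

open HahnSeries ModularCurve Fermat.Agent.Igusa Fermat.Agent.X0N Fermat.Agent.RatStr
open UpperHalfPlane hiding I
open scoped MatrixGroups Manifold
open CongruenceSubgroup IntermediateField ModularForm Fermat.Agent.JA

namespace Fermat.Agent.SS

noncomputable section

theorem charZero_laurentSeries_complex : CharZero (LaurentSeries ℂ) :=
  charZero_of_injective_algebraMap (algebraMap ℂ (LaurentSeries ℂ)).injective

theorem transcendental_rat_aux {t : LaurentSeries ℂ}
    (h : Transcendental ℂ t) : Transcendental ℚ t := h.of_tower_top ℚ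

/-- transcendence over `ℚ` for the canonical `ℚ`-algebra structure of a field of characteristic 0. -/
theorem transcendental_rat_of_complex [CharZero (LaurentSeries ℂ)] {t : LaurentSeries ℂ}
    (h : Transcendental ℂ t) :
    @Transcendental ℚ (LaurentSeries ℂ) _ _ DivisionRing.toRatAlgebra t := by
  convert transcendental_rat_aux h
  exact Subsingleton.elim _ _

theorem leg_relation :
    jtSer ℂ 2 * ((legT ℂ) ^ 2 * (legT ℂ - 1) ^ 2) = 256 * ((legT ℂ) ^ 2 - legT ℂ + 1) ^ 3 := by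
  have := jqNModC_mul_aeval_legT ℂ
  rw [Host.aeval_legA, Host.aeval_legB] at this
  exact this

theorem leg_e1 (h : LegCoeffStatement) :
    ∑ i, primPhi 2 i + 48 = 0 := by
  obtain ⟨h1, -, -⟩ := h
  apply eq_zero_of_rho_fixed
  · intro γ
    have h0 := rho_sum_primPhi Nat.prime_two γ id (fun _ => rfl)
    simp only [id] at h0
    rw [map_add, h0, map_ofNat]
  · exact (holM 2).add_mem (sum_mem fun i _ => phiM_mem_holM _) (ofNat_mem _ 48)
  · intro m
    have := h1 m
    rw [Fin.sum_univ_three]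
    push_cast
    exact this

theorem leg_e3 (h : LegCoeffStatement) :
    ∏ i, primPhi 2 i + 4096 = 0 := by
  obtain ⟨-, h2, -⟩ := h
  apply eq_zero_of_rho_fixed
  · intro γ
    rw [map_add, rho_prod_primPhi Nat.prime_two γ, map_ofNat]
  · exact (holM 2).add_mem (prod_mem fun i _ => phiM_mem_holM _) (ofNat_mem _ 4096)
  · intro m
    have := h2 m
    rw [Fin.prod_univ_three]
    push_cast
    exact this

theorem leg_e2 (h : LegCoeffStatement) :
    ∑ i, (primPhi 2 i)⁻¹ -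
      algebraMap ℂ ↥(fieldM ℂ (zetaC 2) 2) (4096⁻¹) * (jt - 768) = 0 := by
  obtain ⟨-, -, h3⟩ := h
  apply eq_zero_of_rho_fixed
  · intro γ
    have h0 := rho_sum_inv_pow_primPhi Nat.prime_two γ 1
    simp only [pow_one] at h0
    rw [map_sub, h0, map_mul, map_sub, rho_jt, map_ofNat, AlgEquiv.commutes]
  · exact (holM 2).sub_mem (sum_mem fun i _ => inv_phiM_mem_holM _)
      ((holM 2).mul_mem (algebraMap_mem_holM _) ((holM 2).sub_mem jt_mem_holM (ofNat_mem _ 768)))
  · intro m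
    have := h3 m
    rw [Fin.sum_univ_three]
    convert this using 2
    · rw [AddSubgroupClass.coe_sub, IntermediateField.coe_add, IntermediateField.coe_add,
        IntermediateField.coe_inv, IntermediateField.coe_inv, IntermediateField.coe_inv,
        IntermediateField.coe_mul, AddSubgroupClass.coe_sub, coe_jt',
        IntermediateField.coe_algebraMap_apply, LaurentSeries.algebraMap_apply]
      rfl
    · norm_num

/-- the resolvent cubic of level 2 splits over `M_2`. -/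
theorem leg_cubic (e1 : ∑ i, primPhi 2 i + 48 = 0) (e3 : ∏ i, primPhi 2 i + 4096 = 0)
    (e2 : ∑ i, (primPhi 2 i)⁻¹ -
      algebraMap ℂ ↥(fieldM ℂ (zetaC 2) 2) (4096⁻¹) * (jt - 768) = 0) (X : LaurentSeries ℂ) :
    (X + 16) ^ 3 - jtSer ℂ 2 * X =
      ∏ i, (X - ((primPhi 2 i : ↥(fieldM ℂ (zetaC 2) 2)) : LaurentSeries ℂ)) := by
  set A : ↥(fieldM ℂ (zetaC 2) 2) := primPhi 2 0 with hA
  set B : ↥(fieldM ℂ (zetaC 2) 2) := primPhi 2 1 with hB
  set C : ↥(fieldM ℂ (zetaC 2) 2) := primPhi 2 2 with hC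
  have hA0 : A ≠ 0 := primPhi_ne_zero 0
  have hB0 : B ≠ 0 := primPhi_ne_zero 1
  have hC0 : C ≠ 0 := primPhi_ne_zero 2
  rw [Fin.sum_univ_three] at e1 e2
  rw [Fin.prod_univ_three] at e3 ⊢
  rw [← hA, ← hB, ← hC] at e1 e2 e3 ⊢
  have hc : algebraMap ℂ ↥(fieldM ℂ (zetaC 2) 2) (4096⁻¹) * 4096 = 1 := by
    rw [← map_ofNat (algebraMap ℂ ↥(fieldM ℂ (zetaC 2) 2)) 4096, ← map_mul,
      inv_mul_cancel₀ (by norm_num), map_one]
  have e2' : A * B + A * C + B * C = 768 - jt := by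
    have h1 : A * B + A * C + B * C = A * B * C * (A⁻¹ + B⁻¹ + C⁻¹) := by
      field_simp
      ring
    have h2 : A⁻¹ + B⁻¹ + C⁻¹ =
        algebraMap ℂ ↥(fieldM ℂ (zetaC 2) 2) (4096⁻¹) * (jt - 768) := sub_eq_zero.mp e2
    have h3 : A * B * C = -4096 := eq_neg_of_add_eq_zero_left e3
    rw [h1, h2, h3]
    linear_combination (-(jt : ↥(fieldM ℂ (zetaC 2) 2)) + 768) * hc
  have e1L := congrArg (Subtype.val) e1
  have e2L := congrArg (Subtype.val) e2'
  have e3L := congrArg (Subtype.val) e3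
  simp only [IntermediateField.coe_add, IntermediateField.coe_mul, AddSubgroupClass.coe_sub,
    coe_jt', ZeroMemClass.coe_zero] at e1L e2L e3L
  have c48 : (((48 : ↥(fieldM ℂ (zetaC 2) 2))) : LaurentSeries ℂ) = 48 := rfl
  have c768 : (((768 : ↥(fieldM ℂ (zetaC 2) 2))) : LaurentSeries ℂ) = 768 := rfl
  have c4096 : (((4096 : ↥(fieldM ℂ (zetaC 2) 2))) : LaurentSeries ℂ) = 4096 := rfl
  rw [c48] at e1L
  rw [c768] at e2L
  rw [c4096] at e3L
  linear_combination X ^ 2 * e1L - X * e2L + e3L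

/-- **Legendre over `ℂ`**: `t ∈ M_2` and two distinct units of determinant 2 lie in `ℂ(t)`. -/
theorem legT_data (hc : LegCoeffStatement) (ha : LegAlgStatement) :
    legT ℂ ∈ fieldM ℂ (zetaC 2) 2 ∧ ∃ α β : Idx 2, α.a * α.d = 2 ∧ β.a * β.d = 2 ∧ α ≠ β ∧
      phiSer ℂ (zetaC 2) 2 α ∈ ℂ⟮legT ℂ⟯ ∧ phiSer ℂ (zetaC 2) 2 β ∈ ℂ⟮legT ℂ⟯ := by
  haveI := charZero_laurentSeries_complex
  obtain ⟨ht, i, k, hik, hi, hk⟩ := ha (F := LaurentSeries ℂ) (fieldM ℂ (zetaC 2) 2).toSubfield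
    (jtSer ℂ 2) (legT ℂ) (fun i => ((primPhi 2 i : ↥(fieldM ℂ (zetaC 2) 2)) : LaurentSeries ℂ))
    (by rw [← coe_jt' (L := ℂ) (ζ := zetaC 2)]; exact (jt : ↥(fieldM ℂ (zetaC 2) 2)).2)
    (fun i => (primPhi 2 i).2)
    (leg_cubic (leg_e1 hc) (leg_e3 hc) (leg_e2 hc)) leg_relation
    (transcendental_rat_of_complex (transcendental_legT ℂ))
  refine ⟨ht, primIdx 2 i, primIdx 2 k, primIdx_det i, primIdx_det k, ?_, ?_, ?_⟩
  · intro h
    apply hik
    apply primPhi_injective (by norm_num)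
    show phiM (primIdx 2 i) = phiM (primIdx 2 k)
    rw [h]
  · have hmem : legT ℂ ∈ ℂ⟮legT ℂ⟯ := mem_adjoin_simple_self ℂ _
    have : phiSer ℂ (zetaC 2) 2 (primIdx 2 i) = -16 / (legT ℂ * (1 - legT ℂ)) := hi
    rw [this]
    exact div_mem (neg_mem (ofNat_mem _ 16)) (mul_mem hmem (sub_mem (one_mem _) hmem))
  · have hmem : legT ℂ ∈ ℂ⟮legT ℂ⟯ := mem_adjoin_simple_self ℂ _
    have : phiSer ℂ (zetaC 2) 2 (primIdx 2 k) = -16 * legT ℂ ^ 2 / (legT ℂ - 1) := hk
    rw [this]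
    exact div_mem (mul_mem (neg_mem (ofNat_mem _ 16)) (pow_mem hmem 2))
      (sub_mem hmem (one_mem _))

/-- **HOST-B over `ℂ`, Legendre.** -/
theorem qExpand_legT_mem_adjoin_complex (hc : LegCoeffStatement) (ha : LegAlgStatement)
    {q : ℕ} [NeZero q] (hq : Nat.Coprime q 2) :
    qExpand ℂ q (legT ℂ) ∈ IntermediateField.adjoin ℂ
      {jqNModC ℂ 2, legT ℂ, qExpand ℂ (2 * q) (jqModC ℂ)} := by
  obtain ⟨ht, α, β, hα, hβ, hne, h1, h2⟩ := legT_data hc ha
  exact qExpand_mem_adjoin_of_mem_fieldM (Or.inl rfl) hq ht hα hβ hne h1 h2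

end

end Fermat.Agent.SS
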