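/-
(SS-q) HOST-B — helper8 — part 8: Hesse over `ℂ`.  From the coefficient statement at level 3 and
the algebraic statement: the Hesse coordinate lies in `M_3`, two distinct units of determinant 3
lie in `ℂ(t)`, hence `t(x^q) ∈ ℂ(t, j(x³), j(x^{3q}))` for `q` prime to 3.
-/
import Mathlib
import Fermat.Agent.SS.HOSTB_helper8_Leg

set_option autoImplicit false
set_option linter.unusedSectionVars false
set_option linter.style.haveILetI false

open HahnSeries ModularCurve Fermat.Agent.Igusa Fermat.Agent.X0N Fermat.Agent.RatStr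
open UpperHalfPlane hiding I
open scoped MatrixGroups Manifold
open CongruenceSubgroup IntermediateField ModularForm Fermat.Agent.JA

namespace Fermat.Agent.SS

noncomputable section

theorem hes_relation :
    jtSer ℂ 3 * ((hesT ℂ) ^ 3 - 1) ^ 3 = 27 * (hesT ℂ) ^ 3 * ((hesT ℂ) ^ 3 + 8) ^ 3 := by
  have := jqNModC_mul_aeval_hesT ℂ
  rw [Host.aeval_hesA, Host.aeval_hesB] at this
  exact this

theorem hes_e1 (h : HesCoeffStatement) :
    ∑ i, primPhi 3 i - 756 = 0 := by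
  obtain ⟨h1, -, -, -⟩ := h
  apply eq_zero_of_rho_fixed
  · intro γ
    have h0 := rho_sum_primPhi Nat.prime_three γ id (fun _ => rfl)
    simp only [id] at h0
    rw [map_sub, h0, map_ofNat]
  · exact (holM 3).sub_mem (sum_mem fun i _ => phiM_mem_holM _) (ofNat_mem _ 756)
  · intro m
    have := h1 m
    rw [Fin.sum_univ_four]
    push_cast
    exact this

theorem hes_e4 (h : HesCoeffStatement) :
    ∏ i, primPhi 3 i - 3 ^ 12 = 0 := by
  obtain ⟨-, h2, -, -⟩ := h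
  apply eq_zero_of_rho_fixed
  · intro γ
    rw [map_sub, rho_prod_primPhi Nat.prime_three γ, map_pow, map_ofNat]
  · exact (holM 3).sub_mem (prod_mem fun i _ => phiM_mem_holM _) (pow_mem (ofNat_mem _ 3) 12)
  · intro m
    have := h2 m
    rw [Fin.prod_univ_four]
    push_cast
    exact this

theorem hes_e3 (h : HesCoeffStatement) :
    ∑ i, (primPhi 3 i)⁻¹ - algebraMap ℂ ↥(fieldM ℂ (zetaC 3) 3) ((3 ^ 12 : ℂ)⁻¹) *
      (jt ^ 2 - 1512 * jt + 177876) = 0 := by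
  obtain ⟨-, -, h3, -⟩ := h
  apply eq_zero_of_rho_fixed
  · intro γ
    have h0 := rho_sum_inv_pow_primPhi Nat.prime_three γ 1
    simp only [pow_one] at h0
    rw [map_sub, h0, map_mul, map_add, map_sub, map_mul, map_pow, rho_jt, map_ofNat, map_ofNat,
      AlgEquiv.commutes]
  · exact (holM 3).sub_mem (sum_mem fun i _ => inv_phiM_mem_holM _)
      ((holM 3).mul_mem (algebraMap_mem_holM _) ((holM 3).add_mem ((holM 3).sub_mem
        (pow_mem jt_mem_holM 2) ((holM 3).mul_mem (ofNat_mem _ 1512) jt_mem_holM))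
        (ofNat_mem _ 177876)))
  · intro m
    have := h3 m
    rw [Fin.sum_univ_four]
    convert this using 2
    · rw [AddSubgroupClass.coe_sub, IntermediateField.coe_add, IntermediateField.coe_add,
        IntermediateField.coe_add,
        IntermediateField.coe_inv, IntermediateField.coe_inv, IntermediateField.coe_inv,
        IntermediateField.coe_inv,
        IntermediateField.coe_mul, IntermediateField.coe_add, AddSubgroupClass.coe_sub,
        IntermediateField.coe_mul, IntermediateField.coe_pow, coe_jt',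
        IntermediateField.coe_algebraMap_apply, LaurentSeries.algebraMap_apply]
      rfl
    · norm_num

/-- the second elementary symmetric function of the inverses. -/
def hesPair : ↥(fieldM ℂ (zetaC 3) 3) :=
  (primPhi 3 0)⁻¹ * ((primPhi 3 1)⁻¹ + (primPhi 3 2)⁻¹ + (primPhi 3 3)⁻¹) +
    ((primPhi 3 1)⁻¹ * (primPhi 3 2)⁻¹ + (primPhi 3 1)⁻¹ * (primPhi 3 3)⁻¹ +
      (primPhi 3 2)⁻¹ * (primPhi 3 3)⁻¹)

theorem two_mul_hesPair :
    2 * hesPair = (∑ i, ((primPhi 3 i)⁻¹) ^ 1) ^ 2 - ∑ i, ((primPhi 3 i)⁻¹) ^ 2 := by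
  rw [Fin.sum_univ_four, Fin.sum_univ_four, hesPair]
  ring

theorem rho_hesPair (γ : SL(2, ℤ)) : rho (hzetaC 3) γ hesPair = hesPair := by
  have h1 := rho_sum_inv_pow_primPhi Nat.prime_three γ 1
  have h2 := rho_sum_inv_pow_primPhi Nat.prime_three γ 2
  have h3 : rho (hzetaC 3) γ (2 * hesPair) = 2 * hesPair := by
    rw [two_mul_hesPair, map_sub, map_pow, h1, h2]
  rw [map_mul, map_ofNat] at h3
  exact mul_left_cancel₀ two_ne_zero h3

theorem hesPair_mem_holM : hesPair ∈ holM 3 :=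
  (holM 3).add_mem
    ((holM 3).mul_mem (inv_phiM_mem_holM _) ((holM 3).add_mem ((holM 3).add_mem
      (inv_phiM_mem_holM _) (inv_phiM_mem_holM _)) (inv_phiM_mem_holM _)))
    ((holM 3).add_mem ((holM 3).add_mem
      ((holM 3).mul_mem (inv_phiM_mem_holM _) (inv_phiM_mem_holM _))
      ((holM 3).mul_mem (inv_phiM_mem_holM _) (inv_phiM_mem_holM _)))
      ((holM 3).mul_mem (inv_phiM_mem_holM _) (inv_phiM_mem_holM _)))

theorem hes_e2 (h : HesCoeffStatement) :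
    hesPair - algebraMap ℂ ↥(fieldM ℂ (zetaC 3) 3) ((3 ^ 12 : ℂ)⁻¹) * (72 * jt + 19926) = 0 := by
  obtain ⟨-, -, -, h4⟩ := h
  apply eq_zero_of_rho_fixed
  · intro γ
    rw [map_sub, rho_hesPair, map_mul, map_add, map_mul, rho_jt, map_ofNat, map_ofNat,
      AlgEquiv.commutes]
  · exact (holM 3).sub_mem hesPair_mem_holM
      ((holM 3).mul_mem (algebraMap_mem_holM _) ((holM 3).add_mem
        ((holM 3).mul_mem (ofNat_mem _ 72) jt_mem_holM) (ofNat_mem _ 19926)))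
  · intro m
    have := h4 m
    convert this using 2
    · rw [hesPair]
      simp only [AddSubgroupClass.coe_sub, IntermediateField.coe_add, IntermediateField.coe_inv,
        IntermediateField.coe_mul, coe_jt',
        IntermediateField.coe_algebraMap_apply, LaurentSeries.algebraMap_apply]
      rfl
    · norm_num

/-- the resolvent quartic of level 3 splits over `M_3`. -/
theorem hes_quartic (e1 : ∑ i, primPhi 3 i - 756 = 0) (e4 : ∏ i, primPhi 3 i - 3 ^ 12 = 0)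
    (e3 : ∑ i, (primPhi 3 i)⁻¹ - algebraMap ℂ ↥(fieldM ℂ (zetaC 3) 3) ((3 ^ 12 : ℂ)⁻¹) *
      (jt ^ 2 - 1512 * jt + 177876) = 0)
    (e2 : hesPair - algebraMap ℂ ↥(fieldM ℂ (zetaC 3) 3) ((3 ^ 12 : ℂ)⁻¹) * (72 * jt + 19926) = 0)
    (X : LaurentSeries ℂ) :
    X ^ 4 - 756 * X ^ 3 + (72 * jtSer ℂ 3 + 19926) * X ^ 2 -
        ((jtSer ℂ 3) ^ 2 - 1512 * jtSer ℂ 3 + 177876) * X + 3 ^ 12 =
      ∏ i, (X - ((primPhi 3 i : ↥(fieldM ℂ (zetaC 3) 3)) : LaurentSeries ℂ)) := by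
  rw [hesPair] at e2
  set A : ↥(fieldM ℂ (zetaC 3) 3) := primPhi 3 0 with hA
  set B : ↥(fieldM ℂ (zetaC 3) 3) := primPhi 3 1 with hB
  set C : ↥(fieldM ℂ (zetaC 3) 3) := primPhi 3 2 with hC
  set D : ↥(fieldM ℂ (zetaC 3) 3) := primPhi 3 3 with hD
  have hA0 : A ≠ 0 := primPhi_ne_zero 0
  have hB0 : B ≠ 0 := primPhi_ne_zero 1
  have hC0 : C ≠ 0 := primPhi_ne_zero 2
  have hD0 : D ≠ 0 := primPhi_ne_zero 3
  rw [Fin.sum_univ_four] at e1 e3
  rw [Fin.prod_univ_four] at e4 ⊢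
  rw [← hA, ← hB, ← hC, ← hD] at e1 e3 e4 ⊢
  set c : ↥(fieldM ℂ (zetaC 3) 3) := algebraMap ℂ ↥(fieldM ℂ (zetaC 3) 3) ((3 ^ 12 : ℂ)⁻¹) with hc
  have hc1 : c * 3 ^ 12 = 1 := by
    rw [hc, ← map_ofNat (algebraMap ℂ ↥(fieldM ℂ (zetaC 3) 3)) 3, ← map_pow, ← map_mul,
      inv_mul_cancel₀ (by norm_num), map_one]
  have h4 : A * B * C * D = 3 ^ 12 := sub_eq_zero.mp e4
  have e3' : A * B * C + A * B * D + A * C * D + B * C * D =
      jt ^ 2 - 1512 * jt + 177876 := by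
    have h1 : A * B * C + A * B * D + A * C * D + B * C * D =
        A * B * C * D * (A⁻¹ + B⁻¹ + C⁻¹ + D⁻¹) := by
      field_simp
      ring
    rw [h1, sub_eq_zero.mp e3, h4]
    linear_combination ((jt : ↥(fieldM ℂ (zetaC 3) 3)) ^ 2 - 1512 * jt + 177876) * hc1
  have e2' : A * B + A * C + A * D + B * C + B * D + C * D = 72 * jt + 19926 := by
    have h1 : A * B + A * C + A * D + B * C + B * D + C * D =
        A * B * C * D * (A⁻¹ * (B⁻¹ + C⁻¹ + D⁻¹) + (B⁻¹ * C⁻¹ + B⁻¹ * D⁻¹ + C⁻¹ * D⁻¹)) := by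
      field_simp
      ring
    rw [h1, sub_eq_zero.mp e2, h4]
    linear_combination (72 * (jt : ↥(fieldM ℂ (zetaC 3) 3)) + 19926) * hc1
  have e1L := congrArg (Subtype.val) e1
  have e2L := congrArg (Subtype.val) e2'
  have e3L := congrArg (Subtype.val) e3'
  have e4L := congrArg (Subtype.val) h4
  simp only [IntermediateField.coe_add, IntermediateField.coe_mul, AddSubgroupClass.coe_sub,
    IntermediateField.coe_pow, coe_jt', ZeroMemClass.coe_zero] at e1L e2L e3L e4L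
  have c756 : (((756 : ↥(fieldM ℂ (zetaC 3) 3))) : LaurentSeries ℂ) = 756 := rfl
  have c72 : (((72 : ↥(fieldM ℂ (zetaC 3) 3))) : LaurentSeries ℂ) = 72 := rfl
  have c19926 : (((19926 : ↥(fieldM ℂ (zetaC 3) 3))) : LaurentSeries ℂ) = 19926 := rfl
  have c1512 : (((1512 : ↥(fieldM ℂ (zetaC 3) 3))) : LaurentSeries ℂ) = 1512 := rfl
  have c177876 : (((177876 : ↥(fieldM ℂ (zetaC 3) 3))) : LaurentSeries ℂ) = 177876 := rfl
  have c3 : (((3 : ↥(fieldM ℂ (zetaC 3) 3))) : LaurentSeries ℂ) = 3 := rfl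
  rw [c756] at e1L
  rw [c72, c19926] at e2L
  rw [c1512, c177876] at e3L
  rw [c3] at e4L
  linear_combination X ^ 3 * e1L - X ^ 2 * e2L + X * e3L - e4L

/-- `j(x^n) - c - c' φ_α ≠ 0`, by looking at the coefficient of `x^{-n}`. -/
theorem jtSer_sub_ne_zero {n : ℕ} [NeZero n] (α : Idx n) (a b : ℂ) :
    jtSer ℂ n - HahnSeries.C a - HahnSeries.C b * phiSer ℂ (zetaC n) n α ≠ 0 := by
  intro h
  have hn : (0 : ℤ) < n := by exact_mod_cast Nat.pos_of_ne_zero (NeZero.ne n)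
  have h1 := congrArg (fun f : LaurentSeries ℂ => f.coeff (-(n : ℤ))) h
  simp only [HahnSeries.coeff_sub, HahnSeries.coeff_zero, HahnSeries.C_apply,
    HahnSeries.coeff_single_zero_mul] at h1
  have h2 : (jtSer ℂ n).coeff (-(n : ℤ)) = 1 := by
    have := jtSer_pow_coeff_self (A := ℂ) n 1
    rwa [pow_one, Nat.cast_one, mul_one] at this
  have h3 : (phiSer ℂ (zetaC n) n α).coeff (-(n : ℤ)) = 0 := by
    apply (phiSer_coeff (A := ℂ) (zetaC n) n α).2
    have : (0 : ℤ) < α.e := by exact_mod_cast Nat.pos_of_ne_zero (NeZero.ne α.e)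
    omega
  have h4 : (HahnSeries.single (0 : ℤ) a : LaurentSeries ℂ).coeff (-(n : ℤ)) = 0 := by
    rw [HahnSeries.coeff_single_of_ne]
    omega
  rw [h2, h3, h4] at h1
  norm_num at h1

/-- **Hesse over `ℂ`**: `t ∈ M_3` and two distinct units of determinant 3 lie in `ℂ(t)`. -/
theorem hesT_data (hc : HesCoeffStatement) (ha : HesAlgStatement) :
    hesT ℂ ∈ fieldM ℂ (zetaC 3) 3 ∧ ∃ α β : Idx 3, α.a * α.d = 3 ∧ β.a * β.d = 3 ∧ α ≠ β ∧
      phiSer ℂ (zetaC 3) 3 α ∈ ℂ⟮hesT ℂ⟯ ∧ phiSer ℂ (zetaC 3) 3 β ∈ ℂ⟮hesT ℂ⟯ := by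
  haveI := charZero_laurentSeries_complex
  obtain ⟨ht, i, k, hik, hi, hk⟩ := ha (F := LaurentSeries ℂ) (fieldM ℂ (zetaC 3) 3).toSubfield
    (jtSer ℂ 3) (hesT ℂ) (fun i => ((primPhi 3 i : ↥(fieldM ℂ (zetaC 3) 3)) : LaurentSeries ℂ))
    (by rw [← coe_jt' (L := ℂ) (ζ := zetaC 3)]; exact (jt : ↥(fieldM ℂ (zetaC 3) 3)).2)
    (fun i => (primPhi 3 i).2)
    (hes_quartic (hes_e1 hc) (hes_e4 hc) (hes_e3 hc) (hes_e2 hc))
    (fun i => by
      have := jtSer_sub_ne_zero (primIdx 3 i) 756 36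
      rwa [map_ofNat, map_ofNat] at this)
    hes_relation
    (transcendental_rat_of_complex (transcendental_hesT ℂ))
  refine ⟨ht, primIdx 3 i, primIdx 3 k, primIdx_det i, primIdx_det k, ?_, ?_, ?_⟩
  · intro h
    apply hik
    apply primPhi_injective (by norm_num)
    show phiM (primIdx 3 i) = phiM (primIdx 3 k)
    rw [h]
  · have hmem : hesT ℂ ∈ ℂ⟮hesT ℂ⟯ := mem_adjoin_simple_self ℂ _
    have : phiSer ℂ (zetaC 3) 3 (primIdx 3 i) = (27 / (hesT ℂ ^ 3 - 1)) ^ 2 := hi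
    rw [this]
    exact pow_mem (div_mem (ofNat_mem _ 27) (sub_mem (pow_mem hmem 3) (one_mem _))) 2
  · have hmem : hesT ℂ ∈ ℂ⟮hesT ℂ⟯ := mem_adjoin_simple_self ℂ _
    have : phiSer ℂ (zetaC 3) 3 (primIdx 3 k) =
        (27 / (((hesT ℂ + 2) / (hesT ℂ - 1)) ^ 3 - 1)) ^ 2 := hk
    rw [this]
    exact pow_mem (div_mem (ofNat_mem _ 27) (sub_mem (pow_mem (div_mem
      (add_mem hmem (ofNat_mem _ 2)) (sub_mem hmem (one_mem _))) 3) (one_mem _))) 2

/-- **HOST-B over `ℂ`, Hesse.** -/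
theorem qExpand_hesT_mem_adjoin_complex (hc : HesCoeffStatement) (ha : HesAlgStatement)
    {q : ℕ} [NeZero q] (hq : Nat.Coprime q 3) :
    qExpand ℂ q (hesT ℂ) ∈ IntermediateField.adjoin ℂ
      {jqNModC ℂ 3, hesT ℂ, qExpand ℂ (3 * q) (jqModC ℂ)} := by
  obtain ⟨ht, α, β, hα, hβ, hne, h1, h2⟩ := hesT_data hc ha
  exact qExpand_mem_adjoin_of_mem_fieldM (Or.inr rfl) hq ht hα hβ hne h1 h2

end

end Fermat.Agent.SS
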