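/-
(SS-q) HOST-B — helper8 — part 9: descent `ℂ → ℚ → K` and the final statements
`t(x^q) ∈ E = K(t) · F_w` on the Legendre and Hesse hosts, conditional on the four leaf statements.
-/
import Mathlib
import Fermat.Agent.SS.HOSTB_helper8_Hes
import Fermat.Agent.SS.HOSTB_helper6_Desc
import Fermat.Agent.JA.GEOBASE_helper8_Base
import Fermat.Agent.JA.LIFT_helper9

set_option autoImplicit false
set_option linter.unusedSectionVars false
set_option linter.style.haveILetI false
set_option synthInstance.maxHeartbeats 200000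

open HahnSeries ModularCurve Fermat.Agent.Igusa Fermat.Agent.X0N Fermat.Agent.RatStr
open IntermediateField Fermat.Agent.JA

namespace Fermat.Agent.SS

noncomputable section

/-- **descent of a membership** from `ℂ` to `ℚ` and up to any `K`. -/
theorem coeffEmb_mem_adjoin_of_complex (K : Type*) [Field K] [Algebra ℚ K]
    (S : Set (LaurentSeries ℚ)) (z : LaurentSeries ℚ)
    (h : coeffEmb ℂ z ∈ IntermediateField.adjoin ℂ (⇑(coeffEmb ℂ) '' S)) :
    coeffEmb K z ∈ IntermediateField.adjoin K (⇑(coeffEmb K) '' S) := by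
  have h1 : z ∈ IntermediateField.adjoin ℚ S := by
    apply mem_of_map_mem_adjoin (isLinDisjHom_coeffEmb ℂ) (IntermediateField.adjoin ℚ S) z
    exact IntermediateField.adjoin.mono ℂ _ _
      (Set.image_mono (IntermediateField.subset_adjoin ℚ S)) h
  rw [← laurentBaseChange_adjoin]
  exact coeffEmb_mem_laurentBaseChange K h1

theorem coeffEmb_legT (K : Type*) [Field K] [Algebra ℚ K] : coeffEmb K (legT ℚ) = legT K :=
  coeffMap_legT (algebraMap ℚ K)

theorem coeffEmb_hesT (K : Type*) [Field K] [Algebra ℚ K] : coeffEmb K (hesT ℚ) = hesT K :=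
  coeffMap_hesT (algebraMap ℚ K)

theorem coeffEmb_qExpand (K : Type*) [Field K] [Algebra ℚ K] (n : ℕ) [NeZero n]
    (x : LaurentSeries ℚ) : coeffEmb K (qExpand ℚ n x) = qExpand K n (coeffEmb K x) :=
  coeffMap_qExpand _ n x

theorem coeffEmb_jqModC (K : Type*) [Field K] [Algebra ℚ K] : coeffEmb K (jqModC ℚ) = jqModC K :=
  coeffMap_jqModC _

theorem coeffEmb_jqNModC (K : Type*) [Field K] [Algebra ℚ K] (n : ℕ) [NeZero n] :
    coeffEmb K (jqNModC ℚ n) = jqNModC K n :=
  coeffMap_jqNModC _ n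

/-- the image of the three generators. -/
theorem coeffEmb_image_triple (K : Type*) [Field K] [Algebra ℚ K] (a b c : LaurentSeries ℚ) :
    ⇑(coeffEmb K) '' {a, b, c} = {coeffEmb K a, coeffEmb K b, coeffEmb K c} := by
  rw [Set.image_insert_eq, Set.image_insert_eq, Set.image_singleton]

/-- **general form**: a membership `t(x^q) ∈ ℂ(j(x^w), t, j(x^{wq}))` over `ℂ` for a coordinate
defined over `ℚ` descends to every `K`. -/
theorem qExpand_mem_adjoin_of_complex (K : Type*) [Field K] [Algebra ℚ K] (w q : ℕ) [NeZero w]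
    [NeZero q] (t₀ : LaurentSeries ℚ)
    (h : qExpand ℂ q (coeffEmb ℂ t₀) ∈ IntermediateField.adjoin ℂ
      {jqNModC ℂ w, coeffEmb ℂ t₀, qExpand ℂ (w * q) (jqModC ℂ)}) :
    qExpand K q (coeffEmb K t₀) ∈ IntermediateField.adjoin K
      {jqNModC K w, coeffEmb K t₀, qExpand K (w * q) (jqModC K)} := by
  have h1 := coeffEmb_mem_adjoin_of_complex K
    {jqNModC ℚ w, t₀, qExpand ℚ (w * q) (jqModC ℚ)} (qExpand ℚ q t₀) (by
      rw [coeffEmb_image_triple, coeffEmb_qExpand, coeffEmb_qExpand, coeffEmb_jqNModC,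
        coeffEmb_jqModC]
      exact h)
  rw [coeffEmb_image_triple, coeffEmb_qExpand, coeffEmb_qExpand, coeffEmb_jqNModC,
    coeffEmb_jqModC] at h1
  exact h1

/-- the three generators lie in the tower field. -/
theorem adjoin_triple_le_Etu (K : Type*) [Field K] [Algebra ℚ K] (N w q : ℕ) [NeZero N] [NeZero w]
    [NeZero q] (hqN : q ∣ N) (t : LaurentSeries K) :
    IntermediateField.adjoin K {jqNModC K w, t, qExpand K (w * q) (jqModC K)} ≤
      Host.Etu (keyFw K N w) t 1 := by
  have hF : keyFw K N w ≤ Host.Etu (keyFw K N w) t 1 :=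
    le_trans (le_sup_left : keyFw K N w ≤ Host.Fu (keyFw K N w) 1) le_sup_right
  rw [IntermediateField.adjoin_le_iff]
  rintro x (rfl | rfl | rfl)
  · exact hF (jqNModC_mem_keyFw N w)
  · exact Host.mem_Etu_t _ _ _
  · apply hF
    rw [← qExpand_qExpand' w q (w * q) rfl]
    exact qExpand_mem_hostImage (qExpand_jqModC_mem_laurentBaseChange (L := K) N hqN)

/-- **HOST-B, Legendre** (conditional on the leaf statements). -/
theorem qExpand_legT_mem_legE_of (hc : LegCoeffStatement) (ha : LegAlgStatement)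
    (K : Type*) [Field K] [Algebra ℚ K] {N q : ℕ} [NeZero N] [NeZero q]
    (hq : q.Prime) (hq2 : q ≠ 2) (hqN : q ∣ N) :
    qExpand K q (legT K) ∈ legE K N := by
  have hcop : Nat.Coprime q 2 := (Nat.coprime_primes hq Nat.prime_two).mpr hq2
  have h := qExpand_legT_mem_adjoin_complex hc ha hcop
  rw [← coeffEmb_legT ℂ] at h
  have h1 := qExpand_mem_adjoin_of_complex K 2 q (legT ℚ) h
  rw [coeffEmb_legT K] at h1
  exact adjoin_triple_le_Etu K N 2 q hqN (legT K) h1

/-- **HOST-B, Hesse** (conditional on the leaf statements). -/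
theorem qExpand_hesT_mem_hesE_of (hc : HesCoeffStatement) (ha : HesAlgStatement)
    (K : Type*) [Field K] [Algebra ℚ K] {N : ℕ} [NeZero N] (h2N : 2 ∣ N) :
    qExpand K 2 (hesT K) ∈ hesE K N := by
  have hcop : Nat.Coprime 2 3 := by norm_num
  have h := qExpand_hesT_mem_adjoin_complex hc ha hcop
  rw [← coeffEmb_hesT ℂ] at h
  have h1 := qExpand_mem_adjoin_of_complex K 3 2 (hesT ℚ) h
  rw [coeffEmb_hesT K] at h1
  exact adjoin_triple_le_Etu K N 3 2 h2N (hesT K) h1

end

end Fermat.Agent.SS
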