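/-
(SS-q) HOST-B — helper8 — final statements: `t(x^q) ∈ E_N = K(t) · F_w` on the Legendre host
(`q` an odd prime dividing `N`) and on the Hesse host (`q = 2 ∣ N`).
-/
import Mathlib
import Fermat.Agent.SS.HOSTB_helper8_Final
import Fermat.Agent.SS.HOSTB_helper6_LegCoeff
import Fermat.Agent.SS.HOSTB_helper6_HesCoeff
import Fermat.Agent.SS.HOSTB_helper2_Alg

set_option autoImplicit false
set_option linter.unusedSectionVars false

open ModularCurve Fermat.Agent.JA

namespace Fermat.Agent.SS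

/-- **HOST-B, Legendre**: for an odd prime `q ∣ N`, `t(x^q)` lies in the Legendre tower field. -/
theorem qExpand_legT_mem_legE (K : Type*) [Field K] [Algebra ℚ K] {N q : ℕ} [NeZero N] [NeZero q]
    (hq : q.Prime) (hq2 : q ≠ 2) (hqN : q ∣ N) :
    qExpand K q (legT K) ∈ legE K N :=
  qExpand_legT_mem_legE_of legCoeffStatement legAlgStatement K hq hq2 hqN

/-- **HOST-B, Hesse**: for `2 ∣ N`, `t(x²)` lies in the Hesse tower field. -/
theorem qExpand_hesT_mem_hesE (K : Type*) [Field K] [Algebra ℚ K] {N : ℕ} [NeZero N]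
    (h2N : 2 ∣ N) :
    qExpand K 2 (hesT K) ∈ hesE K N :=
  qExpand_hesT_mem_hesE_of hesCoeffStatement hesAlgStatement K h2N

/-- **HOST-B, Legendre, over `ℂ`, any odd `q`**. -/
theorem qExpand_legT_mem_adjoin {q : ℕ} [NeZero q] (hq : Nat.Coprime q 2) :
    qExpand ℂ q (legT ℂ) ∈ IntermediateField.adjoin ℂ
      {jqNModC ℂ 2, legT ℂ, qExpand ℂ (2 * q) (jqModC ℂ)} :=
  qExpand_legT_mem_adjoin_complex legCoeffStatement legAlgStatement hq

/-- **HOST-B, Hesse, over `ℂ`, any `q` prime to 3**. -/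
theorem qExpand_hesT_mem_adjoin {q : ℕ} [NeZero q] (hq : Nat.Coprime q 3) :
    qExpand ℂ q (hesT ℂ) ∈ IntermediateField.adjoin ℂ
      {jqNModC ℂ 3, hesT ℂ, qExpand ℂ (3 * q) (jqModC ℂ)} :=
  qExpand_hesT_mem_adjoin_complex hesCoeffStatement hesAlgStatement hq

end Fermat.Agent.SS
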