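/-
(SS-q) HOST-B — helper8 — corollary: the dilation `x ↦ x^q` maps the level-`M` tower field into
the level-`N` tower field (`q M ∣ N`), on the Legendre and Hesse hosts.
-/
import Mathlib
import Fermat.Agent.SS.HOSTB_helper8_Main

set_option autoImplicit false
set_option linter.unusedSectionVars false
set_option linter.style.haveILetI false
set_option synthInstance.maxHeartbeats 200000

open HahnSeries ModularCurve Fermat.Agent.Igusa Fermat.Agent.X0N Fermat.Agent.RatStr
open IntermediateField Fermat.Agent.JA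

namespace Fermat.Agent.SS

noncomputable section

variable (K : Type*) [Field K] [Algebra ℚ K]

/-- `F_M(x^q) ⊆ F_N` for `q M ∣ N`. -/
theorem map_keyFq_le {M N q : ℕ} [NeZero M] [NeZero N] [NeZero q] (h : q * M ∣ N) :
    (keyFq K M).map (qExpandAlgHomC K q) ≤ keyFq K N := by
  show (laurentBaseChange K (modularFunctionFieldFull M)).map (qExpandAlgHomC K q) ≤ _
  rw [modularFunctionFieldFull, laurentBaseChange_adjoin, IntermediateField.adjoin_map,
    IntermediateField.adjoin_le_iff]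
  rintro _ ⟨_, ⟨_, ⟨d, hd0, hd, rfl⟩, rfl⟩, rfl⟩
  haveI := hd0
  rw [SetLike.mem_coe, qExpandAlgHomC_apply, coeffEmb_qExpand]
  have e : coeffEmb K jq = jqModC K := coeffEmb_jqModC K
  rw [e, qExpand_qExpand]
  exact qExpand_jqModC_mem_laurentBaseChange (L := K) N
    (dvd_trans (Nat.mul_dvd_mul_left q hd) h)

theorem qExpand_mem_keyFq {M N q : ℕ} [NeZero M] [NeZero N] [NeZero q] (h : q * M ∣ N)
    {f : LaurentSeries K} (hf : f ∈ keyFq K M) : qExpand K q f ∈ keyFq K N :=
  map_keyFq_le K h ⟨f, hf, rfl⟩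

/-- `F_{M,w}(x^q) ⊆ F_{N,w}` on the host `q = x^w`. -/
theorem qExpand_mem_keyFw {M N q : ℕ} [NeZero M] [NeZero N] [NeZero q] (w : ℕ) [NeZero w]
    (h : q * M ∣ N) {f : LaurentSeries K} (hf : f ∈ keyFw K M w) :
    qExpand K q f ∈ keyFw K N w := by
  obtain ⟨g, hg, rfl⟩ := hf
  show qExpand K q (qExpand K w g) ∈ keyFw K N w
  rw [qExpand_qExpand' q w (w * q) (mul_comm w q), ← qExpand_qExpand' w q (w * q) rfl]
  exact qExpand_mem_hostImage (qExpand_mem_keyFq K h hg)

/-- dilation maps a tower field into a tower field as soon as it does so on the coordinate. -/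
theorem map_Etu_le {M N q : ℕ} [NeZero M] [NeZero N] [NeZero q] (w : ℕ) [NeZero w]
    (h : q * M ∣ N) (t : LaurentSeries K)
    (ht : qExpand K q t ∈ Host.Etu (keyFw K N w) t 1) :
    (Host.Etu (keyFw K M w) t 1).map (qExpandAlgHomC K q) ≤ Host.Etu (keyFw K N w) t 1 := by
  have hF : keyFw K N w ≤ Host.Etu (keyFw K N w) t 1 :=
    le_trans (le_sup_left : keyFw K N w ≤ Host.Fu (keyFw K N w) 1) le_sup_right
  rw [Host.Etu, Host.Fu, IntermediateField.map_sup, IntermediateField.map_sup,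
    IntermediateField.adjoin_map, IntermediateField.adjoin_map, Set.image_singleton,
    Set.image_singleton]
  refine sup_le ?_ (sup_le ?_ ?_)
  · rw [IntermediateField.adjoin_simple_le_iff]
    exact ht
  · rintro _ ⟨f, hf, rfl⟩
    exact hF (qExpand_mem_keyFw K w h hf)
  · rw [IntermediateField.adjoin_simple_le_iff, map_one]
    exact one_mem _

/-- **Legendre**: `E_M(x^q) ⊆ E_N` for an odd prime `q` with `q M ∣ N`. -/
theorem qExpand_mem_legE_of_mem {M N q : ℕ} [NeZero M] [NeZero N] [NeZero q]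
    (hq : q.Prime) (hq2 : q ≠ 2) (h : q * M ∣ N) {f : LaurentSeries K} (hf : f ∈ legE K M) :
    qExpand K q f ∈ legE K N :=
  map_Etu_le K 2 h (legT K)
    (qExpand_legT_mem_legE K hq hq2 (dvd_trans (dvd_mul_right q M) h)) ⟨f, hf, rfl⟩

/-- **Hesse**: `E_M(x²) ⊆ E_N` for `2 M ∣ N`. -/
theorem qExpand_mem_hesE_of_mem {M N : ℕ} [NeZero M] [NeZero N]
    (h : 2 * M ∣ N) {f : LaurentSeries K} (hf : f ∈ hesE K M) :
    qExpand K 2 f ∈ hesE K N :=
  map_Etu_le K 3 h (hesT K)
    (qExpand_hesT_mem_hesE K (dvd_trans (dvd_mul_right 2 M) h)) ⟨f, hf, rfl⟩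

end

end Fermat.Agent.SS
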