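/-
(SS-q) HOST-B — helper8 — the second degeneracy map on the hosts as a `K`-algebra homomorphism
`hostB : E_M → E_{M q}`, `f ↦ f(x^q)` (Legendre host: `q` an odd prime; Hesse host: `q = 2`).
-/
import Mathlib
import Fermat.Agent.SS.HOSTB_helper8_Map

set_option autoImplicit false
set_option linter.unusedSectionVars false
set_option linter.style.haveILetI false
set_option synthInstance.maxHeartbeats 200000

open HahnSeries ModularCurve IntermediateField Fermat.Agent.JA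

namespace Fermat.Agent.SS

noncomputable section

variable (K : Type*) [Field K] [Algebra ℚ K]

/-- `f ↦ f(x^q)` from an intermediate field of `K⸨x⸩` into another one. -/
def dilateAlgHom (q : ℕ) [NeZero q] (E₁ E₂ : IntermediateField K (LaurentSeries K))
    (h : ∀ f ∈ E₁, qExpand K q f ∈ E₂) : ↥E₁ →ₐ[K] ↥E₂ :=
  ((qExpandAlgHomC K q).comp E₁.val).codRestrict E₂.toSubalgebra (fun f => h f f.2)

@[simp] theorem coe_dilateAlgHom (q : ℕ) [NeZero q] (E₁ E₂ : IntermediateField K (LaurentSeries K))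
    (h : ∀ f ∈ E₁, qExpand K q f ∈ E₂) (f : ↥E₁) :
    ((dilateAlgHom K q E₁ E₂ h f : ↥E₂) : LaurentSeries K) = qExpand K q (f : LaurentSeries K) :=
  rfl

/-- **the degeneracy map `B` on the Legendre hosts**. -/
def legHostB (M q : ℕ) [NeZero M] [NeZero q] [NeZero (M * q)] (hq : q.Prime) (hq2 : q ≠ 2) :
    ↥(legE K M) →ₐ[K] ↥(legE K (M * q)) :=
  dilateAlgHom K q (legE K M) (legE K (M * q))
    (fun _ hf => qExpand_mem_legE_of_mem K hq hq2 (by rw [mul_comm]) hf)

@[simp] theorem coe_legHostB (M q : ℕ) [NeZero M] [NeZero q] [NeZero (M * q)] (hq : q.Prime)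
    (hq2 : q ≠ 2) (f : ↥(legE K M)) :
    ((legHostB K M q hq hq2 f : ↥(legE K (M * q))) : LaurentSeries K) =
      qExpand K q (f : LaurentSeries K) := rfl

/-- **the degeneracy map `B` on the Hesse hosts** (`q = 2`). -/
def hesHostB (M : ℕ) [NeZero M] [NeZero (M * 2)] :
    ↥(hesE K M) →ₐ[K] ↥(hesE K (M * 2)) :=
  dilateAlgHom K 2 (hesE K M) (hesE K (M * 2))
    (fun _ hf => qExpand_mem_hesE_of_mem K (by rw [mul_comm]) hf)

@[simp] theorem coe_hesHostB (M : ℕ) [NeZero M] [NeZero (M * 2)] (f : ↥(hesE K M)) :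
    ((hesHostB K M f : ↥(hesE K (M * 2))) : LaurentSeries K) =
      qExpand K 2 (f : LaurentSeries K) := rfl

/-- **the degeneracy map `A` (inclusion) between tower fields**: `E_M ≤ E_N` for `M ∣ N`. -/
theorem keyFq_le_of_dvd {M N : ℕ} [NeZero M] [NeZero N] (h : M ∣ N) : keyFq K M ≤ keyFq K N := by
  intro f hf
  have h1 : (1 : ℕ) * M ∣ N := by rwa [one_mul]
  have := qExpand_mem_keyFq K h1 hf
  rwa [qExpand_one_apply] at this

theorem keyFw_le_of_dvd {M N : ℕ} [NeZero M] [NeZero N] (w : ℕ) [NeZero w] (h : M ∣ N) :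
    keyFw K M w ≤ keyFw K N w := by
  rintro _ ⟨g, hg, rfl⟩
  exact ⟨g, keyFq_le_of_dvd K h hg, rfl⟩

theorem Etu_le_of_dvd {M N : ℕ} [NeZero M] [NeZero N] (w : ℕ) [NeZero w] (h : M ∣ N)
    (t : LaurentSeries K) : Host.Etu (keyFw K M w) t 1 ≤ Host.Etu (keyFw K N w) t 1 := by
  rw [Host.Etu, Host.Etu, Host.Fu, Host.Fu]
  exact sup_le_sup_left (sup_le_sup_right (keyFw_le_of_dvd K w h) _) _

theorem legE_le_of_dvd {M N : ℕ} [NeZero M] [NeZero N] (h : M ∣ N) : legE K M ≤ legE K N :=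
  Etu_le_of_dvd K 2 h (legT K)

theorem hesE_le_of_dvd {M N : ℕ} [NeZero M] [NeZero N] (h : M ∣ N) : hesE K M ≤ hesE K N :=
  Etu_le_of_dvd K 3 h (hesT K)

end

end Fermat.Agent.SS
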