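/-
(SS-q) MODEL-GLOBAL — helper7 — **the interface structure** `SSModel`: the complete list of facts
about the two levels `M` (good reduction) and `N = M q` (two sheets) of a host tower from which the
abstract side derives the hypotheses of `exists_kummer_of_chart` (LOCASM) and `kummer_inertia_pow'`
(KUM) for the charts `chartOne R E_N j`, `chartOne R E_N j⁻¹`.

* `E_M`, `E_N`: the hosts of level `M`, `N`; `A B : E_M →+* E_N` the two degeneracy maps
  (`A` = inclusion, `B` = `x ↦ x ^ q` on Laurent series); `t` the host coordinate of level `M`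
  (`K_M = K₁(t)`), `jM ∈ E_M` the `j`-function of the host, `j = A jM` the coordinate of the
  charts of level `N` (`K_N = K₁(j)`), `jq = B jM`.
* `VM`: the unique extension of the Gauss valuation to `E_M`; `Winf`, `W0` the two extensions to
  `E_N` (`Winf` = coefficientwise, `W0` = its Atkin–Lehner transform).
-/
import Mathlib
import Fermat.Agent.SS.VERT_helper4
import Fermat.Agent.JA.GEOBASE_helper8_Hyps

set_option autoImplicit false
set_option linter.unusedSectionVars false

namespace Fermat.Agent.SS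

open Fermat.Agent.JA

section Iface

variable {R : Type*} [CommRing R] [IsDomain R] [IsDiscreteValuationRing R] [CharZero R]
  {K₁ : Type*} [Field K₁] [Algebra R K₁] [IsFractionRing R K₁]
  {KM : Type*} [Field KM] [Algebra K₁ KM] [Algebra R KM] [IsScalarTower R K₁ KM]
  {EM : Type*} [Field EM] [Algebra KM EM] [Algebra K₁ EM] [IsScalarTower K₁ KM EM] [Algebra R EM]
  [IsScalarTower R KM EM]
  {KN : Type*} [Field KN] [Algebra K₁ KN] [Algebra R KN] [IsScalarTower R K₁ KN]
  {EN : Type*} [Field EN] [Algebra KN EN] [Algebra K₁ EN] [IsScalarTower K₁ KN EN] [Algebra R EN]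
  [IsScalarTower R KN EN] [FiniteDimensional KN EN]

/-- **the model data of a semistable level** (see the file header). -/
structure SSModel (K₁ : Type*) [Field K₁] [Algebra R K₁] [IsFractionRing R K₁]
    {KM : Type*} [Field KM] [Algebra K₁ KM] [Algebra R KM] [IsScalarTower R K₁ KM]
    {EM : Type*} [Field EM] [Algebra KM EM] [Algebra K₁ EM] [IsScalarTower K₁ KM EM] [Algebra R EM]
    [IsScalarTower R KM EM]
    {KN : Type*} [Field KN] [Algebra K₁ KN] [Algebra R KN] [IsScalarTower R K₁ KN]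
    {EN : Type*} [Field EN] [Algebra KN EN] [Algebra K₁ EN] [IsScalarTower K₁ KN EN] [Algebra R EN]
    [IsScalarTower R KN EN] [FiniteDimensional KN EN]
    (π : R) (q n : ℕ) (S : Finset R) (t : KM) (jM : EM) (j : KN) (A B : EM →+* EN)
    (VM : ValuationSubring EM) (Winf W0 : ValuationSubring EN) : Prop where
  /-- the residue characteristic -/
  q_prime : q.Prime
  q_mem : (q : R) ∈ Ideal.span {π}
  /-- level `M`: good reduction in the coordinate `t` -/
  geo : GeoHyps K₁ π t EM n S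
  gauss_M : IsGaussAt R π t (VM.comap (algebraMap KM EM))
  /-- `t` and the `(t - s)⁻¹`, `s ∈ S`, are integral over `R[jM]` (no cusp where `jM` is regular) -/
  t_int : IsIntegral ↥(Algebra.adjoin R {jM}) (algebraMap KM EM t)
  t_sub_inv_int : ∀ s ∈ S, IsIntegral ↥(Algebra.adjoin R {jM})
    (algebraMap KM EM t - algebraMap R EM s)⁻¹
  /-- at a cusp the coordinate or its inverse is regular -/
  cusp_t : ∀ O : Subring EM, (∀ x : EM, IsIntegral ↥O x → x ∈ O) →
    (∀ a ∈ O, ∀ b ∈ O, a + b = 1 → a⁻¹ ∈ O ∨ b⁻¹ ∈ O) → (∀ r : R, algebraMap R EM r ∈ O) →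
    jM⁻¹ ∈ O → jM ∉ O → algebraMap KM EM t ∈ O ∨ (algebraMap KM EM t)⁻¹ ∈ O
  /-- level `N`: the coordinate `j` -/
  j_transcendental : Transcendental K₁ j
  j_adjoin : IntermediateField.adjoin K₁ {j} = ⊤
  /-- the degeneracy maps -/
  A_algebraMap : ∀ r : R, A (algebraMap R EM r) = algebraMap R EN r
  B_algebraMap : ∀ r : R, B (algebraMap R EM r) = algebraMap R EN r
  A_j : A jM = algebraMap KN EN j
  /-- the two sheets -/
  two : IsTwoSheet π j Winf W0
  comap_A_inf : Winf.comap A = VM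
  comap_B_inf : Winf.comap B = VM
  comap_A_zero : W0.comap A = VM
  comap_B_zero : W0.comap B = VM
  /-- residue degree one: `C_∞ ≅ X_M` via `A`, `C_0 ≅ X_M` via `B` -/
  res_inf : ∀ x ∈ Winf, ∃ a ∈ VM, Winf.valuation (x - A a) < 1
  res_zero : ∀ x ∈ W0, ∃ a ∈ VM, W0.valuation (x - B a) < 1
  /-- the Kronecker congruences -/
  kron_j_inf : Winf.valuation (B jM - A jM ^ q) < 1
  kron_j_zero : W0.valuation (A jM - B jM ^ q) < 1
  kron_t_inf : Winf.valuation
    (B (algebraMap KM EM t) - A (algebraMap KM EM t) ^ q) < 1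
  kron_t_zero : ∃ s' ρ : EN, IsIntegral ↥(Algebra.adjoin R {B jM}) s' ∧
    IsIntegral ↥(Algebra.adjoin R {A jM}) ρ ∧
    W0.valuation (A (algebraMap KM EM t) - s' ^ q) < 1 ∧ Winf.valuation (s' - ρ ^ q) < 1
  /-- the cusps (helper9's CUSPORD) -/
  cuspord : ∀ V : ValuationSubring EN, (∀ r : R, algebraMap R EN r ∈ V) →
    (algebraMap R EN π)⁻¹ ∈ V → A jM ∉ V →
    B jM * (A jM ^ q)⁻¹ ∈ V ∧ A jM * (B jM ^ q)⁻¹ ∈ V ∧ B jM ∉ V
  cuspord' : ∀ V : ValuationSubring EN, (∀ r : R, algebraMap R EN r ∈ V) →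
    (algebraMap R EN π)⁻¹ ∈ V → B jM ∉ V → A jM ∉ V
  /-- constants -/
  const : ∀ x : EN, IsAlgebraic K₁ x → x ∈ Set.range (algebraMap K₁ EN)
  /-- the unit of the nodes (`Δ(τ)/Δ(qτ)`): a unit on `C_∞`, `π ^ c` times a unit on `C_0`, no
  horizontal zeros or poles where `j` is regular -/
  unit : ∃ (U : EN) (c : ℕ), 1 ≤ c ∧ U ≠ 0 ∧ U ∈ Winf ∧ U⁻¹ ∈ Winf ∧
    U * (algebraMap R EN π ^ c)⁻¹ ∈ W0 ∧ (U * (algebraMap R EN π ^ c)⁻¹)⁻¹ ∈ W0 ∧
    IsIntegral ↥(Algebra.adjoin K₁ {A jM}) U ∧ IsIntegral ↥(Algebra.adjoin K₁ {A jM}) U⁻¹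

/-- **the inertia action on a model**: a ring endomorphism of `E_N` (coefficientwise action of an
element of the inertia group) fixing `j`, preserving `R` and the two sheets, trivial on the residue
fields. -/
structure SSModelAut {KN : Type*} [Field KN] [Algebra R KN]
    {EN : Type*} [Field EN] [Algebra KN EN] [Algebra R EN] [IsScalarTower R KN EN]
    (π : R) (j : KN) (Winf W0 : ValuationSubring EN) (σ : EN →+* EN) : Prop where
  map_j : σ (algebraMap KN EN j) = algebraMap KN EN j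
  map_R : ∀ r : R, ∃ r' : R, σ (algebraMap R EN r) = algebraMap R EN r' ∧
    r' - r ∈ Ideal.span {π}
  mem_inf : ∀ x : EN, x ∈ Winf → σ x ∈ Winf
  mem_zero : ∀ x : EN, x ∈ W0 → σ x ∈ W0
  res_inf : ∀ x : EN, x ∈ Winf → Winf.valuation (σ x - x) < 1
  res_zero : ∀ x : EN, x ∈ W0 → W0.valuation (σ x - x) < 1

end Iface

end Fermat.Agent.SS
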