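/-
(SS-q) — helper7 — SS-VAL2, part 5: extension of a valuation subring along a field homomorphism
(Chevalley), Mathlib only.
-/
import Mathlib

set_option autoImplicit false
set_option linter.unusedSectionVars false
set_option linter.style.haveILetI false

namespace Fermat.Agent.SS

/-- **Chevalley**: every valuation subring of `F` is the restriction of a valuation subring of an
extension field `L`. -/
theorem exists_valuationSubring_comap_eq {F L : Type*} [Field F] [Field L] (ι : F →+* L)
    (O : ValuationSubring F) : ∃ V : ValuationSubring L, V.comap ι = O := by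
  classical
  set A : LocalSubring L := LocalSubring.map ι O.toLocalSubring with hA
  obtain ⟨V, hle, hloc⟩ := A.exists_le_valuationSubring
  have hmem : ∀ a : F, a ∈ O → ι a ∈ V := fun a ha => hle ⟨a, ha, rfl⟩
  refine ⟨V, ?_⟩
  ext a
  constructor
  · intro ha
    have haV : ι a ∈ V := ha
    by_contra haO
    have ha0 : a ≠ 0 := fun h => haO (h ▸ O.zero_mem)
    have hinv : a⁻¹ ∈ O := (O.mem_or_inv_mem a).resolve_left haO
    -- `ι a⁻¹` is a unit of `V` but not of the image of `O`
    have hinvA : ι a⁻¹ ∈ A.toSubring := ⟨a⁻¹, hinv, rfl⟩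
    have hunitV : IsUnit (Subring.inclusion hle ⟨ι a⁻¹, hinvA⟩) := by
      refine isUnit_iff_exists_inv.mpr ⟨⟨ι a, haV⟩, Subtype.ext ?_⟩
      show ι a⁻¹ * ι a = 1
      rw [← map_mul, inv_mul_cancel₀ ha0, map_one]
    haveI := hloc
    have hunitA : IsUnit (⟨ι a⁻¹, hinvA⟩ : ↥A.toSubring) := IsUnit.of_map (Subring.inclusion hle) _ hunitV
    obtain ⟨⟨u, hu⟩, huv⟩ := isUnit_iff_exists_inv.mp hunitA
    obtain ⟨b, hb, rfl⟩ := hu
    have h1 : ι a⁻¹ * ι b = 1 := congrArg Subtype.val huv
    rw [← map_mul, ← map_one ι] at h1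
    have h2 : a⁻¹ * b = 1 := ι.injective h1
    have h3 : b = a := by
      field_simp at h2
      exact h2
    exact haO (h3 ▸ hb)
  · intro ha
    exact hmem a ha

end Fermat.Agent.SS
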