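/-
(SS-q) MODEL-GLOBAL — helper7 — **the concrete objects of the model on the hosts** (definitions
only, so that the instantiations of `SSModel` / `SSModelAut` can be written against the real
types):

* `alHost` : the Atkin–Lehner involution `W_q` on the host image `keyFw K (M q) w` of `F_{Mq}`;
* `hostW0F` : the valuation subring `w_0 = w_∞ ∘ W_q` of `keyFw K (M q) w`;
* `hostW0`  : a valuation subring of a host `E ≥ keyFw K (M q) w` extending `w_0` (Chevalley);
* Legendre: `legWinf R K h2 N` (coefficientwise Gauss valuation subring of `legE K N`),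
  `legW0`, `legHostA` (inclusion `legE K M → legE K (M q)`), and the statement `SSModelLeg`;
* Hesse: `hesWinf`, `hesW0`, `hesHostA`, `SSModelHes`.
-/
import Mathlib
import Fermat.Agent.SS.MODEL_helper7_Iface
import Fermat.Agent.SS.VAL2_helper7_LegInt
import Fermat.Agent.SS.VAL2_helper7_Chev
import Fermat.Agent.SS.HOSTINT_helper6_Main
import Fermat.Agent.SS.HOSTB_helper8_HostB
import Fermat.Agent.SS.CUSPT_helper3_Host
import Fermat.Agent.JA.ES1_helper2_W
import Fermat.Agent.JA.BCD_helper9_Host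

set_option autoImplicit false
set_option linter.unusedSectionVars false
set_option linter.style.haveILetI false
set_option synthInstance.maxHeartbeats 200000

open Polynomial ModularCurve IntermediateField

namespace Fermat.Agent.SS

open Fermat.Agent.JA Fermat.Agent.Igusa

open scoped Fermat.Agent.JA.Host

noncomputable section

section AL

variable (K : Type*) [Field K] [Algebra ℚ K] (ι : K →+* ℂ) {M q : ℕ} [NeZero M] [NeZero q]
  [NeZero (M * q)] (w : ℕ) [NeZero w] {x y : ℤ} (h : (q : ℤ) * x + M * y = 1) (hq : q.Prime)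

/-- **the Atkin–Lehner involution `W_q` on the host image of `F_{M q}`** (`q ∤ M`). -/
def alHost : ↥(keyFw K (M * q) w) →+* ↥(keyFw K (M * q) w) :=
  ((hostImageEquiv K w (keyFq K (M * q)) : ↥(keyFq K (M * q)) →+* ↥(keyFw K (M * q) w))).comp
    ((Fermat.Agent.X0N.atkinLehnerN ι h hq).comp
      ((hostImageEquiv K w (keyFq K (M * q))).symm : ↥(keyFw K (M * q) w) →+* ↥(keyFq K (M * q))))

theorem alHost_hostImageEquiv (f : ↥(keyFq K (M * q))) :
    alHost K ι w h hq (hostImageEquiv K w (keyFq K (M * q)) f) =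
      hostImageEquiv K w (keyFq K (M * q)) (Fermat.Agent.X0N.atkinLehnerN ι h hq f) := by
  simp [alHost]

theorem alHost_alHost (f : ↥(keyFw K (M * q) w)) :
    alHost K ι w h hq (alHost K ι w h hq f) = f := by
  obtain ⟨g, rfl⟩ := (hostImageEquiv K w (keyFq K (M * q))).surjective f
  rw [alHost_hostImageEquiv, alHost_hostImageEquiv, Fermat.Agent.X0N.atkinLehnerN_atkinLehnerN]

variable (R : Type*) [CommRing R] [IsDomain R] [IsDiscreteValuationRing R]
  [Algebra R K] [IsFractionRing R K]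

/-- **`w_0 = w_∞ ∘ W_q`** on the host image of `F_{M q}`. -/
def hostW0F : ValuationSubring ↥(keyFw K (M * q) w) :=
  (gaussValSub R K (keyFw K (M * q) w) (keyFw_le_gaussField R K (M * q) w)).comap
    (alHost K ι w h hq)

theorem mem_hostW0F_iff (f : ↥(keyFw K (M * q) w)) :
    f ∈ hostW0F K ι w h hq R ↔
      ((alHost K ι w h hq f : ↥(keyFw K (M * q) w)) : LaurentSeries K) ∈ gaussInt R K :=
  Iff.rfl

theorem exists_hostW0 (E : IntermediateField K (LaurentSeries K))
    (hE : keyFw K (M * q) w ≤ E) :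
    ∃ V : ValuationSubring ↥E, V.comap
      ((IntermediateField.inclusion hE : ↥(keyFw K (M * q) w) →ₐ[K] ↥E) : _ →+* ↥E) =
      hostW0F K ι w h hq R :=
  exists_valuationSubring_comap_eq _ _

/-- **`W_0`**: a valuation subring of a host `E ≥ keyFw K (M q) w` extending `w_0`. -/
def hostW0 (E : IntermediateField K (LaurentSeries K)) (hE : keyFw K (M * q) w ≤ E) :
    ValuationSubring ↥E :=
  Classical.choose (exists_hostW0 K ι w h hq R E hE)

theorem hostW0_comap (E : IntermediateField K (LaurentSeries K)) (hE : keyFw K (M * q) w ≤ E) :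
    (hostW0 K ι w h hq R E hE).comap
      ((IntermediateField.inclusion hE : ↥(keyFw K (M * q) w) →ₐ[K] ↥E) : _ →+* ↥E) =
      hostW0F K ι w h hq R :=
  Classical.choose_spec (exists_hostW0 K ι w h hq R E hE)

end AL

section Tower

variable {R : Type*} [CommRing R] {K : Type*} [Field K] [Algebra R K]

/-- the scalar tower `R → ↥A → ↥B` of two intermediate fields `A ≤ B` of the host `K⸨x⸩`. -/
instance hostTower_of_fact (A B : IntermediateField K (LaurentSeries K)) [Fact (A ≤ B)] :
    IsScalarTower R ↥A ↥B :=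
  IsScalarTower.of_algebraMap_eq (fun _ => Subtype.ext rfl)

end Tower

section Hosts

variable (R : Type*) [CommRing R] [IsDomain R] [IsDiscreteValuationRing R] [CharZero R]
  (K : Type*) [Field K] [Algebra R K] [IsFractionRing R K] [Algebra ℚ K] [Algebra K ℂ]

/-- the host of level `N` is finite over `K(j)`, Legendre. -/
theorem finite_legE_adjoin_j (N : ℕ) [NeZero N] :
    Module.Finite ↥K⟮jqNModC K 2⟯ ↥(legE K N) := by
  haveI : Module.Finite ↥K⟮jqNModC K 2⟯ ↥K⟮legT K⟯ :=
    Host.finite_Kj_Kt _ (legT K) (isIntegral_legT K)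
  haveI : Module.Finite ↥K⟮legT K⟯ ↥(legE K N) := finite_legE K N
  exact Module.Finite.trans ↥K⟮legT K⟯ ↥(legE K N)

/-- the host of level `N` is finite over `K(j)`, Hesse. -/
theorem finite_hesE_adjoin_j (N : ℕ) [NeZero N] :
    Module.Finite ↥K⟮jqNModC K 3⟯ ↥(hesE K N) := by
  haveI : Module.Finite ↥K⟮jqNModC K 3⟯ ↥K⟮hesT K⟯ :=
    Host.finite_Kj_Kt _ (hesT K) (isIntegral_hesT K)
  haveI : Module.Finite ↥K⟮hesT K⟯ ↥(hesE K N) := finite_hesE K N
  exact Module.Finite.trans ↥K⟮hesT K⟯ ↥(hesE K N)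

/-- `W_∞` / `V_M`: the coefficientwise Gauss valuation subring of the Legendre host. -/
def legWinf (h2 : IsUnit (2 : R)) (N : ℕ) [NeZero N] : ValuationSubring ↥(legE K N) :=
  gaussValSub R K (legE K N) (legE_le_gaussField R K h2 N)

/-- `W_∞` / `V_M`: the coefficientwise Gauss valuation subring of the Hesse host. -/
def hesWinf (h3 : IsUnit (3 : R)) (N : ℕ) [NeZero N] : ValuationSubring ↥(hesE K N) :=
  gaussValSub R K (hesE K N) (hesE_le_gaussField R K h3 N)

variable {M q : ℕ} [NeZero M] [NeZero q] [NeZero (M * q)] {x y : ℤ}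

theorem keyFw_le_legE (N : ℕ) [NeZero N] : keyFw K N 2 ≤ legE K N :=
  le_trans (le_sup_left : keyFw K N 2 ≤ Host.Fu (keyFw K N 2) 1) le_sup_right

theorem keyFw_le_hesE (N : ℕ) [NeZero N] : keyFw K N 3 ≤ hesE K N :=
  le_trans (le_sup_left : keyFw K N 3 ≤ Host.Fu (keyFw K N 3) 1) le_sup_right

/-- `W_0` on the Legendre host of level `M q`. -/
def legW0 (h : (q : ℤ) * x + M * y = 1) (hq : q.Prime) : ValuationSubring ↥(legE K (M * q)) :=
  hostW0 K (algebraMap K ℂ) 2 h hq R (legE K (M * q)) (keyFw_le_legE K (M * q))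

/-- `W_0` on the Hesse host of level `M q`. -/
def hesW0 (h : (q : ℤ) * x + M * y = 1) (hq : q.Prime) : ValuationSubring ↥(hesE K (M * q)) :=
  hostW0 K (algebraMap K ℂ) 3 h hq R (hesE K (M * q)) (keyFw_le_hesE K (M * q))

/-- the degeneracy map `A` (inclusion) on the Legendre hosts. -/
def legHostA (M q : ℕ) [NeZero M] [NeZero (M * q)] : ↥(legE K M) →ₐ[K] ↥(legE K (M * q)) :=
  IntermediateField.inclusion (legE_le_of_dvd K (dvd_mul_right M q))

/-- the degeneracy map `A` (inclusion) on the Hesse hosts. -/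
def hesHostA (M q : ℕ) [NeZero M] [NeZero (M * q)] : ↥(hesE K M) →ₐ[K] ↥(hesE K (M * q)) :=
  IntermediateField.inclusion (hesE_le_of_dvd K (dvd_mul_right M q))

@[simp] theorem coe_legHostA (M q : ℕ) [NeZero M] [NeZero (M * q)] (f : ↥(legE K M)) :
    ((legHostA K M q f : ↥(legE K (M * q))) : LaurentSeries K) = f :=
  IntermediateField.coe_inclusion _ f

@[simp] theorem coe_hesHostA (M q : ℕ) [NeZero M] [NeZero (M * q)] (f : ↥(hesE K M)) :
    ((hesHostA K M q f : ↥(hesE K (M * q))) : LaurentSeries K) = f :=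
  IntermediateField.coe_inclusion _ f

/-- **the model statement on the Legendre hosts** (`q` odd, `q ∤ M`, residue characteristic `q`,
`S = {0, 1}`, tameness bound `n = M`). -/
def SSModelLeg [DecidableEq R] (π : R) (h2 : IsUnit (2 : R)) (h : (q : ℤ) * x + M * y = 1)
    (hq : q.Prime) (hq2 : q ≠ 2) : Prop :=
  haveI : FiniteDimensional ↥K⟮jqNModC K 2⟯ ↥(legE K (M * q)) := finite_legE_adjoin_j K (M * q)
  SSModel K (KM := ↥K⟮legT K⟯) (EM := ↥(legE K M)) (KN := ↥K⟮jqNModC K 2⟯)
    (EN := ↥(legE K (M * q))) π q M ({0, 1} : Finset R)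
    (AdjoinSimple.gen K (legT K)) (legJE K M) (AdjoinSimple.gen K (jqNModC K 2))
    (legHostA K M q : ↥(legE K M) →+* ↥(legE K (M * q)))
    (legHostB K M q hq hq2 : ↥(legE K M) →+* ↥(legE K (M * q)))
    (legWinf R K h2 M) (legWinf R K h2 (M * q)) (legW0 R K h hq)

/-- **the model statement on the Hesse hosts** (`q = 2`, `M` odd, residue characteristic `2`,
`S = {1, ω, ω²}`, tameness bound `n = M`). -/
def SSModelHes [DecidableEq R] [NeZero (M * 2)] (π : R) (h3 : IsUnit (3 : R)) (ω : R)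
    (h : ((2 : ℕ) : ℤ) * x + M * y = 1) : Prop :=
  haveI : FiniteDimensional ↥K⟮jqNModC K 3⟯ ↥(hesE K (M * 2)) := finite_hesE_adjoin_j K (M * 2)
  SSModel K (KM := ↥K⟮hesT K⟯) (EM := ↥(hesE K M)) (KN := ↥K⟮jqNModC K 3⟯)
    (EN := ↥(hesE K (M * 2))) π 2 M ({1, ω, ω ^ 2} : Finset R)
    (AdjoinSimple.gen K (hesT K)) (hesJE K M) (AdjoinSimple.gen K (jqNModC K 3))
    (hesHostA K M 2 : ↥(hesE K M) →+* ↥(hesE K (M * 2)))
    (hesHostB K M : ↥(hesE K M) →+* ↥(hesE K (M * 2)))
    (hesWinf R K h3 M) (hesWinf R K h3 (M * 2)) (hesW0 R K h Nat.prime_two)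

end Hosts

end

end Fermat.Agent.SS
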