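/-
(SS-q) concrete `SSModel` fields — helper3 — part 2: **the sheet `W_0` over the level of good
reduction**, Legendre and Hesse hosts.

`W0` any valuation subring of the host `E_N` (`N = M q`) with
* `hW0`: the host image of a modular function whose Atkin–Lehner transform is Gauss-integral lies
  in `W0` (helper6's shape; true for `legW0` / `hesW0` of `MODEL_helper7_Defs`),
* `hϖW0`: `ϖ` is not a unit of `W0`.
Then `W0` is a Gauss valuation subring with respect to `A j_M` and with respect to `B j_M`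
(`AL (α z) = β z`, `AL (β z) = α z`), hence (GAUSSUP + uniqueness of the Gauss extension at the
level of good reduction) `W0.comap A = W0.comap B = V_M`: the fields `comap_A_zero`, `comap_B_zero`
of `SSModel` (= `hW0A`, `hW0B` of `host_two_sheet`); also `two.gauss_inf`, `two.gauss_zero`.
-/
import Mathlib
import Fermat.Agent.SS.FIELD_helper3_Gauss
import Fermat.Agent.SS.GAUSSUP_helper3
import Fermat.Agent.SS.MODEL_helper7_Defs
import Fermat.Agent.SS.HART_helper4
import Fermat.Agent.SS.KRONHOST_helper6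

set_option autoImplicit false
set_option linter.unusedSectionVars false
set_option linter.style.haveILetI false
set_option synthInstance.maxHeartbeats 200000

open Polynomial ModularCurve IntermediateField

namespace Fermat.Agent.SS

open Fermat.Agent.JA Fermat.Agent.Igusa Fermat.Agent.X0N

open scoped Fermat.Agent.JA.Host

section Generic

variable {R : Type*} [CommRing R] [IsDomain R] [IsDiscreteValuationRing R] [CharZero R]
  {K₁ : Type*} [Field K₁] [Algebra R K₁] [IsFractionRing R K₁]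
  {KM : Type*} [Field KM] [Algebra K₁ KM] [Algebra R KM] [IsScalarTower R K₁ KM]
  {EM : Type*} [Field EM] [Algebra KM EM] [Algebra K₁ EM] [IsScalarTower K₁ KM EM] [Algebra R EM]
  [IsScalarTower R KM EM]
  {EN : Type*} [Field EN] [Algebra R EN]
  {π : R} {n : ℕ} {S : Finset R} {t : KM} {jM : EM} {VM : ValuationSubring EM}

/-- the pull-back of a Gauss valuation subring at `ι j_M` along `ι` is Gauss at `j_M`. -/
theorem isGaussAt_comap_of_isGaussAt_map (ι : EM →+* EN)
    (hι : ∀ r : R, ι (algebraMap R EM r) = algebraMap R EN r) (W : ValuationSubring EN)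
    (hW : IsGaussAt R π (ι jM) W) : IsGaussAt R π jM (W.comap ι) := by
  have hmap : ∀ f : R[X], ι (aeval jM f) = aeval (ι jM) f := by
    intro f
    set ι' : EM →ₐ[R] EN := { ι with commutes' := hι } with hι'
    have h1 : ι (aeval jM f) = ι' (aeval jM f) := rfl
    rw [h1, ← aeval_algHom_apply]
    rfl
  refine ⟨fun f => ?_, ?_, fun f hf => ?_⟩
  · show ι (aeval jM f) ∈ W
    rw [hmap]
    exact hW.1 f
  · show ι (algebraMap R EM π)⁻¹ ∉ W
    rw [map_inv₀, hι]
    exact hW.2.1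
  · show ι (aeval jM f)⁻¹ ∈ W
    rw [map_inv₀, hmap]
    exact hW.2.2 f hf

/-- `IsGaussAt` for a restricted valuation subring only depends on the image of the coordinate. -/
theorem isGaussAt_comap_algebraMap_iff (V : ValuationSubring EM) :
    IsGaussAt R π t (V.comap (algebraMap KM EM)) ↔ IsGaussAt R π (algebraMap KM EM t) V := by
  have hae : ∀ f : R[X], algebraMap KM EM (aeval t f) = aeval (algebraMap KM EM t) f := fun f => by
    rw [← aeval_algebraMap_apply]
  unfold IsGaussAt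
  simp only [ValuationSubring.mem_comap, map_inv₀, hae,
    ← IsScalarTower.algebraMap_apply R KM EM]

/-- **a valuation subring of `E_N` which is Gauss at `ι j_M` restricts along `ι` to `V_M`**,
Legendre. -/
theorem legendre_comap_eq_of_isGaussAt_map (hgeo : GeoHyps K₁ π t EM n S)
    (hgM : IsGaussAt R π t (VM.comap (algebraMap KM EM))) (h2 : IsUnit (2 : R))
    (hrel : 256 * ((algebraMap KM EM t) ^ 2 - algebraMap KM EM t + 1) ^ 3 =
      jM * ((algebraMap KM EM t) ^ 2 * (algebraMap KM EM t - 1) ^ 2))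
    (ι : EM →+* EN) (hι : ∀ r : R, ι (algebraMap R EM r) = algebraMap R EN r)
    (W : ValuationSubring EN) (hW : IsGaussAt R π (ι jM) W) : W.comap ι = VM := by
  have h1 : IsGaussAt R π jM (W.comap ι) := isGaussAt_comap_of_isGaussAt_map ι hι W hW
  have h2' : IsGaussAt R π (algebraMap KM EM t) (W.comap ι) :=
    legendre_isGaussAt hgeo.irreducible h2 hrel h1
  have h3 : IsGaussAt R π t ((W.comap ι).comap (algebraMap KM EM)) :=
    (isGaussAt_comap_algebraMap_iff (W.comap ι)).mpr h2'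
  exact GeoHyps.valuationSubring_unique hgeo h3 hgM

/-- **a valuation subring of `E_N` which is Gauss at `ι j_M` restricts along `ι` to `V_M`**,
Hesse. -/
theorem hesse_comap_eq_of_isGaussAt_map (hgeo : GeoHyps K₁ π t EM n S)
    (hgM : IsGaussAt R π t (VM.comap (algebraMap KM EM))) (h3 : IsUnit (3 : R))
    (hrel : 27 * (algebraMap KM EM t) ^ 3 * ((algebraMap KM EM t) ^ 3 + 8) ^ 3 =
      jM * ((algebraMap KM EM t) ^ 3 - 1) ^ 3)
    (ι : EM →+* EN) (hι : ∀ r : R, ι (algebraMap R EM r) = algebraMap R EN r)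
    (W : ValuationSubring EN) (hW : IsGaussAt R π (ι jM) W) : W.comap ι = VM := by
  have h1 : IsGaussAt R π jM (W.comap ι) := isGaussAt_comap_of_isGaussAt_map ι hι W hW
  have h2' : IsGaussAt R π (algebraMap KM EM t) (W.comap ι) :=
    hesse_isGaussAt hgeo.irreducible h3 hrel h1
  have h3' : IsGaussAt R π t ((W.comap ι).comap (algebraMap KM EM)) :=
    (isGaussAt_comap_algebraMap_iff (W.comap ι)).mpr h2'
  exact GeoHyps.valuationSubring_unique hgeo h3' hgM

end Generic

section Hosts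

variable (R : Type*) [CommRing R] [IsDomain R] [IsDiscreteValuationRing R] [CharZero R]
  (K : Type*) [Field K] [Algebra R K] [IsFractionRing R K] [Algebra ℚ K] (ι : K →+* ℂ)
variable {M q : ℕ} [NeZero M] [NeZero q] [NeZero (M * q)] {x y : ℤ}
  (h : (q : ℤ) * x + M * y = 1) (hq : q.Prime)

/-- the Gauss-integrality gauge `coe ∘ atkinLehnerN` fixes the constants. -/
theorem coe_atkinLehnerN_algebraMap (c : K) :
    (((keyFq K (M * q)).val : ↥(keyFq K (M * q)) →+* LaurentSeries K).comp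
      (atkinLehnerN ι h hq)) (algebraMap K ↥(keyFq K (M * q)) c) = HahnSeries.C c := by
  show ((atkinLehnerN ι h hq (algebraMap K ↥(keyFq K (M * q)) c) : ↥(keyFq K (M * q))) :
    LaurentSeries K) = _
  rw [atkinLehnerN_algebraMap]
  show algebraMap K (LaurentSeries K) c = _
  rw [algebraMap_laurentSeries_eq_single, ← HahnSeries.C_apply]

theorem coe_jGen_eq : ((jGen K M : ↥(keyFq K M)) : LaurentSeries K) = jqModC K :=
  coeffEmb_jq_eq_jqModC K

theorem isPrimeSeries_jqModC : IsPrimeSeries R K (jqModC K) := by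
  have := isPrimeSeries_jqNModC R K 1
  rwa [jqNModC, qExpand_one_apply] at this

theorem isPrimeSeries_coe_atkinLehnerN_alpha :
    IsPrimeSeries R K ((((keyFq K (M * q)).val : ↥(keyFq K (M * q)) →+* LaurentSeries K).comp
      (atkinLehnerN ι h hq)) (heckeAlphaBar K M q (jGen K M))) := by
  show IsPrimeSeries R K ((atkinLehnerN ι h hq (heckeAlphaBar K M q (jGen K M)) :
    ↥(keyFq K (M * q))) : LaurentSeries K)
  rw [atkinLehnerN_alpha, coe_heckeBetaBar, coe_jGen_eq]
  exact isPrimeSeries_jqNModC R K q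

theorem isPrimeSeries_coe_atkinLehnerN_beta :
    IsPrimeSeries R K ((((keyFq K (M * q)).val : ↥(keyFq K (M * q)) →+* LaurentSeries K).comp
      (atkinLehnerN ι h hq)) (heckeBetaBar K M q (jGen K M))) := by
  show IsPrimeSeries R K ((atkinLehnerN ι h hq (heckeBetaBar K M q (jGen K M)) :
    ↥(keyFq K (M * q))) : LaurentSeries K)
  rw [atkinLehnerN_beta, coe_heckeAlphaBar, coe_jGen_eq]
  exact isPrimeSeries_jqModC R K

/-! ### Legendre -/

theorem fullToLegE_alpha_jGen :
    fullToLegE K (M * q) (heckeAlphaBar K M q (jGen K M)) = legJE K (M * q) := by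
  apply Subtype.ext
  rw [coe_fullToLegE, coe_heckeAlphaBar, coe_legJE, coe_jGen_eq, jqNModC]

theorem fullToLegE_beta_jGen (hq2 : q ≠ 2) :
    fullToLegE K (M * q) (heckeBetaBar K M q (jGen K M)) =
      legHostB K M q hq hq2 (legJE K M) := by
  apply Subtype.ext
  rw [coe_fullToLegE, coe_heckeBetaBar, coe_legHostB, coe_legJE, coe_jGen_eq, jqNModC,
    qExpand_qExpand, qExpand_qExpand]
  exact qExpand_congr (R := K) (mul_comm 2 q) _

/-- **`W_0` is Gauss at `A j_M`**, Legendre host. -/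
theorem isGaussAt_legJE_of_atkinLehnerN {ϖ : R} (hϖ : Irreducible ϖ)
    (W0 : ValuationSubring ↥(legE K (M * q)))
    (hW0 : ∀ f : ↥(keyFq K (M * q)),
      ((atkinLehnerN ι h hq f : ↥(keyFq K (M * q))) : LaurentSeries K) ∈ gaussInt R K →
        fullToLegE K (M * q) f ∈ W0)
    (hϖW0 : (algebraMap K ↥(legE K (M * q)) (algebraMap R K ϖ))⁻¹ ∉ W0) :
    IsGaussAt R ϖ (legJE K (M * q)) W0 := by
  rw [← fullToLegE_alpha_jGen K (M := M) (q := q)]
  exact isGaussAt_of_ringHom_of_isPrimeSeries hϖ _ (coe_atkinLehnerN_algebraMap K ι h hq)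
    (legE K (M * q)) (fullToLegE K (M * q)) W0 hW0 hϖW0 _
    (isPrimeSeries_coe_atkinLehnerN_alpha R K ι h hq)

/-- **`W_0` is Gauss at `B j_M`**, Legendre host. -/
theorem isGaussAt_legHostB_legJE_of_atkinLehnerN {ϖ : R} (hϖ : Irreducible ϖ) (hq2 : q ≠ 2)
    (W0 : ValuationSubring ↥(legE K (M * q)))
    (hW0 : ∀ f : ↥(keyFq K (M * q)),
      ((atkinLehnerN ι h hq f : ↥(keyFq K (M * q))) : LaurentSeries K) ∈ gaussInt R K →
        fullToLegE K (M * q) f ∈ W0)
    (hϖW0 : (algebraMap K ↥(legE K (M * q)) (algebraMap R K ϖ))⁻¹ ∉ W0) :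
    IsGaussAt R ϖ (legHostB K M q hq hq2 (legJE K M)) W0 := by
  rw [← fullToLegE_beta_jGen K hq hq2]
  exact isGaussAt_of_ringHom_of_isPrimeSeries hϖ _ (coe_atkinLehnerN_algebraMap K ι h hq)
    (legE K (M * q)) (fullToLegE K (M * q)) W0 hW0 hϖW0 _
    (isPrimeSeries_coe_atkinLehnerN_beta R K ι h hq)

/-- **`gauss_M`**: the Gauss valuation subring of the Legendre host of level `M` restricts to the
Gauss valuation subring of `K(t)`. -/
theorem isGaussAt_legWinf_legT {ϖ : R} (hϖ : Irreducible ϖ) (h2 : IsUnit (2 : R)) (N : ℕ)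
    [NeZero N] :
    IsGaussAt R ϖ (AdjoinSimple.gen K (legT K))
      ((legWinf R K h2 N).comap (algebraMap ↥K⟮legT K⟯ ↥(legE K N))) := by
  obtain ⟨hs, hst⟩ := legT_mem_gaussInt R K h2
  exact isGaussAt_comap_gaussValSub' (legE K N) (legE_le_gaussField R K h2 N)
    (algebraMap ↥K⟮legT K⟯ ↥(legE K N))
    (fun r => by
      rw [← IsScalarTower.algebraMap_apply R ↥K⟮legT K⟯ ↥(legE K N),
        IsScalarTower.algebraMap_apply R K ↥(legE K N), IntermediateField.coe_algebraMap_apply,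
        algebraMap_laurentSeries_eq_single, ← HahnSeries.C_apply]) hϖ
    (AdjoinSimple.gen K (legT K)) hs hst

/-- **`two.gauss_inf`**: the Gauss valuation subring of the Legendre host restricts to the Gauss
valuation subring of `K(j)`. -/
theorem isGaussAt_legWinf_j {ϖ : R} (hϖ : Irreducible ϖ) (h2 : IsUnit (2 : R)) (N : ℕ)
    [NeZero N] :
    IsGaussAt R ϖ (AdjoinSimple.gen K (jqNModC K 2))
      ((legWinf R K h2 N).comap (algebraMap ↥K⟮jqNModC K 2⟯ ↥(legE K N))) := by
  have hT := isPrimeSeries_jqNModC R K 2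
  exact isGaussAt_comap_gaussValSub' (legE K N) (legE_le_gaussField R K h2 N)
    (algebraMap ↥K⟮jqNModC K 2⟯ ↥(legE K N))
    (fun r => by
      rw [← IsScalarTower.algebraMap_apply R ↥K⟮jqNModC K 2⟯ ↥(legE K N),
        IsScalarTower.algebraMap_apply R K ↥(legE K N), IntermediateField.coe_algebraMap_apply,
        algebraMap_laurentSeries_eq_single, ← HahnSeries.C_apply]) hϖ
    (AdjoinSimple.gen K (jqNModC K 2)) hT.mem_gaussInt (hT.transcendental_gaussRed _)

/-- **`two.gauss_zero`**, Legendre host. -/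
theorem isGaussAt_legW0_j {ϖ : R} (hϖ : Irreducible ϖ)
    (W0 : ValuationSubring ↥(legE K (M * q)))
    (hW0 : ∀ f : ↥(keyFq K (M * q)),
      ((atkinLehnerN ι h hq f : ↥(keyFq K (M * q))) : LaurentSeries K) ∈ gaussInt R K →
        fullToLegE K (M * q) f ∈ W0)
    (hϖW0 : (algebraMap K ↥(legE K (M * q)) (algebraMap R K ϖ))⁻¹ ∉ W0) :
    IsGaussAt R ϖ (AdjoinSimple.gen K (jqNModC K 2))
      (W0.comap (algebraMap ↥K⟮jqNModC K 2⟯ ↥(legE K (M * q)))) := by
  rw [isGaussAt_comap_algebraMap_iff]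
  exact isGaussAt_legJE_of_atkinLehnerN R K ι h hq hϖ W0 hW0 hϖW0

/-- **`comap_A_zero`**, Legendre host. -/
theorem comap_legHostA_eq_legWinf {ϖ : R} (h2 : IsUnit (2 : R)) {n : ℕ} {S : Finset R}
    (hgeo : GeoHyps K ϖ (AdjoinSimple.gen K (legT K)) ↥(legE K M) n S)
    (W0 : ValuationSubring ↥(legE K (M * q)))
    (hW0 : ∀ f : ↥(keyFq K (M * q)),
      ((atkinLehnerN ι h hq f : ↥(keyFq K (M * q))) : LaurentSeries K) ∈ gaussInt R K →
        fullToLegE K (M * q) f ∈ W0)
    (hϖW0 : (algebraMap K ↥(legE K (M * q)) (algebraMap R K ϖ))⁻¹ ∉ W0) :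
    W0.comap (legHostA K M q : ↥(legE K M) →+* ↥(legE K (M * q))) = legWinf R K h2 M := by
  refine legendre_comap_eq_of_isGaussAt_map hgeo
    (isGaussAt_legWinf_legT R K hgeo.irreducible h2 M) h2 (legendre_rel_legE K M)
    (legHostA K M q : ↥(legE K M) →+* ↥(legE K (M * q))) (fun r => ?_) W0 ?_
  · rw [IsScalarTower.algebraMap_apply R K ↥(legE K M),
      IsScalarTower.algebraMap_apply R K ↥(legE K (M * q))]
    exact (legHostA K M q).commutes (algebraMap R K r)
  · have : (legHostA K M q : ↥(legE K M) →+* ↥(legE K (M * q))) (legJE K M) =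
        legJE K (M * q) := Subtype.ext rfl
    rw [this]
    exact isGaussAt_legJE_of_atkinLehnerN R K ι h hq hgeo.irreducible W0 hW0 hϖW0

/-- **`comap_B_zero`**, Legendre host. -/
theorem comap_legHostB_eq_legWinf {ϖ : R} (h2 : IsUnit (2 : R)) (hq2 : q ≠ 2) {n : ℕ}
    {S : Finset R} (hgeo : GeoHyps K ϖ (AdjoinSimple.gen K (legT K)) ↥(legE K M) n S)
    (W0 : ValuationSubring ↥(legE K (M * q)))
    (hW0 : ∀ f : ↥(keyFq K (M * q)),
      ((atkinLehnerN ι h hq f : ↥(keyFq K (M * q))) : LaurentSeries K) ∈ gaussInt R K →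
        fullToLegE K (M * q) f ∈ W0)
    (hϖW0 : (algebraMap K ↥(legE K (M * q)) (algebraMap R K ϖ))⁻¹ ∉ W0) :
    W0.comap (legHostB K M q hq hq2 : ↥(legE K M) →+* ↥(legE K (M * q))) =
      legWinf R K h2 M := by
  refine legendre_comap_eq_of_isGaussAt_map hgeo
    (isGaussAt_legWinf_legT R K hgeo.irreducible h2 M) h2 (legendre_rel_legE K M)
    (legHostB K M q hq hq2 : ↥(legE K M) →+* ↥(legE K (M * q))) (fun r => ?_) W0 ?_
  · rw [IsScalarTower.algebraMap_apply R K ↥(legE K M),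
      IsScalarTower.algebraMap_apply R K ↥(legE K (M * q))]
    exact (legHostB K M q hq hq2).commutes (algebraMap R K r)
  · exact isGaussAt_legHostB_legJE_of_atkinLehnerN R K ι h hq hgeo.irreducible hq2 W0 hW0 hϖW0

/-! ### Hesse -/

theorem fullToHesE_alpha_jGen :
    fullToHesE K (M * q) (heckeAlphaBar K M q (jGen K M)) = hesJE K (M * q) := by
  apply Subtype.ext
  rw [coe_fullToHesE, coe_heckeAlphaBar, coe_hesJE, coe_jGen_eq, jqNModC]

theorem fullToHesE_beta_jGen [NeZero (M * 2)] :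
    fullToHesE K (M * 2) (heckeBetaBar K M 2 (jGen K M)) = hesHostB K M (hesJE K M) := by
  apply Subtype.ext
  rw [coe_fullToHesE, coe_heckeBetaBar, coe_hesHostB, coe_hesJE, coe_jGen_eq, jqNModC,
    qExpand_qExpand, qExpand_qExpand]

/-- **`W_0` is Gauss at `A j_M`**, Hesse host. -/
theorem isGaussAt_hesJE_of_atkinLehnerN {ϖ : R} (hϖ : Irreducible ϖ)
    (W0 : ValuationSubring ↥(hesE K (M * q)))
    (hW0 : ∀ f : ↥(keyFq K (M * q)),
      ((atkinLehnerN ι h hq f : ↥(keyFq K (M * q))) : LaurentSeries K) ∈ gaussInt R K →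
        fullToHesE K (M * q) f ∈ W0)
    (hϖW0 : (algebraMap K ↥(hesE K (M * q)) (algebraMap R K ϖ))⁻¹ ∉ W0) :
    IsGaussAt R ϖ (hesJE K (M * q)) W0 := by
  rw [← fullToHesE_alpha_jGen K (M := M) (q := q)]
  exact isGaussAt_of_ringHom_of_isPrimeSeries hϖ _ (coe_atkinLehnerN_algebraMap K ι h hq)
    (hesE K (M * q)) (fullToHesE K (M * q)) W0 hW0 hϖW0 _
    (isPrimeSeries_coe_atkinLehnerN_alpha R K ι h hq)

/-- **`W_0` is Gauss at `B j_M`**, Hesse host (`q = 2`). -/
theorem isGaussAt_hesHostB_hesJE_of_atkinLehnerN [NeZero (M * 2)] {ϖ : R} (hϖ : Irreducible ϖ)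
    (h' : ((2 : ℕ) : ℤ) * x + M * y = 1)
    (W0 : ValuationSubring ↥(hesE K (M * 2)))
    (hW0 : ∀ f : ↥(keyFq K (M * 2)),
      ((atkinLehnerN ι h' Nat.prime_two f : ↥(keyFq K (M * 2))) : LaurentSeries K) ∈ gaussInt R K →
        fullToHesE K (M * 2) f ∈ W0)
    (hϖW0 : (algebraMap K ↥(hesE K (M * 2)) (algebraMap R K ϖ))⁻¹ ∉ W0) :
    IsGaussAt R ϖ (hesHostB K M (hesJE K M)) W0 := by
  rw [← fullToHesE_beta_jGen K]
  exact isGaussAt_of_ringHom_of_isPrimeSeries hϖ _
    (coe_atkinLehnerN_algebraMap K ι h' Nat.prime_two)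
    (hesE K (M * 2)) (fullToHesE K (M * 2)) W0 hW0 hϖW0 _
    (isPrimeSeries_coe_atkinLehnerN_beta R K ι h' Nat.prime_two)

/-- **`gauss_M`**, Hesse host. -/
theorem isGaussAt_hesWinf_hesT {ϖ : R} (hϖ : Irreducible ϖ) (h3 : IsUnit (3 : R)) (N : ℕ)
    [NeZero N] :
    IsGaussAt R ϖ (AdjoinSimple.gen K (hesT K))
      ((hesWinf R K h3 N).comap (algebraMap ↥K⟮hesT K⟯ ↥(hesE K N))) := by
  obtain ⟨hs, hst⟩ := hesT_mem_gaussInt R K h3
  exact isGaussAt_comap_gaussValSub' (hesE K N) (hesE_le_gaussField R K h3 N)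
    (algebraMap ↥K⟮hesT K⟯ ↥(hesE K N))
    (fun r => by
      rw [← IsScalarTower.algebraMap_apply R ↥K⟮hesT K⟯ ↥(hesE K N),
        IsScalarTower.algebraMap_apply R K ↥(hesE K N), IntermediateField.coe_algebraMap_apply,
        algebraMap_laurentSeries_eq_single, ← HahnSeries.C_apply]) hϖ
    (AdjoinSimple.gen K (hesT K)) hs hst

/-- **`two.gauss_inf`**, Hesse host. -/
theorem isGaussAt_hesWinf_j {ϖ : R} (hϖ : Irreducible ϖ) (h3 : IsUnit (3 : R)) (N : ℕ)
    [NeZero N] :
    IsGaussAt R ϖ (AdjoinSimple.gen K (jqNModC K 3))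
      ((hesWinf R K h3 N).comap (algebraMap ↥K⟮jqNModC K 3⟯ ↥(hesE K N))) := by
  have hT := isPrimeSeries_jqNModC R K 3
  exact isGaussAt_comap_gaussValSub' (hesE K N) (hesE_le_gaussField R K h3 N)
    (algebraMap ↥K⟮jqNModC K 3⟯ ↥(hesE K N))
    (fun r => by
      rw [← IsScalarTower.algebraMap_apply R ↥K⟮jqNModC K 3⟯ ↥(hesE K N),
        IsScalarTower.algebraMap_apply R K ↥(hesE K N), IntermediateField.coe_algebraMap_apply,
        algebraMap_laurentSeries_eq_single, ← HahnSeries.C_apply]) hϖ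
    (AdjoinSimple.gen K (jqNModC K 3)) hT.mem_gaussInt (hT.transcendental_gaussRed _)

/-- **`two.gauss_zero`**, Hesse host. -/
theorem isGaussAt_hesW0_j {ϖ : R} (hϖ : Irreducible ϖ)
    (W0 : ValuationSubring ↥(hesE K (M * q)))
    (hW0 : ∀ f : ↥(keyFq K (M * q)),
      ((atkinLehnerN ι h hq f : ↥(keyFq K (M * q))) : LaurentSeries K) ∈ gaussInt R K →
        fullToHesE K (M * q) f ∈ W0)
    (hϖW0 : (algebraMap K ↥(hesE K (M * q)) (algebraMap R K ϖ))⁻¹ ∉ W0) :
    IsGaussAt R ϖ (AdjoinSimple.gen K (jqNModC K 3))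
      (W0.comap (algebraMap ↥K⟮jqNModC K 3⟯ ↥(hesE K (M * q)))) := by
  rw [isGaussAt_comap_algebraMap_iff]
  exact isGaussAt_hesJE_of_atkinLehnerN R K ι h hq hϖ W0 hW0 hϖW0

/-- **`comap_A_zero`**, Hesse host. -/
theorem comap_hesHostA_eq_hesWinf {ϖ : R} (h3 : IsUnit (3 : R)) {n : ℕ} {S : Finset R}
    (hgeo : GeoHyps K ϖ (AdjoinSimple.gen K (hesT K)) ↥(hesE K M) n S)
    (W0 : ValuationSubring ↥(hesE K (M * q)))
    (hW0 : ∀ f : ↥(keyFq K (M * q)),
      ((atkinLehnerN ι h hq f : ↥(keyFq K (M * q))) : LaurentSeries K) ∈ gaussInt R K →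
        fullToHesE K (M * q) f ∈ W0)
    (hϖW0 : (algebraMap K ↥(hesE K (M * q)) (algebraMap R K ϖ))⁻¹ ∉ W0) :
    W0.comap (hesHostA K M q : ↥(hesE K M) →+* ↥(hesE K (M * q))) = hesWinf R K h3 M := by
  refine hesse_comap_eq_of_isGaussAt_map hgeo
    (isGaussAt_hesWinf_hesT R K hgeo.irreducible h3 M) h3 (hesse_rel_hesE K M)
    (hesHostA K M q : ↥(hesE K M) →+* ↥(hesE K (M * q))) (fun r => ?_) W0 ?_
  · rw [IsScalarTower.algebraMap_apply R K ↥(hesE K M),
      IsScalarTower.algebraMap_apply R K ↥(hesE K (M * q))]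
    exact (hesHostA K M q).commutes (algebraMap R K r)
  · have : (hesHostA K M q : ↥(hesE K M) →+* ↥(hesE K (M * q))) (hesJE K M) =
        hesJE K (M * q) := Subtype.ext rfl
    rw [this]
    exact isGaussAt_hesJE_of_atkinLehnerN R K ι h hq hgeo.irreducible W0 hW0 hϖW0

/-- **`comap_B_zero`**, Hesse host (`q = 2`). -/
theorem comap_hesHostB_eq_hesWinf [NeZero (M * 2)] {ϖ : R} (h3 : IsUnit (3 : R)) {n : ℕ}
    {S : Finset R} (hgeo : GeoHyps K ϖ (AdjoinSimple.gen K (hesT K)) ↥(hesE K M) n S)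
    (h' : ((2 : ℕ) : ℤ) * x + M * y = 1)
    (W0 : ValuationSubring ↥(hesE K (M * 2)))
    (hW0 : ∀ f : ↥(keyFq K (M * 2)),
      ((atkinLehnerN ι h' Nat.prime_two f : ↥(keyFq K (M * 2))) : LaurentSeries K) ∈ gaussInt R K →
        fullToHesE K (M * 2) f ∈ W0)
    (hϖW0 : (algebraMap K ↥(hesE K (M * 2)) (algebraMap R K ϖ))⁻¹ ∉ W0) :
    W0.comap (hesHostB K M : ↥(hesE K M) →+* ↥(hesE K (M * 2))) = hesWinf R K h3 M := by
  refine hesse_comap_eq_of_isGaussAt_map hgeo
    (isGaussAt_hesWinf_hesT R K hgeo.irreducible h3 M) h3 (hesse_rel_hesE K M)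
    (hesHostB K M : ↥(hesE K M) →+* ↥(hesE K (M * 2))) (fun r => ?_) W0 ?_
  · rw [IsScalarTower.algebraMap_apply R K ↥(hesE K M),
      IsScalarTower.algebraMap_apply R K ↥(hesE K (M * 2))]
    exact (hesHostB K M).commutes (algebraMap R K r)
  · exact isGaussAt_hesHostB_hesJE_of_atkinLehnerN R K ι hgeo.irreducible h' W0 hW0 hϖW0

end Hosts

end Fermat.Agent.SS
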