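/-
(SS-q) [DEG], helper2: degrees of level raising over an arbitrary field `K ⊂ ℂ`, for a prime
`q ∤ M`: `[F_{Mq} : F_M] = q + 1` on the function fields (`keyFq`), on their host images (`keyFw`),
and the compositum bound `[E_{Mq} : E_M] ≤ q + 1` on the tower fields `E = K(t) · F_w`
(`legE`, `hesE`), all in inclusion-algebra form (`Host.inclAlg`).
-/
import Mathlib
import Fermat.Agent.GR.ANORM_helper5_Fricke
import Fermat.Agent.JA.UP_helper7_Emb
import Fermat.Agent.JA.HOST_helper3_Kit

set_option autoImplicit false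
set_option linter.unusedSectionVars false
set_option linter.style.haveILetI false
set_option synthInstance.maxHeartbeats 200000

open HahnSeries ModularCurve Polynomial IntermediateField AlgebraicCurve
open Fermat.Agent.JA Fermat.Agent.X0N Fermat.Agent.RatStr

namespace Fermat.Agent.SS

open scoped Fermat.Agent.JA.Host

section Compositum

variable {K₁ H : Type*} [Field K₁] [Field H] [Algebra K₁ H]

/-- **the compositum bound** in inclusion-algebra form: `[B C : B] ≤ [C : A]` for intermediate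
fields `A ≤ B`, `A ≤ C` of a host, `B / A` finite. -/
theorem deg2_finrank_sup_le {A B C D : IntermediateField K₁ H} [hAB : Fact (A ≤ B)]
    [hAC : Fact (A ≤ C)] [hAD : Fact (A ≤ D)] [hBD : Fact (B ≤ D)] (hD : D = B ⊔ C)
    [Module.Finite ↥A ↥B] : Module.finrank ↥B ↥D ≤ Module.finrank ↥A ↥C := by
  have e1 : Module.finrank ↥A ↥B =
      Module.finrank ↥A ↥(IntermediateField.extendScalars hAB.out) :=
    (Host.extendScalarsLinearEquiv (A := A) (B := B)).finrank_eq
  have e2 : Module.finrank ↥A ↥C =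
      Module.finrank ↥A ↥(IntermediateField.extendScalars hAC.out) :=
    (Host.extendScalarsLinearEquiv (A := A) (B := C)).finrank_eq
  have e3 : Module.finrank ↥A ↥D =
      Module.finrank ↥A ↥(IntermediateField.extendScalars hAD.out) :=
    (Host.extendScalarsLinearEquiv (A := A) (B := D)).finrank_eq
  have hsup : IntermediateField.extendScalars hAD.out =
      IntermediateField.extendScalars hAB.out ⊔ IntermediateField.extendScalars hAC.out := by
    rw [IntermediateField.extendScalars_sup]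
    apply IntermediateField.restrictScalars_injective K₁
    rw [IntermediateField.extendScalars_restrictScalars,
      IntermediateField.extendScalars_restrictScalars, hD]
  have h1 : Module.finrank ↥A ↥D ≤ Module.finrank ↥A ↥B * Module.finrank ↥A ↥C := by
    rw [e1, e2, e3, hsup]
    exact IntermediateField.finrank_sup_le _ _
  have h2 : Module.finrank ↥A ↥B * Module.finrank ↥B ↥D = Module.finrank ↥A ↥D :=
    Module.finrank_mul_finrank ↥A ↥B ↥D
  have hpos : 0 < Module.finrank ↥A ↥B := Module.finrank_pos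
  rw [← h2] at h1
  exact Nat.le_of_mul_le_mul_left h1 hpos

end Compositum

section Level

variable {K : Type*} [Field K] [Algebra ℚ K] (ι : K →+* ℂ) {M q : ℕ} [NeZero M] [NeZero q]

include ι in
/-- **[DEG], function-field level**: `[F_{Mq} : F_M] = q + 1` for a prime `q ∤ M`, over any field
`K` embedded in `ℂ` (inclusion algebra). -/
theorem deg2_finrank_keyFq (hq : q.Prime) (hqM : ¬ q ∣ M) (hle : keyFq K M ≤ keyFq K (M * q)) :
    letI := Host.inclAlg hle
    Module.Finite ↥(keyFq K M) ↥(keyFq K (M * q)) ∧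
      Module.finrank ↥(keyFq K M) ↥(keyFq K (M * q)) = q + 1 := by
  letI := Host.inclAlg hle
  letI : Algebra K ℂ := ι.toAlgebra
  haveI : IsScalarTower ℚ K ℂ := IsScalarTower.of_algebraMap_eq (fun r => by
    show algebraMap ℚ ℂ r = ι (algebraMap ℚ K r)
    rw [eq_ratCast, eq_ratCast, map_ratCast])
  have h1 := finrankAlong_heckeAlphaBar (k := K) M q hq
  rw [if_neg hqM] at h1
  have h2 : Module.finrank ↥(keyFq K M) ↥(keyFq K (M * q)) = q + 1 := h1
  refine ⟨?_, h2⟩
  exact Module.finite_of_finrank_pos (by rw [h2]; exact Nat.succ_pos q)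

include ι in
/-- **[DEG], host level**: `[F_{Mq,w} : F_{M,w}] = q + 1`. -/
theorem deg2_finrank_keyFw (hq : q.Prime) (hqM : ¬ q ∣ M) (w : ℕ) [NeZero w]
    (hle : keyFw K M w ≤ keyFw K (M * q) w) :
    letI := Host.inclAlg hle
    Module.Finite ↥(keyFw K M w) ↥(keyFw K (M * q) w) ∧
      Module.finrank ↥(keyFw K M w) ↥(keyFw K (M * q) w) = q + 1 := by
  letI := Host.inclAlg hle
  have hle' : keyFq K M ≤ keyFq K (M * q) := by
    intro g hg
    have := (heckeAlphaBar K M q ⟨g, hg⟩).2
    rwa [coe_heckeAlphaBar] at this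
  letI := Host.inclAlg hle'
  obtain ⟨h1, h2⟩ := deg2_finrank_keyFq ι hq hqM hle'
  have h3 : Module.finrank ↥(keyFw K M w) ↥(keyFw K (M * q) w) =
      Module.finrank ↥(keyFq K M) ↥(keyFq K (M * q)) := by
    refine Algebra.finrank_eq_of_equiv_equiv (hostImageEquiv K w (keyFq K M)).symm.toRingEquiv
      (hostImageEquiv K w (keyFq K (M * q))).symm.toRingEquiv ?_
    refine RingHom.ext fun y => ?_
    obtain ⟨g, rfl⟩ := (hostImageEquiv K w (keyFq K M)).surjective y
    rw [RingHom.comp_apply, RingHom.comp_apply]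
    have e1 : ∀ (N : ℕ) (z : ↥(keyFq K N)),
        (hostImageEquiv K w (keyFq K N)).symm.toRingEquiv.toRingHom
          (hostImageEquiv K w (keyFq K N) z) = z :=
      fun N z => (hostImageEquiv K w (keyFq K N)).symm_apply_apply z
    rw [e1]
    have e2 : algebraMap ↥(keyFw K M w) ↥(keyFw K (M * q) w) (hostImageEquiv K w (keyFq K M) g) =
        hostImageEquiv K w (keyFq K (M * q)) (algebraMap ↥(keyFq K M) ↥(keyFq K (M * q)) g) := by
      apply Subtype.ext
      rw [coe_hostImageEquiv]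
      rfl
    rw [e2, e1]
  rw [h2] at h3
  refine ⟨?_, h3⟩
  exact Module.finite_of_finrank_pos (by rw [h3]; exact Nat.succ_pos q)

include ι in
/-- **[DEG], tower fields**: `[E_{Mq} : E_M] ≤ q + 1` for `E = K(t) · F_w`, `t` integral over
`F_{M,w}` (compositum bound). -/
theorem deg2_finrank_Etu_le (hq : q.Prime) (hqM : ¬ q ∣ M) (w : ℕ) [NeZero w]
    (t : LaurentSeries K) (ht : IsIntegral ↥(keyFw K M w) t)
    (hle : Host.Etu (keyFw K M w) t 1 ≤ Host.Etu (keyFw K (M * q) w) t 1) :
    letI := Host.inclAlg hle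
    Module.Finite ↥(Host.Etu (keyFw K M w) t 1) ↥(Host.Etu (keyFw K (M * q) w) t 1) ∧
      Module.finrank ↥(Host.Etu (keyFw K M w) t 1) ↥(Host.Etu (keyFw K (M * q) w) t 1) ≤
        q + 1 := by
  have hF : keyFw K M w ≤ keyFw K (M * q) w := by
    rintro _ ⟨g, hg, rfl⟩
    refine ⟨g, ?_, rfl⟩
    have := (heckeAlphaBar K M q ⟨g, hg⟩).2
    rwa [coe_heckeAlphaBar] at this
  haveI : Fact (keyFw K M w ≤ keyFw K (M * q) w) := ⟨hF⟩
  haveI : Fact (keyFw K M w ≤ Host.Etu (keyFw K M w) t 1) := ⟨keyFw_le_Etu K M w t⟩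
  haveI : Fact (keyFw K M w ≤ Host.Etu (keyFw K (M * q) w) t 1) :=
    ⟨le_trans hF (keyFw_le_Etu K (M * q) w t)⟩
  haveI : Fact (Host.Etu (keyFw K M w) t 1 ≤ Host.Etu (keyFw K (M * q) w) t 1) := ⟨hle⟩
  haveI : Fact (keyFw K (M * q) w ≤ Host.Etu (keyFw K (M * q) w) t 1) :=
    ⟨keyFw_le_Etu K (M * q) w t⟩
  obtain ⟨h1, h2⟩ := deg2_finrank_keyFw ι hq hqM w hF
  haveI : Module.Finite ↥(keyFw K M w) ↥(keyFw K (M * q) w) := h1
  haveI : Module.Finite ↥(keyFw K M w) ↥(Host.Etu (keyFw K M w) t 1) :=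
    Host.finite_of_eq_sup_simple t (Etu_one_eq_sup K M w t) ht
  have hD : Host.Etu (keyFw K (M * q) w) t 1 =
      Host.Etu (keyFw K M w) t 1 ⊔ keyFw K (M * q) w := by
    rw [Etu_one_eq_sup, Etu_one_eq_sup]
    apply le_antisymm
    · exact sup_le le_sup_right (le_trans le_sup_right le_sup_left)
    · exact sup_le (sup_le (le_trans hF le_sup_left) le_sup_right) le_sup_left
  refine ⟨Host.finite_sup_left (A := keyFw K M w) hD, ?_⟩
  rw [← h2]
  exact deg2_finrank_sup_le (A := keyFw K M w) hD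

include ι in
/-- **[DEG], Legendre host**: `[legE K (M q) : legE K M] ≤ q + 1`. -/
theorem deg2_finrank_legE_le (hq : q.Prime) (hqM : ¬ q ∣ M)
    (hle : legE K M ≤ legE K (M * q)) :
    letI := Host.inclAlg hle
    Module.Finite ↥(legE K M) ↥(legE K (M * q)) ∧
      Module.finrank ↥(legE K M) ↥(legE K (M * q)) ≤ q + 1 :=
  deg2_finrank_Etu_le ι hq hqM 2 (legT K) (isIntegral_legT K).tower_top hle

include ι in
/-- **[DEG], Hesse host**: `[hesE K (M q) : hesE K M] ≤ q + 1`. -/
theorem deg2_finrank_hesE_le (hq : q.Prime) (hqM : ¬ q ∣ M)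
    (hle : hesE K M ≤ hesE K (M * q)) :
    letI := Host.inclAlg hle
    Module.Finite ↥(hesE K M) ↥(hesE K (M * q)) ∧
      Module.finrank ↥(hesE K M) ↥(hesE K (M * q)) ≤ q + 1 :=
  deg2_finrank_Etu_le ι hq hqM 3 (hesT K) (isIntegral_hesT K).tower_top hle

end Level

end Fermat.Agent.SS
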