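/-
(SS-q) — helper9 — MODEL-GLOBAL leaf [E] CUSPORD, part 2 (pure algebra, on helper7's
`VAL2_helper7_TwoExt`): two distinct extensions `V₁ ≠ V₂` of a discrete valuation ring `O ⊆ F` to
a finite separable `L / F` with `[L : F] ≤ r + 1` and ramification index `≥ r` at `V₂` are the only
extensions of `O`.
-/
import Mathlib
import Fermat.Agent.SS.VAL2_helper7_TwoExt

set_option autoImplicit false
set_option linter.unusedSectionVars false
set_option linter.style.haveILetI false

open IsLocalRing IsDedekindDomain

namespace Fermat.Agent.SS.TwoExt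

variable {F L : Type*} [Field F] [Field L] [Algebra F L]
variable {O : ValuationSubring F} [IsDiscreteValuationRing ↥O] [FiniteDimensional F L]
  [Algebra.IsSeparable F L]

/-- a lower bound for the ramification index from a factorisation of a uniformiser:
`ϖ = y ^ r * u` with `y` a non-unit of `V` and `u ∈ V`. -/
theorem cuspord_le_ramificationIdx {V : ValuationSubring L} (h : IsExt O V) {ϖ : ↥O}
    (hϖ : Irreducible ϖ) {y u : L} (hy : V.valuation y < 1) (hu : u ∈ V) (r : ℕ)
    (hϖy : algebraMap F L (ϖ : F) = y ^ r * u) :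
    r ≤ (center h).ramificationIdx ↥O := by
  have h1 := valuation_uniformizer h hϖ
  rw [hϖy, map_mul, map_pow] at h1
  have hy' : (centerSpec h).valuation L y < 1 := (val_lt_one_iff h y).mpr hy
  have hu' : (centerSpec h).valuation L u ≤ 1 := (val_le_one_iff h u).mpr hu
  have hy'' : (centerSpec h).valuation L y ≤ WithZero.exp (-1 : ℤ) := by
    by_cases hy0 : (centerSpec h).valuation L y = 0
    · rw [hy0]; exact zero_le
    · rw [← WithZero.exp_log hy0] at hy' ⊢
      rw [← WithZero.exp_zero, WithZero.exp_lt_exp] at hy'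
      rw [WithZero.exp_le_exp]
      omega
  have h2 : (centerSpec h).valuation L y ^ r * (centerSpec h).valuation L u ≤
      WithZero.exp (-(r : ℤ)) := by
    calc (centerSpec h).valuation L y ^ r * (centerSpec h).valuation L u
        ≤ (centerSpec h).valuation L y ^ r * 1 := by gcongr
      _ = (centerSpec h).valuation L y ^ r := mul_one _
      _ ≤ WithZero.exp (-1 : ℤ) ^ r := by gcongr
      _ = WithZero.exp (-(r : ℤ)) := by
        rw [← WithZero.exp_nsmul]
        congr 1
        simp
  rw [h1, WithZero.exp_le_exp] at h2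
  omega

/-- **the counting step with ramification**: two distinct extensions, `[L : F] ≤ r + 1`, and
ramification index `≥ r` at the second one: there is no third extension. -/
theorem cuspord_count_ram {V₁ V₂ : ValuationSubring L} (h₁ : IsExt O V₁) (h₂ : IsExt O V₂)
    (hne : V₁ ≠ V₂) {r : ℕ} (hr : Module.finrank F L ≤ r + 1)
    (he : r ≤ (center h₂).ramificationIdx ↥O) :
    ∀ V : ValuationSubring L, IsExt O V → V = V₁ ∨ V = V₂ := by
  classical
  let _ : Fintype ((maximalIdeal ↥O).primesOver (intCl L O)) := Fintype.ofFinite _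
  have hsum := Ideal.sum_ramification_inertia_eq_finrank (maximalIdeal ↥O) (intCl L O)
  have h3 : Module.finrank ↥O (intCl L O) = Module.finrank F L :=
    (IsFractionRing.finrank_eq ↥O F (intCl L O) L).symm
  rw [h3] at hsum
  set g : (maximalIdeal ↥O).primesOver (intCl L O) → ℕ :=
    fun q => q.1.ramificationIdx ↥O * q.1.inertiaDeg ↥O with hg
  have hg1 : ∀ q, 1 ≤ g q := fun q =>
    Nat.one_le_iff_ne_zero.mpr (Nat.mul_ne_zero (ramificationIdx_pos q).ne' (inertiaDeg_pos' q).ne')
  set q₁ := centerOver h₁ with hq₁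
  set q₂ := centerOver h₂ with hq₂
  have hq12 : q₁ ≠ q₂ := fun hc => hne (centerOver_injective h₁ h₂ hc)
  have hs1 := Finset.add_sum_erase Finset.univ g (Finset.mem_univ q₁)
  have hq2mem : q₂ ∈ Finset.univ.erase q₁ :=
    Finset.mem_erase.mpr ⟨fun hc => hq12 hc.symm, Finset.mem_univ _⟩
  have hs2 := Finset.add_sum_erase (Finset.univ.erase q₁) g hq2mem
  set T := (Finset.univ.erase q₁).erase q₂ with hT
  have hTle : T.card ≤ ∑ x ∈ T, g x := by
    have := Finset.card_nsmul_le_sum T g 1 (fun x _ => hg1 x)
    simpa using this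
  have hgq2 : r ≤ g q₂ := by
    have h1 : 1 ≤ (center h₂).inertiaDeg ↥O := inertiaDeg_pos' q₂
    calc r ≤ (center h₂).ramificationIdx ↥O := he
      _ = (center h₂).ramificationIdx ↥O * 1 := (mul_one _).symm
      _ ≤ (center h₂).ramificationIdx ↥O * (center h₂).inertiaDeg ↥O :=
        Nat.mul_le_mul_left _ h1
  have hgq1 : 1 ≤ g q₁ := hg1 q₁
  have htot : g q₁ + (g q₂ + ∑ x ∈ T, g x) ≤ r + 1 := by
    rw [hs2, hs1, hsum]
    exact hr
  have hTsum : ∑ x ∈ T, g x = 0 := by omega
  have hTcard : T.card = 0 := by omega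
  have hall : ∀ q : (maximalIdeal ↥O).primesOver (intCl L O), q = q₁ ∨ q = q₂ := by
    intro q
    by_contra hcon
    rw [not_or] at hcon
    have : q ∈ T := Finset.mem_erase.mpr ⟨hcon.2, Finset.mem_erase.mpr ⟨hcon.1, Finset.mem_univ _⟩⟩
    rw [Finset.card_eq_zero] at hTcard
    rw [hTcard] at this
    exact absurd this (Finset.notMem_empty _)
  intro V hV
  rcases hall (centerOver hV) with hq | hq
  · left; exact centerOver_injective hV h₁ hq
  · right; exact centerOver_injective hV h₂ hq

end Fermat.Agent.SS.TwoExt
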