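/-
(SS-q) — helper9 — MODEL-GLOBAL leaf [E] CUSPORD, part 1: the rational function field `M = K(t)`
has exactly one valuation subring containing `K` at which `t` has a pole.
-/
import Mathlib
import Fermat.Agent.JA.LINE_helper2_DVR

set_option autoImplicit false

open AlgebraicCurve Polynomial IntermediateField

namespace Fermat.Agent.SS

open Fermat.Agent.JA Fermat.Agent.FF

variable {K M : Type*} [Field K] [Field M] [Algebra K M]

/-- the order of a quotient of polynomials in `t` at a pole of `t`, `M = K(t)`. -/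
theorem cuspord_ord_div_of_pole {t : M} (hgen : K⟮t⟯ = ⊤) (P : Place K M)
    (ht : t ∉ P.toValuationSubring) {a b : K[X]} (ha : a ≠ 0) (hb : b ≠ 0) :
    P.ord (aeval t a / aeval t b) = (b.natDegree : ℤ) - a.natDegree := by
  have ht0 : t ≠ 0 := fun h => ht (h ▸ P.toValuationSubring.zero_mem)
  have hneg : P.ord t < 0 := by
    by_contra hcon
    rw [not_lt] at hcon
    exact ht ((PlaceAux.mem_iff_ord_nonneg' P ht0).mpr hcon)
  have h1 : P.ord t = -1 := ord_eq_neg_one_of_neg hgen P hneg
  obtain ⟨ha0, hao⟩ := ord_aeval_of_ord_neg P hneg ha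
  obtain ⟨hb0, hbo⟩ := ord_aeval_of_ord_neg P hneg hb
  rw [div_eq_mul_inv, P.ord_mul ha0 (inv_ne_zero hb0), P.ord_inv, hao, hbo, h1]
  ring

/-- two places of `M = K(t)` at which `t` has a pole coincide. -/
theorem cuspord_place_eq_of_pole {t : M} (hgen : K⟮t⟯ = ⊤) (P P' : Place K M)
    (ht : t ∉ P.toValuationSubring) (ht' : t ∉ P'.toValuationSubring) : P = P' := by
  apply Place.ext
  ext x
  by_cases hx : x = 0
  · subst hx
    exact ⟨fun _ => zero_mem _, fun _ => zero_mem _⟩
  obtain ⟨a, b, hab⟩ := exists_eq_aeval_div hgen x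
  have hb : b ≠ 0 := by
    rintro rfl
    rw [map_zero, div_zero] at hab
    exact hx hab
  have ha : a ≠ 0 := by
    rintro rfl
    rw [map_zero, zero_div] at hab
    exact hx hab
  rw [PlaceAux.mem_iff_ord_nonneg' P hx, PlaceAux.mem_iff_ord_nonneg' P' hx, hab,
    cuspord_ord_div_of_pole hgen P ht ha hb, cuspord_ord_div_of_pole hgen P' ht' ha hb]

/-- **uniqueness of the pole of `t` on `K(t)`**, in valuation-subring form. -/
theorem cuspord_valuationSubring_eq_of_pole {t : M} (hgen : K⟮t⟯ = ⊤)
    (V V' : ValuationSubring M) (hK : ∀ a : K, algebraMap K M a ∈ V)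
    (hK' : ∀ a : K, algebraMap K M a ∈ V') (ht : t ∉ V) (ht' : t ∉ V') : V = V' := by
  have hne : V ≠ ⊤ := fun h => ht (h ▸ ValuationSubring.mem_top t)
  have hne' : V' ≠ ⊤ := fun h => ht' (h ▸ ValuationSubring.mem_top t)
  have h := cuspord_place_eq_of_pole hgen (placeOfValuationSubring V hK hne hgen)
    (placeOfValuationSubring V' hK' hne' hgen) ht ht'
  have h2 := congrArg Place.toValuationSubring h
  simpa using h2

end Fermat.Agent.SS
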