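/-
(SS-q) — helper9 — MODEL-GLOBAL leaf [E] CUSPORD, part 3 (abstract form).

`L / K` a field with an order function `ν` (`IsOrdFun K ν`, the `x`-adic order), elements
`j, jq : L` with `ν j = -1`, `ν jq = -q` (`q ≥ 2`), `[L : K(j)] ≤ q + 1`, and a `K`-algebra
endomorphism `W` of `L` swapping `j` and `jq`.  Then the only valuation subrings of `L` containing
`K` at which `j` has a pole are `V_∞ = {ν ≥ 0}` and `V_0 = W⁻¹ V_∞`, and at each of them
`jq / j ^ q`, `j / jq ^ q` are integral and `jq` has a pole.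
-/
import Mathlib
import Fermat.Agent.FF.Gal_helper7_OfOrd
import Fermat.Agent.JA.LINE_helper2_Ram
import Fermat.Agent.SS.CUSPORD_helper9_Line
import Fermat.Agent.SS.CUSPORD_helper9_Count

set_option autoImplicit false
set_option linter.unusedSectionVars false
set_option linter.style.haveILetI false

open AlgebraicCurve Polynomial IntermediateField

namespace Fermat.Agent.SS

open Fermat.Agent.JA Fermat.Agent.FF Fermat.Agent.FF.Gal Fermat.Agent.SS.TwoExt

variable {K M : Type*} [Field K] [Field M] [Algebra K M]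

/-- an element of order one of the valuation ring of a place is irreducible. -/
theorem cuspord_irreducible_of_ord_eq_one (P : Place K M) (x : ↥P.toValuationSubring)
    (hx : P.ord (x : M) = 1) : Irreducible x := by
  obtain ⟨π, hπ⟩ := IsDiscreteValuationRing.exists_irreducible ↥P.toValuationSubring
  have hx0 : (x : M) ≠ 0 := by
    intro h
    rw [h, P.ord_zero] at hx
    exact absurd hx (by norm_num)
  obtain ⟨u, hu⟩ := P.exists_unit_mul_zpow hx0 hπ
  rw [hx, zpow_one] at hu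
  have hassoc : Associated π x := by
    refine ⟨u, Subtype.ext ?_⟩
    show (π : M) * ((u : ↥P.toValuationSubring) : M) = (x : M)
    rw [hu, mul_comm]
  exact hassoc.irreducible hπ

namespace CuspOrd

variable {L : Type*} [Field L] [Algebra K L] {ν : L → ℤ} (hν : IsOrdFun K ν)

include hν in
theorem cuspord_ord_pow {x : L} (hx : x ≠ 0) (n : ℕ) : ν (x ^ n) = n * ν x := by
  induction n with
  | zero => simp [hν.map_one]
  | succ k ih =>
    rw [pow_succ, hν.map_mul _ _ (pow_ne_zero k hx) hx, ih]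
    push_cast; ring

include hν in
/-- `ν (a * (b ^ n)⁻¹) = ν a - n * ν b`. -/
theorem cuspord_map_mul_pow_inv {a b : L} (ha : a ≠ 0) (hb : b ≠ 0) (n : ℕ) :
    ν (a * (b ^ n)⁻¹) = ν a - n * ν b := by
  rw [hν.map_mul _ _ ha (inv_ne_zero (pow_ne_zero n hb)), hν.map_inv (pow_ne_zero n hb),
    cuspord_ord_pow hν hb]
  ring

end CuspOrd

open CuspOrd in
/-- **CUSPORD, abstract form.** -/
theorem cuspord_abstract {L : Type*} [Field L] [Algebra K L] {ν : L → ℤ} (hν : IsOrdFun K ν)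
    (j jq : L) (q : ℕ) (hq : 2 ≤ q) (hj0 : j ≠ 0) (hjq0 : jq ≠ 0)
    (hj : ν j = -1) (hjq : ν jq = -(q : ℤ))
    [FiniteDimensional ↥K⟮j⟯ L] [Algebra.IsSeparable ↥K⟮j⟯ L]
    (hdeg : Module.finrank ↥K⟮j⟯ L ≤ q + 1)
    (W : L →ₐ[K] L) (hWj : W j = jq) (hWjq : W jq = j)
    (V : ValuationSubring L) (hK : ∀ c : K, algebraMap K L c ∈ V) (hjV : j ∉ V) :
    (V = hν.valuationSubring ∨ V = hν.valuationSubring.comap (W : L →+* L)) ∧
      jq * (j ^ q)⁻¹ ∈ V ∧ j * (jq ^ q)⁻¹ ∈ V ∧ jq ∉ V := by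
  classical
  set Vinf : ValuationSubring L := hν.valuationSubring with hVinf
  set V0 : ValuationSubring L := Vinf.comap (W : L →+* L) with hV0
  have hmem0 : ∀ x : L, x ∈ V0 ↔ W x ∈ Vinf := fun x => Iff.rfl
  have hq' : (2 : ℤ) ≤ (q : ℤ) := by exact_mod_cast hq
  -- the basic memberships
  have hKinf : ∀ c : K, algebraMap K L c ∈ Vinf := fun c => hν.place.algebraMap_mem' c
  have hK0 : ∀ c : K, algebraMap K L c ∈ V0 := by
    intro c
    rw [hmem0]
    have : W (algebraMap K L c) = algebraMap K L c := W.commutes c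
    rw [this]
    exact hKinf c
  have hjinf : j ∉ Vinf := by
    rw [hν.mem_valuationSubring_of_ne_zero hj0, hj]; norm_num
  have hjqinf : jq ∉ Vinf := by
    rw [hν.mem_valuationSubring_of_ne_zero hjq0, hjq]; omega
  have hj00 : j ∉ V0 := by rw [hmem0, hWj]; exact hjqinf
  have hjq00 : jq ∉ V0 := by rw [hmem0, hWjq]; exact hjinf
  have hz1 : jq * (j ^ q)⁻¹ ≠ 0 := mul_ne_zero hjq0 (inv_ne_zero (pow_ne_zero q hj0))
  have hz2 : j * (jq ^ q)⁻¹ ≠ 0 := mul_ne_zero hj0 (inv_ne_zero (pow_ne_zero q hjq0))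
  have hν1 : ν (jq * (j ^ q)⁻¹) = 0 := by
    rw [cuspord_map_mul_pow_inv hν hjq0 hj0, hjq, hj]; ring
  have hν2 : ν (j * (jq ^ q)⁻¹) = (q : ℤ) * q - 1 := by
    rw [cuspord_map_mul_pow_inv hν hj0 hjq0, hjq, hj]; ring
  have hν2' : 0 < ν (j * (jq ^ q)⁻¹) := by rw [hν2]; nlinarith
  have hW1 : W (jq * (j ^ q)⁻¹) = j * (jq ^ q)⁻¹ := by
    rw [map_mul, map_inv₀, map_pow, hWj, hWjq]
  have hW2 : W (j * (jq ^ q)⁻¹) = jq * (j ^ q)⁻¹ := by
    rw [map_mul, map_inv₀, map_pow, hWj, hWjq]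
  have hz1inf : jq * (j ^ q)⁻¹ ∈ Vinf := by
    rw [hν.mem_valuationSubring_of_ne_zero hz1, hν1]
  have hz2inf : j * (jq ^ q)⁻¹ ∈ Vinf := by
    rw [hν.mem_valuationSubring_of_ne_zero hz2]; exact hν2'.le
  -- the base field `K(j)` and its valuation ring at `j = ∞`
  set t : ↥K⟮j⟯ := AdjoinSimple.gen K j with ht
  have hgen : K⟮t⟯ = ⊤ := adjoin_simple_gen_eq_top j
  have htj : algebraMap ↥K⟮j⟯ L t = j := AdjoinSimple.algebraMap_gen K j
  have hKcomp : ∀ c : K, algebraMap ↥K⟮j⟯ L (algebraMap K ↥K⟮j⟯ c) = algebraMap K L c :=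
    fun c => rfl
  set O : ValuationSubring ↥K⟮j⟯ := Vinf.comap (algebraMap ↥K⟮j⟯ L) with hO
  have hKO : ∀ c : K, algebraMap K ↥K⟮j⟯ c ∈ O := fun c => by
    show algebraMap ↥K⟮j⟯ L (algebraMap K ↥K⟮j⟯ c) ∈ Vinf
    rw [hKcomp]; exact hKinf c
  have htO : t ∉ O := by
    show ¬ algebraMap ↥K⟮j⟯ L t ∈ Vinf
    rw [htj]; exact hjinf
  have hOne : O ≠ ⊤ := fun h => htO (h ▸ ValuationSubring.mem_top t)
  haveI : IsDiscreteValuationRing ↥O := isDiscreteValuationRing_of_adjoin_eq_top O hKO hOne hgen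
  -- every valuation subring of `L` containing `K` with a pole at `j` extends `O`
  have hext : ∀ V' : ValuationSubring L, (∀ c : K, algebraMap K L c ∈ V') → j ∉ V' →
      IsExt O V' := by
    intro V' hK' hj'
    refine cuspord_valuationSubring_eq_of_pole hgen _ _ ?_ hKO ?_ htO
    · intro c
      show algebraMap ↥K⟮j⟯ L (algebraMap K ↥K⟮j⟯ c) ∈ V'
      rw [hKcomp]; exact hK' c
    · show ¬ algebraMap ↥K⟮j⟯ L t ∈ V'
      rw [htj]; exact hj'
  have hinf : IsExt O Vinf := rfl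
  have h0 : IsExt O V0 := hext V0 hK0 hj00
  have hV : IsExt O V := hext V hK hjV
  -- the two extensions are distinct
  have hne : Vinf ≠ V0 := by
    intro h
    have h1 : (jq * (j ^ q)⁻¹)⁻¹ ∈ Vinf := by
      rw [hν.mem_valuationSubring_of_ne_zero (inv_ne_zero hz1), hν.map_inv hz1, hν1, neg_zero]
    rw [h, hmem0, map_inv₀, hW1, hν.mem_valuationSubring_of_ne_zero (inv_ne_zero hz2),
      hν.map_inv hz2] at h1
    omega
  -- a uniformiser of `O`
  have htinvO : t⁻¹ ∈ O := (O.mem_or_inv_mem t).resolve_left htO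
  set PO : Place K ↥K⟮j⟯ := placeOfValuationSubring O hKO hOne hgen with hPO
  have ht0 : t ≠ 0 := fun h => htO (h ▸ O.zero_mem)
  have hordt : PO.ord t = -1 := by
    apply ord_eq_neg_one_of_neg hgen PO
    by_contra hcon
    rw [not_lt] at hcon
    exact htO ((PlaceAux.mem_iff_ord_nonneg' PO ht0).mpr hcon)
  have hϖ : Irreducible (⟨t⁻¹, htinvO⟩ : ↥O) := by
    apply cuspord_irreducible_of_ord_eq_one PO ⟨t⁻¹, htinvO⟩
    show PO.ord t⁻¹ = 1
    rw [PO.ord_inv, hordt]; rfl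
  -- ramification at `V0`
  have he : q ≤ (center h0).ramificationIdx ↥O := by
    refine cuspord_le_ramificationIdx h0 hϖ (y := jq⁻¹) (u := jq ^ q * j⁻¹) ?_ ?_ q ?_
    · rw [val_lt_one_iff_inv_not_mem V0 (inv_ne_zero hjq0), inv_inv]
      exact hjq00
    · rw [hmem0, map_mul, map_inv₀, map_pow, hWj, hWjq]
      have hne0 : j ^ q * jq⁻¹ ≠ 0 := mul_ne_zero (pow_ne_zero q hj0) (inv_ne_zero hjq0)
      rw [hν.mem_valuationSubring_of_ne_zero hne0,
        hν.map_mul _ _ (pow_ne_zero q hj0) (inv_ne_zero hjq0), hν.map_inv hjq0,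
        cuspord_ord_pow hν hj0, hj, hjq]
      ring_nf
      exact le_refl _
    · show algebraMap ↥K⟮j⟯ L t⁻¹ = _
      rw [map_inv₀, htj, inv_pow, ← mul_assoc, inv_mul_cancel₀ (pow_ne_zero q hjq0), one_mul]
  have hall := cuspord_count_ram hinf h0 hne hdeg he V hV
  refine ⟨hall, ?_⟩
  rcases hall with rfl | rfl
  · exact ⟨hz1inf, hz2inf, hjqinf⟩
  · refine ⟨?_, ?_, hjq00⟩
    · rw [hmem0, hW1]; exact hz2inf
    · rw [hmem0, hW2]; exact hz1inf

end Fermat.Agent.SS
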