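/-
(SS-q) — helper9 — MODEL-GLOBAL leaf [E] CUSPORD, part 4 (concrete form).

`K` a field embedded in `ℂ`, `q` a prime, `F_q = K(j, j_q) ⊆ K((x))` the function field of
`X₀(q)` over `K` (`j = jGen K q`, `j_q = jdBar q (dvd_refl q)`, with underlying Laurent series
`jqModC K` and `jqNModC K q`).  The only valuation subrings of `F_q` containing `K` at which `j`
has a pole are the `x`-adic one `cuspVinf K q` and its image under the Fricke involution; at both
of them `j_q / j ^ q` and `j / j_q ^ q` are integral and `j_q` has a pole.  The same for the images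
under any ring homomorphism `F_q →+* E` (hosts).
-/
import Mathlib
import Fermat.Agent.GR.ANORM_helper5_Fricke
import Fermat.Agent.JA.KEYBASE_helper8_Cusp
import Fermat.Agent.JA.RAM0_helper2_Shapes
import Fermat.Agent.JA.HOST_helper3_Emb
import Fermat.Agent.SS.CUSPORD_helper9_Abs

set_option autoImplicit false
set_option linter.unusedSectionVars false
set_option linter.style.haveILetI false

open AlgebraicCurve Polynomial IntermediateField ModularCurve HahnSeries

namespace Fermat.Agent.SS

open Fermat.Agent.JA Fermat.Agent.FF Fermat.Agent.FF.Gal Fermat.Agent.X0N Fermat.Agent.RatStr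

section Concrete

variable (K : Type*) [Field K] [Algebra ℚ K] (q : ℕ) [NeZero q]

theorem cuspord_coe_jGen :
    ((jGen K q : ↥(laurentBaseChange K (modularFunctionFieldFull q))) : LaurentSeries K) =
      jqModC K := by
  have h := coeffEmb_qExpand_jq K 1
  rwa [qExpand_one_apply, qExpand_one_apply] at h

theorem cuspord_coe_jdBar :
    ((jdBar (k := K) q (dvd_refl q) : ↥(laurentBaseChange K (modularFunctionFieldFull q))) :
      LaurentSeries K) = jqNModC K q :=
  coeffEmb_qExpand_jq K q

theorem cuspord_order_jqModC : (jqModC K).order = -1 := by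
  have hne := jqModC_ne_zero_of_nontrivial K
  apply le_antisymm
  · exact HahnSeries.order_le_of_coeff_ne_zero
      (by rw [coeff_jqModC_neg_one]; exact one_ne_zero)
  · by_contra hlt
    rw [not_le] at hlt
    exact hne (HahnSeries.coeff_order_eq_zero.mp (coeff_jqModC_of_lt K hlt))

theorem cuspord_order_jqNModC : (jqNModC K q).order = -(q : ℤ) := by
  rw [jqNModC, order_qExpand, cuspord_order_jqModC]
  ring

theorem cuspord_jGen_ne_zero :
    (jGen K q : ↥(laurentBaseChange K (modularFunctionFieldFull q))) ≠ 0 := by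
  intro h
  have h1 := congrArg (fun z : ↥(laurentBaseChange K (modularFunctionFieldFull q)) =>
    (z : LaurentSeries K)) h
  simp only [cuspord_coe_jGen] at h1
  exact jqModC_ne_zero_of_nontrivial K h1

theorem cuspord_qOrd_jGen :
    qOrd (laurentBaseChange K (modularFunctionFieldFull q)) (jGen K q) = -1 := by
  show ((jGen K q : ↥(laurentBaseChange K (modularFunctionFieldFull q))) :
    LaurentSeries K).order = -1
  rw [cuspord_coe_jGen, cuspord_order_jqModC]

theorem cuspord_qOrd_jdBar :
    qOrd (laurentBaseChange K (modularFunctionFieldFull q)) (jdBar (k := K) q (dvd_refl q)) =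
      -(q : ℤ) := by
  show ((jdBar (k := K) q (dvd_refl q) : ↥(laurentBaseChange K (modularFunctionFieldFull q))) :
    LaurentSeries K).order = -(q : ℤ)
  rw [cuspord_coe_jdBar, cuspord_order_jqNModC]

theorem cuspord_exists_qOrd_ne_zero :
    ∃ y : ↥(laurentBaseChange K (modularFunctionFieldFull q)),
      y ≠ 0 ∧ qOrd (laurentBaseChange K (modularFunctionFieldFull q)) y ≠ 0 :=
  ⟨jGen K q, cuspord_jGen_ne_zero K q, by rw [cuspord_qOrd_jGen]; norm_num⟩

/-- the `x`-adic valuation subring of the function field of `X₀(q)` over `K`. -/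
noncomputable def cuspVinf : ValuationSubring ↥(laurentBaseChange K (modularFunctionFieldFull q)) :=
  (isOrdFun_qOrd (laurentBaseChange K (modularFunctionFieldFull q))
    (cuspord_exists_qOrd_ne_zero K q)).valuationSubring

theorem mem_cuspVinf_iff (f : ↥(laurentBaseChange K (modularFunctionFieldFull q))) :
    f ∈ cuspVinf K q ↔ f = 0 ∨ 0 ≤ (f : LaurentSeries K).order := Iff.rfl

end Concrete

section Fricke

variable {K : Type*} [Field K] [Algebra ℚ K] (ι : K →+* ℂ) (q : ℕ) [NeZero q]

theorem cuspord_jGen_eq_jdBar :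
    (jGen K q : ↥(laurentBaseChange K (modularFunctionFieldFull q))) =
      jdBar (k := K) q (one_dvd q) := by
  apply Subtype.ext
  show coeffEmb K jq = coeffEmb K (qExpand ℚ 1 jq)
  rw [qExpand_one_apply]

theorem cuspord_frickeN_jGen :
    frickeN ι q (jGen K q) = jdBar (k := K) q (dvd_refl q) := by
  apply realN_injective ι q
  rw [realN_frickeN, cuspord_jGen_eq_jdBar]
  have hde : q = 1 * q := (one_mul q).symm
  exact fricke_realN_jdBar ι q hde

theorem cuspord_frickeN_jdBar :
    frickeN ι q (jdBar (k := K) q (dvd_refl q)) = jGen K q := by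
  rw [← cuspord_frickeN_jGen ι q, frickeN_frickeN]

/-- the Fricke involution as a `K`-algebra endomorphism. -/
noncomputable def cuspordW :
    ↥(laurentBaseChange K (modularFunctionFieldFull q)) →ₐ[K]
      ↥(laurentBaseChange K (modularFunctionFieldFull q)) :=
  { frickeN ι q with commutes' := frickeN_algebraMap ι q }

@[simp] theorem cuspordW_apply (z : ↥(laurentBaseChange K (modularFunctionFieldFull q))) :
    cuspordW ι q z = frickeN ι q z := rfl

theorem cuspordW_coe :
    ((cuspordW ι q : ↥(laurentBaseChange K (modularFunctionFieldFull q)) →ₐ[K] _) :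
      ↥(laurentBaseChange K (modularFunctionFieldFull q)) →+* _) = frickeN ι q := rfl

end Fricke

section Main

variable {K : Type*} [Field K] [Algebra ℚ K] (ι : K →+* ℂ) (q : ℕ) [NeZero q]

include ι in
theorem cuspord_finrank (hq : q.Prime) :
    Module.Finite ↥K⟮jGen K q⟯ ↥(laurentBaseChange K (modularFunctionFieldFull q)) ∧
      Module.finrank ↥K⟮jGen K q⟯ ↥(laurentBaseChange K (modularFunctionFieldFull q)) = q + 1 := by
  letI : Algebra K ℂ := ι.toAlgebra
  haveI : IsScalarTower ℚ K ℂ := IsScalarTower.of_algebraMap_eq (fun r => by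
    show algebraMap ℚ ℂ r = ι (algebraMap ℚ K r)
    rw [eq_ratCast, eq_ratCast, map_ratCast])
  obtain ⟨h1, h2⟩ := finrank_laurentBaseChange_full_eq K q
  refine ⟨h1, ?_⟩
  rw [h2]
  have h3 := dedekindPsi_prime_pow hq (n := 1) one_pos
  rw [pow_one, Nat.sub_self, pow_zero] at h3
  exact h3

/-- **CUSPORD.**  The valuation subrings of `F_q = K(j, j_q)` containing `K` at which `j` has a
pole. -/
theorem cuspord (hq : q.Prime)
    (V : ValuationSubring ↥(laurentBaseChange K (modularFunctionFieldFull q)))
    (hK : ∀ c : K, algebraMap K ↥(laurentBaseChange K (modularFunctionFieldFull q)) c ∈ V)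
    (hj : jGen K q ∉ V) :
    (V = cuspVinf K q ∨ V = (cuspVinf K q).comap (frickeN ι q)) ∧
      jdBar (k := K) q (dvd_refl q) * (jGen K q ^ q)⁻¹ ∈ V ∧
      jGen K q * (jdBar (k := K) q (dvd_refl q) ^ q)⁻¹ ∈ V ∧
      jdBar (k := K) q (dvd_refl q) ∉ V := by
  obtain ⟨hfin, hrank⟩ := cuspord_finrank ι q hq
  haveI : FiniteDimensional ↥K⟮jGen K q⟯ ↥(laurentBaseChange K (modularFunctionFieldFull q)) :=
    hfin
  haveI : CharZero K := charZero_of_injective_algebraMap (algebraMap ℚ K).injective
  haveI : CharZero ↥K⟮jGen K q⟯ :=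
    charZero_of_injective_algebraMap (algebraMap K ↥K⟮jGen K q⟯).injective
  haveI : Algebra.IsSeparable ↥K⟮jGen K q⟯
      ↥(laurentBaseChange K (modularFunctionFieldFull q)) := inferInstance
  have hjq0 : jdBar (k := K) q (dvd_refl q) ≠ 0 := by
    rw [← cuspord_frickeN_jGen ι q]
    exact (map_ne_zero (frickeN ι q)).mpr (cuspord_jGen_ne_zero K q)
  exact cuspord_abstract
    (isOrdFun_qOrd (laurentBaseChange K (modularFunctionFieldFull q))
      (cuspord_exists_qOrd_ne_zero K q))
    (jGen K q) (jdBar (k := K) q (dvd_refl q)) q hq.two_le (cuspord_jGen_ne_zero K q) hjq0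
    (cuspord_qOrd_jGen K q) (cuspord_qOrd_jdBar K q) hrank.le (cuspordW ι q)
    (cuspord_frickeN_jGen ι q) (cuspord_frickeN_jdBar ι q) V hK hj

include ι in
/-- **CUSPORD on hosts**: the same for the images under a ring homomorphism `φ : F_q →+* E`. -/
theorem cuspord_of_ringHom (hq : q.Prime) {E : Type*} [Field E]
    (φ : ↥(laurentBaseChange K (modularFunctionFieldFull q)) →+* E) (V : ValuationSubring E)
    (hK : ∀ c : K, φ (algebraMap K ↥(laurentBaseChange K (modularFunctionFieldFull q)) c) ∈ V)
    (hj : φ (jGen K q) ∉ V) :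
    φ (jdBar (k := K) q (dvd_refl q)) * (φ (jGen K q) ^ q)⁻¹ ∈ V ∧
      φ (jGen K q) * (φ (jdBar (k := K) q (dvd_refl q)) ^ q)⁻¹ ∈ V ∧
      φ (jdBar (k := K) q (dvd_refl q)) ∉ V := by
  obtain ⟨-, h1, h2, h3⟩ := cuspord ι q hq (V.comap φ) hK hj
  refine ⟨?_, ?_, h3⟩
  · have := h1
    rw [ValuationSubring.mem_comap, map_mul, map_inv₀, map_pow] at this
    exact this
  · have := h2
    rw [ValuationSubring.mem_comap, map_mul, map_inv₀, map_pow] at this
    exact this

end Main

end Fermat.Agent.SS
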