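/-
(SS-q) MODEL-GLOBAL [CUSPORD-HOST] — helper8.  The cusp statement of helper9's CUSPORD on the hosts:
for a valuation subring `V ⊇ K` of the tower field `E_N = K(t)·F_w ⊆ K⸨x⸩` (`q ∣ N` prime),
with `j = j(x^w)`, `j_q = j(x^{wq})`: if `j ∉ V` then `j_q / j^q ∈ V`, `j / j_q^q ∈ V`, `j_q ∉ V`;
if `j_q ∉ V` then `j ∉ V`.
-/
import Mathlib
import Fermat.Agent.SS.CUSPORD_helper9_Main
import Fermat.Agent.SS.HOSTB_helper8_HostB
import Fermat.Agent.JA.UP_helper7_Emb

set_option autoImplicit false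
set_option linter.unusedSectionVars false
set_option linter.style.haveILetI false
set_option synthInstance.maxHeartbeats 200000

open HahnSeries ModularCurve IntermediateField AlgebraicCurve Fermat.Agent.JA Fermat.Agent.FF
  Fermat.Agent.X0N Fermat.Agent.RatStr

namespace Fermat.Agent.SS

noncomputable section

variable {K : Type*} [Field K] [Algebra ℚ K]

/-- the embedding of the function field of `X₀(q)` into the host of level `N`, `q ∣ N`. -/
def cuspHostEmb {N q : ℕ} [NeZero N] [NeZero q] (w : ℕ) [NeZero w] (hqN : q ∣ N)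
    (t : LaurentSeries K) :
    ↥(laurentBaseChange K (modularFunctionFieldFull q)) →ₐ[K] ↥(Host.Etu (keyFw K N w) t 1) :=
  dilateAlgHom K w (laurentBaseChange K (modularFunctionFieldFull q))
    (Host.Etu (keyFw K N w) t 1)
    (fun _ hf => keyFw_le_Etu K N w t (qExpand_mem_hostImage (keyFq_le_of_dvd K hqN hf)))

theorem coe_cuspHostEmb {N q : ℕ} [NeZero N] [NeZero q] (w : ℕ) [NeZero w] (hqN : q ∣ N)
    (t : LaurentSeries K) (f : ↥(laurentBaseChange K (modularFunctionFieldFull q))) :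
    ((cuspHostEmb w hqN t f : ↥(Host.Etu (keyFw K N w) t 1)) : LaurentSeries K) =
      qExpand K w (f : LaurentSeries K) := rfl

/-- **CUSPORD on the hosts.** -/
theorem cuspord_host (ι : K →+* ℂ) {N q : ℕ} [NeZero N] [NeZero q] (w : ℕ) [NeZero w]
    (hq : q.Prime) (hqN : q ∣ N) (t : LaurentSeries K)
    (V : ValuationSubring ↥(Host.Etu (keyFw K N w) t 1))
    (hK : ∀ c : K, algebraMap K ↥(Host.Etu (keyFw K N w) t 1) c ∈ V)
    (jA jB : ↥(Host.Etu (keyFw K N w) t 1))
    (hjA : (jA : LaurentSeries K) = jqNModC K w)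
    (hjB : (jB : LaurentSeries K) = qExpand K q (jqNModC K w)) :
    (jA ∉ V → jB * (jA ^ q)⁻¹ ∈ V ∧ jA * (jB ^ q)⁻¹ ∈ V ∧ jB ∉ V) ∧ (jB ∉ V → jA ∉ V) := by
  set φ := cuspHostEmb (K := K) w hqN t with hφ
  have e1 : φ (jGen K q) = jA := by
    apply Subtype.ext
    rw [coe_cuspHostEmb, cuspord_coe_jGen, hjA, jqNModC]
  have e2 : φ (jdBar (k := K) q (dvd_refl q)) = jB := by
    apply Subtype.ext
    rw [coe_cuspHostEmb, cuspord_coe_jdBar, hjB, jqNModC, jqNModC,
      Fermat.Agent.SS.qExpand_qExpand' w q (w * q) rfl,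
      Fermat.Agent.SS.qExpand_qExpand' q w (w * q) (mul_comm w q)]
  constructor
  · intro hj
    have h := cuspord_of_ringHom ι q hq (φ : _ →+* _) V
      (fun c => by
        show φ (algebraMap K _ c) ∈ V
        rw [φ.commutes c]; exact hK c)
      (by
        show φ (jGen K q) ∉ V
        rw [e1]; exact hj)
    have h' : φ (jdBar (k := K) q (dvd_refl q)) * (φ (jGen K q) ^ q)⁻¹ ∈ V ∧
        φ (jGen K q) * (φ (jdBar (k := K) q (dvd_refl q)) ^ q)⁻¹ ∈ V ∧
        φ (jdBar (k := K) q (dvd_refl q)) ∉ V := h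
    rwa [e1, e2] at h'
  · intro hj
    -- compose with the Fricke involution
    set ψ : ↥(laurentBaseChange K (modularFunctionFieldFull q)) →+*
        ↥(Host.Etu (keyFw K N w) t 1) := (φ : _ →+* _).comp (frickeN ι q) with hψ
    have h := cuspord_of_ringHom ι q hq ψ V
      (fun c => by
        show φ (frickeN ι q (algebraMap K _ c)) ∈ V
        rw [frickeN_algebraMap, φ.commutes c]; exact hK c)
      (by
        show φ (frickeN ι q (jGen K q)) ∉ V
        rw [cuspord_frickeN_jGen, e2]; exact hj)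
    have h3 : φ (frickeN ι q (jdBar (k := K) q (dvd_refl q))) ∉ V := h.2.2
    rwa [cuspord_frickeN_jdBar, e1] at h3

/-- a valuation subring of an extension of `Frac R` (`R` a DVR) containing `R` and the inverse of
the uniformizer contains `Frac R`. -/
theorem algebraMap_mem_of_inv_uniformizer_mem {R K₁ E : Type*} [CommRing R] [IsDomain R]
    [IsDiscreteValuationRing R] [Field K₁] [Algebra R K₁] [IsFractionRing R K₁] [Field E]
    [Algebra K₁ E] [Algebra R E] [IsScalarTower R K₁ E] {π : R} (hπ : Irreducible π)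
    (V : ValuationSubring E) (hR : ∀ r : R, algebraMap R E r ∈ V)
    (hπV : (algebraMap R E π)⁻¹ ∈ V) (c : K₁) : algebraMap K₁ E c ∈ V := by
  obtain ⟨a, b, hb, rfl⟩ := IsFractionRing.div_surjective (A := R) c
  have hb0 : b ≠ 0 := nonZeroDivisors.ne_zero hb
  obtain ⟨n, u, hu⟩ := IsDiscreteValuationRing.eq_unit_mul_pow_irreducible hb0 hπ
  rw [map_div₀, ← IsScalarTower.algebraMap_apply, ← IsScalarTower.algebraMap_apply, hu, map_mul,
    map_pow, div_eq_mul_inv, mul_inv, ← inv_pow]
  have hu' : (algebraMap R E (u : R))⁻¹ = algebraMap R E ((u⁻¹ : Rˣ) : R) := by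
    apply inv_eq_of_mul_eq_one_right
    rw [← map_mul, Units.mul_inv, map_one]
  rw [hu']
  exact V.mul_mem _ _ (hR a) (V.mul_mem _ _ (hR _) (pow_mem hπV n))

end

end Fermat.Agent.SS
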