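/-
(SS-q) FIELD — helper6 — **the fields `cuspord`, `cuspord'` of `SSModelLeg` / `SSModelHes`**
(MODEL_helper7_Defs, group C of helper7's skeleton), from helper8's `cuspord_host`.
NOTE: the hypothesis `hπ : Irreducible π` is needed (to get `K ⊆ V` from `R ⊆ V`, `π⁻¹ ∈ V`).
-/
import Mathlib
import Fermat.Agent.SS.MODEL_helper7_Defs
import Fermat.Agent.SS.CUSPHOST_helper8

set_option autoImplicit false
set_option linter.unusedSectionVars false
set_option linter.style.haveILetI false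
set_option synthInstance.maxHeartbeats 200000

open Polynomial ModularCurve IntermediateField

namespace Fermat.Agent.SS

open Fermat.Agent.JA Fermat.Agent.Igusa

open scoped Fermat.Agent.JA.Host

section Fields

variable (R : Type*) [CommRing R] [IsDomain R] [IsDiscreteValuationRing R] [CharZero R]
  (K : Type*) [Field K] [Algebra R K] [IsFractionRing R K] [Algebra ℚ K] [Algebra K ℂ]
  {M q : ℕ} [NeZero M] [NeZero q] [NeZero (M * q)] {x y : ℤ}
  {π : R}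

/-- both `cuspord` and `cuspord'` on the Legendre host. -/
theorem ssModelLeg_cuspord_both (hπ : Irreducible π) (hq : q.Prime) (hq2 : q ≠ 2)
    (V : ValuationSubring ↥(legE K (M * q)))
    (hR : ∀ r : R, algebraMap R ↥(legE K (M * q)) r ∈ V)
    (hπV : (algebraMap R ↥(legE K (M * q)) π)⁻¹ ∈ V) :
    ((legHostA K M q : ↥(legE K M) →+* ↥(legE K (M * q))) (legJE K M) ∉ V →
      (legHostB K M q hq hq2 : ↥(legE K M) →+* ↥(legE K (M * q))) (legJE K M) *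
        ((legHostA K M q : ↥(legE K M) →+* ↥(legE K (M * q))) (legJE K M) ^ q)⁻¹ ∈ V ∧
      (legHostA K M q : ↥(legE K M) →+* ↥(legE K (M * q))) (legJE K M) *
        ((legHostB K M q hq hq2 : ↥(legE K M) →+* ↥(legE K (M * q))) (legJE K M) ^ q)⁻¹ ∈ V ∧
      (legHostB K M q hq hq2 : ↥(legE K M) →+* ↥(legE K (M * q))) (legJE K M) ∉ V) ∧
    ((legHostB K M q hq hq2 : ↥(legE K M) →+* ↥(legE K (M * q))) (legJE K M) ∉ V →
      (legHostA K M q : ↥(legE K M) →+* ↥(legE K (M * q))) (legJE K M) ∉ V) :=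
  cuspord_host (algebraMap K ℂ) 2 hq (Dvd.intro_left M rfl) (legT K) V
    (algebraMap_mem_of_inv_uniformizer_mem hπ V hR hπV) _ _
    (by rw [RingHom.coe_coe, coe_legHostA, coe_legJE])
    (by rw [RingHom.coe_coe, coe_legHostB, coe_legJE])

/-- **`cuspord`, Legendre.** -/
theorem ssModelLeg_cuspord (hπ : Irreducible π) (hq : q.Prime) (hq2 : q ≠ 2)
    (V : ValuationSubring ↥(legE K (M * q)))
    (hR : ∀ r : R, algebraMap R ↥(legE K (M * q)) r ∈ V)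
    (hπV : (algebraMap R ↥(legE K (M * q)) π)⁻¹ ∈ V)
    (hj : (legHostA K M q : ↥(legE K M) →+* ↥(legE K (M * q))) (legJE K M) ∉ V) :
    (legHostB K M q hq hq2 : ↥(legE K M) →+* ↥(legE K (M * q))) (legJE K M) *
        ((legHostA K M q : ↥(legE K M) →+* ↥(legE K (M * q))) (legJE K M) ^ q)⁻¹ ∈ V ∧
      (legHostA K M q : ↥(legE K M) →+* ↥(legE K (M * q))) (legJE K M) *
        ((legHostB K M q hq hq2 : ↥(legE K M) →+* ↥(legE K (M * q))) (legJE K M) ^ q)⁻¹ ∈ V ∧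
      (legHostB K M q hq hq2 : ↥(legE K M) →+* ↥(legE K (M * q))) (legJE K M) ∉ V :=
  (ssModelLeg_cuspord_both R K hπ hq hq2 V hR hπV).1 hj

/-- **`cuspord'`, Legendre.** -/
theorem ssModelLeg_cuspord' (hπ : Irreducible π) (hq : q.Prime) (hq2 : q ≠ 2)
    (V : ValuationSubring ↥(legE K (M * q)))
    (hR : ∀ r : R, algebraMap R ↥(legE K (M * q)) r ∈ V)
    (hπV : (algebraMap R ↥(legE K (M * q)) π)⁻¹ ∈ V)
    (hj : (legHostB K M q hq hq2 : ↥(legE K M) →+* ↥(legE K (M * q))) (legJE K M) ∉ V) :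
    (legHostA K M q : ↥(legE K M) →+* ↥(legE K (M * q))) (legJE K M) ∉ V :=
  (ssModelLeg_cuspord_both R K hπ hq hq2 V hR hπV).2 hj

/-- both `cuspord` and `cuspord'` on the Hesse host. -/
theorem ssModelHes_cuspord_both [NeZero (M * 2)] (hπ : Irreducible π)
    (V : ValuationSubring ↥(hesE K (M * 2)))
    (hR : ∀ r : R, algebraMap R ↥(hesE K (M * 2)) r ∈ V)
    (hπV : (algebraMap R ↥(hesE K (M * 2)) π)⁻¹ ∈ V) :
    ((hesHostA K M 2 : ↥(hesE K M) →+* ↥(hesE K (M * 2))) (hesJE K M) ∉ V →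
      (hesHostB K M : ↥(hesE K M) →+* ↥(hesE K (M * 2))) (hesJE K M) *
        ((hesHostA K M 2 : ↥(hesE K M) →+* ↥(hesE K (M * 2))) (hesJE K M) ^ 2)⁻¹ ∈ V ∧
      (hesHostA K M 2 : ↥(hesE K M) →+* ↥(hesE K (M * 2))) (hesJE K M) *
        ((hesHostB K M : ↥(hesE K M) →+* ↥(hesE K (M * 2))) (hesJE K M) ^ 2)⁻¹ ∈ V ∧
      (hesHostB K M : ↥(hesE K M) →+* ↥(hesE K (M * 2))) (hesJE K M) ∉ V) ∧
    ((hesHostB K M : ↥(hesE K M) →+* ↥(hesE K (M * 2))) (hesJE K M) ∉ V →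
      (hesHostA K M 2 : ↥(hesE K M) →+* ↥(hesE K (M * 2))) (hesJE K M) ∉ V) :=
  cuspord_host (algebraMap K ℂ) 3 Nat.prime_two (Dvd.intro_left M rfl) (hesT K) V
    (algebraMap_mem_of_inv_uniformizer_mem hπ V hR hπV) _ _
    (by rw [RingHom.coe_coe, coe_hesHostA, coe_hesJE])
    (by rw [RingHom.coe_coe, coe_hesHostB, coe_hesJE])

/-- **`cuspord`, Hesse.** -/
theorem ssModelHes_cuspord [NeZero (M * 2)] (hπ : Irreducible π)
    (V : ValuationSubring ↥(hesE K (M * 2)))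
    (hR : ∀ r : R, algebraMap R ↥(hesE K (M * 2)) r ∈ V)
    (hπV : (algebraMap R ↥(hesE K (M * 2)) π)⁻¹ ∈ V)
    (hj : (hesHostA K M 2 : ↥(hesE K M) →+* ↥(hesE K (M * 2))) (hesJE K M) ∉ V) :
    (hesHostB K M : ↥(hesE K M) →+* ↥(hesE K (M * 2))) (hesJE K M) *
        ((hesHostA K M 2 : ↥(hesE K M) →+* ↥(hesE K (M * 2))) (hesJE K M) ^ 2)⁻¹ ∈ V ∧
      (hesHostA K M 2 : ↥(hesE K M) →+* ↥(hesE K (M * 2))) (hesJE K M) *
        ((hesHostB K M : ↥(hesE K M) →+* ↥(hesE K (M * 2))) (hesJE K M) ^ 2)⁻¹ ∈ V ∧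
      (hesHostB K M : ↥(hesE K M) →+* ↥(hesE K (M * 2))) (hesJE K M) ∉ V :=
  (ssModelHes_cuspord_both R K hπ V hR hπV).1 hj

/-- **`cuspord'`, Hesse.** -/
theorem ssModelHes_cuspord' [NeZero (M * 2)] (hπ : Irreducible π)
    (V : ValuationSubring ↥(hesE K (M * 2)))
    (hR : ∀ r : R, algebraMap R ↥(hesE K (M * 2)) r ∈ V)
    (hπV : (algebraMap R ↥(hesE K (M * 2)) π)⁻¹ ∈ V)
    (hj : (hesHostB K M : ↥(hesE K M) →+* ↥(hesE K (M * 2))) (hesJE K M) ∉ V) :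
    (hesHostA K M 2 : ↥(hesE K M) →+* ↥(hesE K (M * 2))) (hesJE K M) ∉ V :=
  (ssModelHes_cuspord_both R K hπ V hR hπV).2 hj

end Fields

end Fermat.Agent.SS
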