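/-
(SS-q) MODEL-GLOBAL [F] nodes — helper8 — abstract part.  Branch uniformizers of the form
`t - v ^ q` in residue characteristic `q`, transport of branch uniformizers along a ring
automorphism, and the node data of a chart stable under an involution-like automorphism swapping
the two components.
-/
import Mathlib
import Fermat.Agent.SS.MODLOC_helper5_Core

set_option autoImplicit false
set_option linter.style.haveILetI false

namespace Fermat.Agent.SS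

section Abs

variable {B : Type*} [CommRing B]

/-- a variant of `IsBranchUniformizer.of_mul_unit`: `s x ≡ z u` modulo `𝔭` with `s, u ∉ 𝔪`. -/
theorem IsBranchUniformizer.of_mul_unit_mul {𝔭 𝔪 : Ideal B} [h𝔭 : 𝔭.IsPrime] [h𝔪 : 𝔪.IsPrime]
    (hle : 𝔭 ≤ 𝔪) {z x u s : B} (hz : IsBranchUniformizer 𝔭 𝔪 z) (hu : u ∉ 𝔪)
    (hx𝔪 : x ∈ 𝔪) (hx : s * x - z * u ∈ 𝔭) : IsBranchUniformizer 𝔭 𝔪 x where
  mem := hx𝔪
  notMem := by
    intro hmem
    have h1 : z * u ∈ 𝔭 := by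
      have : z * u = s * x - (s * x - z * u) := by ring
      rw [this]; exact 𝔭.sub_mem (𝔭.mul_mem_left _ hmem) hx
    rcases h𝔭.mem_or_mem h1 with h | h
    · exact hz.notMem h
    · exact hu (hle h)
  gen := by
    intro w hw
    obtain ⟨a, s₁, hs₁, has⟩ := hz.gen w hw
    refine ⟨a * s, u * s₁, ?_, ?_⟩
    · intro hmem
      rcases h𝔪.mem_or_mem hmem with h | h
      · exact hu h
      · exact hs₁ h
    · have : u * s₁ * w - a * s * x = u * (s₁ * w - a * z) - a * (s * x - z * u) := by ring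
      rw [this]
      exact 𝔭.sub_mem (𝔭.mul_mem_left _ has) (𝔭.mul_mem_left _ hx)

/-- the freshman's dream modulo an ideal containing the prime `q`. -/
theorem sub_pow_sub_mem_of_natCast_mem {I : Ideal B} (hI : I ≠ ⊤) {q : ℕ} (hq : q.Prime)
    (hqI : (q : B) ∈ I) (a b : B) : (a - b) ^ q - (a ^ q - b ^ q) ∈ I := by
  haveI : Fact q.Prime := ⟨hq⟩
  haveI : Nontrivial (B ⧸ I) := Ideal.Quotient.nontrivial_iff.mpr hI
  rw [← Ideal.Quotient.eq_zero_iff_mem]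
  have h0 : ((q : ℕ) : B ⧸ I) = 0 := by
    rw [← map_natCast (Ideal.Quotient.mk I), Ideal.Quotient.eq_zero_iff_mem]
    exact hqI
  haveI : CharP (B ⧸ I) q := (CharP.charP_iff_prime_eq_zero hq).mpr h0
  rw [map_sub, map_pow, map_sub, map_sub, map_pow, map_pow, sub_pow_char, sub_self]

/-- **branch uniformizers `t - v ^ q` in residue characteristic `q`**: if `t - a` is a branch
uniformizer at `𝔪` (with `a` a constant), the residue field at `𝔪` consists of constants, and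
`x ≡ t - v ^ q` modulo `𝔭` lies in `𝔪`, then `x` is a branch uniformizer. -/
theorem IsBranchUniformizer.of_sub_pow {R : Type*} [CommRing R] [Algebra R B]
    {𝔭 𝔪 : Ideal B} [h𝔭 : 𝔭.IsPrime] [h𝔪 : 𝔪.IsPrime] (hle : 𝔭 ≤ 𝔪)
    {q : ℕ} (hq : q.Prime) (hq𝔭 : (q : B) ∈ 𝔭)
    (hres : ∀ b : B, ∃ r : R, b - algebraMap R B r ∈ 𝔪)
    (hR : ∀ r : R, algebraMap R B r ∈ 𝔪 → algebraMap R B r ∈ 𝔭)
    {t : B} {a : R} (hz : IsBranchUniformizer 𝔭 𝔪 (t - algebraMap R B a))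
    {x v : B} (hx𝔪 : x ∈ 𝔪) (hx : x - (t - v ^ q) ∈ 𝔭) : IsBranchUniformizer 𝔭 𝔪 x := by
  set z := t - algebraMap R B a with hzdef
  obtain ⟨c, hc⟩ := hres v
  obtain ⟨a₂, s₂, hs₂, h2⟩ := hz.gen (v - algebraMap R B c) hc
  have hq2 : 2 ≤ q := hq.two_le
  -- `(s₂ (v - c))^q ≡ (a₂ z)^q`
  have h3 : (s₂ * (v - algebraMap R B c)) ^ q - (a₂ * z) ^ q ∈ 𝔭 := by
    have := sub_dvd_pow_sub_pow (s₂ * (v - algebraMap R B c)) (a₂ * z) q
    obtain ⟨d, hd⟩ := this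
    rw [hd]
    exact 𝔭.mul_mem_right _ h2
  -- `(v - c)^q ≡ v^q - c^q`
  have h4 := sub_pow_sub_mem_of_natCast_mem h𝔭.ne_top hq hq𝔭 v (algebraMap R B c)
  -- the constant `a - c^q`
  set r : R := a - c ^ q with hr
  have hr' : algebraMap R B r = algebraMap R B a - (algebraMap R B c) ^ q := by
    rw [hr, map_sub, map_pow]
  set u : B := s₂ ^ q - a₂ ^ q * z ^ (q - 1) with hu
  have hzz : z ^ q = z * z ^ (q - 1) := by
    rw [← pow_succ']
    congr 1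
    omega
  -- the key congruence
  have hkey : s₂ ^ q * x - z * u - s₂ ^ q * algebraMap R B r ∈ 𝔭 := by
    have e : s₂ ^ q * x - z * u - s₂ ^ q * algebraMap R B r =
        s₂ ^ q * (x - (t - v ^ q)) -
          ((s₂ * (v - algebraMap R B c)) ^ q - (a₂ * z) ^ q) +
          s₂ ^ q * ((v - algebraMap R B c) ^ q - (v ^ q - algebraMap R B c ^ q)) := by
      rw [hr', hu, mul_pow, mul_pow, hzz, hzdef]
      ring
    rw [e]
    exact 𝔭.add_mem (𝔭.sub_mem (𝔭.mul_mem_left _ hx) h3) (𝔭.mul_mem_left _ h4)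
  have hz𝔪 : z ∈ 𝔪 := hz.mem
  have hr𝔪 : algebraMap R B r ∈ 𝔪 := by
    have h5 : s₂ ^ q * algebraMap R B r ∈ 𝔪 := by
      have e : s₂ ^ q * algebraMap R B r =
          s₂ ^ q * x - z * u - (s₂ ^ q * x - z * u - s₂ ^ q * algebraMap R B r) := by ring
      rw [e]
      exact 𝔪.sub_mem (𝔪.sub_mem (𝔪.mul_mem_left _ hx𝔪) (𝔪.mul_mem_right _ hz𝔪)) (hle hkey)
    rcases h𝔪.mem_or_mem h5 with h | h
    · exact absurd (h𝔪.mem_of_pow_mem _ h) hs₂
    · exact h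
  have hr𝔭 : algebraMap R B r ∈ 𝔭 := hR r hr𝔪
  have hu𝔪 : u ∉ 𝔪 := by
    intro h
    have h6 : s₂ ^ q ∈ 𝔪 := by
      have e : s₂ ^ q = u + a₂ ^ q * z ^ (q - 1) := by rw [hu]; ring
      rw [e]
      refine 𝔪.add_mem h (𝔪.mul_mem_left _ ?_)
      have : q - 1 = (q - 2) + 1 := by omega
      rw [this, pow_succ]
      exact 𝔪.mul_mem_left _ hz𝔪
    exact hs₂ (h𝔪.mem_of_pow_mem _ h6)
  refine hz.of_mul_unit_mul hle hu𝔪 hx𝔪 (s := s₂ ^ q) ?_
  have e : s₂ ^ q * x - z * u =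
      (s₂ ^ q * x - z * u - s₂ ^ q * algebraMap R B r) + s₂ ^ q * algebraMap R B r := by ring
  rw [e]
  exact 𝔭.add_mem hkey (𝔭.mul_mem_left _ hr𝔭)

/-- transport of a branch uniformizer along a ring isomorphism. -/
theorem IsBranchUniformizer.map_ringEquiv {B' : Type*} [CommRing B'] (W : B ≃+* B')
    {𝔭 𝔪 : Ideal B} {z : B} (hz : IsBranchUniformizer 𝔭 𝔪 z) :
    IsBranchUniformizer (𝔭.comap (W.symm : B' →+* B)) (𝔪.comap (W.symm : B' →+* B)) (W z) where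
  mem := by
    rw [Ideal.mem_comap, RingEquiv.coe_toRingHom, RingEquiv.symm_apply_apply]
    exact hz.mem
  notMem := by
    rw [Ideal.mem_comap, RingEquiv.coe_toRingHom, RingEquiv.symm_apply_apply]
    exact hz.notMem
  gen := by
    intro w hw
    rw [Ideal.mem_comap, RingEquiv.coe_toRingHom] at hw
    obtain ⟨a, s, hs, has⟩ := hz.gen (W.symm w) hw
    refine ⟨W a, W s, ?_, ?_⟩
    · rw [Ideal.mem_comap, RingEquiv.coe_toRingHom, RingEquiv.symm_apply_apply]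
      exact hs
    · rw [Ideal.mem_comap, RingEquiv.coe_toRingHom, map_sub, map_mul, map_mul,
        RingEquiv.symm_apply_apply, RingEquiv.symm_apply_apply, RingEquiv.symm_apply_apply]
      exact has

/-- **the node data of a chart with a component-swapping automorphism**: let `W` be a ring
automorphism of the chart `B` with `W 𝔭∞ = 𝔭0`, `W 𝔭0 = 𝔭∞`, let `t ∈ B` with
`W t ≡ t ^ q` modulo `𝔭∞` (`q` the residue characteristic), and suppose that at every node `𝔪`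
the residue field consists of constants and `t - a` is a branch uniformizer of `𝔭∞` for a constant
`a`.  Then at every node, `x := t - (W⁻¹ t) ^ q ∈ 𝔭0` is a branch uniformizer of `𝔭∞` and
`y := W t - t ^ q ∈ 𝔭∞` is a branch uniformizer of `𝔭0`. -/
theorem exists_node_uniformizers {R : Type*} [CommRing R] [Algebra R B]
    {𝔭inf 𝔭0 : Ideal B} [hinfP : 𝔭inf.IsPrime] (W : B ≃+* B)
    (hW0 : ∀ b : B, W b ∈ 𝔭0 ↔ b ∈ 𝔭inf) (hWinf : ∀ b : B, W b ∈ 𝔭inf ↔ b ∈ 𝔭0)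
    {q : ℕ} (hq : q.Prime) (hq𝔭 : (q : B) ∈ 𝔭inf) (t : B) (hy : W t - t ^ q ∈ 𝔭inf)
    (hnodes : ∀ 𝔪 : Ideal B, 𝔪.IsMaximal → 𝔭inf ≤ 𝔪 → 𝔭0 ≤ 𝔪 →
      (∀ b : B, ∃ r : R, b - algebraMap R B r ∈ 𝔪) ∧
      (∀ r : R, algebraMap R B r ∈ 𝔪 → algebraMap R B r ∈ 𝔭inf) ∧
      ∃ a : R, IsBranchUniformizer 𝔭inf 𝔪 (t - algebraMap R B a))
    (𝔪 : Ideal B) (h𝔪 : 𝔪.IsMaximal) (hinf : 𝔭inf ≤ 𝔪) (h0 : 𝔭0 ≤ 𝔪) :
    IsBranchUniformizer 𝔭inf 𝔪 (t - (W.symm t) ^ q) ∧ t - (W.symm t) ^ q ∈ 𝔭0 ∧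
      IsBranchUniformizer 𝔭0 𝔪 (W t - t ^ q) ∧ W t - t ^ q ∈ 𝔭inf := by
  have hWx : W (t - (W.symm t) ^ q) = W t - t ^ q := by
    rw [map_sub, map_pow, RingEquiv.apply_symm_apply]
  have hx0 : t - (W.symm t) ^ q ∈ 𝔭0 := by
    rw [← hWinf, hWx]; exact hy
  -- the first branch, at any node
  have hfirst : ∀ 𝔫 : Ideal B, 𝔫.IsMaximal → 𝔭inf ≤ 𝔫 → 𝔭0 ≤ 𝔫 →
      IsBranchUniformizer 𝔭inf 𝔫 (t - (W.symm t) ^ q) := by
    intro 𝔫 h𝔫 hinf' h0'
    obtain ⟨hres, hR, a, ha⟩ := hnodes 𝔫 h𝔫 hinf' h0'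
    haveI := h𝔫.isPrime
    exact IsBranchUniformizer.of_sub_pow hinf' hq hq𝔭 hres hR ha (h0' hx0)
      (by rw [sub_self]; exact 𝔭inf.zero_mem)
  refine ⟨hfirst 𝔪 h𝔪 hinf h0, hx0, ?_, hy⟩
  -- the second branch: transport from the node `W⁻¹ 𝔪`
  set 𝔫 : Ideal B := 𝔪.comap (W : B →+* B) with h𝔫
  have h𝔫max : 𝔫.IsMaximal := Ideal.comap_isMaximal_of_surjective (W : B →+* B) W.surjective
  have h1 : 𝔭inf ≤ 𝔫 := fun b hb => h0 ((hW0 b).mpr hb)
  have h2 : 𝔭0 ≤ 𝔫 := fun b hb => hinf ((hWinf b).mpr hb)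
  have h3 := (hfirst 𝔫 h𝔫max h1 h2).map_ringEquiv W
  rw [hWx] at h3
  have e1 : 𝔭inf.comap (W.symm : B →+* B) = 𝔭0 := by
    ext b
    rw [Ideal.mem_comap, RingEquiv.coe_toRingHom, ← hW0, RingEquiv.apply_symm_apply]
  have e2 : 𝔫.comap (W.symm : B →+* B) = 𝔪 := by
    ext b
    rw [h𝔫, Ideal.mem_comap, Ideal.mem_comap, RingEquiv.coe_toRingHom, RingEquiv.coe_toRingHom,
      RingEquiv.apply_symm_apply]
  rw [e1, e2] at h3
  exact h3

end Abs

end Fermat.Agent.SS
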