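/-
(SS-q) MODEL-GLOBAL [F] nodes — helper8 — the `node` uniformizers of the chart `j` from the
interface structure `SSModel` (no Atkin–Lehner automorphism of the host): at a crossing point `𝔪`,
`x := A t - s' ^ q ∈ 𝔭0` is a branch uniformizer of `𝔭∞` and `y := B t - (A t) ^ q ∈ 𝔭∞` is a branch
uniformizer of `𝔭0`, given the branch uniformizers `A t - a`, `B t - b` (from the level-`M` chart).
-/
import Mathlib
import Fermat.Agent.SS.NODE_helper8_Abs
import Fermat.Agent.SS.MODEL_helper7_Iface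
import Fermat.Agent.SS.VERT_helper4_Closed

set_option autoImplicit false
set_option linter.unusedSectionVars false
set_option linter.style.haveILetI false

namespace Fermat.Agent.SS

open Fermat.Agent.JA

section Generic

variable {R : Type*} [CommRing R] {B : Type*} [CommRing B] [Algebra R B]

/-- if `z · s` is a branch uniformizer with `s ∉ 𝔪`, so is `z`. -/
theorem IsBranchUniformizer.of_mul_right {𝔭 𝔪 : Ideal B} [h𝔪 : 𝔪.IsPrime] {z s y : B}
    (hs : s ∉ 𝔪) (hy : z * s = y) (h : IsBranchUniformizer 𝔭 𝔪 y) : IsBranchUniformizer 𝔭 𝔪 z where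
  mem := by
    have := h.mem
    rw [← hy] at this
    exact (h𝔪.mem_or_mem this).resolve_right hs
  notMem := fun hz => h.notMem (by rw [← hy]; exact 𝔭.mul_mem_right _ hz)
  gen := by
    intro w hw
    obtain ⟨a, s₁, hs₁, has⟩ := h.gen w hw
    refine ⟨a * s, s₁, hs₁, ?_⟩
    have : s₁ * w - a * s * z = s₁ * w - a * y := by rw [← hy]; ring
    rw [this]; exact has

/-- **the two node uniformizers from the Kronecker congruences** (symmetric form). -/
theorem exists_node_uniformizers_of_kron {𝔭inf 𝔭0 𝔪 : Ideal B} [hinfP : 𝔭inf.IsPrime]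
    [h0P : 𝔭0.IsPrime] [h𝔪 : 𝔪.IsPrime] (hinf : 𝔭inf ≤ 𝔪) (h0 : 𝔭0 ≤ 𝔪)
    {q : ℕ} (hq : q.Prime) (hqinf : (q : B) ∈ 𝔭inf) (hq0 : (q : B) ∈ 𝔭0)
    (hres : ∀ b : B, ∃ r : R, b - algebraMap R B r ∈ 𝔪)
    (hRinf : ∀ r : R, algebraMap R B r ∈ 𝔪 → algebraMap R B r ∈ 𝔭inf)
    (hR0 : ∀ r : R, algebraMap R B r ∈ 𝔪 → algebraMap R B r ∈ 𝔭0)
    {τA τB s' : B} (hx : τA - s' ^ q ∈ 𝔭0) (hy : τB - τA ^ q ∈ 𝔭inf)
    {a b : R} {yA sA yB sB : B}
    (hsA : sA ∉ 𝔪) (hyA : (τA - algebraMap R B a) * sA = yA) (hbrA : IsBranchUniformizer 𝔭inf 𝔪 yA)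
    (hsB : sB ∉ 𝔪) (hyB : (τB - algebraMap R B b) * sB = yB) (hbrB : IsBranchUniformizer 𝔭0 𝔪 yB) :
    IsBranchUniformizer 𝔭inf 𝔪 (τA - s' ^ q) ∧ IsBranchUniformizer 𝔭0 𝔪 (τB - τA ^ q) := by
  constructor
  · exact IsBranchUniformizer.of_sub_pow hinf hq hqinf hres hRinf
      (IsBranchUniformizer.of_mul_right hsA hyA hbrA) (h0 hx) (by rw [sub_self]; exact 𝔭inf.zero_mem)
  · exact IsBranchUniformizer.of_sub_pow h0 hq hq0 hres hR0
      (IsBranchUniformizer.of_mul_right hsB hyB hbrB) (hinf hy) (by rw [sub_self]; exact 𝔭0.zero_mem)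

end Generic

section Integral

variable {R : Type*} [CommRing R]

/-- integrality over `R[y]` is transported by ring homomorphisms over `R`. -/
theorem isIntegral_adjoin_map {S T : Type*} [CommRing S] [CommRing T] [Algebra R S] [Algebra R T]
    (φ : S →+* T) (hφ : ∀ r : R, φ (algebraMap R S r) = algebraMap R T r) {y x : S}
    (h : IsIntegral ↥(Algebra.adjoin R {y}) x) : IsIntegral ↥(Algebra.adjoin R {φ y}) (φ x) := by
  set φ' : S →ₐ[R] T := { φ with commutes' := hφ } with hφ'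
  have hmem : ∀ s : ↥(Algebra.adjoin R {y}), φ' (s : S) ∈ Algebra.adjoin R {φ y} := by
    intro s
    have h1 : φ' (s : S) ∈ (Algebra.adjoin R {y}).map φ' := ⟨s, s.2, rfl⟩
    rw [AlgHom.map_adjoin, Set.image_singleton] at h1
    exact h1
  set φ₀ : ↥(Algebra.adjoin R {y}) →ₐ[R] ↥(Algebra.adjoin R {φ y}) :=
    (φ'.comp (Algebra.adjoin R {y}).val).codRestrict (Algebra.adjoin R {φ y}) hmem
  exact IsIntegral.map_of_comp_eq (φ₀ : ↥(Algebra.adjoin R {y}) →+* ↥(Algebra.adjoin R {φ y})) φ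
    (RingHom.ext fun s => rfl) h

variable {K : Type*} [Field K] [Algebra R K]
  {E : Type*} [Field E] [Algebra K E] [Algebra R E] [IsScalarTower R K E]

/-- an element integral over a subalgebra contained in the chart lies in the chart. -/
theorem mem_chartOne_of_isIntegral_subalgebra (u : K) (S : Subalgebra R E)
    (hS : S ≤ chartOne R E u) {x : E} (hx : IsIntegral ↥S x) : x ∈ chartOne R E u := by
  set A := Algebra.adjoin R {u} with hA
  set C := integralClosure ↥A E with hC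
  -- `x` is integral over `C`
  have hSC : ∀ s : ↥S, (s : E) ∈ C := fun s => hS s.2
  set φ₀ : ↥S →+* ↥C := (S.val : ↥S →+* E).codRestrict C.toSubring hSC with hφ₀
  have h1 : IsIntegral ↥C x := by
    have := IsIntegral.map_of_comp_eq φ₀ (RingHom.id E) (RingHom.ext fun s => rfl) hx
    exact this
  -- `C` is integral over `A`
  haveI : Algebra.IsIntegral ↥A ↥C := inferInstance
  exact isIntegral_trans (R := ↥A) (A := ↥C) x h1

/-- an element integral over `R[y]`, `y` in the chart, lies in the chart. -/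
theorem mem_chartOne_of_isIntegral_adjoin (u : K) {y x : E} (hy : y ∈ chartOne R E u)
    (hx : IsIntegral ↥(Algebra.adjoin R {y}) x) : x ∈ chartOne R E u :=
  mem_chartOne_of_isIntegral_subalgebra u (Algebra.adjoin R {y})
    (Algebra.adjoin_le (Set.singleton_subset_iff.mpr hy)) hx

end Integral

section Model

variable {R : Type*} [CommRing R] [IsDomain R] [IsDiscreteValuationRing R] [CharZero R]
  {K₁ : Type*} [Field K₁] [Algebra R K₁] [IsFractionRing R K₁]
  {KM : Type*} [Field KM] [Algebra K₁ KM] [Algebra R KM] [IsScalarTower R K₁ KM]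
  {EM : Type*} [Field EM] [Algebra KM EM] [Algebra K₁ EM] [IsScalarTower K₁ KM EM] [Algebra R EM]
  [IsScalarTower R KM EM]
  {KN : Type*} [Field KN] [Algebra K₁ KN] [Algebra R KN] [IsScalarTower R K₁ KN]
  {EN : Type*} [Field EN] [Algebra KN EN] [Algebra K₁ EN] [IsScalarTower K₁ KN EN] [Algebra R EN]
  [IsScalarTower R KN EN] [FiniteDimensional KN EN]
  {π : R} {q n : ℕ} {S : Finset R} {t : KM} {jM : EM} {j : KN} {A B : EM →+* EN}
  {VM : ValuationSubring EM} {Winf W0 : ValuationSubring EN}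

/-- `A t` lies in the chart `j` of level `N`. -/
theorem SSModel.A_t_mem (h : SSModel K₁ π q n S t jM j A B VM Winf W0) :
    A (algebraMap KM EM t) ∈ chartOne R EN j := by
  have h1 := isIntegral_adjoin_map A h.A_algebraMap h.t_int
  rw [h.A_j] at h1
  exact mem_chartOne_of_isIntegral_adjoin j (algebraMap_coord_mem_chartOne j) h1

/-- everything integral over `R[j_q]` lies in the chart `j` as soon as `j_q` does. -/
theorem SSModel.mem_chartOne_of_isIntegral_jq (_h : SSModel K₁ π q n S t jM j A B VM Winf W0)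
    (hjq : B jM ∈ chartOne R EN j) {x : EN} (hx : IsIntegral ↥(Algebra.adjoin R {B jM}) x) :
    x ∈ chartOne R EN j :=
  mem_chartOne_of_isIntegral_adjoin j hjq hx

/-- `B t` lies in the chart `j` of level `N` as soon as `j_q` does. -/
theorem SSModel.B_t_mem (h : SSModel K₁ π q n S t jM j A B VM Winf W0)
    (hjq : B jM ∈ chartOne R EN j) : B (algebraMap KM EM t) ∈ chartOne R EN j :=
  h.mem_chartOne_of_isIntegral_jq hjq (isIntegral_adjoin_map B h.B_algebraMap h.t_int)

/-- constants in a maximal ideal of the chart containing `π` lie in `π · chart`. -/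
theorem algebraMap_mem_span_of_mem_maximal (hπ : Irreducible π)
    (𝔪 : Ideal ↥(chartOne R EN j)) [h𝔪 : 𝔪.IsMaximal] {r : R}
    (hr : algebraMap R ↥(chartOne R EN j) r ∈ 𝔪) :
    ∃ c : R, r = π * c := by
  by_contra hcon
  have hr' : r ∉ IsLocalRing.maximalIdeal R := by
    rw [hπ.maximalIdeal_eq, Ideal.mem_span_singleton]
    exact hcon
  have hunit : IsUnit r := by
    by_contra hnu
    exact hr' ((IsLocalRing.mem_maximalIdeal r).mpr hnu)
  exact h𝔪.ne_top (Ideal.eq_top_of_isUnit_mem _ hr (hunit.map _))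

/-- **[F], chart `j`**: the node uniformizers at a crossing point of the chart `j` from the model
data, given `j_q ∈ chart` and the two branch uniformizers `A t - a`, `B t - b` (up to units at
`𝔪`) coming from the level-`M` chart. -/
theorem SSModel.exists_node_uniformizers (h : SSModel K₁ π q n S t jM j A B VM Winf W0)
    (hπ : Irreducible π) [IsAlgClosed (IsLocalRing.ResidueField R)]
    (hjq : B jM ∈ chartOne R EN j)
    (𝔪 : Ideal ↥(chartOne R EN j)) [h𝔪 : 𝔪.IsMaximal]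
    (hinf : sheetIdeal j Winf h.two.chart_le_inf ≤ 𝔪)
    (h0 : sheetIdeal j W0 h.two.chart_le_zero ≤ 𝔪)
    (hbrA : ∃ (a : R) (y s : ↥(chartOne R EN j)), s ∉ 𝔪 ∧
      (A (algebraMap KM EM t) - algebraMap R EN a) * (s : EN) = (y : EN) ∧
      IsBranchUniformizer (sheetIdeal j Winf h.two.chart_le_inf) 𝔪 y)
    (hbrB : ∃ (b : R) (y s : ↥(chartOne R EN j)), s ∉ 𝔪 ∧
      (B (algebraMap KM EM t) - algebraMap R EN b) * (s : EN) = (y : EN) ∧
      IsBranchUniformizer (sheetIdeal j W0 h.two.chart_le_zero) 𝔪 y) :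
    ∃ x y : ↥(chartOne R EN j),
      IsBranchUniformizer (sheetIdeal j Winf h.two.chart_le_inf) 𝔪 x ∧
      x ∈ sheetIdeal j W0 h.two.chart_le_zero ∧
      IsBranchUniformizer (sheetIdeal j W0 h.two.chart_le_zero) 𝔪 y ∧
      y ∈ sheetIdeal j Winf h.two.chart_le_inf := by
  haveI := h𝔪.isPrime
  obtain ⟨s', -, hs'int, -, hs'0, -⟩ := h.kron_t_zero
  obtain ⟨a, yA, sA, hsA, hyA, hbrA⟩ := hbrA
  obtain ⟨b, yB, sB, hsB, hyB, hbrB⟩ := hbrB
  set τA : ↥(chartOne R EN j) := ⟨A (algebraMap KM EM t), h.A_t_mem⟩ with hτA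
  set τB : ↥(chartOne R EN j) := ⟨B (algebraMap KM EM t), h.B_t_mem hjq⟩ with hτB
  set σ' : ↥(chartOne R EN j) := ⟨s', h.mem_chartOne_of_isIntegral_jq hjq hs'int⟩ with hσ'
  have hπ𝔪 : algebraMap R ↥(chartOne R EN j) π ∈ 𝔪 := hinf (IsTwoSheet.pi_mem_inf (K₁ := K₁) h.two hπ)
  have hres := exists_sub_mem_of_isMaximal_chartOne (K₁ := K₁) hπ h.j_transcendental h.j_adjoin
    𝔪 hπ𝔪
  have hRinf : ∀ r : R, algebraMap R ↥(chartOne R EN j) r ∈ 𝔪 →
      algebraMap R ↥(chartOne R EN j) r ∈ sheetIdeal j Winf h.two.chart_le_inf := by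
    intro r hr
    obtain ⟨c, rfl⟩ := algebraMap_mem_span_of_mem_maximal hπ 𝔪 hr
    rw [map_mul]
    exact Ideal.mul_mem_right _ _ (IsTwoSheet.pi_mem_inf (K₁ := K₁) h.two hπ)
  have hR0 : ∀ r : R, algebraMap R ↥(chartOne R EN j) r ∈ 𝔪 →
      algebraMap R ↥(chartOne R EN j) r ∈ sheetIdeal j W0 h.two.chart_le_zero := by
    intro r hr
    obtain ⟨c, rfl⟩ := algebraMap_mem_span_of_mem_maximal hπ 𝔪 hr
    rw [map_mul]
    exact Ideal.mul_mem_right _ _ (IsTwoSheet.pi_mem_zero (K₁ := K₁) h.two hπ)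
  obtain ⟨c, hc⟩ := Ideal.mem_span_singleton.mp h.q_mem
  have hqinf : ((q : ℕ) : ↥(chartOne R EN j)) ∈ sheetIdeal j Winf h.two.chart_le_inf := by
    have : ((q : ℕ) : ↥(chartOne R EN j)) = algebraMap R ↥(chartOne R EN j) π * algebraMap R ↥(chartOne R EN j) c := by
      rw [← map_mul, ← hc, map_natCast]
    rw [this]
    exact Ideal.mul_mem_right _ _ (IsTwoSheet.pi_mem_inf (K₁ := K₁) h.two hπ)
  have hq0 : ((q : ℕ) : ↥(chartOne R EN j)) ∈ sheetIdeal j W0 h.two.chart_le_zero := by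
    have : ((q : ℕ) : ↥(chartOne R EN j)) = algebraMap R ↥(chartOne R EN j) π * algebraMap R ↥(chartOne R EN j) c := by
      rw [← map_mul, ← hc, map_natCast]
    rw [this]
    exact Ideal.mul_mem_right _ _ (IsTwoSheet.pi_mem_zero (K₁ := K₁) h.two hπ)
  have hx : τA - σ' ^ q ∈ sheetIdeal j W0 h.two.chart_le_zero := by
    rw [mem_sheetIdeal_iff]
    exact hs'0
  have hy : τB - τA ^ q ∈ sheetIdeal j Winf h.two.chart_le_inf := by
    rw [mem_sheetIdeal_iff]
    exact h.kron_t_inf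
  have hyA' : (τA - algebraMap R ↥(chartOne R EN j) a) * sA = yA := by
    apply Subtype.ext
    rw [← hyA]
    rfl
  have hyB' : (τB - algebraMap R ↥(chartOne R EN j) b) * sB = yB := by
    apply Subtype.ext
    rw [← hyB]
    rfl
  obtain ⟨h1, h2⟩ := exists_node_uniformizers_of_kron hinf h0 h.q_prime hqinf hq0 hres hRinf hR0
    hx hy hsA hyA' hbrA hsB hyB' hbrB
  exact ⟨_, _, h1, hx, h2, hy⟩

end Model

end Fermat.Agent.SS
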