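import Mathlib
import Fermat.Agent.GR.INV_helper8_Main
import Fermat.Agent.GR.DESC_helper3_Laurent
import Fermat.Prelude.Def_ModularCurve_ModularUnit
import Fermat.Agent.JA.G1OMEGA_helper5_Desc
import Fermat.Agent.X0N.FinPt_helper8_Count
import Fermat.Agent.JA.ES_helper4_Value

set_option autoImplicit false
set_option linter.unusedSectionVars false
set_option linter.style.haveILetI false

open Complex Filter Topology Set ModularForm CongruenceSubgroup
open UpperHalfPlane hiding I
open Fermat.Agent.RatStr ModularCurve AlgebraicCurve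
open scoped MatrixGroups Manifold

namespace Fermat.Agent.SS

open Fermat.Agent.X0N HahnSeries

local notation "Δ" => ModularForm.discriminant

/-! ### the Laurent expansion of `Δ` -/

theorem isHolBdd_discriminant : IsHolBdd 1 (Δ : ℍ → ℂ) := by
  have h : (Δ : ℍ → ℂ) = qf 1 * etaProdFun ^ 24 := by
    ext z
    exact discriminant_eq_qf_mul z
  rw [h]
  exact (isHolBdd_qf one_pos).mul (isHolBdd_etaProdFun.pow 24)

theorem isMeroInfty_discriminant : IsMeroInfty 1 (Δ : ℍ → ℂ) :=
  ⟨0, by simpa using isHolBdd_discriminant⟩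

theorem qExpansion_etaProdFun_pow (n : ℕ) :
    qExpansion 1 (etaProdFun ^ n) = (qExpansion 1 etaProdFun) ^ n := by
  induction n with
  | zero => simpa using qExpansion_one 1
  | succ n ih =>
    rw [pow_succ, qExpansion_mul' one_pos (isHolBdd_etaProdFun.pow n) isHolBdd_etaProdFun, ih,
      pow_succ]

/-- the Laurent expansion of `Δ` is the Prelude series `deltaSeries`. -/
theorem laurent_discriminant :
    laurent 1 (Δ : ℍ → ℂ) = coeffEmb ℂ deltaSeries := by
  have h : (Δ : ℍ → ℂ) = qf 1 * etaProdFun ^ 24 := by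
    ext z
    exact discriminant_eq_qf_mul z
  have hq : IsMeroInfty 1 (qf 1) := ⟨0, by simpa using isHolBdd_qf one_pos⟩
  have he : IsMeroInfty 1 (etaProdFun ^ 24) :=
    ⟨0, by simpa using isHolBdd_etaProdFun.pow 24⟩
  rw [h, laurent_mul one_pos hq he, laurent_qf one_pos,
    laurent_of_isHolBdd one_pos (isHolBdd_etaProdFun.pow 24), qExpansion_etaProdFun_pow,
    qExpansion_etaProdFun]
  rw [deltaSeries, coeffEmb, map_mul, coeffMap_single, ModularCurve.coeffMap_ofPowerSeries,
    (algebraMap ℚ ℂ).map_one]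
  have hmm : (PowerSeries.map (algebraMap ℚ ℂ)) dedekindEtaUnitQ =
      (PowerSeries.map (Int.castRingHom ℂ)) etaProd ^ 24 := by
    unfold dedekindEtaUnitQ dedekindEtaUnit
    rw [map_pow, map_pow]
    congr 1
  rw [hmm]

/-! ### `Δ(dτ)` -/

variable (d e : ℕ) [NeZero d] [NeZero e]

theorem isMeroInfty_dilate_discriminant : IsMeroInfty 1 (dilate d (Δ : ℍ → ℂ)) :=
  isMeroInfty_dilate (NeZero.ne d) isMeroInfty_discriminant

/-- `τ ↦ Δ(dτ)` as a holomorphic function. -/
noncomputable def deltaHol : HolH := ⟨dilate d (Δ : ℍ → ℂ), (isMeroInfty_dilate_discriminant d).hol⟩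

@[simp] theorem deltaHol_apply (τ : ℍ) :
    (deltaHol d : ℍ → ℂ) τ = Δ (heckeDiagMatrix d • τ) := rfl

theorem deltaHol_apply_ne_zero (τ : ℍ) : (deltaHol d : ℍ → ℂ) τ ≠ 0 := by
  rw [deltaHol_apply]
  exact discriminant_ne_zero _

theorem deltaHol_ne_zero : deltaHol d ≠ 0 := fun h =>
  deltaHol_apply_ne_zero d UpperHalfPlane.I (by rw [h]; rfl)

theorem laurent_dilate_discriminant :
    laurent 1 (dilate d (Δ : ℍ → ℂ)) = coeffEmb ℂ (deltaSeriesN d) := by
  rw [laurent_dilate d isMeroInfty_discriminant, laurent_discriminant, qExpand_coeffEmb]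
  rfl

/-- the series `Δ(q^d)/Δ(q^e)`. -/
noncomputable def deltaRatioSeries : LaurentSeries ℚ := deltaSeriesN d * (deltaSeriesN e)⁻¹

theorem modularUnitSeries_eq_deltaRatioSeries : modularUnitSeries e = deltaRatioSeries 1 e := by
  rw [modularUnitSeries, deltaRatioSeries, deltaSeriesN_one]

/-- the meromorphic function `Δ(dτ)/Δ(eτ)`. -/
noncomputable def deltaRatioM : MerH := MerH.ofHol (deltaHol d) / MerH.ofHol (deltaHol e)

theorem deltaRatioM_ne_zero : deltaRatioM d e ≠ 0 :=
  div_ne_zero (MerH.ofHol_ne_zero (deltaHol_ne_zero d)) (MerH.ofHol_ne_zero (deltaHol_ne_zero e))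

/-- `Δ(dτ)/Δ(eτ)` has neither zeros nor poles on `ℍ`. -/
theorem ordAt_deltaRatioM (τ : ℍ) : MerH.ordAt τ (deltaRatioM d e) = 0 := by
  rw [deltaRatioM, MerH.ordAt_div_ofHol (deltaHol_ne_zero d) (deltaHol_ne_zero e)]
  have h1 : HolH.ord τ (deltaHol d) = 0 :=
    (HolH.ord_eq_zero_iff _ _).mpr (Or.inl (deltaHol_apply_ne_zero d τ))
  have h2 : HolH.ord τ (deltaHol e) = 0 :=
    (HolH.ord_eq_zero_iff _ _).mpr (Or.inl (deltaHol_apply_ne_zero e τ))
  rw [h1, h2]
  simp

theorem coeffEmb_deltaSeriesN_mem_convSeries :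
    coeffEmb ℂ (deltaSeriesN d) ∈ convSeries (RingHom.id ℂ) := by
  rw [mem_convSeries]
  refine ⟨dilate d (Δ : ℍ → ℂ), isMeroInfty_dilate_discriminant d, ?_⟩
  rw [laurent_dilate_discriminant]
  ext n
  simp

theorem toHol_coeffEmb_deltaSeriesN :
    convSeries.toHol (RingHom.id ℂ) ⟨_, coeffEmb_deltaSeriesN_mem_convSeries d⟩ = deltaHol d := by
  apply Subtype.ext
  refine convSeries.toHol_mk (RingHom.id ℂ) (isMeroInfty_dilate_discriminant d) ?_
  rw [laurent_dilate_discriminant]
  ext n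
  simp

theorem coeffEmb_deltaRatioSeries_mem_merSeries :
    coeffEmb ℂ (deltaRatioSeries d e) ∈ merSeries (RingHom.id ℂ) := by
  rw [deltaRatioSeries, map_mul, map_inv₀]
  exact (merSeries (RingHom.id ℂ)).mul_mem
    (convSeries_le_merSeries _ (coeffEmb_deltaSeriesN_mem_convSeries d))
    ((merSeries (RingHom.id ℂ)).inv_mem
      (convSeries_le_merSeries _ (coeffEmb_deltaSeriesN_mem_convSeries e)))

/-- the realisation of the series `Δ(q^d)/Δ(q^e)` is the function `Δ(dτ)/Δ(eτ)`. -/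
theorem real_coeffEmb_deltaRatioSeries :
    merSeries.real (RingHom.id ℂ)
      ⟨coeffEmb ℂ (deltaRatioSeries d e), coeffEmb_deltaRatioSeries_mem_merSeries d e⟩ =
      deltaRatioM d e := by
  have h : (⟨coeffEmb ℂ (deltaRatioSeries d e), coeffEmb_deltaRatioSeries_mem_merSeries d e⟩ :
      merSeries (RingHom.id ℂ)) =
      ⟨_, convSeries_le_merSeries _ (coeffEmb_deltaSeriesN_mem_convSeries d)⟩ *
      (⟨_, convSeries_le_merSeries _ (coeffEmb_deltaSeriesN_mem_convSeries e)⟩ :
        merSeries (RingHom.id ℂ))⁻¹ := by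
    apply Subtype.ext
    show coeffEmb ℂ (deltaSeriesN d * (deltaSeriesN e)⁻¹) = _
    rw [map_mul, map_inv₀]
    rfl
  rw [h, map_mul, map_inv₀,
    merSeries.real_of_mem_convSeries _ (coeffEmb_deltaSeriesN_mem_convSeries d),
    merSeries.real_of_mem_convSeries _ (coeffEmb_deltaSeriesN_mem_convSeries e),
    toHol_coeffEmb_deltaSeriesN, toHol_coeffEmb_deltaSeriesN, deltaRatioM, div_eq_mul_inv]

/-! ### modularity and membership in the function field -/

section Mem

variable {N : ℕ} [NeZero N]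

/-- `Δ ∣[12] diag(d,1)` as a holomorphic function. -/
noncomputable def deltaSlashHol : HolH :=
  ⟨(Δ : ℍ → ℂ) ∣[(12 : ℤ)] alphaN d, (isMF_slash_alphaN d isMF_discriminant).holo⟩

theorem deltaSlashHol_eq : deltaSlashHol d = HolH.const ((d : ℂ) ^ 11) * deltaHol d := by
  apply Subtype.ext
  funext z
  show ((Δ : ℍ → ℂ) ∣[(12 : ℤ)] alphaN d) z = (d : ℂ) ^ 11 * dilate d (Δ : ℍ → ℂ) z
  rw [slash_alphaN_apply]
  have e2 : (d : ℂ) ^ ((12 : ℤ) - 1) = (d : ℂ) ^ 11 := by norm_num
  rw [e2, mul_comm]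

theorem deltaSlashHol_ne_zero : deltaSlashHol d ≠ 0 := by
  rw [deltaSlashHol_eq]
  refine mul_ne_zero ?_ (deltaHol_ne_zero d)
  intro h
  have h1 := HolH.const_injective (h.trans (map_zero _).symm)
  exact pow_ne_zero 11 (Nat.cast_ne_zero.mpr (NeZero.ne d)) h1

theorem isModFun_deltaRatioM (hd : d ∣ N) (he : e ∣ N) :
    IsModFun (Gamma0 N) (deltaRatioM d e) := by
  have hg : IsMF (Gamma0 N) 12 ((deltaSlashHol d : HolH) : ℍ → ℂ) :=
    (isMF_slash_alphaN d isMF_discriminant).mono (Gamma0_le_of_dvd hd)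
  have hh : IsMF (Gamma0 N) 12 ((deltaSlashHol e : HolH) : ℍ → ℂ) :=
    (isMF_slash_alphaN e isMF_discriminant).mono (Gamma0_le_of_dvd he)
  have h1 : IsModFun (Gamma0 N) (MerH.ofHol (deltaSlashHol d) / MerH.ofHol (deltaSlashHol e)) :=
    ⟨12, deltaSlashHol d, deltaSlashHol e, hg, hh, deltaSlashHol_ne_zero e, rfl⟩
  have hdC : ((d : ℂ) ^ 11) ≠ 0 := pow_ne_zero 11 (Nat.cast_ne_zero.mpr (NeZero.ne d))
  have heC : ((e : ℂ) ^ 11) ≠ 0 := pow_ne_zero 11 (Nat.cast_ne_zero.mpr (NeZero.ne e))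
  have h2 : deltaRatioM d e = algebraMap ℂ MerH ((e : ℂ) ^ 11 / (d : ℂ) ^ 11) *
      (MerH.ofHol (deltaSlashHol d) / MerH.ofHol (deltaSlashHol e)) := by
    rw [deltaSlashHol_eq, deltaSlashHol_eq, map_mul, map_mul, deltaRatioM,
      MerH.algebraMap_eq_const, map_div₀]
    have hd' : MerH.ofHol (HolH.const ((d : ℂ) ^ 11)) = MerH.const ((d : ℂ) ^ 11) := rfl
    have he' : MerH.ofHol (HolH.const ((e : ℂ) ^ 11)) = MerH.const ((e : ℂ) ^ 11) := rfl
    rw [hd', he']
    have hd0 : MerH.const ((d : ℂ) ^ 11) ≠ 0 := fun h =>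
      hdC (MerH.const_injective (h.trans (map_zero _).symm))
    have he0 : MerH.const ((e : ℂ) ^ 11) ≠ 0 := fun h =>
      heC (MerH.const_injective (h.trans (map_zero _).symm))
    have hD := MerH.ofHol_ne_zero (deltaHol_ne_zero d)
    have hE := MerH.ofHol_ne_zero (deltaHol_ne_zero e)
    field_simp
  rw [h2]
  exact (isModFun_algebraMap _).mul h1

/-- **(U-a) over `ℂ`**: the series `Δ(q^d)/Δ(q^e)` lies in the function field of `X₀(N)`. -/
theorem coeffEmb_deltaRatioSeries_mem_complex (hd : d ∣ N) (he : e ∣ N) :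
    coeffEmb ℂ (deltaRatioSeries d e) ∈ laurentBaseChange ℂ (modularFunctionFieldFull N) := by
  obtain ⟨f, hf⟩ := Fermat.Agent.GR.mem_range_realNC_of_isModFun N (isModFun_deltaRatioM d e hd he)
  rw [realNC_apply] at hf
  have h1 : realN (RingHom.id ℂ) N f = merSeries.real (RingHom.id ℂ) (inclN (RingHom.id ℂ) N f) :=
    rfl
  rw [h1, ← real_coeffEmb_deltaRatioSeries d e] at hf
  have h2 := merSeries.real_injective (RingHom.id ℂ) hf
  have h3 : (f : LaurentSeries ℂ) = coeffEmb ℂ (deltaRatioSeries d e) :=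
    congrArg Subtype.val h2
  rw [← h3]
  exact f.2

/-- **(U-a)**: the series `Δ(q^d)/Δ(q^e)` lies in the function field of `X₀(N)` over any field. -/
theorem coeffEmb_deltaRatioSeries_mem (k : Type*) [Field k] [Algebra ℚ k]
    (hd : d ∣ N) (he : e ∣ N) :
    coeffEmb k (deltaRatioSeries d e) ∈ laurentBaseChange k (modularFunctionFieldFull N) := by
  have h1 : deltaRatioSeries d e ∈ laurentBaseChange ℚ (modularFunctionFieldFull N) :=
    Fermat.Agent.GR.mem_laurentBaseChange_of_iota_mem' (K := ℚ) (L := ℂ)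
      (modularFunctionFieldFull N) (deltaRatioSeries d e)
      (coeffEmb_deltaRatioSeries_mem_complex d e hd he)
  have h2 := Fermat.Agent.JA.coeffMap_hom_mem_laurentBaseChange (algebraMap ℚ k)
    (modularFunctionFieldFull N) h1
  exact h2

theorem coeffEmb_modularUnitSeries_mem (k : Type*) [Field k] [Algebra ℚ k] {q : ℕ} [NeZero q]
    (hq : q ∣ N) :
    coeffEmb k (modularUnitSeries q) ∈ laurentBaseChange k (modularFunctionFieldFull N) := by
  rw [modularUnitSeries_eq_deltaRatioSeries]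
  exact coeffEmb_deltaRatioSeries_mem 1 q k (one_dvd N) hq

end Mem

/-! ### the elements of the function field and their realisation -/

section Elt

variable (k : Type*) [Field k] [Algebra ℚ k] (N : ℕ) [NeZero N]

/-- `Δ(q^d)/Δ(q^e)` as an element of the function field of `X₀(N)` over `k`. -/
noncomputable def deltaRatio (hd : d ∣ N) (he : e ∣ N) :
    ↥(laurentBaseChange k (modularFunctionFieldFull N)) :=
  ⟨coeffEmb k (deltaRatioSeries d e), coeffEmb_deltaRatioSeries_mem d e k hd he⟩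

@[simp] theorem coe_deltaRatio (hd : d ∣ N) (he : e ∣ N) :
    ((deltaRatio d e k N hd he : ↥(laurentBaseChange k (modularFunctionFieldFull N))) :
      LaurentSeries k) = coeffEmb k (deltaRatioSeries d e) := rfl

theorem deltaSeriesN_ne_zero' : deltaSeriesN d ≠ 0 := deltaSeriesN_ne_zero d

theorem deltaRatioSeries_mul_swap : deltaRatioSeries d e * deltaRatioSeries e d = 1 := by
  rw [deltaRatioSeries, deltaRatioSeries]
  have h1 := deltaSeriesN_ne_zero d
  have h2 := deltaSeriesN_ne_zero e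
  field_simp

theorem deltaRatio_mul_swap (hd : d ∣ N) (he : e ∣ N) :
    deltaRatio d e k N hd he * deltaRatio e d k N he hd = 1 := by
  apply Subtype.ext
  show coeffEmb k (deltaRatioSeries d e) * coeffEmb k (deltaRatioSeries e d) = 1
  rw [← map_mul, deltaRatioSeries_mul_swap, map_one]

theorem deltaRatio_ne_zero (hd : d ∣ N) (he : e ∣ N) : deltaRatio d e k N hd he ≠ 0 := by
  intro h
  have := deltaRatio_mul_swap d e k N hd he
  rw [h, zero_mul] at this
  exact zero_ne_one this

theorem deltaRatio_inv (hd : d ∣ N) (he : e ∣ N) :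
    (deltaRatio d e k N hd he)⁻¹ = deltaRatio e d k N he hd :=
  inv_eq_of_mul_eq_one_right (deltaRatio_mul_swap d e k N hd he)

variable [Algebra k ℂ]

/-- the realisation of `Δ(q^d)/Δ(q^e)` is the function `Δ(dτ)/Δ(eτ)`. -/
theorem realN_deltaRatio (hd : d ∣ N) (he : e ∣ N) :
    realN (algebraMap k ℂ) N (deltaRatio d e k N hd he) = deltaRatioM d e := by
  rw [realN_eq_realI, realI_apply, ← real_coeffEmb_deltaRatioSeries d e]
  congr 1
  apply Subtype.ext
  show coeffMap (algebraMap k ℂ) (coeffEmb k (deltaRatioSeries d e)) = _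
  exact Fermat.Agent.JA.coeffMap_coeffEmb_hom (algebraMap k ℂ) _

end Elt

/-! ### (U-c): no zeros or poles at the finite places -/

section Finite

open Fermat.Agent.FF

variable {k : Type*} [Field k] [Algebra ℚ k] [Algebra k ℂ] [CharZero k] [IsAlgClosed k]
  {N : ℕ} [NeZero N] (c : Coord k ↥(laurentBaseChange k (modularFunctionFieldFull N)))

/-- `Δ(q^d)/Δ(q^e)` is regular at every place at which `j` is regular. -/
theorem deltaRatio_mem_of_jGen_mem (hc : c.x = jGen k N) (hd : d ∣ N) (he : e ∣ N)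
    (v : Place k ↥(laurentBaseChange k (modularFunctionFieldFull N)))
    (hv : jGen k N ∈ v.toValuationSubring) :
    deltaRatio d e k N hd he ∈ v.toValuationSubring := by
  obtain ⟨a, ha⟩ := Fermat.Agent.JA.HasValueAt.exists_of_mem (c.deg_eq_one v) hv
  obtain ⟨τ₀, hτ⟩ := exists_jFun_eq (algebraMap k ℂ a)
  have hint := finPt_isIntegral N c hc a τ₀ hτ (deltaRatio d e k N hd he)
    (deltaRatio_ne_zero d e k N hd he) (by
      intro q
      rw [finOrdFn_ord', realN_deltaRatio, ordAt_deltaRatioM])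
  rcases Fermat.Agent.JA.HasValueAt.iff_ord.mp ha with h0 | h0
  · -- `j` is not constant
    exfalso
    have h1 : c.x = algebraMap k _ a := by rw [hc]; exact sub_eq_zero.mp h0
    exact c.trans (h1 ▸ isAlgebraic_algebraMap a)
  · exact c.mem_of_isIntegral_localSubring (by rw [hc]; exact h0) hint

/-- **(U-c)** `Δ(q^d)/Δ(q^e)` has neither a zero nor a pole at a place at which `j` is regular. -/
theorem ord_deltaRatio_eq_zero (hc : c.x = jGen k N) (hd : d ∣ N) (he : e ∣ N)
    (v : Place k ↥(laurentBaseChange k (modularFunctionFieldFull N)))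
    (hv : jGen k N ∈ v.toValuationSubring) :
    v.ord (deltaRatio d e k N hd he) = 0 := by
  have h1 := deltaRatio_mem_of_jGen_mem d e c hc hd he v hv
  have h2 := deltaRatio_mem_of_jGen_mem e d c hc he hd v hv
  have hne := deltaRatio_ne_zero d e k N hd he
  have hne' := deltaRatio_ne_zero e d k N he hd
  have o1 : 0 ≤ v.ord (deltaRatio d e k N hd he) :=
    (PlaceAux.mem_iff_ord_nonneg' v hne).mp h1
  have o2 : 0 ≤ v.ord (deltaRatio e d k N he hd) :=
    (PlaceAux.mem_iff_ord_nonneg' v hne').mp h2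
  rw [← deltaRatio_inv d e k N hd he, v.ord_inv] at o2
  omega

end Finite

end Fermat.Agent.SS
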