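import Mathlib
import Fermat.Agent.SS.UNIT_helper6_Mem
import Fermat.Agent.JA.BC_helper9_Main
import Fermat.Agent.X0N.S24_helper7_Generic
import Fermat.Agent.FF.PlaceDict

set_option autoImplicit false
set_option linter.unusedSectionVars false
set_option linter.style.haveILetI false

open Complex Filter Topology Set ModularForm CongruenceSubgroup
open UpperHalfPlane hiding I
open Fermat.Agent.RatStr ModularCurve AlgebraicCurve
open scoped MatrixGroups Manifold

namespace Fermat.Agent.SS

open Fermat.Agent.X0N HahnSeries Fermat.Agent.FF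

section Abstract

open Polynomial IsDedekindDomain

/-- a function which is regular at every place at which the coordinate is regular is integral over
the polynomial ring in the coordinate. -/
theorem isIntegral_adjoin_of_forall_place_mem {k F : Type*} [Field k] [Field F] [Algebra k F]
    [CharZero k] (c : Coord k F) (x : F)
    (h : ∀ v : Place k F, c.x ∈ v.toValuationSubring → x ∈ v.toValuationSubring) :
    IsIntegral (Algebra.adjoin k {c.x}) x := by
  obtain ⟨i1, i2, i3, i4, i5, i6, i7, hx⟩ := c.exists_typeclass_setting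
  have hmem : x ∈ (algebraMap (FunctionField.ringOfIntegers k F) F).range := by
    refine HeightOneSpectrum.mem_integers_of_valuation_le_one F x (fun P => ?_)
    rw [← mem_placeOf_iff (k := k) P x]
    apply h
    rw [← hx]
    exact xF_mem_placeOf P
  obtain ⟨b, rfl⟩ := hmem
  have hb : IsIntegral k[X] (algebraMap (FunctionField.ringOfIntegers k F) F b) := b.2
  obtain ⟨p, hp, hp0⟩ := hb
  -- transport the polynomial
  have hX : algebraMap k[X] F X = c.x := by
    rw [← hx, xF_eq_coord]
    rfl
  have hrange : ∀ q : k[X], algebraMap k[X] F q ∈ Algebra.adjoin k {c.x} := by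
    intro q
    have : algebraMap k[X] F q = aeval c.x q := by
      rw [← hX]
      induction q using Polynomial.induction_on' with
      | add a b ha hb => rw [map_add, map_add, ha, hb]
      | monomial n a =>
        rw [← C_mul_X_pow_eq_monomial, map_mul, map_pow, map_mul, map_pow, aeval_C, aeval_X,
          IsScalarTower.algebraMap_apply k k[X] F a]
        rfl
    rw [this]
    exact Algebra.adjoin_singleton_eq_range_aeval k c.x ▸ ⟨q, rfl⟩
  let φ : k[X] →+* ↥(Algebra.adjoin k {c.x}) :=
    (algebraMap k[X] F).codRestrict (Algebra.adjoin k {c.x}).toSubring hrange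
  refine ⟨p.map φ, hp.map φ, ?_⟩
  rw [eval₂_map]
  exact hp0

end Abstract

section Closed

variable {k : Type*} [Field k] [Algebra ℚ k] [Algebra k ℂ] [IsScalarTower ℚ k ℂ] [CharZero k]
  [IsAlgClosed k] {N : ℕ} [NeZero N] (d e : ℕ) [NeZero d] [NeZero e]

/-- **(U-c), algebraically closed constants**: `Δ(q^d)/Δ(q^e)` has neither a zero nor a pole at a
place at which `j` is regular. -/
theorem ord_deltaRatio_eq_zero_of_isAlgClosed (hd : d ∣ N) (he : e ∣ N)
    (v : Place k ↥(laurentBaseChange k (modularFunctionFieldFull N)))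
    (hv : jGen k N ∈ v.toValuationSubring) :
    v.ord (deltaRatio d e k N hd he) = 0 :=
  ord_deltaRatio_eq_zero d e (jCoordK k N) rfl hd he v hv

end Closed

section General

variable {k : Type*} [Field k] [Algebra ℚ k] (L : Type*) [Field L] [Algebra ℚ L] [Algebra k L]
  [IsScalarTower ℚ k L] [Algebra.IsAlgebraic k L] [IsAlgClosed L] [Algebra L ℂ]
  [IsScalarTower ℚ L ℂ] {N : ℕ} [NeZero N] (d e : ℕ) [NeZero d] [NeZero e]

theorem bcHom_deltaRatio (hd : d ∣ N) (he : e ∣ N) :
    Fermat.Agent.JA.bcHom (K := k) (L := L) (modularFunctionFieldFull N)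
      (deltaRatio d e k N hd he) = deltaRatio d e L N hd he := by
  apply Subtype.ext
  rw [Fermat.Agent.JA.coe_bcHom]
  exact iota_coeffEmb _

theorem bcHom_jGen :
    Fermat.Agent.JA.bcHom (K := k) (L := L) (modularFunctionFieldFull N) (jGen k N) =
      jGen L N := by
  apply Subtype.ext
  rw [Fermat.Agent.JA.coe_bcHom]
  exact iota_coeffEmb _

/-- **(U-c)**: over any field of constants `k` with an algebraic closure inside `ℂ`,
`Δ(q^d)/Δ(q^e)` has neither a zero nor a pole at a place at which `j` is regular. -/
theorem ord_deltaRatio_eq_zero_of_isAlgebraic (L : Type*) [Field L] [Algebra ℚ L] [Algebra k L]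
    [IsScalarTower ℚ k L] [Algebra.IsAlgebraic k L] [IsAlgClosed L] [Algebra L ℂ]
    [IsScalarTower ℚ L ℂ] (hd : d ∣ N) (he : e ∣ N)
    (v : Place k ↥(laurentBaseChange k (modularFunctionFieldFull N)))
    (hv : jGen k N ∈ v.toValuationSubring) :
    v.ord (deltaRatio d e k N hd he) = 0 := by
  haveI : CharZero L := algebraRat.charZero L
  obtain ⟨P, hP⟩ := Fermat.Agent.JA.exists_place_ord_bcHom (K := k) (L := L)
    (modularFunctionFieldFull N) v
  have h1 := hP (deltaRatio d e k N hd he)
  rw [bcHom_deltaRatio] at h1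
  rw [← h1]
  refine ord_deltaRatio_eq_zero_of_isAlgClosed d e hd he P ?_
  have hj0 : jGen L N ≠ 0 := by
    have := (jCoordK L N).trans
    intro h0
    apply this
    rw [jCoordK_x, h0]
    exact isAlgebraic_zero
  have hjk0 : jGen k N ≠ 0 := by
    intro h0
    apply hj0
    rw [← bcHom_jGen (k := k) L, h0, map_zero]
  rw [PlaceAux.mem_iff_ord_nonneg' P hj0, ← bcHom_jGen (k := k) L, hP]
  exact (PlaceAux.mem_iff_ord_nonneg' v hjk0).mp hv

/-- **(U-c), integral form**: `Δ(q^d)/Δ(q^e)` is integral over `k[j]`. -/
theorem isIntegral_deltaRatio (L : Type*) [Field L] [Algebra ℚ L] [Algebra k L]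
    [IsScalarTower ℚ k L] [Algebra.IsAlgebraic k L] [IsAlgClosed L] [Algebra L ℂ]
    [IsScalarTower ℚ L ℂ] (hd : d ∣ N) (he : e ∣ N) :
    IsIntegral (Algebra.adjoin k {jGen k N}) (deltaRatio d e k N hd he) := by
  haveI : CharZero k := algebraRat.charZero k
  letI : Algebra k ℂ := ((algebraMap L ℂ).comp (algebraMap k L)).toAlgebra
  haveI : IsScalarTower ℚ k ℂ := IsScalarTower.of_algebraMap_eq' (Subsingleton.elim _ _)
  have h := isIntegral_adjoin_of_forall_place_mem (jCoordK k N) (deltaRatio d e k N hd he)
    (fun v hv => by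
      rw [PlaceAux.mem_iff_ord_nonneg' v (deltaRatio_ne_zero d e k N hd he),
        ord_deltaRatio_eq_zero_of_isAlgebraic d e L hd he v hv])
  exact h

end General

end Fermat.Agent.SS
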