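import Mathlib
import Fermat.Agent.SS.UNIT_helper6_Mem
import Fermat.Prelude.Def_ModularCurve_X0ModL

set_option autoImplicit false
set_option linter.unusedSectionVars false
set_option linter.style.haveILetI false

open ModularCurve HahnSeries

namespace Fermat.Agent.SS

section Models

variable (R : Type*) [CommRing R]

/-- the `q`-expansion of `Δ` with coefficients in an arbitrary commutative ring. -/
noncomputable def deltaModC : LaurentSeries R :=
  HahnSeries.single (1 : ℤ) 1 *
    HahnSeries.ofPowerSeries ℤ R (dedekindEtaUnit.map (Int.castRingHom R))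

/-- the `q`-expansion of `Δ(dτ)` with coefficients in an arbitrary commutative ring. -/
noncomputable def deltaNModC (d : ℕ) [NeZero d] : LaurentSeries R := qExpand R d (deltaModC R)

theorem deltaModC_rat : deltaModC ℚ = deltaSeries := rfl

theorem deltaNModC_rat (d : ℕ) [NeZero d] : deltaNModC ℚ d = deltaSeriesN d := rfl

variable {R}

theorem coeffMap_deltaModC {S : Type*} [CommRing S] (f : R →+* S) :
    coeffMap f (deltaModC R) = deltaModC S := by
  rw [deltaModC, map_mul, coeffMap_single, map_one, ModularCurve.coeffMap_ofPowerSeries,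
    ← RingHom.comp_apply (PowerSeries.map f) (PowerSeries.map (Int.castRingHom R)),
    ← PowerSeries.map_comp, RingHom.ext_int (f.comp (Int.castRingHom R)) (Int.castRingHom S)]
  rfl

theorem coeffMap_deltaNModC {S : Type*} [CommRing S] (f : R →+* S) (d : ℕ) [NeZero d] :
    coeffMap f (deltaNModC R d) = deltaNModC S d := by
  rw [deltaNModC, coeffMap_qExpand, coeffMap_deltaModC, deltaNModC]

variable (R)

theorem coeff_deltaModC_one : (deltaModC R).coeff 1 = 1 := by
  rw [deltaModC]
  have h := HahnSeries.coeff_single_mul_add (r := (1 : R))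
    (x := HahnSeries.ofPowerSeries ℤ R (dedekindEtaUnit.map (Int.castRingHom R))) (a := (0 : ℤ))
    (b := (1 : ℤ))
  rw [zero_add, one_mul] at h
  rw [h, show (0 : ℤ) = ((0 : ℕ) : ℤ) from rfl, HahnSeries.ofPowerSeries_apply_coeff,
    PowerSeries.coeff_map, PowerSeries.coeff_zero_eq_constantCoeff_apply,
    constantCoeff_dedekindEtaUnit]
  simp

theorem coeff_deltaModC_of_lt {n : ℤ} (hn : n < 1) : (deltaModC R).coeff n = 0 := by
  rw [deltaModC]
  have h := HahnSeries.coeff_single_mul_add (r := (1 : R))
    (x := HahnSeries.ofPowerSeries ℤ R (dedekindEtaUnit.map (Int.castRingHom R))) (a := n - 1)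
    (b := (1 : ℤ))
  rw [sub_add_cancel, one_mul] at h
  rw [h]
  exact ModularCurve.ofPowerSeries_coeff_of_neg _ (by omega)

theorem coeff_deltaNModC_self (d : ℕ) [NeZero d] : (deltaNModC R d).coeff (d : ℤ) = 1 := by
  have h := qExpand_coeff_mul (R := R) d (deltaModC R) 1
  rw [mul_one] at h
  rw [deltaNModC, h, coeff_deltaModC_one]

theorem coeff_deltaNModC_of_lt (d : ℕ) [NeZero d] {n : ℤ} (hn : n < d) :
    (deltaNModC R d).coeff n = 0 := by
  rw [deltaNModC]
  by_cases hdvd : (d : ℤ) ∣ n
  · obtain ⟨m, rfl⟩ := hdvd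
    rw [qExpand_coeff_mul]
    apply coeff_deltaModC_of_lt
    have hd : (0 : ℤ) < d := by exact_mod_cast Nat.pos_of_ne_zero (NeZero.ne d)
    by_contra hcon
    push Not at hcon
    nlinarith
  · exact qExpand_coeff_of_not_dvd d _ hdvd

theorem deltaNModC_ne_zero [Nontrivial R] (d : ℕ) [NeZero d] : deltaNModC R d ≠ 0 := by
  intro h
  have := coeff_deltaNModC_self R d
  rw [h] at this
  simp at this

end Models

section Ratio

variable (k : Type*) [Field k] [Algebra ℚ k] (d e : ℕ) [NeZero d] [NeZero e]

theorem coeffEmb_deltaSeriesN : coeffEmb k (deltaSeriesN d) = deltaNModC k d := by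
  rw [← deltaNModC_rat, coeffEmb, coeffMap_deltaNModC]

/-- **integral models**: `Δ(q^d)/Δ(q^e)` is the quotient of two series with integer coefficients
and leading coefficient one. -/
theorem coeffEmb_deltaRatioSeries_mul :
    coeffEmb k (deltaRatioSeries d e) * deltaNModC k e = deltaNModC k d := by
  rw [← coeffEmb_deltaSeriesN, ← coeffEmb_deltaSeriesN, ← map_mul, deltaRatioSeries, mul_assoc,
    inv_mul_cancel₀ (deltaSeriesN_ne_zero e), mul_one]

theorem coe_deltaRatio_mul {N : ℕ} [NeZero N] (hd : d ∣ N) (he : e ∣ N) :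
    ((deltaRatio d e k N hd he : ↥(laurentBaseChange k (modularFunctionFieldFull N))) :
      LaurentSeries k) * deltaNModC k e = deltaNModC k d :=
  coeffEmb_deltaRatioSeries_mul k d e

/-- for any subring `A` of the constants, the coefficients of `Δ(q^d)` lie in `A`. -/
theorem deltaNModC_eq_coeffMap_subtype (A : Subring k) :
    deltaNModC k d = coeffMap A.subtype (deltaNModC ↥A d) :=
  (coeffMap_deltaNModC A.subtype d).symm

end Ratio

end Fermat.Agent.SS
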