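/-
(SS-q) — helper6 — modular units and the Gauss valuation: `Δ(q^d)/Δ(q^e)` is a unit of the Gauss
valuation ring `gaussInt R L` over every discrete valuation ring `R` (with explicit reduction),
dilations `q ↦ q^w` (so the same holds on the Legendre/Hesse hosts).
-/
import Mathlib
import Fermat.Agent.SS.UNIT_helper6_Int
import Fermat.Agent.Igusa.V_helper5_Gauss
import Fermat.Agent.JA.UP_helper7_Emb

set_option autoImplicit false
set_option linter.unusedSectionVars false
set_option linter.style.haveILetI false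

open ModularCurve HahnSeries Fermat.Agent.Igusa

namespace Fermat.Agent.SS

section Gauss

variable (R : Type*) [CommRing R] [IsDomain R] [IsDiscreteValuationRing R]
variable (L : Type*) [Field L] [Algebra R L] [IsFractionRing R L] [Algebra ℚ L]
variable (d e : ℕ) [NeZero d] [NeZero e]

theorem emb_deltaNModC : emb R L (deltaNModC R d) = deltaNModC L d :=
  coeffMap_deltaNModC (algebraMap R L) d

theorem red_deltaNModC :
    red R (deltaNModC R d) = deltaNModC (IsLocalRing.ResidueField R) d :=
  coeffMap_deltaNModC (IsLocalRing.residue R) d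

theorem red_deltaNModC_ne_zero : red R (deltaNModC R d) ≠ 0 := by
  rw [red_deltaNModC]
  exact deltaNModC_ne_zero _ d

/-- `Δ(q^d)/Δ(q^e)` lies in the Gauss valuation ring. -/
theorem coeffEmb_deltaRatioSeries_mem_gaussInt :
    coeffEmb L (deltaRatioSeries d e) ∈ gaussInt R L :=
  ⟨deltaNModC R d, deltaNModC R e, red_deltaNModC_ne_zero R e, by
    rw [emb_deltaNModC, emb_deltaNModC]
    exact coeffEmb_deltaRatioSeries_mul L d e⟩

/-- the reduction of `Δ(q^d)/Δ(q^e)` modulo the maximal ideal of `R`. -/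
theorem gaussRed_coeffEmb_deltaRatioSeries :
    gaussRed R L ⟨coeffEmb L (deltaRatioSeries d e),
        coeffEmb_deltaRatioSeries_mem_gaussInt R L d e⟩ =
      deltaNModC (IsLocalRing.ResidueField R) d / deltaNModC (IsLocalRing.ResidueField R) e := by
  rw [gaussRed_eq _ (deltaNModC R d) (deltaNModC R e) (red_deltaNModC_ne_zero R e)
    (by rw [emb_deltaNModC, emb_deltaNModC]; exact coeffEmb_deltaRatioSeries_mul L d e),
    red_deltaNModC, red_deltaNModC]

theorem gaussRed_coeffEmb_deltaRatioSeries_ne_zero :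
    gaussRed R L ⟨coeffEmb L (deltaRatioSeries d e),
        coeffEmb_deltaRatioSeries_mem_gaussInt R L d e⟩ ≠ 0 := by
  rw [gaussRed_coeffEmb_deltaRatioSeries]
  exact div_ne_zero (deltaNModC_ne_zero _ d) (deltaNModC_ne_zero _ e)

/-- **`w_∞(Δ(q^d)/Δ(q^e)) = 0`**: the inverse of the modular unit lies in the Gauss valuation ring
too. -/
theorem inv_coeffEmb_deltaRatioSeries_mem_gaussInt :
    (coeffEmb L (deltaRatioSeries d e))⁻¹ ∈ gaussInt R L := by
  have h : (coeffEmb L (deltaRatioSeries d e))⁻¹ = coeffEmb L (deltaRatioSeries e d) := by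
    apply inv_eq_of_mul_eq_one_right
    rw [← map_mul, deltaRatioSeries_mul_swap, map_one]
  rw [h]
  exact coeffEmb_deltaRatioSeries_mem_gaussInt R L e d

end Gauss

section Dilate

variable (K : Type*) [Field K] [Algebra ℚ K] (d e w : ℕ) [NeZero d] [NeZero e] [NeZero w]
  [NeZero (w * d)] [NeZero (w * e)]

/-- dilation `q ↦ q^w` of `Δ(q^d)/Δ(q^e)`. -/
theorem qExpand_coeffEmb_deltaRatioSeries :
    qExpand K w (coeffEmb K (deltaRatioSeries d e)) =
      coeffEmb K (deltaRatioSeries (w * d) (w * e)) := by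
  rw [coeffEmb, ← coeffMap_qExpand, deltaRatioSeries, deltaRatioSeries, map_mul, map_inv₀,
    ← deltaSeriesN_mul, ← deltaSeriesN_mul]

variable {N : ℕ} [NeZero N]

/-- the image of `Δ(q^d)/Δ(q^e)` in the Legendre host (`q = x²`). -/
theorem coe_fullToLegE_deltaRatio [NeZero (2 * d)] [NeZero (2 * e)] (hd : d ∣ N) (he : e ∣ N) :
    ((Fermat.Agent.JA.fullToLegE K N (deltaRatio d e K N hd he) : ↥(Fermat.Agent.JA.legE K N)) :
      LaurentSeries K) = coeffEmb K (deltaRatioSeries (2 * d) (2 * e)) := by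
  rw [Fermat.Agent.JA.coe_fullToLegE]
  exact qExpand_coeffEmb_deltaRatioSeries K d e 2

/-- the image of `Δ(q^d)/Δ(q^e)` in the Hesse host (`q = x³`). -/
theorem coe_fullToHesE_deltaRatio [NeZero (3 * d)] [NeZero (3 * e)] (hd : d ∣ N) (he : e ∣ N) :
    ((Fermat.Agent.JA.fullToHesE K N (deltaRatio d e K N hd he) : ↥(Fermat.Agent.JA.hesE K N)) :
      LaurentSeries K) = coeffEmb K (deltaRatioSeries (3 * d) (3 * e)) := by
  rw [Fermat.Agent.JA.coe_fullToHesE]
  exact qExpand_coeffEmb_deltaRatioSeries K d e 3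

end Dilate

end Fermat.Agent.SS
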