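import Mathlib
import Fermat.Agent.SS.UNIT_helper6_Mem
import Fermat.Agent.GR.ANORM_helper5_Fricke

set_option autoImplicit false
set_option linter.unusedSectionVars false
set_option linter.style.haveILetI false

open Complex Filter Topology Set ModularForm CongruenceSubgroup
open UpperHalfPlane hiding I
open Fermat.Agent.RatStr ModularCurve AlgebraicCurve
open scoped MatrixGroups Manifold

namespace Fermat.Agent.SS

open Fermat.Agent.X0N HahnSeries

local notation "Δ" => ModularForm.discriminant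

/-- `Δ(-1/z) = z^12 Δ(z)`. -/
theorem discriminant_S_smul (z : ℍ) :
    Δ (ModularGroup.S • z) = (z : ℂ) ^ 12 * Δ z := by
  have h := congrFun discriminant_S_invariant z
  rw [SL_slash_apply] at h
  rw [ModularGroup.denom_S] at h
  have hz : (z : ℂ) ≠ 0 := UpperHalfPlane.ne_zero z
  have h12 : (z : ℂ) ^ (-(12 : ℤ)) = ((z : ℂ) ^ 12)⁻¹ := by
    rw [zpow_neg]; norm_cast
  rw [h12] at h
  rw [← h]
  field_simp

/-- `Δ(d W_N τ) = (e τ)^12 Δ(e τ)` for `N = d e`. -/
theorem deltaHol_frickeMatrix_smul {N d e : ℕ} [NeZero N] [NeZero d] [NeZero e]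
    (hde : N = d * e) (τ : ℍ) :
    (deltaHol d : ℍ → ℂ) (frickeMatrix N • τ) =
      ((e : ℂ) * (τ : ℂ)) ^ 12 * (deltaHol e : ℍ → ℂ) τ := by
  rw [deltaHol_apply, deltaHol_apply, heckeDiagMatrix_smul_frickeMatrix_smul hde,
    discriminant_S_smul, coe_heckeDiagMatrix_smul (NeZero.ne e)]

/-- **the Fricke transform of `Δ(dτ)/Δ(d'τ)`** is `(e/e')^12 Δ(eτ)/Δ(e'τ)`, `N = d e = d' e'`. -/
theorem fricke_deltaRatioM {N d e d' e' : ℕ} [NeZero N] [NeZero d] [NeZero e] [NeZero d']
    [NeZero e'] (hde : N = d * e) (hde' : N = d' * e') :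
    MerH.fricke N (deltaRatioM d d') =
      MerH.const (((e : ℂ) / (e' : ℂ)) ^ 12) * deltaRatioM e e' := by
  have he'C : (e' : ℂ) ≠ 0 := Nat.cast_ne_zero.mpr (NeZero.ne e')
  have hD' := MerH.ofHol_ne_zero (deltaHol_ne_zero e')
  have hcomp : ∀ x : HolH, MerH.fricke N (MerH.ofHol x) =
      MerH.ofHol (HolH.compGLHom (frickeMatrix N) (det_frickeMatrix_pos N) x) := fun x => by
    rw [MerH.fricke, MerH.compGL_ofHol]
  have hne : MerH.ofHol (HolH.compGLHom (frickeMatrix N) (det_frickeMatrix_pos N) (deltaHol d'))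
      ≠ 0 := by
    apply MerH.ofHol_ne_zero
    intro h
    have h1 := congrFun (congrArg Subtype.val h) UpperHalfPlane.I
    rw [HolH.compGLHom_apply] at h1
    exact deltaHol_apply_ne_zero d' _ h1
  rw [deltaRatioM, deltaRatioM, map_div₀, hcomp, hcomp, div_eq_iff hne]
  have hc : MerH.const (((e : ℂ) / (e' : ℂ)) ^ 12) =
      MerH.ofHol (HolH.const (((e : ℂ) / (e' : ℂ)) ^ 12)) := rfl
  rw [hc, mul_div_assoc', div_mul_eq_mul_div, eq_div_iff hD', ← map_mul, ← map_mul, ← map_mul]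
  congr 1
  ext τ
  show (deltaHol d : ℍ → ℂ) (frickeMatrix N • τ) * (deltaHol e' : ℍ → ℂ) τ =
    ((e : ℂ) / (e' : ℂ)) ^ 12 * (deltaHol e : ℍ → ℂ) τ *
      (deltaHol d' : ℍ → ℂ) (frickeMatrix N • τ)
  rw [deltaHol_frickeMatrix_smul hde, deltaHol_frickeMatrix_smul hde']
  rw [div_pow, mul_pow, mul_pow]
  have h12 : (e' : ℂ) ^ 12 ≠ 0 := pow_ne_zero 12 he'C
  field_simp

/-! ### the Fricke involution on the function field -/

section Field

variable {k : Type*} [Field k] [Algebra ℚ k] (ι : k →+* ℂ) {N : ℕ} [NeZero N]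

/-- the realisation of `Δ(q^d)/Δ(q^e)` along any embedding is the function `Δ(dτ)/Δ(eτ)`. -/
theorem realN_deltaRatio_hom (d e : ℕ) [NeZero d] [NeZero e] (hd : d ∣ N) (he : e ∣ N) :
    realN ι N (deltaRatio d e k N hd he) = deltaRatioM d e := by
  have h1 : realN ι N (deltaRatio d e k N hd he) =
      merSeries.real (RingHom.id ℂ) (merSeries.baseChange ι (inclN ι N _)) :=
    merSeries.real_eq_real_id ι (inclN ι N _)
  rw [h1, ← real_coeffEmb_deltaRatioSeries d e]
  congr 1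
  apply Subtype.ext
  show coeffMap ι (coeffEmb k (deltaRatioSeries d e)) = _
  exact Fermat.Agent.JA.coeffMap_coeffEmb_hom ι _

/-- **(U-b)** the Fricke involution maps `Δ(q^d)/Δ(q^d')` to `(e/e')^12 Δ(q^e)/Δ(q^e')`,
`N = d e = d' e'`. -/
theorem frickeN_deltaRatio {d e d' e' : ℕ} [NeZero d] [NeZero e] [NeZero d'] [NeZero e']
    (hde : N = d * e) (hde' : N = d' * e') :
    frickeN ι N (deltaRatio d d' k N (Dvd.intro e hde.symm) (Dvd.intro e' hde'.symm)) =
      algebraMap k _ (((e : k) / (e' : k)) ^ 12) *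
        deltaRatio e e' k N (Dvd.intro_left d hde.symm) (Dvd.intro_left d' hde'.symm) := by
  apply realN_injective ι N
  rw [realN_frickeN, map_mul, realN_algebraMap, realN_deltaRatio_hom, realN_deltaRatio_hom,
    fricke_deltaRatioM hde hde']
  congr 2
  rw [map_pow, map_div₀, map_natCast, map_natCast]

/-- **the modular unit** `u_q = Δ(q)/Δ(q^q)` of level `N`, `q ∣ N`: the Prelude series
`modularUnitSeries q` as an element of the function field of `X₀(N)` over `k`. -/
noncomputable def modUnit (k : Type*) [Field k] [Algebra ℚ k] (N q : ℕ) [NeZero N] [NeZero q]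
    (hq : q ∣ N) : ↥(laurentBaseChange k (modularFunctionFieldFull N)) :=
  deltaRatio 1 q k N (one_dvd N) hq

theorem coe_modUnit (k : Type*) [Field k] [Algebra ℚ k] (N q : ℕ) [NeZero N] [NeZero q]
    (hq : q ∣ N) :
    ((modUnit k N q hq : ↥(laurentBaseChange k (modularFunctionFieldFull N))) : LaurentSeries k) =
      coeffEmb k (modularUnitSeries q) := by
  rw [modularUnitSeries_eq_deltaRatioSeries]
  rfl

/-- **(U-b) for the modular unit**: `W_N u_q = q^12 Δ(q^N)/Δ(q^M)`, `N = q M`. -/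
theorem frickeN_modUnit {q M : ℕ} [NeZero q] [NeZero M] (hN : N = q * M) :
    frickeN ι N (modUnit k N q (Dvd.intro M hN.symm)) =
      algebraMap k _ ((q : k) ^ 12) *
        deltaRatio N M k N dvd_rfl (Dvd.intro_left q hN.symm) := by
  have h1 : N = 1 * N := (one_mul N).symm
  have h := frickeN_deltaRatio (k := k) ι (N := N) (d := 1) (e := N) (d' := q) (e' := M) h1 hN
  have hM : (M : k) ≠ 0 := by
    have : (M : ℚ) ≠ 0 := Nat.cast_ne_zero.mpr (NeZero.ne M)
    have h2 := (map_ne_zero (algebraMap ℚ k)).mpr this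
    rwa [map_natCast] at h2
  have hq : ((N : k) / (M : k)) = (q : k) := by
    rw [hN, Nat.cast_mul, mul_div_assoc, div_self hM, mul_one]
  rw [hq] at h
  exact h

end Field

section Degeneracy

variable (k : Type*) [Field k] [Algebra ℚ k] (N ℓ : ℕ) [NeZero N] [NeZero ℓ] [NeZero (N * ℓ)]
  (d e : ℕ) [NeZero d] [NeZero e]

/-- the first degeneracy map (the inclusion) preserves `Δ(q^d)/Δ(q^e)`. -/
theorem heckeAlphaBar_deltaRatio (hd : d ∣ N) (he : e ∣ N) :
    heckeAlphaBar k N ℓ (deltaRatio d e k N hd he) =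
      deltaRatio d e k (N * ℓ) (Dvd.dvd.mul_right hd ℓ) (Dvd.dvd.mul_right he ℓ) :=
  Subtype.ext (coe_heckeAlphaBar N ℓ _)

/-- the second degeneracy map `q ↦ q^ℓ` maps `Δ(q^d)/Δ(q^e)` to `Δ(q^{ℓd})/Δ(q^{ℓe})`. -/
theorem heckeBetaBar_deltaRatio [NeZero (ℓ * d)] [NeZero (ℓ * e)] (hd : d ∣ N) (he : e ∣ N) :
    heckeBetaBar k N ℓ (deltaRatio d e k N hd he) =
      deltaRatio (ℓ * d) (ℓ * e) k (N * ℓ) (by rw [mul_comm]; exact mul_dvd_mul_right hd ℓ)
        (by rw [mul_comm]; exact mul_dvd_mul_right he ℓ) := by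
  apply Subtype.ext
  show qExpand k ℓ (coeffEmb k (deltaRatioSeries d e)) = coeffEmb k (deltaRatioSeries (ℓ * d) (ℓ * e))
  rw [coeffEmb, ← coeffMap_qExpand, deltaRatioSeries, deltaRatioSeries, map_mul, map_inv₀,
    ← deltaSeriesN_mul, ← deltaSeriesN_mul]

end Degeneracy

end Fermat.Agent.SS
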