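/-
(SS-q) UNODE-HOST — helper6 — part 1: **the Atkin–Lehner transform of the modular unit.**
For `ℓ x + N y = 1`: `W_ℓ (Δ(τ)/Δ(ℓτ)) = ℓ^12 Δ(ℓτ)/Δ(τ)`, first for meromorphic functions on the
upper half plane (`MerH.atkinLehner`), then in the function field of `X₀(N ℓ)` over a field
`k ⊆ ℂ` (`atkinLehnerN`).
-/
import Mathlib
import Fermat.Agent.SS.UNIT_helper6_Fricke
import Fermat.Agent.JA.ES1_helper2_W

set_option autoImplicit false
set_option linter.unusedSectionVars false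
set_option linter.style.haveILetI false

open Complex Filter Topology Set ModularForm CongruenceSubgroup
open UpperHalfPlane hiding I
open Fermat.Agent.RatStr ModularCurve AlgebraicCurve
open scoped MatrixGroups Manifold

namespace Fermat.Agent.SS

open Fermat.Agent.X0N HahnSeries

local notation "Δ" => ModularForm.discriminant

/-- `Δ(γ z) = (c z + d)^12 Δ(z)` for `γ ∈ SL₂(ℤ)`. -/
theorem discriminant_slTwo_smul (γ : SL(2, ℤ)) (z : ℍ) :
    Δ (γ • z) = denom γ z ^ 12 * Δ z := by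
  have h0 : (Δ ∣[(12 : ℤ)] γ) = Δ :=
    SlashInvariantForm.slash_action_generators_SL2Z discriminant_S_invariant discriminant_T_invariant γ
  have h := congrFun h0 z
  rw [SL_slash_apply] at h
  have hz : denom γ z ≠ 0 := denom_ne_zero _ z
  have h12 : denom γ z ^ (-(12 : ℤ)) = (denom γ z ^ 12)⁻¹ := by
    rw [zpow_neg]; norm_cast
  rw [h12] at h
  rw [← h]
  field_simp

section Mer

variable {N ℓ : ℕ} [NeZero N] [NeZero ℓ] {x y : ℤ} (h : (ℓ : ℤ) * x + N * y = 1)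

/-- the denominators of `γ₁` at `ℓτ` and of `γ₂` at `τ` differ by the factor `ℓ`. -/
theorem denom_alGammaOne_dilate (τ : ℍ) :
    denom (alGammaOne N ℓ x y h) ((heckeDiagMatrix ℓ • τ : ℍ) : ℂ) =
      (ℓ : ℂ) * denom (alGammaTwo N ℓ x y h) τ := by
  rw [ModularGroup.denom_apply, ModularGroup.denom_apply, coe_heckeDiagMatrix_smul (NeZero.ne ℓ)]
  have a10 : alGammaOne N ℓ x y h 1 0 = N := rfl
  have a11 : alGammaOne N ℓ x y h 1 1 = ℓ * x := rfl
  have b10 : alGammaTwo N ℓ x y h 1 0 = N := rfl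
  have b11 : alGammaTwo N ℓ x y h 1 1 = x := rfl
  rw [a10, a11, b10, b11]
  push_cast
  ring

/-- **the Atkin–Lehner transform of `Δ(τ)/Δ(ℓτ)`** is `ℓ^12 Δ(ℓτ)/Δ(τ)`. -/
theorem atkinLehner_deltaRatioM :
    MerH.atkinLehner h (deltaRatioM 1 ℓ) = MerH.const ((ℓ : ℂ) ^ 12) * deltaRatioM ℓ 1 := by
  have hD1 := MerH.ofHol_ne_zero (deltaHol_ne_zero 1)
  have hcomp : ∀ g : HolH, MerH.atkinLehner h (MerH.ofHol g) =
      MerH.ofHol (HolH.dilateHom ℓ (HolH.comp (alGammaOne N ℓ x y h) g)) := fun g => by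
    rw [MerH.atkinLehner_apply]
    have h1 : MerH.comp (alGammaOne N ℓ x y h) (MerH.ofHol g) =
        MerH.ofHol (HolH.comp (alGammaOne N ℓ x y h) g) := MerH.comp_algebraMap _ g
    rw [h1, MerH.dilate_ofHol]
  have hne : MerH.ofHol (HolH.dilateHom ℓ (HolH.comp (alGammaOne N ℓ x y h) (deltaHol ℓ))) ≠ 0 := by
    apply MerH.ofHol_ne_zero
    intro h0
    have h1 := congrFun (congrArg Subtype.val h0) UpperHalfPlane.I
    rw [HolH.dilateHom_apply, HolH.comp_apply] at h1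
    exact deltaHol_apply_ne_zero ℓ _ h1
  rw [deltaRatioM, deltaRatioM, map_div₀, hcomp, hcomp, div_eq_iff hne]
  have hc : MerH.const ((ℓ : ℂ) ^ 12) = MerH.ofHol (HolH.const ((ℓ : ℂ) ^ 12)) := rfl
  rw [hc, mul_div_assoc', div_mul_eq_mul_div, eq_div_iff hD1, ← map_mul, ← map_mul, ← map_mul]
  congr 1
  ext τ
  have hmul : ∀ (a b : HolH) (z : ℍ), ((a * b : HolH) : ℍ → ℂ) z =
      (a : ℍ → ℂ) z * (b : ℍ → ℂ) z := fun _ _ _ => rfl
  rw [hmul, hmul, hmul, HolH.dilateHom_apply, HolH.dilateHom_apply, HolH.comp_apply,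
    HolH.comp_apply, HolH.const_apply]
  have h1 : ∀ z : ℍ, heckeDiagMatrix 1 • z = z := fun z => by
    apply UpperHalfPlane.ext
    rw [coe_heckeDiagMatrix_smul one_ne_zero, Nat.cast_one, one_mul]
  rw [deltaHol_apply, deltaHol_apply, deltaHol_apply, deltaHol_apply, h1, h1,
    heckeDiagMatrix_smul_alGammaOne_smul (NeZero.ne N) (NeZero.ne ℓ) h τ,
    discriminant_slTwo_smul, discriminant_slTwo_smul, denom_alGammaOne_dilate]
  ring

end Mer

section Field

variable {k : Type*} [Field k] [Algebra ℚ k] (ι : k →+* ℂ) {N ℓ : ℕ} [NeZero N] [NeZero ℓ]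
  [NeZero (N * ℓ)] {x y : ℤ} (h : (ℓ : ℤ) * x + N * y = 1)

/-- **the Atkin–Lehner involution maps the modular unit `Δ(q)/Δ(q^ℓ)` to
`ℓ^12 Δ(q^ℓ)/Δ(q)`**, in the function field of `X₀(N ℓ)`. -/
theorem atkinLehnerN_deltaRatio (hℓ : ℓ.Prime) :
    atkinLehnerN ι h hℓ (deltaRatio 1 ℓ k (N * ℓ) (one_dvd _) (Dvd.intro_left N rfl)) =
      algebraMap k _ ((ℓ : k) ^ 12) *
        deltaRatio ℓ 1 k (N * ℓ) (Dvd.intro_left N rfl) (one_dvd _) := by
  apply realN_injective ι (N * ℓ)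
  rw [realN_atkinLehnerN, map_mul, realN_algebraMap, realN_deltaRatio_hom, realN_deltaRatio_hom,
    atkinLehner_deltaRatioM h]
  congr 2
  rw [map_pow, map_natCast]

/-- the same for `modUnit`. -/
theorem atkinLehnerN_modUnit (hℓ : ℓ.Prime) :
    atkinLehnerN ι h hℓ (modUnit k (N * ℓ) ℓ (Dvd.intro_left N rfl)) =
      algebraMap k _ ((ℓ : k) ^ 12) * (modUnit k (N * ℓ) ℓ (Dvd.intro_left N rfl))⁻¹ := by
  rw [modUnit, atkinLehnerN_deltaRatio ι h hℓ, deltaRatio_inv]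

end Field

end Fermat.Agent.SS
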