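/-
(SS-q) UNODE-HOST — helper6 — part 2: **the modular unit on the second sheet.**
`R` a discrete valuation ring with fraction field `k ⊆ ℂ`, uniformizer `ϖ`, residue characteristic
`ℓ` (prime, `ℓ ∈ (ϖ)`), level `N ℓ`, `W = atkinLehnerN` the Atkin–Lehner involution of the function
field `F` of `X₀(N ℓ)` over `k`.  For `U = Δ(q)/Δ(q^ℓ)` and `c = 12 · v_ϖ(ℓ) ≥ 1`:
`W (U / ϖ^c)` and `W (U / ϖ^c)⁻¹` lie in the Gauss ring, i.e. `U / ϖ^c` is a unit of the valuation
ring `w_0 = w_∞ ∘ W` of the second sheet, while `U` is a unit of the Gauss ring `w_∞`.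
-/
import Mathlib
import Fermat.Agent.SS.UNODEHOST_helper6_AL
import Fermat.Agent.SS.UNIT_helper6_Gauss

set_option autoImplicit false
set_option linter.unusedSectionVars false
set_option linter.style.haveILetI false

open ModularCurve

namespace Fermat.Agent.SS

open Fermat.Agent.X0N Fermat.Agent.Igusa

section Val

variable {R : Type*} [CommRing R] [IsDomain R] [IsDiscreteValuationRing R]
variable {k : Type*} [Field k] [Algebra R k] [IsFractionRing R k] [Algebra ℚ k] (ι : k →+* ℂ)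
variable {N ℓ : ℕ} [NeZero N] [NeZero ℓ] [NeZero (N * ℓ)] {x y : ℤ}
  (h : (ℓ : ℤ) * x + N * y = 1)

/-- `ℓ = unit · ϖ^e` with `e ≥ 1` when `ℓ ∈ (ϖ)` is nonzero in `R`. -/
theorem exists_natCast_eq_unit_mul_pow {ϖ : R} (hϖ : Irreducible ϖ) (hℓ0 : (ℓ : R) ≠ 0)
    (hℓϖ : (ℓ : R) ∈ Ideal.span {ϖ}) :
    ∃ (e : ℕ) (u : Rˣ), 1 ≤ e ∧ (ℓ : R) = u * ϖ ^ e := by
  obtain ⟨e, u, hu⟩ := IsDiscreteValuationRing.eq_unit_mul_pow_irreducible hℓ0 hϖ
  refine ⟨e, u, ?_, hu⟩
  by_contra he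
  have he0 : e = 0 := by omega
  rw [he0, pow_zero, mul_one] at hu
  have h1 : IsUnit (ℓ : R) := hu ▸ u.isUnit
  have h2 : (Ideal.span {ϖ} : Ideal R) = ⊤ := Ideal.eq_top_of_isUnit_mem _ hℓϖ h1
  rw [Ideal.span_singleton_eq_top] at h2
  exact hϖ.not_isUnit h2

variable (R)

/-- **the modular unit on the second sheet**: with `c = 12 v_ϖ(ℓ)`, the Atkin–Lehner transforms of
`U / ϖ^c` and of its inverse are Gauss-integral. -/
theorem exists_atkinLehnerN_modUnit_mem_gaussInt {ϖ : R} (hϖ : Irreducible ϖ) (hℓ : ℓ.Prime)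
    (hℓϖ : (ℓ : R) ∈ Ideal.span {ϖ}) :
    ∃ c : ℕ, 1 ≤ c ∧
      ((atkinLehnerN ι h hℓ (modUnit k (N * ℓ) ℓ (Dvd.intro_left N rfl) *
          (algebraMap k _ (algebraMap R k ϖ ^ c))⁻¹) :
          ↥(laurentBaseChange k (modularFunctionFieldFull (N * ℓ)))) : LaurentSeries k) ∈
        gaussInt R k ∧
      ((atkinLehnerN ι h hℓ (modUnit k (N * ℓ) ℓ (Dvd.intro_left N rfl) *
          (algebraMap k _ (algebraMap R k ϖ ^ c))⁻¹)⁻¹ :
          ↥(laurentBaseChange k (modularFunctionFieldFull (N * ℓ)))) : LaurentSeries k) ∈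
        gaussInt R k := by
  haveI : CharZero k := algebraRat.charZero k
  have hinj : Function.Injective (algebraMap R k) := IsFractionRing.injective R k
  have hℓ0 : (ℓ : R) ≠ 0 := by
    intro h0
    have : (algebraMap R k (ℓ : R)) = 0 := by rw [h0, map_zero]
    rw [map_natCast] at this
    exact (NeZero.ne ℓ) (Nat.cast_eq_zero.mp this)
  obtain ⟨e, u, he, hu⟩ := exists_natCast_eq_unit_mul_pow hϖ hℓ0 hℓϖ
  have hϖk : algebraMap R k ϖ ≠ 0 := (map_ne_zero_iff _ hinj).mpr hϖ.ne_zero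
  have hℓk : (ℓ : k) = algebraMap R k u * algebraMap R k ϖ ^ e := by
    rw [← map_natCast (algebraMap R k), hu, map_mul, map_pow]
  -- the constants
  have hc1 : (ℓ : k) ^ 12 * (algebraMap R k ϖ ^ (12 * e))⁻¹ = algebraMap R k ((u : R) ^ 12) := by
    rw [hℓk, map_pow, mul_pow, ← pow_mul, mul_comm e 12]
    field_simp
  have hc2 : ((ℓ : k) ^ 12 * (algebraMap R k ϖ ^ (12 * e))⁻¹)⁻¹ =
      algebraMap R k (((u⁻¹ : Rˣ) : R) ^ 12) := by
    rw [hc1, map_pow, map_pow, ← inv_pow]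
    congr 1
    apply inv_eq_of_mul_eq_one_right
    rw [← map_mul, Units.mul_inv, map_one]
  refine ⟨12 * e, by omega, ?_, ?_⟩
  · rw [map_mul, map_inv₀, atkinLehnerN_algebraMap, atkinLehnerN_modUnit ι h hℓ]
    have e1 : algebraMap k ↥(laurentBaseChange k (modularFunctionFieldFull (N * ℓ))) ((ℓ : k) ^ 12) *
        (modUnit k (N * ℓ) ℓ (Dvd.intro_left N rfl))⁻¹ *
        (algebraMap k _ (algebraMap R k ϖ ^ (12 * e)))⁻¹ =
        algebraMap k _ (algebraMap R k ((u : R) ^ 12)) *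
          deltaRatio ℓ 1 k (N * ℓ) (Dvd.intro_left N rfl) (one_dvd _) := by
      rw [← hc1, map_mul, map_inv₀, modUnit, deltaRatio_inv]
      ring
    rw [e1, IntermediateField.coe_mul, coe_deltaRatio]
    refine (gaussInt R k).mul_mem ?_ (coeffEmb_deltaRatioSeries_mem_gaussInt R k ℓ 1)
    show algebraMap k (LaurentSeries k) (algebraMap R k ((u : R) ^ 12)) ∈ gaussInt R k
    rw [algebraMap_laurentSeries_eq_single, ← HahnSeries.C_apply]
    exact C_algebraMap_mem_gaussInt _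
  · rw [map_inv₀, map_mul, map_inv₀, atkinLehnerN_algebraMap, atkinLehnerN_modUnit ι h hℓ]
    have e1 : (algebraMap k ↥(laurentBaseChange k (modularFunctionFieldFull (N * ℓ)))
        ((ℓ : k) ^ 12) * (modUnit k (N * ℓ) ℓ (Dvd.intro_left N rfl))⁻¹ *
        (algebraMap k _ (algebraMap R k ϖ ^ (12 * e)))⁻¹)⁻¹ =
        algebraMap k _ (algebraMap R k (((u⁻¹ : Rˣ) : R) ^ 12)) *
          deltaRatio 1 ℓ k (N * ℓ) (one_dvd _) (Dvd.intro_left N rfl) := by
      rw [← hc2, map_inv₀, map_mul, map_inv₀, modUnit]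
      have hne : algebraMap k ↥(laurentBaseChange k (modularFunctionFieldFull (N * ℓ)))
          (algebraMap R k ϖ ^ (12 * e)) ≠ 0 :=
        (_root_.map_ne_zero _).mpr (pow_ne_zero _ hϖk)
      have hne2 : algebraMap k ↥(laurentBaseChange k (modularFunctionFieldFull (N * ℓ)))
          ((ℓ : k) ^ 12) ≠ 0 :=
        (_root_.map_ne_zero _).mpr (pow_ne_zero _ (Nat.cast_ne_zero.mpr (NeZero.ne ℓ)))
      have hne3 := deltaRatio_ne_zero 1 ℓ k (N * ℓ) (one_dvd _) (Dvd.intro_left N rfl)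
      field_simp
    rw [e1, IntermediateField.coe_mul, coe_deltaRatio]
    refine (gaussInt R k).mul_mem ?_ (coeffEmb_deltaRatioSeries_mem_gaussInt R k 1 ℓ)
    show algebraMap k (LaurentSeries k) (algebraMap R k (((u⁻¹ : Rˣ) : R) ^ 12)) ∈ gaussInt R k
    rw [algebraMap_laurentSeries_eq_single, ← HahnSeries.C_apply]
    exact C_algebraMap_mem_gaussInt _

end Val

end Fermat.Agent.SS
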