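/-
(SS-q) UNODE-HOST — helper6 — part 3: **the `unit` field of `SSModel` on the Legendre / Hesse
hosts**, against two hypotheses on the valuation rings of the two sheets:
* `hWinf`: Gauss-integral elements of the host lie in `Winf`;
* `hW0`: the image in the host of a modular function `f ∈ F_N` whose Atkin–Lehner transform is
  Gauss-integral lies in `W0`.
The unit is the host image of `U = Δ(q)/Δ(q^ℓ)` (`ℓ` the residue characteristic, level `M ℓ`),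
`c = 12 v_ϖ(ℓ)`; `U^{±1}` is integral over `K₁[j]`.
-/
import Mathlib
import Fermat.Agent.SS.UNODEHOST_helper6_Val
import Fermat.Agent.SS.UNIT_helper6_Place
import Fermat.Agent.SS.CUSPT_helper3_Host
import Fermat.Agent.SS.NODE_helper8_Model
import Fermat.Agent.JA.UP_helper7_Emb

set_option autoImplicit false
set_option linter.unusedSectionVars false
set_option linter.style.haveILetI false

open ModularCurve

namespace Fermat.Agent.SS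

open Fermat.Agent.X0N Fermat.Agent.Igusa Fermat.Agent.JA

section Host

variable {R : Type*} [CommRing R] [IsDomain R] [IsDiscreteValuationRing R]
variable {K₁ : Type*} [Field K₁] [Algebra R K₁] [IsFractionRing R K₁] [Algebra ℚ K₁]
  (ι : K₁ →+* ℂ)
variable {M ℓ : ℕ} [NeZero M] [NeZero ℓ] [NeZero (M * ℓ)] {x y : ℤ}
  (h : (ℓ : ℤ) * x + M * y = 1)

/-- the host image of `j` (Legendre). -/
theorem fullToLegE_jGen (N : ℕ) [NeZero N] : fullToLegE K₁ N (jGen K₁ N) = legJE K₁ N := by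
  apply Subtype.ext
  rw [coe_fullToLegE, coe_legJE, jqNModC]
  congr 1
  exact coeffEmb_jq_eq_jqModC K₁

/-- the host image of `j` (Hesse). -/
theorem fullToHesE_jGen (N : ℕ) [NeZero N] : fullToHesE K₁ N (jGen K₁ N) = hesJE K₁ N := by
  apply Subtype.ext
  rw [coe_fullToHesE, coe_hesJE, jqNModC]
  congr 1
  exact coeffEmb_jq_eq_jqModC K₁

/-- integrality over `K₁[j]` is transported to the Legendre host. -/
theorem isIntegral_fullToLegE (N : ℕ) [NeZero N] {z : ↥(keyFq K₁ N)}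
    (hz : IsIntegral ↥(Algebra.adjoin K₁ {jGen K₁ N}) z) :
    IsIntegral ↥(Algebra.adjoin K₁ {legJE K₁ N}) (fullToLegE K₁ N z) := by
  have := isIntegral_adjoin_map (R := K₁) (fullToLegE K₁ N).toRingHom
      (fun r => (fullToLegE K₁ N).commutes r) hz
  rw [← fullToLegE_jGen]
  exact this

/-- integrality over `K₁[j]` is transported to the Hesse host. -/
theorem isIntegral_fullToHesE (N : ℕ) [NeZero N] {z : ↥(keyFq K₁ N)}
    (hz : IsIntegral ↥(Algebra.adjoin K₁ {jGen K₁ N}) z) :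
    IsIntegral ↥(Algebra.adjoin K₁ {hesJE K₁ N}) (fullToHesE K₁ N z) := by
  have := isIntegral_adjoin_map (R := K₁) (fullToHesE K₁ N).toRingHom
      (fun r => (fullToHesE K₁ N).commutes r) hz
  rw [← fullToHesE_jGen]
  exact this

/-- **the `unit` field of `SSModel` on the Legendre host.** -/
theorem exists_unit_legE (L : Type*) [Field L] [Algebra ℚ L] [Algebra K₁ L] [IsScalarTower ℚ K₁ L]
    [Algebra.IsAlgebraic K₁ L] [IsAlgClosed L] [Algebra L ℂ] [IsScalarTower ℚ L ℂ]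
    {ϖ : R} (hϖ : Irreducible ϖ) (hℓ : ℓ.Prime)
    (hℓϖ : (ℓ : R) ∈ Ideal.span {ϖ}) [Algebra R ↥(legE K₁ (M * ℓ))]
    [IsScalarTower R K₁ ↥(legE K₁ (M * ℓ))]
    (Winf W0 : ValuationSubring ↥(legE K₁ (M * ℓ)))
    (hWinf : ∀ z : ↥(legE K₁ (M * ℓ)), (z : LaurentSeries K₁) ∈ gaussInt R K₁ → z ∈ Winf)
    (hW0 : ∀ f : ↥(keyFq K₁ (M * ℓ)),
      ((atkinLehnerN ι h hℓ f : ↥(keyFq K₁ (M * ℓ))) : LaurentSeries K₁) ∈ gaussInt R K₁ →
        fullToLegE K₁ (M * ℓ) f ∈ W0) :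
    ∃ (U : ↥(legE K₁ (M * ℓ))) (c : ℕ), 1 ≤ c ∧ U ≠ 0 ∧ U ∈ Winf ∧ U⁻¹ ∈ Winf ∧
      U * (algebraMap R ↥(legE K₁ (M * ℓ)) ϖ ^ c)⁻¹ ∈ W0 ∧
      (U * (algebraMap R ↥(legE K₁ (M * ℓ)) ϖ ^ c)⁻¹)⁻¹ ∈ W0 ∧
      IsIntegral ↥(Algebra.adjoin K₁ {legJE K₁ (M * ℓ)}) U ∧
      IsIntegral ↥(Algebra.adjoin K₁ {legJE K₁ (M * ℓ)}) U⁻¹ := by
  set u := modUnit K₁ (M * ℓ) ℓ (Dvd.intro_left M rfl) with hu
  obtain ⟨c, hc, h1, h2⟩ := exists_atkinLehnerN_modUnit_mem_gaussInt R ι h hϖ hℓ hℓϖ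
  have hu0 : u ≠ 0 := deltaRatio_ne_zero 1 ℓ K₁ (M * ℓ) _ _
  have hπ : algebraMap R ↥(legE K₁ (M * ℓ)) ϖ ^ c =
      fullToLegE K₁ (M * ℓ) (algebraMap K₁ _ (algebraMap R K₁ ϖ ^ c)) := by
    rw [AlgHom.commutes, map_pow, ← IsScalarTower.algebraMap_apply]
  refine ⟨fullToLegE K₁ (M * ℓ) u, c, hc, (_root_.map_ne_zero _).mpr hu0, ?_, ?_, ?_, ?_, ?_, ?_⟩
  · apply hWinf
    rw [coe_fullToLegE]
    exact (gaussHomQExpand R K₁ 2).map_mem_gaussInt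
      (coeffEmb_deltaRatioSeries_mem_gaussInt R K₁ 1 ℓ)
  · apply hWinf
    rw [← map_inv₀, coe_fullToLegE, hu, modUnit, deltaRatio_inv]
    exact (gaussHomQExpand R K₁ 2).map_mem_gaussInt
      (coeffEmb_deltaRatioSeries_mem_gaussInt R K₁ ℓ 1)
  · rw [hπ, ← map_inv₀, ← map_mul]
    exact hW0 _ h1
  · rw [hπ, ← map_inv₀, ← map_mul, ← map_inv₀]
    exact hW0 _ h2
  · exact isIntegral_fullToLegE (M * ℓ)
      (isIntegral_deltaRatio 1 ℓ L (one_dvd _) (Dvd.intro_left M rfl))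
  · rw [← map_inv₀, hu, modUnit, deltaRatio_inv]
    exact isIntegral_fullToLegE (M * ℓ)
      (isIntegral_deltaRatio ℓ 1 L (Dvd.intro_left M rfl) (one_dvd _))

/-- **the `unit` field of `SSModel` on the Hesse host.** -/
theorem exists_unit_hesE (L : Type*) [Field L] [Algebra ℚ L] [Algebra K₁ L] [IsScalarTower ℚ K₁ L]
    [Algebra.IsAlgebraic K₁ L] [IsAlgClosed L] [Algebra L ℂ] [IsScalarTower ℚ L ℂ]
    {ϖ : R} (hϖ : Irreducible ϖ) (hℓ : ℓ.Prime)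
    (hℓϖ : (ℓ : R) ∈ Ideal.span {ϖ}) [Algebra R ↥(hesE K₁ (M * ℓ))]
    [IsScalarTower R K₁ ↥(hesE K₁ (M * ℓ))]
    (Winf W0 : ValuationSubring ↥(hesE K₁ (M * ℓ)))
    (hWinf : ∀ z : ↥(hesE K₁ (M * ℓ)), (z : LaurentSeries K₁) ∈ gaussInt R K₁ → z ∈ Winf)
    (hW0 : ∀ f : ↥(keyFq K₁ (M * ℓ)),
      ((atkinLehnerN ι h hℓ f : ↥(keyFq K₁ (M * ℓ))) : LaurentSeries K₁) ∈ gaussInt R K₁ →
        fullToHesE K₁ (M * ℓ) f ∈ W0) :
    ∃ (U : ↥(hesE K₁ (M * ℓ))) (c : ℕ), 1 ≤ c ∧ U ≠ 0 ∧ U ∈ Winf ∧ U⁻¹ ∈ Winf ∧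
      U * (algebraMap R ↥(hesE K₁ (M * ℓ)) ϖ ^ c)⁻¹ ∈ W0 ∧
      (U * (algebraMap R ↥(hesE K₁ (M * ℓ)) ϖ ^ c)⁻¹)⁻¹ ∈ W0 ∧
      IsIntegral ↥(Algebra.adjoin K₁ {hesJE K₁ (M * ℓ)}) U ∧
      IsIntegral ↥(Algebra.adjoin K₁ {hesJE K₁ (M * ℓ)}) U⁻¹ := by
  set u := modUnit K₁ (M * ℓ) ℓ (Dvd.intro_left M rfl) with hu
  obtain ⟨c, hc, h1, h2⟩ := exists_atkinLehnerN_modUnit_mem_gaussInt R ι h hϖ hℓ hℓϖ
  have hu0 : u ≠ 0 := deltaRatio_ne_zero 1 ℓ K₁ (M * ℓ) _ _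
  have hπ : algebraMap R ↥(hesE K₁ (M * ℓ)) ϖ ^ c =
      fullToHesE K₁ (M * ℓ) (algebraMap K₁ _ (algebraMap R K₁ ϖ ^ c)) := by
    rw [AlgHom.commutes, map_pow, ← IsScalarTower.algebraMap_apply]
  refine ⟨fullToHesE K₁ (M * ℓ) u, c, hc, (_root_.map_ne_zero _).mpr hu0, ?_, ?_, ?_, ?_, ?_, ?_⟩
  · apply hWinf
    rw [coe_fullToHesE]
    exact (gaussHomQExpand R K₁ 3).map_mem_gaussInt
      (coeffEmb_deltaRatioSeries_mem_gaussInt R K₁ 1 ℓ)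
  · apply hWinf
    rw [← map_inv₀, coe_fullToHesE, hu, modUnit, deltaRatio_inv]
    exact (gaussHomQExpand R K₁ 3).map_mem_gaussInt
      (coeffEmb_deltaRatioSeries_mem_gaussInt R K₁ ℓ 1)
  · rw [hπ, ← map_inv₀, ← map_mul]
    exact hW0 _ h1
  · rw [hπ, ← map_inv₀, ← map_mul, ← map_inv₀]
    exact hW0 _ h2
  · exact isIntegral_fullToHesE (M * ℓ)
      (isIntegral_deltaRatio 1 ℓ L (one_dvd _) (Dvd.intro_left M rfl))
  · rw [← map_inv₀, hu, modUnit, deltaRatio_inv]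
    exact isIntegral_fullToHesE (M * ℓ)
      (isIntegral_deltaRatio ℓ 1 L (Dvd.intro_left M rfl) (one_dvd _))

end Host

end Fermat.Agent.SS
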