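/-
(SS-q) KRON-HOST — helper6 — **the Kronecker congruences of `SSModel` on the hosts**
(`kron_j_inf`, `kron_t_inf`, `kron_j_zero`) in valuation form, against the same two hypotheses on
the valuation rings of the two sheets as UNODE-HOST:
* `hWinf`: Gauss-integral elements of the host lie in `Winf`;
* `hW0`: the host image of a modular function whose Atkin–Lehner transform is Gauss-integral lies
  in `W0`;
together with `ϖ⁻¹ ∉ Winf`, `ϖ⁻¹ ∉ W0`.
-/
import Mathlib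
import Fermat.Agent.SS.HOSTINT_helper6_Main
import Fermat.Agent.SS.UNODEHOST_helper6_Host

set_option autoImplicit false
set_option linter.unusedSectionVars false
set_option linter.style.haveILetI false

open ModularCurve

namespace Fermat.Agent.SS

open Fermat.Agent.X0N Fermat.Agent.Igusa Fermat.Agent.JA

section Generic

variable {R : Type*} [CommRing R] [IsDomain R] [IsDiscreteValuationRing R]
variable {L : Type*} [Field L] [Algebra R L] [IsFractionRing R L]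

/-- **from Gauss reduction zero to valuation `< 1`**, through ring homomorphisms: `g : F → L⸨x⸩`
measures Gauss integrality, `θ : F → E` is the map into the field carrying the valuation ring `V`,
`c ∈ F` is the uniformizer (`g c = ϖ`), `θ c` is not a unit of `V`. -/
theorem valuation_lt_one_of_gaussRed_eq_zero_of_ringHom {ϖ : R} (hϖ : Irreducible ϖ)
    {F E : Type*} [Field F] [Field E] (g : F →+* LaurentSeries L) (θ : F →+* E)
    (V : ValuationSubring E) (hV : ∀ f : F, g f ∈ gaussInt R L → θ f ∈ V)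
    (c : F) (hc : g c = HahnSeries.C (algebraMap R L ϖ)) (hcV : (θ c)⁻¹ ∉ V)
    (f : F) (hf : g f ∈ gaussInt R L) (h0 : gaussRed R L ⟨g f, hf⟩ = 0) :
    V.valuation (θ f) < 1 := by
  obtain ⟨y, hy⟩ := (gaussRed_eq_zero_iff hϖ ⟨g f, hf⟩).mp h0
  have hC := C_algebraMap_ne_zero (L := L) hϖ.ne_zero
  have hc0 : c ≠ 0 := by
    intro h
    rw [h, map_zero] at hc
    exact hC hc.symm
  have hθc0 : θ c ≠ 0 := (_root_.map_ne_zero θ).mpr hc0
  -- `f / c` is Gauss-integral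
  have h1 : g (f * c⁻¹) = (y : LaurentSeries L) := by
    rw [map_mul, map_inv₀, hc]
    change g f = _ at hy
    rw [hy]
    field_simp
  have h2 : θ (f * c⁻¹) ∈ V := hV _ (by rw [h1]; exact y.2)
  have h3 : θ f = θ (f * c⁻¹) * θ c := by
    rw [← map_mul, mul_assoc, inv_mul_cancel₀ hc0, mul_one]
  have hvc : V.valuation (θ c) < 1 := by
    by_contra hge
    rw [not_lt] at hge
    apply hcV
    rw [← ValuationSubring.valuation_le_one_iff, map_inv₀]
    exact inv_le_one_of_one_le₀ hge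
  rw [h3, map_mul]
  calc V.valuation (θ (f * c⁻¹)) * V.valuation (θ c)
      ≤ 1 * V.valuation (θ c) :=
        mul_le_mul_left ((ValuationSubring.valuation_le_one_iff _ _).mpr h2) _
    _ = V.valuation (θ c) := one_mul _
    _ < 1 := hvc

variable [Algebra ℚ L]

/-- **`kron_*_inf`**: for a series `T` defined over the prime ring, elements `a`, `b` of a host
`E ≤ L⸨x⸩` with `a = T`, `b = T(x^q)` satisfy `v(b − a^q) < 1` for every valuation ring `V` of `E`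
containing the Gauss-integral elements in which `ϖ` is not a unit. -/
theorem IsPrimeSeries.valuation_sub_pow_lt_one {T : LaurentSeries L} (hT : IsPrimeSeries R L T)
    {ϖ : R} (hϖ : Irreducible ϖ) (q : ℕ) [NeZero q] [ExpChar (IsLocalRing.ResidueField R) q]
    (E : IntermediateField L (LaurentSeries L)) (V : ValuationSubring E)
    (hV : ∀ z : E, (z : LaurentSeries L) ∈ gaussInt R L → z ∈ V)
    (hϖV : (algebraMap L E (algebraMap R L ϖ))⁻¹ ∉ V) (a b : E)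
    (ha : (a : LaurentSeries L) = T) (hb : (b : LaurentSeries L) = qExpand L q T) :
    V.valuation (b - a ^ q) < 1 := by
  obtain ⟨h, h0⟩ := hT.kronecker_gaussRed q
  have hcoe : ((b - a ^ q : E) : LaurentSeries L) = qExpand L q T - T ^ q := by
    rw [AddSubgroupClass.coe_sub, IntermediateField.coe_pow, ha, hb]
  have := valuation_lt_one_of_gaussRed_eq_zero_of_ringHom hϖ (E.val : E →+* LaurentSeries L)
    (RingHom.id E) V hV (algebraMap L E (algebraMap R L ϖ))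
    (by
      show algebraMap L (LaurentSeries L) (algebraMap R L ϖ) = _
      rw [algebraMap_laurentSeries_eq_single, ← HahnSeries.C_apply])
    hϖV (b - a ^ q)
    (by show ((b - a ^ q : E) : LaurentSeries L) ∈ gaussInt R L; rw [hcoe]; exact h)
    (by
      have e : (⟨(E.val : E →+* LaurentSeries L) (b - a ^ q), by
          show ((b - a ^ q : E) : LaurentSeries L) ∈ gaussInt R L; rw [hcoe]; exact h⟩ :
          gaussInt R L) = ⟨qExpand L q T - T ^ q, h⟩ := Subtype.ext hcoe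
      rw [e]
      exact h0)
  exact this

end Generic

section Zero

variable {R : Type*} [CommRing R] [IsDomain R] [IsDiscreteValuationRing R]
variable {K₁ : Type*} [Field K₁] [Algebra R K₁] [IsFractionRing R K₁] [Algebra ℚ K₁]
  (ι : K₁ →+* ℂ)
variable {M ℓ : ℕ} [NeZero M] [NeZero ℓ] [NeZero (M * ℓ)] {x y : ℤ}
  (h : (ℓ : ℤ) * x + M * y = 1)

/-- **`kron_j_zero` at the level of the function field of `X₀(M ℓ)`**: the Atkin–Lehner transform
of `j(q) − j(q^ℓ)^ℓ` is `j(q^ℓ) − j(q)^ℓ`, which is Gauss-integral with reduction `0`. -/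
theorem exists_gaussRed_atkinLehnerN_kron {ϖ : R} (hϖ : Irreducible ϖ) (hℓ : ℓ.Prime)
    (hℓϖ : (ℓ : R) ∈ Ideal.span {ϖ}) :
    ∃ hmem : ((atkinLehnerN ι h hℓ (heckeAlphaBar K₁ M ℓ (jGen K₁ M) -
        heckeBetaBar K₁ M ℓ (jGen K₁ M) ^ ℓ) : ↥(keyFq K₁ (M * ℓ))) : LaurentSeries K₁) ∈
        gaussInt R K₁, gaussRed R K₁ ⟨_, hmem⟩ = 0 := by
  haveI : CharP (IsLocalRing.ResidueField R) ℓ := charP_residueField_of_mem_span hϖ hℓ hℓϖ
  haveI : ExpChar (IsLocalRing.ResidueField R) ℓ := ExpChar.prime hℓ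
  have hT : IsPrimeSeries R K₁ (jqModC K₁) := by
    have := isPrimeSeries_jqNModC R K₁ 1
    rwa [jqNModC, qExpand_one_apply] at this
  obtain ⟨hk, hk0⟩ := hT.kronecker_gaussRed ℓ
  have hcoe : ((atkinLehnerN ι h hℓ (heckeAlphaBar K₁ M ℓ (jGen K₁ M) -
      heckeBetaBar K₁ M ℓ (jGen K₁ M) ^ ℓ) : ↥(keyFq K₁ (M * ℓ))) : LaurentSeries K₁) =
      qExpand K₁ ℓ (jqModC K₁) - jqModC K₁ ^ ℓ := by
    rw [map_sub, map_pow, atkinLehnerN_alpha, atkinLehnerN_beta, AddSubgroupClass.coe_sub,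
      IntermediateField.coe_pow, coe_heckeBetaBar, coe_heckeAlphaBar]
    show qExpand K₁ ℓ (coeffEmb K₁ jq) - coeffEmb K₁ jq ^ ℓ = _
    rw [coeffEmb_jq_eq_jqModC]
  refine ⟨by rw [hcoe]; exact hk, ?_⟩
  have e : (⟨((atkinLehnerN ι h hℓ (heckeAlphaBar K₁ M ℓ (jGen K₁ M) -
      heckeBetaBar K₁ M ℓ (jGen K₁ M) ^ ℓ) : ↥(keyFq K₁ (M * ℓ))) : LaurentSeries K₁),
      by rw [hcoe]; exact hk⟩ : gaussInt R K₁) = ⟨qExpand K₁ ℓ (jqModC K₁) - jqModC K₁ ^ ℓ, hk⟩ :=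
    Subtype.ext hcoe
  rw [e]
  exact hk0

/-- **`kron_j_zero` on the Legendre host.** -/
theorem kron_j_zero_legE {ϖ : R} (hϖ : Irreducible ϖ) (hℓ : ℓ.Prime)
    (hℓϖ : (ℓ : R) ∈ Ideal.span {ϖ}) (W0 : ValuationSubring ↥(legE K₁ (M * ℓ)))
    (hW0 : ∀ f : ↥(keyFq K₁ (M * ℓ)),
      ((atkinLehnerN ι h hℓ f : ↥(keyFq K₁ (M * ℓ))) : LaurentSeries K₁) ∈ gaussInt R K₁ →
        fullToLegE K₁ (M * ℓ) f ∈ W0)
    (hϖW0 : (algebraMap K₁ ↥(legE K₁ (M * ℓ)) (algebraMap R K₁ ϖ))⁻¹ ∉ W0)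
    (a b : ↥(legE K₁ (M * ℓ))) (ha : (a : LaurentSeries K₁) = jqNModC K₁ 2)
    (hb : (b : LaurentSeries K₁) = qExpand K₁ ℓ (jqNModC K₁ 2)) :
    W0.valuation (a - b ^ ℓ) < 1 := by
  obtain ⟨hmem, h0⟩ := exists_gaussRed_atkinLehnerN_kron ι h hϖ hℓ hℓϖ
  have hab : a - b ^ ℓ = fullToLegE K₁ (M * ℓ) (heckeAlphaBar K₁ M ℓ (jGen K₁ M) -
      heckeBetaBar K₁ M ℓ (jGen K₁ M) ^ ℓ) := by
    apply Subtype.ext
    have hj : ((jGen K₁ M : ↥(keyFq K₁ M)) : LaurentSeries K₁) = jqModC K₁ :=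
      coeffEmb_jq_eq_jqModC K₁
    have e1 : qExpand K₁ 2 (qExpand K₁ ℓ (jqModC K₁)) =
        qExpand K₁ ℓ (qExpand K₁ 2 (jqModC K₁)) := by
      rw [qExpand_qExpand, qExpand_qExpand]
      exact qExpand_congr (R := K₁) (mul_comm 2 ℓ) _
    rw [coe_fullToLegE, AddSubgroupClass.coe_sub, IntermediateField.coe_pow, ha, hb,
      AddSubgroupClass.coe_sub, IntermediateField.coe_pow, coe_heckeBetaBar, coe_heckeAlphaBar,
      map_sub, map_pow, hj, e1, jqNModC]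
  rw [hab]
  exact valuation_lt_one_of_gaussRed_eq_zero_of_ringHom hϖ
    (((keyFq K₁ (M * ℓ)).val : ↥(keyFq K₁ (M * ℓ)) →+* LaurentSeries K₁).comp
      (atkinLehnerN ι h hℓ))
    (fullToLegE K₁ (M * ℓ) : ↥(keyFq K₁ (M * ℓ)) →+* ↥(legE K₁ (M * ℓ))) W0 hW0
    (algebraMap K₁ _ (algebraMap R K₁ ϖ))
    (by
      show ((atkinLehnerN ι h hℓ (algebraMap K₁ _ (algebraMap R K₁ ϖ)) :
        ↥(keyFq K₁ (M * ℓ))) : LaurentSeries K₁) = _
      rw [atkinLehnerN_algebraMap]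
      show algebraMap K₁ (LaurentSeries K₁) (algebraMap R K₁ ϖ) = _
      rw [algebraMap_laurentSeries_eq_single, ← HahnSeries.C_apply])
    (by
      have : (fullToLegE K₁ (M * ℓ) : ↥(keyFq K₁ (M * ℓ)) →+* ↥(legE K₁ (M * ℓ)))
          (algebraMap K₁ _ (algebraMap R K₁ ϖ)) =
          algebraMap K₁ ↥(legE K₁ (M * ℓ)) (algebraMap R K₁ ϖ) :=
        (fullToLegE K₁ (M * ℓ)).commutes _
      rw [this]
      exact hϖW0)
    _ hmem h0

/-- **`kron_j_zero` on the Hesse host.** -/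
theorem kron_j_zero_hesE {ϖ : R} (hϖ : Irreducible ϖ) (hℓ : ℓ.Prime)
    (hℓϖ : (ℓ : R) ∈ Ideal.span {ϖ}) (W0 : ValuationSubring ↥(hesE K₁ (M * ℓ)))
    (hW0 : ∀ f : ↥(keyFq K₁ (M * ℓ)),
      ((atkinLehnerN ι h hℓ f : ↥(keyFq K₁ (M * ℓ))) : LaurentSeries K₁) ∈ gaussInt R K₁ →
        fullToHesE K₁ (M * ℓ) f ∈ W0)
    (hϖW0 : (algebraMap K₁ ↥(hesE K₁ (M * ℓ)) (algebraMap R K₁ ϖ))⁻¹ ∉ W0)
    (a b : ↥(hesE K₁ (M * ℓ))) (ha : (a : LaurentSeries K₁) = jqNModC K₁ 3)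
    (hb : (b : LaurentSeries K₁) = qExpand K₁ ℓ (jqNModC K₁ 3)) :
    W0.valuation (a - b ^ ℓ) < 1 := by
  obtain ⟨hmem, h0⟩ := exists_gaussRed_atkinLehnerN_kron ι h hϖ hℓ hℓϖ
  have hab : a - b ^ ℓ = fullToHesE K₁ (M * ℓ) (heckeAlphaBar K₁ M ℓ (jGen K₁ M) -
      heckeBetaBar K₁ M ℓ (jGen K₁ M) ^ ℓ) := by
    apply Subtype.ext
    have hj : ((jGen K₁ M : ↥(keyFq K₁ M)) : LaurentSeries K₁) = jqModC K₁ :=
      coeffEmb_jq_eq_jqModC K₁
    have e1 : qExpand K₁ 3 (qExpand K₁ ℓ (jqModC K₁)) =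
        qExpand K₁ ℓ (qExpand K₁ 3 (jqModC K₁)) := by
      rw [qExpand_qExpand, qExpand_qExpand]
      exact qExpand_congr (R := K₁) (mul_comm 3 ℓ) _
    rw [coe_fullToHesE, AddSubgroupClass.coe_sub, IntermediateField.coe_pow, ha, hb,
      AddSubgroupClass.coe_sub, IntermediateField.coe_pow, coe_heckeBetaBar, coe_heckeAlphaBar,
      map_sub, map_pow, hj, e1, jqNModC]
  rw [hab]
  exact valuation_lt_one_of_gaussRed_eq_zero_of_ringHom hϖ
    (((keyFq K₁ (M * ℓ)).val : ↥(keyFq K₁ (M * ℓ)) →+* LaurentSeries K₁).comp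
      (atkinLehnerN ι h hℓ))
    (fullToHesE K₁ (M * ℓ) : ↥(keyFq K₁ (M * ℓ)) →+* ↥(hesE K₁ (M * ℓ))) W0 hW0
    (algebraMap K₁ _ (algebraMap R K₁ ϖ))
    (by
      show ((atkinLehnerN ι h hℓ (algebraMap K₁ _ (algebraMap R K₁ ϖ)) :
        ↥(keyFq K₁ (M * ℓ))) : LaurentSeries K₁) = _
      rw [atkinLehnerN_algebraMap]
      show algebraMap K₁ (LaurentSeries K₁) (algebraMap R K₁ ϖ) = _
      rw [algebraMap_laurentSeries_eq_single, ← HahnSeries.C_apply])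
    (by
      have : (fullToHesE K₁ (M * ℓ) : ↥(keyFq K₁ (M * ℓ)) →+* ↥(hesE K₁ (M * ℓ)))
          (algebraMap K₁ _ (algebraMap R K₁ ϖ)) =
          algebraMap K₁ ↥(hesE K₁ (M * ℓ)) (algebraMap R K₁ ϖ) :=
        (fullToHesE K₁ (M * ℓ)).commutes _
      rw [this]
      exact hϖW0)
    _ hmem h0

end Zero

end Fermat.Agent.SS
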