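/-
(SS-q) FIELD — helper6 — **the two basic exports of the concrete `W_0`** (`hostW0`, `legW0`,
`hesW0` of `MODEL_helper7_Defs`) in the shape consumed by UNODE-HOST / KRON-HOST:

* `inclusion_mem_hostW0_of_atkinLehnerN` : the host image of a modular function whose Atkin–Lehner
  transform is Gauss-integral lies in `hostW0`;
* `legW0_mem_of_atkinLehnerN`, `hesW0_mem_of_atkinLehnerN` : the same for `fullToLegE`,
  `fullToHesE` (= hypothesis `hW0`);
* `inv_uniformizer_notMem_gaussInt`, `inv_uniformizer_notMem_legW0`, `…_hesW0`, `…_legWinf`,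
  `…_hesWinf` : a uniformizer of `R` is not a unit of the sheets (= hypotheses `hϖW0`, `hϖWinf`);
* `mem_legWinf_of_mem_gaussInt`, … (= hypothesis `hWinf`, by definition).
-/
import Mathlib
import Fermat.Agent.SS.MODEL_helper7_Defs
import Fermat.Agent.SS.KRONHOST_helper6

set_option autoImplicit false
set_option linter.unusedSectionVars false
set_option linter.style.haveILetI false
set_option synthInstance.maxHeartbeats 200000

open Polynomial ModularCurve IntermediateField

namespace Fermat.Agent.SS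

open Fermat.Agent.JA Fermat.Agent.Igusa Fermat.Agent.X0N

open scoped Fermat.Agent.JA.Host

section Gauss

variable {R : Type*} [CommRing R] [IsDomain R] [IsDiscreteValuationRing R]
  {L : Type*} [Field L] [Algebra R L] [IsFractionRing R L]

/-- a uniformizer of `R` is not invertible in the Gauss-integral series. -/
theorem inv_uniformizer_notMem_gaussInt {ϖ : R} (hϖ : Irreducible ϖ) :
    ((HahnSeries.C (algebraMap R L ϖ) : LaurentSeries L))⁻¹ ∉ gaussInt R L := by
  intro hmem
  have hC := C_algebraMap_ne_zero (L := L) hϖ.ne_zero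
  have h0 : gaussRed R L ⟨HahnSeries.C (algebraMap R L ϖ), C_algebraMap_mem_gaussInt ϖ⟩ = 0 := by
    rw [gaussRed_eq_zero_iff hϖ]
    exact ⟨1, by simp⟩
  have h1 : (⟨HahnSeries.C (algebraMap R L ϖ), C_algebraMap_mem_gaussInt ϖ⟩ : gaussInt R L) *
      ⟨_, hmem⟩ = 1 := by
    apply Subtype.ext
    show (HahnSeries.C (algebraMap R L ϖ) : LaurentSeries L) * _ = 1
    exact mul_inv_cancel₀ hC
  have h2 := congrArg (gaussRed R L) h1
  rw [map_mul, h0, zero_mul, map_one] at h2
  exact zero_ne_one h2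

end Gauss

section Host

variable (K : Type*) [Field K] [Algebra ℚ K] (ι : K →+* ℂ) {M q : ℕ} [NeZero M] [NeZero q]
  [NeZero (M * q)] (w : ℕ) [NeZero w] {x y : ℤ} (h : (q : ℤ) * x + M * y = 1) (hq : q.Prime)
  (R : Type*) [CommRing R] [IsDomain R] [IsDiscreteValuationRing R]
  [Algebra R K] [IsFractionRing R K]

/-- membership in `hostW0` for elements of the host image of `F_{M q}`. -/
theorem inclusion_mem_hostW0_iff (E : IntermediateField K (LaurentSeries K))
    (hE : keyFw K (M * q) w ≤ E) (g : ↥(keyFw K (M * q) w)) :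
    (IntermediateField.inclusion hE g : ↥E) ∈ hostW0 K ι w h hq R E hE ↔
      ((alHost K ι w h hq g : ↥(keyFw K (M * q) w)) : LaurentSeries K) ∈ gaussInt R K := by
  rw [← mem_hostW0F_iff, ← hostW0_comap K ι w h hq R E hE]
  rfl

/-- **(hW0)** the host image of a modular function whose Atkin–Lehner transform is Gauss-integral
lies in `hostW0`. -/
theorem inclusion_mem_hostW0_of_atkinLehnerN (E : IntermediateField K (LaurentSeries K))
    (hE : keyFw K (M * q) w ≤ E) (f : ↥(keyFq K (M * q)))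
    (hf : ((atkinLehnerN ι h hq f : ↥(keyFq K (M * q))) : LaurentSeries K) ∈ gaussInt R K) :
    (IntermediateField.inclusion hE (hostImageEquiv K w (keyFq K (M * q)) f) : ↥E) ∈
      hostW0 K ι w h hq R E hE := by
  rw [inclusion_mem_hostW0_iff, alHost_hostImageEquiv, coe_hostImageEquiv]
  exact (gaussHomQExpand R K w).map_mem_gaussInt hf

/-- **(hϖW0)** a uniformizer of `R` is not a unit of `hostW0`. -/
theorem inv_uniformizer_notMem_hostW0 {ϖ : R} (hϖ : Irreducible ϖ)
    (E : IntermediateField K (LaurentSeries K)) (hE : keyFw K (M * q) w ≤ E) :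
    (algebraMap K ↥E (algebraMap R K ϖ))⁻¹ ∉ hostW0 K ι w h hq R E hE := by
  intro hmem
  have e1 : (algebraMap K ↥E (algebraMap R K ϖ))⁻¹ =
      IntermediateField.inclusion hE
        (hostImageEquiv K w (keyFq K (M * q)) (algebraMap K _ (algebraMap R K ϖ))⁻¹) := by
    rw [map_inv₀, map_inv₀, AlgEquiv.commutes, AlgHom.commutes]
  rw [e1, inclusion_mem_hostW0_iff, alHost_hostImageEquiv, coe_hostImageEquiv, map_inv₀,
    atkinLehnerN_algebraMap] at hmem
  apply inv_uniformizer_notMem_gaussInt (L := K) hϖ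
  have e2 : qExpand K w (((algebraMap K ↥(keyFq K (M * q)) (algebraMap R K ϖ))⁻¹ :
      ↥(keyFq K (M * q))) : LaurentSeries K) =
      ((HahnSeries.C (algebraMap R K ϖ) : LaurentSeries K))⁻¹ := by
    have h1 : (((algebraMap K ↥(keyFq K (M * q)) (algebraMap R K ϖ))⁻¹ :
        ↥(keyFq K (M * q))) : LaurentSeries K) =
        (algebraMap K (LaurentSeries K) (algebraMap R K ϖ))⁻¹ := by
      rw [IntermediateField.coe_inv]
      rfl
    rw [h1, ← map_inv₀, ← qExpandAlgHomC_apply, AlgHom.commutes, map_inv₀,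
      algebraMap_laurentSeries_eq_single, ← HahnSeries.C_apply]
  rw [← e2]
  exact hmem

end Host

section Concrete

variable (R : Type*) [CommRing R] [IsDomain R] [IsDiscreteValuationRing R] [CharZero R]
  (K : Type*) [Field K] [Algebra R K] [IsFractionRing R K] [Algebra ℚ K] [Algebra K ℂ]
  {M q : ℕ} [NeZero M] [NeZero q] [NeZero (M * q)] {x y : ℤ}
  (h : (q : ℤ) * x + M * y = 1) (hq : q.Prime)

/-- **(hW0), Legendre.** -/
theorem legW0_mem_of_atkinLehnerN (f : ↥(keyFq K (M * q)))
    (hf : ((atkinLehnerN (algebraMap K ℂ) h hq f : ↥(keyFq K (M * q))) : LaurentSeries K) ∈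
      gaussInt R K) :
    fullToLegE K (M * q) f ∈ legW0 R K h hq := by
  have e : fullToLegE K (M * q) f = IntermediateField.inclusion (keyFw_le_legE K (M * q))
      (hostImageEquiv K 2 (keyFq K (M * q)) f) := Subtype.ext rfl
  rw [e]
  exact inclusion_mem_hostW0_of_atkinLehnerN K (algebraMap K ℂ) 2 h hq R _ _ f hf

/-- **(hW0), Hesse.** -/
theorem hesW0_mem_of_atkinLehnerN (f : ↥(keyFq K (M * q)))
    (hf : ((atkinLehnerN (algebraMap K ℂ) h hq f : ↥(keyFq K (M * q))) : LaurentSeries K) ∈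
      gaussInt R K) :
    fullToHesE K (M * q) f ∈ hesW0 R K h hq := by
  have e : fullToHesE K (M * q) f = IntermediateField.inclusion (keyFw_le_hesE K (M * q))
      (hostImageEquiv K 3 (keyFq K (M * q)) f) := Subtype.ext rfl
  rw [e]
  exact inclusion_mem_hostW0_of_atkinLehnerN K (algebraMap K ℂ) 3 h hq R _ _ f hf

/-- **(hϖW0), Legendre.** -/
theorem inv_uniformizer_notMem_legW0 {ϖ : R} (hϖ : Irreducible ϖ) :
    (algebraMap K ↥(legE K (M * q)) (algebraMap R K ϖ))⁻¹ ∉ legW0 R K h hq :=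
  inv_uniformizer_notMem_hostW0 K (algebraMap K ℂ) 2 h hq R hϖ _ _

/-- **(hϖW0), Hesse.** -/
theorem inv_uniformizer_notMem_hesW0 {ϖ : R} (hϖ : Irreducible ϖ) :
    (algebraMap K ↥(hesE K (M * q)) (algebraMap R K ϖ))⁻¹ ∉ hesW0 R K h hq :=
  inv_uniformizer_notMem_hostW0 K (algebraMap K ℂ) 3 h hq R hϖ _ _

/-- **(hWinf), Legendre** (by definition). -/
theorem mem_legWinf_of_mem_gaussInt (h2 : IsUnit (2 : R)) (N : ℕ) [NeZero N] (z : ↥(legE K N))
    (hz : (z : LaurentSeries K) ∈ gaussInt R K) : z ∈ legWinf R K h2 N := hz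

/-- **(hWinf), Hesse** (by definition). -/
theorem mem_hesWinf_of_mem_gaussInt (h3 : IsUnit (3 : R)) (N : ℕ) [NeZero N] (z : ↥(hesE K N))
    (hz : (z : LaurentSeries K) ∈ gaussInt R K) : z ∈ hesWinf R K h3 N := hz

/-- **(hϖWinf), Legendre.** -/
theorem inv_uniformizer_notMem_legWinf (h2 : IsUnit (2 : R)) (N : ℕ) [NeZero N] {ϖ : R}
    (hϖ : Irreducible ϖ) :
    (algebraMap K ↥(legE K N) (algebraMap R K ϖ))⁻¹ ∉ legWinf R K h2 N := by
  intro hmem
  apply inv_uniformizer_notMem_gaussInt (L := K) hϖ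
  have : (((algebraMap K ↥(legE K N) (algebraMap R K ϖ))⁻¹ : ↥(legE K N)) : LaurentSeries K) =
      ((HahnSeries.C (algebraMap R K ϖ) : LaurentSeries K))⁻¹ := by
    rw [IntermediateField.coe_inv]
    show (algebraMap K (LaurentSeries K) (algebraMap R K ϖ))⁻¹ = _
    rw [algebraMap_laurentSeries_eq_single, ← HahnSeries.C_apply]
  rw [← this]
  exact hmem

/-- **(hϖWinf), Hesse.** -/
theorem inv_uniformizer_notMem_hesWinf (h3 : IsUnit (3 : R)) (N : ℕ) [NeZero N] {ϖ : R}
    (hϖ : Irreducible ϖ) :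
    (algebraMap K ↥(hesE K N) (algebraMap R K ϖ))⁻¹ ∉ hesWinf R K h3 N := by
  intro hmem
  apply inv_uniformizer_notMem_gaussInt (L := K) hϖ
  have : (((algebraMap K ↥(hesE K N) (algebraMap R K ϖ))⁻¹ : ↥(hesE K N)) : LaurentSeries K) =
      ((HahnSeries.C (algebraMap R K ϖ) : LaurentSeries K))⁻¹ := by
    rw [IntermediateField.coe_inv]
    show (algebraMap K (LaurentSeries K) (algebraMap R K ϖ))⁻¹ = _
    rw [algebraMap_laurentSeries_eq_single, ← HahnSeries.C_apply]
  rw [← this]
  exact hmem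

end Concrete

end Fermat.Agent.SS
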