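/-
(SS-q) FIELD — helper6 — **the fields `kron_j_inf`, `kron_j_zero`, `kron_t_inf` of
`SSModelLeg` / `SSModelHes`** (MODEL_helper7_Defs), statements verbatim as they appear after
unfolding the two definitions.
-/
import Mathlib
import Fermat.Agent.SS.FIELD_helper6_W0

set_option autoImplicit false
set_option linter.unusedSectionVars false
set_option linter.style.haveILetI false
set_option synthInstance.maxHeartbeats 200000

open Polynomial ModularCurve IntermediateField

namespace Fermat.Agent.SS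

open Fermat.Agent.JA Fermat.Agent.Igusa Fermat.Agent.X0N

open scoped Fermat.Agent.JA.Host

section Fields

variable (R : Type*) [CommRing R] [IsDomain R] [IsDiscreteValuationRing R] [CharZero R]
  (K : Type*) [Field K] [Algebra R K] [IsFractionRing R K] [Algebra ℚ K] [Algebra K ℂ]
  {M q : ℕ} [NeZero M] [NeZero q] [NeZero (M * q)] {x y : ℤ}

/-- **`kron_j_inf`, Legendre.** -/
theorem ssModelLeg_kron_j_inf {π : R} (hπ : Irreducible π) (h2 : IsUnit (2 : R))
    (hq : q.Prime) (hq2 : q ≠ 2) (hqπ : (q : R) ∈ Ideal.span {π}) :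
    (legWinf R K h2 (M * q)).valuation
      ((legHostB K M q hq hq2 : ↥(legE K M) →+* ↥(legE K (M * q))) (legJE K M) -
        (legHostA K M q : ↥(legE K M) →+* ↥(legE K (M * q))) (legJE K M) ^ q) < 1 := by
  haveI : CharP (IsLocalRing.ResidueField R) q := charP_residueField_of_mem_span hπ hq hqπ
  haveI : ExpChar (IsLocalRing.ResidueField R) q := ExpChar.prime hq
  exact (isPrimeSeries_jqNModC R K 2).valuation_sub_pow_lt_one hπ q (legE K (M * q))
    (legWinf R K h2 (M * q)) (mem_legWinf_of_mem_gaussInt R K h2 (M * q))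
    (inv_uniformizer_notMem_legWinf R K h2 (M * q) hπ) _ _
    (by rw [RingHom.coe_coe, coe_legHostA, coe_legJE])
    (by rw [RingHom.coe_coe, coe_legHostB, coe_legJE])

/-- **`kron_t_inf`, Legendre.** -/
theorem ssModelLeg_kron_t_inf {π : R} (hπ : Irreducible π) (h2 : IsUnit (2 : R))
    (hq : q.Prime) (hq2 : q ≠ 2) (hqπ : (q : R) ∈ Ideal.span {π}) :
    (legWinf R K h2 (M * q)).valuation
      ((legHostB K M q hq hq2 : ↥(legE K M) →+* ↥(legE K (M * q)))
          (algebraMap ↥K⟮legT K⟯ ↥(legE K M) (AdjoinSimple.gen K (legT K))) -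
        (legHostA K M q : ↥(legE K M) →+* ↥(legE K (M * q)))
          (algebraMap ↥K⟮legT K⟯ ↥(legE K M) (AdjoinSimple.gen K (legT K))) ^ q) < 1 := by
  haveI : CharP (IsLocalRing.ResidueField R) q := charP_residueField_of_mem_span hπ hq hqπ
  haveI : ExpChar (IsLocalRing.ResidueField R) q := ExpChar.prime hq
  exact (isPrimeSeries_legT R K h2).valuation_sub_pow_lt_one hπ q (legE K (M * q))
    (legWinf R K h2 (M * q)) (mem_legWinf_of_mem_gaussInt R K h2 (M * q))
    (inv_uniformizer_notMem_legWinf R K h2 (M * q) hπ) _ _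
    (by rw [RingHom.coe_coe, coe_legHostA]; rfl)
    (by rw [RingHom.coe_coe, coe_legHostB]; rfl)

/-- **`kron_j_zero`, Legendre.** -/
theorem ssModelLeg_kron_j_zero {π : R} (hπ : Irreducible π)
    (h : (q : ℤ) * x + M * y = 1) (hq : q.Prime) (hq2 : q ≠ 2)
    (hqπ : (q : R) ∈ Ideal.span {π}) :
    (legW0 R K h hq).valuation
      ((legHostA K M q : ↥(legE K M) →+* ↥(legE K (M * q))) (legJE K M) -
        (legHostB K M q hq hq2 : ↥(legE K M) →+* ↥(legE K (M * q))) (legJE K M) ^ q) < 1 :=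
  kron_j_zero_legE (algebraMap K ℂ) h hπ hq hqπ (legW0 R K h hq)
    (legW0_mem_of_atkinLehnerN R K h hq) (inv_uniformizer_notMem_legW0 R K h hq hπ) _ _
    (by rw [RingHom.coe_coe, coe_legHostA, coe_legJE])
    (by rw [RingHom.coe_coe, coe_legHostB, coe_legJE])

/-- **`kron_j_inf`, Hesse.** -/
theorem ssModelHes_kron_j_inf [NeZero (M * 2)] {π : R} (hπ : Irreducible π) (h3 : IsUnit (3 : R))
    (hqπ : ((2 : ℕ) : R) ∈ Ideal.span {π}) :
    (hesWinf R K h3 (M * 2)).valuation
      ((hesHostB K M : ↥(hesE K M) →+* ↥(hesE K (M * 2))) (hesJE K M) -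
        (hesHostA K M 2 : ↥(hesE K M) →+* ↥(hesE K (M * 2))) (hesJE K M) ^ 2) < 1 := by
  haveI : CharP (IsLocalRing.ResidueField R) 2 :=
    charP_residueField_of_mem_span hπ Nat.prime_two hqπ
  haveI : ExpChar (IsLocalRing.ResidueField R) 2 := ExpChar.prime Nat.prime_two
  exact (isPrimeSeries_jqNModC R K 3).valuation_sub_pow_lt_one hπ 2 (hesE K (M * 2))
    (hesWinf R K h3 (M * 2)) (mem_hesWinf_of_mem_gaussInt R K h3 (M * 2))
    (inv_uniformizer_notMem_hesWinf R K h3 (M * 2) hπ) _ _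
    (by rw [RingHom.coe_coe, coe_hesHostA, coe_hesJE])
    (by rw [RingHom.coe_coe, coe_hesHostB, coe_hesJE])

/-- **`kron_t_inf`, Hesse.** -/
theorem ssModelHes_kron_t_inf [NeZero (M * 2)] {π : R} (hπ : Irreducible π) (h3 : IsUnit (3 : R))
    (hqπ : ((2 : ℕ) : R) ∈ Ideal.span {π}) :
    (hesWinf R K h3 (M * 2)).valuation
      ((hesHostB K M : ↥(hesE K M) →+* ↥(hesE K (M * 2)))
          (algebraMap ↥K⟮hesT K⟯ ↥(hesE K M) (AdjoinSimple.gen K (hesT K))) -
        (hesHostA K M 2 : ↥(hesE K M) →+* ↥(hesE K (M * 2)))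
          (algebraMap ↥K⟮hesT K⟯ ↥(hesE K M) (AdjoinSimple.gen K (hesT K))) ^ 2) < 1 := by
  haveI : CharP (IsLocalRing.ResidueField R) 2 :=
    charP_residueField_of_mem_span hπ Nat.prime_two hqπ
  haveI : ExpChar (IsLocalRing.ResidueField R) 2 := ExpChar.prime Nat.prime_two
  exact (isPrimeSeries_hesT R K h3).valuation_sub_pow_lt_one hπ 2 (hesE K (M * 2))
    (hesWinf R K h3 (M * 2)) (mem_hesWinf_of_mem_gaussInt R K h3 (M * 2))
    (inv_uniformizer_notMem_hesWinf R K h3 (M * 2) hπ) _ _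
    (by rw [RingHom.coe_coe, coe_hesHostA]; rfl)
    (by rw [RingHom.coe_coe, coe_hesHostB]; rfl)

/-- **`kron_j_zero`, Hesse.** -/
theorem ssModelHes_kron_j_zero [NeZero (M * 2)] {π : R} (hπ : Irreducible π)
    (h : ((2 : ℕ) : ℤ) * x + M * y = 1) (hqπ : ((2 : ℕ) : R) ∈ Ideal.span {π}) :
    (hesW0 R K h Nat.prime_two).valuation
      ((hesHostA K M 2 : ↥(hesE K M) →+* ↥(hesE K (M * 2))) (hesJE K M) -
        (hesHostB K M : ↥(hesE K M) →+* ↥(hesE K (M * 2))) (hesJE K M) ^ 2) < 1 :=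
  kron_j_zero_hesE (algebraMap K ℂ) h hπ Nat.prime_two hqπ (hesW0 R K h Nat.prime_two)
    (hesW0_mem_of_atkinLehnerN R K h Nat.prime_two)
    (inv_uniformizer_notMem_hesW0 R K h Nat.prime_two hπ) _ _
    (by rw [RingHom.coe_coe, coe_hesHostA, coe_hesJE])
    (by rw [RingHom.coe_coe, coe_hesHostB, coe_hesJE])

end Fields

end Fermat.Agent.SS
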