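/-
(SS-q) FIELD — helper6 — **the field `unit` of `SSModelLeg` / `SSModelHes`**
(MODEL_helper7_Defs), statements verbatim as they appear after unfolding the two definitions.
-/
import Mathlib
import Fermat.Agent.SS.FIELD_helper6_W0

set_option autoImplicit false
set_option linter.unusedSectionVars false
set_option linter.style.haveILetI false
set_option synthInstance.maxHeartbeats 200000

open Polynomial ModularCurve IntermediateField

namespace Fermat.Agent.SS

open Fermat.Agent.JA Fermat.Agent.Igusa Fermat.Agent.X0N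

open scoped Fermat.Agent.JA.Host

section Fields

variable (R : Type*) [CommRing R] [IsDomain R] [IsDiscreteValuationRing R] [CharZero R]
  (K : Type*) [Field K] [Algebra R K] [IsFractionRing R K] [Algebra ℚ K] [Algebra K ℂ]
  {M q : ℕ} [NeZero M] [NeZero q] [NeZero (M * q)] {x y : ℤ}

theorem legHostA_legJE : (legHostA K M q : ↥(legE K M) →+* ↥(legE K (M * q))) (legJE K M) =
    legJE K (M * q) := Subtype.ext rfl

theorem hesHostA_hesJE : (hesHostA K M q : ↥(hesE K M) →+* ↥(hesE K (M * q))) (hesJE K M) =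
    hesJE K (M * q) := Subtype.ext rfl

/-- **`unit`, Legendre.** -/
theorem ssModelLeg_unit {π : R} (hπ : Irreducible π) (h2 : IsUnit (2 : R))
    (h : (q : ℤ) * x + M * y = 1) (hq : q.Prime) (hqπ : (q : R) ∈ Ideal.span {π}) :
    ∃ (U : ↥(legE K (M * q))) (c : ℕ), 1 ≤ c ∧ U ≠ 0 ∧ U ∈ legWinf R K h2 (M * q) ∧
      U⁻¹ ∈ legWinf R K h2 (M * q) ∧
      U * (algebraMap R ↥(legE K (M * q)) π ^ c)⁻¹ ∈ legW0 R K h hq ∧
      (U * (algebraMap R ↥(legE K (M * q)) π ^ c)⁻¹)⁻¹ ∈ legW0 R K h hq ∧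
      IsIntegral ↥(Algebra.adjoin K
        {(legHostA K M q : ↥(legE K M) →+* ↥(legE K (M * q))) (legJE K M)}) U ∧
      IsIntegral ↥(Algebra.adjoin K
        {(legHostA K M q : ↥(legE K M) →+* ↥(legE K (M * q))) (legJE K M)}) U⁻¹ := by
  haveI : CharZero K := algebraRat.charZero K
  letI : Algebra (AlgebraicClosure K) ℂ :=
    ((IsAlgClosed.lift : AlgebraicClosure K →ₐ[K] ℂ) : AlgebraicClosure K →+* ℂ).toAlgebra
  haveI : IsScalarTower ℚ K (AlgebraicClosure K) :=
    IsScalarTower.of_algebraMap_eq fun r => by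
      simp only [eq_ratCast, map_ratCast]
  haveI : IsScalarTower ℚ (AlgebraicClosure K) ℂ :=
    IsScalarTower.of_algebraMap_eq fun r => by
      simp only [eq_ratCast, map_ratCast]
  rw [legHostA_legJE]
  exact exists_unit_legE (algebraMap K ℂ) h (AlgebraicClosure K) hπ hq hqπ
    (legWinf R K h2 (M * q)) (legW0 R K h hq) (mem_legWinf_of_mem_gaussInt R K h2 (M * q))
    (legW0_mem_of_atkinLehnerN R K h hq)

/-- **`unit`, Hesse.** -/
theorem ssModelHes_unit [NeZero (M * 2)] {π : R} (hπ : Irreducible π) (h3 : IsUnit (3 : R))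
    (h : ((2 : ℕ) : ℤ) * x + M * y = 1) (hqπ : ((2 : ℕ) : R) ∈ Ideal.span {π}) :
    ∃ (U : ↥(hesE K (M * 2))) (c : ℕ), 1 ≤ c ∧ U ≠ 0 ∧ U ∈ hesWinf R K h3 (M * 2) ∧
      U⁻¹ ∈ hesWinf R K h3 (M * 2) ∧
      U * (algebraMap R ↥(hesE K (M * 2)) π ^ c)⁻¹ ∈ hesW0 R K h Nat.prime_two ∧
      (U * (algebraMap R ↥(hesE K (M * 2)) π ^ c)⁻¹)⁻¹ ∈ hesW0 R K h Nat.prime_two ∧
      IsIntegral ↥(Algebra.adjoin K
        {(hesHostA K M 2 : ↥(hesE K M) →+* ↥(hesE K (M * 2))) (hesJE K M)}) U ∧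
      IsIntegral ↥(Algebra.adjoin K
        {(hesHostA K M 2 : ↥(hesE K M) →+* ↥(hesE K (M * 2))) (hesJE K M)}) U⁻¹ := by
  haveI : CharZero K := algebraRat.charZero K
  letI : Algebra (AlgebraicClosure K) ℂ :=
    ((IsAlgClosed.lift : AlgebraicClosure K →ₐ[K] ℂ) : AlgebraicClosure K →+* ℂ).toAlgebra
  haveI : IsScalarTower ℚ K (AlgebraicClosure K) :=
    IsScalarTower.of_algebraMap_eq fun r => by
      simp only [eq_ratCast, map_ratCast]
  haveI : IsScalarTower ℚ (AlgebraicClosure K) ℂ :=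
    IsScalarTower.of_algebraMap_eq fun r => by
      simp only [eq_ratCast, map_ratCast]
  rw [hesHostA_hesJE]
  exact exists_unit_hesE (algebraMap K ℂ) h (AlgebraicClosure K) hπ Nat.prime_two hqπ
    (hesWinf R K h3 (M * 2)) (hesW0 R K h Nat.prime_two)
    (mem_hesWinf_of_mem_gaussInt R K h3 (M * 2))
    (hesW0_mem_of_atkinLehnerN R K h Nat.prime_two)

end Fields

end Fermat.Agent.SS
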