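/-
(SS-q) MODEL-GLOBAL — helper9 — **GROUP A of helper7's field table (finding 309): the plug-in
fields of the concrete models `SSModelLeg` / `SSModelHes`** (no `W0`): `gauss_M`, `t_int` +
`t_sub_inv_int` + `cusp_t` (`_tfields`), `j_transcendental`, `j_adjoin`, `A_algebraMap`,
`B_algebraMap`, `A_j`, `comap_A_inf`, `comap_B_inf`, `const`.  Statements verbatim as in the
skeleton (same variable block); Hesse analogues `ssModelHes_*`.
-/
import Mathlib
import Fermat.Agent.SS.MODEL_helper7_Defs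
import Fermat.Agent.JA.UP_helper7_Emb
import Fermat.Agent.SS.VAL2_helper7_HostGauss

set_option autoImplicit false
set_option linter.unusedSectionVars false
set_option linter.unusedVariables false
set_option linter.style.haveILetI false
set_option synthInstance.maxHeartbeats 200000

open Polynomial ModularCurve IntermediateField

namespace Fermat.Agent.SS

open Fermat.Agent.JA Fermat.Agent.Igusa

open scoped Fermat.Agent.JA.Host

noncomputable section

section Leg

variable (R : Type*) [CommRing R] [IsDomain R] [IsDiscreteValuationRing R] [CharZero R]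
  [DecidableEq R]
  (K : Type*) [Field K] [Algebra R K] [IsFractionRing R K] [Algebra ℚ K] [Algebra K ℂ]
  {M q : ℕ} [NeZero M] [NeZero q] [NeZero (M * q)] {x y : ℤ}
  {π : R} (hπ : Irreducible π) (h2 : IsUnit (2 : R)) (h : (q : ℤ) * x + M * y = 1)
  (hq : q.Prime) (hq2 : q ≠ 2) (hqπ : (q : R) ∈ Ideal.span {π})

theorem ssModelLeg_gauss_M (hπ : Irreducible π) (h2 : IsUnit (2 : R)) :
    IsGaussAt R π (AdjoinSimple.gen K (legT K))
      ((legWinf R K h2 M).comap (algebraMap ↥K⟮legT K⟯ ↥(legE K M))) := by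
  have hs : ((algebraMap ↥K⟮legT K⟯ ↥(legE K M) (AdjoinSimple.gen K (legT K)) : ↥(legE K M)) :
      LaurentSeries K) ∈ gaussInt R K := (isPrimeSeries_legT (R := R) (L := K) h2).mem_gaussInt
  refine isGaussAt_comap_gaussValSub' (legE K M) (legE_le_gaussField R K h2 M)
    (algebraMap ↥K⟮legT K⟯ ↥(legE K M)) ?_ hπ (AdjoinSimple.gen K (legT K)) hs ?_
  · intro r
    rw [← IsScalarTower.algebraMap_apply R ↥K⟮legT K⟯ ↥(legE K M),
      IsScalarTower.algebraMap_apply R K ↥(legE K M), IntermediateField.coe_algebraMap_apply,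
      LaurentSeries.algebraMap_apply]
  · exact (isPrimeSeries_legT (R := R) (L := K) h2).transcendental_gaussRed _

theorem ssModelLeg_tfields (h2 : IsUnit (2 : R)) :
    IsIntegral ↥(Algebra.adjoin R {legJE K M})
      (algebraMap ↥K⟮legT K⟯ ↥(legE K M) (AdjoinSimple.gen K (legT K))) ∧
    (∀ s ∈ ({0, 1} : Finset R), IsIntegral ↥(Algebra.adjoin R {legJE K M})
      (algebraMap ↥K⟮legT K⟯ ↥(legE K M) (AdjoinSimple.gen K (legT K)) -
        algebraMap R ↥(legE K M) s)⁻¹) ∧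
    (∀ O : Subring ↥(legE K M), (∀ x : ↥(legE K M), IsIntegral ↥O x → x ∈ O) →
      (∀ a ∈ O, ∀ b ∈ O, a + b = 1 → a⁻¹ ∈ O ∨ b⁻¹ ∈ O) →
      (∀ r : R, algebraMap R ↥(legE K M) r ∈ O) →
      (legJE K M)⁻¹ ∈ O → legJE K M ∉ O →
      algebraMap ↥K⟮legT K⟯ ↥(legE K M) (AdjoinSimple.gen K (legT K)) ∈ O ∨
        (algebraMap ↥K⟮legT K⟯ ↥(legE K M) (AdjoinSimple.gen K (legT K)))⁻¹ ∈ O) :=
  legE_ssModel_fields K M h2

theorem ssModelLeg_j_transcendental : Transcendental K (AdjoinSimple.gen K (jqNModC K 2)) :=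
  Host.transcendental_gen (Host.transcendental_of_coeff_ne_zero (n := -((2 : ℕ) : ℤ))
    (by norm_num) (by rw [Host.coeff_jqNModC]; exact one_ne_zero))

theorem ssModelLeg_j_adjoin :
    IntermediateField.adjoin K {AdjoinSimple.gen K (jqNModC K 2)} = ⊤ :=
  Host.adjoin_gen_eq_top _

theorem ssModelLeg_A_algebraMap (r : R) :
    (legHostA K M q : ↥(legE K M) →+* ↥(legE K (M * q))) (algebraMap R ↥(legE K M) r) =
      algebraMap R ↥(legE K (M * q)) r := by
  rw [IsScalarTower.algebraMap_apply R K ↥(legE K M),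
    IsScalarTower.algebraMap_apply R K ↥(legE K (M * q))]
  exact (legHostA K M q).commutes _

theorem ssModelLeg_B_algebraMap (hq : q.Prime) (hq2 : q ≠ 2) (r : R) :
    (legHostB K M q hq hq2 : ↥(legE K M) →+* ↥(legE K (M * q))) (algebraMap R ↥(legE K M) r) =
      algebraMap R ↥(legE K (M * q)) r := by
  rw [IsScalarTower.algebraMap_apply R K ↥(legE K M),
    IsScalarTower.algebraMap_apply R K ↥(legE K (M * q))]
  exact (legHostB K M q hq hq2).commutes _

theorem ssModelLeg_A_j :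
    (legHostA K M q : ↥(legE K M) →+* ↥(legE K (M * q))) (legJE K M) =
      algebraMap ↥K⟮jqNModC K 2⟯ ↥(legE K (M * q)) (AdjoinSimple.gen K (jqNModC K 2)) := by
  apply Subtype.ext
  rfl

theorem ssModelLeg_comap_A_inf (h2 : IsUnit (2 : R)) :
    (legWinf R K h2 (M * q)).comap (legHostA K M q : ↥(legE K M) →+* ↥(legE K (M * q))) =
      legWinf R K h2 M := by
  ext x
  rfl

theorem ssModelLeg_comap_B_inf (h2 : IsUnit (2 : R)) (hq : q.Prime) (hq2 : q ≠ 2) :
    (legWinf R K h2 (M * q)).comap (legHostB K M q hq hq2 : ↥(legE K M) →+* ↥(legE K (M * q))) =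
      legWinf R K h2 M := by
  ext x
  show qExpand K q (x : LaurentSeries K) ∈ gaussInt R K ↔ (x : LaurentSeries K) ∈ gaussInt R K
  constructor
  · exact (gaussHomQExpand R K q).mem_gaussInt_of_map_mem (legE_le_gaussField R K h2 M x.2)
  · exact fun h => (gaussHomQExpand R K q).map_mem_gaussInt h

theorem ssModelLeg_const (x : ↥(legE K (M * q))) (hx : IsAlgebraic K x) :
    x ∈ Set.range (algebraMap K ↥(legE K (M * q))) := by
  have h1 : IsAlgebraic K (x : LaurentSeries K) := by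
    have := hx.algebraMap (A := LaurentSeries K)
    exact this
  obtain ⟨c, hc⟩ := laurentSeries_mem_range_algebraMap_of_isAlgebraic _ h1
  exact ⟨c, Subtype.ext hc⟩

end Leg

section Hes

variable (R : Type*) [CommRing R] [IsDomain R] [IsDiscreteValuationRing R] [CharZero R]
  [DecidableEq R]
  (K : Type*) [Field K] [Algebra R K] [IsFractionRing R K] [Algebra ℚ K] [Algebra K ℂ]
  {M : ℕ} [NeZero M] [NeZero (M * 2)] {x y : ℤ}
  {π : R} (hπ : Irreducible π) (h3 : IsUnit (3 : R)) (h : ((2 : ℕ) : ℤ) * x + M * y = 1)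
  (hqπ : ((2 : ℕ) : R) ∈ Ideal.span {π})

theorem ssModelHes_gauss_M (hπ : Irreducible π) (h3 : IsUnit (3 : R)) :
    IsGaussAt R π (AdjoinSimple.gen K (hesT K))
      ((hesWinf R K h3 M).comap (algebraMap ↥K⟮hesT K⟯ ↥(hesE K M))) := by
  have hs : ((algebraMap ↥K⟮hesT K⟯ ↥(hesE K M) (AdjoinSimple.gen K (hesT K)) : ↥(hesE K M)) :
      LaurentSeries K) ∈ gaussInt R K := (isPrimeSeries_hesT (R := R) (L := K) h3).mem_gaussInt
  refine isGaussAt_comap_gaussValSub' (hesE K M) (hesE_le_gaussField R K h3 M)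
    (algebraMap ↥K⟮hesT K⟯ ↥(hesE K M)) ?_ hπ (AdjoinSimple.gen K (hesT K)) hs ?_
  · intro r
    rw [← IsScalarTower.algebraMap_apply R ↥K⟮hesT K⟯ ↥(hesE K M),
      IsScalarTower.algebraMap_apply R K ↥(hesE K M), IntermediateField.coe_algebraMap_apply,
      LaurentSeries.algebraMap_apply]
  · exact (isPrimeSeries_hesT (R := R) (L := K) h3).transcendental_gaussRed _

theorem ssModelHes_tfields (h3 : IsUnit (3 : R)) (ω : R) (hω : ω ^ 2 + ω + 1 = 0) :
    IsIntegral ↥(Algebra.adjoin R {hesJE K M})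
      (algebraMap ↥K⟮hesT K⟯ ↥(hesE K M) (AdjoinSimple.gen K (hesT K))) ∧
    (∀ s ∈ ({1, ω, ω ^ 2} : Finset R), IsIntegral ↥(Algebra.adjoin R {hesJE K M})
      (algebraMap ↥K⟮hesT K⟯ ↥(hesE K M) (AdjoinSimple.gen K (hesT K)) -
        algebraMap R ↥(hesE K M) s)⁻¹) ∧
    (∀ O : Subring ↥(hesE K M), (∀ x : ↥(hesE K M), IsIntegral ↥O x → x ∈ O) →
      (∀ a ∈ O, ∀ b ∈ O, a + b = 1 → a⁻¹ ∈ O ∨ b⁻¹ ∈ O) →
      (∀ r : R, algebraMap R ↥(hesE K M) r ∈ O) →
      (hesJE K M)⁻¹ ∈ O → hesJE K M ∉ O →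
      algebraMap ↥K⟮hesT K⟯ ↥(hesE K M) (AdjoinSimple.gen K (hesT K)) ∈ O ∨
        (algebraMap ↥K⟮hesT K⟯ ↥(hesE K M) (AdjoinSimple.gen K (hesT K)))⁻¹ ∈ O) :=
  hesE_ssModel_fields K M h3 ω hω

theorem ssModelHes_j_transcendental : Transcendental K (AdjoinSimple.gen K (jqNModC K 3)) :=
  Host.transcendental_gen (Host.transcendental_of_coeff_ne_zero (n := -((3 : ℕ) : ℤ))
    (by norm_num) (by rw [Host.coeff_jqNModC]; exact one_ne_zero))

theorem ssModelHes_j_adjoin :
    IntermediateField.adjoin K {AdjoinSimple.gen K (jqNModC K 3)} = ⊤ :=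
  Host.adjoin_gen_eq_top _

theorem ssModelHes_A_algebraMap (r : R) :
    (hesHostA K M 2 : ↥(hesE K M) →+* ↥(hesE K (M * 2))) (algebraMap R ↥(hesE K M) r) =
      algebraMap R ↥(hesE K (M * 2)) r := by
  rw [IsScalarTower.algebraMap_apply R K ↥(hesE K M),
    IsScalarTower.algebraMap_apply R K ↥(hesE K (M * 2))]
  exact (hesHostA K M 2).commutes _

theorem ssModelHes_B_algebraMap (r : R) :
    (hesHostB K M : ↥(hesE K M) →+* ↥(hesE K (M * 2))) (algebraMap R ↥(hesE K M) r) =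
      algebraMap R ↥(hesE K (M * 2)) r := by
  rw [IsScalarTower.algebraMap_apply R K ↥(hesE K M),
    IsScalarTower.algebraMap_apply R K ↥(hesE K (M * 2))]
  exact (hesHostB K M).commutes _

theorem ssModelHes_A_j :
    (hesHostA K M 2 : ↥(hesE K M) →+* ↥(hesE K (M * 2))) (hesJE K M) =
      algebraMap ↥K⟮jqNModC K 3⟯ ↥(hesE K (M * 2)) (AdjoinSimple.gen K (jqNModC K 3)) := by
  apply Subtype.ext
  rfl

theorem ssModelHes_comap_A_inf (h3 : IsUnit (3 : R)) :
    (hesWinf R K h3 (M * 2)).comap (hesHostA K M 2 : ↥(hesE K M) →+* ↥(hesE K (M * 2))) =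
      hesWinf R K h3 M := by
  ext x
  rfl

theorem ssModelHes_comap_B_inf (h3 : IsUnit (3 : R)) :
    (hesWinf R K h3 (M * 2)).comap (hesHostB K M : ↥(hesE K M) →+* ↥(hesE K (M * 2))) =
      hesWinf R K h3 M := by
  ext x
  show qExpand K 2 (x : LaurentSeries K) ∈ gaussInt R K ↔ (x : LaurentSeries K) ∈ gaussInt R K
  constructor
  · exact (gaussHomQExpand R K 2).mem_gaussInt_of_map_mem (hesE_le_gaussField R K h3 M x.2)
  · exact fun h => (gaussHomQExpand R K 2).map_mem_gaussInt h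

theorem ssModelHes_const (x : ↥(hesE K (M * 2))) (hx : IsAlgebraic K x) :
    x ∈ Set.range (algebraMap K ↥(hesE K (M * 2))) := by
  have h1 : IsAlgebraic K (x : LaurentSeries K) := by
    have := hx.algebraMap (A := LaurentSeries K)
    exact this
  obtain ⟨c, hc⟩ := laurentSeries_mem_range_algebraMap_of_isAlgebraic _ h1
  exact ⟨c, Subtype.ext hc⟩

end Hes

end

end Fermat.Agent.SS
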