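/-
(SS-q) MODEL-GLOBAL `kron_t_zero` — helper3 — part 2: **the twelve roots of the Hesse relation**
`27 t³ (t³ + 8)³ = j (t³ - 1)³`: two solutions for the same `j` differ by an element of the
tetrahedral group `t ↦ ω^k t`, `t ↦ ω^k (ω^l t + 2) / (ω^l t - 1)`.
-/
import Mathlib

set_option autoImplicit false
set_option linter.unusedSectionVars false
set_option linter.unusedVariables false

namespace Fermat.Agent.SS

section HesseRoots

variable {F : Type*} [Field F]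

/-- `ω³ = 1`. -/
theorem cube_eq_one_of_cubeRoot {ω : F} (hω : ω ^ 2 + ω + 1 = 0) : ω ^ 3 = 1 := by
  linear_combination (ω - 1) * hω

/-- cube roots: `a³ = b³ ⇒ a ∈ {b, ω b, ω² b}`. -/
theorem eq_or_eq_of_cube_eq {ω : F} (hω : ω ^ 2 + ω + 1 = 0) {a b : F} (h : a ^ 3 = b ^ 3) :
    a = b ∨ a = ω * b ∨ a = ω ^ 2 * b := by
  have hprod : (a - b) * (a - ω * b) * (a - ω ^ 2 * b) = 0 := by
    linear_combination h + (-a ^ 2 * b + ω * a * b ^ 2 - (ω - 1) * b ^ 3) * hω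
  rcases mul_eq_zero.mp hprod with h1 | h1
  · rcases mul_eq_zero.mp h1 with h2 | h2
    · exact Or.inl (sub_eq_zero.mp h2)
    · exact Or.inr (Or.inl (sub_eq_zero.mp h2))
  · exact Or.inr (Or.inr (sub_eq_zero.mp h1))

/-- the four roots of the quartic `t (t³ + 8) (u³ - 1) = u (u³ + 8) (t³ - 1)`. -/
theorem hesse_quartic_roots {ω : F} (hω : ω ^ 2 + ω + 1 = 0) {t u : F}
    (h : t * (t ^ 3 + 8) * (u ^ 3 - 1) = u * (u ^ 3 + 8) * (t ^ 3 - 1)) :
    t = u ∨ t * (u - 1) = u + 2 ∨ t * (ω * u - 1) = ω ^ 2 * (ω * u + 2) ∨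
      t * (ω ^ 2 * u - 1) = ω * (ω ^ 2 * u + 2) := by
  have hω3 := cube_eq_one_of_cubeRoot hω
  -- the quadratic factor splits over `ω`
  have hquad : (t * (ω * u - 1) - (u + 2 * ω ^ 2)) * (t * (ω ^ 2 * u - 1) - (u + 2 * ω)) =
      t ^ 2 * (u ^ 2 + u + 1) + t * (u ^ 2 + 4 * u - 2) + (u ^ 2 - 2 * u + 4) := by
    linear_combination (t ^ 2 * ((ω - 1) * u ^ 2 - u) - t * (u ^ 2 + 2 * (ω ^ 2 - ω + 1) * u - 2)
      + 2 * u + 4 * (ω - 1)) * hω
  have hprod : (t - u) * (t * (u - 1) - (u + 2)) *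
      ((t * (ω * u - 1) - (u + 2 * ω ^ 2)) * (t * (ω ^ 2 * u - 1) - (u + 2 * ω))) = 0 := by
    rw [hquad]
    linear_combination h
  rcases mul_eq_zero.mp hprod with h1 | h1
  · rcases mul_eq_zero.mp h1 with h2 | h2
    · exact Or.inl (sub_eq_zero.mp h2)
    · exact Or.inr (Or.inl (sub_eq_zero.mp h2))
  · rcases mul_eq_zero.mp h1 with h2 | h2
    · refine Or.inr (Or.inr (Or.inl ?_))
      have h3 := sub_eq_zero.mp h2
      rw [h3]
      linear_combination (-u) * hω3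
    · refine Or.inr (Or.inr (Or.inr ?_))
      have h3 := sub_eq_zero.mp h2
      rw [h3]
      linear_combination (-u) * hω3

/-- **the twelve roots of the Hesse relation.** -/
theorem hesse_twelve_roots (h3 : (3 : F) ≠ 0) {ω : F} (hω : ω ^ 2 + ω + 1 = 0) {j t u : F}
    (ht : 27 * t ^ 3 * (t ^ 3 + 8) ^ 3 = j * (t ^ 3 - 1) ^ 3)
    (hu : 27 * u ^ 3 * (u ^ 3 + 8) ^ 3 = j * (u ^ 3 - 1) ^ 3) :
    ∃ k l : ℕ, t = ω ^ k * u ∨ t * (ω ^ l * u - 1) = ω ^ k * (ω ^ l * u + 2) := by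
  have hω3 := cube_eq_one_of_cubeRoot hω
  have h27 : (27 : F) ≠ 0 := by
    have : (27 : F) = 3 ^ 3 := by norm_num
    rw [this]; exact pow_ne_zero _ h3
  have hcross : (t * (t ^ 3 + 8) * (u ^ 3 - 1)) ^ 3 = (u * (u ^ 3 + 8) * (t ^ 3 - 1)) ^ 3 := by
    apply mul_left_cancel₀ h27
    linear_combination (u ^ 3 - 1) ^ 3 * ht - (t ^ 3 - 1) ^ 3 * hu
  -- the quartic for `u' = ω^m u`
  have hquart : ∀ m : ℕ, t * (t ^ 3 + 8) * (u ^ 3 - 1) = ω ^ m * (u * (u ^ 3 + 8) * (t ^ 3 - 1)) →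
      t * (t ^ 3 + 8) * ((ω ^ m * u) ^ 3 - 1) = (ω ^ m * u) * ((ω ^ m * u) ^ 3 + 8) * (t ^ 3 - 1) := by
    intro m hm
    have h1 : (ω ^ m * u) ^ 3 = u ^ 3 := by
      rw [mul_pow, ← pow_mul, mul_comm m 3, pow_mul, hω3, one_pow, one_mul]
    rw [h1, hm]
    ring
  have hcase : ∀ m : ℕ, t * (t ^ 3 + 8) * (u ^ 3 - 1) = ω ^ m * (u * (u ^ 3 + 8) * (t ^ 3 - 1)) →
      ∃ k l : ℕ, t = ω ^ k * u ∨ t * (ω ^ l * u - 1) = ω ^ k * (ω ^ l * u + 2) := by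
    intro m hm
    rcases hesse_quartic_roots hω (hquart m hm) with h | h | h | h
    · exact ⟨m, 0, Or.inl h⟩
    · exact ⟨0, m, Or.inr (by rw [pow_zero, one_mul]; exact h)⟩
    · refine ⟨2, m + 1, Or.inr ?_⟩
      rw [pow_succ, mul_comm (ω ^ m) ω, mul_assoc]
      exact h
    · refine ⟨1, m + 2, Or.inr ?_⟩
      rw [pow_add, mul_comm (ω ^ m) (ω ^ 2), mul_assoc, pow_one]
      exact h
  rcases eq_or_eq_of_cube_eq hω hcross with h | h | h
  · exact hcase 0 (by rw [pow_zero, one_mul]; exact h)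
  · exact hcase 1 (by rw [pow_one]; exact h)
  · exact hcase 2 h

end HesseRoots

end Fermat.Agent.SS
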