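/-
(SS-q) MODEL-GLOBAL `kron_t_zero` — helper3 — part 1: **the Kronecker congruence for the Legendre
coordinate on the second sheet**, abstract form.

`W` a valuation subring of a field `E` with residue characteristic `q` (`2` a unit), `a`, `s`
solutions of the Legendre relation for `jA`, `jB ∈ W` with `jA ≡ jB ^ q` modulo `𝔪_W`. Then there
is an anharmonic transform `s'` of `s` (again a solution of the Legendre relation for `jB`, in `W`)
with `a ≡ s' ^ q` modulo `𝔪_W`.
-/
import Mathlib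
import Fermat.Agent.SS.VAL2_helper7_LegInt
import Fermat.Agent.SS.CUSPT_helper3_Int

set_option autoImplicit false
set_option linter.unusedSectionVars false
set_option linter.unusedVariables false
set_option linter.style.haveILetI false

namespace Fermat.Agent.SS

section Valuation

variable {E : Type*} [Field E]

/-- an element integral over `W[j]`, `j ∈ W`, lies in the valuation subring `W`. -/
theorem mem_valuationSubring_of_isIntegral_adjoin (W : ValuationSubring E) {j x : E} (hj : j ∈ W)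
    (hx : IsIntegral ↥(Algebra.adjoin ↥W {j}) x) : x ∈ W := by
  haveI : Algebra.IsIntegral ↥W ↥(Algebra.adjoin ↥W {j}) := Algebra.IsIntegral.adjoin (by
    rintro y hy
    rw [Set.mem_singleton_iff] at hy
    rw [hy]
    have : j = algebraMap ↥W E ⟨j, hj⟩ := rfl
    rw [this]
    exact isIntegral_algebraMap)
  have h1 : IsIntegral ↥W x := isIntegral_trans x hx
  obtain ⟨y, hy⟩ := IsIntegrallyClosed.algebraMap_eq_of_integral h1
  rw [← hy]
  exact y.2

/-- the residue of the inverse of a unit of a valuation subring. -/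
theorem residue_inv_valuationSubring (W : ValuationSubring E) {x : E} (hx0 : x ≠ 0) (hx : x ∈ W)
    (hx' : x⁻¹ ∈ W) :
    IsLocalRing.residue ↥W ⟨x⁻¹, hx'⟩ = (IsLocalRing.residue ↥W ⟨x, hx⟩)⁻¹ := by
  apply eq_inv_of_mul_eq_one_left
  rw [← map_mul]
  have : (⟨x⁻¹, hx'⟩ : ↥W) * ⟨x, hx⟩ = 1 := Subtype.ext (inv_mul_cancel₀ hx0)
  rw [this, map_one]

/-- membership in the maximal ideal from the residue. -/
theorem valuation_lt_one_of_residue_eq_zero (W : ValuationSubring E) {x : E} (hx : x ∈ W)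
    (h : IsLocalRing.residue ↥W ⟨x, hx⟩ = 0) : W.valuation x < 1 := by
  rw [IsLocalRing.residue_eq_zero_iff] at h
  exact (W.valuation_lt_one_iff ⟨x, hx⟩).1 h

/-- the residue from membership in the maximal ideal. -/
theorem residue_eq_zero_of_valuation_lt_one (W : ValuationSubring E) {x : E} (hx : x ∈ W)
    (h : W.valuation x < 1) : IsLocalRing.residue ↥W ⟨x, hx⟩ = 0 := by
  rw [IsLocalRing.residue_eq_zero_iff]
  exact (W.valuation_lt_one_iff ⟨x, hx⟩).2 h

end Valuation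

section Legendre

variable {E : Type*} [Field E]

/-- **the Kronecker congruence for the Legendre coordinate on a sheet where `jA ≡ jB ^ q`.** -/
theorem legendre_kron_zero (W : ValuationSubring E) {q : ℕ} (hq : q.Prime)
    (hqW : W.valuation (q : E) < 1) (h20 : (2 : E) ≠ 0) (h2 : (2 : E)⁻¹ ∈ W) {a s jA jB : E}
    (ha : 256 * (a ^ 2 - a + 1) ^ 3 = jA * (a ^ 2 * (a - 1) ^ 2))
    (hs : 256 * (s ^ 2 - s + 1) ^ 3 = jB * (s ^ 2 * (s - 1) ^ 2))
    (hjA : jA ∈ W) (hjB : jB ∈ W) (hkron : W.valuation (jA - jB ^ q) < 1) :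
    ∃ s' : E, 256 * (s' ^ 2 - s' + 1) ^ 3 = jB * (s' ^ 2 * (s' - 1) ^ 2) ∧ s' ∈ W ∧
      W.valuation (a - s' ^ q) < 1 := by
  classical
  -- `2` is a unit of `W`
  have h2W : (2 : E) ∈ W := by
    have : (2 : E) = ((2 : ℕ) : E) := by norm_num
    rw [this]; exact natCast_mem W 2
  have h2u : IsUnit (2 : ↥W) := by
    refine ⟨⟨⟨2, h2W⟩, ⟨(2 : E)⁻¹, h2⟩, Subtype.ext (mul_inv_cancel₀ h20),
      Subtype.ext (inv_mul_cancel₀ h20)⟩, ?_⟩
    apply Subtype.ext
    rfl
  have h256 : (256 : E) ≠ 0 := by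
    have : (256 : E) = 2 ^ 8 := by norm_num
    rw [this]; exact pow_ne_zero _ h20
  -- regularity of `a`, `s`, `s⁻¹`, `(s - 1)⁻¹`
  have haW : a ∈ W :=
    mem_valuationSubring_of_isIntegral_adjoin W hjA (legendre_isIntegral_adjoin h2u ha)
  have hsW : s ∈ W :=
    mem_valuationSubring_of_isIntegral_adjoin W hjB (legendre_isIntegral_adjoin h2u hs)
  have hinv := legendre_isIntegral_adjoin_sub_inv h2u hs
  have hs0W : s⁻¹ ∈ W := by
    have := mem_valuationSubring_of_isIntegral_adjoin W hjB (hinv 0 (by simp))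
    simpa using this
  have hs1W : (s - 1)⁻¹ ∈ W := by
    have := mem_valuationSubring_of_isIntegral_adjoin W hjB (hinv 1 (by simp))
    simpa using this
  have hs0 : s ≠ 0 := by
    rintro rfl
    apply h256
    simpa using hs
  have hs1 : s - 1 ≠ 0 := by
    intro h1
    have ht : s = 1 := sub_eq_zero.mp h1
    subst ht
    apply h256
    simpa using hs
  -- the residue field
  set κ := IsLocalRing.ResidueField ↥W with hκ
  set res : ↥W →+* κ := IsLocalRing.residue ↥W with hres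
  have hqκ : ((q : ℕ) : κ) = 0 := by
    have hqmem : (q : E) ∈ W := natCast_mem W q
    have := residue_eq_zero_of_valuation_lt_one W hqmem hqW
    have h3 : (⟨(q : E), hqmem⟩ : ↥W) = ((q : ℕ) : ↥W) := Subtype.ext (by push_cast; rfl)
    rw [h3, map_natCast] at this
    exact this
  haveI : CharP κ q := (CharP.charP_iff_prime_eq_zero hq).2 hqκ
  haveI : ExpChar κ q := ExpChar.prime hq
  -- the residues
  set ar := res ⟨a, haW⟩ with har
  set sr := res ⟨s, hsW⟩ with hsr
  set jAr := res ⟨jA, hjA⟩ with hjAr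
  set jBr := res ⟨jB, hjB⟩ with hjBr
  have h2κ : (2 : κ) ≠ 0 := by
    have h1 : res (2 : ↥W) = 2 := map_ofNat res 2
    have := (h2u.map res).ne_zero
    rwa [h1] at this
  have harrel : 256 * (ar ^ 2 - ar + 1) ^ 3 = jAr * (ar ^ 2 * (ar - 1) ^ 2) := by
    have h1 : (256 : ↥W) * ((⟨a, haW⟩ : ↥W) ^ 2 - ⟨a, haW⟩ + 1) ^ 3 =
        ⟨jA, hjA⟩ * ((⟨a, haW⟩ : ↥W) ^ 2 * ((⟨a, haW⟩ : ↥W) - 1) ^ 2) := Subtype.ext (by
      push_cast
      exact ha)
    have h2 := congrArg res h1
    simpa only [map_mul, map_pow, map_sub, map_add, map_one, map_ofNat] using h2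
  have hsrrel : 256 * (sr ^ 2 - sr + 1) ^ 3 = jBr * (sr ^ 2 * (sr - 1) ^ 2) := by
    have h1 : (256 : ↥W) * ((⟨s, hsW⟩ : ↥W) ^ 2 - ⟨s, hsW⟩ + 1) ^ 3 =
        ⟨jB, hjB⟩ * ((⟨s, hsW⟩ : ↥W) ^ 2 * ((⟨s, hsW⟩ : ↥W) - 1) ^ 2) := Subtype.ext (by
      push_cast
      exact hs)
    have h2 := congrArg res h1
    simpa only [map_mul, map_pow, map_sub, map_add, map_one, map_ofNat] using h2
  have hjκ : jAr = jBr ^ q := by
    have hmem : jA - jB ^ q ∈ W := sub_mem hjA (pow_mem hjB q)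
    have h1 := residue_eq_zero_of_valuation_lt_one W hmem hkron
    have h2 : (⟨jA - jB ^ q, hmem⟩ : ↥W) = ⟨jA, hjA⟩ - (⟨jB, hjB⟩ : ↥W) ^ q := Subtype.ext (by
      push_cast
      rfl)
    rw [h2, map_sub, map_pow, sub_eq_zero] at h1
    exact h1
  -- Frobenius
  set Sr := frobenius κ q sr with hSr
  have hSrrel : 256 * (Sr ^ 2 - Sr + 1) ^ 3 = jAr * (Sr ^ 2 * (Sr - 1) ^ 2) := by
    have h1 := congrArg (frobenius κ q) hsrrel
    simp only [map_mul, map_pow, map_sub, map_add, map_one, map_ofNat] at h1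
    have e : jBr ^ q = frobenius κ q jBr := rfl
    rw [hjκ, e]
    exact h1
  have hsr0 : sr ≠ 0 := by
    intro h0
    have h1 : res ⟨s⁻¹, hs0W⟩ * sr = 1 := by
      rw [hsr, ← map_mul]
      have : (⟨s⁻¹, hs0W⟩ : ↥W) * ⟨s, hsW⟩ = 1 := Subtype.ext (inv_mul_cancel₀ hs0)
      rw [this, map_one]
    rw [h0, mul_zero] at h1
    exact zero_ne_one h1
  have hs1W' : s - 1 ∈ W := sub_mem hsW W.one_mem
  have hsr1 : sr - 1 ≠ 0 := by
    intro h0
    have h1 : res ⟨(s - 1)⁻¹, hs1W⟩ * (sr - 1) = 1 := by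
      have h2 : sr - 1 = res ⟨s - 1, hs1W'⟩ := by
        rw [hsr, ← map_one res, ← map_sub]
        rfl
      rw [h2, ← map_mul]
      have : (⟨(s - 1)⁻¹, hs1W⟩ : ↥W) * ⟨s - 1, hs1W'⟩ = 1 :=
        Subtype.ext (inv_mul_cancel₀ hs1)
      rw [this, map_one]
    rw [h0, mul_zero] at h1
    exact zero_ne_one h1
  have hSr0 : Sr ≠ 0 := by
    rw [hSr, frobenius_def]
    exact pow_ne_zero _ hsr0
  have hSr1 : Sr ≠ 1 := by
    intro h1
    apply hsr1
    have : frobenius κ q sr = frobenius κ q 1 := by rw [map_one]; exact h1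
    rw [frobenius_inj κ q this, sub_self]
  -- the final step, for a candidate `s'`
  have key : ∀ (s' : E) (hs' : s' ∈ W), ar = frobenius κ q (res ⟨s', hs'⟩) →
      W.valuation (a - s' ^ q) < 1 := by
    intro s' hs' h
    have hmem : a - s' ^ q ∈ W := sub_mem haW (pow_mem hs' q)
    refine valuation_lt_one_of_residue_eq_zero W hmem ?_
    have h2 : (⟨a - s' ^ q, hmem⟩ : ↥W) = ⟨a, haW⟩ - (⟨s', hs'⟩ : ↥W) ^ q := Subtype.ext (by
      push_cast
      rfl)
    rw [h2, map_sub, map_pow, sub_eq_zero]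
    exact h
  -- residues of the candidates
  have hr_inv : res ⟨s⁻¹, hs0W⟩ = sr⁻¹ := residue_inv_valuationSubring W hs0 hsW hs0W
  have hr_sub : res ⟨s - 1, hs1W'⟩ = sr - 1 := by
    rw [hsr, ← map_one res, ← map_sub]
    rfl
  have hr_subinv : res ⟨(s - 1)⁻¹, hs1W⟩ = (sr - 1)⁻¹ := by
    rw [residue_inv_valuationSubring W hs1 hs1W' hs1W, hr_sub]
  rcases legendre_roots h2κ harrel hSrrel hSr0 hSr1 with h | h | h | h | h | h
  · -- `s' = s`
    exact ⟨s, hs, hsW, key s hsW h⟩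
  · -- `s' = 1 - s`
    have hm : 1 - s ∈ W := sub_mem W.one_mem hsW
    refine ⟨1 - s, by linear_combination hs, hm, key _ hm ?_⟩
    have : res ⟨1 - s, hm⟩ = 1 - sr := by
      rw [hsr, ← map_one res, ← map_sub]
      rfl
    rw [this, map_sub, map_one]
    exact h
  · -- `s' = s⁻¹`
    refine ⟨s⁻¹, ?_, hs0W, key _ hs0W ?_⟩
    · field_simp
      linear_combination hs
    · rw [hr_inv, map_inv₀]
      exact h
  · -- `s' = (1 - s)⁻¹`
    have hm : (1 - s)⁻¹ ∈ W := by
      have : (1 - s)⁻¹ = -(s - 1)⁻¹ := by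
        rw [← neg_sub, inv_neg]
      rw [this]; exact neg_mem hs1W
    have hne : 1 - s ≠ 0 := fun h0 => hs1 (by rw [← neg_sub, h0, neg_zero])
    refine ⟨(1 - s)⁻¹, ?_, hm, key _ hm ?_⟩
    · field_simp
      linear_combination hs
    · have : res ⟨(1 - s)⁻¹, hm⟩ = (1 - sr)⁻¹ := by
        have h1 : (⟨(1 - s)⁻¹, hm⟩ : ↥W) = -⟨(s - 1)⁻¹, hs1W⟩ := Subtype.ext (by
          push_cast
          rw [← neg_sub, inv_neg])
        rw [h1, map_neg, hr_subinv, ← inv_neg, neg_sub]
      rw [this, map_inv₀, map_sub, map_one]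
      exact h
  · -- `s' = (s - 1) / s`
    have hm : (s - 1) / s ∈ W := by
      rw [div_eq_mul_inv]; exact mul_mem hs1W' hs0W
    refine ⟨(s - 1) / s, ?_, hm, key _ hm ?_⟩
    · field_simp
      linear_combination hs
    · have : res ⟨(s - 1) / s, hm⟩ = (sr - 1) / sr := by
        have h1 : (⟨(s - 1) / s, hm⟩ : ↥W) = ⟨s - 1, hs1W'⟩ * ⟨s⁻¹, hs0W⟩ := Subtype.ext (by
          push_cast
          rw [div_eq_mul_inv])
        rw [h1, map_mul, hr_sub, hr_inv, div_eq_mul_inv]
      rw [this, map_div₀, map_sub, map_one]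
      exact h
  · -- `s' = s / (s - 1)`
    have hm : s / (s - 1) ∈ W := by
      rw [div_eq_mul_inv]; exact mul_mem hsW hs1W
    refine ⟨s / (s - 1), ?_, hm, key _ hm ?_⟩
    · field_simp
      linear_combination hs
    · have : res ⟨s / (s - 1), hm⟩ = sr / (sr - 1) := by
        have h1 : (⟨s / (s - 1), hm⟩ : ↥W) = ⟨s, hsW⟩ * ⟨(s - 1)⁻¹, hs1W⟩ := Subtype.ext (by
          push_cast
          rw [div_eq_mul_inv])
        rw [h1, map_mul, hr_subinv, div_eq_mul_inv]
      rw [this, map_div₀, map_sub, map_one]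
      exact h

end Legendre

end Fermat.Agent.SS
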