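/-
(SS-q) MODEL-GLOBAL `kron_t_zero` — helper3 — part 3: **the Kronecker congruence for the Hesse
coordinate on the second sheet**, abstract form.

`W` a valuation subring of a field `E` with residue characteristic `q` (`3` a unit, `ω ∈ W` a
primitive cube root of unity), `a`, `s` solutions of the Hesse relation for `jA`, `jB ∈ W` with
`jA ≡ jB ^ q` modulo `𝔪_W`. Then there is a tetrahedral transform `s'` of `s` (again a solution of
the Hesse relation for `jB`, in `W`) with `a ≡ s' ^ q` modulo `𝔪_W`.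
-/
import Mathlib
import Fermat.Agent.SS.KRONT_helper3_Leg
import Fermat.Agent.SS.KRONT_helper3_HesRoots

set_option autoImplicit false
set_option linter.unusedSectionVars false
set_option linter.unusedVariables false
set_option linter.style.haveILetI false

namespace Fermat.Agent.SS

section Hesse

variable {E : Type*} [Field E]

/-- an element of a valuation subring with nonzero residue is a unit. -/
theorem inv_mem_of_residue_ne_zero (W : ValuationSubring E) {x : E} (hx : x ∈ W)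
    (h : IsLocalRing.residue ↥W ⟨x, hx⟩ ≠ 0) : x⁻¹ ∈ W := by
  have h1 : IsUnit (⟨x, hx⟩ : ↥W) := by
    by_contra hnu
    apply h
    rw [IsLocalRing.residue_eq_zero_iff]
    exact (IsLocalRing.mem_maximalIdeal _).2 hnu
  obtain ⟨u, hu⟩ := h1
  have h2 : x * ((u⁻¹ : (↥W)ˣ) : ↥W) = 1 := by
    have := congrArg (fun w : ↥W => (w : E)) (Units.mul_inv u)
    rw [hu] at this
    exact this
  have h3 : x⁻¹ = (((u⁻¹ : (↥W)ˣ) : ↥W) : E) := inv_eq_of_mul_eq_one_right h2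
  rw [h3]
  exact ((u⁻¹ : (↥W)ˣ) : ↥W).2

/-- the Hesse relation is invariant under `y ↦ c (y + 2) / (y - 1)`, `c³ = 1`. -/
theorem hesse_rel_mobius {jB y c : E} (hc : c ^ 3 = 1) (hy1 : y - 1 ≠ 0)
    (hy : 27 * y ^ 3 * (y ^ 3 + 8) ^ 3 = jB * (y ^ 3 - 1) ^ 3) :
    27 * (c * (y + 2) / (y - 1)) ^ 3 * ((c * (y + 2) / (y - 1)) ^ 3 + 8) ^ 3 =
      jB * ((c * (y + 2) / (y - 1)) ^ 3 - 1) ^ 3 := by
  have h1 : (c * (y + 2) / (y - 1)) ^ 3 = (y + 2) ^ 3 / (y - 1) ^ 3 := by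
    rw [div_pow, mul_pow, hc, one_mul]
  rw [h1]
  field_simp
  linear_combination 729 * hy

/-- **the Kronecker congruence for the Hesse coordinate on a sheet where `jA ≡ jB ^ q`.** -/
theorem hesse_kron_zero (W : ValuationSubring E) {q : ℕ} (hq : q.Prime)
    (hqW : W.valuation (q : E) < 1) (h30 : (3 : E) ≠ 0) (h3 : (3 : E)⁻¹ ∈ W) {ω : E}
    (hω : ω ^ 2 + ω + 1 = 0) (hωW : ω ∈ W) {a s jA jB : E}
    (ha : 27 * a ^ 3 * (a ^ 3 + 8) ^ 3 = jA * (a ^ 3 - 1) ^ 3)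
    (hs : 27 * s ^ 3 * (s ^ 3 + 8) ^ 3 = jB * (s ^ 3 - 1) ^ 3)
    (hjA : jA ∈ W) (hjB : jB ∈ W) (hkron : W.valuation (jA - jB ^ q) < 1) :
    ∃ s' : E, 27 * s' ^ 3 * (s' ^ 3 + 8) ^ 3 = jB * (s' ^ 3 - 1) ^ 3 ∧ s' ∈ W ∧
      W.valuation (a - s' ^ q) < 1 := by
  classical
  have hω3 := cube_eq_one_of_cubeRoot hω
  -- `3` is a unit of `W`
  have h3W : (3 : E) ∈ W := by
    have : (3 : E) = ((3 : ℕ) : E) := by norm_num
    rw [this]; exact natCast_mem W 3
  have h3u : IsUnit (3 : ↥W) := by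
    refine ⟨⟨⟨3, h3W⟩, ⟨(3 : E)⁻¹, h3⟩, Subtype.ext (mul_inv_cancel₀ h30),
      Subtype.ext (inv_mul_cancel₀ h30)⟩, ?_⟩
    apply Subtype.ext
    rfl
  -- `q ≠ 3`
  have hq3 : q ≠ 3 := by
    rintro rfl
    have h1 : W.valuation (3 : E) < 1 := by exact_mod_cast hqW
    have hmem : (⟨3, h3W⟩ : ↥W) ∈ IsLocalRing.maximalIdeal ↥W :=
      (W.valuation_lt_one_iff ⟨3, h3W⟩).2 h1
    have h3u' : IsUnit (⟨3, h3W⟩ : ↥W) := by
      have : (⟨3, h3W⟩ : ↥W) = 3 := Subtype.ext rfl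
      rw [this]; exact h3u
    exact (IsLocalRing.mem_maximalIdeal _).1 hmem h3u'
  -- regularity of `a`, `s`
  have haW : a ∈ W :=
    mem_valuationSubring_of_isIntegral_adjoin W hjA (hesse_isIntegral_adjoin h3u ha)
  have hsW : s ∈ W :=
    mem_valuationSubring_of_isIntegral_adjoin W hjB (hesse_isIntegral_adjoin h3u hs)
  -- the residue field
  set κ := IsLocalRing.ResidueField ↥W with hκ
  set res : ↥W →+* κ := IsLocalRing.residue ↥W with hres
  have hqκ : ((q : ℕ) : κ) = 0 := by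
    have hqmem : (q : E) ∈ W := natCast_mem W q
    have := residue_eq_zero_of_valuation_lt_one W hqmem hqW
    have h3' : (⟨(q : E), hqmem⟩ : ↥W) = ((q : ℕ) : ↥W) := Subtype.ext (by push_cast; rfl)
    rw [h3', map_natCast] at this
    exact this
  haveI : CharP κ q := (CharP.charP_iff_prime_eq_zero hq).2 hqκ
  haveI : ExpChar κ q := ExpChar.prime hq
  -- the residues
  set ar := res ⟨a, haW⟩ with har
  set sr := res ⟨s, hsW⟩ with hsr
  set jAr := res ⟨jA, hjA⟩ with hjAr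
  set jBr := res ⟨jB, hjB⟩ with hjBr
  set ωr := res ⟨ω, hωW⟩ with hωr
  have h3κ : (3 : κ) ≠ 0 := by
    have h1 : res (3 : ↥W) = 3 := map_ofNat res 3
    have := (h3u.map res).ne_zero
    rwa [h1] at this
  have hωrel : ωr ^ 2 + ωr + 1 = 0 := by
    have h1 : (⟨ω, hωW⟩ : ↥W) ^ 2 + ⟨ω, hωW⟩ + 1 = 0 := Subtype.ext (by
      push_cast
      exact hω)
    have h2 := congrArg res h1
    simpa only [map_pow, map_add, map_one, map_zero] using h2
  have hωr3 := cube_eq_one_of_cubeRoot hωrel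
  have harrel : 27 * ar ^ 3 * (ar ^ 3 + 8) ^ 3 = jAr * (ar ^ 3 - 1) ^ 3 := by
    have h1 : (27 : ↥W) * (⟨a, haW⟩ : ↥W) ^ 3 * ((⟨a, haW⟩ : ↥W) ^ 3 + 8) ^ 3 =
        ⟨jA, hjA⟩ * ((⟨a, haW⟩ : ↥W) ^ 3 - 1) ^ 3 := Subtype.ext (by
      push_cast
      exact ha)
    have h2 := congrArg res h1
    simpa only [map_mul, map_pow, map_sub, map_add, map_one, map_ofNat] using h2
  have hsrrel : 27 * sr ^ 3 * (sr ^ 3 + 8) ^ 3 = jBr * (sr ^ 3 - 1) ^ 3 := by
    have h1 : (27 : ↥W) * (⟨s, hsW⟩ : ↥W) ^ 3 * ((⟨s, hsW⟩ : ↥W) ^ 3 + 8) ^ 3 =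
        ⟨jB, hjB⟩ * ((⟨s, hsW⟩ : ↥W) ^ 3 - 1) ^ 3 := Subtype.ext (by
      push_cast
      exact hs)
    have h2 := congrArg res h1
    simpa only [map_mul, map_pow, map_sub, map_add, map_one, map_ofNat] using h2
  have hjκ : jAr = jBr ^ q := by
    have hmem : jA - jB ^ q ∈ W := sub_mem hjA (pow_mem hjB q)
    have h1 := residue_eq_zero_of_valuation_lt_one W hmem hkron
    have h2 : (⟨jA - jB ^ q, hmem⟩ : ↥W) = ⟨jA, hjA⟩ - (⟨jB, hjB⟩ : ↥W) ^ q := Subtype.ext (by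
      push_cast
      rfl)
    rw [h2, map_sub, map_pow, sub_eq_zero] at h1
    exact h1
  -- `sr³ ≠ 1`
  have h27κ : (27 : κ) ≠ 0 := by
    have : (27 : κ) = 3 ^ 3 := by norm_num
    rw [this]; exact pow_ne_zero _ h3κ
  have h9κ : (9 : κ) ≠ 0 := by
    have : (9 : κ) = 3 ^ 2 := by norm_num
    rw [this]; exact pow_ne_zero _ h3κ
  have hsr3 : sr ^ 3 ≠ 1 := by
    intro h1
    rw [h1] at hsrrel
    have : (27 : κ) * 9 ^ 3 = 0 := by
      have h2 : (27 : κ) * 1 * (1 + 8) ^ 3 = 27 * 9 ^ 3 := by norm_num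
      rw [← h2, hsrrel]; ring
    exact (mul_ne_zero h27κ (pow_ne_zero _ h9κ)) this
  -- Frobenius
  set Sr := frobenius κ q sr with hSr
  have hSrrel : 27 * Sr ^ 3 * (Sr ^ 3 + 8) ^ 3 = jAr * (Sr ^ 3 - 1) ^ 3 := by
    have h1 := congrArg (frobenius κ q) hsrrel
    simp only [map_mul, map_pow, map_sub, map_add, map_one, map_ofNat] at h1
    have e : jBr ^ q = frobenius κ q jBr := rfl
    rw [hjκ, e]
    exact h1
  -- the Frobenius-untwisted cube root of unity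
  have hω'W : ω ^ q ∈ W := pow_mem hωW q
  have hω'3 : (ω ^ q) ^ 3 = 1 := by rw [← pow_mul, mul_comm, pow_mul, hω3, one_pow]
  set ω'r := res ⟨ω ^ q, hω'W⟩ with hω'r
  have hω'r_eq : ω'r = frobenius κ q ωr := by
    have h1 : (⟨ω ^ q, hω'W⟩ : ↥W) = (⟨ω, hωW⟩ : ↥W) ^ q := Subtype.ext (by push_cast; rfl)
    rw [hω'r, h1, map_pow]
    rfl
  have hfrobω' : frobenius κ q ω'r = ωr := by
    rw [hω'r_eq, frobenius_def, frobenius_def, ← pow_mul]
    -- `q * q ≡ 1 mod 3`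
    have hq3' : q % 3 = 1 ∨ q % 3 = 2 := by
      have h0 : q % 3 ≠ 0 := by
        intro h0
        have hdvd : 3 ∣ q := Nat.dvd_of_mod_eq_zero h0
        rcases (Nat.dvd_prime hq).1 hdvd with h | h
        · norm_num at h
        · exact hq3 h.symm
      omega
    have hqq : (q * q) % 3 = 1 := by
      rcases hq3' with h | h
      · rw [Nat.mul_mod, h]
      · rw [Nat.mul_mod, h]
    have hdecomp : q * q = 3 * (q * q / 3) + 1 := by
      have := Nat.div_add_mod (q * q) 3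
      omega
    rw [hdecomp, pow_add, pow_mul, hωr3, one_pow, one_mul, pow_one]
  -- the final step, for a candidate `s'`
  have key : ∀ (s' : E) (hs' : s' ∈ W), ar = frobenius κ q (res ⟨s', hs'⟩) →
      W.valuation (a - s' ^ q) < 1 := by
    intro s' hs' h
    have hmem : a - s' ^ q ∈ W := sub_mem haW (pow_mem hs' q)
    refine valuation_lt_one_of_residue_eq_zero W hmem ?_
    have h2 : (⟨a - s' ^ q, hmem⟩ : ↥W) = ⟨a, haW⟩ - (⟨s', hs'⟩ : ↥W) ^ q := Subtype.ext (by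
      push_cast
      rfl)
    rw [h2, map_sub, map_pow, sub_eq_zero]
    exact h
  obtain ⟨k, l, h | h⟩ := hesse_twelve_roots h3κ hωrel harrel hSrrel
  · -- `s' = ω'^k s`
    have hm : (ω ^ q) ^ k * s ∈ W := mul_mem (pow_mem hω'W k) hsW
    refine ⟨(ω ^ q) ^ k * s, ?_, hm, key _ hm ?_⟩
    · have h1 : ((ω ^ q) ^ k * s) ^ 3 = s ^ 3 := by
        rw [mul_pow, ← pow_mul, mul_comm k 3, pow_mul, hω'3, one_pow, one_mul]
      rw [h1]
      exact hs
    · have h1 : (⟨(ω ^ q) ^ k * s, hm⟩ : ↥W) = (⟨ω ^ q, hω'W⟩ : ↥W) ^ k * ⟨s, hsW⟩ :=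
        Subtype.ext (by push_cast; rfl)
      rw [h1, map_mul, map_pow, map_mul, map_pow, hfrobω']
      exact h
  · -- `s' = ω'^k (y + 2) / (y - 1)`, `y = ω'^l s`
    set y := (ω ^ q) ^ l * s with hy
    have hyW : y ∈ W := mul_mem (pow_mem hω'W l) hsW
    have hy3 : y ^ 3 = s ^ 3 := by
      rw [hy, mul_pow, ← pow_mul, mul_comm l 3, pow_mul, hω'3, one_pow, one_mul]
    set yr := res ⟨y, hyW⟩ with hyr
    have hyr_eq : yr = ω'r ^ l * sr := by
      have h1 : (⟨y, hyW⟩ : ↥W) = (⟨ω ^ q, hω'W⟩ : ↥W) ^ l * ⟨s, hsW⟩ :=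
        Subtype.ext (by push_cast; rfl)
      rw [hyr, h1, map_mul, map_pow]
    have hfroby : frobenius κ q yr = ωr ^ l * Sr := by
      rw [hyr_eq, map_mul, map_pow, hfrobω']
    have hyr3 : yr ^ 3 = sr ^ 3 := by
      have h1 : (⟨y, hyW⟩ : ↥W) ^ 3 = (⟨s, hsW⟩ : ↥W) ^ 3 := Subtype.ext (by
        push_cast
        exact hy3)
      have h2 := congrArg res h1
      simpa only [map_pow] using h2
    have hyr1 : yr - 1 ≠ 0 := by
      intro h0
      apply hsr3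
      rw [← hyr3, sub_eq_zero.mp h0, one_pow]
    have hy1W : y - 1 ∈ W := sub_mem hyW W.one_mem
    have hr_sub : res ⟨y - 1, hy1W⟩ = yr - 1 := by
      rw [hyr, ← map_one res, ← map_sub]
      rfl
    have hy1inv : (y - 1)⁻¹ ∈ W := inv_mem_of_residue_ne_zero W hy1W (by rw [hr_sub]; exact hyr1)
    have hy1 : y - 1 ≠ 0 := by
      intro h0
      apply hyr1
      rw [← hr_sub]
      have : (⟨y - 1, hy1W⟩ : ↥W) = 0 := Subtype.ext h0
      rw [this, map_zero]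
    have hr_subinv : res ⟨(y - 1)⁻¹, hy1inv⟩ = (yr - 1)⁻¹ := by
      rw [residue_inv_valuationSubring W hy1 hy1W hy1inv, hr_sub]
    have h2W : (2 : E) ∈ W := by
      have : (2 : E) = ((2 : ℕ) : E) := by norm_num
      rw [this]; exact natCast_mem W 2
    have hy2W : y + 2 ∈ W := add_mem hyW h2W
    have hr_add : res ⟨y + 2, hy2W⟩ = yr + 2 := by
      have h1 : (⟨y + 2, hy2W⟩ : ↥W) = ⟨y, hyW⟩ + 2 := Subtype.ext (by push_cast; rfl)
      rw [h1, map_add, map_ofNat]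
    have hm : (ω ^ q) ^ k * (y + 2) / (y - 1) ∈ W := by
      rw [div_eq_mul_inv]
      exact mul_mem (mul_mem (pow_mem hω'W k) hy2W) hy1inv
    refine ⟨(ω ^ q) ^ k * (y + 2) / (y - 1), ?_, hm, key _ hm ?_⟩
    · refine hesse_rel_mobius ?_ hy1 ?_
      · rw [← pow_mul, mul_comm k 3, pow_mul, hω'3, one_pow]
      · rw [hy3]; exact hs
    · have h1 : (⟨(ω ^ q) ^ k * (y + 2) / (y - 1), hm⟩ : ↥W) =
          (⟨ω ^ q, hω'W⟩ : ↥W) ^ k * ⟨y + 2, hy2W⟩ * ⟨(y - 1)⁻¹, hy1inv⟩ :=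
        Subtype.ext (by push_cast; rw [div_eq_mul_inv])
      have hres_s' : res ⟨(ω ^ q) ^ k * (y + 2) / (y - 1), hm⟩ =
          ω'r ^ k * (yr + 2) * (yr - 1)⁻¹ := by
        rw [h1]
        simp only [map_mul, map_pow]
        rw [hr_add, hr_subinv]
      rw [hres_s']
      simp only [map_mul, map_pow, map_inv₀, map_add, map_sub, map_one, map_ofNat]
      rw [hfrobω', hfroby]
      have hne : ωr ^ l * Sr - 1 ≠ 0 := by
        rw [← hfroby, ← map_one (frobenius κ q), ← map_sub]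
        intro h0
        exact hyr1 ((frobenius_inj κ q) (by rw [h0, map_zero]))
      rw [eq_mul_inv_iff_mul_eq₀ hne]
      exact h

end Hesse

end Fermat.Agent.SS
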