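/-
(SS-q) MODEL-GLOBAL `kron_t_zero` — helper3 — part 4: **the field `kron_t_zero` of `SSModel`**
(helper7's interface) from the Legendre / Hesse relation at level `M`, the two degeneracy maps
`A B : EM →+* EN`, and the Kronecker congruences for `j` on the two sheets.
-/
import Fermat.Agent.SS.KRONT_helper3_Hes

set_option autoImplicit false
set_option linter.unusedSectionVars false
set_option linter.unusedVariables false
set_option linter.style.haveILetI false

namespace Fermat.Agent.SS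

section Fields

variable {R : Type*} [CommRing R] {KM : Type*} [Field KM] {EM : Type*} [Field EM] [Algebra KM EM]
  {EN : Type*} [Field EN] [Algebra R EN]

omit [Field KM] [Field EM] [Algebra KM EM] in
/-- a unit of `R` maps to a nonzero element whose inverse lies in any subring containing `R`. -/
theorem unit_data_of_isUnit {n : R} (hn : IsUnit n) (W : ValuationSubring EN)
    (hR : ∀ r : R, algebraMap R EN r ∈ W) :
    algebraMap R EN n ≠ 0 ∧ (algebraMap R EN n)⁻¹ ∈ W := by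
  obtain ⟨u, rfl⟩ := hn
  refine ⟨(u.isUnit.map (algebraMap R EN)).ne_zero, ?_⟩
  have : (algebraMap R EN (u : R))⁻¹ = algebraMap R EN ((u⁻¹ : Rˣ) : R) := by
    apply inv_eq_of_mul_eq_one_right
    rw [← map_mul, Units.mul_inv, map_one]
  rw [this]; exact hR _

/-- **`kron_t_zero`, Legendre form.** -/
theorem legendre_kron_t_zero (A B : EM →+* EN) (W0 Winf : ValuationSubring EN) {q : ℕ}
    (hq : q.Prime) (h2 : IsUnit (2 : R))
    (hR0 : ∀ r : R, algebraMap R EN r ∈ W0) (hRinf : ∀ r : R, algebraMap R EN r ∈ Winf)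
    (hq0 : W0.valuation (q : EN) < 1) (hqinf : Winf.valuation (q : EN) < 1)
    (t : KM) (jM : EM)
    (hrel : 256 * ((algebraMap KM EM t) ^ 2 - algebraMap KM EM t + 1) ^ 3 =
      jM * ((algebraMap KM EM t) ^ 2 * (algebraMap KM EM t - 1) ^ 2))
    (hA0 : A jM ∈ W0) (hB0 : B jM ∈ W0) (hAinf : A jM ∈ Winf) (hBinf : B jM ∈ Winf)
    (kron_j_inf : Winf.valuation (B jM - A jM ^ q) < 1)
    (kron_j_zero : W0.valuation (A jM - B jM ^ q) < 1) :
    ∃ s' ρ : EN, IsIntegral ↥(Algebra.adjoin R {B jM}) s' ∧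
      IsIntegral ↥(Algebra.adjoin R {A jM}) ρ ∧
      W0.valuation (A (algebraMap KM EM t) - s' ^ q) < 1 ∧ Winf.valuation (s' - ρ ^ q) < 1 := by
  have h2E : algebraMap R EN 2 = 2 := map_ofNat _ 2
  obtain ⟨h20, h2W0⟩ := unit_data_of_isUnit h2 W0 hR0
  obtain ⟨-, h2Winf⟩ := unit_data_of_isUnit h2 Winf hRinf
  rw [h2E] at h20 h2W0 h2Winf
  have hrelA := congrArg A hrel
  have hrelB := congrArg B hrel
  simp only [map_mul, map_pow, map_sub, map_add, map_one, map_ofNat] at hrelA hrelB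
  obtain ⟨s', hs'rel, -, hs'⟩ :=
    legendre_kron_zero W0 hq hq0 h20 h2W0 hrelA hrelB hA0 hB0 kron_j_zero
  obtain ⟨ρ, hρrel, -, hρ⟩ :=
    legendre_kron_zero Winf hq hqinf h20 h2Winf hs'rel hrelA hBinf hAinf kron_j_inf
  exact ⟨s', ρ, legendre_isIntegral_adjoin h2 hs'rel, legendre_isIntegral_adjoin h2 hρrel, hs', hρ⟩

/-- **`kron_t_zero`, Hesse form.** -/
theorem hesse_kron_t_zero (A B : EM →+* EN) (W0 Winf : ValuationSubring EN) {q : ℕ}
    (hq : q.Prime) (h3 : IsUnit (3 : R)) (ω : R) (hω : ω ^ 2 + ω + 1 = 0)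
    (hR0 : ∀ r : R, algebraMap R EN r ∈ W0) (hRinf : ∀ r : R, algebraMap R EN r ∈ Winf)
    (hq0 : W0.valuation (q : EN) < 1) (hqinf : Winf.valuation (q : EN) < 1)
    (t : KM) (jM : EM)
    (hrel : 27 * (algebraMap KM EM t) ^ 3 * ((algebraMap KM EM t) ^ 3 + 8) ^ 3 =
      jM * ((algebraMap KM EM t) ^ 3 - 1) ^ 3)
    (hA0 : A jM ∈ W0) (hB0 : B jM ∈ W0) (hAinf : A jM ∈ Winf) (hBinf : B jM ∈ Winf)
    (kron_j_inf : Winf.valuation (B jM - A jM ^ q) < 1)
    (kron_j_zero : W0.valuation (A jM - B jM ^ q) < 1) :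
    ∃ s' ρ : EN, IsIntegral ↥(Algebra.adjoin R {B jM}) s' ∧
      IsIntegral ↥(Algebra.adjoin R {A jM}) ρ ∧
      W0.valuation (A (algebraMap KM EM t) - s' ^ q) < 1 ∧ Winf.valuation (s' - ρ ^ q) < 1 := by
  have h3E : algebraMap R EN 3 = 3 := map_ofNat _ 3
  obtain ⟨h30, h3W0⟩ := unit_data_of_isUnit h3 W0 hR0
  obtain ⟨-, h3Winf⟩ := unit_data_of_isUnit h3 Winf hRinf
  rw [h3E] at h30 h3W0 h3Winf
  have hωE : algebraMap R EN ω ^ 2 + algebraMap R EN ω + 1 = 0 := by
    rw [← map_pow, ← map_add, ← map_one (algebraMap R EN), ← map_add, hω, map_zero]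
  have hrelA := congrArg A hrel
  have hrelB := congrArg B hrel
  simp only [map_mul, map_pow, map_sub, map_add, map_one, map_ofNat] at hrelA hrelB
  obtain ⟨s', hs'rel, -, hs'⟩ :=
    hesse_kron_zero W0 hq hq0 h30 h3W0 hωE (hR0 ω) hrelA hrelB hA0 hB0 kron_j_zero
  obtain ⟨ρ, hρrel, -, hρ⟩ :=
    hesse_kron_zero Winf hq hqinf h30 h3Winf hωE (hRinf ω) hs'rel hrelA hBinf hAinf kron_j_inf
  exact ⟨s', ρ, hesse_isIntegral_adjoin h3 hs'rel, hesse_isIntegral_adjoin h3 hρrel, hs', hρ⟩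

end Fields

end Fermat.Agent.SS
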