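/-
(SS-q) HOST-W, helper2, part 1: lifting a ring endomorphism of the base along a simple finite
extension `E = F(t)` (abstract form).
-/
import Mathlib

set_option autoImplicit false

open Polynomial IntermediateField

namespace Fermat.Agent.SS

section Abstract

variable {F E : Type*} [Field F] [Field E] [Algebra F E] [FiniteDimensional F E]

/-- **Lifting a base automorphism along a simple extension**: if `E = F(t)`, `w : F →+* F` and
`s ∈ E` is a root of the `w`-twist of the minimal polynomial of `t`, there is a ring homomorphism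
`W : E →+* E` extending `w` with `W t = s`. -/
theorem exists_lift_of_adjoin_eq_top (t : E) (ht : F⟮t⟯ = ⊤) (w : F →+* F) (s : E)
    (hs : aeval s ((minpoly F t).map w) = 0) :
    ∃ W : E →+* E, (∀ c : F, W (algebraMap F E c) = algebraMap F E (w c)) ∧ W t = s := by
  have hint : IsIntegral F t := Algebra.IsIntegral.isIntegral t
  let e₁ : AdjoinRoot (minpoly F t) ≃ₐ[F] F⟮t⟯ := adjoinRootEquivAdjoin F hint
  let e₂ : F⟮t⟯ ≃ₐ[F] E := (IntermediateField.equivOfEq ht).trans IntermediateField.topEquiv
  let e : AdjoinRoot (minpoly F t) ≃ₐ[F] E := e₁.trans e₂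
  have he_root : e (AdjoinRoot.root (minpoly F t)) = t := by
    show e₂ (e₁ (AdjoinRoot.root (minpoly F t))) = t
    rw [adjoinRootEquivAdjoin_apply_root]
    rfl
  have h0 : (minpoly F t).eval₂ ((algebraMap F E).comp w) s = 0 := by
    rw [← hs, aeval_def, eval₂_map]
  let L : AdjoinRoot (minpoly F t) →+* E := AdjoinRoot.lift ((algebraMap F E).comp w) s h0
  refine ⟨L.comp (e.symm : E →+* AdjoinRoot (minpoly F t)), ?_, ?_⟩
  · intro c
    have : (e.symm : E →+* AdjoinRoot (minpoly F t)) (algebraMap F E c) =
        AdjoinRoot.of (minpoly F t) c := by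
      show e.symm (algebraMap F E c) = _
      rw [AlgEquiv.commutes]
      rfl
    rw [RingHom.comp_apply, this, AdjoinRoot.lift_of]
    rfl
  · have : (e.symm : E →+* AdjoinRoot (minpoly F t)) t = AdjoinRoot.root (minpoly F t) := by
      show e.symm t = _
      exact (AlgEquiv.symm_apply_eq e).mpr he_root.symm
    rw [RingHom.comp_apply, this, AdjoinRoot.lift_root]

/-- A ring endomorphism of a finite extension `E/F` inducing an involution on `F` is bijective. -/
theorem bijective_of_involutive_base (w : F →+* F) (hw : ∀ c, w (w c) = c) (W : E →+* E)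
    (hW : ∀ c : F, W (algebraMap F E c) = algebraMap F E (w c)) : Function.Bijective W := by
  refine ⟨W.injective, ?_⟩
  -- `W ∘ W` is an `F`-algebra endomorphism
  let W2 : E →ₐ[F] E :=
    { (W.comp W) with
      commutes' := fun c => by
        show W (W (algebraMap F E c)) = algebraMap F E c
        rw [hW, hW, hw] }
  have hbij : Function.Bijective W2 := AlgHom.bijective W2
  intro y
  obtain ⟨x, hx⟩ := hbij.2 y
  exact ⟨W x, hx⟩

/-- **(W1), abstract form**: the lift as a ring automorphism. -/
theorem exists_ringEquiv_lift (t : E) (ht : F⟮t⟯ = ⊤) (w : F →+* F) (hw : ∀ c, w (w c) = c)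
    (s : E) (hs : aeval s ((minpoly F t).map w) = 0) :
    ∃ W : E ≃+* E, (∀ c : F, W (algebraMap F E c) = algebraMap F E (w c)) ∧ W t = s := by
  obtain ⟨W, hW, hWt⟩ := exists_lift_of_adjoin_eq_top t ht w s hs
  exact ⟨RingEquiv.ofBijective W (bijective_of_involutive_base w hw W hW), hW, hWt⟩

end Abstract

end Fermat.Agent.SS
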