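/-
(SS-q) HOST-W, helper2, part 2: lifting a base involution along `EN = FN(t)` inside a host `H / K`
(intermediate-field form of `exists_ringEquiv_lift`), agreement with the dilation on `FM(t)`, and
extensionality of ring homomorphisms on a compositum.
-/
import Mathlib
import Fermat.Agent.SS.HOSTW_helper2_Abstract
import Fermat.Agent.JA.HOST_helper3_Kit

set_option autoImplicit false

open Polynomial IntermediateField

namespace Fermat.Agent.SS

open Fermat.Agent.JA
open scoped Fermat.Agent.JA.Host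

set_option linter.style.haveILetI false

section Host

variable {K H : Type*} [Field K] [Field H] [Algebra K H]

/-- **(W1), host form.** `FM ≤ FN` intermediate fields of a host `H/K`, `t ∈ H` integral over `FM`
of the same degree over `FN`, `B : H →+* H` (the dilation) with `B FM ⊆ FN`, `w` an involution of
`FN` which is `B` on `FM`, and `B t ∈ EN = FN(t)`.  Then `w` extends to a ring automorphism `W` of
`EN` with `W t = B t`. -/
theorem exists_hostW (FM FN EN : IntermediateField K H) (hMN : FM ≤ FN) (hNE : FN ≤ EN)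
    (t : H) (hEN : EN = FN ⊔ K⟮t⟯) (ht : IsIntegral ↥FM t)
    (hdeg : (minpoly ↥FM t).natDegree ≤ (minpoly ↥FN t).natDegree)
    (B : H →+* H)
    (w : ↥FN →+* ↥FN) (hw : ∀ c, w (w c) = c)
    (hwB : ∀ x : ↥FM, ((w (IntermediateField.inclusion hMN x) : ↥FN) : H) = B (x : H))
    (hs : B t ∈ EN) :
    ∃ W : ↥EN ≃+* ↥EN,
      (∀ c : ↥FN, W (IntermediateField.inclusion hNE c) = IntermediateField.inclusion hNE (w c)) ∧
      ((W ⟨t, by rw [hEN]; exact (le_sup_right : K⟮t⟯ ≤ FN ⊔ K⟮t⟯) (mem_adjoin_simple_self K t)⟩ :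
        ↥EN) : H) = B t := by
  have htEN : t ∈ EN := by
    rw [hEN]; exact (le_sup_right : K⟮t⟯ ≤ FN ⊔ K⟮t⟯) (mem_adjoin_simple_self K t)
  haveI : Fact (FN ≤ EN) := ⟨hNE⟩
  haveI : Fact (FM ≤ FN) := ⟨hMN⟩
  have htN : IsIntegral ↥FN t := ht.tower_top
  haveI : Module.Finite ↥FN ↥EN := Host.finite_of_eq_sup_simple t hEN htN
  set tE : ↥EN := ⟨t, htEN⟩ with htE
  -- generation
  have hgen : (↥FN)⟮tE⟯ = ⊤ := by
    rw [eq_top_iff]
    rintro ⟨e, he⟩ -
    -- the intermediate field of `H/K` carried by `FN(tE)`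
    let T : IntermediateField K H :=
      { carrier := {x | ∃ h : x ∈ EN, (⟨x, h⟩ : ↥EN) ∈ (↥FN)⟮tE⟯}
        mul_mem' := by
          rintro x y ⟨hx, hx'⟩ ⟨hy, hy'⟩
          exact ⟨EN.mul_mem hx hy, mul_mem hx' hy'⟩
        add_mem' := by
          rintro x y ⟨hx, hx'⟩ ⟨hy, hy'⟩
          exact ⟨EN.add_mem hx hy, add_mem hx' hy'⟩
        algebraMap_mem' := by
          intro c
          refine ⟨EN.algebraMap_mem c, ?_⟩
          have : (⟨algebraMap K H c, EN.algebraMap_mem c⟩ : ↥EN) =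
              algebraMap ↥FN ↥EN (algebraMap K ↥FN c) := rfl
          rw [this]
          exact IntermediateField.algebraMap_mem _ _
        inv_mem' := by
          rintro x ⟨hx, hx'⟩
          exact ⟨EN.inv_mem hx, inv_mem hx'⟩ }
    have h1 : FN ≤ T := by
      intro x hx
      refine ⟨hNE hx, ?_⟩
      have : (⟨x, hNE hx⟩ : ↥EN) = algebraMap ↥FN ↥EN ⟨x, hx⟩ := rfl
      rw [this]
      exact IntermediateField.algebraMap_mem _ _
    have h2 : K⟮t⟯ ≤ T := by
      rw [adjoin_simple_le_iff]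
      exact ⟨htEN, mem_adjoin_simple_self _ _⟩
    have h3 : EN ≤ T := by
      rw [hEN]
      exact sup_le h1 h2
    obtain ⟨_, h4⟩ := h3 he
    exact h4
  -- the minimal polynomial
  have hmin1 : minpoly ↥FN tE = minpoly ↥FN t := by
    have hinj : Function.Injective (algebraMap ↥EN H) := (algebraMap ↥EN H).injective
    exact (minpoly.algebraMap_eq hinj tE).symm
  set P : (↥FN)[X] := (minpoly ↥FM t).map (IntermediateField.inclusion hMN : ↥FM →+* ↥FN) with hP
  have hPmonic : P.Monic := (minpoly.monic ht).map _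
  have hProot : aeval t P = 0 := by
    rw [hP, aeval_def, eval₂_map]
    have : (algebraMap ↥FN H).comp (IntermediateField.inclusion hMN : ↥FM →+* ↥FN) =
        algebraMap ↥FM H := rfl
    rw [this, ← aeval_def, minpoly.aeval]
  have hmin2 : minpoly ↥FN t = P := by
    refine (Polynomial.eq_of_monic_of_dvd_of_natDegree_le (minpoly.monic htN) hPmonic
      (minpoly.dvd _ _ hProot) ?_).symm
    rw [hP, (minpoly.monic ht).natDegree_map]
    exact hdeg
  -- the root property
  set sE : ↥EN := ⟨B t, hs⟩ with hsE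
  have hroot : aeval sE ((minpoly ↥FN tE).map w) = 0 := by
    rw [hmin1, hmin2, hP, Polynomial.map_map]
    apply (algebraMap ↥EN H).injective
    rw [map_zero, aeval_def, Polynomial.hom_eval₂, eval₂_map]
    have e1 : ((algebraMap ↥EN H).comp (algebraMap ↥FN ↥EN)).comp
        (w.comp (IntermediateField.inclusion hMN : ↥FM →+* ↥FN)) =
        B.comp (algebraMap ↥FM H) := by
      ext x
      exact hwB x
    have e2 : algebraMap ↥EN H sE = B t := rfl
    rw [e1, e2, ← Polynomial.hom_eval₂, ← aeval_def, minpoly.aeval, map_zero]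
  obtain ⟨W, hW1, hW2⟩ := exists_ringEquiv_lift tE hgen w hw sE hroot
  refine ⟨W, fun c => hW1 c, ?_⟩
  show ((W tE : ↥EN) : H) = B t
  rw [hW2]

/-- **(W1), complement.** On `EM = FM(t)` the automorphism `W` is the dilation `B`. -/
theorem hostW_eq_dilate (FM FN EN : IntermediateField K H) (hMN : FM ≤ FN) (hNE : FN ≤ EN)
    (t : H) (htEN : t ∈ EN) (B : H →+* H) (hBK : ∀ c : K, B (algebraMap K H c) = algebraMap K H c)
    (w : ↥FN →+* ↥FN)
    (hwB : ∀ x : ↥FM, ((w (IntermediateField.inclusion hMN x) : ↥FN) : H) = B (x : H))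
    (W : ↥EN ≃+* ↥EN)
    (hW1 : ∀ c : ↥FN, W (IntermediateField.inclusion hNE c) =
      IntermediateField.inclusion hNE (w c))
    (hW2 : ((W ⟨t, htEN⟩ : ↥EN) : H) = B t)
    (e : H) (he : e ∈ FM ⊔ K⟮t⟯) (heN : e ∈ EN) : ((W ⟨e, heN⟩ : ↥EN) : H) = B e := by
  let T : IntermediateField K H :=
    { carrier := {x | ∃ h : x ∈ EN, ((W ⟨x, h⟩ : ↥EN) : H) = B x}
      mul_mem' := by
        rintro x y ⟨hx, hx'⟩ ⟨hy, hy'⟩
        refine ⟨EN.mul_mem hx hy, ?_⟩
        have : (⟨x * y, EN.mul_mem hx hy⟩ : ↥EN) = ⟨x, hx⟩ * ⟨y, hy⟩ := rfl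
        rw [this, map_mul, map_mul, ← hx', ← hy']
        rfl
      add_mem' := by
        rintro x y ⟨hx, hx'⟩ ⟨hy, hy'⟩
        refine ⟨EN.add_mem hx hy, ?_⟩
        have : (⟨x + y, EN.add_mem hx hy⟩ : ↥EN) = ⟨x, hx⟩ + ⟨y, hy⟩ := rfl
        rw [this, map_add, map_add, ← hx', ← hy']
        rfl
      algebraMap_mem' := by
        intro c
        refine ⟨EN.algebraMap_mem c, ?_⟩
        have h1 : (⟨algebraMap K H c, EN.algebraMap_mem c⟩ : ↥EN) =
            IntermediateField.inclusion hNE (IntermediateField.inclusion hMN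
              (algebraMap K ↥FM c)) := rfl
        rw [h1, hW1, hBK]
        exact hwB (algebraMap K ↥FM c) |>.trans (hBK c)
      inv_mem' := by
        rintro x ⟨hx, hx'⟩
        refine ⟨EN.inv_mem hx, ?_⟩
        have : (⟨x⁻¹, EN.inv_mem hx⟩ : ↥EN) = (⟨x, hx⟩ : ↥EN)⁻¹ := rfl
        rw [this, map_inv₀, map_inv₀, ← hx']
        rfl }
  have h1 : FM ≤ T := by
    intro x hx
    refine ⟨hNE (hMN hx), ?_⟩
    have h2 : (⟨x, hNE (hMN hx)⟩ : ↥EN) =
        IntermediateField.inclusion hNE (IntermediateField.inclusion hMN ⟨x, hx⟩) := rfl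
    rw [h2, hW1]
    exact hwB ⟨x, hx⟩
  have h2 : K⟮t⟯ ≤ T := by
    rw [adjoin_simple_le_iff]
    exact ⟨htEN, hW2⟩
  obtain ⟨_, h4⟩ := (sup_le h1 h2) he
  exact h4

/-- **extensionality on a compositum**: two ring homomorphisms out of `EN = FN(t)` into a field
agreeing on `FN` and at `t` are equal. -/
theorem hostRingHom_ext {L : Type*} [Field L] (FN EN : IntermediateField K H) (hNE : FN ≤ EN)
    (t : H) (htEN : t ∈ EN) (hEN : EN = FN ⊔ K⟮t⟯) (f g : ↥EN →+* L)
    (hF : ∀ c : ↥FN, f (IntermediateField.inclusion hNE c) = g (IntermediateField.inclusion hNE c))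
    (ht : f ⟨t, htEN⟩ = g ⟨t, htEN⟩) : f = g := by
  let T : IntermediateField K H :=
    { carrier := {x | ∃ h : x ∈ EN, f ⟨x, h⟩ = g ⟨x, h⟩}
      mul_mem' := by
        rintro x y ⟨hx, hx'⟩ ⟨hy, hy'⟩
        refine ⟨EN.mul_mem hx hy, ?_⟩
        have : (⟨x * y, EN.mul_mem hx hy⟩ : ↥EN) = ⟨x, hx⟩ * ⟨y, hy⟩ := rfl
        rw [this, map_mul, map_mul, hx', hy']
      add_mem' := by
        rintro x y ⟨hx, hx'⟩ ⟨hy, hy'⟩
        refine ⟨EN.add_mem hx hy, ?_⟩
        have : (⟨x + y, EN.add_mem hx hy⟩ : ↥EN) = ⟨x, hx⟩ + ⟨y, hy⟩ := rfl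
        rw [this, map_add, map_add, hx', hy']
      algebraMap_mem' := by
        intro c
        refine ⟨EN.algebraMap_mem c, ?_⟩
        have h1 : (⟨algebraMap K H c, EN.algebraMap_mem c⟩ : ↥EN) =
            IntermediateField.inclusion hNE (algebraMap K ↥FN c) := rfl
        rw [h1, hF]
      inv_mem' := by
        rintro x ⟨hx, hx'⟩
        refine ⟨EN.inv_mem hx, ?_⟩
        have : (⟨x⁻¹, EN.inv_mem hx⟩ : ↥EN) = (⟨x, hx⟩ : ↥EN)⁻¹ := rfl
        rw [this, map_inv₀, map_inv₀, hx'] }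
  have h1 : FN ≤ T := by
    intro x hx
    refine ⟨hNE hx, ?_⟩
    exact hF ⟨x, hx⟩
  have h2 : K⟮t⟯ ≤ T := by
    rw [adjoin_simple_le_iff]
    exact ⟨htEN, ht⟩
  have h3 : EN ≤ T := by
    rw [hEN]
    exact sup_le h1 h2
  refine RingHom.ext fun e => ?_
  obtain ⟨_, h4⟩ := h3 e.2
  exact h4

end Host

end Fermat.Agent.SS
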