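/-
(SS-q), package IBASE, helper1. Part 1: **Galois bases**. A Galois base is a base
`K₁ = K^♭ ⊔ F ⊂ Ω` with `F/ℚ` finite and normal. It is normal over `ℚ`, so every automorphism of
`Ω` restricts to `K₁`; Galois bases are cofinal among the bases.
-/
import Mathlib
import Fermat.Agent.JA.BASE_helper1_Main
import Fermat.Agent.Tate.Inertia

set_option autoImplicit false
set_option linter.unusedSectionVars false
set_option linter.style.haveILetI false

namespace Fermat.Agent.SS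

open Fermat.Agent.JA

/-- `Ω = AlgebraicClosure ℚ`. -/
local notation "Ω" => AlgebraicClosure ℚ

/-- the absolute Galois group. -/
local notation "GQ" => (AlgebraicClosure ℚ ≃ₐ[ℚ] AlgebraicClosure ℚ)

section GalBase

variable (q : ℕ)

/-- a Galois base: `K₁ = K^♭ ⊔ F` with `F/ℚ` finite and normal. -/
def IsGalBase (K₁ : IntermediateField ℚ Ω) : Prop :=
  ∃ F : IntermediateField ℚ Ω, FiniteDimensional ℚ ↥F ∧ Normal ℚ ↥F ∧ K₁ = flatBase q ⊔ F

variable {q} {K₀ K₁ K₂ : IntermediateField ℚ Ω}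

theorem IsGalBase.isBase (h : IsGalBase q K₁) : IsBase q K₁ := by
  obtain ⟨F, hF, -, rfl⟩ := h
  exact ⟨F, hF, rfl⟩

theorem IsGalBase.flatBase_le (h : IsGalBase q K₁) : flatBase q ≤ K₁ := h.isBase.flatBase_le

/-- `K^♭` is stable under every automorphism of `Ω`. -/
theorem map_flatBase_le (σ : GQ) : (flatBase q).map (σ : Ω →ₐ[ℚ] Ω) ≤ flatBase q := by
  rw [flatBase, IntermediateField.adjoin_map, IntermediateField.adjoin_le_iff]
  rintro _ ⟨ζ, ⟨n, hn, hqn, hζ⟩, rfl⟩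
  refine IntermediateField.subset_adjoin ℚ _ ⟨n, hn, hqn, ?_⟩
  show (σ ζ) ^ n = 1
  rw [← map_pow, hζ, map_one]

/-- `K^♭/ℚ` is normal. -/
theorem normal_flatBase (q : ℕ) : Normal ℚ ↥(flatBase q) :=
  IntermediateField.normal_iff_forall_map_le'.mpr fun σ => map_flatBase_le σ

/-- a Galois base is normal over `ℚ`. -/
theorem IsGalBase.normal (h : IsGalBase q K₁) : Normal ℚ ↥K₁ := by
  obtain ⟨F, -, hF, rfl⟩ := h
  exact @IntermediateField.normal_sup ℚ Ω _ _ _ (flatBase q) F (normal_flatBase q) hF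

theorem normal_bot : Normal ℚ ↥(⊥ : IntermediateField ℚ Ω) :=
  IntermediateField.normal_iff_forall_map_le'.mpr fun σ => by
    rw [IntermediateField.map_bot]

theorem isGalBase_flatBase : IsGalBase q (flatBase q) :=
  ⟨⊥, inferInstance, normal_bot, by rw [sup_bot_eq]⟩

theorem IsGalBase.sup (h₁ : IsGalBase q K₁) (h₂ : IsGalBase q K₂) : IsGalBase q (K₁ ⊔ K₂) := by
  obtain ⟨F₁, hF₁, hn₁, rfl⟩ := h₁
  obtain ⟨F₂, hF₂, hn₂, rfl⟩ := h₂
  haveI := hF₁
  haveI := hF₂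
  refine ⟨F₁ ⊔ F₂, IntermediateField.finiteDimensional_sup F₁ F₂,
    @IntermediateField.normal_sup ℚ Ω _ _ _ F₁ F₂ hn₁ hn₂, ?_⟩
  rw [sup_sup_sup_comm, sup_idem]

/-- **Galois bases are cofinal**: every base is contained in a Galois base. -/
theorem _root_.Fermat.Agent.JA.IsBase.exists_ge_isGalBase (h : IsBase q K₀) :
    ∃ K₁ : IntermediateField ℚ Ω, IsGalBase q K₁ ∧ K₀ ≤ K₁ := by
  obtain ⟨F, hF, rfl⟩ := h
  haveI := hF
  refine ⟨flatBase q ⊔ IntermediateField.normalClosure ℚ ↥F Ω,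
    ⟨_, inferInstance, normalClosure.normal ℚ ↥F Ω, rfl⟩, ?_⟩
  exact sup_le_sup_left F.le_normalClosure _

/-- every base is contained in a Galois base containing finitely many given constants. -/
theorem _root_.Fermat.Agent.JA.IsBase.exists_ge_isGalBase_forall_mem (h : IsBase q K₀)
    (t : Finset Ω) :
    ∃ K₁ : IntermediateField ℚ Ω, IsGalBase q K₁ ∧ K₀ ≤ K₁ ∧ ∀ c ∈ t, c ∈ K₁ := by
  obtain ⟨K', hK', hle, hmem⟩ := h.exists_ge_forall_mem t
  obtain ⟨K₁, hK₁, hle'⟩ := hK'.exists_ge_isGalBase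
  exact ⟨K₁, hK₁, hle.trans hle', fun c hc => hle' (hmem c hc)⟩

/-- finitely many constants lie in a common Galois base. -/
theorem exists_isGalBase_forall_mem (q : ℕ) (t : Finset Ω) :
    ∃ K₁ : IntermediateField ℚ Ω, IsGalBase q K₁ ∧ ∀ c ∈ t, c ∈ K₁ := by
  obtain ⟨K₁, h1, -, h3⟩ := (isBase_flatBase (ℓ := q)).exists_ge_isGalBase_forall_mem t
  exact ⟨K₁, h1, h3⟩

end GalBase

section Restrict

variable (K₁ : IntermediateField ℚ Ω) [Normal ℚ ↥K₁]

/-- restriction of automorphisms of `Ω` to a normal intermediate field. -/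
noncomputable def resGal : GQ →* (↥K₁ ≃ₐ[ℚ] ↥K₁) := AlgEquiv.restrictNormalHom ↥K₁

theorem coe_resGal (σ : GQ) (c : ↥K₁) : ((resGal K₁ σ c : ↥K₁) : Ω) = σ (c : Ω) :=
  AlgEquiv.restrictNormal_commutes σ ↥K₁ c

end Restrict

section Inertia

variable {A : ValuationSubring Ω} {K₁ : IntermediateField ℚ Ω} [Normal ℚ ↥K₁] {σ : GQ}

/-- an element of `K₁` is a non-unit of `R₁ = A ∩ K₁` iff its valuation is `< 1`. -/
theorem mem_maximalIdeal_baseRing_iff {K : IntermediateField ℚ Ω} (x : ↥(baseRing A K)) :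
    x ∈ IsLocalRing.maximalIdeal ↥(baseRing A K) ↔ A.valuation (((x : ↥K) : Ω)) < 1 := by
  rw [IsLocalRing.mem_maximalIdeal, mem_nonunits_iff, isUnit_baseRing_iff]
  exact ⟨fun h => lt_of_le_of_ne (valuation_coe_le_one x) h, fun h => ne_of_lt h⟩

/-- **`σ̄ R₁ ⊆ R₁`** for `σ` in the inertia group of `A`. -/
theorem resGal_mem_baseRing (hσ : σ ∈ A.inertiaSubgroupIn ℚ) {c : ↥K₁}
    (hc : c ∈ baseRing A K₁) : resGal K₁ σ c ∈ baseRing A K₁ := by
  rw [mem_baseRing_iff, A.valuation_le_one_iff] at hc ⊢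
  rw [coe_resGal]
  exact (Fermat.Agent.Tate.inertia_map_mem_and_sub_mem hσ hc).1

theorem resGal_mem_baseRing_iff (hσ : σ ∈ A.inertiaSubgroupIn ℚ) {c : ↥K₁} :
    resGal K₁ σ c ∈ baseRing A K₁ ↔ c ∈ baseRing A K₁ := by
  refine ⟨fun h => ?_, resGal_mem_baseRing hσ⟩
  have h1 := resGal_mem_baseRing (K₁ := K₁) (inv_mem hσ) h
  rwa [← AlgEquiv.mul_apply, ← map_mul, inv_mul_cancel, map_one] at h1

/-- **the automorphism `σ̄` of `R₁ = A ∩ K₁`** induced by `σ` in the inertia group of `A`. -/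
noncomputable def baseRingAut (hσ : σ ∈ A.inertiaSubgroupIn ℚ) :
    ↥(baseRing A K₁) ≃+* ↥(baseRing A K₁) where
  toFun c := ⟨resGal K₁ σ c, resGal_mem_baseRing hσ c.2⟩
  invFun c := ⟨resGal K₁ σ⁻¹ c, resGal_mem_baseRing (inv_mem hσ) c.2⟩
  left_inv c := by
    apply Subtype.ext
    show resGal K₁ σ⁻¹ (resGal K₁ σ c) = c
    rw [← AlgEquiv.mul_apply, ← map_mul, inv_mul_cancel, map_one]
    rfl
  right_inv c := by
    apply Subtype.ext
    show resGal K₁ σ (resGal K₁ σ⁻¹ c) = c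
    rw [← AlgEquiv.mul_apply, ← map_mul, mul_inv_cancel, map_one]
    rfl
  map_mul' x y := Subtype.ext (map_mul (resGal K₁ σ) (x : ↥K₁) (y : ↥K₁))
  map_add' x y := Subtype.ext (map_add (resGal K₁ σ) (x : ↥K₁) (y : ↥K₁))

@[simp]
theorem coe_baseRingAut (hσ : σ ∈ A.inertiaSubgroupIn ℚ) (c : ↥(baseRing A K₁)) :
    ((baseRingAut hσ c : ↥(baseRing A K₁)) : ↥K₁) = resGal K₁ σ (c : ↥K₁) := rfl

theorem coe_coe_baseRingAut (hσ : σ ∈ A.inertiaSubgroupIn ℚ) (c : ↥(baseRing A K₁)) :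
    (((baseRingAut hσ c : ↥(baseRing A K₁)) : ↥K₁) : Ω) = σ ((c : ↥K₁) : Ω) :=
  coe_resGal K₁ σ _

/-- **`σ̄` is trivial on the residue field of `R₁`**: `σ̄ c − c ∈ 𝔪₁` for `c ∈ R₁`. -/
theorem baseRingAut_sub_mem_maximalIdeal (hσ : σ ∈ A.inertiaSubgroupIn ℚ)
    (c : ↥(baseRing A K₁)) :
    baseRingAut hσ c - c ∈ IsLocalRing.maximalIdeal ↥(baseRing A K₁) := by
  rw [mem_maximalIdeal_baseRing_iff]
  have hc : ((c : ↥K₁) : Ω) ∈ A := (A.valuation_le_one_iff _).mp (valuation_coe_le_one c)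
  have h1 := (Fermat.Agent.Tate.inertia_map_mem_and_sub_mem hσ hc).2
  rw [ValuationSubring.mem_nonunits_iff] at h1
  have h2 : (((baseRingAut hσ c - c : ↥(baseRing A K₁)) : ↥K₁) : Ω) =
      σ ((c : ↥K₁) : Ω) - ((c : ↥K₁) : Ω) := by
    rw [← coe_coe_baseRingAut hσ c]
    rfl
  rw [h2]
  exact h1

/-- **`σ̄ c − c ∈ ϖ R₁`** for a uniformizer `ϖ` of the discrete valuation ring `R₁`. -/
theorem exists_baseRingAut_sub_eq_mul [IsDiscreteValuationRing ↥(baseRing A K₁)]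
    (hσ : σ ∈ A.inertiaSubgroupIn ℚ) {ϖ : ↥(baseRing A K₁)} (hϖ : Irreducible ϖ)
    (c : ↥(baseRing A K₁)) : ∃ d : ↥(baseRing A K₁), baseRingAut hσ c - c = ϖ * d := by
  have h1 := baseRingAut_sub_mem_maximalIdeal hσ c
  rw [hϖ.maximalIdeal_eq, Ideal.mem_span_singleton] at h1
  exact h1

/-- `σ̄` maps a uniformizer of `R₁` to an associated element. -/
theorem associated_baseRingAut [IsDiscreteValuationRing ↥(baseRing A K₁)]
    (hσ : σ ∈ A.inertiaSubgroupIn ℚ) {ϖ : ↥(baseRing A K₁)} (hϖ : Irreducible ϖ) :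
    Associated (baseRingAut hσ ϖ) ϖ :=
  IsDiscreteValuationRing.associated_of_irreducible _
    ((MulEquiv.irreducible_iff (baseRingAut hσ)).mpr hϖ) hϖ

end Inertia

section FlatFixed

variable {q : ℕ} [hq : Fact q.Prime] {A : ValuationSubring Ω} {σ : GQ}

/-- **inertia fixes the roots of unity of order prime to `q`.** -/
theorem inertia_apply_root (hA : A.LiesOverPrime q) (hσ : σ ∈ A.inertiaSubgroupIn ℚ) {n : ℕ}
    (hn : 0 < n) (hqn : ¬ q ∣ n) {ζ : Ω} (hζ : ζ ^ n = 1) : σ ζ = ζ := by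
  by_contra hne
  haveI := charP_residueField hA
  have hζA : ζ ∈ A := by
    rw [← A.valuation_le_one_iff]
    have h1 : (A.valuation ζ) ^ n = 1 := by rw [← map_pow, hζ, map_one]
    exact le_of_eq (eq_one_of_pow_eq_one' hn.ne' h1)
  obtain ⟨hσζA, hsub⟩ := Fermat.Agent.Tate.inertia_map_mem_and_sub_mem hσ hζA
  -- `u = σ ζ / ζ`
  set u : Ω := σ ζ * ζ ^ (n - 1) with hu
  have hζζ : ζ * ζ ^ (n - 1) = 1 := by
    rw [← pow_succ', Nat.sub_add_cancel hn, hζ]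
  have hun : u ^ n = 1 := by
    rw [hu, mul_pow, ← map_pow, hζ, map_one, one_mul, ← pow_mul, mul_comm, pow_mul, hζ, one_pow]
  have hu1 : u - 1 = (σ ζ - ζ) * ζ ^ (n - 1) := by
    rw [sub_mul, hζζ]
  have hune : u ≠ 1 := by
    intro h
    apply hne
    have h2 : (σ ζ - ζ) * ζ ^ (n - 1) = 0 := by rw [← hu1, h, sub_self]
    have hζ0 : ζ ^ (n - 1) ≠ 0 := by
      intro h0
      rw [h0, mul_zero] at hζζ
      exact zero_ne_one hζζ
    exact sub_eq_zero.mp ((mul_eq_zero.mp h2).resolve_right hζ0)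
  have huA : u ∈ A := A.mul_mem _ _ hσζA (pow_mem hζA _)
  have hsum : ∑ i ∈ Finset.range n, u ^ i = 0 := by
    have h3 := mul_geom_sum u n
    rw [hun, sub_self] at h3
    exact (mul_eq_zero.mp h3).resolve_left (sub_ne_zero.mpr hune)
  -- reduce modulo the maximal ideal
  have hres : IsLocalRing.residue ↥A ⟨u, huA⟩ = 1 := by
    rw [← sub_eq_zero, ← map_one (IsLocalRing.residue ↥A), ← map_sub,
      IsLocalRing.residue_eq_zero_iff, ValuationSubring.valuation_lt_one_iff]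
    have h4 : (((⟨u, huA⟩ - 1 : ↥A)) : Ω) = u - 1 := rfl
    rw [h4, hu1, map_mul]
    have h5 : A.valuation (σ ζ - ζ) < 1 := (ValuationSubring.mem_nonunits_iff A).mp hsub
    have h6 : A.valuation (ζ ^ (n - 1)) ≤ 1 := (A.valuation_le_one_iff _).mpr (pow_mem hζA _)
    calc A.valuation (σ ζ - ζ) * A.valuation (ζ ^ (n - 1))
        ≤ A.valuation (σ ζ - ζ) * 1 := mul_le_mul_right h6 _
      _ < 1 := by rwa [mul_one]
  have hsumA : ∑ i ∈ Finset.range n, (⟨u, huA⟩ : ↥A) ^ i = 0 := by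
    apply Subtype.ext
    have h8 : ((0 : ↥A) : Ω) = 0 := rfl
    rw [h8, ← hsum]
    simp
  have h7 := congrArg (IsLocalRing.residue ↥A) hsumA
  rw [map_sum, map_zero] at h7
  simp only [map_pow, hres, one_pow, Finset.sum_const, Finset.card_range, nsmul_eq_mul,
    mul_one] at h7
  exact hqn ((CharP.cast_eq_zero_iff (IsLocalRing.ResidueField ↥A) q n).mp h7)

/-- **inertia fixes `K^♭` pointwise.** -/
theorem flatBase_le_fixedField_inertia (hA : A.LiesOverPrime q) :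
    flatBase q ≤ IntermediateField.fixedField (A.inertiaSubgroupIn ℚ) := by
  rw [flatBase, IntermediateField.adjoin_le_iff]
  rintro ζ ⟨n, hn, hqn, hζ⟩
  show ζ ∈ IntermediateField.fixedField (A.inertiaSubgroupIn ℚ)
  rw [IntermediateField.mem_fixedField_iff]
  exact fun σ hσ => inertia_apply_root hA hσ hn hqn hζ

theorem inertia_apply_of_mem_flatBase (hA : A.LiesOverPrime q) (hσ : σ ∈ A.inertiaSubgroupIn ℚ)
    {c : Ω} (hc : c ∈ flatBase q) : σ c = c :=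
  (IntermediateField.mem_fixedField_iff _ _).mp (flatBase_le_fixedField_inertia hA hc) σ hσ

end FlatFixed

section Finite

variable {q : ℕ} [hq : Fact q.Prime] {A : ValuationSubring Ω} (K₁ : IntermediateField ℚ Ω)
  [Normal ℚ ↥K₁]

/-- the image `Ī` of the inertia group of `A` in `Aut(K₁/ℚ)`. -/
noncomputable def inertiaImg (A : ValuationSubring Ω) : Subgroup (↥K₁ ≃ₐ[ℚ] ↥K₁) :=
  (A.inertiaSubgroupIn ℚ).map (resGal K₁)

variable {K₁}

theorem mem_inertiaImg_iff {τ : ↥K₁ ≃ₐ[ℚ] ↥K₁} :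
    τ ∈ inertiaImg K₁ A ↔ ∃ σ ∈ A.inertiaSubgroupIn ℚ, resGal K₁ σ = τ :=
  Subgroup.mem_map

theorem resGal_mem_inertiaImg {σ : GQ} (hσ : σ ∈ A.inertiaSubgroupIn ℚ) :
    resGal K₁ σ ∈ inertiaImg K₁ A :=
  Subgroup.mem_map_of_mem _ hσ

/-- the elements of `Ī` fix `K^♭` pointwise. -/
theorem apply_eq_of_mem_inertiaImg (hA : A.LiesOverPrime q) {τ : ↥K₁ ≃ₐ[ℚ] ↥K₁}
    (hτ : τ ∈ inertiaImg K₁ A) {c : ↥K₁} (hc : (c : Ω) ∈ flatBase q) : τ c = c := by
  obtain ⟨σ, hσ, rfl⟩ := mem_inertiaImg_iff.mp hτ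
  apply Subtype.ext
  rw [coe_resGal]
  exact inertia_apply_of_mem_flatBase hA hσ hc

/-- **the image of inertia in `Aut(K₁/ℚ)` is finite**, for every base `K₁` normal over `ℚ`. -/
theorem finite_inertiaImg (hA : A.LiesOverPrime q) (hK₁ : IsBase q K₁) :
    Finite ↥(inertiaImg K₁ A) := by
  obtain ⟨F, hF, hK⟩ := hK₁
  haveI := hF
  have hFle : F ≤ K₁ := hK ▸ le_sup_right
  let Φ : ↥(inertiaImg K₁ A) → (↥F →ₐ[ℚ] Ω) := fun τ =>
    (K₁.val.comp ((τ : ↥K₁ ≃ₐ[ℚ] ↥K₁) : ↥K₁ →ₐ[ℚ] ↥K₁)).comp (IntermediateField.inclusion hFle)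
  have hΦ : Function.Injective Φ := by
    rintro ⟨τ, hτ⟩ ⟨τ', hτ'⟩ h
    apply Subtype.ext
    show τ = τ'
    obtain ⟨σ, hσ, rfl⟩ := mem_inertiaImg_iff.mp hτ
    obtain ⟨σ', hσ', rfl⟩ := mem_inertiaImg_iff.mp hτ'
    -- `ρ = σ⁻¹ σ'` fixes `K^♭` and `F`, hence `K₁`
    have hρ : σ⁻¹ * σ' ∈ K₁.fixingSubgroup := by
      rw [hK, IntermediateField.fixingSubgroup_sup, Subgroup.mem_inf,
        IntermediateField.mem_fixingSubgroup_iff, IntermediateField.mem_fixingSubgroup_iff]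
      refine ⟨fun x hx => ?_, fun x hx => ?_⟩
      · exact inertia_apply_of_mem_flatBase hA (mul_mem (inv_mem hσ) hσ') hx
      · have h1 := DFunLike.congr_fun h ⟨x, hx⟩
        have h2 : σ x = σ' x := by
          have e1 : Φ ⟨resGal K₁ σ, hτ⟩ ⟨x, hx⟩ = σ x := coe_resGal K₁ σ ⟨x, hFle hx⟩
          have e2 : Φ ⟨resGal K₁ σ', hτ'⟩ ⟨x, hx⟩ = σ' x := coe_resGal K₁ σ' ⟨x, hFle hx⟩
          rw [← e1, ← e2, h1]
        rw [AlgEquiv.mul_apply, ← h2, ← AlgEquiv.mul_apply, inv_mul_cancel]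
        rfl
    ext c
    rw [coe_resGal, coe_resGal]
    have h3 := (IntermediateField.mem_fixingSubgroup_iff _ _).mp hρ (c : Ω) c.2
    rw [AlgEquiv.mul_apply] at h3
    have h4 := congrArg σ h3
    rw [← AlgEquiv.mul_apply, mul_inv_cancel] at h4
    exact h4.symm
  exact Finite.of_injective Φ hΦ

end Finite

end Fermat.Agent.SS
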