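/-
(SS-q), package IBASE, helper1. Part 2: **the coefficientwise action** of `Aut(K/ℚ)` on the
function fields over `K` living inside `K⸨x⸩` (level-`N` function field, Legendre and Hesse hosts),
as semilinear automorphisms; compatibility with coefficient extension `K₁ ⊂ Ω` and with the
restriction of automorphisms of `Ω` to a normal base `K₁`.
-/
import Mathlib
import Fermat.Agent.SS.IBASE_helper1_Core
import Fermat.Agent.JA.BCD_helper9_HostRat

set_option autoImplicit false
set_option linter.unusedSectionVars false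
set_option linter.style.haveILetI false

open HahnSeries IntermediateField AlgebraicCurve ModularCurve

namespace Fermat.Agent.SS

open Fermat.Agent.JA

section Generic

variable {K : Type*} [Field K] [Algebra ℚ K] (E : IntermediateField K (LaurentSeries K))

/-- `E ⊂ K⸨x⸩` is stable under the coefficientwise action of `Aut(K/ℚ)`. -/
def CoeffStable : Prop :=
  ∀ τ : K ≃ₐ[ℚ] K, ∀ x ∈ E, coeffMap (τ : K →+* K) x ∈ E

variable {E} (hE : CoeffStable E)

/-- the coefficientwise ring automorphism of `E` attached to `τ ∈ Aut(K/ℚ)`. -/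
noncomputable def coeffRingAut (τ : K ≃ₐ[ℚ] K) : ↥E ≃+* ↥E where
  toFun x := ⟨coeffMap (τ : K →+* K) (x : LaurentSeries K), hE τ _ x.2⟩
  invFun x := ⟨coeffMap (τ.symm : K →+* K) (x : LaurentSeries K), hE τ.symm _ x.2⟩
  left_inv x := Subtype.ext <| by
    show coeffMap (τ.symm : K →+* K) (coeffMap (τ : K →+* K) (x : LaurentSeries K))
      = (x : LaurentSeries K)
    rw [coeffMap_coeffMap,
      coeffMap_congr (g := RingHom.id K) (RingHom.ext fun a => τ.symm_apply_apply a)
        (x : LaurentSeries K),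
      coeffMap_id]
  right_inv x := Subtype.ext <| by
    show coeffMap (τ : K →+* K) (coeffMap (τ.symm : K →+* K) (x : LaurentSeries K))
      = (x : LaurentSeries K)
    rw [coeffMap_coeffMap,
      coeffMap_congr (g := RingHom.id K) (RingHom.ext fun a => τ.apply_symm_apply a)
        (x : LaurentSeries K),
      coeffMap_id]
  map_mul' x y :=
    Subtype.ext (map_mul (coeffMap (τ : K →+* K)) (x : LaurentSeries K) (y : LaurentSeries K))
  map_add' x y :=
    Subtype.ext (map_add (coeffMap (τ : K →+* K)) (x : LaurentSeries K) (y : LaurentSeries K))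

@[simp]
theorem coe_coeffRingAut_apply (τ : K ≃ₐ[ℚ] K) (x : ↥E) :
    (coeffRingAut hE τ x : LaurentSeries K) = coeffMap (τ : K →+* K) (x : LaurentSeries K) :=
  rfl

theorem coeffRingAut_algebraMap (τ : K ≃ₐ[ℚ] K) (a : K) :
    coeffRingAut hE τ (algebraMap K ↥E a) = algebraMap K ↥E (τ a) :=
  Subtype.ext (coeffMap_algebraMap (τ : K →+* K) a)

/-- **the coefficientwise semilinear action** of `Aut(K/ℚ)` on `E`. -/
noncomputable def coeffGalois : (K ≃ₐ[ℚ] K) →* SemilinearAut K ↥E where
  toFun τ := ⟨(coeffRingAut hE τ, τ.toRingEquiv), fun a => coeffRingAut_algebraMap hE τ a⟩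
  map_one' := by
    refine Subtype.ext (Prod.ext (RingEquiv.ext fun x => Subtype.ext ?_) rfl)
    show coeffMap ((1 : K ≃ₐ[ℚ] K) : K →+* K) (x : LaurentSeries K) = (x : LaurentSeries K)
    rw [show ((1 : K ≃ₐ[ℚ] K) : K →+* K) = RingHom.id K from RingHom.ext fun _ => rfl,
      coeffMap_id]
  map_mul' σ τ := by
    refine Subtype.ext (Prod.ext (RingEquiv.ext fun x => Subtype.ext ?_) rfl)
    show coeffMap ((σ * τ : K ≃ₐ[ℚ] K) : K →+* K) (x : LaurentSeries K)
      = coeffMap (σ : K →+* K) (coeffMap (τ : K →+* K) (x : LaurentSeries K))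
    rw [coeffMap_coeffMap]
    exact coeffMap_congr (RingHom.ext fun _ => rfl) _

@[simp]
theorem toRingAut_coeffGalois (τ : K ≃ₐ[ℚ] K) :
    SemilinearAut.toRingAut (coeffGalois hE τ) = coeffRingAut hE τ :=
  rfl

@[simp]
theorem baseAut_coeffGalois (τ : K ≃ₐ[ℚ] K) :
    SemilinearAut.baseAut (coeffGalois hE τ) = τ.toRingEquiv :=
  rfl

theorem coe_coeffGalois_smul (τ : K ≃ₐ[ℚ] K) (x : ↥E) :
    ((coeffGalois hE τ • x : ↥E) : LaurentSeries K) =
      coeffMap (τ : K →+* K) (x : LaurentSeries K) :=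
  rfl

end Generic

section Instances

variable (K : Type*) [Field K] [Algebra ℚ K] (N : ℕ) [NeZero N]

theorem coeffStable_keyFq : CoeffStable (keyFq K N) :=
  fun τ _ hx => coeffMap_mem_laurentBaseChange τ hx

theorem coeffStable_keyFw (w : ℕ) [NeZero w] : CoeffStable (keyFw K N w) :=
  fun τ _ hx => coeffMap_mem_keyFw (τ : K →+* K) N w hx

theorem coeffStable_legE : CoeffStable (legE K N) :=
  fun τ _ hx => coeffMap_mem_legE (τ : K →+* K) N hx

theorem coeffStable_hesE : CoeffStable (hesE K N) :=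
  fun τ _ hx => coeffMap_mem_hesE (τ : K →+* K) N hx

/-- the coefficientwise action on the Legendre host. -/
noncomputable def legGalois : (K ≃ₐ[ℚ] K) →* SemilinearAut K ↥(legE K N) :=
  coeffGalois (coeffStable_legE K N)

/-- the coefficientwise action on the Hesse host. -/
noncomputable def hesGalois : (K ≃ₐ[ℚ] K) →* SemilinearAut K ↥(hesE K N) :=
  coeffGalois (coeffStable_hesE K N)

/-- the coefficientwise action on the level-`N` function field (equal to the Prelude's
`arithmeticGalois`). -/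
noncomputable def keyFqGalois : (K ≃ₐ[ℚ] K) →* SemilinearAut K ↥(keyFq K N) :=
  coeffGalois (coeffStable_keyFq K N)

theorem keyFqGalois_eq : keyFqGalois K N = arithmeticGalois (modularFunctionFieldFull N) := rfl

end Instances

section Compat

variable {K L : Type*} [Field K] [Field L] [Algebra ℚ K] [Algebra ℚ L] (φ : K →+* L)
  {E_K : IntermediateField K (LaurentSeries K)} {E_L : IntermediateField L (LaurentSeries L)}
  (hK : CoeffStable E_K) (hL : CoeffStable E_L) (h : ∀ x ∈ E_K, coeffMap φ x ∈ E_L)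

/-- **compatibility of the coefficientwise actions with a coefficient extension** `φ : K → L`
intertwining `τ ∈ Aut(K/ℚ)` and `σ ∈ Aut(L/ℚ)`. -/
theorem coeffHom_coeffGalois_smul {τ : K ≃ₐ[ℚ] K} {σ : L ≃ₐ[ℚ] L}
    (hτσ : ∀ a : K, φ (τ a) = σ (φ a)) (x : ↥E_K) :
    coeffHom φ E_K E_L h (coeffGalois hK τ • x) = coeffGalois hL σ • coeffHom φ E_K E_L h x := by
  apply Subtype.ext
  rw [coe_coeffHom, coe_coeffGalois_smul, coe_coeffGalois_smul, coe_coeffHom, coeffMap_coeffMap,
    coeffMap_coeffMap]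
  exact coeffMap_congr (RingHom.ext fun a => hτσ a) _

end Compat

section Base

/-- `Ω = AlgebraicClosure ℚ`. -/
local notation "Ω" => AlgebraicClosure ℚ

/-- the absolute Galois group. -/
local notation "GQ" => (AlgebraicClosure ℚ ≃ₐ[ℚ] AlgebraicClosure ℚ)

variable (N : ℕ) [NeZero N] (K₁ : IntermediateField ℚ Ω) [Normal ℚ ↥K₁]

theorem algebraMap_resGal (σ : GQ) (a : ↥K₁) :
    algebraMap ↥K₁ Ω (resGal K₁ σ a) = σ (algebraMap ↥K₁ Ω a) :=
  coe_resGal K₁ σ a

/-- `σ ∈ Gal(Ω/ℚ)` acts on `E(Ω)` as its restriction `σ̄` acts on `E(K₁)`: Legendre host. -/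
theorem legBC_legGalois_smul (σ : GQ) (x : ↥(legE ↥K₁ N)) :
    legBC N K₁ (legGalois ↥K₁ N (resGal K₁ σ) • x) = legGalois Ω N σ • legBC N K₁ x :=
  coeffHom_coeffGalois_smul (algebraMap ↥K₁ Ω) (coeffStable_legE ↥K₁ N) (coeffStable_legE Ω N) _
    (algebraMap_resGal K₁ σ) x

/-- the same for the Hesse host. -/
theorem hesBC_hesGalois_smul (σ : GQ) (x : ↥(hesE ↥K₁ N)) :
    hesBC N K₁ (hesGalois ↥K₁ N (resGal K₁ σ) • x) = hesGalois Ω N σ • hesBC N K₁ x :=
  coeffHom_coeffGalois_smul (algebraMap ↥K₁ Ω) (coeffStable_hesE ↥K₁ N) (coeffStable_hesE Ω N) _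
    (algebraMap_resGal K₁ σ) x

/-- the same for the level-`N` function field. -/
theorem keyFqBC_keyFqGalois_smul (σ : GQ) (x : ↥(keyFq ↥K₁ N)) :
    keyFqBC N K₁ (keyFqGalois ↥K₁ N (resGal K₁ σ) • x) = keyFqGalois Ω N σ • keyFqBC N K₁ x :=
  coeffHom_coeffGalois_smul (algebraMap ↥K₁ Ω) (coeffStable_keyFq ↥K₁ N) (coeffStable_keyFq Ω N) _
    (algebraMap_resGal K₁ σ) x

end Base

end Fermat.Agent.SS
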