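/-
(SS-q) HOST-W, helper2, part 3: the concrete lift.  For `q` prime, `q ∤ M` (Bezout datum `h`),
`ι : K →+* ℂ`, the Atkin-Lehner involution `w_q = atkinLehnerN ι h hq` of `F_{Mq}` is transported to
the host image `F_{Mq,w} ⊂ K⸨x⸩` (`hostAL`) and extended to a ring automorphism `hostW` of the tower
field `E_{Mq} = K(t) · F_{Mq,w}` with `t ↦ t(x^q)`; it is the dilation `x ↦ x^q` on `E_M`, fixes the
constants and commutes with the coefficientwise action of `Aut(K/ℚ)`.  Specialisations `legW`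
(Legendre host, `q` odd) and `hesW` (Hesse host, `q = 2`).  The only hypothesis besides HOST-B is
the degree condition `hdeg : deg_{F_M} t ≤ deg_{F_{Mq}} t`.
-/
import Mathlib
import Fermat.Agent.SS.HOSTW_helper2_Host
import Fermat.Agent.SS.HOSTB_helper8_Map
import Fermat.Agent.JA.ES1_helper2_W
import Fermat.Agent.JA.UP_helper7_Emb
import Fermat.Agent.SS.IBASE_helper1_Act

set_option autoImplicit false
set_option linter.unusedSectionVars false
set_option linter.style.haveILetI false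
set_option synthInstance.maxHeartbeats 200000

open HahnSeries ModularCurve Polynomial IntermediateField
open Fermat.Agent.JA Fermat.Agent.X0N Fermat.Agent.RatStr

namespace Fermat.Agent.SS

open scoped Fermat.Agent.JA.Host

noncomputable section

section HostAL

variable {K : Type*} [Field K] [Algebra ℚ K] (ι : K →+* ℂ) {M q : ℕ} [NeZero M] [NeZero q]
  {x y : ℤ} (h : (q : ℤ) * x + M * y = 1) (hq : q.Prime) (w : ℕ) [NeZero w]

/-- `F_M ≤ F_{Mq}` inside `K⸨q⸩`. -/
theorem hw2_keyFq_le : keyFq K M ≤ keyFq K (M * q) := by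
  intro g hg
  have := (heckeAlphaBar K M q ⟨g, hg⟩).2
  rwa [coe_heckeAlphaBar] at this

/-- `F_{M,w} ≤ F_{Mq,w}` inside the host. -/
theorem hw2_keyFw_le : keyFw K M w ≤ keyFw K (M * q) w := by
  rintro _ ⟨g, hg, rfl⟩
  exact ⟨g, hw2_keyFq_le (q := q) hg, rfl⟩

/-- the Atkin–Lehner involution `w_q` transported to the host image `F_{Mq,w}`. -/
def hostAL : ↥(keyFw K (M * q) w) →+* ↥(keyFw K (M * q) w) :=
  ((hostImageEquiv K w (keyFq K (M * q))).toRingEquiv.toRingHom).comp
    ((atkinLehnerN ι h hq).comp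
      (hostImageEquiv K w (keyFq K (M * q))).symm.toRingEquiv.toRingHom)

theorem hostAL_hostImageEquiv (z : ↥(keyFq K (M * q))) :
    hostAL ι h hq w (hostImageEquiv K w (keyFq K (M * q)) z) =
      hostImageEquiv K w (keyFq K (M * q)) (atkinLehnerN ι h hq z) := by
  show hostImageEquiv K w (keyFq K (M * q)) (atkinLehnerN ι h hq
    ((hostImageEquiv K w (keyFq K (M * q))).symm (hostImageEquiv K w (keyFq K (M * q)) z))) = _
  rw [AlgEquiv.symm_apply_apply]

theorem hostAL_hostAL (c : ↥(keyFw K (M * q) w)) : hostAL ι h hq w (hostAL ι h hq w c) = c := by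
  obtain ⟨z, rfl⟩ := (hostImageEquiv K w (keyFq K (M * q))).surjective c
  rw [hostAL_hostImageEquiv, hostAL_hostImageEquiv, atkinLehnerN_atkinLehnerN]

theorem hostAL_algebraMap (c : K) :
    hostAL ι h hq w (algebraMap K _ c) = algebraMap K _ c := by
  have e : algebraMap K ↥(keyFw K (M * q) w) c =
      hostImageEquiv K w (keyFq K (M * q)) (algebraMap K _ c) :=
    ((hostImageEquiv K w (keyFq K (M * q))).commutes c).symm
  rw [e, hostAL_hostImageEquiv, atkinLehnerN_algebraMap]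

/-- on `F_{M,w}` the transported `w_q` is the dilation `x ↦ x^q`. -/
theorem coe_hostAL_inclusion (xm : ↥(keyFw K M w)) :
    ((hostAL ι h hq w (IntermediateField.inclusion (hw2_keyFw_le w) xm) :
      ↥(keyFw K (M * q) w)) : LaurentSeries K) = qExpand K q (xm : LaurentSeries K) := by
  obtain ⟨g, hg, hgx⟩ := xm.2
  have hgx' : qExpand K w g = (xm : LaurentSeries K) := hgx
  have e : IntermediateField.inclusion (hw2_keyFw_le (K := K) (M := M) (q := q) w) xm =
      hostImageEquiv K w (keyFq K (M * q)) (heckeAlphaBar K M q ⟨g, hg⟩) := by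
    apply Subtype.ext
    rw [coe_hostImageEquiv, coe_heckeAlphaBar, IntermediateField.coe_inclusion]
    exact hgx'.symm
  rw [e, hostAL_hostImageEquiv, atkinLehnerN_alpha, coe_hostImageEquiv, coe_heckeBetaBar,
    ← hgx']
  rw [qExpand_qExpand' w q (w * q) rfl, qExpand_qExpand' q w (w * q) (mul_comm w q)]

/-- `w_q` commutes with the coefficientwise action of `Aut(K/ℚ)` on `F_{Mq}`. -/
theorem atkinLehnerN_coeffRingAut (τ : K ≃ₐ[ℚ] K) (z : ↥(keyFq K (M * q))) :
    atkinLehnerN ι h hq (coeffRingAut (coeffStable_keyFq K (M * q)) τ z) =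
      coeffRingAut (coeffStable_keyFq K (M * q)) τ (atkinLehnerN ι h hq z) := by
  induction z using induction_alpha_beta M q hq with
  | hconst c =>
    have e : coeffRingAut (coeffStable_keyFq K (M * q)) τ (algebraMap K _ c) =
        algebraMap K _ (τ c) := coeffRingAut_algebraMap _ τ c
    rw [e, atkinLehnerN_algebraMap, atkinLehnerN_algebraMap, e]
  | hα z =>
    have e1 : coeffRingAut (coeffStable_keyFq K (M * q)) τ (heckeAlphaBar K M q z) =
        heckeAlphaBar K M q (coeffRingAut (coeffStable_keyFq K M) τ z) := by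
      apply Subtype.ext
      rw [coe_coeffRingAut_apply, coe_heckeAlphaBar, coe_heckeAlphaBar, coe_coeffRingAut_apply]
    have e2 : coeffRingAut (coeffStable_keyFq K (M * q)) τ (heckeBetaBar K M q z) =
        heckeBetaBar K M q (coeffRingAut (coeffStable_keyFq K M) τ z) := by
      apply Subtype.ext
      rw [coe_coeffRingAut_apply, coe_heckeBetaBar, coe_heckeBetaBar, coe_coeffRingAut_apply,
        coeffMap_qExpand]
    rw [e1, atkinLehnerN_alpha, atkinLehnerN_alpha, e2]
  | hβ z =>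
    have e1 : coeffRingAut (coeffStable_keyFq K (M * q)) τ (heckeAlphaBar K M q z) =
        heckeAlphaBar K M q (coeffRingAut (coeffStable_keyFq K M) τ z) := by
      apply Subtype.ext
      rw [coe_coeffRingAut_apply, coe_heckeAlphaBar, coe_heckeAlphaBar, coe_coeffRingAut_apply]
    have e2 : coeffRingAut (coeffStable_keyFq K (M * q)) τ (heckeBetaBar K M q z) =
        heckeBetaBar K M q (coeffRingAut (coeffStable_keyFq K M) τ z) := by
      apply Subtype.ext
      rw [coe_coeffRingAut_apply, coe_heckeBetaBar, coe_heckeBetaBar, coe_coeffRingAut_apply,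
        coeffMap_qExpand]
    rw [e2, atkinLehnerN_beta, atkinLehnerN_beta, e1]
  | hadd a b h1 h2 => rw [map_add, map_add, h1, h2, map_add, map_add]
  | hmul a b h1 h2 => rw [map_mul, map_mul, h1, h2, map_mul, map_mul]
  | hinv a h1 => rw [map_inv₀, map_inv₀, h1, map_inv₀, map_inv₀]

/-- the transported `w_q` commutes with the coefficientwise action on the host image. -/
theorem hostAL_coeffRingAut (τ : K ≃ₐ[ℚ] K) (c : ↥(keyFw K (M * q) w)) :
    hostAL ι h hq w (coeffRingAut (coeffStable_keyFw K (M * q) w) τ c) =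
      coeffRingAut (coeffStable_keyFw K (M * q) w) τ (hostAL ι h hq w c) := by
  obtain ⟨z, rfl⟩ := (hostImageEquiv K w (keyFq K (M * q))).surjective c
  have e : ∀ z : ↥(keyFq K (M * q)),
      coeffRingAut (coeffStable_keyFw K (M * q) w) τ (hostImageEquiv K w (keyFq K (M * q)) z) =
        hostImageEquiv K w (keyFq K (M * q)) (coeffRingAut (coeffStable_keyFq K (M * q)) τ z) := by
    intro z
    apply Subtype.ext
    rw [coe_coeffRingAut_apply, coe_hostImageEquiv, coe_hostImageEquiv, coe_coeffRingAut_apply,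
      coeffMap_qExpand]
  rw [e, hostAL_hostImageEquiv, hostAL_hostImageEquiv, atkinLehnerN_coeffRingAut, e]

end HostAL

section HostW

variable {K : Type*} [Field K] [Algebra ℚ K] (ι : K →+* ℂ) {M q : ℕ} [NeZero M] [NeZero q]
  {x y : ℤ} (h : (q : ℤ) * x + M * y = 1) (hq : q.Prime) (w : ℕ) [NeZero w]
  (t : LaurentSeries K)

theorem hw2_t_mem_Etu (N : ℕ) : t ∈ Host.Etu (keyFw K N w) t 1 :=
  (le_sup_left : K⟮t⟯ ≤ K⟮t⟯ ⊔ Host.Fu (keyFw K N w) 1) (mem_adjoin_simple_self K t)

/-- `E_M ≤ E_{Mq}` for the tower fields. -/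
theorem hw2_Etu_le : Host.Etu (keyFw K M w) t 1 ≤ Host.Etu (keyFw K (M * q) w) t 1 := by
  rw [Etu_one_eq_sup, Etu_one_eq_sup]
  exact sup_le_sup_right (hw2_keyFw_le w) _

/-- **HOST-W, existence**: the Atkin–Lehner involution `w_q` of `F_{Mq}` extends to a ring
automorphism `W̃` of the tower field `E_{Mq} = K(t) · F_{Mq,w}` with `W̃ t = t(x^q)`; on `E_M` it is
the dilation `x ↦ x^q`. -/
theorem exists_hostW_Etu (ht : IsIntegral ↥(keyFw K M w) t)
    (hdeg : (minpoly ↥(keyFw K M w) t).natDegree ≤ (minpoly ↥(keyFw K (M * q) w) t).natDegree)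
    (hs : qExpand K q t ∈ Host.Etu (keyFw K (M * q) w) t 1) :
    ∃ W : ↥(Host.Etu (keyFw K (M * q) w) t 1) ≃+* ↥(Host.Etu (keyFw K (M * q) w) t 1),
      (∀ c : ↥(keyFw K (M * q) w),
        W (IntermediateField.inclusion (keyFw_le_Etu K (M * q) w t) c) =
          IntermediateField.inclusion (keyFw_le_Etu K (M * q) w t) (hostAL ι h hq w c)) ∧
      ((W ⟨t, hw2_t_mem_Etu w t (M * q)⟩ : ↥(Host.Etu (keyFw K (M * q) w) t 1)) :
        LaurentSeries K) = qExpand K q t ∧
      ∀ (e : LaurentSeries K) (_ : e ∈ Host.Etu (keyFw K M w) t 1)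
        (heN : e ∈ Host.Etu (keyFw K (M * q) w) t 1),
        ((W ⟨e, heN⟩ : ↥(Host.Etu (keyFw K (M * q) w) t 1)) : LaurentSeries K) =
          qExpand K q e := by
  obtain ⟨W, hW1, hW2⟩ := exists_hostW (keyFw K M w) (keyFw K (M * q) w)
    (Host.Etu (keyFw K (M * q) w) t 1) (hw2_keyFw_le w) (keyFw_le_Etu K (M * q) w t) t
    (Etu_one_eq_sup K (M * q) w t) ht hdeg (qExpand K q) (hostAL ι h hq w)
    (hostAL_hostAL ι h hq w) (coe_hostAL_inclusion ι h hq w) hs
  refine ⟨W, hW1, hW2, ?_⟩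
  intro e he heN
  refine hostW_eq_dilate (keyFw K M w) (keyFw K (M * q) w)
    (Host.Etu (keyFw K (M * q) w) t 1) (hw2_keyFw_le w) (keyFw_le_Etu K (M * q) w t) t
    (hw2_t_mem_Etu w t (M * q)) (qExpand K q) ?_ (hostAL ι h hq w)
    (coe_hostAL_inclusion ι h hq w) W hW1 hW2 e ?_ heN
  · intro c
    rw [algebraMap_laurentSeries_eq_single, qExpand_single, mul_zero]
  · rw [← Etu_one_eq_sup]
    exact he

variable (ht : IsIntegral ↥(keyFw K M w) t)
  (hdeg : (minpoly ↥(keyFw K M w) t).natDegree ≤ (minpoly ↥(keyFw K (M * q) w) t).natDegree)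
  (hs : qExpand K q t ∈ Host.Etu (keyFw K (M * q) w) t 1)

/-- **HOST-W**: the extension `W̃` of the Atkin–Lehner involution `w_q` to the tower field
`E_{Mq} = K(t) · F_{Mq,w}` with `W̃ t = t(x^q)`. -/
def hostW : ↥(Host.Etu (keyFw K (M * q) w) t 1) ≃+* ↥(Host.Etu (keyFw K (M * q) w) t 1) :=
  Classical.choose (exists_hostW_Etu ι h hq w t ht hdeg hs)

theorem hostW_inclusion (c : ↥(keyFw K (M * q) w)) :
    hostW ι h hq w t ht hdeg hs (IntermediateField.inclusion (keyFw_le_Etu K (M * q) w t) c) =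
      IntermediateField.inclusion (keyFw_le_Etu K (M * q) w t) (hostAL ι h hq w c) :=
  (Classical.choose_spec (exists_hostW_Etu ι h hq w t ht hdeg hs)).1 c

/-- `W̃` extends `w_q` along the embedding `F_{Mq} → E_{Mq}`. -/
theorem hostW_fullToEtu (z : ↥(keyFq K (M * q))) :
    hostW ι h hq w t ht hdeg hs (fullToEtu K (M * q) w t z) =
      fullToEtu K (M * q) w t (atkinLehnerN ι h hq z) := by
  show hostW ι h hq w t ht hdeg hs (IntermediateField.inclusion (keyFw_le_Etu K (M * q) w t)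
    (hostImageEquiv K w (keyFq K (M * q)) z)) = _
  rw [hostW_inclusion, hostAL_hostImageEquiv]
  rfl

/-- `W̃ t = t(x^q)`. -/
theorem coe_hostW_t :
    ((hostW ι h hq w t ht hdeg hs ⟨t, hw2_t_mem_Etu w t (M * q)⟩ :
      ↥(Host.Etu (keyFw K (M * q) w) t 1)) : LaurentSeries K) = qExpand K q t :=
  (Classical.choose_spec (exists_hostW_Etu ι h hq w t ht hdeg hs)).2.1

/-- on `E_M` the automorphism `W̃` is the dilation `x ↦ x^q`. -/
theorem coe_hostW_of_mem (e : LaurentSeries K) (he : e ∈ Host.Etu (keyFw K M w) t 1)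
    (heN : e ∈ Host.Etu (keyFw K (M * q) w) t 1) :
    ((hostW ι h hq w t ht hdeg hs ⟨e, heN⟩ :
      ↥(Host.Etu (keyFw K (M * q) w) t 1)) : LaurentSeries K) = qExpand K q e :=
  (Classical.choose_spec (exists_hostW_Etu ι h hq w t ht hdeg hs)).2.2 e he heN

/-- `W̃` fixes the constants. -/
theorem hostW_algebraMap (c : K) :
    hostW ι h hq w t ht hdeg hs (algebraMap K _ c) = algebraMap K _ c := by
  have e : algebraMap K ↥(Host.Etu (keyFw K (M * q) w) t 1) c =
      IntermediateField.inclusion (keyFw_le_Etu K (M * q) w t) (algebraMap K _ c) := rfl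
  rw [e, hostW_inclusion, hostAL_algebraMap]

/-- **(W2)**: `W̃` commutes with the coefficientwise action of `Aut(K/ℚ)` as soon as the
coordinate `t` has coefficients fixed by it. -/
theorem hostW_coeffRingAut (hE : CoeffStable (Host.Etu (keyFw K (M * q) w) t 1))
    (τ : K ≃ₐ[ℚ] K) (hτt : coeffMap (τ : K →+* K) t = t)
    (e : ↥(Host.Etu (keyFw K (M * q) w) t 1)) :
    hostW ι h hq w t ht hdeg hs (coeffRingAut hE τ e) =
      coeffRingAut hE τ (hostW ι h hq w t ht hdeg hs e) := by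
  have key := hostRingHom_ext (keyFw K (M * q) w) (Host.Etu (keyFw K (M * q) w) t 1)
    (keyFw_le_Etu K (M * q) w t) t (hw2_t_mem_Etu w t (M * q)) (Etu_one_eq_sup K (M * q) w t)
    ((hostW ι h hq w t ht hdeg hs).toRingHom.comp (coeffRingAut hE τ).toRingHom)
    ((coeffRingAut hE τ).toRingHom.comp (hostW ι h hq w t ht hdeg hs).toRingHom) ?_ ?_
  · exact RingHom.congr_fun key e
  · intro c
    have e1 : ∀ c : ↥(keyFw K (M * q) w),
        coeffRingAut hE τ (IntermediateField.inclusion (keyFw_le_Etu K (M * q) w t) c) =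
          IntermediateField.inclusion (keyFw_le_Etu K (M * q) w t)
            (coeffRingAut (coeffStable_keyFw K (M * q) w) τ c) := fun c => Subtype.ext rfl
    show hostW ι h hq w t ht hdeg hs (coeffRingAut hE τ _) =
      coeffRingAut hE τ (hostW ι h hq w t ht hdeg hs _)
    rw [e1, hostW_inclusion, hostW_inclusion, hostAL_coeffRingAut, e1]
  · show hostW ι h hq w t ht hdeg hs (coeffRingAut hE τ _) =
      coeffRingAut hE τ (hostW ι h hq w t ht hdeg hs _)
    have e2 : coeffRingAut hE τ ⟨t, hw2_t_mem_Etu w t (M * q)⟩ =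
        ⟨t, hw2_t_mem_Etu w t (M * q)⟩ := Subtype.ext hτt
    rw [e2]
    apply Subtype.ext
    rw [coe_coeffRingAut_apply, coe_hostW_t, coeffMap_qExpand, hτt]

/-- `W̃ ∘ W̃` is the identity on `F_{Mq,w}`. -/
theorem hostW_hostW_inclusion (c : ↥(keyFw K (M * q) w)) :
    hostW ι h hq w t ht hdeg hs (hostW ι h hq w t ht hdeg hs
      (IntermediateField.inclusion (keyFw_le_Etu K (M * q) w t) c)) =
      IntermediateField.inclusion (keyFw_le_Etu K (M * q) w t) c := by
  rw [hostW_inclusion, hostW_inclusion, hostAL_hostAL]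

/-- the inverse of `W̃` is again `w_q` on `F_{Mq,w}`. -/
theorem hostW_symm_inclusion (c : ↥(keyFw K (M * q) w)) :
    (hostW ι h hq w t ht hdeg hs).symm
      (IntermediateField.inclusion (keyFw_le_Etu K (M * q) w t) c) =
      IntermediateField.inclusion (keyFw_le_Etu K (M * q) w t) (hostAL ι h hq w c) := by
  rw [RingEquiv.symm_apply_eq, hostW_inclusion, hostAL_hostAL]

/-- `W̃ (f(x^q)) = f` for `f ∈ F_{M,w}`: `W̃` undoes the dilation on the level-`M` function
field. -/
theorem coe_hostW_qExpand_of_mem_keyFw (e : LaurentSeries K) (he : e ∈ keyFw K M w)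
    (heN : qExpand K q e ∈ Host.Etu (keyFw K (M * q) w) t 1) :
    ((hostW ι h hq w t ht hdeg hs ⟨qExpand K q e, heN⟩ :
      ↥(Host.Etu (keyFw K (M * q) w) t 1)) : LaurentSeries K) = e := by
  have h1 := coe_hostAL_inclusion ι h hq w ⟨e, he⟩
  have e1 : (⟨qExpand K q e, heN⟩ : ↥(Host.Etu (keyFw K (M * q) w) t 1)) =
      IntermediateField.inclusion (keyFw_le_Etu K (M * q) w t)
        (hostAL ι h hq w (IntermediateField.inclusion (hw2_keyFw_le w) ⟨e, he⟩)) :=
    Subtype.ext h1.symm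
  rw [e1, hostW_inclusion, hostAL_hostAL]
  rfl

end HostW

section LegHes

variable {K : Type*} [Field K] [Algebra ℚ K] (ι : K →+* ℂ) {M q : ℕ} [NeZero M] [NeZero q]
  {x y : ℤ} (h : (q : ℤ) * x + M * y = 1) (hq : q.Prime)

theorem isIntegral_legT_keyFw (N : ℕ) [NeZero N] : IsIntegral ↥(keyFw K N 2) (legT K) :=
  (isIntegral_legT K).tower_top

theorem isIntegral_hesT_keyFw (N : ℕ) [NeZero N] : IsIntegral ↥(keyFw K N 3) (hesT K) :=
  (isIntegral_hesT K).tower_top

variable (hq2 : q ≠ 2)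
  (hdeg : (minpoly ↥(keyFw K M 2) (legT K)).natDegree ≤
    (minpoly ↥(keyFw K (M * q) 2) (legT K)).natDegree)

/-- **HOST-W on the Legendre host** (`q` an odd prime, `q ∤ M`): the extension of `w_q` to
`legE K (M q)` with `t ↦ t(x^q)`. -/
def legW : ↥(legE K (M * q)) ≃+* ↥(legE K (M * q)) :=
  hostW ι h hq 2 (legT K) (isIntegral_legT_keyFw M) hdeg
    (qExpand_legT_mem_legE K hq hq2 (dvd_mul_left q M))

theorem legW_fullToLegE (z : ↥(keyFq K (M * q))) :
    legW ι h hq hq2 hdeg (fullToLegE K (M * q) z) =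
      fullToLegE K (M * q) (atkinLehnerN ι h hq z) :=
  hostW_fullToEtu ι h hq 2 (legT K) _ hdeg _ z

theorem legT_mem_legE (N : ℕ) [NeZero N] : legT K ∈ legE K N := hw2_t_mem_Etu 2 (legT K) N

theorem coe_legW_legT :
    ((legW ι h hq hq2 hdeg ⟨legT K, legT_mem_legE (M * q)⟩ : ↥(legE K (M * q))) :
      LaurentSeries K) = qExpand K q (legT K) :=
  coe_hostW_t ι h hq 2 (legT K) _ hdeg _

theorem legE_le_legE_mul : legE K M ≤ legE K (M * q) := hw2_Etu_le 2 (legT K)

theorem coe_legW_of_mem (e : LaurentSeries K) (he : e ∈ legE K M) :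
    ((legW ι h hq hq2 hdeg ⟨e, legE_le_legE_mul he⟩ : ↥(legE K (M * q))) :
      LaurentSeries K) = qExpand K q e :=
  coe_hostW_of_mem ι h hq 2 (legT K) _ hdeg _ e he _

theorem legW_algebraMap (c : K) :
    legW ι h hq hq2 hdeg (algebraMap K _ c) = algebraMap K _ c :=
  hostW_algebraMap ι h hq 2 (legT K) _ hdeg _ c

/-- **(W2), Legendre**: `W̃` commutes with the coefficientwise Galois action. -/
theorem legW_legGalois_smul (τ : K ≃ₐ[ℚ] K) (e : ↥(legE K (M * q))) :
    legW ι h hq hq2 hdeg (legGalois K (M * q) τ • e) =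
      legGalois K (M * q) τ • legW ι h hq hq2 hdeg e :=
  hostW_coeffRingAut ι h hq 2 (legT K) _ hdeg _ (coeffStable_legE K (M * q)) τ
    (coeffMap_legT (τ : K →+* K)) e

end LegHes

section Hes

variable {K : Type*} [Field K] [Algebra ℚ K] (ι : K →+* ℂ) {M : ℕ} [NeZero M]
  {x y : ℤ} (h : ((2 : ℕ) : ℤ) * x + M * y = 1)
  (hdeg : (minpoly ↥(keyFw K M 3) (hesT K)).natDegree ≤
    (minpoly ↥(keyFw K (M * 2) 3) (hesT K)).natDegree)

/-- **HOST-W on the Hesse host** (`q = 2 ∤ M`): the extension of `w_2` to `hesE K (2 M)` with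
`t ↦ t(x²)`. -/
def hesW : ↥(hesE K (M * 2)) ≃+* ↥(hesE K (M * 2)) :=
  hostW ι h Nat.prime_two 3 (hesT K) (isIntegral_hesT_keyFw M) hdeg
    (qExpand_hesT_mem_hesE K (dvd_mul_left 2 M))

theorem hesW_fullToHesE (z : ↥(keyFq K (M * 2))) :
    hesW ι h hdeg (fullToHesE K (M * 2) z) =
      fullToHesE K (M * 2) (atkinLehnerN ι h Nat.prime_two z) :=
  hostW_fullToEtu ι h Nat.prime_two 3 (hesT K) _ hdeg _ z

theorem hesT_mem_hesE (N : ℕ) [NeZero N] : hesT K ∈ hesE K N := hw2_t_mem_Etu 3 (hesT K) N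

theorem coe_hesW_hesT :
    ((hesW ι h hdeg ⟨hesT K, hesT_mem_hesE (M * 2)⟩ : ↥(hesE K (M * 2))) :
      LaurentSeries K) = qExpand K 2 (hesT K) :=
  coe_hostW_t ι h Nat.prime_two 3 (hesT K) _ hdeg _

theorem hesE_le_hesE_mul : hesE K M ≤ hesE K (M * 2) := hw2_Etu_le 3 (hesT K)

theorem coe_hesW_of_mem (e : LaurentSeries K) (he : e ∈ hesE K M) :
    ((hesW ι h hdeg ⟨e, hesE_le_hesE_mul he⟩ : ↥(hesE K (M * 2))) :
      LaurentSeries K) = qExpand K 2 e :=
  coe_hostW_of_mem ι h Nat.prime_two 3 (hesT K) _ hdeg _ e he _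

theorem hesW_algebraMap (c : K) :
    hesW ι h hdeg (algebraMap K _ c) = algebraMap K _ c :=
  hostW_algebraMap ι h Nat.prime_two 3 (hesT K) _ hdeg _ c

/-- **(W2), Hesse**: `W̃` commutes with the coefficientwise Galois action. -/
theorem hesW_hesGalois_smul (τ : K ≃ₐ[ℚ] K) (e : ↥(hesE K (M * 2))) :
    hesW ι h hdeg (hesGalois K (M * 2) τ • e) =
      hesGalois K (M * 2) τ • hesW ι h hdeg e :=
  hostW_coeffRingAut ι h Nat.prime_two 3 (hesT K) _ hdeg _ (coeffStable_hesE K (M * 2)) τ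
    (coeffMap_hesT (τ : K →+* K)) e

end Hes

end

end Fermat.Agent.SS
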