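/-
(SS-q) MODEL-GLOBAL — helper7 — **the sheet `W_0` on a host of level `M q`** (generic in the host:
`E_M ≥ keyFw K M w`, `E_N ≥ keyFw K (M q) w`, `E_M ≤ E_N`, `B E_M ⊆ E_N`).

`W_0 := hostW0 …` extends `w_0 = w_∞ ∘ W_q` from the host image of `F_{M q}`.  Since
`W_q ∘ α = β` and `W_q ∘ β = α` on `F_M`, both `W_0 ∘ A` and `W_0 ∘ B` restrict to the Gauss valuation
on the host image of `F_M`; in particular they are Gauss valuations in the coordinate `j`
(`isGaussAt_hostW0_A`, `isGaussAt_hostW0_B`), and the Kronecker congruence `j ≡ j_q ^ q` holds on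
`W_0` (`hostW0_kron`).  Under uniqueness of the `j`-Gauss valuation subring of `E_M`
(`huniq`, from good reduction at level `M`), `host_two_sheet` applies: `host_two_sheet_W0`.
-/
import Mathlib
import Fermat.Agent.SS.MODEL_helper7_Defs
import Fermat.Agent.SS.VAL2_helper7_HostTwo
import Fermat.Agent.SS.HOSTW_helper2_Main

set_option autoImplicit false
set_option linter.unusedSectionVars false
set_option linter.unusedVariables false
set_option linter.style.haveILetI false
set_option synthInstance.maxHeartbeats 200000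

open Polynomial ModularCurve IntermediateField

namespace Fermat.Agent.SS

open Fermat.Agent.JA Fermat.Agent.Igusa

open scoped Fermat.Agent.JA.Host

noncomputable section

section Transport

/-- `IsGaussAt` along a ring homomorphism over `R`. -/
theorem isGaussAt_comap_ringHom_iff {R E F : Type*} [CommRing R] [Field E] [Field F]
    [Algebra R E] [Algebra R F] (θ : E →+* F)
    (hθ : ∀ r : R, θ (algebraMap R E r) = algebraMap R F r) (π : R) (s : E)
    (V : ValuationSubring F) :
    IsGaussAt R π s (V.comap θ) ↔ IsGaussAt R π (θ s) V := by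
  have hae : ∀ f : R[X], θ (aeval s f) = aeval (θ s) f := fun f => by
    have := Polynomial.aeval_algHom_apply ({ θ with commutes' := hθ } : E →ₐ[R] F) s f
    exact this.symm
  unfold IsGaussAt
  simp only [ValuationSubring.mem_comap, map_inv₀, hae, hθ]

end Transport

section AL

variable (K : Type*) [Field K] [Algebra ℚ K] (ι : K →+* ℂ) {M q : ℕ} [NeZero M] [NeZero q]
  [NeZero (M * q)] (w : ℕ) [NeZero w] {x y : ℤ} (h : (q : ℤ) * x + M * y = 1) (hq : q.Prime)

theorem alHost_hostImageEquiv_eq_hostAL (z : ↥(keyFq K (M * q))) :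
    alHost K ι w h hq (hostImageEquiv K w (keyFq K (M * q)) z) =
      hostAL ι h hq w (hostImageEquiv K w (keyFq K (M * q)) z) := by
  rw [alHost_hostImageEquiv]
  rw [hostAL_hostImageEquiv]

theorem alHost_apply_eq_hostAL (c : ↥(keyFw K (M * q) w)) :
    alHost K ι w h hq c = hostAL ι h hq w c := by
  obtain ⟨z, hz⟩ := (hostImageEquiv K w (keyFq K (M * q))).surjective c
  rw [← hz]
  exact alHost_hostImageEquiv_eq_hostAL K ι w h hq z

/-- on the host image of `F_M` the involution `W_q` is the dilation `x ↦ x ^ q`. -/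
theorem coe_alHost_inclusion (f : ↥(keyFw K M w)) :
    ((alHost K ι w h hq (IntermediateField.inclusion (hw2_keyFw_le w) f) :
      ↥(keyFw K (M * q) w)) : LaurentSeries K) = qExpand K q (f : LaurentSeries K) := by
  rw [alHost_apply_eq_hostAL]
  exact coe_hostAL_inclusion ι h hq w f

/-- `W_q` undoes the dilation. -/
theorem coe_alHost_of_coe_eq_qExpand (g : ↥(keyFw K (M * q) w)) (f : ↥(keyFw K M w))
    (hg : (g : LaurentSeries K) = qExpand K q (f : LaurentSeries K)) :
    ((alHost K ι w h hq g : ↥(keyFw K (M * q) w)) : LaurentSeries K) = f := by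
  have e : g = alHost K ι w h hq (IntermediateField.inclusion (hw2_keyFw_le w) f) :=
    Subtype.ext (by rw [hg, coe_alHost_inclusion])
  have e2 : alHost K ι w h hq g = IntermediateField.inclusion (hw2_keyFw_le w) f := by
    rw [e]
    exact alHost_alHost K ι w h hq _
  rw [e2, IntermediateField.coe_inclusion]

end AL

section W0

variable (K : Type*) [Field K] [Algebra ℚ K] (ι : K →+* ℂ) {M q : ℕ} [NeZero M] [NeZero q]
  [NeZero (M * q)] (w : ℕ) [NeZero w] {x y : ℤ} (h : (q : ℤ) * x + M * y = 1) (hq : q.Prime)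
  (R : Type*) [CommRing R] [IsDomain R] [IsDiscreteValuationRing R]
  [Algebra R K] [IsFractionRing R K]
  (EM EN : IntermediateField K (LaurentSeries K))
  (hFM : keyFw K M w ≤ EM) (hFN : keyFw K (M * q) w ≤ EN) (hle : EM ≤ EN)
  (hB : ∀ f ∈ EM, qExpand K q f ∈ EN)

/-- membership in `W_0` of an element of the host image of `F_{M q}`. -/
theorem mem_hostW0_iff_of_coe_eq (g : ↥(keyFw K (M * q) w)) (z : ↥EN)
    (hz : (z : LaurentSeries K) = g) :
    z ∈ hostW0 K ι w h hq R EN hFN ↔
      ((alHost K ι w h hq g : ↥(keyFw K (M * q) w)) : LaurentSeries K) ∈ gaussInt R K := by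
  have e : z = IntermediateField.inclusion hFN g := Subtype.ext hz
  rw [e, ← mem_hostW0F_iff, ← hostW0_comap K ι w h hq R EN hFN]
  rfl

/-- `W_0 ∘ A` is the Gauss valuation on the host image of `F_M`. -/
theorem hostA_mem_hostW0_iff (f : ↥(keyFw K M w)) (z : ↥EM)
    (hz : (z : LaurentSeries K) = f) :
    hostA EM EN hle z ∈ hostW0 K ι w h hq R EN hFN ↔ (f : LaurentSeries K) ∈ gaussInt R K := by
  rw [mem_hostW0_iff_of_coe_eq K ι w h hq R EN hFN
    (IntermediateField.inclusion (hw2_keyFw_le w) f) (hostA EM EN hle z)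
    (by rw [coe_hostA, hz, IntermediateField.coe_inclusion]), coe_alHost_inclusion]
  constructor
  · exact (gaussHomQExpand R K q).mem_gaussInt_of_map_mem
      (keyFw_le_gaussField R K M w f.2)
  · exact fun hf => (gaussHomQExpand R K q).map_mem_gaussInt hf

/-- `W_0 ∘ B` is the Gauss valuation on the host image of `F_M`. -/
theorem hostB_mem_hostW0_iff (f : ↥(keyFw K M w)) (z : ↥EM)
    (hz : (z : LaurentSeries K) = f) :
    hostB EM EN q hB z ∈ hostW0 K ι w h hq R EN hFN ↔ (f : LaurentSeries K) ∈ gaussInt R K := by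
  have hmem : qExpand K q (f : LaurentSeries K) ∈ keyFw K (M * q) w := by
    rw [← coe_alHost_inclusion K ι w h hq f]
    exact Subtype.property _
  rw [mem_hostW0_iff_of_coe_eq K ι w h hq R EN hFN ⟨_, hmem⟩ (hostB EM EN q hB z)
    (by rw [coe_hostB, hz]),
    coe_alHost_of_coe_eq_qExpand K ι w h hq ⟨_, hmem⟩ f rfl]

/-- the Gauss valuation subring of the host image of `F_M` is Gauss in the coordinate `j`. -/
theorem isGaussAt_gaussValSub_keyFw {π : R} (hπ : Irreducible π) :
    IsGaussAt R π (⟨jqNModC K w, jqNModC_mem_keyFw M w⟩ : ↥(keyFw K M w))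
      (gaussValSub R K (keyFw K M w) (keyFw_le_gaussField R K M w)) := by
  have hT := isPrimeSeries_jqNModC R K w
  have h1 := isGaussAt_comap_gaussValSub' (R := R) (L := K) (keyFw K M w)
    (keyFw_le_gaussField R K M w) (RingHom.id ↥(keyFw K M w))
    (fun r => by
      rw [RingHom.id_apply, IsScalarTower.algebraMap_apply R K ↥(keyFw K M w),
        IntermediateField.coe_algebraMap_apply, algebraMap_laurentSeries_eq_single]
      rfl) hπ
    (⟨jqNModC K w, jqNModC_mem_keyFw M w⟩ : ↥(keyFw K M w)) hT.mem_gaussInt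
    (hT.transcendental_gaussRed _)
  have e : (gaussValSub R K (keyFw K M w) (keyFw_le_gaussField R K M w)).comap
      (RingHom.id ↥(keyFw K M w)) = gaussValSub R K (keyFw K M w) (keyFw_le_gaussField R K M w) := by
    ext z
    rfl
  rwa [e] at h1

variable (hEM : EM ≤ gaussField R K)

include hFM in
/-- **`W_0` is Gauss in the coordinate `A j`.** -/
theorem isGaussAt_hostW0_A {π : R} (hπ : Irreducible π) (J : ↥EM)
    (hJ : (J : LaurentSeries K) = jqNModC K w) :
    IsGaussAt R π (hostA EM EN hle J) (hostW0 K ι w h hq R EN hFN) := by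
  set θ : ↥(keyFw K M w) →+* ↥EN :=
    (hostA EM EN hle : ↥EM →+* ↥EN).comp
      ((IntermediateField.inclusion hFM : ↥(keyFw K M w) →ₐ[K] ↥EM) : _ →+* ↥EM) with hθ
  have hc : (hostW0 K ι w h hq R EN hFN).comap θ =
      gaussValSub R K (keyFw K M w) (keyFw_le_gaussField R K M w) := by
    ext f
    exact hostA_mem_hostW0_iff K ι w h hq R EM EN hFN hle f
      (IntermediateField.inclusion hFM f) rfl
  have h1 := isGaussAt_gaussValSub_keyFw K w R (M := M) hπ
  rw [← hc, isGaussAt_comap_ringHom_iff θ (fun r => Subtype.ext rfl)] at h1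
  have e : θ (⟨jqNModC K w, jqNModC_mem_keyFw M w⟩ : ↥(keyFw K M w)) = hostA EM EN hle J :=
    Subtype.ext hJ.symm
  rwa [e] at h1

include hFM in
/-- **`W_0` is Gauss in the coordinate `B j`.** -/
theorem isGaussAt_hostW0_B {π : R} (hπ : Irreducible π) (J : ↥EM)
    (hJ : (J : LaurentSeries K) = jqNModC K w) :
    IsGaussAt R π (hostB EM EN q hB J) (hostW0 K ι w h hq R EN hFN) := by
  set θ : ↥(keyFw K M w) →+* ↥EN :=
    (hostB EM EN q hB : ↥EM →+* ↥EN).comp
      ((IntermediateField.inclusion hFM : ↥(keyFw K M w) →ₐ[K] ↥EM) : _ →+* ↥EM) with hθ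
  have hc : (hostW0 K ι w h hq R EN hFN).comap θ =
      gaussValSub R K (keyFw K M w) (keyFw_le_gaussField R K M w) := by
    ext f
    exact hostB_mem_hostW0_iff K ι w h hq R EM EN hFN hB f
      (IntermediateField.inclusion hFM f) rfl
  have h1 := isGaussAt_gaussValSub_keyFw K w R (M := M) hπ
  rw [← hc, isGaussAt_comap_ringHom_iff θ (fun r => ?_)] at h1
  · have e : θ (⟨jqNModC K w, jqNModC_mem_keyFw M w⟩ : ↥(keyFw K M w)) = hostB EM EN q hB J :=
      Subtype.ext (by
        show qExpand K q (jqNModC K w) = qExpand K q (J : LaurentSeries K)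
        rw [hJ])
    rwa [e] at h1
  · apply Subtype.ext
    show qExpand K q ((algebraMap R ↥(keyFw K M w) r : ↥(keyFw K M w)) : LaurentSeries K) =
      ((algebraMap R ↥EN r : ↥EN) : LaurentSeries K)
    rw [IsScalarTower.algebraMap_apply R K ↥(keyFw K M w),
      IntermediateField.coe_algebraMap_apply, IsScalarTower.algebraMap_apply R K ↥EN,
      IntermediateField.coe_algebraMap_apply, algebraMap_laurentSeries_eq_single]
    exact qExpand_C q _

include hFM in
/-- **the Kronecker congruence on `W_0`**: `A j ≡ (B j) ^ q`. -/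
theorem hostW0_kron [ExpChar (IsLocalRing.ResidueField R) q] (J : ↥EM)
    (hJ : (J : LaurentSeries K) = jqNModC K w) :
    (hostW0 K ι w h hq R EN hFN).valuation
      (hostA EM EN hle J - hostB EM EN q hB J ^ q) < 1 := by
  set jF : ↥(keyFw K M w) := ⟨jqNModC K w, jqNModC_mem_keyFw M w⟩ with hjF
  have hmem : qExpand K q (jqNModC K w) ∈ keyFw K (M * q) w := by
    have := coe_alHost_inclusion K ι w h hq jF
    rw [← this]
    exact Subtype.property _
  set jA : ↥(keyFw K (M * q) w) := IntermediateField.inclusion (hw2_keyFw_le w) jF with hjA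
  set jB : ↥(keyFw K (M * q) w) := ⟨_, hmem⟩ with hjB
  have e1 : hostA EM EN hle J - hostB EM EN q hB J ^ q =
      IntermediateField.inclusion hFN (jA - jB ^ q) := by
    apply Subtype.ext
    show (J : LaurentSeries K) - (qExpand K q (J : LaurentSeries K)) ^ q =
      jqNModC K w - (qExpand K q (jqNModC K w)) ^ q
    rw [hJ]
  have hA : alHost K ι w h hq jA = jB :=
    Subtype.ext (coe_alHost_inclusion K ι w h hq jF)
  have hB' : alHost K ι w h hq jB = jA := by
    rw [← hA]
    exact alHost_alHost K ι w h hq jA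
  rw [e1]
  refine (comap_val_lt_one_iff
    ((IntermediateField.inclusion hFN : ↥(keyFw K (M * q) w) →ₐ[K] ↥EN) : _ →+* ↥EN)
    (hostW0_comap K ι w h hq R EN hFN) (jA - jB ^ q)).mpr ?_
  have h2 := comap_val_lt_one_iff (alHost K ι w h hq)
    (V := gaussValSub R K (keyFw K (M * q) w) (keyFw_le_gaussField R K (M * q) w))
    (O := hostW0F K ι w h hq R) rfl (jA - jB ^ q)
  rw [← h2, gaussValSub_valuation_lt_one_iff, map_sub, map_pow, hA, hB']
  obtain ⟨hk, hk0⟩ := (isPrimeSeries_jqNModC R K w).kronecker_gaussRed q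
  exact ⟨hk, hk0⟩

end W0

section Order

/-- the order of `j(x ^ w)` over any field. -/
theorem order_jqNModC_field (k : Type*) [Field k] (w : ℕ) [NeZero w] :
    (jqNModC k w).order = -(w : ℤ) := by
  have h1 : (jqModC k).order = -1 := by
    have hne := jqModC_ne_zero_of_nontrivial k
    apply le_antisymm
    · exact HahnSeries.order_le_of_coeff_ne_zero
        (by rw [coeff_jqModC_neg_one]; exact one_ne_zero)
    · by_contra hlt
      rw [not_le] at hlt
      exact hne (HahnSeries.coeff_order_eq_zero.mp (coeff_jqModC_of_lt k hlt))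
  rw [jqNModC, order_qExpand, h1]
  ring

variable {R : Type*} [CommRing R] [IsDomain R] [IsDiscreteValuationRing R]
  {K : Type*} [Field K] [Algebra R K] [IsFractionRing R K]

/-- the reduction of `j(x ^ w)`. -/
theorem gaussRed_jqNModC (w : ℕ) [NeZero w] (hj : jqNModC K w ∈ gaussInt R K) :
    gaussRed R K ⟨jqNModC K w, hj⟩ = jqNModC (IsLocalRing.ResidueField R) w := by
  have e : (⟨jqNModC K w, hj⟩ : gaussInt R K) =
      ⟨emb R K (jqNModC R w), emb_mem_gaussInt R K _⟩ :=
    Subtype.ext (coeffMap_jqNModC (algebraMap R K) w).symm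
  rw [e, gaussRed_emb]
  exact coeffMap_jqNModC (IsLocalRing.residue R) w

end Order

section Main

variable (K : Type*) [Field K] [Algebra ℚ K] (ι : K →+* ℂ) {M q : ℕ} [NeZero M] [NeZero q]
  [NeZero (M * q)] (w : ℕ) [NeZero w] {x y : ℤ} (h : (q : ℤ) * x + M * y = 1) (hq : q.Prime)
  (R : Type*) [CommRing R] [IsDomain R] [IsDiscreteValuationRing R]
  [Algebra R K] [IsFractionRing R K]
  (EM EN : IntermediateField K (LaurentSeries K))
  (hFM : keyFw K M w ≤ EM) (hFN : keyFw K (M * q) w ≤ EN) (hle : EM ≤ EN)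
  (hB : ∀ f ∈ EM, qExpand K q f ∈ EN)
  (hEM : EM ≤ gaussField R K) (hEN : EN ≤ gaussField R K)

include hFM in
/-- **the two sheets of a host of level `M q`, with `W_0 = hostW0`**: from the degree bounds along
`A` and `B` and the uniqueness of the `j`-Gauss valuation subring at level `M`. -/
theorem host_two_sheet_W0 [CharZero K] (hchar : (q : IsLocalRing.ResidueField R) = 0) {π : R}
    (hπ : Irreducible π) (hcop : Nat.Coprime w q) (J : ↥EM)
    (hJ : (J : LaurentSeries K) = jqNModC K w)
    (hfinA : letI := (hostA EM EN hle : ↥EM →+* ↥EN).toAlgebra; FiniteDimensional ↥EM ↥EN)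
    (hdegA : letI := (hostA EM EN hle : ↥EM →+* ↥EN).toAlgebra;
      Module.finrank ↥EM ↥EN ≤ q + 1)
    (hfinB : letI := (hostB EM EN q hB : ↥EM →+* ↥EN).toAlgebra; FiniteDimensional ↥EM ↥EN)
    (hdegB : letI := (hostB EM EN q hB : ↥EM →+* ↥EN).toAlgebra;
      Module.finrank ↥EM ↥EN ≤ q + 1)
    (huniq : ∀ V : ValuationSubring ↥EM, IsGaussAt R π J V → V = gaussValSub R K EM hEM) :
    (hostW0 K ι w h hq R EN hFN).comap (hostA EM EN hle : ↥EM →+* ↥EN) =
      gaussValSub R K EM hEM ∧
    (hostW0 K ι w h hq R EN hFN).comap (hostB EM EN q hB : ↥EM →+* ↥EN) =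
      gaussValSub R K EM hEM ∧
    (hostW0 K ι w h hq R EN hFN).valuation
      (hostA EM EN hle J - hostB EM EN q hB J ^ q) < 1 ∧
    gaussValSub R K EN hEN ≠ hostW0 K ι w h hq R EN hFN ∧
    (∀ V : ValuationSubring ↥EN, IsGaussAt R π (hostA EM EN hle J) V →
      V = gaussValSub R K EN hEN ∨ V = hostW0 K ι w h hq R EN hFN) ∧
    (∀ x : ↥EN, (gaussValSub R K EN hEN).valuation x < 1 →
      x * (algebraMap R ↥EN π)⁻¹ ∈ gaussValSub R K EN hEN) ∧
    (∀ x : ↥EN, (hostW0 K ι w h hq R EN hFN).valuation x < 1 →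
      x * (algebraMap R ↥EN π)⁻¹ ∈ hostW0 K ι w h hq R EN hFN) ∧
    (∀ x ∈ gaussValSub R K EN hEN, ∃ a ∈ gaussValSub R K EM hEM,
      (gaussValSub R K EN hEN).valuation (x - hostA EM EN hle a) < 1) ∧
    (∀ x ∈ hostW0 K ι w h hq R EN hFN, ∃ a ∈ gaussValSub R K EM hEM,
      (hostW0 K ι w h hq R EN hFN).valuation (x - hostB EM EN q hB a) < 1) := by
  haveI : CharP (IsLocalRing.ResidueField R) q := charP_of_prime_of_natCast_eq_zero hq hchar
  haveI : Fact q.Prime := ⟨hq⟩
  haveI : ExpChar (IsLocalRing.ResidueField R) q := ExpChar.prime hq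
  have hTj := isPrimeSeries_jqNModC R K w
  have hJg : (J : LaurentSeries K) ∈ gaussInt R K := by rw [hJ]; exact hTj.mem_gaussInt
  have hred : gaussRed R K ⟨(J : LaurentSeries K), hJg⟩ =
      jqNModC (IsLocalRing.ResidueField R) w := by
    have e : (⟨(J : LaurentSeries K), hJg⟩ : gaussInt R K) = ⟨jqNModC K w, hTj.mem_gaussInt⟩ :=
      Subtype.ext hJ
    rw [e, gaussRed_jqNModC]
  have hord : (gaussRed R K ⟨(J : LaurentSeries K), hJg⟩).order = -(w : ℤ) := by
    rw [hred, order_jqNModC_field]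
  have hne0 : gaussRed R K ⟨(J : LaurentSeries K), hJg⟩ ≠ 0 := by
    intro h0
    rw [h0, HahnSeries.order_zero] at hord
    have hw : (w : ℤ) ≠ 0 := by exact_mod_cast NeZero.ne w
    omega
  have hAR : ∀ r : R, (hostA EM EN hle : ↥EM →+* ↥EN) (algebraMap R ↥EM r) =
      algebraMap R ↥EN r := fun r => Subtype.ext rfl
  have hBR : ∀ r : R, (hostB EM EN q hB : ↥EM →+* ↥EN) (algebraMap R ↥EM r) =
      algebraMap R ↥EN r := by
    intro r
    apply Subtype.ext
    show qExpand K q ((algebraMap R ↥EM r : ↥EM) : LaurentSeries K) =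
      ((algebraMap R ↥EN r : ↥EN) : LaurentSeries K)
    rw [IsScalarTower.algebraMap_apply R K ↥EM,
      IntermediateField.coe_algebraMap_apply, IsScalarTower.algebraMap_apply R K ↥EN,
      IntermediateField.coe_algebraMap_apply, algebraMap_laurentSeries_eq_single]
    exact qExpand_C q _
  have hGA := isGaussAt_hostW0_A K ι w h hq R EM EN hFM hFN hle hπ J hJ
  have hGB := isGaussAt_hostW0_B K ι w h hq R EM EN hFM hFN hB hπ J hJ
  have hW0A : (hostW0 K ι w h hq R EN hFN).comap (hostA EM EN hle : ↥EM →+* ↥EN) =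
      gaussValSub R K EM hEM :=
    huniq _ ((isGaussAt_comap_ringHom_iff _ hAR π J _).mpr hGA)
  have hW0B : (hostW0 K ι w h hq R EN hFN).comap (hostB EM EN q hB : ↥EM →+* ↥EN) =
      gaussValSub R K EM hEM :=
    huniq _ ((isGaussAt_comap_ringHom_iff _ hBR π J _).mpr hGB)
  have hkron := hostW0_kron K ι w h hq R EM EN hFM hFN hle hB J hJ
  obtain ⟨hne, honlyA, -, heinf, hezero, hresinf, hreszero⟩ :=
    host_two_sheet (R := R) EM EN hle q hB hEM hEN hq hchar hπ w hcop J hJg hord hne0
      hfinA hdegA hfinB hdegB (hostW0 K ι w h hq R EN hFN) hW0A hW0B hkron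
  refine ⟨hW0A, hW0B, hkron, hne, fun V hV => ?_, heinf, hezero, hresinf, hreszero⟩
  exact honlyA V (huniq _ ((isGaussAt_comap_ringHom_iff _ hAR π J _).mpr hV))

end Main

end

end Fermat.Agent.SS
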