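/-
(SS-q) MODEL-GLOBAL — helper7 — **the `W_0`-block of the concrete model on the Legendre hosts**:
`comap_A_zero`, `comap_B_zero`, `two`, `res_inf`, `res_zero` of `SSModelLeg`, from the generic
`host_two_sheet_W0` (degree along `A`: helper2's DEG; along `B`: helper2's `ssModelLeg_degB`;
uniqueness of the `j`-Gauss valuation at level `M`: helper3's GAUSSUP + helper4's
`GeoHyps.valuationSubring_unique`).
-/
import Mathlib
import Fermat.Agent.SS.MODEL_helper7_W0
import Fermat.Agent.SS.FIELD_helper2_DegB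
import Fermat.Agent.SS.FIELD_helper9_A
import Fermat.Agent.SS.DEG_helper2
import Fermat.Agent.SS.GAUSSUP_helper3
import Fermat.Agent.SS.HART_helper4
import Fermat.Agent.SS.FIELD_helper6_Cusp
import Fermat.Agent.SS.FIELD_helper6_Kron
import Fermat.Agent.SS.FIELD_helper6_Unit
import Fermat.Agent.SS.KRONT_helper3_Main

set_option autoImplicit false
set_option linter.unusedSectionVars false
set_option linter.unusedVariables false
set_option linter.style.haveILetI false
set_option synthInstance.maxHeartbeats 200000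

open Polynomial ModularCurve IntermediateField

namespace Fermat.Agent.SS

open Fermat.Agent.JA Fermat.Agent.Igusa

open scoped Fermat.Agent.JA.Host

noncomputable section

section Bezout

/-- `q x + M y = 1` and `q` prime: `q ∤ M`. -/
theorem not_dvd_of_bezout {M q : ℕ} {x y : ℤ} (h : (q : ℤ) * x + M * y = 1) (hq : q.Prime) :
    ¬ q ∣ M := by
  intro hd
  have h1 : (q : ℤ) ∣ 1 := by
    rw [← h]
    exact dvd_add (dvd_mul_right _ _)
      (dvd_mul_of_dvd_left (Int.natCast_dvd_natCast.mpr hd) _)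
  have h2 : q ∣ 1 := by exact_mod_cast h1
  exact hq.one_lt.ne' (Nat.dvd_one.mp h2)

end Bezout

section Leg

variable (R : Type*) [CommRing R] [IsDomain R] [IsDiscreteValuationRing R] [CharZero R]
  [DecidableEq R]
  (K : Type*) [Field K] [Algebra R K] [IsFractionRing R K] [Algebra ℚ K] [Algebra K ℂ]
  {M q : ℕ} [NeZero M] [NeZero q] [NeZero (M * q)] {x y : ℤ}
  {π : R}

/-- **uniqueness of the `j`-Gauss valuation subring of the Legendre host of level `M`**. -/
theorem legE_eq_legWinf_of_isGaussAt (hπ : Irreducible π) (h2 : IsUnit (2 : R))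
    (hgeo : GeoHyps K π (AdjoinSimple.gen K (legT K)) ↥(legE K M) M ({0, 1} : Finset R))
    (V : ValuationSubring ↥(legE K M)) (hV : IsGaussAt R π (legJE K M) V) :
    V = legWinf R K h2 M := by
  have h1 := legendre_isGaussAt hπ h2 (legendre_rel_legE K M) hV
  have h2' : IsGaussAt R π (AdjoinSimple.gen K (legT K))
      (V.comap (algebraMap ↥K⟮legT K⟯ ↥(legE K M))) :=
    (isGaussAt_comap_ringHom_iff (algebraMap ↥K⟮legT K⟯ ↥(legE K M))
      (fun r => (IsScalarTower.algebraMap_apply R ↥K⟮legT K⟯ ↥(legE K M) r).symm) π _ V).mpr h1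
  exact GeoHyps.valuationSubring_unique hgeo h2' (ssModelLeg_gauss_M R K hπ h2)

/-- **the `W_0`-block on the Legendre hosts.** -/
theorem ssModelLeg_block (hπ : Irreducible π) (h2 : IsUnit (2 : R))
    (h : (q : ℤ) * x + M * y = 1) (hq : q.Prime) (hq2 : q ≠ 2)
    (hqπ : (q : R) ∈ Ideal.span {π})
    (hgeo : GeoHyps K π (AdjoinSimple.gen K (legT K)) ↥(legE K M) M ({0, 1} : Finset R)) :
    haveI : FiniteDimensional ↥K⟮jqNModC K 2⟯ ↥(legE K (M * q)) := finite_legE_adjoin_j K (M * q)
    (legW0 R K h hq).comap (legHostA K M q : ↥(legE K M) →+* ↥(legE K (M * q))) =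
      legWinf R K h2 M ∧
    (legW0 R K h hq).comap (legHostB K M q hq hq2 : ↥(legE K M) →+* ↥(legE K (M * q))) =
      legWinf R K h2 M ∧
    IsTwoSheet π (AdjoinSimple.gen K (jqNModC K 2)) (legWinf R K h2 (M * q)) (legW0 R K h hq) ∧
    (∀ x ∈ legWinf R K h2 (M * q), ∃ a ∈ legWinf R K h2 M,
      (legWinf R K h2 (M * q)).valuation
        (x - (legHostA K M q : ↥(legE K M) →+* ↥(legE K (M * q))) a) < 1) ∧
    (∀ x ∈ legW0 R K h hq, ∃ a ∈ legWinf R K h2 M,
      (legW0 R K h hq).valuation
        (x - (legHostB K M q hq hq2 : ↥(legE K M) →+* ↥(legE K (M * q))) a) < 1) := by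
  haveI : FiniteDimensional ↥K⟮jqNModC K 2⟯ ↥(legE K (M * q)) := finite_legE_adjoin_j K (M * q)
  have hqM : ¬ q ∣ M := not_dvd_of_bezout h hq
  haveI : CharP (IsLocalRing.ResidueField R) q := charP_residueField_of_mem_span hπ hq hqπ
  have hchar : (q : IsLocalRing.ResidueField R) = 0 := CharP.cast_eq_zero _ q
  have hcop : Nat.Coprime 2 q := (Nat.coprime_primes Nat.prime_two hq).mpr (Ne.symm hq2)
  have hinj : Function.Injective (algebraMap R K) := IsFractionRing.injective R K
  haveI : CharZero K := charZero_of_injective_algebraMap hinj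
  have hle : legE K M ≤ legE K (M * q) := legE_le_of_dvd K (dvd_mul_right M q)
  have hdA := deg2_finrank_legE_le (K := K) (algebraMap K ℂ) hq hqM hle
  have hdB := ssModelLeg_degB K hq hq2 hqM
  obtain ⟨hA0, hB0, -, hne, honly, heinf, hezero, hresinf, hreszero⟩ :=
    host_two_sheet_W0 K (algebraMap K ℂ) 2 h hq R (legE K M) (legE K (M * q))
      (keyFw_le_legE K M) (keyFw_le_legE K (M * q)) hle
      (fun _ hf => qExpand_mem_legE_of_mem K hq hq2 (by rw [mul_comm]) hf)
      (legE_le_gaussField R K h2 M) (legE_le_gaussField R K h2 (M * q)) hchar hπ hcop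
      (legJE K M) rfl hdA.1 hdA.2 hdB.1 hdB.2
      (legE_eq_legWinf_of_isGaussAt R K hπ h2 hgeo)
  have hAj := ssModelLeg_A_j K (M := M) (q := q)
  have hKN : ∀ r : R, algebraMap ↥K⟮jqNModC K 2⟯ ↥(legE K (M * q))
      (algebraMap R ↥K⟮jqNModC K 2⟯ r) = algebraMap R ↥(legE K (M * q)) r :=
    fun r => (IsScalarTower.algebraMap_apply R ↥K⟮jqNModC K 2⟯ ↥(legE K (M * q)) r).symm
  refine ⟨hA0, hB0, ⟨hne, ?_, ?_, fun W hW => ?_, heinf, hezero⟩, hresinf, hreszero⟩
  · -- gauss_inf
    have hT := isPrimeSeries_jqNModC R K 2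
    exact isGaussAt_comap_gaussValSub' (R := R) (L := K) (legE K (M * q))
      (legE_le_gaussField R K h2 (M * q)) (algebraMap ↥K⟮jqNModC K 2⟯ ↥(legE K (M * q)))
      (fun r => by
        rw [hKN, IsScalarTower.algebraMap_apply R K ↥(legE K (M * q)),
          IntermediateField.coe_algebraMap_apply, algebraMap_laurentSeries_eq_single]
        rfl) hπ (AdjoinSimple.gen K (jqNModC K 2)) hT.mem_gaussInt
      (hT.transcendental_gaussRed _)
  · -- gauss_zero
    rw [isGaussAt_comap_ringHom_iff _ hKN, ← hAj]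
    exact isGaussAt_hostW0_A K (algebraMap K ℂ) 2 h hq R (legE K M) (legE K (M * q))
      (keyFw_le_legE K M) (keyFw_le_legE K (M * q)) hle hπ (legJE K M) rfl
  · -- only
    rw [isGaussAt_comap_ringHom_iff _ hKN, ← hAj] at hW
    exact honly W hW

/-- **the concrete model on the Legendre hosts** (`q` odd prime, `q ∤ M`, residue characteristic
`q`), from good reduction at level `M`. -/
theorem ssModelLeg (hπ : Irreducible π) (h2 : IsUnit (2 : R))
    (h : (q : ℤ) * x + M * y = 1) (hq : q.Prime) (hq2 : q ≠ 2)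
    (hqπ : (q : R) ∈ Ideal.span {π})
    (hgeo : GeoHyps K π (AdjoinSimple.gen K (legT K)) ↥(legE K M) M ({0, 1} : Finset R)) :
    SSModelLeg R K π h2 h hq hq2 := by
  unfold SSModelLeg
  haveI : FiniteDimensional ↥K⟮jqNModC K 2⟯ ↥(legE K (M * q)) := finite_legE_adjoin_j K (M * q)
  obtain ⟨hA0, hB0, htwo, hri, hr0⟩ := ssModelLeg_block R K hπ h2 h hq hq2 hqπ hgeo
  have hk0 := ssModelLeg_kron_j_zero R K hπ h hq hq2 hqπ
  have hkinf := ssModelLeg_kron_j_inf R K (M := M) hπ h2 hq hq2 hqπ
  have hAinf := ssModelLeg_comap_A_inf R K (M := M) (q := q) h2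
  have hBinf := ssModelLeg_comap_B_inf R K (M := M) h2 hq hq2
  have hR0 : ∀ r : R, algebraMap R ↥(legE K (M * q)) r ∈ legW0 R K h hq :=
    fun r => htwo.chart_le_zero _ (Subalgebra.algebraMap_mem _ r)
  have hRinf : ∀ r : R, algebraMap R ↥(legE K (M * q)) r ∈ legWinf R K h2 (M * q) :=
    fun r => htwo.chart_le_inf _ (Subalgebra.algebraMap_mem _ r)
  have hJM : legJE K M ∈ legWinf R K h2 M := (isPrimeSeries_jqNModC R K 2).mem_gaussInt
  have hqlt : ∀ W : ValuationSubring ↥(legE K (M * q)),
      (∀ r : R, algebraMap R ↥(legE K (M * q)) r ∈ W) →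
      (algebraMap R ↥(legE K (M * q)) π)⁻¹ ∉ W →
      W.valuation ((q : ℕ) : ↥(legE K (M * q))) < 1 := by
    intro W hRW hπW
    obtain ⟨c, hc⟩ := Ideal.mem_span_singleton'.mp hqπ
    have e : ((q : ℕ) : ↥(legE K (M * q))) =
        algebraMap R ↥(legE K (M * q)) c * algebraMap R ↥(legE K (M * q)) π := by
      rw [← map_mul, hc, map_natCast]
    have h1 : W.valuation (algebraMap R ↥(legE K (M * q)) c) ≤ 1 :=
      (ValuationSubring.valuation_le_one_iff _ _).mpr (hRW c)
    have h2 : W.valuation (algebraMap R ↥(legE K (M * q)) π) < 1 := by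
      by_contra hge
      rw [not_lt] at hge
      apply hπW
      rw [← ValuationSubring.valuation_le_one_iff, map_inv₀]
      exact inv_le_one_of_one_le₀ hge
    rw [e, map_mul]
    exact mul_lt_one_of_nonneg_of_lt_one_right h1 zero_le h2
  exact
    { q_prime := hq
      q_mem := hqπ
      geo := hgeo
      gauss_M := ssModelLeg_gauss_M R K hπ h2
      t_int := (ssModelLeg_tfields R K h2).1
      t_sub_inv_int := (ssModelLeg_tfields R K h2).2.1
      cusp_t := (ssModelLeg_tfields R K h2).2.2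
      j_transcendental := ssModelLeg_j_transcendental K
      j_adjoin := ssModelLeg_j_adjoin K
      A_algebraMap := ssModelLeg_A_algebraMap R K
      B_algebraMap := ssModelLeg_B_algebraMap R K hq hq2
      A_j := ssModelLeg_A_j K
      two := htwo
      comap_A_inf := hAinf
      comap_B_inf := hBinf
      comap_A_zero := hA0
      comap_B_zero := hB0
      res_inf := hri
      res_zero := hr0
      kron_j_inf := hkinf
      kron_j_zero := hk0
      kron_t_inf := ssModelLeg_kron_t_inf R K hπ h2 hq hq2 hqπ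
      kron_t_zero := legendre_kron_t_zero _ _ _ _ hq h2 hR0 hRinf
        (hqlt _ hR0 htwo.gauss_zero.2.1) (hqlt _ hRinf htwo.gauss_inf.2.1) _ _
        (legendre_rel_legE K M)
        ((comap_mem_iff _ hA0 _).mpr hJM) ((comap_mem_iff _ hB0 _).mpr hJM)
        ((comap_mem_iff _ hAinf _).mpr hJM) ((comap_mem_iff _ hBinf _).mpr hJM) hkinf hk0
      cuspord := ssModelLeg_cuspord R K hπ hq hq2
      cuspord' := ssModelLeg_cuspord' R K hπ hq hq2
      const := ssModelLeg_const K
      unit := ssModelLeg_unit R K hπ h2 h hq hqπ }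

end Leg

end

end Fermat.Agent.SS
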