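/-
(SS-q) MODEL-GLOBAL — helper7 — **the concrete model on the Hesse hosts** (`q = 2`, `M` odd,
residue characteristic `2`): `ssModelHes : SSModelHes R K π h3 ω h`, from good reduction at
level `M`.  Same assembly as `SS/MODEL_helper7_Leg` with `w = 3`.
-/
import Mathlib
import Fermat.Agent.SS.MODEL_helper7_Leg

set_option autoImplicit false
set_option linter.unusedSectionVars false
set_option linter.unusedVariables false
set_option linter.style.haveILetI false
set_option synthInstance.maxHeartbeats 200000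

open Polynomial ModularCurve IntermediateField

namespace Fermat.Agent.SS

open Fermat.Agent.JA Fermat.Agent.Igusa

open scoped Fermat.Agent.JA.Host

noncomputable section

section Hes

variable (R : Type*) [CommRing R] [IsDomain R] [IsDiscreteValuationRing R] [CharZero R]
  [DecidableEq R]
  (K : Type*) [Field K] [Algebra R K] [IsFractionRing R K] [Algebra ℚ K] [Algebra K ℂ]
  {M : ℕ} [NeZero M] [NeZero (M * 2)] {x y : ℤ}
  {π : R}

/-- **uniqueness of the `j`-Gauss valuation subring of the Hesse host of level `M`**. -/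
theorem hesE_eq_hesWinf_of_isGaussAt (hπ : Irreducible π) (h3 : IsUnit (3 : R)) (ω : R)
    (hgeo : GeoHyps K π (AdjoinSimple.gen K (hesT K)) ↥(hesE K M) M
      ({1, ω, ω ^ 2} : Finset R))
    (V : ValuationSubring ↥(hesE K M)) (hV : IsGaussAt R π (hesJE K M) V) :
    V = hesWinf R K h3 M := by
  have h1 := hesse_isGaussAt hπ h3 (hesse_rel_hesE K M) hV
  have h2' : IsGaussAt R π (AdjoinSimple.gen K (hesT K))
      (V.comap (algebraMap ↥K⟮hesT K⟯ ↥(hesE K M))) :=
    (isGaussAt_comap_ringHom_iff (algebraMap ↥K⟮hesT K⟯ ↥(hesE K M))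
      (fun r => (IsScalarTower.algebraMap_apply R ↥K⟮hesT K⟯ ↥(hesE K M) r).symm) π _ V).mpr h1
  exact GeoHyps.valuationSubring_unique hgeo h2' (ssModelHes_gauss_M R K hπ h3)

/-- **the `W_0`-block on the Hesse hosts.** -/
theorem ssModelHes_block (hπ : Irreducible π) (h3 : IsUnit (3 : R)) (ω : R)
    (h : ((2 : ℕ) : ℤ) * x + M * y = 1)
    (hqπ : ((2 : ℕ) : R) ∈ Ideal.span {π})
    (hgeo : GeoHyps K π (AdjoinSimple.gen K (hesT K)) ↥(hesE K M) M
      ({1, ω, ω ^ 2} : Finset R)) :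
    haveI : FiniteDimensional ↥K⟮jqNModC K 3⟯ ↥(hesE K (M * 2)) := finite_hesE_adjoin_j K (M * 2)
    (hesW0 R K h Nat.prime_two).comap (hesHostA K M 2 : ↥(hesE K M) →+* ↥(hesE K (M * 2))) =
      hesWinf R K h3 M ∧
    (hesW0 R K h Nat.prime_two).comap (hesHostB K M : ↥(hesE K M) →+* ↥(hesE K (M * 2))) =
      hesWinf R K h3 M ∧
    IsTwoSheet π (AdjoinSimple.gen K (jqNModC K 3)) (hesWinf R K h3 (M * 2))
      (hesW0 R K h Nat.prime_two) ∧
    (∀ x ∈ hesWinf R K h3 (M * 2), ∃ a ∈ hesWinf R K h3 M,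
      (hesWinf R K h3 (M * 2)).valuation
        (x - (hesHostA K M 2 : ↥(hesE K M) →+* ↥(hesE K (M * 2))) a) < 1) ∧
    (∀ x ∈ hesW0 R K h Nat.prime_two, ∃ a ∈ hesWinf R K h3 M,
      (hesW0 R K h Nat.prime_two).valuation
        (x - (hesHostB K M : ↥(hesE K M) →+* ↥(hesE K (M * 2))) a) < 1) := by
  haveI : FiniteDimensional ↥K⟮jqNModC K 3⟯ ↥(hesE K (M * 2)) := finite_hesE_adjoin_j K (M * 2)
  have hq : (2 : ℕ).Prime := Nat.prime_two
  have hqM : ¬ 2 ∣ M := not_dvd_of_bezout h hq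
  haveI : CharP (IsLocalRing.ResidueField R) 2 := charP_residueField_of_mem_span hπ hq hqπ
  have hchar : ((2 : ℕ) : IsLocalRing.ResidueField R) = 0 := CharP.cast_eq_zero _ 2
  have hcop : Nat.Coprime 3 2 := by norm_num
  have hinj : Function.Injective (algebraMap R K) := IsFractionRing.injective R K
  haveI : CharZero K := charZero_of_injective_algebraMap hinj
  have hle : hesE K M ≤ hesE K (M * 2) := hesE_le_of_dvd K (dvd_mul_right M 2)
  have hdA := deg2_finrank_hesE_le (K := K) (algebraMap K ℂ) hq hqM hle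
  have hdB := ssModelHes_degB K hqM
  obtain ⟨hA0, hB0, -, hne, honly, heinf, hezero, hresinf, hreszero⟩ :=
    host_two_sheet_W0 K (algebraMap K ℂ) 3 h hq R (hesE K M) (hesE K (M * 2))
      (keyFw_le_hesE K M) (keyFw_le_hesE K (M * 2)) hle
      (fun _ hf => qExpand_mem_hesE_of_mem K (by rw [mul_comm]) hf)
      (hesE_le_gaussField R K h3 M) (hesE_le_gaussField R K h3 (M * 2)) hchar hπ hcop
      (hesJE K M) rfl hdA.1 hdA.2 hdB.1 hdB.2
      (hesE_eq_hesWinf_of_isGaussAt R K hπ h3 ω hgeo)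
  have hAj := ssModelHes_A_j K (M := M)
  have hKN : ∀ r : R, algebraMap ↥K⟮jqNModC K 3⟯ ↥(hesE K (M * 2))
      (algebraMap R ↥K⟮jqNModC K 3⟯ r) = algebraMap R ↥(hesE K (M * 2)) r :=
    fun r => (IsScalarTower.algebraMap_apply R ↥K⟮jqNModC K 3⟯ ↥(hesE K (M * 2)) r).symm
  refine ⟨hA0, hB0, ⟨hne, ?_, ?_, fun W hW => ?_, heinf, hezero⟩, hresinf, hreszero⟩
  · -- gauss_inf
    have hT := isPrimeSeries_jqNModC R K 3
    exact isGaussAt_comap_gaussValSub' (R := R) (L := K) (hesE K (M * 2))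
      (hesE_le_gaussField R K h3 (M * 2)) (algebraMap ↥K⟮jqNModC K 3⟯ ↥(hesE K (M * 2)))
      (fun r => by
        rw [hKN, IsScalarTower.algebraMap_apply R K ↥(hesE K (M * 2)),
          IntermediateField.coe_algebraMap_apply, algebraMap_laurentSeries_eq_single]
        rfl) hπ (AdjoinSimple.gen K (jqNModC K 3)) hT.mem_gaussInt
      (hT.transcendental_gaussRed _)
  · -- gauss_zero
    rw [isGaussAt_comap_ringHom_iff _ hKN, ← hAj]
    exact isGaussAt_hostW0_A K (algebraMap K ℂ) 3 h hq R (hesE K M) (hesE K (M * 2))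
      (keyFw_le_hesE K M) (keyFw_le_hesE K (M * 2)) hle hπ (hesJE K M) rfl
  · -- only
    rw [isGaussAt_comap_ringHom_iff _ hKN, ← hAj] at hW
    exact honly W hW

/-- **the concrete model on the Hesse hosts** (`q = 2`, `M` odd, residue characteristic `2`),
from good reduction at level `M`. -/
theorem ssModelHes (hπ : Irreducible π) (h3 : IsUnit (3 : R)) (ω : R)
    (hω : ω ^ 2 + ω + 1 = 0) (h : ((2 : ℕ) : ℤ) * x + M * y = 1)
    (hqπ : ((2 : ℕ) : R) ∈ Ideal.span {π})
    (hgeo : GeoHyps K π (AdjoinSimple.gen K (hesT K)) ↥(hesE K M) M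
      ({1, ω, ω ^ 2} : Finset R)) :
    SSModelHes R K π h3 ω h := by
  unfold SSModelHes
  haveI : FiniteDimensional ↥K⟮jqNModC K 3⟯ ↥(hesE K (M * 2)) := finite_hesE_adjoin_j K (M * 2)
  have hq : (2 : ℕ).Prime := Nat.prime_two
  obtain ⟨hA0, hB0, htwo, hri, hr0⟩ := ssModelHes_block R K hπ h3 ω h hqπ hgeo
  have hk0 := ssModelHes_kron_j_zero R K hπ h hqπ
  have hkinf := ssModelHes_kron_j_inf R K (M := M) hπ h3 hqπ
  have hAinf := ssModelHes_comap_A_inf R K (M := M) h3
  have hBinf := ssModelHes_comap_B_inf R K (M := M) h3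
  have hR0 : ∀ r : R, algebraMap R ↥(hesE K (M * 2)) r ∈ hesW0 R K h Nat.prime_two :=
    fun r => htwo.chart_le_zero _ (Subalgebra.algebraMap_mem _ r)
  have hRinf : ∀ r : R, algebraMap R ↥(hesE K (M * 2)) r ∈ hesWinf R K h3 (M * 2) :=
    fun r => htwo.chart_le_inf _ (Subalgebra.algebraMap_mem _ r)
  have hJM : hesJE K M ∈ hesWinf R K h3 M := (isPrimeSeries_jqNModC R K 3).mem_gaussInt
  have hqlt : ∀ W : ValuationSubring ↥(hesE K (M * 2)),
      (∀ r : R, algebraMap R ↥(hesE K (M * 2)) r ∈ W) →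
      (algebraMap R ↥(hesE K (M * 2)) π)⁻¹ ∉ W →
      W.valuation ((2 : ℕ) : ↥(hesE K (M * 2))) < 1 := by
    intro W hRW hπW
    obtain ⟨c, hc⟩ := Ideal.mem_span_singleton'.mp hqπ
    have e : ((2 : ℕ) : ↥(hesE K (M * 2))) =
        algebraMap R ↥(hesE K (M * 2)) c * algebraMap R ↥(hesE K (M * 2)) π := by
      rw [← map_mul, hc, map_natCast]
    have h1 : W.valuation (algebraMap R ↥(hesE K (M * 2)) c) ≤ 1 :=
      (ValuationSubring.valuation_le_one_iff _ _).mpr (hRW c)
    have h2 : W.valuation (algebraMap R ↥(hesE K (M * 2)) π) < 1 := by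
      by_contra hge
      rw [not_lt] at hge
      apply hπW
      rw [← ValuationSubring.valuation_le_one_iff, map_inv₀]
      exact inv_le_one_of_one_le₀ hge
    rw [e, map_mul]
    exact mul_lt_one_of_nonneg_of_lt_one_right h1 zero_le h2
  exact
    { q_prime := hq
      q_mem := hqπ
      geo := hgeo
      gauss_M := ssModelHes_gauss_M R K hπ h3
      t_int := (ssModelHes_tfields R K h3 ω hω).1
      t_sub_inv_int := (ssModelHes_tfields R K h3 ω hω).2.1
      cusp_t := (ssModelHes_tfields R K h3 ω hω).2.2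
      j_transcendental := ssModelHes_j_transcendental K
      j_adjoin := ssModelHes_j_adjoin K
      A_algebraMap := ssModelHes_A_algebraMap R K
      B_algebraMap := ssModelHes_B_algebraMap R K
      A_j := ssModelHes_A_j K
      two := htwo
      comap_A_inf := hAinf
      comap_B_inf := hBinf
      comap_A_zero := hA0
      comap_B_zero := hB0
      res_inf := hri
      res_zero := hr0
      kron_j_inf := hkinf
      kron_j_zero := hk0
      kron_t_inf := ssModelHes_kron_t_inf R K hπ h3 hqπ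
      kron_t_zero := hesse_kron_t_zero _ _ _ _ hq h3 ω hω hR0 hRinf
        (hqlt _ hR0 htwo.gauss_zero.2.1) (hqlt _ hRinf htwo.gauss_inf.2.1) _ _
        (hesse_rel_hesE K M)
        ((comap_mem_iff _ hA0 _).mpr hJM) ((comap_mem_iff _ hB0 _).mpr hJM)
        ((comap_mem_iff _ hAinf _).mpr hJM) ((comap_mem_iff _ hBinf _).mpr hJM) hkinf hk0
      cuspord := ssModelHes_cuspord R K hπ
      cuspord' := ssModelHes_cuspord' R K hπ
      const := ssModelHes_const K
      unit := ssModelHes_unit R K hπ h3 h hqπ }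

end Hes

end

end Fermat.Agent.SS
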