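/-
(SS-q), package IBASE, helper1. Part 3: **semilinear automorphisms and places**: rational places go
to rational places, and the restriction of places along a coefficient extension commutes with
compatible semilinear automorphisms; instances for the hosts and the level-`N` function field
over a normal base `K₁ ⊂ Ω`.
-/
import Mathlib
import Fermat.Agent.SS.IBASE_helper1_Act

set_option autoImplicit false
set_option linter.unusedSectionVars false
set_option linter.style.haveILetI false

open HahnSeries IntermediateField AlgebraicCurve ModularCurve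

namespace Fermat.Agent.SS

open Fermat.Agent.JA Fermat.Agent.FF

section SemilinearRational

variable {K F : Type*} [Field K] [Field F] [Algebra K F] (g : SemilinearAut K F) (P : Place K F)

theorem smul_eq_zero_iff_semilinear (z : F) : g • z = 0 ↔ z = 0 := by
  rw [SemilinearAut.smul_def]
  exact map_eq_zero_iff _ (SemilinearAut.toRingAut g).injective

theorem isZeroAt_smul_iff (z : F) : Place.IsZeroAt (g • P) (g • z) ↔ Place.IsZeroAt P z := by
  unfold Place.IsZeroAt
  rw [smul_eq_zero_iff_semilinear, SemilinearAut.ord_smul]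

/-- a semilinear automorphism maps rational places to rational places. -/
theorem isRationalPlace_smul (h : IsRationalPlace P) : IsRationalPlace (g • P) := by
  intro x hx
  rw [SemilinearAut.smul_toValuationSubring,
    ValuationSubring.mem_pointwise_smul_iff_inv_smul_mem] at hx
  obtain ⟨c, hc⟩ := h _ hx
  refine ⟨SemilinearAut.baseAut g c, ?_⟩
  have h1 := (isZeroAt_smul_iff g P _).mpr hc
  rwa [smul_sub, smul_inv_smul, SemilinearAut.smul_algebraMap] at h1

theorem isRationalPlace_smul_iff : IsRationalPlace (g • P) ↔ IsRationalPlace P := by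
  refine ⟨fun h => ?_, isRationalPlace_smul g P⟩
  have h1 := isRationalPlace_smul g⁻¹ (g • P) h
  rwa [inv_smul_smul] at h1

end SemilinearRational

section RestrictSmul

variable {K₁ Ω E₁ EΩ : Type*} [Field K₁] [Field Ω] [Algebra K₁ Ω] [Algebra.IsAlgebraic K₁ Ω]
  [Field E₁] [Algebra K₁ E₁] [Field EΩ] [Algebra Ω EΩ] [CharZero EΩ]

/-- **restriction of places commutes with compatible semilinear automorphisms.** -/
theorem restrictBC_smul (φ : E₁ →+* EΩ)
    (hφ : ∀ a : K₁, φ (algebraMap K₁ E₁ a) = algebraMap Ω EΩ (algebraMap K₁ Ω a))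
    (hgen : Subfield.closure (Set.range φ ∪ Set.range (algebraMap Ω EΩ)) = ⊤)
    (g₁ : SemilinearAut K₁ E₁) (g : SemilinearAut Ω EΩ) (hg : ∀ x : E₁, φ (g₁ • x) = g • φ x)
    (P : Place Ω EΩ) :
    restrictBC φ hφ hgen (g • P) = g₁ • restrictBC φ hφ hgen P := by
  refine restrictBC_eq_of_ord_eq φ hφ hgen _ _ fun x => ?_
  have hx : x = g₁ • (g₁⁻¹ • x) := (smul_inv_smul g₁ x).symm
  rw [hx, hg, SemilinearAut.ord_smul, SemilinearAut.ord_smul, ord_restrictBC]

end RestrictSmul

section Base

/-- `Ω = AlgebraicClosure ℚ`. -/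
local notation "Ω" => AlgebraicClosure ℚ

/-- the absolute Galois group. -/
local notation "GQ" => (AlgebraicClosure ℚ ≃ₐ[ℚ] AlgebraicClosure ℚ)

variable (N : ℕ) [NeZero N] (K₁ : IntermediateField ℚ Ω) [Normal ℚ ↥K₁]

/-- the restriction to `E(K₁)` of the `σ`-conjugate of a place of `E(Ω)` is the `σ̄`-conjugate of
its restriction: Legendre host. -/
theorem restrictBC_legGalois_smul (σ : GQ) (P : Place Ω ↥(legE Ω N)) :
    restrictBC (legBC N K₁) (legBC_algebraMap N K₁) (closure_range_legBC N K₁)
        (legGalois Ω N σ • P) =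
      legGalois ↥K₁ N (resGal K₁ σ) •
        restrictBC (legBC N K₁) (legBC_algebraMap N K₁) (closure_range_legBC N K₁) P :=
  restrictBC_smul _ _ _ _ _ (legBC_legGalois_smul N K₁ σ) P

theorem restrictBC_hesGalois_smul (σ : GQ) (P : Place Ω ↥(hesE Ω N)) :
    restrictBC (hesBC N K₁) (hesBC_algebraMap N K₁) (closure_range_hesBC N K₁)
        (hesGalois Ω N σ • P) =
      hesGalois ↥K₁ N (resGal K₁ σ) •
        restrictBC (hesBC N K₁) (hesBC_algebraMap N K₁) (closure_range_hesBC N K₁) P :=
  restrictBC_smul _ _ _ _ _ (hesBC_hesGalois_smul N K₁ σ) P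

theorem restrictBC_keyFqGalois_smul (σ : GQ) (P : Place Ω ↥(keyFq Ω N)) :
    restrictBC (keyFqBC N K₁) (keyFqBC_algebraMap N K₁) (closure_range_keyFqBC N K₁)
        (keyFqGalois Ω N σ • P) =
      keyFqGalois ↥K₁ N (resGal K₁ σ) •
        restrictBC (keyFqBC N K₁) (keyFqBC_algebraMap N K₁) (closure_range_keyFqBC N K₁) P :=
  restrictBC_smul _ _ _ _ _ (keyFqBC_keyFqGalois_smul N K₁ σ) P

/-- **the conjugates of a `K₁`-rational place are `K₁`-rational** (Legendre host). -/
theorem isRationalPlace_restrictBC_legGalois_smul (σ : GQ) {P : Place Ω ↥(legE Ω N)}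
    (h : IsRationalPlace
      (restrictBC (legBC N K₁) (legBC_algebraMap N K₁) (closure_range_legBC N K₁) P)) :
    IsRationalPlace (restrictBC (legBC N K₁) (legBC_algebraMap N K₁) (closure_range_legBC N K₁)
      (legGalois Ω N σ • P)) := by
  rw [restrictBC_legGalois_smul]
  exact isRationalPlace_smul _ _ h

theorem isRationalPlace_restrictBC_hesGalois_smul (σ : GQ) {P : Place Ω ↥(hesE Ω N)}
    (h : IsRationalPlace
      (restrictBC (hesBC N K₁) (hesBC_algebraMap N K₁) (closure_range_hesBC N K₁) P)) :
    IsRationalPlace (restrictBC (hesBC N K₁) (hesBC_algebraMap N K₁) (closure_range_hesBC N K₁)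
      (hesGalois Ω N σ • P)) := by
  rw [restrictBC_hesGalois_smul]
  exact isRationalPlace_smul _ _ h

theorem isRationalPlace_restrictBC_keyFqGalois_smul (σ : GQ) {P : Place Ω ↥(keyFq Ω N)}
    (h : IsRationalPlace
      (restrictBC (keyFqBC N K₁) (keyFqBC_algebraMap N K₁) (closure_range_keyFqBC N K₁) P)) :
    IsRationalPlace (restrictBC (keyFqBC N K₁) (keyFqBC_algebraMap N K₁)
      (closure_range_keyFqBC N K₁) (keyFqGalois Ω N σ • P)) := by
  rw [restrictBC_keyFqGalois_smul]
  exact isRationalPlace_smul _ _ h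

end Base

end Fermat.Agent.SS
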