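/-
(SS-q), package IBASE, helper1. Part 4: **the choice of the base** (step T0 of the (SS-q) chain):
finitely many functions of `F_Ω`, finitely many constants and finitely many places of a host
`E_Ω` are defined (resp. rational) over a common Galois base `K₁`; units of `R₁` are `m`-th powers
modulo the uniformizer.
-/
import Mathlib
import Fermat.Agent.SS.IBASE_helper1_Place
import Fermat.Agent.JA.BC_helper9_DescBase

set_option autoImplicit false
set_option linter.unusedSectionVars false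
set_option linter.style.haveILetI false

open HahnSeries IntermediateField AlgebraicCurve ModularCurve

namespace Fermat.Agent.SS

open Fermat.Agent.JA Fermat.Agent.FF

/-- `Ω = AlgebraicClosure ℚ`. -/
local notation "Ω" => AlgebraicClosure ℚ

section Choice

variable {q : ℕ} (N : ℕ) [NeZero N] {K₀ : IntermediateField ℚ Ω}

/-- **(T0), Legendre host**: over a given base there is a Galois base `K₁` containing finitely many
given constants, over which finitely many given functions of `F_Ω` are defined and finitely many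
given places of `E_Ω` are rational. -/
theorem _root_.Fermat.Agent.JA.IsBase.exists_ge_isGalBase_legE (hK₀ : IsBase q K₀)
    (t : Finset Ω) {ι : Type*} [Fintype ι] {f : ι → LaurentSeries Ω}
    (hf : ∀ i, f i ∈ keyFq Ω N) (s : Finset (Place Ω ↥(legE Ω N))) :
    ∃ K₁ : IntermediateField ℚ Ω, IsGalBase q K₁ ∧ K₀ ≤ K₁ ∧ (∀ c ∈ t, c ∈ K₁) ∧
      (∀ i, ∃ f₁ ∈ keyFq ↥K₁ N, coeffMap (algebraMap ↥K₁ Ω) f₁ = f i) ∧
      ∀ P ∈ s, IsRationalPlace (restrictBC (legBC N K₁) (legBC_algebraMap N K₁)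
        (closure_range_legBC N K₁) P) := by
  classical
  obtain ⟨s₁, hs₁⟩ := exists_finset_forall_descent_family (modularFunctionFieldFull N) hf
  obtain ⟨s₂, hs₂⟩ := exists_finset_forall_isRationalPlace_legE N K₀ s
  obtain ⟨K₁, hK₁, hle, hmem⟩ := hK₀.exists_ge_isGalBase_forall_mem (t ∪ (s₁ ∪ s₂))
  refine ⟨K₁, hK₁, hle, fun c hc => hmem c (Finset.mem_union_left _ hc), ?_, ?_⟩
  · exact hs₁ K₁ fun c hc =>
      hmem c (Finset.mem_union_right _ (Finset.mem_union_left _ hc))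
  · exact hs₂ K₁ hle fun c hc =>
      hmem c (Finset.mem_union_right _ (Finset.mem_union_right _ hc))

/-- **(T0), Hesse host.** -/
theorem _root_.Fermat.Agent.JA.IsBase.exists_ge_isGalBase_hesE (hK₀ : IsBase q K₀)
    (t : Finset Ω) {ι : Type*} [Fintype ι] {f : ι → LaurentSeries Ω}
    (hf : ∀ i, f i ∈ keyFq Ω N) (s : Finset (Place Ω ↥(hesE Ω N))) :
    ∃ K₁ : IntermediateField ℚ Ω, IsGalBase q K₁ ∧ K₀ ≤ K₁ ∧ (∀ c ∈ t, c ∈ K₁) ∧
      (∀ i, ∃ f₁ ∈ keyFq ↥K₁ N, coeffMap (algebraMap ↥K₁ Ω) f₁ = f i) ∧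
      ∀ P ∈ s, IsRationalPlace (restrictBC (hesBC N K₁) (hesBC_algebraMap N K₁)
        (closure_range_hesBC N K₁) P) := by
  classical
  obtain ⟨s₁, hs₁⟩ := exists_finset_forall_descent_family (modularFunctionFieldFull N) hf
  obtain ⟨s₂, hs₂⟩ := exists_finset_forall_isRationalPlace_hesE N K₀ s
  obtain ⟨K₁, hK₁, hle, hmem⟩ := hK₀.exists_ge_isGalBase_forall_mem (t ∪ (s₁ ∪ s₂))
  refine ⟨K₁, hK₁, hle, fun c hc => hmem c (Finset.mem_union_left _ hc), ?_, ?_⟩
  · exact hs₁ K₁ fun c hc =>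
      hmem c (Finset.mem_union_right _ (Finset.mem_union_left _ hc))
  · exact hs₂ K₁ hle fun c hc =>
      hmem c (Finset.mem_union_right _ (Finset.mem_union_right _ hc))

/-- **(T0), level-`N` function field.** -/
theorem _root_.Fermat.Agent.JA.IsBase.exists_ge_isGalBase_keyFq (hK₀ : IsBase q K₀)
    (t : Finset Ω) {ι : Type*} [Fintype ι] {f : ι → LaurentSeries Ω}
    (hf : ∀ i, f i ∈ keyFq Ω N) (s : Finset (Place Ω ↥(keyFq Ω N))) :
    ∃ K₁ : IntermediateField ℚ Ω, IsGalBase q K₁ ∧ K₀ ≤ K₁ ∧ (∀ c ∈ t, c ∈ K₁) ∧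
      (∀ i, ∃ f₁ ∈ keyFq ↥K₁ N, coeffMap (algebraMap ↥K₁ Ω) f₁ = f i) ∧
      ∀ P ∈ s, IsRationalPlace (restrictBC (keyFqBC N K₁) (keyFqBC_algebraMap N K₁)
        (closure_range_keyFqBC N K₁) P) := by
  classical
  obtain ⟨s₁, hs₁⟩ := exists_finset_forall_descent_family (modularFunctionFieldFull N) hf
  obtain ⟨s₂, hs₂⟩ := exists_finset_forall_isRationalPlace_keyFq N K₀ s
  obtain ⟨K₁, hK₁, hle, hmem⟩ := hK₀.exists_ge_isGalBase_forall_mem (t ∪ (s₁ ∪ s₂))
  refine ⟨K₁, hK₁, hle, fun c hc => hmem c (Finset.mem_union_left _ hc), ?_, ?_⟩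
  · exact hs₁ K₁ fun c hc =>
      hmem c (Finset.mem_union_right _ (Finset.mem_union_left _ hc))
  · exact hs₂ K₁ hle fun c hc =>
      hmem c (Finset.mem_union_right _ (Finset.mem_union_right _ hc))

end Choice

section Units

/-- in a local ring with algebraically closed residue field every unit is an `m`-th power times a
one-unit. -/
theorem exists_pow_mul_one_add_eq {R : Type*} [CommRing R] [IsLocalRing R]
    [IsAlgClosed (IsLocalRing.ResidueField R)] (u : Rˣ) {m : ℕ} (hm : 0 < m) :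
    ∃ e : Rˣ, ∃ d ∈ IsLocalRing.maximalIdeal R, (u : R) = (e : R) ^ m * (1 + d) := by
  obtain ⟨z, hz⟩ := IsAlgClosed.exists_pow_nat_eq (IsLocalRing.residue R (u : R)) hm
  obtain ⟨e₀, rfl⟩ := IsLocalRing.residue_surjective z
  have hu0 : IsLocalRing.residue R (u : R) ≠ 0 := by
    rw [Ne, IsLocalRing.residue_eq_zero_iff]
    exact fun h => (IsLocalRing.mem_maximalIdeal _).mp h u.isUnit
  have he₀ : IsUnit e₀ := by
    by_contra hne
    have h1 : IsLocalRing.residue R e₀ = 0 :=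
      (IsLocalRing.residue_eq_zero_iff _).mpr ((IsLocalRing.mem_maximalIdeal _).mpr hne)
    rw [h1, zero_pow hm.ne'] at hz
    exact hu0 hz.symm
  obtain ⟨e, rfl⟩ := he₀
  have hmem : (u : R) - (e : R) ^ m ∈ IsLocalRing.maximalIdeal R := by
    rw [← IsLocalRing.residue_eq_zero_iff, map_sub, map_pow, hz, sub_self]
  refine ⟨e, ((e ^ m)⁻¹ : Rˣ) * ((u : R) - (e : R) ^ m), Ideal.mul_mem_left _ _ hmem, ?_⟩
  have h2 : (e : R) ^ m * (((e ^ m)⁻¹ : Rˣ) : R) = 1 := by
    rw [← Units.val_pow_eq_pow_val, ← Units.val_mul, mul_inv_cancel, Units.val_one]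
  rw [mul_add, mul_one, ← mul_assoc, h2, one_mul]
  ring

variable {q : ℕ} [hq : Fact q.Prime] {A : ValuationSubring Ω} {K₁ : IntermediateField ℚ Ω}

/-- **units of `R₁` are `m`-th powers modulo the uniformizer** (the residue field is
algebraically closed), for every base `K₁`. -/
theorem _root_.Fermat.Agent.JA.IsBase.exists_pow_mul_one_add_eq (hK₁ : IsBase q K₁)
    (hA : A.LiesOverPrime q) (u : (↥(baseRing A K₁))ˣ) {m : ℕ} (hm : 0 < m) :
    ∃ e : (↥(baseRing A K₁))ˣ, ∃ d ∈ IsLocalRing.maximalIdeal ↥(baseRing A K₁),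
      (u : ↥(baseRing A K₁)) = (e : ↥(baseRing A K₁)) ^ m * (1 + d) := by
  haveI := hK₁.isAlgClosed_residueField hA
  exact Fermat.Agent.SS.exists_pow_mul_one_add_eq u hm

end Units

end Fermat.Agent.SS
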