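/-
(SS-q) — lead — **TOP-B, interface**: what the chain MODEL + GLUE must deliver at ONE Galois base,
as two `Prop`s (Legendre host for `q ≠ 2`, Hesse host for `q = 2`).  Everything is stated in the
currency of IBASE (`IsGalBase`, `resGal`, `legGalois`/`hesGalois`) and of the J-A packages
(`legE`/`hesE`, `IsRationalPlace`): no charts, no models.

For a Galois base `K₁ ⊂ Ω` at `q ∥ N`, an inertia element `σ` at `A | q`, an exponent `m` prime to
`q`, and a nonzero MONIC element `f` of the host `E(K₁)` (leading coefficient `1` as a Laurent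
series in `x`) such that at every place `P` of `E(K₁)/K₁` either `ord_P (σ̄ f / f) = 0` or `P` is
rational and `m ∣ ord_P (σ̄ f / f)`:  the second difference `σ̄ (σ̄ f / f) / (σ̄ f / f)` is an `m`-th
power in `E(K₁)`.   (`σ̄` = coefficientwise action of the restriction of `σ` to `K₁`.)

This is `kummer_inertia_pow_of_place` (GLUE-C, helper3) with `σ = τ = σ̄`, fed with the model data
(`IsModelChart` on both `j`-charts, Galois clause, `ε`-clause, `lc` = leading coefficient).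
-/
import Mathlib
import Fermat.Agent.SS.IBASE_helper1_Main

set_option autoImplicit false
set_option linter.unusedSectionVars false
set_option linter.style.haveILetI false

open HahnSeries IntermediateField AlgebraicCurve ModularCurve

namespace Fermat.Agent.SS

open Fermat.Agent.JA Fermat.Agent.FF

/-- `Ω = AlgebraicClosure ℚ`. -/
local notation "Ω" => AlgebraicClosure ℚ

/-- the absolute Galois group. -/
local notation "GQ" => (AlgebraicClosure ℚ ≃ₐ[ℚ] AlgebraicClosure ℚ)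

/-- **the base statement, Legendre host** (`q ≠ 2`). -/
def LegKummerBase : Prop :=
  ∀ (N : ℕ) [NeZero N] (q : ℕ), q.Prime → q ≠ 2 → q ∣ N → ¬ q ^ 2 ∣ N →
  ∀ (A : ValuationSubring Ω), A.LiesOverPrime q →
  ∀ (K₁ : IntermediateField ℚ Ω) [Normal ℚ ↥K₁], IsGalBase q K₁ →
  ∀ σ ∈ A.inertiaSubgroupIn ℚ, ∀ (m : ℕ), 0 < m → ¬ q ∣ m →
  ∀ f : ↥(legE ↥K₁ N), f ≠ 0 → ((f : ↥(legE ↥K₁ N)) : LaurentSeries ↥K₁).leadingCoeff = 1 →
    (∀ P : Place ↥K₁ ↥(legE ↥K₁ N),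
      P.ord (legGalois ↥K₁ N (resGal K₁ σ) • f / f) = 0 ∨
        (IsRationalPlace P ∧ (m : ℤ) ∣ P.ord (legGalois ↥K₁ N (resGal K₁ σ) • f / f))) →
    ∃ u : ↥(legE ↥K₁ N),
      legGalois ↥K₁ N (resGal K₁ σ) • (legGalois ↥K₁ N (resGal K₁ σ) • f / f) /
        (legGalois ↥K₁ N (resGal K₁ σ) • f / f) = u ^ m

/-- **the base statement, Hesse host** (`q = 2`). -/
def HesKummerBase : Prop :=
  ∀ (N : ℕ) [NeZero N], 2 ∣ N → ¬ 2 ^ 2 ∣ N →
  ∀ (A : ValuationSubring Ω), A.LiesOverPrime 2 →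
  ∀ (K₁ : IntermediateField ℚ Ω) [Normal ℚ ↥K₁], IsGalBase 2 K₁ →
  ∀ σ ∈ A.inertiaSubgroupIn ℚ, ∀ (m : ℕ), 0 < m → ¬ 2 ∣ m →
  ∀ f : ↥(hesE ↥K₁ N), f ≠ 0 → ((f : ↥(hesE ↥K₁ N)) : LaurentSeries ↥K₁).leadingCoeff = 1 →
    (∀ P : Place ↥K₁ ↥(hesE ↥K₁ N),
      P.ord (hesGalois ↥K₁ N (resGal K₁ σ) • f / f) = 0 ∨
        (IsRationalPlace P ∧ (m : ℤ) ∣ P.ord (hesGalois ↥K₁ N (resGal K₁ σ) • f / f))) →
    ∃ u : ↥(hesE ↥K₁ N),
      hesGalois ↥K₁ N (resGal K₁ σ) • (hesGalois ↥K₁ N (resGal K₁ σ) • f / f) /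
        (hesGalois ↥K₁ N (resGal K₁ σ) • f / f) = u ^ m

end Fermat.Agent.SS
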