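/-
(SS-q) MODEL leaf [AUT] — helper1 — part 1: **the coefficientwise action and the Gauss valuation**.

`R` a discrete valuation ring, `L = Frac R`, `τ : L →+* L` a ring endomorphism inducing `τR` on `R`
with `τR r ≡ r` modulo the maximal ideal.  Then `coeffMap τ` preserves the Gauss valuation ring
`gaussInt R L ⊂ L⸨x⸩` and is trivial on its residue field (`gaussRed`).  Consequently, on every
intermediate field `M ≤ gaussField R L` stable under `coeffMap τ`, the induced endomorphism
preserves the Gauss valuation subring `gaussValSub R L M` and is trivial on its residue field.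
-/
import Mathlib
import Fermat.Agent.Igusa.V_helper5_Val

set_option autoImplicit false
set_option linter.unusedSectionVars false
set_option linter.style.haveILetI false

open ModularCurve Fermat.Agent.Igusa

namespace Fermat.Agent.SS

section Gauss

variable {R : Type*} [CommRing R] [IsDomain R] [IsDiscreteValuationRing R]
variable {L : Type*} [Field L] [Algebra R L] [IsFractionRing R L]
variable (τ : L →+* L) (τR : R →+* R)
  (hτ : ∀ r : R, τ (algebraMap R L r) = algebraMap R L (τR r))
  (hres : ∀ r : R, τR r - r ∈ IsLocalRing.maximalIdeal R)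

include hτ in
theorem coeffMap_emb_eq (f : LaurentSeries R) :
    coeffMap τ (emb R L f) = emb R L (coeffMap τR f) := by
  rw [emb, coeffMap_coeffMap, coeffMap_coeffMap]
  exact coeffMap_congr (RingHom.ext hτ) f

include hres in
theorem red_coeffMap_eq (f : LaurentSeries R) : red R (coeffMap τR f) = red R f := by
  rw [red, coeffMap_coeffMap]
  refine coeffMap_congr (RingHom.ext fun r => ?_) f
  rw [RingHom.comp_apply, ← sub_eq_zero, ← map_sub, IsLocalRing.residue_eq_zero_iff]
  exact hres r

include hτ hres in
/-- the coefficientwise action preserves the Gauss valuation ring. -/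
theorem coeffMap_mem_gaussInt {x : LaurentSeries L} (hx : x ∈ gaussInt R L) :
    coeffMap τ x ∈ gaussInt R L := by
  obtain ⟨f, g, hg, h⟩ := hx
  refine ⟨coeffMap τR f, coeffMap τR g, by rwa [red_coeffMap_eq τR hres], ?_⟩
  rw [← coeffMap_emb_eq τ τR hτ, ← coeffMap_emb_eq τ τR hτ, ← map_mul, h]

include hτ hres in
/-- the coefficientwise action is trivial on the residue field of the Gauss valuation ring. -/
theorem gaussRed_coeffMap (x : gaussInt R L) :
    gaussRed R L ⟨coeffMap τ (x : LaurentSeries L), coeffMap_mem_gaussInt τ τR hτ hres x.2⟩ =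
      gaussRed R L x := by
  obtain ⟨f, g, hg, h⟩ := x.2
  rw [gaussRed_eq x f g hg h,
    gaussRed_eq _ (coeffMap τR f) (coeffMap τR g) (by rwa [red_coeffMap_eq τR hres])
      (by
        show coeffMap τ (x : LaurentSeries L) * emb R L (coeffMap τR g) = emb R L (coeffMap τR f)
        rw [← coeffMap_emb_eq τ τR hτ, ← coeffMap_emb_eq τ τR hτ, ← map_mul, h]),
    red_coeffMap_eq τR hres, red_coeffMap_eq τR hres]

variable {M : IntermediateField L (LaurentSeries L)} {hM : M ≤ gaussField R L}
  (σ : ↥M →+* ↥M) (hσ : ∀ x : ↥M, ((σ x : ↥M) : LaurentSeries L) = coeffMap τ (x : LaurentSeries L))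

include hτ hres hσ in
/-- the induced endomorphism of `M` preserves the Gauss valuation subring. -/
theorem map_mem_gaussValSub {x : ↥M} (hx : x ∈ gaussValSub R L M hM) :
    σ x ∈ gaussValSub R L M hM := by
  rw [mem_gaussValSub_iff] at hx ⊢
  rw [hσ]
  exact coeffMap_mem_gaussInt τ τR hτ hres hx

include hτ hres hσ in
/-- the induced endomorphism of `M` is trivial on the residue field of the Gauss valuation
subring. -/
theorem valuation_map_sub_lt_one {x : ↥M} (hx : x ∈ gaussValSub R L M hM) :
    (gaussValSub R L M hM).valuation (σ x - x) < 1 := by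
  have hσx := map_mem_gaussValSub (hM := hM) τ τR hτ hres σ hσ hx
  have hmem : σ x - x ∈ gaussValSub R L M hM := sub_mem hσx hx
  have key : (⟨σ x - x, hmem⟩ : ↥(gaussValSub R L M hM)) ∈
      IsLocalRing.maximalIdeal ↥(gaussValSub R L M hM) := by
    rw [mem_maximalIdeal_gaussValSub_iff]
    have h1 : (⟨σ x - x, hmem⟩ : ↥(gaussValSub R L M hM)) = ⟨σ x, hσx⟩ - ⟨x, hx⟩ := rfl
    rw [h1, map_sub, sub_eq_zero, gaussValRed_apply, gaussValRed_apply]
    have h2 := gaussRed_coeffMap τ τR hτ hres ⟨(x : LaurentSeries L), hx⟩
    rw [← h2]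
    congr 1
    exact Subtype.ext (hσ x)
  exact (ValuationSubring.valuation_lt_one_iff _ _).mp key

end Gauss

end Fermat.Agent.SS
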