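/-
(SS-q) MODEL leaf [AUT] — helper1 — part 3: **the inertia action on coefficient-stable fields of
Laurent series** `E ⊂ K₁⸨x⸩` (hosts `legE`, `hesE`, level fields `keyFq`), `K₁` a normal
intermediate field of `Ω / ℚ`, `R₁ = baseRing A K₁`, `σ` in the inertia group of `A`.

* `coeffRingAut_mem_gaussValSub_iff`, `valuation_coeffRingAut_sub_lt_one` : the coefficientwise
  action `σ̄ = coeffRingAut hE (resGal K₁ σ)` preserves the Gauss valuation subring of `E` and is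
  trivial on its residue field (`mem_inf`, `res_inf` of `SSModelAut`; also the level-`M` input).
* `coeffRingAut_dilateAlgHom` : `σ̄` commutes with the degeneracy maps `f ↦ f(x^q)`.
* `coeffRingAut_algebraMap_baseRing` : `σ̄` acts on `R₁` through `baseRingAut`.
-/
import Mathlib
import Fermat.Agent.SS.AUT_helper1_Gauss
import Fermat.Agent.SS.IBASE_helper1_Main
import Fermat.Agent.SS.HOSTB_helper8_HostB

set_option autoImplicit false
set_option linter.unusedSectionVars false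
set_option linter.style.haveILetI false

open HahnSeries IntermediateField AlgebraicCurve ModularCurve Fermat.Agent.Igusa

namespace Fermat.Agent.SS

open Fermat.Agent.JA Fermat.Agent.FF

/-- `Ω = AlgebraicClosure ℚ`. -/
local notation "Ω" => AlgebraicClosure ℚ

/-- the absolute Galois group. -/
local notation "GQ" => (AlgebraicClosure ℚ ≃ₐ[ℚ] AlgebraicClosure ℚ)

section Inertia

variable {A : ValuationSubring Ω} {K₁ : IntermediateField ℚ Ω} [Normal ℚ ↥K₁] {σ : GQ}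
  [IsDiscreteValuationRing ↥(baseRing A K₁)] [IsFractionRing ↥(baseRing A K₁) ↥K₁]
  {E : IntermediateField ↥K₁ (LaurentSeries ↥K₁)} (hE : CoeffStable E)
  {hM : E ≤ gaussField ↥(baseRing A K₁) ↥K₁}

theorem resGal_algebraMap_baseRing (hσ : σ ∈ A.inertiaSubgroupIn ℚ) (r : ↥(baseRing A K₁)) :
    ((resGal K₁ σ : ↥K₁ ≃ₐ[ℚ] ↥K₁) : ↥K₁ →+* ↥K₁) (algebraMap ↥(baseRing A K₁) ↥K₁ r) =
      algebraMap ↥(baseRing A K₁) ↥K₁ ((baseRingAut (K₁ := K₁) hσ).toRingHom r) :=
  rfl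

/-- `σ̄` acts on the constants from `R₁` through `baseRingAut`. -/
theorem coeffRingAut_algebraMap_baseRing (hσ : σ ∈ A.inertiaSubgroupIn ℚ)
    (r : ↥(baseRing A K₁)) :
    coeffRingAut hE (resGal K₁ σ) (algebraMap ↥K₁ ↥E (algebraMap ↥(baseRing A K₁) ↥K₁ r)) =
      algebraMap ↥K₁ ↥E (algebraMap ↥(baseRing A K₁) ↥K₁ (baseRingAut hσ r)) := by
  rw [coeffRingAut_algebraMap]
  rfl

/-- `σ̄` maps the Gauss valuation subring into itself. -/
theorem coeffRingAut_mem_gaussValSub (hσ : σ ∈ A.inertiaSubgroupIn ℚ) {x : ↥E}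
    (hx : x ∈ gaussValSub ↥(baseRing A K₁) ↥K₁ E hM) :
    coeffRingAut hE (resGal K₁ σ) x ∈ gaussValSub ↥(baseRing A K₁) ↥K₁ E hM :=
  map_mem_gaussValSub (hM := hM) ((resGal K₁ σ : ↥K₁ ≃ₐ[ℚ] ↥K₁) : ↥K₁ →+* ↥K₁)
    (baseRingAut (K₁ := K₁) hσ).toRingHom
    (resGal_algebraMap_baseRing hσ) (baseRingAut_sub_mem_maximalIdeal hσ)
    (coeffRingAut hE (resGal K₁ σ) : ↥E →+* ↥E) (fun _ => rfl) hx

theorem coeffRingAut_inv_apply (x : ↥E) :
    coeffRingAut hE (resGal K₁ σ⁻¹) (coeffRingAut hE (resGal K₁ σ) x) = x := by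
  have h1 : coeffGalois hE (resGal K₁ σ⁻¹) * coeffGalois hE (resGal K₁ σ) = 1 := by
    rw [← map_mul, ← map_mul, inv_mul_cancel, map_one, map_one]
  have h2 := congrArg (fun g : SemilinearAut ↥K₁ ↥E => (SemilinearAut.toRingAut g) x) h1
  exact h2

/-- **`mem_inf`**: `σ̄` preserves the Gauss valuation subring. -/
theorem coeffRingAut_mem_gaussValSub_iff (hσ : σ ∈ A.inertiaSubgroupIn ℚ) (x : ↥E) :
    coeffRingAut hE (resGal K₁ σ) x ∈ gaussValSub ↥(baseRing A K₁) ↥K₁ E hM ↔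
      x ∈ gaussValSub ↥(baseRing A K₁) ↥K₁ E hM := by
  refine ⟨fun h => ?_, coeffRingAut_mem_gaussValSub hE hσ⟩
  have := coeffRingAut_mem_gaussValSub (hM := hM) hE (inv_mem hσ) h
  rwa [coeffRingAut_inv_apply] at this

/-- **`res_inf`**: `σ̄` is trivial on the residue field of the Gauss valuation subring. -/
theorem valuation_coeffRingAut_sub_lt_one (hσ : σ ∈ A.inertiaSubgroupIn ℚ) {x : ↥E}
    (hx : x ∈ gaussValSub ↥(baseRing A K₁) ↥K₁ E hM) :
    (gaussValSub ↥(baseRing A K₁) ↥K₁ E hM).valuation (coeffRingAut hE (resGal K₁ σ) x - x) < 1 :=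
  valuation_map_sub_lt_one (hM := hM) ((resGal K₁ σ : ↥K₁ ≃ₐ[ℚ] ↥K₁) : ↥K₁ →+* ↥K₁)
    (baseRingAut (K₁ := K₁) hσ).toRingHom
    (resGal_algebraMap_baseRing hσ) (baseRingAut_sub_mem_maximalIdeal hσ)
    (coeffRingAut hE (resGal K₁ σ) : ↥E →+* ↥E) (fun _ => rfl) hx

end Inertia

section Dilate

variable {K : Type*} [Field K] [Algebra ℚ K] {E₁ E₂ : IntermediateField K (LaurentSeries K)}
  (hE₁ : CoeffStable E₁) (hE₂ : CoeffStable E₂)

/-- the coefficientwise action commutes with the degeneracy maps `f ↦ f(x^q)`. -/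
theorem coeffRingAut_dilateAlgHom (q : ℕ) [NeZero q] (h : ∀ f ∈ E₁, qExpand K q f ∈ E₂)
    (τ : K ≃ₐ[ℚ] K) (f : ↥E₁) :
    coeffRingAut hE₂ τ (dilateAlgHom K q E₁ E₂ h f) =
      dilateAlgHom K q E₁ E₂ h (coeffRingAut hE₁ τ f) := by
  apply Subtype.ext
  show coeffMap (τ : K →+* K) (qExpand K q (f : LaurentSeries K)) =
    qExpand K q (coeffMap (τ : K →+* K) (f : LaurentSeries K))
  exact coeffMap_qExpand _ q _

/-- the coefficientwise action commutes with inclusions. -/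
theorem coeffRingAut_inclusion (hle : E₁ ≤ E₂) (τ : K ≃ₐ[ℚ] K) (f : ↥E₁) :
    coeffRingAut hE₂ τ (IntermediateField.inclusion hle f) =
      IntermediateField.inclusion hle (coeffRingAut hE₁ τ f) :=
  Subtype.ext rfl

end Dilate

end Fermat.Agent.SS
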