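/-
(SS-q) MODEL leaf [AUT] — helper1 — part 2: **automorphisms of a two-sheeted model** (abstract).

* `IsTwoSheet.mem_zero_iff_of_ringEquiv` : a ring automorphism `σ` of `E` fixing the coordinate,
  acting on `R` through `σR ≡ id mod π`, and preserving the sheet `W_∞`, preserves the sheet `W_0`
  (`W_0.comap σ` is an extension of the Gauss valuation, different from `W_∞`).
* `valuation_map_sub_lt_one_of_comm` : if moreover `σ ∘ B = B ∘ σ_M` for the degeneracy map
  `B : E_M → E_N` inducing an isomorphism on residue fields (`res_zero`), and `σ_M` is trivial on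
  the residue field of `V_M`, then `σ` is trivial on the residue field of `W_0`.
* `SSModel.modelAut` : the structure `SSModelAut` from these data.
-/
import Mathlib
import Fermat.Agent.SS.MODEL_helper7_Iface

set_option autoImplicit false
set_option linter.unusedSectionVars false
set_option linter.style.haveILetI false

namespace Fermat.Agent.SS

open Fermat.Agent.JA Polynomial

section Val

variable {E : Type*} [Field E]

/-- a ring endomorphism reflecting membership in `W` maps the maximal ideal of `W` into itself. -/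
theorem valuation_map_lt_one_of_reflects (W : ValuationSubring E) (σ : E →+* E)
    (hσ : ∀ x : E, σ x ∈ W → x ∈ W) {y : E} (hy : W.valuation y < 1) : W.valuation (σ y) < 1 := by
  by_cases hy0 : y = 0
  · rw [hy0, map_zero, map_zero]; exact zero_lt_one
  · have hσy0 : σ y ≠ 0 := (map_ne_zero σ).mpr hy0
    rw [TwoExt.val_lt_one_iff_inv_not_mem W hσy0, ← map_inv₀]
    rw [TwoExt.val_lt_one_iff_inv_not_mem W hy0] at hy
    exact fun h => hy (hσ _ h)

/-- a field embedding along which `W` contracts to `V` maps the maximal ideal of `V` into that of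
`W`. -/
theorem valuation_map_lt_one_of_comap {F : Type*} [Field F] (B : F →+* E)
    (V : ValuationSubring F) (W : ValuationSubring E) (hB : W.comap B = V) {c : F}
    (hc : V.valuation c < 1) : W.valuation (B c) < 1 := by
  by_cases hc0 : c = 0
  · rw [hc0, map_zero, map_zero]; exact zero_lt_one
  · have hBc0 : B c ≠ 0 := (map_ne_zero B).mpr hc0
    rw [TwoExt.val_lt_one_iff_inv_not_mem W hBc0, ← map_inv₀]
    rw [TwoExt.val_lt_one_iff_inv_not_mem V hc0, ← hB, ValuationSubring.mem_comap] at hc
    exact hc

/-- **triviality on the residue field of a sheet, transported along a degeneracy map**. -/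
theorem valuation_map_sub_lt_one_of_comm {F : Type*} [Field F] (B : F →+* E)
    (V : ValuationSubring F) (W : ValuationSubring E) (hB : W.comap B = V)
    (hres : ∀ x ∈ W, ∃ a ∈ V, W.valuation (x - B a) < 1)
    (σ : E →+* E) (hσ : ∀ x : E, σ x ∈ W → x ∈ W)
    (σF : F →+* F) (hcomm : ∀ a : F, σ (B a) = B (σF a))
    (hσF : ∀ a ∈ V, V.valuation (σF a - a) < 1) :
    ∀ x ∈ W, W.valuation (σ x - x) < 1 := by
  intro x hx
  obtain ⟨a, ha, hxa⟩ := hres x hx
  have h1 : W.valuation (σ (x - B a)) < 1 := valuation_map_lt_one_of_reflects W σ hσ hxa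
  have h2 : W.valuation (B (σF a - a)) < 1 := valuation_map_lt_one_of_comap B V W hB (hσF a ha)
  have h3 : W.valuation (-(x - B a)) < 1 := by rwa [Valuation.map_neg]
  have : σ x - x = σ (x - B a) + -(x - B a) + B (σF a - a) := by
    rw [map_sub, map_sub, hcomm]; ring
  rw [this]
  exact Valuation.map_add_lt _ (Valuation.map_add_lt _ h1 h3) h2

end Val

section Sheet

variable {R : Type*} [CommRing R] [IsDomain R] [IsDiscreteValuationRing R] [CharZero R]
  {K₁ : Type*} [Field K₁] [Algebra R K₁] [IsFractionRing R K₁]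
  {K : Type*} [Field K] [Algebra K₁ K] [Algebra R K] [IsScalarTower R K₁ K]
  {E : Type*} [Field E] [Algebra K E] [Algebra R E] [IsScalarTower R K E] [FiniteDimensional K E]
  {π : R} {u : K} {Winf W0 : ValuationSubring E}

omit [IsDomain R] [IsDiscreteValuationRing R] [CharZero R] [FiniteDimensional K E] in
/-- the action of a ring endomorphism of `E`, semilinear over `σR` on `R` and fixing the
coordinate, on polynomial expressions in the coordinate. -/
theorem map_algebraMap_aeval_eq (σ : E →+* E) (σR : R →+* R)
    (hσu : σ (algebraMap K E u) = algebraMap K E u)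
    (hσR : ∀ r : R, σ (algebraMap R E r) = algebraMap R E (σR r)) (f : R[X]) :
    σ (algebraMap K E (aeval u f)) = algebraMap K E (aeval u (f.map σR)) := by
  rw [← aeval_algebraMap_apply, ← aeval_algebraMap_apply, aeval_def, aeval_def, hom_eval₂, hσu,
    eval₂_map]
  congr 1
  exact RingHom.ext hσR

omit [IsDomain R] [IsDiscreteValuationRing R] [CharZero R] in
theorem C_dvd_map_iff (σR : R →+* R) (hres : ∀ r : R, σR r - r ∈ Ideal.span {π}) (f : R[X]) :
    C π ∣ f.map σR ↔ C π ∣ f := by
  rw [C_dvd_iff_dvd_coeff, C_dvd_iff_dvd_coeff]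
  refine forall_congr' fun i => ?_
  rw [coeff_map]
  have h := hres (f.coeff i)
  rw [Ideal.mem_span_singleton] at h
  constructor
  · intro h1
    have := dvd_sub h1 h
    rwa [sub_sub_cancel] at this
  · intro h1
    have := dvd_add h h1
    rwa [sub_add_cancel] at this

/-- **an automorphism preserving `W_∞` preserves `W_0`**. -/
theorem IsTwoSheet.mem_zero_iff_of_ringEquiv (h : IsTwoSheet π u Winf W0) (σ : E ≃+* E)
    (σR : R →+* R) (hσu : σ (algebraMap K E u) = algebraMap K E u)
    (hσR : ∀ r : R, σ (algebraMap R E r) = algebraMap R E (σR r))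
    (hres : ∀ r : R, σR r - r ∈ Ideal.span {π})
    (hinf : ∀ x : E, σ x ∈ Winf ↔ x ∈ Winf) :
    ∀ x : E, σ x ∈ W0 ↔ x ∈ W0 := by
  obtain ⟨g1, g2, g3⟩ := h.gauss_zero
  have hR0 : ∀ r : R, algebraMap R E r ∈ W0 := by
    intro r
    have := g1 (C r)
    rwa [aeval_C, ValuationSubring.mem_comap, ← IsScalarTower.algebraMap_apply] at this
  have hkey : ∀ f : R[X], σ (algebraMap K E (aeval u f)) =
      algebraMap K E (aeval u (f.map σR)) := fun f =>
    map_algebraMap_aeval_eq (u := u) (σ : E →+* E) σR hσu hσR f
  -- `W0.comap σ` restricts to the Gauss valuation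
  have hG : IsGaussAt R π u ((W0.comap (σ : E →+* E)).comap (algebraMap K E)) := by
    refine ⟨fun f => ?_, ?_, fun f hf => ?_⟩
    · rw [ValuationSubring.mem_comap, ValuationSubring.mem_comap, RingEquiv.coe_toRingHom, hkey]
      exact g1 _
    · intro hmem
      rw [ValuationSubring.mem_comap, ValuationSubring.mem_comap, map_inv₀, map_inv₀,
        ← IsScalarTower.algebraMap_apply] at hmem
      have hmem' : (algebraMap R E (σR π))⁻¹ ∈ W0 := by
        have := hσR π
        rw [RingEquiv.coe_toRingHom] at hmem
        rwa [this] at hmem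
      apply g2
      rw [ValuationSubring.mem_comap, map_inv₀, ← IsScalarTower.algebraMap_apply]
      have hπc := hres π
      rw [Ideal.mem_span_singleton] at hπc
      obtain ⟨c, hc⟩ := hπc
      have hσπ : σR π = π * (1 + c) := by rw [mul_add, mul_one, ← hc]; ring
      have hne : algebraMap R E (σR π) ≠ 0 := by
        rw [← hσR π]
        intro h0
        have h1 : algebraMap R E π = 0 := by
          have := (map_eq_zero_iff σ σ.injective).mp h0
          exact this
        apply g2
        rw [ValuationSubring.mem_comap, map_inv₀, ← IsScalarTower.algebraMap_apply, h1, inv_zero]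
        exact W0.zero_mem
      have hπ0 : algebraMap R E π ≠ 0 := by
        intro h0
        apply hne
        rw [hσπ, map_mul, h0, zero_mul]
      have : (algebraMap R E π)⁻¹ = algebraMap R E (1 + c) * (algebraMap R E (σR π))⁻¹ := by
        rw [hσπ, map_mul, mul_inv]
        have h1c : algebraMap R E (1 + c) ≠ 0 := by
          intro h0
          apply hne
          rw [hσπ, map_mul, h0, mul_zero]
        field_simp
      rw [this]
      exact W0.mul_mem _ _ (hR0 _) hmem'
    · rw [ValuationSubring.mem_comap, ValuationSubring.mem_comap, map_inv₀, map_inv₀,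
        RingEquiv.coe_toRingHom, hkey, ← map_inv₀, ← ValuationSubring.mem_comap]
      exact g3 _ (fun hd => hf ((C_dvd_map_iff σR hres f).mp hd))
  rcases h.only _ hG with h1 | h1
  · exfalso
    apply h.ne
    ext x
    obtain ⟨y, rfl⟩ := σ.surjective x
    have : y ∈ W0.comap (σ : E →+* E) ↔ y ∈ Winf := by rw [h1]
    rw [ValuationSubring.mem_comap, RingEquiv.coe_toRingHom] at this
    rw [hinf, this]
  · intro x
    have : x ∈ W0.comap (σ : E →+* E) ↔ x ∈ W0 := by rw [h1]
    rwa [ValuationSubring.mem_comap, RingEquiv.coe_toRingHom] at this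

end Sheet

section Model

variable {R : Type*} [CommRing R] [IsDomain R] [IsDiscreteValuationRing R] [CharZero R]
  {K₁ : Type*} [Field K₁] [Algebra R K₁] [IsFractionRing R K₁]
  {KM : Type*} [Field KM] [Algebra K₁ KM] [Algebra R KM] [IsScalarTower R K₁ KM]
  {EM : Type*} [Field EM] [Algebra KM EM] [Algebra K₁ EM] [IsScalarTower K₁ KM EM] [Algebra R EM]
  [IsScalarTower R KM EM]
  {KN : Type*} [Field KN] [Algebra K₁ KN] [Algebra R KN] [IsScalarTower R K₁ KN]
  {EN : Type*} [Field EN] [Algebra KN EN] [Algebra K₁ EN] [IsScalarTower K₁ KN EN] [Algebra R EN]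
  [IsScalarTower R KN EN] [FiniteDimensional KN EN]
  {π : R} {q n : ℕ} {S : Finset R} {t : KM} {jM : EM} {j : KN} {A B : EM →+* EN}
  {VM : ValuationSubring EM} {Winf W0 : ValuationSubring EN}

/-- **[AUT], abstract form**: a ring automorphism `σ` of `E_N`, semilinear over `σR ≡ id mod π` on
`R`, fixing `j`, preserving `W_∞` and trivial on its residue field, commuting with the degeneracy
map `B` and an endomorphism `σ_M` of `E_M` trivial on the residue field of `V_M`, is an
automorphism of the model. -/
theorem SSModel.modelAut (h : SSModel K₁ π q n S t jM j A B VM Winf W0) (σ : EN ≃+* EN)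
    (σR : R →+* R) (σM : EM →+* EM)
    (hσj : σ (algebraMap KN EN j) = algebraMap KN EN j)
    (hσR : ∀ r : R, σ (algebraMap R EN r) = algebraMap R EN (σR r))
    (hres : ∀ r : R, σR r - r ∈ Ideal.span {π})
    (hinf : ∀ x : EN, σ x ∈ Winf ↔ x ∈ Winf)
    (hinf_res : ∀ x : EN, x ∈ Winf → Winf.valuation (σ x - x) < 1)
    (hcomm : ∀ a : EM, σ (B a) = B (σM a))
    (hσM : ∀ a ∈ VM, VM.valuation (σM a - a) < 1) :
    SSModelAut π j Winf W0 (σ : EN →+* EN) := by
  have hzero := h.two.mem_zero_iff_of_ringEquiv σ σR hσj hσR hres hinf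
  refine ⟨hσj, fun r => ⟨σR r, hσR r, hres r⟩, fun x hx => (hinf x).mpr hx,
    fun x hx => (hzero x).mpr hx, hinf_res, ?_⟩
  exact valuation_map_sub_lt_one_of_comm B VM W0 h.comap_B_zero h.res_zero (σ : EN →+* EN)
    (fun x hx => (hzero x).mp hx) σM hcomm hσM

end Model

end Fermat.Agent.SS
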