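/-
(SS-q) [G-σ] — helper5 — **the Galois clause of GLUE** (`hσ₁`, `hσ₂`, `hτ₁`, `hτ₂` of helper3's
`kummer_inertia_pow_of_place`) from helper7's `SSModelAut`, and the `ε`-clause.

* `IsTwoSheet.mem_chartOne_of_pow_mul_mem` : Hartogs on a two-sheeted chart (an element of both
  sheets which is regular on the chart after multiplication by a power of `π` is regular);
* `map_mem_chartOne_of_ringHom` : a ring endomorphism of `E` fixing the coordinate and preserving
  the base maps the chart into itself;
* `IsTwoSheet.exists_eq_add_mul_of_ringHom` : such an endomorphism, trivial on the residue fields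
  of both sheets, is congruent to the identity modulo `π` on the chart;
* `SSModelAut.exists_eq_add_mul_one/_two` : the clauses for the charts `j`, `j⁻¹`;
* `exists_unit_pow_sub_mem_span` : every unit is an `m`-th power modulo `π` (residue field
  algebraically closed).
-/
import Fermat.Agent.SS.MODEL_helper7_Iface

set_option autoImplicit false
set_option linter.unusedSectionVars false
set_option linter.style.haveILetI false

namespace Fermat.Agent.SS

open Fermat.Agent.JA Polynomial

section RingHom

variable {R : Type*} [CommRing R]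
  {K : Type*} [Field K] [Algebra R K]
  {E : Type*} [Field E] [Algebra K E] [Algebra R E] [IsScalarTower R K E]

/-- a ring endomorphism of `E` fixing the coordinate and preserving the base maps the image of
`R[u]` into itself. -/
theorem exists_map_algebraMap_adjoin_eq (u : K) (σ : E →+* E)
    (hσu : σ (algebraMap K E u) = algebraMap K E u)
    (hσR : ∀ r : R, ∃ r' : R, σ (algebraMap R E r) = algebraMap R E r')
    (a : K) (ha : a ∈ Algebra.adjoin R {u}) :
    ∃ a' ∈ Algebra.adjoin R {u}, σ (algebraMap K E a) = algebraMap K E a' := by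
  induction ha using Algebra.adjoin_induction with
  | mem x hx =>
    rw [Set.mem_singleton_iff] at hx
    subst hx
    exact ⟨x, Algebra.self_mem_adjoin_singleton R x, hσu⟩
  | algebraMap r =>
    obtain ⟨r', hr'⟩ := hσR r
    refine ⟨algebraMap R K r', Subalgebra.algebraMap_mem _ r', ?_⟩
    rw [← IsScalarTower.algebraMap_apply, ← IsScalarTower.algebraMap_apply, hr']
  | add x y hx hy ihx ihy =>
    obtain ⟨x', hx', hxx⟩ := ihx
    obtain ⟨y', hy', hyy⟩ := ihy
    exact ⟨x' + y', Subalgebra.add_mem _ hx' hy', by rw [map_add, map_add, map_add, hxx, hyy]⟩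
  | mul x y hx hy ihx ihy =>
    obtain ⟨x', hx', hxx⟩ := ihx
    obtain ⟨y', hy', hyy⟩ := ihy
    exact ⟨x' * y', Subalgebra.mul_mem _ hx' hy', by rw [map_mul, map_mul, map_mul, hxx, hyy]⟩

/-- **a ring endomorphism of `E` fixing the coordinate `u` and preserving the base `R` maps the
chart of `u` into itself.** -/
theorem map_mem_chartOne_of_ringHom (u : K) (σ : E →+* E)
    (hσu : σ (algebraMap K E u) = algebraMap K E u)
    (hσR : ∀ r : R, ∃ r' : R, σ (algebraMap R E r) = algebraMap R E r')
    {x : E} (hx : x ∈ chartOne R E u) : σ x ∈ chartOne R E u := by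
  classical
  rw [mem_chartOne_iff] at hx ⊢
  have hex : ∀ a : ↥(Algebra.adjoin R {u}), ∃ a' : ↥(Algebra.adjoin R {u}),
      σ (algebraMap ↥(Algebra.adjoin R {u}) E a) = algebraMap ↥(Algebra.adjoin R {u}) E a' := by
    intro a
    obtain ⟨a', ha', h⟩ := exists_map_algebraMap_adjoin_eq u σ hσu hσR (a : K) a.2
    exact ⟨⟨a', ha'⟩, h⟩
  choose φ hφ using hex
  have hinj : Function.Injective (algebraMap ↥(Algebra.adjoin R {u}) E) := by
    intro a b hab
    exact Subtype.ext ((algebraMap K E).injective hab)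
  let φ' : ↥(Algebra.adjoin R {u}) →+* ↥(Algebra.adjoin R {u}) :=
    { toFun := φ
      map_one' := hinj (by rw [← hφ, map_one, map_one])
      map_mul' := fun a b => hinj (by rw [← hφ, map_mul, map_mul, map_mul, hφ, hφ])
      map_zero' := hinj (by rw [← hφ, map_zero, map_zero])
      map_add' := fun a b => hinj (by rw [← hφ, map_add, map_add, map_add, hφ, hφ]) }
  refine IsIntegral.map_of_comp_eq φ' σ ?_ hx
  ext a
  exact (hφ a).symm

end RingHom

section GSigma

variable {R : Type*} [CommRing R] [IsDomain R] [IsDiscreteValuationRing R] [CharZero R]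
  {K₁ : Type*} [Field K₁] [Algebra R K₁] [IsFractionRing R K₁]
  {K : Type*} [Field K] [Algebra K₁ K] [Algebra R K] [IsScalarTower R K₁ K]
  {E : Type*} [Field E] [Algebra K E] [Algebra R E] [IsScalarTower R K E] [FiniteDimensional K E]

variable {π : R} {u : K} {Winf W0 : ValuationSubring E}

/-- **Hartogs on a two-sheeted chart**: an element of `E` which lies in both sheets and becomes
regular on the chart after multiplication by a power of `π` is regular on the chart. -/
theorem IsTwoSheet.mem_chartOne_of_pow_mul_mem (h : IsTwoSheet π u Winf W0) (hπ : Irreducible π)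
    (hu : Transcendental K₁ u) (hK : IntermediateField.adjoin K₁ {u} = ⊤) (y : E) (n : ℕ)
    (hy : algebraMap R E π ^ n * y ∈ chartOne R E u) (h1 : y ∈ Winf) (h2 : y ∈ W0) :
    y ∈ chartOne R E u := by
  haveI : IsFractionRing ↥(chartOne R E u) E := isFractionRing_chartOne (K₁ := K₁) u hK
  haveI : IsIntegrallyClosed ↥(chartOne R E u) := isIntegrallyClosed_chartOne (K₁ := K₁) u hK
  haveI : IsNoetherianRing ↥(chartOne R E u) := isNoetherianRing_chartOne (K₁ := K₁) u hu hK
  have hπE : algebraMap R E π ≠ 0 := algebraMap_pi_ne_zero (K₁ := K₁) (K := K) hπ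
  have hx : y ∈ (algebraMap ↥(chartOne R E u) E).range := by
    apply mem_range_algebraMap_of_forall_height_one
    intro P hPprime hP
    haveI := hPprime
    by_cases hπP : algebraMap R ↥(chartOne R E u) π ∈ P
    · rcases h.eq_or_eq_of_height_one hπ hu hK P hP hπP with hP' | hP'
      · obtain ⟨r, s, hs, hrs⟩ := h.exists_mul_eq_of_mem_inf hπ hu hK _ h1
        exact ⟨r, s, hP' ▸ hs, hrs⟩
      · obtain ⟨r, s, hs, hrs⟩ := h.exists_mul_eq_of_mem_zero hπ hu hK _ h2
        exact ⟨r, s, hP' ▸ hs, hrs⟩
    · refine ⟨⟨_, hy⟩, algebraMap R ↥(chartOne R E u) π ^ n, ?_, ?_⟩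
      · intro hmem
        exact hπP (hPprime.mem_of_pow_mem n hmem)
      · change y * (algebraMap R E π) ^ n = algebraMap R E π ^ n * y
        exact mul_comm _ _
  obtain ⟨c, hc⟩ := hx
  have hc' : (c : E) = y := hc
  rw [← hc']
  exact c.2

/-- **the Galois clause on a two-sheeted chart**: a ring endomorphism of `E` fixing the coordinate,
preserving the base, and trivial on the residue fields of both sheets is congruent to the identity
modulo `π` on the chart. -/
theorem IsTwoSheet.exists_eq_add_mul_of_ringHom (h : IsTwoSheet π u Winf W0) (hπ : Irreducible π)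
    (hu : Transcendental K₁ u) (hK : IntermediateField.adjoin K₁ {u} = ⊤) (σ : E →+* E)
    (hσu : σ (algebraMap K E u) = algebraMap K E u)
    (hσR : ∀ r : R, ∃ r' : R, σ (algebraMap R E r) = algebraMap R E r')
    (hinf : ∀ x ∈ Winf, Winf.valuation (σ x - x) < 1)
    (hzero : ∀ x ∈ W0, W0.valuation (σ x - x) < 1) :
    ∀ x ∈ chartOne R E u, ∃ z ∈ chartOne R E u, σ x = x + algebraMap R E π * z := by
  intro x hx
  have hπE : algebraMap R E π ≠ 0 := algebraMap_pi_ne_zero (K₁ := K₁) (K := K) hπ
  have hσx : σ x ∈ chartOne R E u := map_mem_chartOne_of_ringHom u σ hσu hσR hx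
  have hmul : algebraMap R E π ^ 1 * ((σ x - x) * (algebraMap R E π)⁻¹) = σ x - x := by
    rw [pow_one, mul_comm, mul_assoc, inv_mul_cancel₀ hπE, mul_one]
  have hy : (σ x - x) * (algebraMap R E π)⁻¹ ∈ chartOne R E u := by
    refine h.mem_chartOne_of_pow_mul_mem hπ hu hK _ 1 ?_ ?_ ?_
    · rw [hmul]
      exact Subalgebra.sub_mem _ hσx hx
    · exact h.e_inf _ (hinf x (h.chart_le_inf x hx))
    · exact h.e_zero _ (hzero x (h.chart_le_zero x hx))
  refine ⟨_, hy, ?_⟩
  rw [pow_one] at hmul
  rw [hmul]
  ring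

end GSigma

section Aut

variable {R : Type*} [CommRing R] [IsDomain R] [IsDiscreteValuationRing R] [CharZero R]
  {K₁ : Type*} [Field K₁] [Algebra R K₁] [IsFractionRing R K₁]
  {KN : Type*} [Field KN] [Algebra K₁ KN] [Algebra R KN] [IsScalarTower R K₁ KN]
  {EN : Type*} [Field EN] [Algebra KN EN] [Algebra R EN] [IsScalarTower R KN EN]
  [FiniteDimensional KN EN]

variable {π : R} {j : KN} {Winf W0 : ValuationSubring EN} {σ : EN →+* EN}

/-- **[G-σ], chart `j`**: the clause `hσ₁` of GLUE from `SSModelAut`. -/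
theorem SSModelAut.exists_eq_add_mul_one (hσ : SSModelAut π j Winf W0 σ)
    (h : IsTwoSheet π j Winf W0) (hπ : Irreducible π)
    (hu : Transcendental K₁ j) (hK : IntermediateField.adjoin K₁ {j} = ⊤) :
    ∀ x ∈ chartOne R EN j, ∃ z ∈ chartOne R EN j, σ x = x + algebraMap R EN π * z :=
  h.exists_eq_add_mul_of_ringHom hπ hu hK σ hσ.map_j
    (fun r => (hσ.map_R r).imp fun _ hr => hr.1) hσ.res_inf hσ.res_zero

/-- **[G-σ], chart `j⁻¹`**: the clause `hσ₂` of GLUE from `SSModelAut`. -/
theorem SSModelAut.exists_eq_add_mul_two (hσ : SSModelAut π j Winf W0 σ)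
    (h : IsTwoSheet π j⁻¹ Winf W0) (hπ : Irreducible π)
    (hu : Transcendental K₁ j⁻¹) (hK : IntermediateField.adjoin K₁ {j⁻¹} = ⊤) :
    ∀ x ∈ chartOne R EN j⁻¹, ∃ z ∈ chartOne R EN j⁻¹, σ x = x + algebraMap R EN π * z :=
  h.exists_eq_add_mul_of_ringHom hπ hu hK σ (by rw [map_inv₀, map_inv₀, hσ.map_j])
    (fun r => (hσ.map_R r).imp fun _ hr => hr.1) hσ.res_inf hσ.res_zero

/-- **the `ε`-clause**: over a discrete valuation ring with algebraically closed residue field every
unit is an `m`-th power modulo `π`. -/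
theorem exists_unit_pow_sub_mem_span [IsAlgClosed (IsLocalRing.ResidueField R)]
    (hπ : Irreducible π) (ε : Rˣ) {m : ℕ} (hm : 0 < m) :
    ∃ c₀ : Rˣ, (ε : R) - (c₀ : R) ^ m ∈ Ideal.span {π} := by
  obtain ⟨cbar, hcbar⟩ := IsAlgClosed.exists_pow_nat_eq (IsLocalRing.residue R (ε : R)) hm
  obtain ⟨c, rfl⟩ := IsLocalRing.residue_surjective cbar
  have hεne : IsLocalRing.residue R (ε : R) ≠ 0 := by
    rw [Ne, IsLocalRing.residue_eq_zero_iff, IsLocalRing.mem_maximalIdeal, mem_nonunits_iff,
      not_not]
    exact ε.isUnit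
  have hc : IsUnit c := by
    by_contra hc
    have : IsLocalRing.residue R c = 0 := by
      rw [IsLocalRing.residue_eq_zero_iff, IsLocalRing.mem_maximalIdeal]
      exact hc
    rw [this, zero_pow hm.ne'] at hcbar
    exact hεne hcbar.symm
  refine ⟨hc.unit, ?_⟩
  rw [← hπ.maximalIdeal_eq, ← IsLocalRing.residue_eq_zero_iff, map_sub, map_pow, IsUnit.unit_spec,
    hcbar, sub_self]

end Aut

end Fermat.Agent.SS
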