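/-
(SS-q) [G-σ] — helper5 — **the abstract side in ONE theorem**: `SSModel` + two `SSModelAut` + the
model charts (`IsModelChart` on the charts `j`, `j⁻¹`; MODEL-EXPORT) + the `lc` data
⇒ the conclusion of GLUE-C (helper3's `kummer_inertia_pow_of_place`).

* `SSModel.kummer_inertia_pow_of_isModelChart` : the theorem, with the two `IsModelChart` and
  `IsTwoSheet π j⁻¹ Winf W0` as hypotheses (supplied by MODEL-EXPORT).
-/
import Fermat.Agent.SS.GSIGMA_helper5_Abs
import Fermat.Agent.SS.GLUE_helper3_C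

set_option autoImplicit false
set_option linter.unusedSectionVars false
set_option linter.style.haveILetI false

open AlgebraicCurve

namespace Fermat.Agent.SS

open Fermat.Agent.JA Polynomial

section Main

variable {R : Type*} [CommRing R] [IsDomain R] [IsDiscreteValuationRing R] [CharZero R]
  {K₁ : Type*} [Field K₁] [Algebra R K₁] [IsFractionRing R K₁]
  {KM : Type*} [Field KM] [Algebra K₁ KM] [Algebra R KM] [IsScalarTower R K₁ KM]
  {EM : Type*} [Field EM] [Algebra KM EM] [Algebra K₁ EM] [IsScalarTower K₁ KM EM] [Algebra R EM]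
  [IsScalarTower R KM EM]
  {KN : Type*} [Field KN] [Algebra K₁ KN] [Algebra R KN] [IsScalarTower R K₁ KN]
  {EN : Type*} [Field EN] [Algebra KN EN] [Algebra K₁ EN] [IsScalarTower K₁ KN EN] [Algebra R EN]
  [IsScalarTower R KN EN] [FiniteDimensional KN EN]

variable {π : R} {q n : ℕ} {S : Finset R} {t : KM} {jM : EM} {j : KN} {A B : EM →+* EN}
  {VM : ValuationSubring EM} {Winf W0 : ValuationSubring EN}

/-- **the abstract side of (SS-q)**: from the model data `SSModel`, the model charts on `j` and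
`j⁻¹`, two inertia automorphisms `σ`, `τ` (`SSModelAut`) with `τ π = ε π`, and the
leading-coefficient data, the second difference `σ (τ f / f) / (τ f / f)` of a function `f` whose
first difference has divisor divisible by `m` (supported on rational places) is an `m`-th power. -/
theorem SSModel.kummer_inertia_pow_of_isModelChart
    [IsAlgClosed (IsLocalRing.ResidueField R)]
    (h : SSModel K₁ π q n S t jM j A B VM Winf W0) (hπ : Irreducible π)
    (h2 : IsTwoSheet π j⁻¹ Winf W0)
    (hmod₁ : IsModelChart EN π (sheetIdeal j Winf h.two.chart_le_inf)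
      (sheetIdeal j W0 h.two.chart_le_zero))
    (hmod₂ : IsModelChart EN π (sheetIdeal j⁻¹ Winf h2.chart_le_inf)
      (sheetIdeal j⁻¹ W0 h2.chart_le_zero))
    {m : ℕ} (hm : 0 < m) (hmR : IsUnit (m : R)) (ζ : R) (hζ : IsPrimitiveRoot ζ m)
    (lc : ENˣ →* K₁ˣ) (hlc : ∀ c : K₁ˣ, lc (Units.map (algebraMap K₁ EN).toMonoidHom c) = c)
    (σ τ : EN →+* EN) (hσ : SSModelAut π j Winf W0 σ) (hτ : SSModelAut π j Winf W0 τ)
    (ε : Rˣ) (hε : τ (algebraMap R EN π) = algebraMap R EN ((ε : R) * π))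
    (f : EN) (hf : f ≠ 0)
    (hord : ∀ P : Place K₁ EN, P.ord (τ f / f) = 0 ∨
      (IsRationalPlace P ∧ (m : ℤ) ∣ P.ord (τ f / f)))
    (hlc1 : ∀ u : ENˣ, (u : EN) = σ (τ f / f) / (τ f / f) → lc u = 1) :
    ∃ u : EN, σ (τ f / f) / (τ f / f) = u ^ m := by
  have hu := h.j_transcendental
  have hK := h.j_adjoin
  have hu' := transcendental_inv_of_transcendental hu
  have hK' := adjoin_inv_eq_top hK
  obtain ⟨c₀, hc₀⟩ := exists_unit_pow_sub_mem_span hπ ε hm
  obtain ⟨hn1, hn1', -, -⟩ := h.two.not_le hπ hu hK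
  obtain ⟨hn2, hn2', -, -⟩ := h2.not_le hπ hu' hK'
  exact kummer_inertia_pow_of_place (K₁ := K₁) j hu hK π hπ hm hmR ζ hζ h.const lc hlc
    hmod₁ hn1' hn1 hmod₂ hn2' hn2 σ τ
    (hσ.exists_eq_add_mul_one h.two hπ hu hK) (hσ.exists_eq_add_mul_two h2 hπ hu' hK')
    (hτ.exists_eq_add_mul_one h.two hπ hu hK) (hτ.exists_eq_add_mul_two h2 hπ hu' hK')
    ε c₀ hε hc₀ f hf hord hlc1

end Main

end Fermat.Agent.SS
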