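/-
(SS-q) [G-σ] — helper5 — **the leading-coefficient character on a host** `E ⊂ L((x))`
(`lc`, `hlc`, `hlc1` of GLUE-C, helper3's `kummer_inertia_pow_of_place`).

* `leadingCoeff_div_laurent` : the leading coefficient of a quotient of Laurent series over a field;
* `hostLc E : (↥E)ˣ →* Lˣ` : the leading-coefficient character of an intermediate field
  `E` of `L((x)) / L`; `hostLc_algebraMap` (`hlc`);
* `hostLc_eq_one_of_coeffMap` (`hlc1`) : for ring endomorphisms `σ`, `τ` of `E` acting
  coefficientwise and `f` monic, `lc (σ (τ f / f) / (τ f / f)) = 1`.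
-/
import Mathlib
import Fermat.Prelude.Def_ModularCurve_LaurentCoeff
import Fermat.Agent.JA.BC_helper9_Desc

set_option autoImplicit false
set_option linter.unusedSectionVars false
set_option linter.style.haveILetI false

open ModularCurve

namespace Fermat.Agent.SS

open Fermat.Agent.JA

section Lc

variable {L : Type*} [Field L]

/-- the leading coefficient of a quotient of Laurent series over a field. -/
theorem leadingCoeff_div_laurent (x y : LaurentSeries L) :
    (x / y).leadingCoeff = x.leadingCoeff / y.leadingCoeff := by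
  by_cases hy : y = 0
  · subst hy
    rw [div_zero, HahnSeries.leadingCoeff_zero, div_zero]
  · have hy' : y.leadingCoeff ≠ 0 := HahnSeries.leadingCoeff_ne_zero.mpr hy
    rw [eq_div_iff hy', ← HahnSeries.leadingCoeff_mul, div_mul_cancel₀ _ hy]

variable (E : IntermediateField L (LaurentSeries L))

/-- **the leading-coefficient character** of a host `E ⊂ L((x))`. -/
noncomputable def hostLc : (↥E)ˣ →* Lˣ where
  toFun u := Units.mk0 (((u : ↥E) : LaurentSeries L).leadingCoeff)
    (HahnSeries.leadingCoeff_ne_zero.mpr (fun h => u.ne_zero (Subtype.ext h)))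
  map_one' := by
    apply Units.ext
    show ((((1 : (↥E)ˣ) : ↥E) : LaurentSeries L)).leadingCoeff = 1
    rw [Units.val_one, IntermediateField.coe_one, HahnSeries.leadingCoeff_one]
  map_mul' u v := by
    apply Units.ext
    show ((((u * v : (↥E)ˣ) : ↥E) : LaurentSeries L)).leadingCoeff =
      (((u : ↥E) : LaurentSeries L)).leadingCoeff * (((v : ↥E) : LaurentSeries L)).leadingCoeff
    rw [Units.val_mul, IntermediateField.coe_mul, HahnSeries.leadingCoeff_mul]

theorem coe_hostLc (u : (↥E)ˣ) :
    ((hostLc E u : Lˣ) : L) = (((u : ↥E) : LaurentSeries L)).leadingCoeff := rfl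

/-- `hlc` of GLUE-C: the character is the identity on the constants. -/
theorem hostLc_algebraMap (c : Lˣ) :
    hostLc E (Units.map (algebraMap L ↥E).toMonoidHom c) = c := by
  apply Units.ext
  rw [coe_hostLc]
  show ((algebraMap L ↥E (c : L) : ↥E) : LaurentSeries L).leadingCoeff = (c : L)
  rw [IntermediateField.coe_algebraMap_apply, algebraMap_laurentSeries_eq_single,
    HahnSeries.leadingCoeff_of_single]

variable {E}

/-- a ring endomorphism of `E` acting coefficientwise through an endomorphism of `L` commutes with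
the leading coefficient. -/
theorem leadingCoeff_map_of_coeffMap (σ : ↥E →+* ↥E) (s : L →+* L)
    (hσ : ∀ x : ↥E, ((σ x : ↥E) : LaurentSeries L) = coeffMap s (x : LaurentSeries L)) (x : ↥E) :
    ((σ x : ↥E) : LaurentSeries L).leadingCoeff = s ((x : LaurentSeries L).leadingCoeff) := by
  rw [hσ, leadingCoeff_coeffMap_of_injective s.injective]

/-- **`hlc1` of GLUE-C**: for `σ`, `τ` acting coefficientwise and `f` monic, the second difference
`σ (τ f / f) / (τ f / f)` is monic. -/
theorem hostLc_eq_one_of_coeffMap (σ τ : ↥E →+* ↥E) (s t : L →+* L)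
    (hσ : ∀ x : ↥E, ((σ x : ↥E) : LaurentSeries L) = coeffMap s (x : LaurentSeries L))
    (hτ : ∀ x : ↥E, ((τ x : ↥E) : LaurentSeries L) = coeffMap t (x : LaurentSeries L))
    (f : ↥E) (hf : ((f : ↥E) : LaurentSeries L).leadingCoeff = 1)
    (u : (↥E)ˣ) (hu : (u : ↥E) = σ (τ f / f) / (τ f / f)) : hostLc E u = 1 := by
  apply Units.ext
  rw [coe_hostLc, hu, Units.val_one]
  have h1 : ((τ f / f : ↥E) : LaurentSeries L).leadingCoeff = 1 := by
    rw [IntermediateField.coe_div, leadingCoeff_div_laurent, leadingCoeff_map_of_coeffMap τ t hτ, hf,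
      map_one, div_one]
  rw [IntermediateField.coe_div, leadingCoeff_div_laurent, leadingCoeff_map_of_coeffMap σ s hσ, h1,
    map_one, div_one]

end Lc

end Fermat.Agent.SS
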