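/-
(SS-q) — helper1 — **BASE, generic instantiation**: the conclusion of GLUE-C at a Galois base
`K₁ ⊂ Ω`, for the coefficientwise action of an inertia element on a coefficient-stable host
`E_N ⊂ K₁⸨x⸩`, from an abstract `SSModel` on the hosts `(E_M, E_N)` whose sheet `W_∞` (resp. `V_M`)
is the Gauss valuation subring, whose degeneracy map `B` is `f ↦ f(x^q)`, plus the model charts
(MODEL-EXPORT).  Everything else (`SSModelAut`, `ε`-clause, `lc` data, roots of unity,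
invertibility of `m`) is supplied here from IBASE / AUT / LC.

`LegKummerBase` / `HesKummerBase` (lead's `TOPB_lead_Iface`) are this theorem applied to
`legE` / `hesE` and helper7's concrete `SSModel`.
-/
import Mathlib
import Fermat.Agent.SS.GSIGMA_helper5_Main
import Fermat.Agent.SS.LC_helper5
import Fermat.Agent.SS.AUT_helper1_Host
import Fermat.Agent.SS.AUT_helper1_Sheet
import Fermat.Agent.JA.KEYBASE_helper8_Final

set_option autoImplicit false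
set_option linter.unusedSectionVars false
set_option linter.style.haveILetI false

open HahnSeries IntermediateField AlgebraicCurve ModularCurve Fermat.Agent.Igusa

namespace Fermat.Agent.SS

open Fermat.Agent.JA Fermat.Agent.FF

/-- `Ω = AlgebraicClosure ℚ`. -/
local notation "Ω" => AlgebraicClosure ℚ

/-- the absolute Galois group. -/
local notation "GQ" => (AlgebraicClosure ℚ ≃ₐ[ℚ] AlgebraicClosure ℚ)

section Eps

variable {A : ValuationSubring Ω} {K₁ : IntermediateField ℚ Ω} [Normal ℚ ↥K₁] {σ : GQ}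
  [IsDiscreteValuationRing ↥(baseRing A K₁)]

/-- **the `ε`-clause**: `σ̄ ϖ = ε ϖ` with `ε` a unit of `R₁`. -/
theorem exists_unit_baseRingAut_eq_mul (hσ : σ ∈ A.inertiaSubgroupIn ℚ) {ϖ : ↥(baseRing A K₁)}
    (hϖ : Irreducible ϖ) : ∃ ε : (↥(baseRing A K₁))ˣ, baseRingAut hσ ϖ = (ε : ↥(baseRing A K₁)) * ϖ := by
  obtain ⟨u, hu⟩ := associated_baseRingAut hσ hϖ
  refine ⟨u⁻¹, ?_⟩
  calc baseRingAut hσ ϖ = baseRingAut hσ ϖ * ((u : ↥(baseRing A K₁)) * ((u⁻¹ : (↥(baseRing A K₁))ˣ) :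
        ↥(baseRing A K₁))) := by rw [Units.mul_inv, mul_one]
    _ = (baseRingAut hσ ϖ * (u : ↥(baseRing A K₁))) * ((u⁻¹ : (↥(baseRing A K₁))ˣ) :
        ↥(baseRing A K₁)) := by ring
    _ = ((u⁻¹ : (↥(baseRing A K₁))ˣ) : ↥(baseRing A K₁)) * ϖ := by rw [hu, mul_comm]

end Eps

section Gen

variable {q : ℕ} [hq : Fact q.Prime] [NeZero q] {A : ValuationSubring Ω}
  {K₁ : IntermediateField ℚ Ω} [Normal ℚ ↥K₁]
  [IsDiscreteValuationRing ↥(baseRing A K₁)] [CharZero ↥(baseRing A K₁)]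
  [IsFractionRing ↥(baseRing A K₁) ↥K₁]
  {EMf ENf : IntermediateField ↥K₁ (LaurentSeries ↥K₁)}
  {KM : Type*} [Field KM] [Algebra ↥K₁ KM] [Algebra ↥(baseRing A K₁) KM]
  [IsScalarTower ↥(baseRing A K₁) ↥K₁ KM]
  [Algebra KM ↥EMf] [IsScalarTower ↥K₁ KM ↥EMf] [Algebra ↥(baseRing A K₁) ↥EMf]
  [IsScalarTower ↥(baseRing A K₁) KM ↥EMf]
  {KN : Type*} [Field KN] [Algebra ↥K₁ KN] [Algebra ↥(baseRing A K₁) KN]
  [IsScalarTower ↥(baseRing A K₁) ↥K₁ KN]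
  [Algebra KN ↥ENf] [IsScalarTower ↥K₁ KN ↥ENf] [Algebra ↥(baseRing A K₁) ↥ENf]
  [IsScalarTower ↥(baseRing A K₁) KN ↥ENf] [FiniteDimensional KN ↥ENf]

/-- **BASE, generic form.** -/
theorem kummer_base_of_ssModel (hA : A.LiesOverPrime q) (hK₁ : IsBase q K₁)
    (hEM : CoeffStable EMf) (hEN : CoeffStable ENf)
    (hMle : EMf ≤ gaussField ↥(baseRing A K₁) ↥K₁) (hNle : ENf ≤ gaussField ↥(baseRing A K₁) ↥K₁)
    {ϖ : ↥(baseRing A K₁)} (hϖ : Irreducible ϖ) {n : ℕ} {S : Finset ↥(baseRing A K₁)} {t : KM}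
    {jM : ↥EMf} {j : KN} {Ad Bd : ↥EMf →+* ↥ENf} {VM : ValuationSubring ↥EMf}
    {Winf W0 : ValuationSubring ↥ENf}
    (h : SSModel ↥K₁ ϖ q n S t jM j Ad Bd VM Winf W0)
    (hVM : VM = gaussValSub ↥(baseRing A K₁) ↥K₁ EMf hMle)
    (hWinf : Winf = gaussValSub ↥(baseRing A K₁) ↥K₁ ENf hNle)
    (hB : ∀ f : ↥EMf, ((Bd f : ↥ENf) : LaurentSeries ↥K₁) = qExpand ↥K₁ q (f : LaurentSeries ↥K₁))
    (hj : ∀ τ : ↥K₁ ≃ₐ[ℚ] ↥K₁, coeffRingAut hEN τ (algebraMap KN ↥ENf j) = algebraMap KN ↥ENf j)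
    (hR : ∀ r : ↥(baseRing A K₁), algebraMap ↥(baseRing A K₁) ↥ENf r =
      algebraMap ↥K₁ ↥ENf (algebraMap ↥(baseRing A K₁) ↥K₁ r))
    (h2 : IsTwoSheet ϖ j⁻¹ Winf W0)
    (hmod₁ : IsModelChart ↥ENf ϖ (sheetIdeal j Winf h.two.chart_le_inf)
      (sheetIdeal j W0 h.two.chart_le_zero))
    (hmod₂ : IsModelChart ↥ENf ϖ (sheetIdeal j⁻¹ Winf h2.chart_le_inf)
      (sheetIdeal j⁻¹ W0 h2.chart_le_zero))
    {σ : GQ} (hσ : σ ∈ A.inertiaSubgroupIn ℚ) {m : ℕ} (hm : 0 < m) (hqm : ¬ q ∣ m)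
    (f : ↥ENf) (hf : f ≠ 0) (hlead : ((f : ↥ENf) : LaurentSeries ↥K₁).leadingCoeff = 1)
    (hord : ∀ P : Place ↥K₁ ↥ENf,
      P.ord (coeffGalois hEN (resGal K₁ σ) • f / f) = 0 ∨
        (IsRationalPlace P ∧ (m : ℤ) ∣ P.ord (coeffGalois hEN (resGal K₁ σ) • f / f))) :
    ∃ u : ↥ENf,
      coeffGalois hEN (resGal K₁ σ) • (coeffGalois hEN (resGal K₁ σ) • f / f) /
        (coeffGalois hEN (resGal K₁ σ) • f / f) = u ^ m := by
  subst hVM hWinf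
  haveI := hK₁.isAlgClosed_residueField hA
  obtain ⟨ζ, hζ⟩ := hK₁.exists_isPrimitiveRoot_baseRing A hm hqm
  have hmR : IsUnit ((m : ℕ) : ↥(baseRing A K₁)) := isUnit_natCast_baseRing hA hqm
  -- the automorphism
  set σN : ↥ENf ≃+* ↥ENf := coeffRingAut hEN (resGal K₁ σ) with hσN
  set σM : ↥EMf ≃+* ↥EMf := coeffRingAut hEM (resGal K₁ σ) with hσM
  have hσR : ∀ r : ↥(baseRing A K₁), σN (algebraMap ↥(baseRing A K₁) ↥ENf r) =
      algebraMap ↥(baseRing A K₁) ↥ENf ((baseRingAut (K₁ := K₁) hσ).toRingHom r) := by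
    intro r
    rw [hR, hR]
    exact coeffRingAut_algebraMap_baseRing hEN hσ r
  have hres : ∀ r : ↥(baseRing A K₁),
      (baseRingAut (K₁ := K₁) hσ).toRingHom r - r ∈ Ideal.span {ϖ} := by
    intro r
    rw [← hϖ.maximalIdeal_eq]
    exact baseRingAut_sub_mem_maximalIdeal hσ r
  have haut : SSModelAut ϖ j (gaussValSub ↥(baseRing A K₁) ↥K₁ ENf hNle) W0
      (σN : ↥ENf →+* ↥ENf) := by
    refine h.modelAut σN (baseRingAut (K₁ := K₁) hσ).toRingHom (σM : ↥EMf →+* ↥EMf)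
      (hj _) hσR hres (fun x => coeffRingAut_mem_gaussValSub_iff hEN hσ x)
      (fun x hx => valuation_coeffRingAut_sub_lt_one hEN hσ hx) ?_
      (fun a ha => valuation_coeffRingAut_sub_lt_one hEM hσ ha)
    intro a
    apply Subtype.ext
    rw [hB]
    show coeffMap _ ((Bd a : ↥ENf) : LaurentSeries ↥K₁) = qExpand ↥K₁ q (coeffMap _ _)
    rw [hB, coeffMap_qExpand]
  -- the `ε`-clause
  obtain ⟨ε, hε⟩ := exists_unit_baseRingAut_eq_mul hσ hϖ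
  have hε' : (σN : ↥ENf →+* ↥ENf) (algebraMap ↥(baseRing A K₁) ↥ENf ϖ) =
      algebraMap ↥(baseRing A K₁) ↥ENf ((ε : ↥(baseRing A K₁)) * ϖ) := by
    rw [← hε]
    exact hσR ϖ
  -- the leading coefficient data
  have hcoe : ∀ x : ↥ENf, (((σN : ↥ENf →+* ↥ENf) x : ↥ENf) : LaurentSeries ↥K₁) =
      coeffMap ((resGal K₁ σ : ↥K₁ ≃ₐ[ℚ] ↥K₁) : ↥K₁ →+* ↥K₁) (x : LaurentSeries ↥K₁) :=
    fun _ => rfl
  exact h.kummer_inertia_pow_of_isModelChart hϖ h2 hmod₁ hmod₂ hm hmR ζ hζ (hostLc ENf)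
    (hostLc_algebraMap ENf) (σN : ↥ENf →+* ↥ENf) (σN : ↥ENf →+* ↥ENf) haut haut ε hε' f hf hord
    (hostLc_eq_one_of_coeffMap _ _ _ _ hcoe hcoe f hlead)

end Gen

end Fermat.Agent.SS
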