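/-
(SS-q) MODEL-EXPORT — helper4 — part 2: **comparison of charts in the local currency**.
* generic chart tools: `chartOne` is integrally closed in `E`, is contained in every valuation
  subring containing `R` and the coordinate, does not depend on the field in which the coordinate
  lives (`chartOne_algebraMap_eq`), transport under ring automorphisms of `E`;
* `locRing_chartOne_inv_eq` : the charts `u`, `u⁻¹` have the same local rings at corresponding
  closed points where `u⁻¹` does not vanish;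
* `cusp_locRing_eq` : the charts `x`, `y` have the same local rings at corresponding points where
  `x` vanishes, when `x⁻¹`, `y⁻¹` are integral over each other (`x = j⁻¹`, `y = j_q⁻¹`);
* transport of the local currency under a ring automorphism of `E`.
-/
import Mathlib
import Fermat.Agent.SS.EXPORT_helper4_Loc

set_option autoImplicit false
set_option linter.unusedSectionVars false
set_option linter.style.haveILetI false

namespace Fermat.Agent.SS

open Fermat.Agent.JA Polynomial

section ChartTools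

variable {R : Type*} [CommRing R] {K : Type*} [Field K] [Algebra R K]
  {E : Type*} [Field E] [Algebra K E] [Algebra R E] [IsScalarTower R K E]

/-- a valuation subring containing `R` and the coordinate contains `R[t]`. -/
theorem adjoin_algebraMap_mem_valuationSubring (t : K) (V : ValuationSubring E)
    (hR : ∀ r : R, algebraMap R E r ∈ V) (ht : algebraMap K E t ∈ V)
    (a : ↥(Algebra.adjoin R {t})) : algebraMap ↥(Algebra.adjoin R {t}) E a ∈ V := by
  obtain ⟨a, ha⟩ := a
  rw [Algebra.adjoin_singleton_eq_range_aeval] at ha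
  obtain ⟨f, rfl⟩ := ha
  show algebraMap K E (aeval t f) ∈ V
  rw [← Polynomial.aeval_algebraMap_apply, aeval_eq_sum_range]
  refine Subring.sum_mem V.toSubring (fun i _ => ?_)
  rw [Algebra.smul_def]
  exact V.mul_mem _ _ (hR _) (pow_mem ht i)

/-- a valuation subring containing `R` and the coordinate contains the chart. -/
theorem chartOne_le_valuationSubring (t : K) (V : ValuationSubring E)
    (hR : ∀ r : R, algebraMap R E r ∈ V) (ht : algebraMap K E t ∈ V) :
    ∀ b ∈ chartOne R E t, b ∈ V := by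
  intro b hb
  rw [mem_chartOne_iff] at hb
  rw [← ValuationSubring.valuation_le_one_iff]
  refine val_le_one_of_isIntegral V.valuation (fun a => ?_) hb
  rw [ValuationSubring.valuation_le_one_iff]
  exact adjoin_algebraMap_mem_valuationSubring t V hR ht a

/-- the chart is integrally closed in `E`. -/
theorem mem_chartOne_of_isIntegral (t : K) (e : E) (he : IsIntegral ↥(chartOne R E t) e) :
    e ∈ chartOne R E t := by
  rw [mem_chartOne_iff]
  exact isIntegral_trans (A := ↥(integralClosure ↥(Algebra.adjoin R {t}) E)) e he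

/-- the chart does not depend on the field in which the coordinate lives. -/
theorem chartOne_algebraMap_eq (t : K) :
    chartOne R E (algebraMap K E t : E) = chartOne R E t := by
  -- the ring isomorphism `R[t] ≃ R[algebraMap t]`
  have hmem : ∀ a : ↥(Algebra.adjoin R {t}),
      algebraMap K E (a : K) ∈ Algebra.adjoin R {(algebraMap K E t : E)} := by
    intro a
    have h1 : (Algebra.adjoin R {t}).map (IsScalarTower.toAlgHom R K E) =
        Algebra.adjoin R {(algebraMap K E t : E)} := by
      rw [AlgHom.map_adjoin, Set.image_singleton]; rfl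
    rw [← h1]
    exact ⟨a, a.2, rfl⟩
  let φ : ↥(Algebra.adjoin R {t}) →+* ↥(Algebra.adjoin R {(algebraMap K E t : E)}) :=
    { toFun := fun a => ⟨algebraMap K E (a : K), hmem a⟩
      map_one' := Subtype.ext (by simp)
      map_mul' := fun a b => Subtype.ext (by simp)
      map_zero' := Subtype.ext (by simp)
      map_add' := fun a b => Subtype.ext (by simp) }
  have hφ : Function.Bijective φ := by
    constructor
    · intro a b hab
      have := congrArg Subtype.val hab
      exact Subtype.ext ((algebraMap K E).injective this)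
    · rintro ⟨b, hb⟩
      have h1 : (Algebra.adjoin R {t}).map (IsScalarTower.toAlgHom R K E) =
          Algebra.adjoin R {(algebraMap K E t : E)} := by
        rw [AlgHom.map_adjoin, Set.image_singleton]; rfl
      rw [← h1] at hb
      obtain ⟨a, ha, rfl⟩ := hb
      exact ⟨⟨a, ha⟩, rfl⟩
  let ψ := RingEquiv.ofBijective φ hφ
  ext e
  rw [mem_chartOne_iff, mem_chartOne_iff]
  constructor
  · intro he
    have := IsIntegral.map_of_comp_eq (ψ.symm : _ →+* ↥(Algebra.adjoin R {t})) (RingHom.id E)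
      (by
        ext a
        obtain ⟨b, rfl⟩ := ψ.surjective a
        simp only [RingHom.coe_comp, RingHom.coe_coe, Function.comp_apply,
          RingEquiv.symm_apply_apply, RingHom.id_comp]
        rfl) he
    simpa using this
  · intro he
    have := IsIntegral.map_of_comp_eq (φ : _ →+* _) (RingHom.id E)
      (by ext a; rfl) he
    simpa using this

/-- ring automorphisms of `E` fixing `R` transport the charts. -/
theorem mem_chartOne_map_iff (σ : E ≃+* E) (hσR : ∀ r : R, σ (algebraMap R E r) = algebraMap R E r)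
    (y e : E) : σ e ∈ chartOne R E (σ y : E) ↔ e ∈ chartOne R E (y : E) := by
  have key : ∀ (τ : E ≃+* E) (_ : ∀ r : R, τ (algebraMap R E r) = algebraMap R E r) (y e : E),
      e ∈ chartOne R E (y : E) → τ e ∈ chartOne R E (τ y : E) := by
    intro τ hτR y e he
    rw [mem_chartOne_iff] at he ⊢
    let τa : E →ₐ[R] E := { (τ : E →+* E) with commutes' := hτR }
    have hmem : ∀ a : ↥(Algebra.adjoin R {y}), τ (a : E) ∈ Algebra.adjoin R {(τ y : E)} := by
      intro a
      have h1 : (Algebra.adjoin R {y}).map τa = Algebra.adjoin R {(τ y : E)} := by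
        rw [AlgHom.map_adjoin, Set.image_singleton]; rfl
      rw [← h1]
      exact ⟨a, a.2, rfl⟩
    let φ : ↥(Algebra.adjoin R {y}) →+* ↥(Algebra.adjoin R {(τ y : E)}) :=
      { toFun := fun a => ⟨τ (a : E), hmem a⟩
        map_one' := Subtype.ext (by simp)
        map_mul' := fun a b => Subtype.ext (by simp)
        map_zero' := Subtype.ext (by simp)
        map_add' := fun a b => Subtype.ext (by simp) }
    exact IsIntegral.map_of_comp_eq φ (τ : E →+* E) (by ext a; rfl) he
  constructor
  · intro h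
    have := key σ.symm (fun r => by rw [RingEquiv.symm_apply_eq, hσR r]) (σ y) (σ e) h
    simpa using this
  · exact key σ hσR y e

end ChartTools

section NonCusp

variable {R : Type*} [CommRing R] [IsDomain R] {K : Type*} [Field K] [Algebra R K]
  {E : Type*} [Field E] [Algebra K E] [Algebra R E] [IsScalarTower R K E]

/-- the first chart lies in the local rings of the second chart at the points where `u⁻¹` does not
vanish. -/
theorem chartOne_le_locRing_inv (u : K) (hu0 : u ≠ 0) (𝔪₂ : Ideal ↥(chartOne R E u⁻¹))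
    [h𝔪₂ : 𝔪₂.IsPrime]
    (hx : (⟨algebraMap K E u⁻¹, algebraMap_coord_mem_chartOne u⁻¹⟩ : ↥(chartOne R E u⁻¹)) ∉ 𝔪₂) :
    chartOne R E u ≤ locRing (chartOne R E u⁻¹) 𝔪₂ := by
  intro b hb
  obtain ⟨n, hn⟩ := exists_inv_pow_mul_mem_chartOne_inv u hu0 hb
  refine ⟨⟨_, hn⟩, (⟨algebraMap K E u⁻¹, algebraMap_coord_mem_chartOne u⁻¹⟩ :
    ↥(chartOne R E u⁻¹)) ^ n, fun h => hx (h𝔪₂.mem_of_pow_mem n h), ?_⟩
  show b * (algebraMap K E u⁻¹) ^ n = (algebraMap K E u)⁻¹ ^ n * b
  rw [map_inv₀, mul_comm]

/-- **the charts `u` and `u⁻¹` have the same local rings at corresponding points where `u⁻¹` does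
not vanish.** -/
theorem locRing_chartOne_inv_eq (u : K) (hu0 : u ≠ 0) (𝔪₂ : Ideal ↥(chartOne R E u⁻¹))
    [h𝔪₂ : 𝔪₂.IsPrime]
    (hx : (⟨algebraMap K E u⁻¹, algebraMap_coord_mem_chartOne u⁻¹⟩ : ↥(chartOne R E u⁻¹)) ∉ 𝔪₂) :
    locRing (chartOne R E u) (locComap (chartOne R E u⁻¹) 𝔪₂ (chartOne R E u)
        (chartOne_le_locRing_inv u hu0 𝔪₂ hx)) = locRing (chartOne R E u⁻¹) 𝔪₂ ∧
      locMax (chartOne R E u) (locComap (chartOne R E u⁻¹) 𝔪₂ (chartOne R E u)
        (chartOne_le_locRing_inv u hu0 𝔪₂ hx)) = locMax (chartOne R E u⁻¹) 𝔪₂ := by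
  have hTE : algebraMap K E u ≠ 0 := by rw [Ne, map_eq_zero]; exact hu0
  refine locRing_eq_of_le 𝔪₂ _ (chartOne_le_locRing_inv u hu0 𝔪₂ hx) ?_ (fun b' => Iff.rfl)
  intro b hb
  obtain ⟨n, hn⟩ := chartOne_inv_le_chartMid u hu0 hb
  refine ⟨⟨_, hn⟩, (⟨algebraMap K E u, algebraMap_coord_mem_chartOne u⟩ : ↥(chartOne R E u)) ^ n,
    fun h => ?_, ?_⟩
  · have h1 := (locComap_isPrime (B := chartOne R E u⁻¹) (𝔪 := 𝔪₂)
      (chartOne_le_locRing_inv u hu0 𝔪₂ hx)).mem_of_pow_mem n h
    obtain ⟨r, s, hr, hs, hrs⟩ := h1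
    apply hs
    have h2 : s = (⟨algebraMap K E u⁻¹, algebraMap_coord_mem_chartOne u⁻¹⟩ :
        ↥(chartOne R E u⁻¹)) * r := by
      apply Subtype.ext
      show (s : E) = algebraMap K E u⁻¹ * (r : E)
      rw [← hrs, map_inv₀, ← mul_assoc, inv_mul_cancel₀ hTE, one_mul]
    rw [h2]
    exact 𝔪₂.mul_mem_left _ hr
  · show b * (algebraMap K E u) ^ n = algebraMap K E u ^ n * b
    rw [mul_comm]

end NonCusp

section Cusp

variable {R : Type*} [CommRing R] {K : Type*} [Field K] [Algebra R K]
  {K' : Type*} [Field K'] [Algebra R K']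
  {E : Type*} [Field E] [Algebra K E] [Algebra K' E] [Algebra R E] [IsScalarTower R K E]
  [IsScalarTower R K' E]

/-- if `ξ⁻¹` is integral over `R[η⁻¹]`, a valuation subring containing `R` in which `ξ` is a
non-unit has `η` as a non-unit. -/
theorem valuation_lt_one_of_isIntegral_inv {ξ η : E} (hξ0 : ξ ≠ 0)
    (h : IsIntegral ↥(Algebra.adjoin R {η⁻¹}) ξ⁻¹) (V : ValuationSubring E)
    (hR : ∀ r : R, algebraMap R E r ∈ V) (hξ : V.valuation ξ < 1) : V.valuation η < 1 := by
  by_cases hη0 : η = 0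
  · rw [hη0, map_zero]; exact zero_lt_one
  rw [TwoExt.val_lt_one_iff_inv_not_mem V hη0]
  intro hηV
  have h1 : ξ⁻¹ ∈ V :=
    chartOne_le_valuationSubring (R := R) (K := E) (E := E) (η⁻¹ : E) V hR hηV ξ⁻¹ h
  exact (TwoExt.val_lt_one_iff_inv_not_mem V hξ0).mp hξ h1

/-- **the charts `x`, `y` have the same local rings at corresponding points where `x` vanishes**,
when `x⁻¹` and `y⁻¹` are integral over each other. -/
theorem cusp_locRing_eq (x : K) (y : K') (hx0 : algebraMap K E x ≠ 0)
    (hy0 : algebraMap K' E y ≠ 0)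
    (h1 : IsIntegral ↥(Algebra.adjoin R {(algebraMap K E x)⁻¹}) (algebraMap K' E y)⁻¹)
    (h2 : IsIntegral ↥(Algebra.adjoin R {(algebraMap K' E y)⁻¹}) (algebraMap K E x)⁻¹)
    (𝔪 : Ideal ↥(chartOne R E x)) [h𝔪 : 𝔪.IsPrime]
    (hx𝔪 : (⟨algebraMap K E x, algebraMap_coord_mem_chartOne x⟩ : ↥(chartOne R E x)) ∈ 𝔪) :
    ∃ hle : chartOne R E y ≤ locRing (chartOne R E x) 𝔪,
      (⟨algebraMap K' E y, algebraMap_coord_mem_chartOne y⟩ : ↥(chartOne R E y)) ∈
          locComap (chartOne R E x) 𝔪 (chartOne R E y) hle ∧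
        locRing (chartOne R E y) (locComap (chartOne R E x) 𝔪 (chartOne R E y) hle) =
          locRing (chartOne R E x) 𝔪 ∧
        locMax (chartOne R E y) (locComap (chartOne R E x) 𝔪 (chartOne R E y) hle) =
          locMax (chartOne R E x) 𝔪 := by
  have hRx : ∀ (V : ValuationSubring E), (∀ b ∈ chartOne R E x, b ∈ V) →
      ∀ r : R, algebraMap R E r ∈ V := fun V hV r => hV _ ((chartOne R E x).algebraMap_mem r)
  have hRy : ∀ (V : ValuationSubring E), (∀ b ∈ chartOne R E y, b ∈ V) →
      ∀ r : R, algebraMap R E r ∈ V := fun V hV r => hV _ ((chartOne R E y).algebraMap_mem r)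
  -- valuation subrings centred at `𝔪` have `y` as a non-unit
  have hVy : ∀ V : ValuationSubring E, (∀ b ∈ chartOne R E x, b ∈ V) →
      (∀ b : ↥(chartOne R E x), b ∈ 𝔪 → V.valuation (b : E) < 1) →
      V.valuation (algebraMap K' E y) < 1 := fun V hV1 hV2 =>
    valuation_lt_one_of_isIntegral_inv hx0 h2 V (hRx V hV1) (hV2 _ hx𝔪)
  have hle : chartOne R E y ≤ locRing (chartOne R E x) 𝔪 := by
    intro b hb
    refine mem_locRing_of_forall_valuationSubring (mem_chartOne_of_isIntegral x) b
      (fun V hV1 hV2 => ?_)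
    exact chartOne_le_valuationSubring y V (hRx V hV1)
      ((ValuationSubring.valuation_le_one_iff _ _).mp (hVy V hV1 hV2).le) b hb
  have hy𝔪 : (algebraMap K' E y) ∈ locMax (chartOne R E x) 𝔪 :=
    mem_locMax_of_forall_valuationSubring (mem_chartOne_of_isIntegral x) _ hVy
  refine ⟨hle, hy𝔪, ?_⟩
  refine locRing_eq_of_le 𝔪 _ hle ?_ (fun b' => Iff.rfl)
  intro b hb
  refine mem_locRing_of_forall_valuationSubring (mem_chartOne_of_isIntegral y) b
    (fun V hV1 hV2 => ?_)
  have h3 : V.valuation (algebraMap K E x) < 1 :=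
    valuation_lt_one_of_isIntegral_inv hy0 h1 V (hRy V hV1)
      (hV2 ⟨algebraMap K' E y, algebraMap_coord_mem_chartOne y⟩ hy𝔪)
  exact chartOne_le_valuationSubring x V (hRy V hV1)
    ((ValuationSubring.valuation_le_one_iff _ _).mp h3.le) b hb

end Cusp

section Transport

variable {R : Type*} [CommRing R] {E : Type*} [Field E] [Algebra R E]

/-- the ring homomorphism between two subalgebras of `E` induced by a ring endomorphism of `E`. -/
def transportHom (τ : E →+* E) (B B' : Subalgebra R E) (h : ∀ e ∈ B, τ e ∈ B') : ↥B →+* ↥B' where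
  toFun x := ⟨τ x, h x x.2⟩
  map_one' := Subtype.ext (map_one τ)
  map_mul' x y := Subtype.ext (map_mul τ (x : E) (y : E))
  map_zero' := Subtype.ext (map_zero τ)
  map_add' x y := Subtype.ext (map_add τ (x : E) (y : E))

theorem coe_transportHom (τ : E →+* E) (B B' : Subalgebra R E) (h : ∀ e ∈ B, τ e ∈ B') (x : ↥B) :
    ((transportHom τ B B' h x : ↥B') : E) = τ (x : E) := rfl

theorem transportHom_surjective (σ : E ≃+* E) {B B' : Subalgebra R E}
    (hσB : ∀ e, σ e ∈ B' ↔ e ∈ B) :
    Function.Surjective (transportHom (σ : E →+* E) B B' (fun e he => (hσB e).mpr he)) := by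
  rintro ⟨b', hb'⟩
  refine ⟨⟨σ.symm b', (hσB _).mp (by rw [RingEquiv.apply_symm_apply]; exact hb')⟩, ?_⟩
  apply Subtype.ext
  show σ (σ.symm b') = b'
  rw [RingEquiv.apply_symm_apply]

/-- transport of the local ring and its maximal ideal under a ring automorphism of `E`. -/
theorem locRing_transport (σ : E ≃+* E) {B B' : Subalgebra R E} (hσB : ∀ e, σ e ∈ B' ↔ e ∈ B)
    (𝔪' : Ideal ↥B') [h𝔪' : 𝔪'.IsPrime] :
    (∀ e, σ e ∈ locRing B' 𝔪' ↔
      e ∈ locRing B (𝔪'.comap (transportHom (σ : E →+* E) B B' (fun e he => (hσB e).mpr he)))) ∧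
    (∀ e, σ e ∈ locMax B' 𝔪' ↔
      e ∈ locMax B (𝔪'.comap (transportHom (σ : E →+* E) B B' (fun e he => (hσB e).mpr he)))) := by
  set f := transportHom (σ : E →+* E) B B' (fun e he => (hσB e).mpr he) with hf
  have hsurj := transportHom_surjective σ hσB
  constructor
  · intro e
    constructor
    · rintro ⟨r', s', hs', hrs'⟩
      obtain ⟨r, rfl⟩ := hsurj r'
      obtain ⟨s, rfl⟩ := hsurj s'
      refine ⟨r, s, hs', ?_⟩
      apply σ.injective
      rw [map_mul]
      exact hrs'
    · rintro ⟨r, s, hs, hrs⟩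
      refine ⟨f r, f s, hs, ?_⟩
      show σ e * σ (s : E) = σ (r : E)
      rw [← map_mul, hrs]
  · intro e
    constructor
    · rintro ⟨r', s', hr', hs', hrs'⟩
      obtain ⟨r, rfl⟩ := hsurj r'
      obtain ⟨s, rfl⟩ := hsurj s'
      refine ⟨r, s, hr', hs', ?_⟩
      apply σ.injective
      rw [map_mul]
      exact hrs'
    · rintro ⟨r, s, hr, hs, hrs⟩
      refine ⟨f r, f s, hr, hs, ?_⟩
      show σ e * σ (s : E) = σ (r : E)
      rw [← map_mul, hrs]

/-- the valuation of the image valuation subring. -/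
theorem valuation_lt_one_map_iff (σ : E ≃+* E) {W W' : ValuationSubring E}
    (hW : ∀ e, σ e ∈ W' ↔ e ∈ W) (e : E) : W'.valuation (σ e) < 1 ↔ W.valuation e < 1 := by
  by_cases he0 : e = 0
  · simp [he0]
  have hσe0 : σ e ≠ 0 := fun h => he0 (by rwa [map_eq_zero_iff σ σ.injective] at h)
  rw [TwoExt.val_lt_one_iff_inv_not_mem W' hσe0, TwoExt.val_lt_one_iff_inv_not_mem W he0,
    ← map_inv₀, hW]

/-- transport of local branch uniformizers under a ring automorphism of `E`. -/
theorem IsLocBranch.map (σ : E ≃+* E) {W W' : ValuationSubring E} (hW : ∀ e, σ e ∈ W' ↔ e ∈ W)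
    {L L' : Subalgebra R E} (hL : ∀ e, σ e ∈ L' ↔ e ∈ L) {M M' : Set E}
    (hM : ∀ e, σ e ∈ M' ↔ e ∈ M) {ζ : E} (h : IsLocBranch W L M ζ) :
    IsLocBranch W' L' M' (σ ζ) := by
  refine ⟨(hM ζ).mpr h.mem, fun hv => h.val ((valuation_lt_one_map_iff σ hW ζ).mp hv), ?_⟩
  intro w' hw'
  obtain ⟨w, rfl⟩ := σ.surjective w'
  obtain ⟨α, hα, hαv⟩ := h.gen w ((hM w).mp hw')
  refine ⟨σ α, (hL α).mpr hα, ?_⟩
  rw [← map_mul, ← map_sub]
  exact (valuation_lt_one_map_iff σ hW _).mpr hαv

end Transport

end Fermat.Agent.SS
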