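/-
(SS-q) package SS-KUM — helper3 — part 12: **plug forms**.
* `kummer_inertia_pow'` : the final theorem without hypothesis (M3) (which is automatic);
* `chartOne_reduced_of_unramified` : hypothesis (M2) (reduced special fibre) from "`π` generates
  the maximal ideal of the local ring of every prime of height one containing `π`";
* `closed_datum_div_unit` : clause (b) is stable under division by a unit of `R`.
-/
import Fermat.Agent.SS.KUM_helper3_Coord

set_option autoImplicit false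
set_option linter.unusedSectionVars false
set_option linter.style.haveILetI false

namespace Fermat.Agent.SS

open Fermat.Agent.JA Polynomial

section Plug

variable {R : Type*} [CommRing R] [IsDomain R] [IsIntegrallyClosed R] [IsNoetherianRing R]
  [CharZero R] {K₁ : Type*} [Field K₁] [Algebra R K₁]
  [IsFractionRing R K₁] {K : Type*} [Field K] [Algebra K₁ K] [Algebra R K] [IsScalarTower R K₁ K]
  {F : Type*} [Field F] [Algebra K F] [Algebra K₁ F] [IsScalarTower K₁ K F] [Algebra R F]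
  [IsScalarTower R K F] [FiniteDimensional K F]

/-- **SS-KUM, final theorem (no (M3)).** -/
theorem kummer_inertia_pow'
    (t : K) (ht : Transcendental K₁ t) (hK : IntermediateField.adjoin K₁ {t} = ⊤)
    (π : R) (hπ : Prime π) {m : ℕ} (hm : 0 < m) (hmR : IsUnit (m : R)) (ζ : R)
    (hζ : IsPrimitiveRoot ζ m)
    (hM4 : ∀ x : F, IsAlgebraic K₁ x → x ∈ Set.range (algebraMap K₁ F))
    (lc : Fˣ →* K₁ˣ) (hlc : ∀ c : K₁ˣ, lc (Units.map (algebraMap K₁ F).toMonoidHom c) = c)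
    (hRED₁ : ∀ x ∈ chartOne R F t, ∀ (N : ℕ), ∀ y ∈ chartOne R F t,
      x ^ N = algebraMap R F π * y → ∃ z ∈ chartOne R F t, x = algebraMap R F π * z)
    (hRED₂ : ∀ x ∈ chartOne R F t⁻¹, ∀ (N : ℕ), ∀ y ∈ chartOne R F t⁻¹,
      x ^ N = algebraMap R F π * y → ∃ z ∈ chartOne R F t⁻¹, x = algebraMap R F π * z)
    (σ : F →+* F)
    (hσ₁ : ∀ x ∈ chartOne R F t, ∃ z ∈ chartOne R F t, σ x = x + algebraMap R F π * z)
    (hσ₂ : ∀ x ∈ chartOne R F t⁻¹, ∃ z ∈ chartOne R F t⁻¹, σ x = x + algebraMap R F π * z)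
    (g : F) (hg : g ≠ 0)
    (hb₁ : ∀ 𝔫 : Ideal ↥(chartOne R F t), 𝔫.IsMaximal → algebraMap R ↥(chartOne R F t) π ∈ 𝔫 →
      ∃ γ : F, γ ≠ 0 ∧ ∃ c d : ↥(chartOne R F t), c ∉ 𝔫 ∧ d ∉ 𝔫 ∧ g * (d : F) = γ ^ m * (c : F))
    (hb₂ : ∀ 𝔫 : Ideal ↥(chartOne R F t⁻¹), 𝔫.IsMaximal →
      algebraMap R ↥(chartOne R F t⁻¹) π ∈ 𝔫 →
      ∃ γ : F, γ ≠ 0 ∧ ∃ c d : ↥(chartOne R F t⁻¹), c ∉ 𝔫 ∧ d ∉ 𝔫 ∧
        g * (d : F) = γ ^ m * (c : F))
    (hlc1 : ∀ u : Fˣ, (u : F) = σ g / g → lc u = 1) :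
    ∃ u : F, σ g / g = u ^ m :=
  kummer_inertia_pow t ht hK π hπ hm hmR ζ hζ hM4 lc hlc hRED₁ hRED₂
    (coord_not_mem_of_mem_minimalPrimes (K₁ := K₁) t ht hK π hπ)
    (coord_not_mem_of_mem_minimalPrimes (K₁ := K₁) t⁻¹ (transcendental_inv_of_transcendental ht)
      (adjoin_inv_eq_top hK) π hπ)
    σ hσ₁ hσ₂ g hg hb₁ hb₂ hlc1

/-- **(M2) from unramifiedness**: the special fibre of the chart is reduced if `π` generates the
maximal ideal of the local ring of every prime of height one containing `π`. -/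
theorem chartOne_reduced_of_unramified
    (t : K) (ht : Transcendental K₁ t) (hK : IntermediateField.adjoin K₁ {t} = ⊤)
    (π : R) (hπ : Prime π)
    (hun : ∀ 𝔮 : Ideal ↥(chartOne R F t), 𝔮.IsPrime → 𝔮.height = 1 →
      algebraMap R ↥(chartOne R F t) π ∈ 𝔮 → ∀ x ∈ 𝔮, ∃ s : ↥(chartOne R F t), s ∉ 𝔮 ∧
        ∃ y : ↥(chartOne R F t), s * x = algebraMap R ↥(chartOne R F t) π * y) :
    ∀ x ∈ chartOne R F t, ∀ (N : ℕ), ∀ y ∈ chartOne R F t,
      x ^ N = algebraMap R F π * y → ∃ z ∈ chartOne R F t, x = algebraMap R F π * z := by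
  intro x hx N y hy hxy
  haveI : IsIntegrallyClosed ↥(chartOne R F t) := isIntegrallyClosed_chartOne (K₁ := K₁) t hK
  haveI : IsNoetherianRing ↥(chartOne R F t) := isNoetherianRing_chartOne (K₁ := K₁) t ht hK
  haveI : IsFractionRing ↥(chartOne R F t) F := isFractionRing_chartOne (K₁ := K₁) t hK
  have hinjF : Function.Injective (algebraMap R F) := by
    rw [IsScalarTower.algebraMap_eq R K F, IsScalarTower.algebraMap_eq R K₁ K]
    exact (algebraMap K F).injective.comp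
      ((algebraMap K₁ K).injective.comp (IsFractionRing.injective R K₁))
  have hπF : algebraMap R F π ≠ 0 := by
    rw [Ne, map_eq_zero_iff _ hinjF]; exact hπ.ne_zero
  by_contra hcon
  have hnot : x * (algebraMap R F π)⁻¹ ∉ (algebraMap ↥(chartOne R F t) F).range := by
    rintro ⟨z, hz⟩
    apply hcon
    refine ⟨(z : F), z.2, ?_⟩
    have : (z : F) = x * (algebraMap R F π)⁻¹ := hz
    rw [this]
    field_simp
  obtain ⟨P, hPprime, hPh, hP⟩ := exists_height_one_prime_of_not_mem_range _ hnot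
  haveI := hPprime
  by_cases hπP : algebraMap R ↥(chartOne R F t) π ∈ P
  · have hxP : (⟨x, hx⟩ : ↥(chartOne R F t)) ∈ P := by
      apply hPprime.mem_of_pow_mem N
      have : (⟨x, hx⟩ : ↥(chartOne R F t)) ^ N = algebraMap R ↥(chartOne R F t) π * ⟨y, hy⟩ :=
        Subtype.ext hxy
      rw [this]
      exact P.mul_mem_right _ hπP
    obtain ⟨s, hs, y', hy'⟩ := hun P hPprime hPh hπP _ hxP
    refine hP y' s hs ?_
    have h3 : (s : F) * x = algebraMap R F π * (y' : F) := by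
      have := congrArg (fun w : ↥(chartOne R F t) => (w : F)) hy'
      exact this
    change x * (algebraMap R F π)⁻¹ * (s : F) = (y' : F)
    calc x * (algebraMap R F π)⁻¹ * (s : F) = ((s : F) * x) * (algebraMap R F π)⁻¹ := by ring
      _ = (y' : F) := by rw [h3]; field_simp
  · refine hP ⟨x, hx⟩ (algebraMap R ↥(chartOne R F t) π) hπP ?_
    change x * (algebraMap R F π)⁻¹ * algebraMap R F π = x
    field_simp

omit [IsIntegrallyClosed R] [IsNoetherianRing R] [CharZero R] [IsFractionRing R K₁]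
  [IsScalarTower R K₁ K] [Algebra K₁ F] [IsScalarTower K₁ K F] [FiniteDimensional K F] [Algebra K₁ K]
  [Algebra R K₁] in
/-- clause (b) is stable under division by a unit of `R`. -/
theorem closed_datum_div_unit (t : K) (π : R) {m : ℕ} (g : F) (r₀ : Rˣ)
    (hb : ∀ 𝔫 : Ideal ↥(chartOne R F t), 𝔫.IsMaximal → algebraMap R ↥(chartOne R F t) π ∈ 𝔫 →
      ∃ γ : F, γ ≠ 0 ∧ ∃ c d : ↥(chartOne R F t), c ∉ 𝔫 ∧ d ∉ 𝔫 ∧
        g * (d : F) = γ ^ m * (c : F)) :
    ∀ 𝔫 : Ideal ↥(chartOne R F t), 𝔫.IsMaximal → algebraMap R ↥(chartOne R F t) π ∈ 𝔫 →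
      ∃ γ : F, γ ≠ 0 ∧ ∃ c d : ↥(chartOne R F t), c ∉ 𝔫 ∧ d ∉ 𝔫 ∧
        (g / algebraMap R F (r₀ : R)) * (d : F) = γ ^ m * (c : F) := by
  intro 𝔫 h𝔫 hπ𝔫
  obtain ⟨γ, hγ, c, d, hc, hd, hgd⟩ := hb 𝔫 h𝔫 hπ𝔫
  have hunit : IsUnit (algebraMap R ↥(chartOne R F t) (r₀ : R)) := r₀.isUnit.map _
  refine ⟨γ, hγ, c, d * algebraMap R ↥(chartOne R F t) (r₀ : R), hc, ?_, ?_⟩
  · intro h
    rcases h𝔫.isPrime.mem_or_mem h with h1 | h1
    · exact hd h1
    · exact h𝔫.ne_top (Ideal.eq_top_of_isUnit_mem _ h1 hunit)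
  · have hr0 : algebraMap R F (r₀ : R) ≠ 0 := (r₀.isUnit.map (algebraMap R F)).ne_zero
    change g / algebraMap R F (r₀ : R) * ((d : F) * algebraMap R F (r₀ : R)) = γ ^ m * (c : F)
    rw [← hgd]
    field_simp

end Plug

end Fermat.Agent.SS
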