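/-
(SS-q) GLUE-A — helper3 — **`kummer_inertia_pow'` ∘ `exists_kummer_of_chart`**.

* `IsModelChart ϖ 𝔭inf 𝔭0` : the model data of one chart `B` of the two-component normal model,
  in the literal form of the hypotheses of `exists_kummer_of_chart` (LOCASM), for all closed
  points of the special fibre at once;
* `IsKummerOnChart ϖ 𝔭inf 𝔭0 m g` : the hypotheses on the function `g` on one chart (horizontal
  divisor, `m`-th power modulo `𝔭∞`, order at `𝔭0`);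
* `IsModelChart.closed_datum` : clause (b) for `g` at every closed point of the special fibre of
  the chart, in the currency of SS-KUM;
* `IsModelChart.reduced` : hypothesis (M2) of SS-KUM from the model data;
* `kummer_inertia_pow_of_model` : **GLUE-A**, `σ g / g` is an `m`-th power.
-/
import Fermat.Agent.SS.KUM_helper3_Plug
import Fermat.Agent.SS.LOCASM_helper5_Main

set_option autoImplicit false
set_option linter.unusedSectionVars false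
set_option linter.style.haveILetI false

namespace Fermat.Agent.SS

open Fermat.Agent.JA Polynomial

section Abstract

variable {R₁ : Type*} [CommRing R₁]
variable {B : Type*} [CommRing B] [Algebra R₁ B]
variable (E : Type*) [Field E] [Algebra B E]

/-- **the model data of one chart** `B` of the two-component normal model over the base `R₁`
(`ϖ` the uniformizer, `𝔭∞`, `𝔭0` the two components of the special fibre): the hypotheses of
`exists_kummer_of_chart` for all closed points `𝔪` of the special fibre. -/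
structure IsModelChart (ϖ : R₁) (𝔭inf 𝔭0 : Ideal B) : Prop where
  isPrime_inf : 𝔭inf.IsPrime
  isPrime_zero : 𝔭0.IsPrime
  mem_inf : algebraMap R₁ B ϖ ∈ 𝔭inf
  mem_zero : algebraMap R₁ B ϖ ∈ 𝔭0
  inf_le : 𝔭inf ⊓ 𝔭0 ≤ Ideal.span {algebraMap R₁ B ϖ}
  branch_inf : ∀ 𝔪 : Ideal B, 𝔪.IsMaximal → algebraMap R₁ B ϖ ∈ 𝔪 → 𝔭inf ≤ 𝔪 → ¬ 𝔭0 ≤ 𝔪 →
    ∃ z : B, IsBranchUniformizer 𝔭inf 𝔪 z
  branch_zero : ∀ 𝔪 : Ideal B, 𝔪.IsMaximal → algebraMap R₁ B ϖ ∈ 𝔪 → 𝔭0 ≤ 𝔪 → ¬ 𝔭inf ≤ 𝔪 →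
    ∃ z : B, IsBranchUniformizer 𝔭0 𝔪 z
  node : ∀ 𝔪 : Ideal B, 𝔪.IsMaximal → 𝔭inf ≤ 𝔪 → 𝔭0 ≤ 𝔪 → ∃ x y : B,
    IsBranchUniformizer 𝔭inf 𝔪 x ∧ x ∈ 𝔭0 ∧ IsBranchUniformizer 𝔭0 𝔪 y ∧ y ∈ 𝔭inf ∧
    ∃ (u : E) (c : ℕ), 1 ≤ c ∧ IsUnitAtPrime 𝔭inf u ∧
      IsUnitAtPrime 𝔭0 (u * (algebraMap B E (algebraMap R₁ B ϖ) ^ c)⁻¹) ∧
      ∀ 𝔮 : Ideal B, 𝔮.IsPrime → 𝔮.height = 1 → algebraMap R₁ B ϖ ∉ 𝔮 → 𝔮 ≤ 𝔪 →
        IsUnitAtPrime 𝔮 u

variable {E}

/-- **the hypotheses on the function `g` on one chart**: `IsKummerAtPrime` at the horizontal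
primes of height one through the closed points of the special fibre; a unit and an `m`-th power modulo `𝔭∞`; order divisible by `m` at `𝔭0`. -/
structure IsKummerOnChart (ϖ : R₁) (𝔭inf 𝔭0 : Ideal B) (m : ℕ) (g : E) : Prop where
  div : ∀ 𝔪 : Ideal B, 𝔪.IsMaximal → algebraMap R₁ B ϖ ∈ 𝔪 →
    ∀ 𝔮 : Ideal B, 𝔮.IsPrime → 𝔮.height = 1 → algebraMap R₁ B ϖ ∉ 𝔮 → 𝔮 ≤ 𝔪 →
    IsKummerAtPrime R₁ m g 𝔮
  pow : ∃ a b c d : B, a ∉ 𝔭inf ∧ b ∉ 𝔭inf ∧ c ∉ 𝔭inf ∧ d ∉ 𝔭inf ∧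
    g * algebraMap B E b = algebraMap B E a ∧ a * d ^ m - b * c ^ m ∈ 𝔭inf
  zero : ∃ j : ℤ, IsUnitAtPrime 𝔭0
    (g * (algebraMap B E (algebraMap R₁ B ϖ) ^ ((m : ℤ) * j))⁻¹)

end Abstract

section Chart

variable {R₁ : Type*} [CommRing R₁] [IsDomain R₁] [IsDiscreteValuationRing R₁]
variable {B : Type*} [CommRing B] [IsDomain B] [IsNoetherianRing B] [IsIntegrallyClosed B]
  [Algebra R₁ B]
variable {E : Type*} [Field E] [Algebra B E] [IsFractionRing B E]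

/-- **clause (b) at every closed point of the special fibre of a model chart**
(`exists_kummer_of_chart`, unfolded). -/
theorem IsModelChart.closed_datum {ϖ : R₁} (hϖ : Irreducible ϖ) (hπne : algebraMap R₁ B ϖ ≠ 0)
    {𝔭inf 𝔭0 : Ideal B} (hmod : IsModelChart E ϖ 𝔭inf 𝔭0) {m : ℕ} (hm : m ≠ 0) {g : E}
    (hg : g ≠ 0) (hk : IsKummerOnChart ϖ 𝔭inf 𝔭0 m g)
    (𝔪 : Ideal B) (h𝔪 : 𝔪.IsMaximal) (hπ𝔪 : algebraMap R₁ B ϖ ∈ 𝔪) :
    ∃ γ : E, γ ≠ 0 ∧ ∃ c d : B, c ∉ 𝔪 ∧ d ∉ 𝔪 ∧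
      g * algebraMap B E d = γ ^ m * algebraMap B E c := by
  haveI := hmod.isPrime_inf
  haveI := hmod.isPrime_zero
  obtain ⟨j, hj⟩ := hk.zero
  obtain ⟨γ, hγ, r, s, hr, hs, hrs⟩ := exists_kummer_of_chart 𝔪 hϖ hπne hπ𝔪 hmod.mem_inf
    hmod.mem_zero hmod.inf_le (hmod.branch_inf 𝔪 h𝔪 hπ𝔪) (hmod.branch_zero 𝔪 h𝔪 hπ𝔪)
    (hmod.node 𝔪 h𝔪) hm hg (hk.div 𝔪 h𝔪 hπ𝔪) hk.pow j hj
  refine ⟨γ, hγ, r, s, hr, hs, ?_⟩
  have hγm : γ ^ m ≠ 0 := pow_ne_zero _ hγ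
  rw [← hrs]
  field_simp

omit [IsDomain R₁] [IsDiscreteValuationRing R₁] [IsDomain B] [IsNoetherianRing B]
  [IsIntegrallyClosed B] [IsFractionRing B E] in
/-- **the special fibre of a model chart is reduced.** -/
theorem IsModelChart.reduced {ϖ : R₁} {𝔭inf 𝔭0 : Ideal B} (hmod : IsModelChart E ϖ 𝔭inf 𝔭0)
    (x : B) (N : ℕ) (hx : x ^ N ∈ Ideal.span {algebraMap R₁ B ϖ}) :
    x ∈ Ideal.span {algebraMap R₁ B ϖ} := by
  haveI := hmod.isPrime_inf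
  haveI := hmod.isPrime_zero
  have hle_inf : Ideal.span {algebraMap R₁ B ϖ} ≤ 𝔭inf := by
    rw [Ideal.span_le]; rintro w rfl; exact hmod.mem_inf
  have hle_zero : Ideal.span {algebraMap R₁ B ϖ} ≤ 𝔭0 := by
    rw [Ideal.span_le]; rintro w rfl; exact hmod.mem_zero
  exact hmod.inf_le ⟨hmod.isPrime_inf.mem_of_pow_mem N (hle_inf hx),
    hmod.isPrime_zero.mem_of_pow_mem N (hle_zero hx)⟩

end Chart

section Glue

variable {R : Type*} [CommRing R] [IsDomain R] [IsDiscreteValuationRing R]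
  [CharZero R] {K₁ : Type*} [Field K₁] [Algebra R K₁]
  [IsFractionRing R K₁] {K : Type*} [Field K] [Algebra K₁ K] [Algebra R K] [IsScalarTower R K₁ K]
  {F : Type*} [Field F] [Algebra K F] [Algebra K₁ F] [IsScalarTower K₁ K F] [Algebra R F]
  [IsScalarTower R K F] [FiniteDimensional K F]

/-- (M2) in the currency of SS-KUM from the model data of the chart. -/
theorem IsModelChart.reduced_chartOne (t : K) {π : R} {𝔭inf 𝔭0 : Ideal ↥(chartOne R F t)}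
    (hmod : IsModelChart F π 𝔭inf 𝔭0) :
    ∀ x ∈ chartOne R F t, ∀ (N : ℕ), ∀ y ∈ chartOne R F t,
      x ^ N = algebraMap R F π * y → ∃ z ∈ chartOne R F t, x = algebraMap R F π * z := by
  intro x hx N y hy hxy
  have h1 : (⟨x, hx⟩ : ↥(chartOne R F t)) ^ N ∈
      Ideal.span {algebraMap R ↥(chartOne R F t) π} := by
    rw [Ideal.mem_span_singleton]
    exact ⟨⟨y, hy⟩, Subtype.ext hxy⟩
  have h2 := hmod.reduced _ N h1
  rw [Ideal.mem_span_singleton] at h2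
  obtain ⟨z, hz⟩ := h2
  exact ⟨(z : F), z.2, congrArg (fun w : ↥(chartOne R F t) => (w : F)) hz⟩

/-- **GLUE-A**: `kummer_inertia_pow'` fed with `exists_kummer_of_chart` on both charts.

`R` a discrete valuation ring with uniformizer `π`, `K₁ = Frac R`, `K = K₁(t)`, `F / K` finite with
constant field `K₁` (M4); both charts `chartOne R F t`, `chartOne R F t⁻¹` carry the model data
`IsModelChart`; `σ` is a ring endomorphism of `F` congruent to the identity modulo `π` on both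
charts; `g` satisfies `IsKummerOnChart` on both charts and the leading-coefficient normalisation.
Then `σ g / g` is an `m`-th power in `F`. -/
theorem kummer_inertia_pow_of_model
    (t : K) (ht : Transcendental K₁ t) (hK : IntermediateField.adjoin K₁ {t} = ⊤)
    (π : R) (hπ : Irreducible π) {m : ℕ} (hm : 0 < m) (hmR : IsUnit (m : R)) (ζ : R)
    (hζ : IsPrimitiveRoot ζ m)
    (hM4 : ∀ x : F, IsAlgebraic K₁ x → x ∈ Set.range (algebraMap K₁ F))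
    (lc : Fˣ →* K₁ˣ) (hlc : ∀ c : K₁ˣ, lc (Units.map (algebraMap K₁ F).toMonoidHom c) = c)
    {𝔭inf₁ 𝔭0₁ : Ideal ↥(chartOne R F t)} (hmod₁ : IsModelChart F π 𝔭inf₁ 𝔭0₁)
    {𝔭inf₂ 𝔭0₂ : Ideal ↥(chartOne R F t⁻¹)} (hmod₂ : IsModelChart F π 𝔭inf₂ 𝔭0₂)
    (σ : F →+* F)
    (hσ₁ : ∀ x ∈ chartOne R F t, ∃ z ∈ chartOne R F t, σ x = x + algebraMap R F π * z)
    (hσ₂ : ∀ x ∈ chartOne R F t⁻¹, ∃ z ∈ chartOne R F t⁻¹, σ x = x + algebraMap R F π * z)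
    (g : F) (hg : g ≠ 0)
    (hk₁ : IsKummerOnChart π 𝔭inf₁ 𝔭0₁ m g) (hk₂ : IsKummerOnChart π 𝔭inf₂ 𝔭0₂ m g)
    (hlc1 : ∀ u : Fˣ, (u : F) = σ g / g → lc u = 1) :
    ∃ u : F, σ g / g = u ^ m := by
  have hπp : Prime π := hπ.prime
  have ht' := transcendental_inv_of_transcendental ht
  have hK' := adjoin_inv_eq_top hK
  haveI : IsIntegrallyClosed ↥(chartOne R F t) := isIntegrallyClosed_chartOne (K₁ := K₁) t hK
  haveI : IsNoetherianRing ↥(chartOne R F t) := isNoetherianRing_chartOne (K₁ := K₁) t ht hK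
  haveI : IsFractionRing ↥(chartOne R F t) F := isFractionRing_chartOne (K₁ := K₁) t hK
  haveI : IsIntegrallyClosed ↥(chartOne R F t⁻¹) := isIntegrallyClosed_chartOne (K₁ := K₁) t⁻¹ hK'
  haveI : IsNoetherianRing ↥(chartOne R F t⁻¹) :=
    isNoetherianRing_chartOne (K₁ := K₁) t⁻¹ ht' hK'
  haveI : IsFractionRing ↥(chartOne R F t⁻¹) F := isFractionRing_chartOne (K₁ := K₁) t⁻¹ hK'
  have hinjF : Function.Injective (algebraMap R F) := by
    rw [IsScalarTower.algebraMap_eq R K F, IsScalarTower.algebraMap_eq R K₁ K]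
    exact (algebraMap K F).injective.comp
      ((algebraMap K₁ K).injective.comp (IsFractionRing.injective R K₁))
  have hπ1 : algebraMap R ↥(chartOne R F t) π ≠ 0 := by
    intro h0
    have := congrArg (fun w : ↥(chartOne R F t) => (w : F)) h0
    exact hπp.ne_zero (hinjF (by rw [map_zero]; exact this))
  have hπ2 : algebraMap R ↥(chartOne R F t⁻¹) π ≠ 0 := by
    intro h0
    have := congrArg (fun w : ↥(chartOne R F t⁻¹) => (w : F)) h0
    exact hπp.ne_zero (hinjF (by rw [map_zero]; exact this))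
  refine kummer_inertia_pow' (K₁ := K₁) t ht hK π hπp hm hmR ζ hζ hM4 lc hlc
    (hmod₁.reduced_chartOne t) (hmod₂.reduced_chartOne t⁻¹) σ hσ₁ hσ₂ g hg ?_ ?_ hlc1
  · intro 𝔫 h𝔫 hπ𝔫
    exact hmod₁.closed_datum hπ hπ1 hm.ne' hg hk₁ 𝔫 h𝔫 hπ𝔫
  · intro 𝔫 h𝔫 hπ𝔫
    exact hmod₂.closed_datum hπ hπ2 hm.ne' hg hk₂ 𝔫 h𝔫 hπ𝔫

end Glue

end Fermat.Agent.SS
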