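/-
(SS-q) MODEL-GLOBAL abstract leaf **[S'] SINF-EMB + LOCINT** — helper9 (helper7's stub of finding
291, literal names `exists_mul_mem_of_isIntegral_adjoin`, `exists_isBranchUniformizer_of_embedding`).

* `sinfemb_exists_pow_mul_isIntegral` : scaling lemma (`x` integral over `A`, `A ⊆ B[1/g]` ⇒
  `g ^ l * x` integral over `B`); `sinfembAway B g hg` the subalgebra `B[1/g]` of `L`;
* **(LOCINT) `exists_mul_mem_of_isIntegral_adjoin`** : an element integral over `R[t]` lies in the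
  local ring of an integrally closed chart at `𝔪` as soon as `t` does;
* **(SINF-EMB) `exists_isBranchUniformizer_of_embedding`** : a smooth branch of the upper chart at
  `𝔪` from a discrete-valuation point of the special fibre of a lower chart, for an arbitrary
  embedding `ι` of the lower field;
* `sinfembPull ι BF BL 𝔪 ha` : the induced closed point `𝔫` of the lower chart, with
  `mem_sinfembPull_iff` (= hypothesis `h𝔫` of SINF-EMB), `sinfembPull_isPrime`,
  `algebraMap_mem_sinfembPull_iff`, `sinfembPull_isMaximal` (residue field of constants).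
-/
import Mathlib
import Fermat.Agent.SS.MODLOC_helper5_Core

set_option autoImplicit false
set_option linter.unusedSectionVars false
set_option linter.style.haveILetI false

open Polynomial

namespace Fermat.Agent.SS

section Scale

variable {R : Type*} [CommRing R] {L : Type*} [Field L] [Algebra R L]

/-- **scaling lemma**: if every element of the subalgebra `A` becomes an element of the subalgebra
`B` after multiplication by a power of `g ∈ B`, then every element integral over `A` becomes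
integral over `B` after multiplication by a power of `g`. -/
theorem sinfemb_exists_pow_mul_isIntegral (A B : Subalgebra R L) (g : L) (hg : g ∈ B)
    (hA : ∀ c ∈ A, ∃ k : ℕ, g ^ k * c ∈ B) {x : L} (hx : IsIntegral ↥A x) :
    ∃ l : ℕ, IsIntegral ↥B (g ^ l * x) := by
  obtain ⟨p, hpm, hpx⟩ := hx
  have hcoef : ∀ i, ∃ k : ℕ, g ^ k * ((p.coeff i : ↥A) : L) ∈ B := fun i =>
    hA _ (p.coeff i).2
  choose k hk using hcoef
  set m : ℕ := (Finset.range (p.natDegree + 1)).sup k with hm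
  refine ⟨m, ?_⟩
  have hkm : ∀ i ≤ p.natDegree, k i ≤ m := fun i hi =>
    Finset.le_sup (f := k) (Finset.mem_range.2 (Nat.lt_succ_of_le hi))
  have hgm : ∀ i ≤ p.natDegree, g ^ m * ((p.coeff i : ↥A) : L) ∈ B := by
    intro i hi
    obtain ⟨d, hd⟩ := Nat.exists_eq_add_of_le (hkm i hi)
    rw [hd, pow_add, mul_comm (g ^ k i), mul_assoc]
    exact B.mul_mem (B.pow_mem hg _) (hk i)
  set p' : L[X] := p.map (algebraMap ↥A L) with hp'
  have hp'm : p'.Monic := hpm.map _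
  have hp'deg : p'.natDegree = p.natDegree := hpm.natDegree_map _
  have hp'x : aeval x p' = 0 := by
    rw [hp', aeval_map_algebraMap, aeval_def]; exact hpx
  have hqm : (scaleRoots p' (g ^ m)).Monic := (monic_scaleRoots_iff _).2 hp'm
  have hqx : aeval (g ^ m * x) (scaleRoots p' (g ^ m)) = 0 := by
    have := scaleRoots_aeval_eq_zero (r := g ^ m) hp'x
    simpa using this
  have hlift : scaleRoots p' (g ^ m) ∈ lifts (algebraMap ↥B L) := by
    rw [lifts_iff_coeff_lifts]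
    intro i
    rw [coeff_scaleRoots, hp'deg]
    rcases lt_trichotomy i p.natDegree with hi | hi | hi
    · obtain ⟨j, hj⟩ : ∃ j, p.natDegree - i = j + 1 :=
        Nat.exists_eq_succ_of_ne_zero (Nat.sub_ne_zero_of_lt hi)
      have h1 : p'.coeff i = ((p.coeff i : ↥A) : L) := by
        rw [hp', coeff_map]; rfl
      rw [hj, pow_succ', ← mul_assoc, h1, mul_comm _ (g ^ m)]
      have hmem : g ^ m * ((p.coeff i : ↥A) : L) * (g ^ m) ^ j ∈ B :=
        B.mul_mem (hgm i hi.le) (B.pow_mem (B.pow_mem hg _) _)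
      exact ⟨⟨_, hmem⟩, rfl⟩
    · rw [hi, Nat.sub_self, pow_zero, mul_one, ← hp'deg]
      have : p'.coeff p'.natDegree = 1 := hp'm
      rw [this]
      exact ⟨1, map_one _⟩
    · have : p'.coeff i = 0 := coeff_eq_zero_of_natDegree_lt (hp'deg ▸ hi)
      rw [this, zero_mul]
      exact ⟨0, map_zero _⟩
  obtain ⟨q', hq'map, -, hq'm⟩ := lifts_and_natDegree_eq_and_monic hlift hqm
  refine ⟨q', hq'm, ?_⟩
  rw [← aeval_def, ← aeval_map_algebraMap L, hq'map]
  exact hqx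

/-- the localisation `B[1/g]` inside `L`, as a subalgebra. -/
def sinfembAway (B : Subalgebra R L) (g : L) (hg : g ∈ B) : Subalgebra R L where
  carrier := {x | ∃ n : ℕ, g ^ n * x ∈ B}
  mul_mem' := by
    rintro x y ⟨n, hx⟩ ⟨n', hy⟩
    refine ⟨n + n', ?_⟩
    have : g ^ (n + n') * (x * y) = (g ^ n * x) * (g ^ n' * y) := by ring
    rw [this]
    exact B.mul_mem hx hy
  add_mem' := by
    rintro x y ⟨n, hx⟩ ⟨n', hy⟩
    refine ⟨n + n', ?_⟩
    have : g ^ (n + n') * (x + y) = g ^ n' * (g ^ n * x) + g ^ n * (g ^ n' * y) := by ring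
    rw [this]
    exact B.add_mem (B.mul_mem (B.pow_mem hg _) hx) (B.mul_mem (B.pow_mem hg _) hy)
  algebraMap_mem' := fun r => ⟨0, by rw [pow_zero, one_mul]; exact B.algebraMap_mem r⟩

theorem mem_sinfembAway_iff (B : Subalgebra R L) (g : L) (hg : g ∈ B) (x : L) :
    x ∈ sinfembAway B g hg ↔ ∃ n : ℕ, g ^ n * x ∈ B := Iff.rfl

/-- **(LOCINT)** clearing denominators: an element integral over `R[t]` lies in the local ring of
an integrally closed chart at `𝔪` as soon as `t` does. -/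
theorem exists_mul_mem_of_isIntegral_adjoin (BL : Subalgebra R L)
    (hic : ∀ x : L, IsIntegral ↥BL x → x ∈ BL) (𝔪 : Ideal ↥BL) [h𝔪 : 𝔪.IsPrime]
    (t : L) (r s : ↥BL) (hs : s ∉ 𝔪) (hts : t * (s : L) = (r : L))
    (a : L) (ha : IsIntegral ↥(Algebra.adjoin R {t}) a) :
    ∃ r' s' : ↥BL, s' ∉ 𝔪 ∧ a * (s' : L) = (r' : L) := by
  have hA : ∀ c ∈ Algebra.adjoin R {t}, ∃ k : ℕ, (s : L) ^ k * c ∈ BL := by
    have hle : Algebra.adjoin R {t} ≤ sinfembAway BL (s : L) s.2 := by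
      rw [Algebra.adjoin_le_iff]
      rintro x rfl
      refine ⟨1, ?_⟩
      rw [pow_one, mul_comm, hts]
      exact r.2
    exact fun c hc => hle hc
  obtain ⟨l, hl⟩ := sinfemb_exists_pow_mul_isIntegral (Algebra.adjoin R {t}) BL (s : L) s.2 hA ha
  refine ⟨⟨_, hic _ hl⟩, s ^ l, fun h => hs (h𝔪.mem_of_pow_mem l h), ?_⟩
  rw [SubmonoidClass.coe_pow, mul_comm]

end Scale

section Sinf

variable {R : Type*} [CommRing R] {F L : Type*} [Field F] [Field L] [Algebra R F] [Algebra R L]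

set_option maxHeartbeats 800000 in
/-- **(SINF) smooth branch from a lower level**, for an arbitrary embedding `ι` of the lower
field (not necessarily compatible with the coordinates of the charts). -/
theorem exists_isBranchUniformizer_of_embedding (ι : F →+* L) (π : R)
    (BF : Subalgebra R F) (BL : Subalgebra R L)
    (V : ValuationSubring L) (hBL : ∀ b ∈ BL, b ∈ V)
    (𝔓 : Ideal ↥BL) (h𝔓 : ∀ b : ↥BL, b ∈ 𝔓 ↔ V.valuation (b : L) < 1)
    (𝔪 : Ideal ↥BL) [h𝔪 : 𝔪.IsMaximal] (h𝔓𝔪 : 𝔓 ≤ 𝔪)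
    (ha : ∀ a : ↥BF, ∃ r s : ↥BL, s ∉ 𝔪 ∧ ι (a : F) * (s : L) = (r : L))
    (𝔫 : Ideal ↥BF)
    (h𝔫 : ∀ (a : ↥BF) (r s : ↥BL), s ∉ 𝔪 → ι (a : F) * (s : L) = (r : L) → (a ∈ 𝔫 ↔ r ∈ 𝔪))
    (z : ↥BF) (hz : z ∈ 𝔫) (hzπ : z ∉ Ideal.span {algebraMap R ↥BF π})
    (hdvr : ∀ a : ↥BF, a ∉ Ideal.span {algebraMap R ↥BF π} → ∃ (k : ℕ) (s e : ↥BF),
      s ∉ 𝔫 ∧ e ∉ 𝔫 ∧ s * a - e * z ^ k ∈ Ideal.span {algebraMap R ↥BF π})
    (hVF : ∀ a : ↥BF, V.valuation (ι (a : F)) < 1 ↔ a ∈ Ideal.span {algebraMap R ↥BF π})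
    (hres : ∀ x ∈ V, ∃ a c : ↥BF, c ∉ Ideal.span {algebraMap R ↥BF π} ∧
      V.valuation (x * ι (c : F) - ι (a : F)) < 1) :
    ∃ (y : ↥BL) (s : ↥BL), s ∉ 𝔪 ∧ ι (z : F) * (s : L) = (y : L) ∧ IsBranchUniformizer 𝔓 𝔪 y := by
  classical
  haveI h𝔪p : 𝔪.IsPrime := h𝔪.isPrime
  set v := V.valuation with hv
  have hle1 : ∀ b : ↥BL, v (b : L) ≤ 1 := fun b => (V.valuation_le_one_iff _).mpr (hBL b b.2)
  have hunit : ∀ s : ↥BL, s ∉ 𝔪 → v (s : L) = 1 := by
    intro s hs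
    exact le_antisymm (hle1 s) (not_lt.mp fun h => hs (h𝔓𝔪 ((h𝔓 s).mpr h)))
  have hιle : ∀ a : ↥BF, v (ι (a : F)) ≤ 1 := by
    intro a
    obtain ⟨r, s, hs, hrs⟩ := ha a
    have h1 : v (ι (a : F)) * v (s : L) = v (r : L) := by rw [← map_mul, hrs]
    rw [hunit s hs, mul_one] at h1
    rw [h1]; exact hle1 r
  have hιone : ∀ a : ↥BF, a ∉ Ideal.span {algebraMap R ↥BF π} → v (ι (a : F)) = 1 :=
    fun a ha' => le_antisymm (hιle a) (not_lt.mp fun h => ha' ((hVF a).mp h))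
  have hmul : ∀ x y : L, v x ≤ 1 → v y < 1 → v (x * y) < 1 := by
    intro x y hx hy
    rw [map_mul]
    calc v x * v y ≤ 1 * v y := mul_le_mul_left hx _
      _ = v y := one_mul _
      _ < 1 := hy
  have hadd : ∀ x y : L, v x < 1 → v y < 1 → v (x + y) < 1 :=
    fun x y hx hy => Valuation.map_add_lt _ hx hy
  -- local units
  have hlu : ∀ a : ↥BF, a ∉ 𝔫 →
      ∃ r t : ↥BL, r ∉ 𝔪 ∧ t ∉ 𝔪 ∧ ι (a : F) * (t : L) = (r : L) := by
    intro a ha𝔫
    obtain ⟨r, s, hs, hrs⟩ := ha a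
    exact ⟨r, s, fun hr => ha𝔫 ((h𝔫 a r s hs hrs).mpr hr), hs, hrs⟩
  obtain ⟨y, s, hs, hys⟩ := ha z
  have hy𝔪 : y ∈ 𝔪 := (h𝔫 z y s hs hys).mp hz
  have hZ : v (ι (z : F)) = 1 := hιone z hzπ
  have hvy : v (y : L) = 1 := by rw [← hys, map_mul, hZ, hunit s hs, one_mul]
  refine ⟨y, s, hs, hys, hy𝔪, fun h => ?_, ?_⟩
  · have := (h𝔓 y).mp h
    rw [hvy] at this
    exact lt_irrefl _ this
  · intro w hw
    obtain ⟨a, c, hc, hwac⟩ := hres (w : L) (hBL w w.2)
    have hvc : v (ι (c : F)) = 1 := hιone c hc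
    by_cases haπ : a ∈ Ideal.span {algebraMap R ↥BF π}
    · -- `w ∈ 𝔓`
      have hva : v (ι (a : F)) < 1 := (hVF a).mpr haπ
      have h1 : v ((w : L) * ι (c : F)) < 1 := by
        have := hadd _ _ hwac hva
        rwa [sub_add_cancel] at this
      rw [map_mul, hvc, mul_one] at h1
      refine ⟨0, 1, (Ideal.ne_top_iff_one 𝔪).mp h𝔪p.ne_top, ?_⟩
      rw [one_mul, zero_mul, sub_zero]
      exact (h𝔓 w).mpr h1
    · obtain ⟨k, sa, ea, hsa, hea, hka⟩ := hdvr a haπ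
      obtain ⟨l, sc, ec, hsc, hec, hlc⟩ := hdvr c hc
      obtain ⟨r₁, t₁, hr₁, ht₁, h₁⟩ := hlu sa hsa
      obtain ⟨r₂, t₂, hr₂, ht₂, h₂⟩ := hlu ec hec
      obtain ⟨r₃, t₃, hr₃, ht₃, h₃⟩ := hlu sc hsc
      obtain ⟨r₄, t₄, hr₄, ht₄, h₄⟩ := hlu ea hea
      set Z : L := ι (z : F) with hZdef
      set α : L := ι (sa : F) * ι (ec : F) with hα
      set β : L := ι (sc : F) * ι (ea : F) with hβ
      have hαt : α * ((t₁ * t₂ : ↥BL) : L) = ((r₁ * r₂ : ↥BL) : L) := by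
        push_cast
        rw [← h₁, ← h₂, hα]; ring
      have hβt : β * ((t₃ * t₄ : ↥BL) : L) = ((r₃ * r₄ : ↥BL) : L) := by
        push_cast
        rw [← h₃, ← h₄, hβ]; ring
      have hrα : r₁ * r₂ ∉ 𝔪 := fun h => (h𝔪p.mem_or_mem h).elim hr₁ hr₂
      have htα : t₁ * t₂ ∉ 𝔪 := fun h => (h𝔪p.mem_or_mem h).elim ht₁ ht₂
      have hrβ : r₃ * r₄ ∉ 𝔪 := fun h => (h𝔪p.mem_or_mem h).elim hr₃ hr₄
      have htβ : t₃ * t₄ ∉ 𝔪 := fun h => (h𝔪p.mem_or_mem h).elim ht₃ ht₄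
      set rα : ↥BL := r₁ * r₂ with hrαdef
      set tα : ↥BL := t₁ * t₂ with htαdef
      set rβ : ↥BL := r₃ * r₄ with hrβdef
      set tβ : ↥BL := t₃ * t₄ with htβdef
      -- the two congruences of the lower level, in `V`
      have h2 : v (ι (sa : F) * ι (a : F) - ι (ea : F) * Z ^ k) < 1 := by
        have := (hVF (sa * a - ea * z ^ k)).mpr hka
        simpa only [Subalgebra.coe_sub, Subalgebra.coe_mul, Subalgebra.coe_pow, map_sub, map_mul,
          map_pow] using this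
      have h3 : v (ι (sc : F) * ι (c : F) - ι (ec : F) * Z ^ l) < 1 := by
        have := (hVF (sc * c - ec * z ^ l)).mpr hlc
        simpa only [Subalgebra.coe_sub, Subalgebra.coe_mul, Subalgebra.coe_pow, map_sub, map_mul,
          map_pow] using this
      have hkey : v ((w : L) * α * Z ^ l - β * Z ^ k) < 1 := by
        have hid : (w : L) * α * Z ^ l - β * Z ^ k =
            (-((w : L) * ι (sa : F))) * (ι (sc : F) * ι (c : F) - ι (ec : F) * Z ^ l) +
              ((ι (sa : F) * ι (sc : F)) * ((w : L) * ι (c : F) - ι (a : F)) +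
                ι (sc : F) * (ι (sa : F) * ι (a : F) - ι (ea : F) * Z ^ k)) := by
          rw [hα, hβ]; ring
        rw [hid]
        refine hadd _ _ (hmul _ _ ?_ h3) (hadd _ _ (hmul _ _ ?_ hwac) (hmul _ _ (hιle sc) h2))
        · rw [Valuation.map_neg, map_mul]
          exact mul_le_one' (hle1 w) (hιle sa)
        · rw [map_mul]
          exact mul_le_one' (hιle sa) (hιle sc)
      have hZpow : ∀ n : ℕ, v (Z ^ n) = 1 := fun n => by rw [map_pow, hZ, one_pow]
      rcases le_or_gt k l with hkl | hkl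
      · -- impossible: `w` would be a unit at `𝔪`
        exfalso
        obtain ⟨d, rfl⟩ := Nat.exists_eq_add_of_le hkl
        have h4 : v ((w : L) * α * Z ^ d - β) < 1 := by
          have hid : (w : L) * α * Z ^ (k + d) - β * Z ^ k =
              Z ^ k * ((w : L) * α * Z ^ d - β) := by ring
          rw [hid, map_mul, hZpow, one_mul] at hkey
          exact hkey
        have h5 : v (((tα * tβ * s ^ d : ↥BL) : L) * ((w : L) * α * Z ^ d - β)) < 1 :=
          hmul _ _ (hle1 _) h4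
        have hid : ((tα * tβ * s ^ d : ↥BL) : L) * ((w : L) * α * Z ^ d - β) =
            ((w * rα * tβ * y ^ d - rβ * tα * s ^ d : ↥BL) : L) := by
          push_cast
          have e1 : (rα : L) = α * (tα : L) := hαt.symm
          have e2 : (rβ : L) = β * (tβ : L) := hβt.symm
          rw [e1, e2, ← hys]
          ring
        rw [hid] at h5
        have h6 : w * rα * tβ * y ^ d - rβ * tα * s ^ d ∈ 𝔪 := h𝔓𝔪 ((h𝔓 _).mpr h5)
        have h7 : w * rα * tβ * y ^ d ∈ 𝔪 := by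
          have : w * rα * tβ * y ^ d = w * (rα * tβ * y ^ d) := by ring
          rw [this]; exact 𝔪.mul_mem_right _ hw
        have h8 : rβ * tα * s ^ d ∈ 𝔪 := by
          have : rβ * tα * s ^ d =
              w * rα * tβ * y ^ d - (w * rα * tβ * y ^ d - rβ * tα * s ^ d) := by ring
          rw [this]; exact 𝔪.sub_mem h7 h6
        rcases h𝔪p.mem_or_mem h8 with h9 | h9
        · rcases h𝔪p.mem_or_mem h9 with h10 | h10
          · exact hrβ h10
          · exact htα h10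
        · exact hs (h𝔪p.mem_of_pow_mem d h9)
      · obtain ⟨d, rfl⟩ : ∃ d, k = l + d + 1 := by
          obtain ⟨d, hd⟩ := Nat.exists_eq_add_of_lt hkl
          exact ⟨d, hd⟩
        have h4 : v ((w : L) * α - β * Z ^ (d + 1)) < 1 := by
          have hid : (w : L) * α * Z ^ l - β * Z ^ (l + d + 1) =
              Z ^ l * ((w : L) * α - β * Z ^ (d + 1)) := by ring
          rw [hid, map_mul, hZpow, one_mul] at hkey
          exact hkey
        have h5 : v (((tα * tβ * s ^ (d + 1) : ↥BL) : L) * ((w : L) * α - β * Z ^ (d + 1))) < 1 :=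
          hmul _ _ (hle1 _) h4
        have hid : ((tα * tβ * s ^ (d + 1) : ↥BL) : L) * ((w : L) * α - β * Z ^ (d + 1)) =
            ((rα * tβ * s ^ (d + 1) * w - rβ * tα * y ^ d * y : ↥BL) : L) := by
          push_cast
          have e1 : (rα : L) = α * (tα : L) := hαt.symm
          have e2 : (rβ : L) = β * (tβ : L) := hβt.symm
          rw [e1, e2, ← hys]
          ring
        rw [hid] at h5
        refine ⟨rβ * tα * y ^ d, rα * tβ * s ^ (d + 1), ?_, (h𝔓 _).mpr h5⟩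
        intro h8
        rcases h𝔪p.mem_or_mem h8 with h9 | h9
        · rcases h𝔪p.mem_or_mem h9 with h10 | h10
          · exact hrα h10
          · exact htβ h10
        · exact hs (h𝔪p.mem_of_pow_mem _ h9)

/-- the closed point of the lower chart `BF` induced by the closed point `𝔪` of the upper chart
`BL`, when `ι BF` lies in the local ring of `BL` at `𝔪` (hypothesis `ha`): the elements whose
image has a numerator in `𝔪`. -/
def sinfembPull (ι : F →+* L) (BF : Subalgebra R F) (BL : Subalgebra R L) (𝔪 : Ideal ↥BL)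
    [h𝔪 : 𝔪.IsPrime]
    (ha : ∀ a : ↥BF, ∃ r s : ↥BL, s ∉ 𝔪 ∧ ι (a : F) * (s : L) = (r : L)) : Ideal ↥BF where
  carrier := {a | ∃ r s : ↥BL, s ∉ 𝔪 ∧ r ∈ 𝔪 ∧ ι (a : F) * (s : L) = (r : L)}
  add_mem' := by
    rintro a b ⟨r, s, hs, hr, hrs⟩ ⟨r', s', hs', hr', hrs'⟩
    refine ⟨r * s' + r' * s, s * s', fun h => (h𝔪.mem_or_mem h).elim hs hs',
      𝔪.add_mem (𝔪.mul_mem_right _ hr) (𝔪.mul_mem_right _ hr'), ?_⟩
    push_cast
    rw [map_add, ← hrs, ← hrs']
    ring
  zero_mem' := ⟨0, 1, (Ideal.ne_top_iff_one 𝔪).mp h𝔪.ne_top, 𝔪.zero_mem, by simp⟩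
  smul_mem' := by
    rintro c a ⟨r, s, hs, hr, hrs⟩
    obtain ⟨r', s', hs', hrs'⟩ := ha c
    refine ⟨r' * r, s' * s, fun h => (h𝔪.mem_or_mem h).elim hs' hs, 𝔪.mul_mem_left _ hr, ?_⟩
    rw [smul_eq_mul]
    push_cast
    rw [map_mul, ← hrs, ← hrs']
    ring

variable {ι : F →+* L} {BF : Subalgebra R F} {BL : Subalgebra R L} {𝔪 : Ideal ↥BL}
  [h𝔪 : 𝔪.IsPrime] {ha : ∀ a : ↥BF, ∃ r s : ↥BL, s ∉ 𝔪 ∧ ι (a : F) * (s : L) = (r : L)}

/-- membership can be tested on any representation: this is the hypothesis `h𝔫` of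
`exists_isBranchUniformizer_of_embedding`. -/
theorem mem_sinfembPull_iff (a : ↥BF) (r s : ↥BL) (hs : s ∉ 𝔪)
    (hrs : ι (a : F) * (s : L) = (r : L)) : a ∈ sinfembPull ι BF BL 𝔪 ha ↔ r ∈ 𝔪 := by
  constructor
  · rintro ⟨r', s', hs', hr', hrs'⟩
    have h1 : r * s' = r' * s := by
      apply Subtype.ext
      push_cast
      rw [← hrs, ← hrs']
      ring
    have h2 : r * s' ∈ 𝔪 := by rw [h1]; exact 𝔪.mul_mem_right _ hr'
    exact (h𝔪.mem_or_mem h2).resolve_right hs'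
  · intro hr
    exact ⟨r, s, hs, hr, hrs⟩

theorem sinfembPull_ne_top : sinfembPull ι BF BL 𝔪 ha ≠ ⊤ := by
  intro h
  have h1 : (1 : ↥BF) ∈ sinfembPull ι BF BL 𝔪 ha := h ▸ Submodule.mem_top
  have := (mem_sinfembPull_iff (ha := ha) (1 : ↥BF) 1 1
    ((Ideal.ne_top_iff_one 𝔪).mp h𝔪.ne_top) (by simp)).mp h1
  exact (Ideal.ne_top_iff_one 𝔪).mp h𝔪.ne_top this

theorem sinfembPull_isPrime : (sinfembPull ι BF BL 𝔪 ha).IsPrime := by
  refine ⟨sinfembPull_ne_top, ?_⟩
  intro a b hab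
  obtain ⟨r, s, hs, hrs⟩ := ha a
  obtain ⟨r', s', hs', hrs'⟩ := ha b
  have h1 : ι ((a * b : ↥BF) : F) * ((s * s' : ↥BL) : L) = ((r * r' : ↥BL) : L) := by
    push_cast
    rw [map_mul, ← hrs, ← hrs']
    ring
  have h2 := (mem_sinfembPull_iff (ha := ha) (a * b) (r * r') (s * s')
    (fun h => (h𝔪.mem_or_mem h).elim hs hs') h1).mp hab
  rcases h𝔪.mem_or_mem h2 with h | h
  · exact Or.inl ((mem_sinfembPull_iff a r s hs hrs).mpr h)
  · exact Or.inr ((mem_sinfembPull_iff b r' s' hs' hrs').mpr h)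

/-- constants: `algebraMap R BF c` lies in the induced point iff `algebraMap R BL c ∈ 𝔪`. -/
theorem algebraMap_mem_sinfembPull_iff (hι : ∀ c : R, ι (algebraMap R F c) = algebraMap R L c)
    (c : R) : algebraMap R ↥BF c ∈ sinfembPull ι BF BL 𝔪 ha ↔ algebraMap R ↥BL c ∈ 𝔪 := by
  refine mem_sinfembPull_iff (ha := ha) (algebraMap R ↥BF c) (algebraMap R ↥BL c) 1
    ((Ideal.ne_top_iff_one 𝔪).mp h𝔪.ne_top) ?_
  have h1 : ((algebraMap R ↥BF c : ↥BF) : F) = algebraMap R F c := rfl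
  have h2 : ((algebraMap R ↥BL c : ↥BL) : L) = algebraMap R L c := rfl
  rw [h1, h2, hι]
  simp

/-- the induced point is a closed point with residue field of constants when `𝔪` is. -/
theorem sinfembPull_isMaximal (hι : ∀ c : R, ι (algebraMap R F c) = algebraMap R L c)
    (hres : ∀ b : ↥BL, ∃ c : R, b - algebraMap R ↥BL c ∈ 𝔪)
    (hR : ∀ c : R, algebraMap R ↥BL c ∉ 𝔪 → IsUnit c) :
    (sinfembPull ι BF BL 𝔪 ha).IsMaximal ∧
      ∀ a : ↥BF, ∃ c : R, a - algebraMap R ↥BF c ∈ sinfembPull ι BF BL 𝔪 ha := by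
  have hsum : ∀ a : ↥BF, ∃ c : R, a - algebraMap R ↥BF c ∈ sinfembPull ι BF BL 𝔪 ha := by
    intro a
    obtain ⟨r, s, hs, hrs⟩ := ha a
    obtain ⟨ρ, hρ⟩ := hres r
    obtain ⟨σ, hσ⟩ := hres s
    have hσ𝔪 : algebraMap R ↥BL σ ∉ 𝔪 := by
      intro h
      apply hs
      have : s = (s - algebraMap R ↥BL σ) + algebraMap R ↥BL σ := by ring
      rw [this]; exact 𝔪.add_mem hσ h
    obtain ⟨u, hu⟩ := hR σ hσ𝔪
    refine ⟨ρ * (u⁻¹ : Rˣ), ?_⟩
    have hσu : σ * ((u⁻¹ : Rˣ) : R) = 1 := by rw [← hu]; exact Units.mul_inv u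
    refine (mem_sinfembPull_iff (ha := ha) _
      (r * algebraMap R ↥BL σ - algebraMap R ↥BL ρ * s) (s * algebraMap R ↥BL σ)
      (fun h => (h𝔪.mem_or_mem h).elim hs hσ𝔪) ?_).mpr ?_
    · push_cast
      rw [map_sub, map_mul, hι, hι, ← hrs]
      have h3 : algebraMap R L ((u⁻¹ : Rˣ) : R) * algebraMap R L σ = 1 := by
        rw [← map_mul, mul_comm, hσu, map_one]
      linear_combination (-(algebraMap R L ρ) * (s : L)) * h3
    · have : r * algebraMap R ↥BL σ - algebraMap R ↥BL ρ * s =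
          (r - algebraMap R ↥BL ρ) * algebraMap R ↥BL σ -
            algebraMap R ↥BL ρ * (s - algebraMap R ↥BL σ) := by ring
      rw [this]
      exact 𝔪.sub_mem (𝔪.mul_mem_right _ hρ) (𝔪.mul_mem_left _ hσ)
  refine ⟨?_, hsum⟩
  rw [Ideal.isMaximal_iff]
  refine ⟨fun h => sinfembPull_ne_top (ha := ha) ((Ideal.eq_top_iff_one _).mpr h), ?_⟩
  intro J x hJ hx hxJ
  obtain ⟨c, hc⟩ := hsum x
  have hc𝔪 : algebraMap R ↥BL c ∉ 𝔪 := by
    intro h
    apply hx
    have h1 : algebraMap R ↥BF c ∈ sinfembPull ι BF BL 𝔪 ha :=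
      (algebraMap_mem_sinfembPull_iff (ha := ha) hι c).mpr h
    have : x = (x - algebraMap R ↥BF c) + algebraMap R ↥BF c := by ring
    rw [this]; exact Ideal.add_mem _ hc h1
  obtain ⟨u, hu⟩ := hR c hc𝔪
  have h1 : algebraMap R ↥BF c ∈ J := by
    have : algebraMap R ↥BF c = x - (x - algebraMap R ↥BF c) := by ring
    rw [this]; exact J.sub_mem hxJ (hJ hc)
  have h2 : (1 : ↥BF) = algebraMap R ↥BF ((u⁻¹ : Rˣ) : R) * algebraMap R ↥BF c := by
    rw [← map_mul, ← hu, Units.inv_mul, map_one]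
  rw [h2]
  exact J.mul_mem_left _ h1

end Sinf

end Fermat.Agent.SS
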