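/-
(SS-q) MODEL-GLOBAL abstract leaf **[S'] SINF-EMB, chart / sheet / model currency** — helper9.
Corollaries of `exists_isBranchUniformizer_of_embedding` (`SINFEMB_helper9`) for the lower chart
`BF := chartOne R EM t` of a level of good reduction (`GeoHyps`), with helper1's `DVRFORM` and
helper4's one-sheet lemmas (`HART_helper4`):

* `sinfemb_exists_mul_mem_of_coord` : hypothesis `ha` from "`ι t` is regular at `𝔪`" (LOCINT);
* `GeoHyps.exists_isBranchUniformizer_of_embedding`,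
  `GeoHyps.exists_coord_sub_isBranchUniformizer_of_embedding` : raw `hVF`/`hres` form;
* `GeoHyps.exists_isBranchUniformizer_of_comap`,
  `GeoHyps.exists_coord_sub_isBranchUniformizer_of_comap` : `(ι, W)` with `W.comap ι = VM` and residue
  degree one, any integrally closed upper chart `BL`;
* `GeoHyps.exists_isBranchUniformizer_sheet`, `GeoHyps.exists_coord_sub_isBranchUniformizer_sheet` :
  `BL = chartOne R EN u`, `𝔓 = sheetIdeal u W _`;
* `SSModel.exists_isBranchUniformizer_inf/_zero`,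
  `SSModel.exists_coord_sub_isBranchUniformizer_inf/_zero` (= helper8's `hbrA`/`hbrB`).
Regularity is phrased `ι t ∈ locRing BL 𝔪`, the unit condition `ι t - s₀ ∉ locMax BL 𝔪` (helper4's
local currency, both `Iff.rfl` to the `∃ r s, …` forms).
-/
import Mathlib
import Fermat.Agent.SS.SINFEMB_helper9
import Fermat.Agent.SS.DVRFORM_helper1
import Fermat.Agent.SS.HART_helper4
import Fermat.Agent.SS.MODEL_helper7_Iface

set_option autoImplicit false
set_option linter.unusedSectionVars false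
set_option linter.style.haveILetI false

open Polynomial

namespace Fermat.Agent.SS

open Fermat.Agent.JA

section Val

variable {F L : Type*} [Field F] [Field L]

theorem sinfemb_valuation_lt_one_iff (A : ValuationSubring L) {x : L} (hx : x ≠ 0) :
    A.valuation x < 1 ↔ x⁻¹ ∉ A := by
  rw [← ValuationSubring.valuation_le_one_iff, map_inv₀,
    inv_le_one₀ (zero_lt_iff.mpr ((Valuation.ne_zero_iff _).mpr hx)), not_le]

theorem sinfemb_comap_valuation_lt_one_iff (W : ValuationSubring L) (ι : F →+* L) (x : F) :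
    (W.comap ι).valuation x < 1 ↔ W.valuation (ι x) < 1 := by
  by_cases hx : x = 0
  · subst hx
    simp
  · have hιx : ι x ≠ 0 := (map_ne_zero ι).mpr hx
    rw [sinfemb_valuation_lt_one_iff _ hx, sinfemb_valuation_lt_one_iff _ hιx,
      ValuationSubring.mem_comap, map_inv₀]

end Val

section Closed

variable {R : Type*} [CommRing R] {K : Type*} [Field K] [Algebra R K]
  {E : Type*} [Field E] [Algebra K E] [Algebra R E] [IsScalarTower R K E]

theorem sinfemb_mem_chartOne_of_isIntegral (u : K) {x : E}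
    (hx : IsIntegral ↥(chartOne R E u) x) : x ∈ chartOne R E u := by
  rw [mem_chartOne_iff]
  have h1 : IsIntegral ↥(integralClosure ↥(Algebra.adjoin R {u}) E) x := hx
  exact isIntegral_trans (A := ↥(integralClosure ↥(Algebra.adjoin R {u}) E)) x h1

end Closed

section Bridge

variable {R : Type*} [CommRing R] {L : Type*} [Field L] [Algebra R L]
  {KM : Type*} [Field KM] [Algebra R KM] {EM : Type*} [Field EM] [Algebra KM EM] [Algebra R EM]
  [IsScalarTower R KM EM]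

/-- the image under an `R`-linear embedding `ι` of an element of the chart `chartOne R EM t` is
integral over `R[ι t]`. -/
theorem sinfemb_isIntegral_map (ι : EM →+* L)
    (hι : ∀ c : R, ι (algebraMap R EM c) = algebraMap R L c) (t : KM) {a : EM}
    (ha : a ∈ chartOne R EM t) :
    IsIntegral ↥(Algebra.adjoin R {ι (algebraMap KM EM t)}) (ι a) := by
  let g : KM →ₐ[R] L :=
    { ι.comp (algebraMap KM EM) with
      commutes' := fun c => by
        change ι (algebraMap KM EM (algebraMap R KM c)) = algebraMap R L c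
        rw [← IsScalarTower.algebraMap_apply R KM EM, hι] }
  have hg : ∀ x : KM, g x = ι (algebraMap KM EM x) := fun x => rfl
  have hmem : ∀ x : ↥(Algebra.adjoin R {t}),
      g (x : KM) ∈ Algebra.adjoin R {ι (algebraMap KM EM t)} := by
    intro x
    have h1 : g (x : KM) ∈ (Algebra.adjoin R {t}).map g := ⟨x, x.2, rfl⟩
    rw [AlgHom.map_adjoin, Set.image_singleton, hg] at h1
    exact h1
  let φ : ↥(Algebra.adjoin R {t}) →+* ↥(Algebra.adjoin R {ι (algebraMap KM EM t)}) :=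
    ((g : KM →+* L).comp (Algebra.adjoin R {t}).val.toRingHom).codRestrict
      (Algebra.adjoin R {ι (algebraMap KM EM t)}) hmem
  rw [mem_chartOne_iff] at ha
  exact IsIntegral.map_of_comp_eq φ ι (by ext x; rfl) ha

/-- **the hypothesis `ha` of `exists_isBranchUniformizer_of_embedding` for a chart**: the image of
the lower chart `chartOne R EM t` lies in the local ring of the integrally closed upper chart `BL`
at `𝔪` as soon as the image of its coordinate does. -/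
theorem sinfemb_exists_mul_mem_of_coord (ι : EM →+* L)
    (hι : ∀ c : R, ι (algebraMap R EM c) = algebraMap R L c) (BL : Subalgebra R L)
    (hic : ∀ x : L, IsIntegral ↥BL x → x ∈ BL) (𝔪 : Ideal ↥BL) [h𝔪 : 𝔪.IsPrime] (t : KM)
    (r s : ↥BL) (hs : s ∉ 𝔪) (hts : ι (algebraMap KM EM t) * (s : L) = (r : L))
    (a : ↥(chartOne R EM t)) : ∃ r' s' : ↥BL, s' ∉ 𝔪 ∧ ι (a : EM) * (s' : L) = (r' : L) :=
  exists_mul_mem_of_isIntegral_adjoin BL hic 𝔪 _ r s hs hts _ (sinfemb_isIntegral_map ι hι t a.2)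

end Bridge

section Geo

variable {R : Type*} [CommRing R] [IsDomain R] [IsDiscreteValuationRing R] [CharZero R]
  {K₁ : Type*} [Field K₁] [Algebra R K₁] [IsFractionRing R K₁]
  {KM : Type*} [Field KM] [Algebra K₁ KM] [Algebra R KM] [IsScalarTower R K₁ KM]
  {EM : Type*} [Field EM] [Algebra KM EM] [Algebra K₁ EM] [IsScalarTower K₁ KM EM]
  [Algebra R EM] [IsScalarTower R KM EM]
  {L : Type*} [Field L] [Algebra R L]
  {π : R} {t : KM} {n : ℕ} {S : Finset R}

/-- constants outside a closed point of the special fibre are units of the base. -/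
theorem sinfemb_isUnit_of_algebraMap_notMem (hπ : Irreducible π) {BL : Subalgebra R L}
    {𝔪 : Ideal ↥BL} (hπ𝔪 : algebraMap R ↥BL π ∈ 𝔪) (c : R) (hc : algebraMap R ↥BL c ∉ 𝔪) :
    IsUnit c := by
  by_contra hcu
  apply hc
  have h1 : c ∈ IsLocalRing.maximalIdeal R := (IsLocalRing.mem_maximalIdeal c).mpr hcu
  rw [hπ.maximalIdeal_eq, Ideal.mem_span_singleton] at h1
  obtain ⟨d, rfl⟩ := h1
  rw [map_mul]
  exact 𝔪.mul_mem_right _ hπ𝔪

/-- **SINF-EMB in chart currency, existence form**: a smooth branch of the upper chart `BL` at the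
closed point `𝔪` from the good level-`M` chart `chartOne R EM t`, when `ι t` is regular at `𝔪`. -/
theorem GeoHyps.exists_isBranchUniformizer_of_embedding (h : GeoHyps K₁ π t EM n S)
    (ι : EM →+* L) (hι : ∀ c : R, ι (algebraMap R EM c) = algebraMap R L c)
    (BL : Subalgebra R L) (hic : ∀ x : L, IsIntegral ↥BL x → x ∈ BL)
    (V : ValuationSubring L) (hBL : ∀ b ∈ BL, b ∈ V)
    (𝔓 : Ideal ↥BL) (h𝔓 : ∀ b : ↥BL, b ∈ 𝔓 ↔ V.valuation (b : L) < 1)
    (𝔪 : Ideal ↥BL) [h𝔪 : 𝔪.IsMaximal] (h𝔓𝔪 : 𝔓 ≤ 𝔪) (hπ𝔪 : algebraMap R ↥BL π ∈ 𝔪)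
    (hresk : ∀ b : ↥BL, ∃ c : R, b - algebraMap R ↥BL c ∈ 𝔪)
    (hreg : ι (algebraMap KM EM t) ∈ locRing BL 𝔪)
    (hVF : ∀ a : ↥(chartOne R EM t), V.valuation (ι (a : EM)) < 1 ↔
      a ∈ Ideal.span {algebraMap R ↥(chartOne R EM t) π})
    (hres : ∀ x ∈ V, ∃ a c : ↥(chartOne R EM t),
      c ∉ Ideal.span {algebraMap R ↥(chartOne R EM t) π} ∧
      V.valuation (x * ι (c : EM) - ι (a : EM)) < 1) :
    ∃ y : ↥BL, IsBranchUniformizer 𝔓 𝔪 y := by
  haveI h𝔪p : 𝔪.IsPrime := h𝔪.isPrime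
  obtain ⟨r, s, hs, hts⟩ := hreg
  have ha := sinfemb_exists_mul_mem_of_coord ι hι BL hic 𝔪 t r s hs hts
  obtain ⟨hmax, -⟩ := sinfembPull_isMaximal (ha := ha) hι hresk
    (sinfemb_isUnit_of_algebraMap_notMem h.irreducible hπ𝔪)
  haveI := hmax
  have hπ𝔫 : algebraMap R ↥(chartOne R EM t) π ∈ sinfembPull ι (chartOne R EM t) BL 𝔪 ha :=
    (algebraMap_mem_sinfembPull_iff (ha := ha) hι π).mpr hπ𝔪
  obtain ⟨z, hz, hzπ, -, hdvr⟩ := GeoHyps.exists_dvrForm h _ hπ𝔫
  obtain ⟨y, s', -, -, hy⟩ := Fermat.Agent.SS.exists_isBranchUniformizer_of_embedding ι π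
    (chartOne R EM t) BL V hBL 𝔓 h𝔓 𝔪 h𝔓𝔪 ha _
    (fun a r s hs hrs => mem_sinfembPull_iff a r s hs hrs) z hz hzπ hdvr hVF hres
  exact ⟨y, hy⟩

/-- **SINF-EMB in chart currency, coordinate form** (helper8's `hbrA`/`hbrB`): when moreover the
`ι t - s₀`, `s₀ ∈ S`, are units at `𝔪`, the branch uniformizer is `ι t - a` for a constant `a`, up
to a unit at `𝔪`. -/
theorem GeoHyps.exists_coord_sub_isBranchUniformizer_of_embedding
    [IsAlgClosed (IsLocalRing.ResidueField R)] (h : GeoHyps K₁ π t EM n S)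
    (ι : EM →+* L) (hι : ∀ c : R, ι (algebraMap R EM c) = algebraMap R L c)
    (BL : Subalgebra R L) (hic : ∀ x : L, IsIntegral ↥BL x → x ∈ BL)
    (V : ValuationSubring L) (hBL : ∀ b ∈ BL, b ∈ V)
    (𝔓 : Ideal ↥BL) (h𝔓 : ∀ b : ↥BL, b ∈ 𝔓 ↔ V.valuation (b : L) < 1)
    (𝔪 : Ideal ↥BL) [h𝔪 : 𝔪.IsMaximal] (h𝔓𝔪 : 𝔓 ≤ 𝔪) (hπ𝔪 : algebraMap R ↥BL π ∈ 𝔪)
    (hresk : ∀ b : ↥BL, ∃ c : R, b - algebraMap R ↥BL c ∈ 𝔪)
    (hreg : ι (algebraMap KM EM t) ∈ locRing BL 𝔪)
    (hS : ∀ s₀ ∈ S, ι (algebraMap KM EM t) - algebraMap R L s₀ ∉ locMax BL 𝔪)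
    (hVF : ∀ a : ↥(chartOne R EM t), V.valuation (ι (a : EM)) < 1 ↔
      a ∈ Ideal.span {algebraMap R ↥(chartOne R EM t) π})
    (hres : ∀ x ∈ V, ∃ a c : ↥(chartOne R EM t),
      c ∉ Ideal.span {algebraMap R ↥(chartOne R EM t) π} ∧
      V.valuation (x * ι (c : EM) - ι (a : EM)) < 1) :
    ∃ (a : R) (y s' : ↥BL), s' ∉ 𝔪 ∧
      (ι (algebraMap KM EM t) - algebraMap R L a) * (s' : L) = (y : L) ∧
      IsBranchUniformizer 𝔓 𝔪 y := by
  haveI h𝔪p : 𝔪.IsPrime := h𝔪.isPrime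
  obtain ⟨r, s, hs, hts⟩ := hreg
  have ha := sinfemb_exists_mul_mem_of_coord ι hι BL hic 𝔪 t r s hs hts
  obtain ⟨hmax, -⟩ := sinfembPull_isMaximal (ha := ha) hι hresk
    (sinfemb_isUnit_of_algebraMap_notMem h.irreducible hπ𝔪)
  haveI := hmax
  have hπ𝔫 : algebraMap R ↥(chartOne R EM t) π ∈ sinfembPull ι (chartOne R EM t) BL 𝔪 ha :=
    (algebraMap_mem_sinfembPull_iff (ha := ha) hι π).mpr hπ𝔪
  have hcoe : ∀ c : R, ι (((⟨algebraMap KM EM t, algebraMap_coord_mem_chartOne t⟩ :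
      ↥(chartOne R EM t)) - algebraMap R ↥(chartOne R EM t) c : ↥(chartOne R EM t)) : EM) =
      ι (algebraMap KM EM t) - algebraMap R L c := by
    intro c
    have h1 : ((algebraMap R ↥(chartOne R EM t) c : ↥(chartOne R EM t)) : EM) =
        algebraMap R EM c := rfl
    rw [Subalgebra.coe_sub, h1, map_sub, hι]
  have hS' : ∀ s₀ ∈ S, (⟨algebraMap KM EM t, algebraMap_coord_mem_chartOne t⟩ :
      ↥(chartOne R EM t)) - algebraMap R ↥(chartOne R EM t) s₀ ∉
        sinfembPull ι (chartOne R EM t) BL 𝔪 ha := by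
    rintro s₀ hs₀ ⟨r', s', hs', hr', hrs'⟩
    exact hS s₀ hs₀ ⟨r', s', hr', hs', by rw [← hcoe]; exact hrs'⟩
  obtain ⟨a, -, hz, hzπ, -, hdvr⟩ := GeoHyps.exists_coord_sub_dvrForm h _ hπ𝔫 hS'
  obtain ⟨y, s', hs', hys', hy⟩ := Fermat.Agent.SS.exists_isBranchUniformizer_of_embedding ι π
    (chartOne R EM t) BL V hBL 𝔓 h𝔓 𝔪 h𝔓𝔪 ha _
    (fun a r s hs hrs => mem_sinfembPull_iff a r s hs hrs) _ hz hzπ hdvr hVF hres
  exact ⟨a, y, s', hs', by rw [← hcoe]; exact hys', hy⟩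

/-- the hypotheses `hVF`, `hres` of SINF-EMB for a valuation subring `W` of the upper field lying
over the Gauss extension `VM` of the lower level along `ι` with residue degree one. -/
theorem sinfemb_hVF_hres (h : GeoHyps K₁ π t EM n S) (VM : ValuationSubring EM)
    (hGM : IsGaussAt R π t (VM.comap (algebraMap KM EM)))
    (ι : EM →+* L) (W : ValuationSubring L) (hcomap : W.comap ι = VM)
    (hresW : ∀ x ∈ W, ∃ a ∈ VM, W.valuation (x - ι a) < 1) :
    (∀ a : ↥(chartOne R EM t), W.valuation (ι (a : EM)) < 1 ↔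
      a ∈ Ideal.span {algebraMap R ↥(chartOne R EM t) π}) ∧
    (∀ x ∈ W, ∃ a c : ↥(chartOne R EM t),
      c ∉ Ideal.span {algebraMap R ↥(chartOne R EM t) π} ∧
      W.valuation (x * ι (c : EM) - ι (a : EM)) < 1) := by
  haveI := h.finite
  have hVF : ∀ a : ↥(chartOne R EM t), W.valuation (ι (a : EM)) < 1 ↔
      a ∈ Ideal.span {algebraMap R ↥(chartOne R EM t) π} := by
    intro a
    rw [← sinfemb_comap_valuation_lt_one_iff, hcomap,
      GeoHyps.valuation_lt_one_iff_mem_span h VM hGM]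
  refine ⟨hVF, ?_⟩
  intro x hx
  obtain ⟨a₀, ha₀, hxa⟩ := hresW x hx
  obtain ⟨r, s, hs, hrs⟩ := GeoHyps.exists_mul_eq_of_mem h VM hGM a₀ ha₀
  refine ⟨r, s, hs, ?_⟩
  have hιs : W.valuation (ι (s : EM)) ≤ 1 := by
    rw [ValuationSubring.valuation_le_one_iff, ← ValuationSubring.mem_comap, hcomap]
    exact chart_le_of_isGaussAt hGM _ s.2
  have hid : x * ι (s : EM) - ι (r : EM) = ι (s : EM) * (x - ι a₀) := by
    rw [← hrs, map_mul]; ring
  rw [hid, map_mul]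
  calc W.valuation (ι (s : EM)) * W.valuation (x - ι a₀)
      ≤ 1 * W.valuation (x - ι a₀) := mul_le_mul_left hιs _
    _ = W.valuation (x - ι a₀) := one_mul _
    _ < 1 := hxa

/-- **SINF-EMB, `(ι, W)` form, existence**: `W` lies over the Gauss extension `VM` of the level of
good reduction along `ι` with residue degree one; `BL ⊆ W` any integrally closed upper chart. -/
theorem GeoHyps.exists_isBranchUniformizer_of_comap (h : GeoHyps K₁ π t EM n S)
    (VM : ValuationSubring EM) (hGM : IsGaussAt R π t (VM.comap (algebraMap KM EM)))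
    (ι : EM →+* L) (hι : ∀ c : R, ι (algebraMap R EM c) = algebraMap R L c)
    (W : ValuationSubring L) (hcomap : W.comap ι = VM)
    (hresW : ∀ x ∈ W, ∃ a ∈ VM, W.valuation (x - ι a) < 1)
    (BL : Subalgebra R L) (hic : ∀ x : L, IsIntegral ↥BL x → x ∈ BL) (hBL : ∀ b ∈ BL, b ∈ W)
    (𝔓 : Ideal ↥BL) (h𝔓 : ∀ b : ↥BL, b ∈ 𝔓 ↔ W.valuation (b : L) < 1)
    (𝔪 : Ideal ↥BL) [h𝔪 : 𝔪.IsMaximal] (h𝔓𝔪 : 𝔓 ≤ 𝔪) (hπ𝔪 : algebraMap R ↥BL π ∈ 𝔪)
    (hresk : ∀ b : ↥BL, ∃ c : R, b - algebraMap R ↥BL c ∈ 𝔪)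
    (hreg : ι (algebraMap KM EM t) ∈ locRing BL 𝔪) :
    ∃ y : ↥BL, IsBranchUniformizer 𝔓 𝔪 y := by
  obtain ⟨hVF, hres⟩ := sinfemb_hVF_hres h VM hGM ι W hcomap hresW
  exact GeoHyps.exists_isBranchUniformizer_of_embedding h ι hι BL hic W hBL 𝔓 h𝔓 𝔪 h𝔓𝔪 hπ𝔪 hresk
    hreg hVF hres

/-- **SINF-EMB, `(ι, W)` form, coordinate version** (helper8's `hbrA`/`hbrB`). -/
theorem GeoHyps.exists_coord_sub_isBranchUniformizer_of_comap
    [IsAlgClosed (IsLocalRing.ResidueField R)] (h : GeoHyps K₁ π t EM n S)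
    (VM : ValuationSubring EM) (hGM : IsGaussAt R π t (VM.comap (algebraMap KM EM)))
    (ι : EM →+* L) (hι : ∀ c : R, ι (algebraMap R EM c) = algebraMap R L c)
    (W : ValuationSubring L) (hcomap : W.comap ι = VM)
    (hresW : ∀ x ∈ W, ∃ a ∈ VM, W.valuation (x - ι a) < 1)
    (BL : Subalgebra R L) (hic : ∀ x : L, IsIntegral ↥BL x → x ∈ BL) (hBL : ∀ b ∈ BL, b ∈ W)
    (𝔓 : Ideal ↥BL) (h𝔓 : ∀ b : ↥BL, b ∈ 𝔓 ↔ W.valuation (b : L) < 1)
    (𝔪 : Ideal ↥BL) [h𝔪 : 𝔪.IsMaximal] (h𝔓𝔪 : 𝔓 ≤ 𝔪) (hπ𝔪 : algebraMap R ↥BL π ∈ 𝔪)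
    (hresk : ∀ b : ↥BL, ∃ c : R, b - algebraMap R ↥BL c ∈ 𝔪)
    (hreg : ι (algebraMap KM EM t) ∈ locRing BL 𝔪)
    (hS : ∀ s₀ ∈ S, ι (algebraMap KM EM t) - algebraMap R L s₀ ∉ locMax BL 𝔪) :
    ∃ (a : R) (y s' : ↥BL), s' ∉ 𝔪 ∧
      (ι (algebraMap KM EM t) - algebraMap R L a) * (s' : L) = (y : L) ∧
      IsBranchUniformizer 𝔓 𝔪 y := by
  obtain ⟨hVF, hres⟩ := sinfemb_hVF_hres h VM hGM ι W hcomap hresW
  exact GeoHyps.exists_coord_sub_isBranchUniformizer_of_embedding h ι hι BL hic W hBL 𝔓 h𝔓 𝔪 h𝔓𝔪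
    hπ𝔪 hresk hreg hS hVF hres

end Geo

section Sheet

variable {R : Type*} [CommRing R] [IsDomain R] [IsDiscreteValuationRing R] [CharZero R]
  {K₁ : Type*} [Field K₁] [Algebra R K₁] [IsFractionRing R K₁]
  {KM : Type*} [Field KM] [Algebra K₁ KM] [Algebra R KM] [IsScalarTower R K₁ KM]
  {EM : Type*} [Field EM] [Algebra KM EM] [Algebra K₁ EM] [IsScalarTower K₁ KM EM]
  [Algebra R EM] [IsScalarTower R KM EM]
  {KN : Type*} [Field KN] [Algebra K₁ KN] [Algebra R KN] [IsScalarTower R K₁ KN]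
  {EN : Type*} [Field EN] [Algebra KN EN] [Algebra R EN] [IsScalarTower R KN EN]
  [FiniteDimensional KN EN]
  {π : R} {t : KM} {n : ℕ} {S : Finset R}

/-- `π` lies in the sheet ideal of a Gauss extension. -/
theorem sinfemb_pi_mem_sheetIdeal {u : KN} {W : ValuationSubring EN}
    (hG : IsGaussAt R π u (W.comap (algebraMap KN EN))) :
    algebraMap R ↥(chartOne R EN u) π ∈ sheetIdeal u W (chart_le_of_isGaussAt hG) := by
  rw [mem_sheetIdeal_iff]
  have h1 : ((algebraMap R ↥(chartOne R EN u) π : ↥(chartOne R EN u)) : EN) =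
      algebraMap KN EN (algebraMap R KN π) := by
    rw [← IsScalarTower.algebraMap_apply]; rfl
  rw [h1, ← sinfemb_comap_valuation_lt_one_iff]
  have h0 : algebraMap R KN π ≠ 0 := by
    intro h0
    apply hG.2.1
    rw [h0, inv_zero]
    exact (W.comap (algebraMap KN EN)).zero_mem
  rw [sinfemb_valuation_lt_one_iff _ h0]
  exact hG.2.1

/-- **SINF-EMB for a sheet, existence form.** `W` a Gauss extension to `EN` (coordinate `u`) lying
over the Gauss extension `VM` of level `M` along `ι` with residue degree one; `𝔪` a closed point of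
the sheet of `W` in the chart `u` at which `ι t` is regular. -/
theorem GeoHyps.exists_isBranchUniformizer_sheet [IsAlgClosed (IsLocalRing.ResidueField R)]
    (h : GeoHyps K₁ π t EM n S) (VM : ValuationSubring EM)
    (hGM : IsGaussAt R π t (VM.comap (algebraMap KM EM)))
    {u : KN} (hu : Transcendental K₁ u) (hK : IntermediateField.adjoin K₁ {u} = ⊤)
    (ι : EM →+* EN) (hι : ∀ c : R, ι (algebraMap R EM c) = algebraMap R EN c)
    {W : ValuationSubring EN} (hG : IsGaussAt R π u (W.comap (algebraMap KN EN)))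
    (hcomap : W.comap ι = VM) (hresW : ∀ x ∈ W, ∃ a ∈ VM, W.valuation (x - ι a) < 1)
    (𝔪 : Ideal ↥(chartOne R EN u)) [h𝔪 : 𝔪.IsMaximal]
    (h𝔓𝔪 : sheetIdeal u W (chart_le_of_isGaussAt hG) ≤ 𝔪)
    (hreg : ι (algebraMap KM EM t) ∈ locRing (chartOne R EN u) 𝔪) :
    ∃ y : ↥(chartOne R EN u),
      IsBranchUniformizer (sheetIdeal u W (chart_le_of_isGaussAt hG)) 𝔪 y := by
  have hπ𝔪 : algebraMap R ↥(chartOne R EN u) π ∈ 𝔪 := h𝔓𝔪 (sinfemb_pi_mem_sheetIdeal hG)
  exact GeoHyps.exists_isBranchUniformizer_of_comap h VM hGM ι hι W hcomap hresW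
    (chartOne R EN u) (fun x hx => sinfemb_mem_chartOne_of_isIntegral u hx)
    (chart_le_of_isGaussAt hG) _ (fun b => mem_sheetIdeal_iff u W _ b) 𝔪 h𝔓𝔪 hπ𝔪
    (exists_sub_mem_of_isMaximal_chartOne (K₁ := K₁) h.irreducible hu hK 𝔪 hπ𝔪) hreg

/-- **SINF-EMB for a sheet, coordinate form** (= helper8's `hbrA` / `hbrB`). -/
theorem GeoHyps.exists_coord_sub_isBranchUniformizer_sheet
    [IsAlgClosed (IsLocalRing.ResidueField R)]
    (h : GeoHyps K₁ π t EM n S) (VM : ValuationSubring EM)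
    (hGM : IsGaussAt R π t (VM.comap (algebraMap KM EM)))
    {u : KN} (hu : Transcendental K₁ u) (hK : IntermediateField.adjoin K₁ {u} = ⊤)
    (ι : EM →+* EN) (hι : ∀ c : R, ι (algebraMap R EM c) = algebraMap R EN c)
    {W : ValuationSubring EN} (hG : IsGaussAt R π u (W.comap (algebraMap KN EN)))
    (hcomap : W.comap ι = VM) (hresW : ∀ x ∈ W, ∃ a ∈ VM, W.valuation (x - ι a) < 1)
    (𝔪 : Ideal ↥(chartOne R EN u)) [h𝔪 : 𝔪.IsMaximal]
    (h𝔓𝔪 : sheetIdeal u W (chart_le_of_isGaussAt hG) ≤ 𝔪)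
    (hreg : ι (algebraMap KM EM t) ∈ locRing (chartOne R EN u) 𝔪)
    (hS : ∀ s₀ ∈ S, ι (algebraMap KM EM t) - algebraMap R EN s₀ ∉ locMax (chartOne R EN u) 𝔪) :
    ∃ (a : R) (y s' : ↥(chartOne R EN u)), s' ∉ 𝔪 ∧
      (ι (algebraMap KM EM t) - algebraMap R EN a) * (s' : EN) = (y : EN) ∧
      IsBranchUniformizer (sheetIdeal u W (chart_le_of_isGaussAt hG)) 𝔪 y := by
  have hπ𝔪 : algebraMap R ↥(chartOne R EN u) π ∈ 𝔪 := h𝔓𝔪 (sinfemb_pi_mem_sheetIdeal hG)
  exact GeoHyps.exists_coord_sub_isBranchUniformizer_of_comap h VM hGM ι hι W hcomap hresW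
    (chartOne R EN u) (fun x hx => sinfemb_mem_chartOne_of_isIntegral u hx)
    (chart_le_of_isGaussAt hG) _ (fun b => mem_sheetIdeal_iff u W _ b) 𝔪 h𝔓𝔪 hπ𝔪
    (exists_sub_mem_of_isMaximal_chartOne (K₁ := K₁) h.irreducible hu hK 𝔪 hπ𝔪) hreg hS

end Sheet

section Model

variable {R : Type*} [CommRing R] [IsDomain R] [IsDiscreteValuationRing R] [CharZero R]
  {K₁ : Type*} [Field K₁] [Algebra R K₁] [IsFractionRing R K₁]
  {KM : Type*} [Field KM] [Algebra K₁ KM] [Algebra R KM] [IsScalarTower R K₁ KM]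
  {EM : Type*} [Field EM] [Algebra KM EM] [Algebra K₁ EM] [IsScalarTower K₁ KM EM] [Algebra R EM]
  [IsScalarTower R KM EM]
  {KN : Type*} [Field KN] [Algebra K₁ KN] [Algebra R KN] [IsScalarTower R K₁ KN]
  {EN : Type*} [Field EN] [Algebra KN EN] [Algebra K₁ EN] [IsScalarTower K₁ KN EN] [Algebra R EN]
  [IsScalarTower R KN EN] [FiniteDimensional KN EN]
  {π : R} {q n : ℕ} {S : Finset R} {t : KM} {jM : EM} {j : KN} {A B : EM →+* EN}
  {VM : ValuationSubring EM} {Winf W0 : ValuationSubring EN}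

/-- **branch_inf from the model**: a branch uniformizer of the sheet `C_∞` at a closed point of the
chart `u` (`u = j` or `j⁻¹`) where `A t` is regular. -/
theorem SSModel.exists_isBranchUniformizer_inf [IsAlgClosed (IsLocalRing.ResidueField R)]
    (h : SSModel K₁ π q n S t jM j A B VM Winf W0)
    {u : KN} (hu : Transcendental K₁ u) (hK : IntermediateField.adjoin K₁ {u} = ⊤)
    (h2 : IsTwoSheet π u Winf W0)
    (𝔪 : Ideal ↥(chartOne R EN u)) [h𝔪 : 𝔪.IsMaximal]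
    (hinf : sheetIdeal u Winf h2.chart_le_inf ≤ 𝔪)
    (hreg : A (algebraMap KM EM t) ∈ locRing (chartOne R EN u) 𝔪) :
    ∃ y : ↥(chartOne R EN u), IsBranchUniformizer (sheetIdeal u Winf h2.chart_le_inf) 𝔪 y :=
  GeoHyps.exists_isBranchUniformizer_sheet h.geo VM h.gauss_M hu hK A h.A_algebraMap
    h2.gauss_inf h.comap_A_inf h.res_inf 𝔪 hinf hreg

/-- **branch_zero from the model** (the `B`-side). -/
theorem SSModel.exists_isBranchUniformizer_zero [IsAlgClosed (IsLocalRing.ResidueField R)]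
    (h : SSModel K₁ π q n S t jM j A B VM Winf W0)
    {u : KN} (hu : Transcendental K₁ u) (hK : IntermediateField.adjoin K₁ {u} = ⊤)
    (h2 : IsTwoSheet π u Winf W0)
    (𝔪 : Ideal ↥(chartOne R EN u)) [h𝔪 : 𝔪.IsMaximal]
    (hzero : sheetIdeal u W0 h2.chart_le_zero ≤ 𝔪)
    (hreg : B (algebraMap KM EM t) ∈ locRing (chartOne R EN u) 𝔪) :
    ∃ y : ↥(chartOne R EN u), IsBranchUniformizer (sheetIdeal u W0 h2.chart_le_zero) 𝔪 y :=
  GeoHyps.exists_isBranchUniformizer_sheet h.geo VM h.gauss_M hu hK B h.B_algebraMap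
    h2.gauss_zero h.comap_B_zero h.res_zero 𝔪 hzero hreg

/-- **helper8's `hbrA` from the model**: at a closed point of the sheet `C_∞` in the chart `u` where
`A t` is regular and the `A t - s₀`, `s₀ ∈ S`, are units, the branch uniformizer is `A t - a`. -/
theorem SSModel.exists_coord_sub_isBranchUniformizer_inf
    [IsAlgClosed (IsLocalRing.ResidueField R)]
    (h : SSModel K₁ π q n S t jM j A B VM Winf W0)
    {u : KN} (hu : Transcendental K₁ u) (hK : IntermediateField.adjoin K₁ {u} = ⊤)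
    (h2 : IsTwoSheet π u Winf W0)
    (𝔪 : Ideal ↥(chartOne R EN u)) [h𝔪 : 𝔪.IsMaximal]
    (hinf : sheetIdeal u Winf h2.chart_le_inf ≤ 𝔪)
    (hreg : A (algebraMap KM EM t) ∈ locRing (chartOne R EN u) 𝔪)
    (hS : ∀ s₀ ∈ S, A (algebraMap KM EM t) - algebraMap R EN s₀ ∉
      locMax (chartOne R EN u) 𝔪) :
    ∃ (a : R) (y s' : ↥(chartOne R EN u)), s' ∉ 𝔪 ∧
      (A (algebraMap KM EM t) - algebraMap R EN a) * (s' : EN) = (y : EN) ∧
      IsBranchUniformizer (sheetIdeal u Winf h2.chart_le_inf) 𝔪 y :=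
  GeoHyps.exists_coord_sub_isBranchUniformizer_sheet h.geo VM h.gauss_M hu hK A
    h.A_algebraMap h2.gauss_inf h.comap_A_inf h.res_inf 𝔪 hinf hreg hS

/-- **helper8's `hbrB` from the model.** -/
theorem SSModel.exists_coord_sub_isBranchUniformizer_zero
    [IsAlgClosed (IsLocalRing.ResidueField R)]
    (h : SSModel K₁ π q n S t jM j A B VM Winf W0)
    {u : KN} (hu : Transcendental K₁ u) (hK : IntermediateField.adjoin K₁ {u} = ⊤)
    (h2 : IsTwoSheet π u Winf W0)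
    (𝔪 : Ideal ↥(chartOne R EN u)) [h𝔪 : 𝔪.IsMaximal]
    (hzero : sheetIdeal u W0 h2.chart_le_zero ≤ 𝔪)
    (hreg : B (algebraMap KM EM t) ∈ locRing (chartOne R EN u) 𝔪)
    (hS : ∀ s₀ ∈ S, B (algebraMap KM EM t) - algebraMap R EN s₀ ∉
      locMax (chartOne R EN u) 𝔪) :
    ∃ (b : R) (y s' : ↥(chartOne R EN u)), s' ∉ 𝔪 ∧
      (B (algebraMap KM EM t) - algebraMap R EN b) * (s' : EN) = (y : EN) ∧
      IsBranchUniformizer (sheetIdeal u W0 h2.chart_le_zero) 𝔪 y :=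
  GeoHyps.exists_coord_sub_isBranchUniformizer_sheet h.geo VM h.gauss_M hu hK B
    h.B_algebraMap h2.gauss_zero h.comap_B_zero h.res_zero 𝔪 hzero hreg hS

end Model

end Fermat.Agent.SS
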