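/-
(SS-q) UNODE, abstract part — helper6 — **the unit clause of the node data of a two-sheeted chart**
(`IsModelChart.node`, LOCASM `hnode`): a function `U` which is a unit of the valuation ring `W_∞`
and `π^c ·` unit of `W_0` is a unit at the sheet `𝔓_∞` and `π^c ·` unit at the sheet `𝔓_0` of the
chart, in the currency `IsUnitAtPrime` of NODEALG.
-/
import Mathlib
import Fermat.Agent.SS.VERT_helper4
import Fermat.Agent.SS.NODEALG_helper5_Div

set_option autoImplicit false
set_option linter.unusedSectionVars false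
set_option linter.style.haveILetI false

namespace Fermat.Agent.SS

open Fermat.Agent.JA

section UNode

variable {R : Type*} [CommRing R] [IsDomain R] [IsDiscreteValuationRing R] [CharZero R]
  {K₁ : Type*} [Field K₁] [Algebra R K₁] [IsFractionRing R K₁]
  {K : Type*} [Field K] [Algebra K₁ K] [Algebra R K] [IsScalarTower R K₁ K]
  {E : Type*} [Field E] [Algebra K E] [Algebra R E] [IsScalarTower R K E] [FiniteDimensional K E]

variable {π : R} {u : K}

/-- an element of the chart outside the sheet of `W` has valuation one. -/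
theorem valuation_eq_one_of_notMem_sheetIdeal {W : ValuationSubring E}
    (hW : ∀ b ∈ chartOne R E u, b ∈ W) {s : ↥(chartOne R E u)} (hs : s ∉ sheetIdeal u W hW) :
    W.valuation (s : E) = 1 := by
  rw [mem_sheetIdeal_iff, not_lt] at hs
  exact le_antisymm ((ValuationSubring.valuation_le_one_iff _ _).mpr (hW _ s.2)) hs

/-- a nonzero element of a valuation subring whose inverse is also in it has valuation one. -/
theorem valuation_eq_one_of_mem_of_inv_mem {W : ValuationSubring E} {x : E} (hx0 : x ≠ 0)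
    (hx : x ∈ W) (hx' : x⁻¹ ∈ W) : W.valuation x = 1 := by
  have h1 : W.valuation x ≤ 1 := (ValuationSubring.valuation_le_one_iff _ _).mpr hx
  have h2 : W.valuation x⁻¹ ≤ 1 := (ValuationSubring.valuation_le_one_iff _ _).mpr hx'
  rw [map_inv₀] at h2
  have h0 : W.valuation x ≠ 0 := (Valuation.ne_zero_iff _).mpr hx0
  have h3 : 1 ≤ W.valuation x := by
    by_contra hlt
    rw [not_le] at hlt
    have := (one_lt_inv₀ (zero_lt_iff.mpr h0)).mpr hlt
    exact absurd h2 (not_le.mpr this)
  exact le_antisymm h1 h3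

/-- **a unit of a valuation subring over the Gauss valuation is a unit at its sheet.** -/
theorem isUnitAtPrime_sheetIdeal_of_isGaussAt (hπ : Irreducible π)
    (hu : Transcendental K₁ u) (hK : IntermediateField.adjoin K₁ {u} = ⊤)
    [IsFractionRing ↥(chartOne R E u) E]
    {W : ValuationSubring E} (hG : IsGaussAt R π u (W.comap (algebraMap K E)))
    {x : E} (hx0 : x ≠ 0) (hx : x ∈ W) (hx' : x⁻¹ ∈ W) :
    IsUnitAtPrime (sheetIdeal u W (chart_le_of_isGaussAt hG)) x := by
  obtain ⟨r, s, hs, hrs⟩ := exists_mul_eq_of_mem_of_isGaussAt hπ hu hK hG x hx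
  refine ⟨r, s, ?_, hs, hrs⟩
  rw [mem_sheetIdeal_iff, not_lt]
  have h1 := valuation_eq_one_of_mem_of_inv_mem hx0 hx hx'
  have h2 := valuation_eq_one_of_notMem_sheetIdeal (chart_le_of_isGaussAt hG) hs
  rw [← hrs, map_mul, h1, h2, one_mul]

variable {Winf W0 : ValuationSubring E}

/-- **UNODE, abstract**: the unit clause of `IsModelChart.node` / LOCASM `hnode` for a function
`U` with `U ∈ W_∞ˣ` and `U / π^c ∈ W_0ˣ` on a two-sheeted chart. -/
theorem IsTwoSheet.isUnitAtPrime_nodeUnit (h : IsTwoSheet π u Winf W0) (hπ : Irreducible π)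
    (hu : Transcendental K₁ u) (hK : IntermediateField.adjoin K₁ {u} = ⊤)
    [IsFractionRing ↥(chartOne R E u) E]
    {U : E} (hU0 : U ≠ 0) (c : ℕ) (hUinf : U ∈ Winf) (hUinf' : U⁻¹ ∈ Winf)
    (hUzero : U * (algebraMap R E π ^ c)⁻¹ ∈ W0)
    (hUzero' : (U * (algebraMap R E π ^ c)⁻¹)⁻¹ ∈ W0) :
    IsUnitAtPrime (sheetIdeal u Winf h.chart_le_inf) U ∧
      IsUnitAtPrime (sheetIdeal u W0 h.chart_le_zero)
        (U * (algebraMap ↥(chartOne R E u) E (algebraMap R ↥(chartOne R E u) π) ^ c)⁻¹) := by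
  refine ⟨isUnitAtPrime_sheetIdeal_of_isGaussAt hπ hu hK h.gauss_inf hU0 hUinf hUinf', ?_⟩
  have hπE : algebraMap ↥(chartOne R E u) E (algebraMap R ↥(chartOne R E u) π) =
      algebraMap R E π := rfl
  rw [hπE]
  have hπ0 : algebraMap R E π ≠ 0 := algebraMap_pi_ne_zero (K₁ := K₁) (K := K) hπ
  exact isUnitAtPrime_sheetIdeal_of_isGaussAt hπ hu hK h.gauss_zero
    (mul_ne_zero hU0 (inv_ne_zero (pow_ne_zero c hπ0))) hUzero hUzero'

end UNode

end Fermat.Agent.SS
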