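/-
(SS-q) — helper6 — **REG-PLUG**: the modular unit at a node, against valuation subrings.

`R` a noetherian integrally closed local domain with fraction field `K`, `P0`, `Pinf` the two
vertical primes at a node (`IsNodePair`), `V0`, `Vinf` valuation subrings of `K` centred at `P0`,
`Pinf` (elements of `R` outside the prime are units of the valuation ring, `π` is a non-unit).
If `g ∈ K` is a unit of `Vinf`, `g / π^c` is a unit of `V0` (`1 ≤ c`), and `g` is a unit at all
horizontal primes of height one, then the node has a normal form `x' y' = π^m · unit`, `m ≤ c`.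
Also: units at the horizontal primes from integrality over `K₁[j]`.
-/
import Mathlib
import Fermat.Agent.SS.UNITNODE_helper6
import Fermat.Agent.SS.NODEALG_helper5_Order

set_option autoImplicit false
set_option linter.unusedSectionVars false
set_option linter.style.haveILetI false

namespace Fermat.Agent.SS

open IsLocalRing

section Centre

variable {R : Type*} [CommRing R] [IsDomain R] [IsNoetherianRing R]
variable {K : Type*} [Field K] [Algebra R K] [IsFractionRing R K]

/-- a valuation subring `V` of `K` is centred at the prime `𝔭` of `R` with local parameter `π`: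
elements outside `𝔭` are units of `V` and `π` is a non-unit of `V`. -/
structure IsCentredAt (V : ValuationSubring K) (𝔭 : Ideal R) (π : R) : Prop where
  mem : ∀ r : R, r ∉ 𝔭 → algebraMap R K r ∈ V
  inv_mem : ∀ r : R, r ∉ 𝔭 → (algebraMap R K r)⁻¹ ∈ V
  pi_mem : algebraMap R K π ∈ V
  pi_inv_notMem : (algebraMap R K π)⁻¹ ∉ V

variable {V : ValuationSubring K} {𝔭 : Ideal R} {π : R}

theorem IsCentredAt.mem_of_isUnitAtPrime (hV : IsCentredAt V 𝔭 π) [𝔭.IsPrime] {g : K}
    (hg : IsUnitAtPrime 𝔭 g) : g ∈ V ∧ g⁻¹ ∈ V := by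
  have hg0 := hg.ne_zero
  obtain ⟨r, s, hr, hs, hrs⟩ := hg
  have hinjK : Function.Injective (algebraMap R K) := IsFractionRing.injective R K
  have hs0 : algebraMap R K s ≠ 0 := fun h' =>
    hs (by rw [hinjK (by rw [h', map_zero] : algebraMap R K s = algebraMap R K 0)]; exact 𝔭.zero_mem)
  have hr0 : algebraMap R K r ≠ 0 := fun h' =>
    hr (by rw [hinjK (by rw [h', map_zero] : algebraMap R K r = algebraMap R K 0)]; exact 𝔭.zero_mem)
  have e1 : g = algebraMap R K r * (algebraMap R K s)⁻¹ := by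
    rw [← hrs, mul_assoc, mul_inv_cancel₀ hs0, mul_one]
  have e2 : g⁻¹ = algebraMap R K s * (algebraMap R K r)⁻¹ := by
    rw [e1, mul_inv, inv_inv, mul_comm]
  exact ⟨e1 ▸ V.mul_mem _ _ (hV.mem r hr) (hV.inv_mem s hs),
    e2 ▸ V.mul_mem _ _ (hV.mem s hs) (hV.inv_mem r hr)⟩

theorem IsCentredAt.zpow_notMem (hV : IsCentredAt V 𝔭 π) {e : ℤ} (he : e < 0) :
    algebraMap R K π ^ e ∉ V := by
  intro hmem
  obtain ⟨n, rfl⟩ : ∃ n : ℕ, e = -(n + 1 : ℕ) := ⟨(-e - 1).toNat, by omega⟩
  apply hV.pi_inv_notMem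
  by_cases h0 : algebraMap R K π = 0
  · rw [h0, inv_zero]
    exact V.zero_mem
  have h1 : (algebraMap R K π)⁻¹ =
      algebraMap R K π ^ (-((n + 1 : ℕ) : ℤ)) * algebraMap R K π ^ n := by
    rw [zpow_neg, zpow_natCast, pow_succ, mul_inv, mul_comm _ (algebraMap R K π)⁻¹, mul_assoc,
      inv_mul_cancel₀ (pow_ne_zero n h0), mul_one]
  rw [h1]
  exact V.mul_mem _ _ hmem (V.pow_mem hV.pi_mem n)

/-- **orders from valuation rings**: if `g / π^c` is a unit of a valuation ring centred at the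
locally principal prime `𝔭`, it is a unit at `𝔭`. -/
theorem IsCentredAt.isUnitAtPrime (hV : IsCentredAt V 𝔭 π) [𝔭.IsPrime] (hπ : π ∈ 𝔭) (hπ0 : π ≠ 0)
    (hloc : ∀ z ∈ 𝔭, ∃ s : R, s ∉ 𝔭 ∧ π ∣ s * z) {g : K} (hg0 : g ≠ 0) (c : ℤ)
    (hg : g * (algebraMap R K π ^ c)⁻¹ ∈ V) (hg' : (g * (algebraMap R K π ^ c)⁻¹)⁻¹ ∈ V) :
    IsUnitAtPrime 𝔭 (g * (algebraMap R K π ^ c)⁻¹) := by
  have hinjK : Function.Injective (algebraMap R K) := IsFractionRing.injective R K
  have hπK : algebraMap R K π ≠ 0 := fun h' => hπ0 (hinjK (by rw [h', map_zero]))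
  obtain ⟨e, he⟩ := exists_zpow_isUnitAtPrime (K := K) 𝔭 hπ hloc hg0
  obtain ⟨h1, h2⟩ := hV.mem_of_isUnitAtPrime he
  -- `π^(e-c)` and `π^(c-e)` lie in `V`
  have hz1 : algebraMap R K π ^ (e - c) ∈ V := by
    have : algebraMap R K π ^ (e - c) =
        (g * (algebraMap R K π ^ c)⁻¹) * (g * (algebraMap R K π ^ e)⁻¹)⁻¹ := by
      rw [zpow_sub₀ hπK]
      have h3 : algebraMap R K π ^ e ≠ 0 := zpow_ne_zero _ hπK
      have h4 : algebraMap R K π ^ c ≠ 0 := zpow_ne_zero _ hπK
      field_simp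
    rw [this]
    exact V.mul_mem _ _ hg h2
  have hz2 : algebraMap R K π ^ (c - e) ∈ V := by
    have : algebraMap R K π ^ (c - e) =
        (g * (algebraMap R K π ^ c)⁻¹)⁻¹ * (g * (algebraMap R K π ^ e)⁻¹) := by
      rw [zpow_sub₀ hπK]
      have h3 : algebraMap R K π ^ e ≠ 0 := zpow_ne_zero _ hπK
      have h4 : algebraMap R K π ^ c ≠ 0 := zpow_ne_zero _ hπK
      field_simp
    rw [this]
    exact V.mul_mem _ _ hg' h1
  have hec : e = c := by
    by_contra hne
    rcases lt_or_gt_of_ne hne with hlt | hgt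
    · exact hV.zpow_notMem (by omega : e - c < 0) hz1
    · exact hV.zpow_notMem (by omega : c - e < 0) hz2
  rw [← hec]
  exact he

end Centre

section Plug

variable {R : Type*} [CommRing R] [IsDomain R] [IsLocalRing R] [IsNoetherianRing R]
  [IsIntegrallyClosed R] {K : Type*} [Field K] [Algebra R K] [IsFractionRing R K]
  {π : R} {P0 Pinf : Ideal R} {x y : R}

/-- the two vertical primes of a node are the only primes of height one containing `π`. -/
theorem IsNodePair.eq_or_eq_of_height_one (h : IsNodePair P0 Pinf x y) [P0.IsPrime] [Pinf.IsPrime]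
    (hπne : π ≠ 0) (hπ0 : π ∈ P0) (hπinf : π ∈ Pinf) (hinf : P0 ⊓ Pinf ≤ Ideal.span {π})
    (P : Ideal R) (hP : P.IsPrime) (hht : P.height = 1) (hπP : π ∈ P) : P = P0 ∨ P = Pinf := by
  have hxy : x * y ∈ P := by
    have h1 : x * y ∈ P0 ⊓ Pinf := ⟨P0.mul_mem_right _ h.x_mem, Pinf.mul_mem_left _ h.y_mem⟩
    obtain ⟨a, ha⟩ := Ideal.mem_span_singleton'.mp (hinf h1)
    rw [← ha]
    exact P.mul_mem_left _ hπP
  have hle : P0 ≤ P ∨ Pinf ≤ P := by
    by_contra hcon
    push Not at hcon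
    obtain ⟨h1, h2⟩ := hcon
    obtain ⟨a, ha0, haP⟩ := Set.not_subset.mp h1
    obtain ⟨b, hbinf, hbP⟩ := Set.not_subset.mp h2
    have h3 : a * b ∈ P0 ⊓ Pinf := ⟨P0.mul_mem_right _ ha0, Pinf.mul_mem_left _ hbinf⟩
    obtain ⟨d, hd⟩ := Ideal.mem_span_singleton'.mp (hinf h3)
    have h4 : a * b ∈ P := by rw [← hd]; exact P.mul_mem_left _ hπP
    rcases hP.mem_or_mem h4 with h5 | h5
    · exact haP h5
    · exact hbP h5
  rcases hle with hle | hle
  · left
    exact (eq_of_le_of_height_eq_one hle (fun hb => hπne (by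
      have := hb ▸ hπ0; simpa using this)) hht).symm
  · right
    exact (eq_of_le_of_height_eq_one hle (fun hb => hπne (by
      have := hb ▸ hπinf; simpa using this)) hht).symm

/-- **REG-PLUG**: the normal form of a node from a function `g` with `w_∞(g) = 0`,
`w_0(g) = c · w_0(π)` and no horizontal zeros or poles through the node. -/
theorem IsNodePair.exists_normal_form_of_valuationSubring (h : IsNodePair P0 Pinf x y)
    [P0.IsPrime] [Pinf.IsPrime] (hπne : π ≠ 0) (hπ0 : π ∈ P0) (hπinf : π ∈ Pinf)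
    (hinf : P0 ⊓ Pinf ≤ Ideal.span {π})
    {V0 Vinf : ValuationSubring K} (hV0 : IsCentredAt V0 P0 π) (hVinf : IsCentredAt Vinf Pinf π)
    {g : K} (hg0 : g ≠ 0) (hginf : g ∈ Vinf) (hginf' : g⁻¹ ∈ Vinf) {c : ℕ} (hc : 1 ≤ c)
    (hg : g * (algebraMap R K π ^ c)⁻¹ ∈ V0) (hg' : (g * (algebraMap R K π ^ c)⁻¹)⁻¹ ∈ V0)
    (hg_hor : ∀ P : Ideal R, P.IsPrime → P.height = 1 → π ∉ P → IsUnitAtPrime P g) :
    ∃ (x' y' r : R) (m : ℕ), IsNodePair P0 Pinf x' y' ∧ x' - x ∈ Ideal.span {π} ∧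
      y' - y ∈ Ideal.span {π} ∧ 1 ≤ m ∧ m ≤ c ∧ IsUnit r ∧ x' * y' = π ^ m * r := by
  have hu0 : IsUnitAtPrime P0 (g * (algebraMap R K π ^ c)⁻¹) := by
    have := hV0.isUnitAtPrime hπ0 hπne (h.locally_principal_P0 hinf) hg0 (c : ℤ)
      (by simpa using hg) (by simpa using hg')
    simpa using this
  have huinf : IsUnitAtPrime Pinf g := by
    have := hVinf.isUnitAtPrime hπinf hπne (h.locally_principal_Pinf hinf) hg0 (0 : ℤ)
      (by simpa using hginf) (by simpa using hginf')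
    simpa using this
  exact h.exists_normal_form_of_unit hπ0 hπinf hinf
    (h.eq_or_eq_of_height_one hπne hπ0 hπinf hinf) huinf hc hu0 hg_hor

end Plug

section Horizontal

open Polynomial

variable {R₁ K₁ R K : Type*} [CommRing R₁] [IsDomain R₁] [Field K₁] [Algebra R₁ K₁]
  [IsFractionRing R₁ K₁] [CommRing R] [IsDomain R] [Field K] [Algebra R K] [IsFractionRing R K]
  [Algebra R₁ R] [Algebra K₁ K] [Algebra R₁ K] [IsScalarTower R₁ R K] [IsScalarTower R₁ K₁ K]

/-- clearing the denominators of an element of `K₁[j]`. -/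
theorem exists_mul_mem_range_of_mem_adjoin (j : R) {a : K}
    (ha : a ∈ Algebra.adjoin K₁ {algebraMap R K j}) :
    ∃ b : R₁, b ≠ 0 ∧ algebraMap R₁ K b * a ∈ (algebraMap R K).range := by
  rw [Algebra.adjoin_singleton_eq_range_aeval] at ha
  obtain ⟨q, rfl⟩ := ha
  obtain ⟨b, hbM, hb⟩ := IsLocalization.integerNormalization_spec (nonZeroDivisors R₁) q
  refine ⟨b, nonZeroDivisors.ne_zero hbM, ?_⟩
  refine ⟨eval₂ (algebraMap R₁ R) j (IsLocalization.integerNormalization (nonZeroDivisors R₁) q), ?_⟩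
  rw [Polynomial.hom_eval₂, ← IsScalarTower.algebraMap_eq]
  have h1 : algebraMap R₁ K b * aeval (algebraMap R K j) q =
      aeval (algebraMap R K j) (b • q) := by
    rw [Algebra.smul_def, map_mul, IsScalarTower.algebraMap_apply R₁ K₁ K]
    congr 1
    rw [Polynomial.algebraMap_apply, aeval_C]
  show _ = algebraMap R₁ K b * aeval (algebraMap R K j) q
  rw [h1, ← hb, aeval_def, eval₂_map, ← IsScalarTower.algebraMap_eq]

/-- clearing the denominators of finitely many elements of `K₁[j]`. -/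
theorem exists_forall_mul_mem_range_of_mem_adjoin (j : R) (s : Finset ℕ) (a : ℕ → K)
    (ha : ∀ i ∈ s, a i ∈ Algebra.adjoin K₁ {algebraMap R K j}) :
    ∃ b : R₁, b ≠ 0 ∧ ∀ i ∈ s, algebraMap R₁ K b * a i ∈ (algebraMap R K).range := by
  classical
  induction s using Finset.induction_on with
  | empty => exact ⟨1, one_ne_zero, by simp⟩
  | insert i s hi ih =>
    obtain ⟨b, hb0, hb⟩ := ih (fun k hk => ha k (Finset.mem_insert_of_mem hk))
    obtain ⟨b', hb'0, hb'⟩ := exists_mul_mem_range_of_mem_adjoin (R₁ := R₁) (K₁ := K₁) j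
      (ha i (Finset.mem_insert_self i s))
    have hR : ∀ c : R₁, algebraMap R₁ K c ∈ (algebraMap R K).range := fun c =>
      ⟨algebraMap R₁ R c, (IsScalarTower.algebraMap_apply R₁ R K c).symm⟩
    refine ⟨b * b', mul_ne_zero hb0 hb'0, fun k hk => ?_⟩
    rw [map_mul]
    rcases Finset.mem_insert.mp hk with rfl | hk
    · rw [mul_assoc]
      exact Subring.mul_mem _ (hR b) hb'
    · rw [mul_comm (algebraMap R₁ K b), mul_assoc]
      exact Subring.mul_mem _ (hR b') (hb k hk)

variable [IsIntegrallyClosed R]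

/-- **clearing denominators**: an element of `K` which is integral over `K₁[j]`, `j ∈ R`, becomes
an element of the integrally closed ring `R` after multiplication by a nonzero constant. -/
theorem exists_mul_mem_range_of_isIntegral_adjoin (j : R) {g : K}
    (hg : IsIntegral (Algebra.adjoin K₁ {algebraMap R K j}) g) :
    ∃ b : R₁, b ≠ 0 ∧ algebraMap R₁ K b * g ∈ (algebraMap R K).range := by
  classical
  obtain ⟨p, hp, hpg⟩ := hg
  set A := Algebra.adjoin K₁ {algebraMap R K j} with hA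
  set P : K[X] := p.map (algebraMap A K) with hP
  have hPm : P.Monic := hp.map _
  have hPg : eval₂ (RingHom.id K) g P = 0 := by
    rw [hP, eval₂_map]
    exact hpg
  have hcoef : ∀ i, P.coeff i ∈ A := fun i => by
    rw [hP, coeff_map]
    exact (p.coeff i).2
  obtain ⟨b, hb0, hb⟩ := exists_forall_mul_mem_range_of_mem_adjoin (R₁ := R₁) (K₁ := K₁) j
    (Finset.range P.natDegree) (fun i => P.coeff i) (fun i _ => hcoef i)
  refine ⟨b, hb0, ?_⟩
  set β := algebraMap R₁ K b with hβ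
  have hβR : β ∈ (algebraMap R K).range :=
    ⟨algebraMap R₁ R b, (IsScalarTower.algebraMap_apply R₁ R K b).symm⟩
  set Q := scaleRoots P β with hQ
  have hQm : Q.Monic := (monic_scaleRoots_iff β).mpr hPm
  have hQg : eval₂ (RingHom.id K) (β * g) Q = 0 := by
    have := scaleRoots_eval₂_eq_zero (RingHom.id K) (s := β) hPg
    simpa using this
  have hQlift : Q ∈ Polynomial.lifts (algebraMap R K) := by
    rw [Polynomial.lifts_iff_coeff_lifts]
    intro i
    change Q.coeff i ∈ (algebraMap R K).range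
    rw [hQ, coeff_scaleRoots]
    rcases lt_trichotomy i P.natDegree with hlt | heq | hgt
    · obtain ⟨d, hd⟩ : ∃ d, P.natDegree - i = d + 1 := ⟨P.natDegree - i - 1, by omega⟩
      rw [hd, pow_succ, ← mul_assoc]
      have h1 : P.coeff i * β ^ d * β = (β * P.coeff i) * β ^ d := by ring
      rw [h1]
      exact Subring.mul_mem _ (hb i (Finset.mem_range.mpr hlt)) (Subring.pow_mem _ hβR d)
    · rw [heq, Nat.sub_self, pow_zero, mul_one, Polynomial.coeff_natDegree, hPm.leadingCoeff]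
      exact Subring.one_mem _
    · rw [Polynomial.coeff_eq_zero_of_natDegree_lt hgt, zero_mul]
      exact Subring.zero_mem _
  obtain ⟨q, hq, -, hqm⟩ := Polynomial.lifts_and_degree_eq_and_monic hQlift hQm
  have hint : IsIntegral R (β * g) := by
    refine ⟨q, hqm, ?_⟩
    rw [← hq, eval₂_map] at hQg
    simpa using hQg
  exact IsIntegrallyClosed.isIntegral_iff.mp hint

/-- **horizontal primes**: if `g` and `g⁻¹` are integral over `K₁[j]`, `j ∈ R`, then `g` is a unit
at every prime of `R` containing no nonzero constant. -/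
theorem isUnitAtPrime_of_isIntegral_adjoin (j : R) {g : K} (hg0 : g ≠ 0)
    (hg : IsIntegral (Algebra.adjoin K₁ {algebraMap R K j}) g)
    (hg' : IsIntegral (Algebra.adjoin K₁ {algebraMap R K j}) g⁻¹)
    (P : Ideal R) [hP : P.IsPrime] (hhor : ∀ b : R₁, b ≠ 0 → algebraMap R₁ R b ∉ P) :
    IsUnitAtPrime P g := by
  obtain ⟨b, hb0, a, ha⟩ := exists_mul_mem_range_of_isIntegral_adjoin (R₁ := R₁) (K₁ := K₁) j hg
  obtain ⟨b', hb'0, a', ha'⟩ := exists_mul_mem_range_of_isIntegral_adjoin (R₁ := R₁) (K₁ := K₁) j hg'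
  have hinj : Function.Injective (algebraMap R K) := IsFractionRing.injective R K
  have hbK : algebraMap R₁ K b = algebraMap R K (algebraMap R₁ R b) :=
    IsScalarTower.algebraMap_apply R₁ R K b
  have hb'K : algebraMap R₁ K b' = algebraMap R K (algebraMap R₁ R b') :=
    IsScalarTower.algebraMap_apply R₁ R K b'
  have haa' : a * a' = algebraMap R₁ R b * algebraMap R₁ R b' := by
    apply hinj
    rw [map_mul, map_mul, ha, ha', ← hbK, ← hb'K]
    field_simp
  have haP : a ∉ P := by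
    intro hmem
    have h1 : algebraMap R₁ R b * algebraMap R₁ R b' ∈ P := haa' ▸ P.mul_mem_right _ hmem
    rcases hP.mem_or_mem h1 with h | h
    · exact hhor b hb0 h
    · exact hhor b' hb'0 h
  refine ⟨a, algebraMap R₁ R b, haP, hhor b hb0, ?_⟩
  rw [ha, ← hbK, mul_comm]

end Horizontal


section Final

open Polynomial

variable {R₁ K₁ : Type*} [CommRing R₁] [IsDomain R₁] [IsDiscreteValuationRing R₁] [Field K₁]
  [Algebra R₁ K₁] [IsFractionRing R₁ K₁]
  {R : Type*} [CommRing R] [IsDomain R] [IsLocalRing R] [IsNoetherianRing R]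
  [IsIntegrallyClosed R] {K : Type*} [Field K] [Algebra R K] [IsFractionRing R K]
  [Algebra R₁ R] [Algebra K₁ K] [Algebra R₁ K] [IsScalarTower R₁ R K] [IsScalarTower R₁ K₁ K]
  {P0 Pinf : Ideal R} {x y : R}

/-- a prime not containing the uniformizer of the base contains no nonzero constant. -/
theorem algebraMap_notMem_of_irreducible {ϖ : R₁} (hϖ : Irreducible ϖ) (P : Ideal R)
    [hP : P.IsPrime] (hπP : algebraMap R₁ R ϖ ∉ P) (b : R₁) (hb : b ≠ 0) :
    algebraMap R₁ R b ∉ P := by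
  obtain ⟨n, u, rfl⟩ := IsDiscreteValuationRing.eq_unit_mul_pow_irreducible hb hϖ
  intro hmem
  rw [map_mul, map_pow] at hmem
  rcases hP.mem_or_mem hmem with h | h
  · exact hP.ne_top (Ideal.eq_top_of_isUnit_mem _ h (u.isUnit.map (algebraMap R₁ R)))
  · exact hπP (hP.mem_of_pow_mem n h)

/-- **REG-PLUG, final form**: `R` the local ring of the model at a node (`IsNodePair`), `j ∈ R`,
`g ∈ K` with `g`, `g⁻¹` integral over `K₁[j]` (no horizontal zeros or poles in the chart),
`g ∈ V_∞ˣ`, `g / π^c ∈ V_0ˣ` for valuation rings centred at `Pinf`, `P0`: then the node has the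
normal form `x' y' = π^m · unit` with `1 ≤ m ≤ c`. -/
theorem IsNodePair.exists_normal_form_of_isIntegral (h : IsNodePair P0 Pinf x y)
    [P0.IsPrime] [Pinf.IsPrime] {ϖ : R₁} (hϖ : Irreducible ϖ)
    (hπ0 : algebraMap R₁ R ϖ ∈ P0) (hπinf : algebraMap R₁ R ϖ ∈ Pinf)
    (hinf : P0 ⊓ Pinf ≤ Ideal.span {algebraMap R₁ R ϖ})
    {V0 Vinf : ValuationSubring K} (hV0 : IsCentredAt V0 P0 (algebraMap R₁ R ϖ))
    (hVinf : IsCentredAt Vinf Pinf (algebraMap R₁ R ϖ))
    (j : R) {g : K} (hg0 : g ≠ 0)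
    (hgj : IsIntegral (Algebra.adjoin K₁ {algebraMap R K j}) g)
    (hgj' : IsIntegral (Algebra.adjoin K₁ {algebraMap R K j}) g⁻¹)
    (hginf : g ∈ Vinf) (hginf' : g⁻¹ ∈ Vinf) {c : ℕ} (hc : 1 ≤ c)
    (hg : g * (algebraMap R K (algebraMap R₁ R ϖ) ^ c)⁻¹ ∈ V0)
    (hg' : (g * (algebraMap R K (algebraMap R₁ R ϖ) ^ c)⁻¹)⁻¹ ∈ V0) :
    ∃ (x' y' r : R) (m : ℕ), IsNodePair P0 Pinf x' y' ∧
      x' - x ∈ Ideal.span {algebraMap R₁ R ϖ} ∧ y' - y ∈ Ideal.span {algebraMap R₁ R ϖ} ∧
      1 ≤ m ∧ m ≤ c ∧ IsUnit r ∧ x' * y' = algebraMap R₁ R ϖ ^ m * r := by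
  have hπne : algebraMap R₁ R ϖ ≠ 0 := by
    intro h0
    apply hVinf.pi_inv_notMem
    rw [h0, map_zero, inv_zero]
    exact Vinf.zero_mem
  refine h.exists_normal_form_of_valuationSubring hπne hπ0 hπinf hinf hV0 hVinf hg0 hginf hginf'
    hc hg hg' (fun P hP _ hπP => ?_)
  haveI := hP
  exact isUnitAtPrime_of_isIntegral_adjoin (R₁ := R₁) (K₁ := K₁) j hg0 hgj hgj' P
    (algebraMap_notMem_of_irreducible hϖ P hπP)

end Final

end Fermat.Agent.SS
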