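/-
(SS-q) UNODE, horizontal primes — helper6 — clearing denominators for functions integral over
`K₁[1/v]`, `v` an element of an integrally closed chart: `b · v^N · g` lies in the chart, hence
`g` (with `g⁻¹` also integral over `K₁[1/v]`) is a unit at every horizontal prime not containing
`v`.  (Chart `j⁻¹` of the model: `v = j⁻¹`, `g` the modular unit, integral over `K₁[j]`.)
-/
import Mathlib
import Fermat.Agent.SS.REGPLUG_helper6

set_option autoImplicit false
set_option linter.unusedSectionVars false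
set_option linter.style.haveILetI false

namespace Fermat.Agent.SS

section HorInv

open Polynomial

variable {R₁ K₁ R K : Type*} [CommRing R₁] [IsDomain R₁] [Field K₁] [Algebra R₁ K₁]
  [IsFractionRing R₁ K₁] [CommRing R] [IsDomain R] [Field K] [Algebra R K] [IsFractionRing R K]
  [Algebra R₁ R] [Algebra K₁ K] [Algebra R₁ K] [IsScalarTower R₁ R K] [IsScalarTower R₁ K₁ K]

/-- an element of `K₁[1/v]` becomes an element of `K₁[v]` after multiplication by a power of
`v`. -/
theorem exists_pow_mul_mem_adjoin_of_mem_adjoin_inv {v : K} (hv : v ≠ 0) {a : K}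
    (ha : a ∈ Algebra.adjoin K₁ {v⁻¹}) :
    ∃ N : ℕ, ∀ n : ℕ, N ≤ n → v ^ n * a ∈ Algebra.adjoin K₁ {v} := by
  rw [Algebra.adjoin_singleton_eq_range_aeval] at ha
  obtain ⟨q, rfl⟩ := ha
  refine ⟨q.natDegree, fun n hn => ?_⟩
  change v ^ n * aeval v⁻¹ q ∈ _
  rw [aeval_eq_sum_range, Finset.mul_sum]
  refine Subalgebra.sum_mem _ fun i hi => ?_
  rw [Finset.mem_range] at hi
  have hin : i ≤ n := by omega
  have h1 : v ^ n * (q.coeff i • v⁻¹ ^ i) = q.coeff i • v ^ (n - i) := by
    rw [Algebra.smul_def, Algebra.smul_def, inv_pow]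
    have : v ^ n = v ^ (n - i) * v ^ i := by rw [← pow_add, Nat.sub_add_cancel hin]
    rw [this]
    field_simp
  rw [h1]
  exact Subalgebra.smul_mem _ (Subalgebra.pow_mem _ (Algebra.self_mem_adjoin_singleton K₁ v) _) _

variable [IsIntegrallyClosed R]

/-- **clearing denominators, chart `1/v`**: an element of `K` integral over `K₁[1/v]`, `v ∈ R`,
becomes an element of the integrally closed ring `R` after multiplication by a nonzero constant
and a power of `v`. -/
theorem exists_mul_pow_mul_mem_range_of_isIntegral_adjoin_inv (v : R) (hv : v ≠ 0) {g : K}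
    (hg : IsIntegral (Algebra.adjoin K₁ {(algebraMap R K v)⁻¹}) g) :
    ∃ (b : R₁) (N : ℕ), b ≠ 0 ∧
      algebraMap R₁ K b * algebraMap R K v ^ N * g ∈ (algebraMap R K).range := by
  classical
  have hv' : algebraMap R K v ≠ 0 :=
    (map_ne_zero_iff _ (IsFractionRing.injective R K)).mpr hv
  obtain ⟨p, hp, hpg⟩ := hg
  set A := Algebra.adjoin K₁ {(algebraMap R K v)⁻¹} with hA
  set P : K[X] := p.map (algebraMap A K) with hP
  have hPm : P.Monic := hp.map _
  have hPg : eval₂ (RingHom.id K) g P = 0 := by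
    rw [hP, eval₂_map]
    exact hpg
  have hcoef : ∀ i, P.coeff i ∈ A := fun i => by
    rw [hP, coeff_map]
    exact (p.coeff i).2
  -- a common power of `v`
  have hN : ∃ N : ℕ, ∀ i ∈ Finset.range P.natDegree,
      algebraMap R K v ^ N * P.coeff i ∈ Algebra.adjoin K₁ {algebraMap R K v} := by
    choose M hM using fun i => exists_pow_mul_mem_adjoin_of_mem_adjoin_inv (K₁ := K₁) hv' (hcoef i)
    refine ⟨(Finset.range P.natDegree).sup M, fun i hi => hM i _ (Finset.le_sup hi)⟩
  obtain ⟨N, hN⟩ := hN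
  obtain ⟨b, hb0, hb⟩ := exists_forall_mul_mem_range_of_mem_adjoin (R₁ := R₁) (K₁ := K₁) v
    (Finset.range P.natDegree) (fun i => algebraMap R K v ^ N * P.coeff i) hN
  refine ⟨b, N, hb0, ?_⟩
  set β := algebraMap R₁ K b * algebraMap R K v ^ N with hβ
  have hbR : algebraMap R₁ K b ∈ (algebraMap R K).range :=
    ⟨algebraMap R₁ R b, (IsScalarTower.algebraMap_apply R₁ R K b).symm⟩
  have hvR : algebraMap R K v ∈ (algebraMap R K).range := ⟨v, rfl⟩
  have hβR : β ∈ (algebraMap R K).range :=
    Subring.mul_mem _ hbR (Subring.pow_mem _ hvR N)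
  have hβc : ∀ i, i < P.natDegree → β * P.coeff i ∈ (algebraMap R K).range := by
    intro i hi
    rw [hβ, mul_assoc]
    exact hb i (Finset.mem_range.mpr hi)
  set Q := scaleRoots P β with hQ
  have hQm : Q.Monic := (monic_scaleRoots_iff β).mpr hPm
  have hQg : eval₂ (RingHom.id K) (β * g) Q = 0 := by
    have := scaleRoots_eval₂_eq_zero (RingHom.id K) (s := β) hPg
    simpa using this
  have hQlift : Q ∈ Polynomial.lifts (algebraMap R K) := by
    rw [Polynomial.lifts_iff_coeff_lifts]
    intro i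
    change Q.coeff i ∈ (algebraMap R K).range
    rw [hQ, coeff_scaleRoots]
    rcases lt_trichotomy i P.natDegree with hlt | heq | hgt
    · obtain ⟨d, hd⟩ : ∃ d, P.natDegree - i = d + 1 := ⟨P.natDegree - i - 1, by omega⟩
      rw [hd, pow_succ, ← mul_assoc]
      have h1 : P.coeff i * β ^ d * β = (β * P.coeff i) * β ^ d := by ring
      rw [h1]
      exact Subring.mul_mem _ (hβc i hlt) (Subring.pow_mem _ hβR d)
    · rw [heq, Nat.sub_self, pow_zero, mul_one, Polynomial.coeff_natDegree, hPm.leadingCoeff]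
      exact Subring.one_mem _
    · rw [Polynomial.coeff_eq_zero_of_natDegree_lt hgt, zero_mul]
      exact Subring.zero_mem _
  obtain ⟨q, hq, -, hqm⟩ := Polynomial.lifts_and_degree_eq_and_monic hQlift hQm
  have hint : IsIntegral R (β * g) := by
    refine ⟨q, hqm, ?_⟩
    rw [← hq, eval₂_map] at hQg
    simpa using hQg
  exact IsIntegrallyClosed.isIntegral_iff.mp hint

/-- **horizontal primes, chart `1/v`**: if `g` and `g⁻¹` are integral over `K₁[1/v]`, `v ∈ R`,
then `g` is a unit at every prime of `R` containing neither `v` nor a nonzero constant. -/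
theorem isUnitAtPrime_of_isIntegral_adjoin_inv (v : R) (hv : v ≠ 0) {g : K} (hg0 : g ≠ 0)
    (hg : IsIntegral (Algebra.adjoin K₁ {(algebraMap R K v)⁻¹}) g)
    (hg' : IsIntegral (Algebra.adjoin K₁ {(algebraMap R K v)⁻¹}) g⁻¹)
    (P : Ideal R) [hP : P.IsPrime] (hvP : v ∉ P)
    (hhor : ∀ b : R₁, b ≠ 0 → algebraMap R₁ R b ∉ P) :
    IsUnitAtPrime P g := by
  obtain ⟨b, N, hb0, a, ha⟩ :=
    exists_mul_pow_mul_mem_range_of_isIntegral_adjoin_inv (R₁ := R₁) (K₁ := K₁) v hv hg
  obtain ⟨b', N', hb'0, a', ha'⟩ :=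
    exists_mul_pow_mul_mem_range_of_isIntegral_adjoin_inv (R₁ := R₁) (K₁ := K₁) v hv hg'
  have hinj : Function.Injective (algebraMap R K) := IsFractionRing.injective R K
  have hbK : algebraMap R₁ K b = algebraMap R K (algebraMap R₁ R b) :=
    IsScalarTower.algebraMap_apply R₁ R K b
  have hb'K : algebraMap R₁ K b' = algebraMap R K (algebraMap R₁ R b') :=
    IsScalarTower.algebraMap_apply R₁ R K b'
  have haa' : a * a' = (algebraMap R₁ R b * v ^ N) * (algebraMap R₁ R b' * v ^ N') := by
    apply hinj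
    rw [map_mul, map_mul, map_mul, map_mul, map_pow, map_pow, ha, ha', ← hbK, ← hb'K]
    field_simp
  have hden : algebraMap R₁ R b * v ^ N ∉ P := by
    intro hmem
    rcases hP.mem_or_mem hmem with h | h
    · exact hhor b hb0 h
    · exact hvP (hP.mem_of_pow_mem N h)
  have hden' : algebraMap R₁ R b' * v ^ N' ∉ P := by
    intro hmem
    rcases hP.mem_or_mem hmem with h | h
    · exact hhor b' hb'0 h
    · exact hvP (hP.mem_of_pow_mem N' h)
  have haP : a ∉ P := by
    intro hmem
    have h1 : (algebraMap R₁ R b * v ^ N) * (algebraMap R₁ R b' * v ^ N') ∈ P :=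
      haa' ▸ P.mul_mem_right _ hmem
    rcases hP.mem_or_mem h1 with h | h
    · exact hden h
    · exact hden' h
  refine ⟨a, algebraMap R₁ R b * v ^ N, haP, hden, ?_⟩
  rw [ha, map_mul, map_pow, ← hbK, mul_comm]

end HorInv

end Fermat.Agent.SS
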