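/-
(SS-q) UNODE, abstract assembly — helper6 — **the unit clause of `IsModelChart.node`** (GLUE_A) /
LOCASM `hnode` on both charts of a two-sheeted model, for a function `U` with
`U ∈ W_∞ˣ`, `U / π^c ∈ W_0ˣ`, `U` and `U⁻¹` integral over `K₁[u]` (`u` the coordinate of the first
chart).  Chart `u`: unit at every horizontal prime.  Chart `u⁻¹`: unit at every horizontal prime
not containing the coordinate `u⁻¹`, in particular at the horizontal primes through a closed point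
where `u⁻¹` is a unit (a non-cuspidal point).
-/
import Mathlib
import Fermat.Agent.SS.UNODE_helper6_Abs
import Fermat.Agent.SS.UNODE_helper6_Hor

set_option autoImplicit false
set_option linter.unusedSectionVars false
set_option linter.style.haveILetI false

namespace Fermat.Agent.SS

open Fermat.Agent.JA

section UNodeMain

variable {R : Type*} [CommRing R] [IsDomain R] [IsDiscreteValuationRing R] [CharZero R]
  {K₁ : Type*} [Field K₁] [Algebra R K₁] [IsFractionRing R K₁]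
  {K : Type*} [Field K] [Algebra K₁ K] [Algebra R K] [IsScalarTower R K₁ K]
  {E : Type*} [Field E] [Algebra K E] [Algebra K₁ E] [IsScalarTower K₁ K E] [Algebra R E]
  [IsScalarTower R K E] [FiniteDimensional K E]

variable {π : R} {u : K} {Winf W0 : ValuationSubring E}

/-- the tower `R → K₁ → E` through `K`. -/
theorem isScalarTower_base_host (R K₁ K E : Type*) [CommRing R] [Field K₁] [Algebra R K₁]
    [Field K] [Algebra K₁ K] [Algebra R K] [IsScalarTower R K₁ K] [Field E] [Algebra K E]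
    [Algebra K₁ E] [IsScalarTower K₁ K E] [Algebra R E] [IsScalarTower R K E] :
    IsScalarTower R K₁ E :=
  IsScalarTower.of_algebraMap_eq fun r => by
    rw [IsScalarTower.algebraMap_apply R K E, IsScalarTower.algebraMap_apply R K₁ K,
      ← IsScalarTower.algebraMap_apply K₁ K E]

/-- a prime of an `R`-algebra not containing the uniformizer of the discrete valuation ring `R`
contains no nonzero constant. -/
theorem algebraMap_notMem_of_irreducible_of_notMem {R₁ B : Type*} [CommRing R₁] [IsDomain R₁]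
    [IsDiscreteValuationRing R₁] [CommRing B] [Algebra R₁ B] {ϖ : R₁} (hϖ : Irreducible ϖ)
    (P : Ideal B) [hP : P.IsPrime] (hπP : algebraMap R₁ B ϖ ∉ P) (b : R₁) (hb : b ≠ 0) :
    algebraMap R₁ B b ∉ P := by
  obtain ⟨n, u, rfl⟩ := IsDiscreteValuationRing.eq_unit_mul_pow_irreducible hb hϖ
  intro hmem
  rw [map_mul, map_pow] at hmem
  rcases hP.mem_or_mem hmem with h | h
  · exact hP.ne_top (Ideal.eq_top_of_isUnit_mem _ h (u.isUnit.map (algebraMap R₁ B)))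
  · exact hπP (hP.mem_of_pow_mem n h)

/-- **UNODE, chart `u`**: the unit clause of `IsModelChart.node`, valid at every closed point. -/
theorem IsTwoSheet.exists_nodeUnit (h : IsTwoSheet π u Winf W0) (hπ : Irreducible π)
    (hu : Transcendental K₁ u) (hK : IntermediateField.adjoin K₁ {u} = ⊤)
    {U : E} (hU0 : U ≠ 0) {c : ℕ} (hc : 1 ≤ c) (hUinf : U ∈ Winf) (hUinf' : U⁻¹ ∈ Winf)
    (hUzero : U * (algebraMap R E π ^ c)⁻¹ ∈ W0)
    (hUzero' : (U * (algebraMap R E π ^ c)⁻¹)⁻¹ ∈ W0)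
    (hint : IsIntegral (Algebra.adjoin K₁ {algebraMap K E u}) U)
    (hint' : IsIntegral (Algebra.adjoin K₁ {algebraMap K E u}) U⁻¹) :
    haveI := isFractionRing_chartOne (R := R) (K₁ := K₁) (E := E) u hK
    ∃ (v : E) (c : ℕ), 1 ≤ c ∧ IsUnitAtPrime (sheetIdeal u Winf h.chart_le_inf) v ∧
      IsUnitAtPrime (sheetIdeal u W0 h.chart_le_zero)
        (v * (algebraMap ↥(chartOne R E u) E (algebraMap R ↥(chartOne R E u) π) ^ c)⁻¹) ∧
      ∀ 𝔮 : Ideal ↥(chartOne R E u), 𝔮.IsPrime → algebraMap R ↥(chartOne R E u) π ∉ 𝔮 →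
        IsUnitAtPrime 𝔮 v := by
  haveI := isFractionRing_chartOne (R := R) (K₁ := K₁) (E := E) u hK
  haveI := isIntegrallyClosed_chartOne (R := R) (K₁ := K₁) (E := E) u hK
  haveI : IsScalarTower R K₁ E := isScalarTower_base_host R K₁ K E
  obtain ⟨h1, h2⟩ := h.isUnitAtPrime_nodeUnit hπ hu hK hU0 c hUinf hUinf' hUzero hUzero'
  refine ⟨U, c, hc, h1, h2, fun 𝔮 h𝔮 hπ𝔮 => ?_⟩
  haveI := h𝔮
  exact isUnitAtPrime_of_isIntegral_adjoin (R₁ := R) (K₁ := K₁)
    (⟨algebraMap K E u, algebraMap_coord_mem_chartOne u⟩ : ↥(chartOne R E u)) hU0 hint hint' 𝔮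
    (algebraMap_notMem_of_irreducible_of_notMem hπ 𝔮 hπ𝔮)

/-- **UNODE, chart `u⁻¹`**: the unit clause of `IsModelChart.node` at the closed points (and
more generally the primes) not containing the coordinate `u⁻¹`. -/
theorem IsTwoSheet.exists_nodeUnit_inv (h : IsTwoSheet π u⁻¹ Winf W0) (hπ : Irreducible π)
    (hu : Transcendental K₁ u⁻¹) (hK : IntermediateField.adjoin K₁ {u⁻¹} = ⊤)
    {U : E} (hU0 : U ≠ 0) {c : ℕ} (hc : 1 ≤ c) (hUinf : U ∈ Winf) (hUinf' : U⁻¹ ∈ Winf)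
    (hUzero : U * (algebraMap R E π ^ c)⁻¹ ∈ W0)
    (hUzero' : (U * (algebraMap R E π ^ c)⁻¹)⁻¹ ∈ W0)
    (hint : IsIntegral (Algebra.adjoin K₁ {algebraMap K E u}) U)
    (hint' : IsIntegral (Algebra.adjoin K₁ {algebraMap K E u}) U⁻¹) :
    haveI := isFractionRing_chartOne (R := R) (K₁ := K₁) (E := E) u⁻¹ hK
    ∃ (v : E) (c : ℕ), 1 ≤ c ∧ IsUnitAtPrime (sheetIdeal u⁻¹ Winf h.chart_le_inf) v ∧
      IsUnitAtPrime (sheetIdeal u⁻¹ W0 h.chart_le_zero)
        (v * (algebraMap ↥(chartOne R E u⁻¹) E (algebraMap R ↥(chartOne R E u⁻¹) π) ^ c)⁻¹) ∧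
      ∀ 𝔮 : Ideal ↥(chartOne R E u⁻¹), 𝔮.IsPrime → algebraMap R ↥(chartOne R E u⁻¹) π ∉ 𝔮 →
        (⟨algebraMap K E u⁻¹, algebraMap_coord_mem_chartOne u⁻¹⟩ : ↥(chartOne R E u⁻¹)) ∉ 𝔮 →
        IsUnitAtPrime 𝔮 v := by
  haveI := isFractionRing_chartOne (R := R) (K₁ := K₁) (E := E) u⁻¹ hK
  haveI := isIntegrallyClosed_chartOne (R := R) (K₁ := K₁) (E := E) u⁻¹ hK
  haveI : IsScalarTower R K₁ E := isScalarTower_base_host R K₁ K E
  obtain ⟨h1, h2⟩ := h.isUnitAtPrime_nodeUnit hπ hu hK hU0 c hUinf hUinf' hUzero hUzero'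
  refine ⟨U, c, hc, h1, h2, fun 𝔮 h𝔮 hπ𝔮 hv𝔮 => ?_⟩
  haveI := h𝔮
  have hv0 : (⟨algebraMap K E u⁻¹, algebraMap_coord_mem_chartOne u⁻¹⟩ : ↥(chartOne R E u⁻¹)) ≠ 0 :=
    fun h0 => hv𝔮 (h0 ▸ 𝔮.zero_mem)
  have hvE : (algebraMap ↥(chartOne R E u⁻¹) E
      (⟨algebraMap K E u⁻¹, algebraMap_coord_mem_chartOne u⁻¹⟩ : ↥(chartOne R E u⁻¹)))⁻¹ =
      algebraMap K E u := by
    change (algebraMap K E u⁻¹)⁻¹ = _
    rw [map_inv₀, inv_inv]
  refine isUnitAtPrime_of_isIntegral_adjoin_inv (R₁ := R) (K₁ := K₁)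
    (⟨algebraMap K E u⁻¹, algebraMap_coord_mem_chartOne u⁻¹⟩ : ↥(chartOne R E u⁻¹)) hv0 hU0
    ?_ ?_ 𝔮 hv𝔮 (algebraMap_notMem_of_irreducible_of_notMem hπ 𝔮 hπ𝔮)
  · rw [hvE]; exact hint
  · rw [hvE]; exact hint'

end UNodeMain

end Fermat.Agent.SS
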