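/-
(SS-q) MODEL-EXPORT — helper4 — part 3: **from the interface `SSModel` to the model charts**.
* `SSModel.jq_mem_chartOne` : `j_q = B jM` lies in the chart `j` (Hartogs (G) + `cuspord'`);
* `SSModel.not_crossing_of_cusp` : the two sheets do not meet at the cusps of the chart `j⁻¹`.
-/
import Mathlib
import Fermat.Agent.SS.HART_helper4
import Fermat.Agent.SS.EXPORT_helper4_Charts
import Fermat.Agent.SS.MODEL_helper7_Iface
import Fermat.Agent.SS.GLUE_helper3_A
import Fermat.Agent.SS.VERT_helper4_Closed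
import Fermat.Agent.SS.UNODE_helper6_Main
import Fermat.Agent.SS.NODE_helper8_Model
import Fermat.Agent.SS.SINFEMB_helper9_Chart

set_option autoImplicit false
set_option linter.unusedSectionVars false
set_option linter.style.haveILetI false

namespace Fermat.Agent.SS

open Fermat.Agent.JA Polynomial

section Model

variable {R : Type*} [CommRing R] [IsDomain R] [IsDiscreteValuationRing R] [CharZero R]
  {K₁ : Type*} [Field K₁] [Algebra R K₁] [IsFractionRing R K₁]
  {KM : Type*} [Field KM] [Algebra K₁ KM] [Algebra R KM] [IsScalarTower R K₁ KM]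
  {EM : Type*} [Field EM] [Algebra KM EM] [Algebra K₁ EM] [IsScalarTower K₁ KM EM] [Algebra R EM]
  [IsScalarTower R KM EM]
  {KN : Type*} [Field KN] [Algebra K₁ KN] [Algebra R KN] [IsScalarTower R K₁ KN]
  {EN : Type*} [Field EN] [Algebra KN EN] [Algebra K₁ EN] [IsScalarTower K₁ KN EN] [Algebra R EN]
  [IsScalarTower R KN EN] [FiniteDimensional KN EN]
  {π : R} {q n : ℕ} {S : Finset R} {t : KM} {jM : EM} {j : KN} {A B : EM →+* EN}
  {VM : ValuationSubring EM} {Winf W0 : ValuationSubring EN}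

/-- `jM` is integral for the Gauss valuation of level `M`. -/
theorem SSModel.jM_mem (h : SSModel K₁ π q n S t jM j A B VM Winf W0) : jM ∈ VM := by
  rw [← h.comap_A_inf]
  show A jM ∈ Winf
  rw [h.A_j]
  exact h.two.chart_le_inf _ (algebraMap_coord_mem_chartOne j)

theorem SSModel.jq_mem_inf (h : SSModel K₁ π q n S t jM j A B VM Winf W0) : B jM ∈ Winf := by
  have : jM ∈ Winf.comap B := by rw [h.comap_B_inf]; exact h.jM_mem
  exact this

theorem SSModel.jq_mem_zero (h : SSModel K₁ π q n S t jM j A B VM Winf W0) : B jM ∈ W0 := by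
  have : jM ∈ W0.comap B := by rw [h.comap_B_zero]; exact h.jM_mem
  exact this

/-- **`j_q` lies in the chart `j`** (no cusp of `j_q` where `j` is regular). -/
theorem SSModel.jq_mem_chartOne (h : SSModel K₁ π q n S t jM j A B VM Winf W0)
    (hπ : Irreducible π) : B jM ∈ chartOne R EN j := by
  refine h.two.mem_chartOne_of_forall hπ h.j_transcendental h.j_adjoin (B jM) h.jq_mem_inf
    h.jq_mem_zero (fun V hπV hV => ?_)
  by_contra hB
  have hR : ∀ r : R, algebraMap R EN r ∈ V :=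
    fun r => hV _ (Subalgebra.algebraMap_mem _ r)
  apply h.cuspord' V hR hπV hB
  rw [h.A_j]
  exact hV _ (algebraMap_coord_mem_chartOne j)

/-- a product of an element of valuation `< 1` and an integral element has valuation `< 1`. -/
theorem valuation_mul_lt_one_of_mem {F : Type*} [Field F] (V : ValuationSubring F) {a b : F}
    (ha : V.valuation a < 1) (hb : b ∈ V) : V.valuation (a * b) < 1 := by
  rw [map_mul]
  calc V.valuation a * V.valuation b ≤ V.valuation a * 1 :=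
        mul_le_mul_right ((ValuationSubring.valuation_le_one_iff _ _).mpr hb) _
    _ < 1 := by rw [mul_one]; exact ha

/-- **no crossing at the cusps**: the two sheets do not meet at a point of the chart `j⁻¹` where
the coordinate `j⁻¹` vanishes. -/
theorem SSModel.not_crossing_of_cusp (h : SSModel K₁ π q n S t jM j A B VM Winf W0)
    (hπ : Irreducible π) (h2 : IsTwoSheet π j⁻¹ Winf W0)
    (𝔪 : Ideal ↥(chartOne R EN j⁻¹)) [h𝔪 : 𝔪.IsPrime]
    (hx : (⟨algebraMap KN EN j⁻¹, algebraMap_coord_mem_chartOne j⁻¹⟩ : ↥(chartOne R EN j⁻¹)) ∈ 𝔪)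
    (hinf : sheetIdeal j⁻¹ Winf h2.chart_le_inf ≤ 𝔪)
    (h0 : sheetIdeal j⁻¹ W0 h2.chart_le_zero ≤ 𝔪) : False := by
  have hu := h.j_transcendental
  have hK := h.j_adjoin
  have hu' := transcendental_inv_of_transcendental hu
  have hK' := adjoin_inv_eq_top hK
  have hj0 : j ≠ 0 := by
    rintro rfl
    exact hu isAlgebraic_zero
  set J : EN := algebraMap KN EN j with hJ
  have hJ0 : J ≠ 0 := by rw [hJ, Ne, map_eq_zero]; exact hj0
  have hxJ : algebraMap KN EN j⁻¹ = J⁻¹ := by rw [map_inv₀]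
  have hAJ : A jM = J := h.A_j
  have hJiinf : J⁻¹ ∈ Winf := by
    rw [← hxJ]; exact h2.chart_le_inf _ (algebraMap_coord_mem_chartOne j⁻¹)
  have hJi0 : J⁻¹ ∈ W0 := by
    rw [← hxJ]; exact h2.chart_le_zero _ (algebraMap_coord_mem_chartOne j⁻¹)
  set φ : EN := B jM * (J ^ q)⁻¹ with hφ
  have hφ' : φ = B jM * J⁻¹ ^ q := by rw [hφ, inv_pow]
  -- Step 1: `φ` is regular at `𝔪`
  have hφL : φ ∈ locRing (chartOne R EN j⁻¹) 𝔪 := by
    refine h2.mem_locRing_of_forall hπ hu' hK' 𝔪 φ (fun _ => ?_) (fun _ => ?_)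
      (fun V hπV hV _ => ?_)
    · rw [hφ']; exact Winf.mul_mem _ _ h.jq_mem_inf (pow_mem hJiinf q)
    · rw [hφ']; exact W0.mul_mem _ _ h.jq_mem_zero (pow_mem hJi0 q)
    · have hR : ∀ r : R, algebraMap R EN r ∈ V :=
        fun r => hV _ (Subalgebra.algebraMap_mem _ r)
      have hJiV : J⁻¹ ∈ V := by
        rw [← hxJ]; exact hV _ (algebraMap_coord_mem_chartOne j⁻¹)
      by_cases hJV : A jM ∈ V
      · have hTqV : B jM ∈ V := by
          by_contra hB
          exact h.cuspord' V hR hπV hB hJV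
        rw [hφ']; exact V.mul_mem _ _ hTqV (pow_mem hJiV q)
      · have h1 := (h.cuspord V hR hπV hJV).1
        rw [hAJ] at h1
        exact h1
  have hsinf := (sheet_le_iff (B := chartOne R EN j⁻¹) (𝔪 := 𝔪) h2.chart_le_inf
    (mem_sheetIdeal_iff j⁻¹ Winf h2.chart_le_inf)).mp hinf
  have hs0 := (sheet_le_iff (B := chartOne R EN j⁻¹) (𝔪 := 𝔪) h2.chart_le_zero
    (mem_sheetIdeal_iff j⁻¹ W0 h2.chart_le_zero)).mp h0
  -- Step 2: `φ - 1` vanishes at `𝔪`
  have h1 : φ - 1 ∈ locMax (chartOne R EN j⁻¹) 𝔪 := by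
    refine hsinf _ ((locRing (chartOne R EN j⁻¹) 𝔪).sub_mem hφL (Subalgebra.one_mem _)) ?_
    have hk := h.kron_j_inf
    rw [hAJ] at hk
    have he : φ - 1 = (B jM - J ^ q) * J⁻¹ ^ q := by
      rw [hφ', sub_mul, ← mul_pow, mul_inv_cancel₀ hJ0, one_pow]
    rw [he]
    exact valuation_mul_lt_one_of_mem Winf hk (pow_mem hJiinf q)
  -- Step 3: `φ ^ q` vanishes at `𝔪`
  obtain ⟨m, hm⟩ : ∃ m : ℕ, q * q = m + 1 :=
    ⟨q * q - 1, (Nat.sub_add_cancel (Nat.mul_pos h.q_prime.pos h.q_prime.pos)).symm⟩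
  have hm1 : 0 < m := by
    have := h.q_prime.two_le
    nlinarith
  have hxm : J⁻¹ ^ m ∈ locMax (chartOne R EN j⁻¹) 𝔪 := by
    have h3 : (⟨algebraMap KN EN j⁻¹, algebraMap_coord_mem_chartOne j⁻¹⟩ :
        ↥(chartOne R EN j⁻¹)) ^ m ∈ 𝔪 := Ideal.pow_mem_of_mem 𝔪 hx m hm1
    have h4 := (coe_mem_locMax_iff (B := chartOne R EN j⁻¹) (𝔪 := 𝔪) _).mpr h3
    rw [SubmonoidClass.coe_pow] at h4
    change (algebraMap KN EN j⁻¹) ^ m ∈ _ at h4
    rwa [hxJ] at h4
  have h2' : φ ^ q ∈ locMax (chartOne R EN j⁻¹) 𝔪 := by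
    have he : φ ^ q = (φ ^ q - J⁻¹ ^ m) + J⁻¹ ^ m := by ring
    rw [he]
    refine add_mem_locMax (hs0 _ ((locRing (chartOne R EN j⁻¹) 𝔪).sub_mem
      (pow_mem hφL q) (locMax_subset_locRing hxm)) ?_) hxm
    have hk := h.kron_j_zero
    rw [hAJ] at hk
    have he' : φ ^ q - J⁻¹ ^ m = -((J - B jM ^ q) * J⁻¹ ^ (m + 1)) := by
      have h5 : J⁻¹ ^ m = J * J⁻¹ ^ (m + 1) := by
        rw [pow_succ, mul_comm (J⁻¹ ^ m), ← mul_assoc, mul_inv_cancel₀ hJ0, one_mul]
      have h6 : φ ^ q = B jM ^ q * J⁻¹ ^ (m + 1) := by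
        rw [hφ', mul_pow, ← pow_mul, hm]
      rw [h6]
      nth_rewrite 1 [h5]
      ring
    rw [he', Valuation.map_neg]
    exact valuation_mul_lt_one_of_mem W0 hk (pow_mem hJi0 _)
  -- Step 4: contradiction
  have h3 : φ ^ q - 1 ∈ locMax (chartOne R EN j⁻¹) 𝔪 := by
    rw [← geom_sum_mul]
    exact mul_mem_locMax (Subalgebra.sum_mem _ (fun i _ => pow_mem hφL i)) h1
  have h4 : (1 : EN) ∈ locMax (chartOne R EN j⁻¹) 𝔪 := by
    have : (1 : EN) = φ ^ q - (φ ^ q - 1) := by ring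
    rw [this]
    exact sub_mem_locMax h2' h3
  exact one_notMem_locMax (B := chartOne R EN j⁻¹) (𝔪 := 𝔪) h4

/-! ### The chart `j` -/

/-- `A t - s`, `s ∈ S`, is a unit at every closed point of the chart `j`. -/
theorem SSModel.export_A_t_sub_notMem_locMax (h : SSModel K₁ π q n S t jM j A B VM Winf W0)
    (𝔪 : Ideal ↥(chartOne R EN j)) [h𝔪 : 𝔪.IsPrime] (s₀ : R) (hs₀ : s₀ ∈ S) :
    A (algebraMap KM EM t) - algebraMap R EN s₀ ∉ locMax (chartOne R EN j) 𝔪 := by
  intro hmem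
  have he : A (algebraMap KM EM t) - algebraMap R EN s₀ =
      A (algebraMap KM EM t - algebraMap R EM s₀) := by rw [map_sub, h.A_algebraMap]
  have hne : algebraMap KM EM t - algebraMap R EM s₀ ≠ 0 := by
    rw [IsScalarTower.algebraMap_apply R KM EM, ← map_sub, Ne, map_eq_zero, sub_eq_zero]
    intro hts
    apply h.geo.transcendental
    rw [hts, IsScalarTower.algebraMap_apply R K₁ KM]
    exact isAlgebraic_algebraMap _
  have he0 : A (algebraMap KM EM t) - algebraMap R EN s₀ ≠ 0 := by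
    rw [he, Ne, map_eq_zero]; exact hne
  have h1 := isIntegral_adjoin_map A h.A_algebraMap (h.t_sub_inv_int s₀ hs₀)
  rw [h.A_j, map_inv₀, ← he] at h1
  exact inv_notMem_locRing hmem he0
    (le_locRing (mem_chartOne_of_isIntegral_adjoin j (algebraMap_coord_mem_chartOne j) h1))

/-- `B t - s`, `s ∈ S`, is a unit at every closed point of the chart `j`. -/
theorem SSModel.export_B_t_sub_notMem_locMax (h : SSModel K₁ π q n S t jM j A B VM Winf W0)
    (hjq : B jM ∈ chartOne R EN j)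
    (𝔪 : Ideal ↥(chartOne R EN j)) [h𝔪 : 𝔪.IsPrime] (s₀ : R) (hs₀ : s₀ ∈ S) :
    B (algebraMap KM EM t) - algebraMap R EN s₀ ∉ locMax (chartOne R EN j) 𝔪 := by
  intro hmem
  have he : B (algebraMap KM EM t) - algebraMap R EN s₀ =
      B (algebraMap KM EM t - algebraMap R EM s₀) := by rw [map_sub, h.B_algebraMap]
  have hne : algebraMap KM EM t - algebraMap R EM s₀ ≠ 0 := by
    rw [IsScalarTower.algebraMap_apply R KM EM, ← map_sub, Ne, map_eq_zero, sub_eq_zero]
    intro hts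
    apply h.geo.transcendental
    rw [hts, IsScalarTower.algebraMap_apply R K₁ KM]
    exact isAlgebraic_algebraMap _
  have he0 : B (algebraMap KM EM t) - algebraMap R EN s₀ ≠ 0 := by
    rw [he, Ne, map_eq_zero]; exact hne
  have h1 := isIntegral_adjoin_map B h.B_algebraMap (h.t_sub_inv_int s₀ hs₀)
  rw [map_inv₀, ← he] at h1
  exact inv_notMem_locRing hmem he0
    (le_locRing (h.mem_chartOne_of_isIntegral_jq hjq h1))

/-- **MODEL-EXPORT, chart `j`.** -/
theorem SSModel.isModelChart_one [IsAlgClosed (IsLocalRing.ResidueField R)]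
    (h : SSModel K₁ π q n S t jM j A B VM Winf W0) (hπ : Irreducible π) :
    IsModelChart EN π (sheetIdeal j Winf h.two.chart_le_inf)
      (sheetIdeal j W0 h.two.chart_le_zero) := by
  have hu := h.j_transcendental
  have hK := h.j_adjoin
  have hjq := h.jq_mem_chartOne hπ
  refine ⟨inferInstance, inferInstance, h.two.pi_mem_inf (K₁ := K₁) hπ,
    h.two.pi_mem_zero (K₁ := K₁) hπ, h.two.inf_le_span hπ hu hK, ?_, ?_, ?_⟩
  · intro 𝔪 h𝔪 _ hinf _
    haveI := h𝔪
    exact h.exists_isBranchUniformizer_inf hu hK h.two 𝔪 hinf (le_locRing h.A_t_mem)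
  · intro 𝔪 h𝔪 _ h0 _
    haveI := h𝔪
    exact h.exists_isBranchUniformizer_zero hu hK h.two 𝔪 h0 (le_locRing (h.B_t_mem hjq))
  · intro 𝔪 h𝔪 hinf h0
    haveI := h𝔪
    haveI := h𝔪.isPrime
    obtain ⟨x, y, hx, hx0, hy, hyinf⟩ := h.exists_node_uniformizers hπ hjq 𝔪 hinf h0
      (h.exists_coord_sub_isBranchUniformizer_inf hu hK h.two 𝔪 hinf (le_locRing h.A_t_mem)
        (fun s₀ hs₀ => h.export_A_t_sub_notMem_locMax 𝔪 s₀ hs₀))
      (h.exists_coord_sub_isBranchUniformizer_zero hu hK h.two 𝔪 h0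
        (le_locRing (h.B_t_mem hjq)) (fun s₀ hs₀ => h.export_B_t_sub_notMem_locMax hjq 𝔪 s₀ hs₀))
    refine ⟨x, y, hx, hx0, hy, hyinf, ?_⟩
    obtain ⟨U, c, hc, hU0, hUinf, hUinf', hUzero, hUzero', hint, hint'⟩ := h.unit
    rw [h.A_j] at hint hint'
    obtain ⟨v, c', hc', hv1, hv2, hv3⟩ := h.two.exists_nodeUnit hπ hu hK hU0 hc hUinf hUinf'
      hUzero hUzero' hint hint'
    exact ⟨v, c', hc', hv1, hv2, fun 𝔮 h𝔮 _ hπ𝔮 _ => hv3 𝔮 h𝔮 hπ𝔮⟩

/-! ### Integrality of `j` over `R[j_q]` (the hypothesis `hjint` of the chart `j⁻¹`) -/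

/-- `j_q` is integral over `R[j]`, in the currency of `E_N`. -/
theorem SSModel.jq_isIntegral (h : SSModel K₁ π q n S t jM j A B VM Winf W0)
    (hπ : Irreducible π) : IsIntegral ↥(Algebra.adjoin R {A jM}) (B jM) := by
  have h1 := h.jq_mem_chartOne hπ
  rw [← chartOne_algebraMap_eq, mem_chartOne_iff, ← h.A_j] at h1
  exact h1

/-- **`hjint` from a ring endomorphism swapping `j` and `j_q`** (the Atkin–Lehner lift). -/
theorem SSModel.j_isIntegral_of_swap (h : SSModel K₁ π q n S t jM j A B VM Winf W0)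
    (hπ : Irreducible π) (w : EN →+* EN)
    (hwR : ∀ r : R, w (algebraMap R EN r) = algebraMap R EN r)
    (hwA : w (A jM) = B jM) (hwB : w (B jM) = A jM) :
    IsIntegral ↥(Algebra.adjoin R {B jM}) (A jM) := by
  have h1 := isIntegral_adjoin_map w hwR (h.jq_isIntegral hπ)
  rwa [hwA, hwB] at h1

/-- **`hjint` from the two-sheet datum in the coordinate `j_q`.** -/
theorem SSModel.j_isIntegral_of_isTwoSheet (h : SSModel K₁ π q n S t jM j A B VM Winf W0)
    (hπ : Irreducible π)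
    {KN' : Type*} [Field KN'] [Algebra K₁ KN'] [Algebra R KN'] [IsScalarTower R K₁ KN']
    [Algebra KN' EN] [IsScalarTower R KN' EN] [FiniteDimensional KN' EN]
    (jq' : KN') (hjq' : algebraMap KN' EN jq' = B jM) (two' : IsTwoSheet π jq' Winf W0)
    (hu : Transcendental K₁ jq') (hK : IntermediateField.adjoin K₁ {jq'} = ⊤) :
    IsIntegral ↥(Algebra.adjoin R {B jM}) (A jM) := by
  have hAinf : A jM ∈ Winf := by
    rw [h.A_j]; exact h.two.chart_le_inf _ (algebraMap_coord_mem_chartOne j)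
  have hA0 : A jM ∈ W0 := by
    rw [h.A_j]; exact h.two.chart_le_zero _ (algebraMap_coord_mem_chartOne j)
  have h1 : A jM ∈ chartOne R EN jq' := by
    refine two'.mem_chartOne_of_forall hπ hu hK (A jM) hAinf hA0 (fun V hπV hV => ?_)
    by_contra hAV
    have hR : ∀ r : R, algebraMap R EN r ∈ V :=
      fun r => hV _ (Subalgebra.algebraMap_mem _ r)
    apply (h.cuspord V hR hπV hAV).2.2
    rw [← hjq']
    exact hV _ (algebraMap_coord_mem_chartOne jq')
  rw [← chartOne_algebraMap_eq, mem_chartOne_iff, hjq'] at h1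
  exact h1

end Model

end Fermat.Agent.SS
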