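/-
(SS-q) — helper1 — **BASE, Legendre host** (`q ≠ 2`): lead's base statement `LegKummerBase`
(`TOPB_lead_Iface`) from helper7's concrete model statement `SSModelLeg` on the hosts
`legE K₁ M ⊂ legE K₁ (M q)` over `R₁ = baseRing A K₁` and the model chart `j⁻¹` (MODEL-EXPORT).

* `legKummerBase_of_mul` : bookkeeping `N = M * q`, `q ∤ M`;
* `SSModelLeg.jint` : `j` is integral over `R[j_q]` on the host (helper2's JINT fed with helper4's
  `SSModel.jq_isIntegral`);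
* `legKummer_of_ssModelLeg` : `kummer_base_of_ssModel` (BASE_helper1_Gen) instantiated on the
  Legendre hosts: all compatibility facts (`V_M`, `W_∞` Gauss, `B` = dilation, `j` has rational
  coefficients) are `rfl` / one-liners for helper7's definitions.
-/
import Mathlib
import Fermat.Agent.SS.TOPB_lead_Iface
import Fermat.Agent.SS.BASE_helper1_Gen
import Fermat.Agent.SS.MODEL_helper7_Defs
import Fermat.Agent.SS.EXPORT_helper4_Model
import Fermat.Agent.SS.JINT_helper2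

set_option autoImplicit false
set_option linter.unusedSectionVars false
set_option linter.style.haveILetI false

open HahnSeries IntermediateField AlgebraicCurve ModularCurve Fermat.Agent.Igusa

namespace Fermat.Agent.SS

open Fermat.Agent.JA Fermat.Agent.FF

open scoped Fermat.Agent.JA.Host

/-- `Ω = AlgebraicClosure ℚ`. -/
local notation "Ω" => AlgebraicClosure ℚ

/-- the absolute Galois group. -/
local notation "GQ" => (AlgebraicClosure ℚ ≃ₐ[ℚ] AlgebraicClosure ℚ)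

/-- an embedding `K₁ → ℂ` (used for the Atkin–Lehner involution of the hosts). -/
@[reducible] noncomputable def baseToComplex (K₁ : IntermediateField ℚ Ω) : Algebra ↥K₁ ℂ :=
  (((IsAlgClosed.lift : Ω →ₐ[ℚ] ℂ) : Ω →+* ℂ).comp (algebraMap ↥K₁ Ω)).toAlgebra

/-- Bézout for a prime not dividing `M`. -/
theorem exists_bezout_of_prime_of_not_dvd {q M : ℕ} (hq : q.Prime) (hqM : ¬ q ∣ M) :
    ∃ x y : ℤ, (q : ℤ) * x + M * y = 1 := by
  have hc : Nat.Coprime q M := (Nat.Prime.coprime_iff_not_dvd hq).mpr hqM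
  refine ⟨Nat.gcdA q M, Nat.gcdB q M, ?_⟩
  rw [← Nat.gcd_eq_gcd_ab, hc]
  rfl

/-- a natural number prime to the residue characteristic is a unit of `R₁` (numeral form). -/
theorem isUnit_ofNat_baseRing {q : ℕ} [Fact q.Prime] {A : ValuationSubring Ω}
    (hA : A.LiesOverPrime q) (K₁ : IntermediateField ℚ Ω) {n : ℕ} [n.AtLeastTwo] (hn : n.Prime)
    (hqn : q ≠ n) : IsUnit (OfNat.ofNat n : ↥(baseRing A K₁)) := by
  have h := isUnit_natCast_baseRing hA (K₁ := K₁) (n := n) (fun h =>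
    hqn ((Nat.prime_dvd_prime_iff_eq (Fact.out : q.Prime) hn).mp h))
  exact_mod_cast h

/-- **bookkeeping, Legendre**: it suffices to treat the levels `N = M * q`, `q ∤ M`. -/
theorem legKummerBase_of_mul
    (H : ∀ (M q : ℕ) [NeZero M] [NeZero q] [NeZero (M * q)], q.Prime → q ≠ 2 → ¬ q ∣ M →
      ∀ (A : ValuationSubring Ω), A.LiesOverPrime q →
      ∀ (K₁ : IntermediateField ℚ Ω) [Normal ℚ ↥K₁], IsGalBase q K₁ →
      ∀ σ ∈ A.inertiaSubgroupIn ℚ, ∀ (m : ℕ), 0 < m → ¬ q ∣ m →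
      ∀ f : ↥(legE ↥K₁ (M * q)), f ≠ 0 →
        ((f : ↥(legE ↥K₁ (M * q))) : LaurentSeries ↥K₁).leadingCoeff = 1 →
        (∀ P : Place ↥K₁ ↥(legE ↥K₁ (M * q)),
          P.ord (legGalois ↥K₁ (M * q) (resGal K₁ σ) • f / f) = 0 ∨
            (IsRationalPlace P ∧
              (m : ℤ) ∣ P.ord (legGalois ↥K₁ (M * q) (resGal K₁ σ) • f / f))) →
        ∃ u : ↥(legE ↥K₁ (M * q)),
          legGalois ↥K₁ (M * q) (resGal K₁ σ) • (legGalois ↥K₁ (M * q) (resGal K₁ σ) • f / f) /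
            (legGalois ↥K₁ (M * q) (resGal K₁ σ) • f / f) = u ^ m) :
    LegKummerBase := by
  intro N _ q hq hq2 hqN hq2N A hA K₁ _ hK₁ σ hσ m hm hqm f hf hlead hord
  obtain ⟨M, hM⟩ := hqN
  have hN : N = M * q := by rw [hM, mul_comm]
  subst hN
  have hM0 : M ≠ 0 := by
    rintro rfl
    exact (NeZero.ne (0 * q)) (zero_mul q)
  haveI : NeZero M := ⟨hM0⟩
  haveI : NeZero q := ⟨hq.ne_zero⟩
  have hqM : ¬ q ∣ M := by
    rintro ⟨c, rfl⟩
    exact hq2N ⟨c, by ring⟩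
  exact H M q hq hq2 hqM A hA K₁ hK₁ σ hσ m hm hqm f hf hlead hord

section Host

variable (R : Type*) [CommRing R] [IsDomain R] [IsDiscreteValuationRing R] [CharZero R]
  (K : Type*) [Field K] [Algebra R K] [IsFractionRing R K] [Algebra ℚ K] [Algebra K ℂ]
  {M q : ℕ} [NeZero M] [NeZero q] [NeZero (M * q)] {x y : ℤ}

/-- unfolding `SSModelLeg`. -/
theorem SSModelLeg.ssModel [DecidableEq R] {π : R} {h2 : IsUnit (2 : R)}
    {hbez : (q : ℤ) * x + M * y = 1} {hq : q.Prime} {hq2 : q ≠ 2}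
    (h : SSModelLeg R K π h2 hbez hq hq2) :
    haveI : FiniteDimensional ↥K⟮jqNModC K 2⟯ ↥(legE K (M * q)) :=
      finite_legE_adjoin_j K (M * q)
    SSModel K (KM := ↥K⟮legT K⟯) (EM := ↥(legE K M)) (KN := ↥K⟮jqNModC K 2⟯)
      (EN := ↥(legE K (M * q))) π q M ({0, 1} : Finset R)
      (AdjoinSimple.gen K (legT K)) (legJE K M) (AdjoinSimple.gen K (jqNModC K 2))
      (legHostA K M q : ↥(legE K M) →+* ↥(legE K (M * q)))
      (legHostB K M q hq hq2 : ↥(legE K M) →+* ↥(legE K (M * q)))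
      (legWinf R K h2 M) (legWinf R K h2 (M * q)) (legW0 R K hbez hq) := h

/-- **`hjint` on the Legendre hosts**: `j` is integral over `R[j_q]`. -/
theorem SSModelLeg.jint [DecidableEq R] {π : R} (hπ : Irreducible π) {h2 : IsUnit (2 : R)}
    {hbez : (q : ℤ) * x + M * y = 1} {hq : q.Prime} {hq2 : q ≠ 2}
    (h : SSModelLeg R K π h2 hbez hq hq2) :
    IsIntegral ↥(Algebra.adjoin R {(legHostB K M q hq hq2 (legJE K M) : ↥(legE K (M * q)))})
      (legHostA K M q (legJE K M) : ↥(legE K (M * q))) := by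
  haveI : FiniteDimensional ↥K⟮jqNModC K 2⟯ ↥(legE K (M * q)) := finite_legE_adjoin_j K (M * q)
  have h' := SSModelLeg.ssModel R K h
  exact isIntegral_jA_of_isIntegral_jB (algebraMap K ℂ) hbez hq 2 (legT K)
    (legHostA K M q (legJE K M) : ↥(legE K (M * q)))
    (legHostB K M q hq hq2 (legJE K M) : ↥(legE K (M * q))) rfl rfl (h'.jq_isIntegral hπ)

end Host

section Leg

variable {M q : ℕ} [NeZero M] [NeZero q] [NeZero (M * q)] {A : ValuationSubring Ω}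
  {K₁ : IntermediateField ℚ Ω} [Normal ℚ ↥K₁] [Algebra ↥K₁ ℂ]

set_option maxHeartbeats 1600000 in
/-- **BASE on the Legendre hosts**: the conclusion of `LegKummerBase` at the level `M * q` from
helper7's model statement `SSModelLeg` over `R₁` and the model chart `j⁻¹`. -/
theorem legKummer_of_ssModelLeg (hq : q.Prime) (hq2 : q ≠ 2) (hA : A.LiesOverPrime q)
    (hK₁ : IsGalBase q K₁)
    [IsDiscreteValuationRing ↥(baseRing A K₁)] [CharZero ↥(baseRing A K₁)]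
    [DecidableEq ↥(baseRing A K₁)]
    {ϖ : ↥(baseRing A K₁)} (hϖ : Irreducible ϖ) (h2 : IsUnit (2 : ↥(baseRing A K₁)))
    {x y : ℤ} (hbez : (q : ℤ) * x + M * y = 1)
    (h : SSModelLeg ↥(baseRing A K₁) ↥K₁ ϖ h2 hbez hq hq2)
    (htwo : haveI : FiniteDimensional ↥(↥K₁)⟮jqNModC ↥K₁ 2⟯ ↥(legE ↥K₁ (M * q)) :=
        finite_legE_adjoin_j ↥K₁ (M * q)
      ∀ h2' : IsTwoSheet ϖ (AdjoinSimple.gen ↥K₁ (jqNModC ↥K₁ 2))⁻¹
        (legWinf ↥(baseRing A K₁) ↥K₁ h2 (M * q)) (legW0 ↥(baseRing A K₁) ↥K₁ hbez hq),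
        IsModelChart ↥(legE ↥K₁ (M * q)) ϖ
          (sheetIdeal (AdjoinSimple.gen ↥K₁ (jqNModC ↥K₁ 2))⁻¹
            (legWinf ↥(baseRing A K₁) ↥K₁ h2 (M * q)) h2'.chart_le_inf)
          (sheetIdeal (AdjoinSimple.gen ↥K₁ (jqNModC ↥K₁ 2))⁻¹
            (legW0 ↥(baseRing A K₁) ↥K₁ hbez hq) h2'.chart_le_zero))
    {σ : GQ} (hσ : σ ∈ A.inertiaSubgroupIn ℚ) {m : ℕ} (hm : 0 < m) (hqm : ¬ q ∣ m)
    (f : ↥(legE ↥K₁ (M * q))) (hf : f ≠ 0)
    (hlead : ((f : ↥(legE ↥K₁ (M * q))) : LaurentSeries ↥K₁).leadingCoeff = 1)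
    (hord : ∀ P : Place ↥K₁ ↥(legE ↥K₁ (M * q)),
      P.ord (legGalois ↥K₁ (M * q) (resGal K₁ σ) • f / f) = 0 ∨
        (IsRationalPlace P ∧
          (m : ℤ) ∣ P.ord (legGalois ↥K₁ (M * q) (resGal K₁ σ) • f / f))) :
    ∃ u : ↥(legE ↥K₁ (M * q)),
      legGalois ↥K₁ (M * q) (resGal K₁ σ) • (legGalois ↥K₁ (M * q) (resGal K₁ σ) • f / f) /
        (legGalois ↥K₁ (M * q) (resGal K₁ σ) • f / f) = u ^ m := by
  haveI : Fact q.Prime := ⟨hq⟩
  haveI : FiniteDimensional ↥(↥K₁)⟮jqNModC ↥K₁ 2⟯ ↥(legE ↥K₁ (M * q)) :=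
    finite_legE_adjoin_j ↥K₁ (M * q)
  haveI := hK₁.isBase.isAlgClosed_residueField hA
  have h' := SSModelLeg.ssModel ↥(baseRing A K₁) ↥K₁ h
  have h2' := h'.two.inv hϖ
  exact kummer_base_of_ssModel hA hK₁.isBase (coeffStable_legE ↥K₁ M)
    (coeffStable_legE ↥K₁ (M * q)) (legE_le_gaussField ↥(baseRing A K₁) ↥K₁ h2 M)
    (legE_le_gaussField ↥(baseRing A K₁) ↥K₁ h2 (M * q)) hϖ h' rfl rfl
    (fun f => coe_legHostB ↥K₁ M q hq hq2 f)
    (fun τ => Subtype.ext (coeffMap_jqNModC (τ : ↥K₁ →+* ↥K₁) 2))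
    (fun r => IsScalarTower.algebraMap_apply ↥(baseRing A K₁) ↥K₁ ↥(legE ↥K₁ (M * q)) r)
    h2' (h'.isModelChart_one hϖ) (htwo h2') hσ hm hqm f hf hlead hord

end Leg

end Fermat.Agent.SS
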