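/-
(SS-q) concrete model, GROUP E — helper2: **the degree of the hosts along `B`**.
`[E_{Mq} : B(E_M)] = [E_{Mq} : E_M] ≤ q + 1`, where `B f = f(x^q)`.

Route: both degeneracy maps `A` (inclusion) and `B` restrict on `F_{M,w}` to ring homomorphisms
into `F_{Mq,w}` which differ by the Atkin–Lehner involution of `F_{Mq,w}`; two towers
`F_{M,w} → E_M → E_{Mq}` and `F_{M,w} → F_{Mq,w} → E_{Mq}` and the multiplicativity of degrees.
-/
import Mathlib
import Fermat.Agent.SS.DEG_helper2
import Fermat.Agent.SS.HOSTW_helper2_Main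
import Fermat.Agent.SS.MODEL_helper7_Defs

set_option autoImplicit false
set_option linter.unusedSectionVars false
set_option linter.unusedVariables false
set_option linter.style.haveILetI false
set_option synthInstance.maxHeartbeats 200000

open HahnSeries Polynomial ModularCurve IntermediateField

namespace Fermat.Agent.SS

open Fermat.Agent.JA Fermat.Agent.Igusa Fermat.Agent.X0N

open scoped Fermat.Agent.JA.Host

noncomputable section

section Abstract

variable {F₀ E L F₁ : Type*} [Field F₀] [Field E] [Field L] [Field F₁]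

/-- the tower law for algebra structures given by ring homomorphisms. -/
theorem degB_finrank_comp (i : F₀ →+* E) (a : E →+* L) :
    @Module.finrank F₀ L _ _ (a.comp i).toAlgebra.toModule =
      @Module.finrank F₀ E _ _ i.toAlgebra.toModule *
        @Module.finrank E L _ _ a.toAlgebra.toModule := by
  letI := i.toAlgebra
  letI := a.toAlgebra
  letI := (a.comp i).toAlgebra
  haveI : IsScalarTower F₀ E L := IsScalarTower.of_algebraMap_eq (fun _ => rfl)
  exact (Module.finrank_mul_finrank F₀ E L).symm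

/-- twisting the structure map by an automorphism of the target does not change the degree. -/
theorem degB_finrank_comp_equiv (c : F₀ →+* F₁) (σ : F₁ ≃+* F₁) :
    @Module.finrank F₀ F₁ _ _ ((σ : F₁ →+* F₁).comp c).toAlgebra.toModule =
      @Module.finrank F₀ F₁ _ _ c.toAlgebra.toModule := by
  refine (@Algebra.finrank_eq_of_equiv_equiv F₀ F₁ _ _ c.toAlgebra F₀ F₁ _ _
    ((σ : F₁ →+* F₁).comp c).toAlgebra (RingEquiv.refl F₀) σ ?_).symm
  ext x
  rfl

/-- **two towers**: if `a ∘ i = e ∘ c` and `b ∘ i = e ∘ σ ∘ c` for an automorphism `σ` of `F₁`,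
and `E / F₀` is finite, then `[L : a E] = [L : b E]`. -/
theorem degB_finrank_eq_of_towers (i : F₀ →+* E) (a b : E →+* L) (c : F₀ →+* F₁) (e : F₁ →+* L)
    (σ : F₁ ≃+* F₁) (hac : a.comp i = e.comp c)
    (hbd : b.comp i = e.comp ((σ : F₁ →+* F₁).comp c))
    (hfin : @Module.finrank F₀ E _ _ i.toAlgebra.toModule ≠ 0) :
    @Module.finrank E L _ _ a.toAlgebra.toModule =
      @Module.finrank E L _ _ b.toAlgebra.toModule := by
  have h1 := degB_finrank_comp i a
  have h2 := degB_finrank_comp i b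
  have h3 := degB_finrank_comp c e
  have h4 := degB_finrank_comp ((σ : F₁ →+* F₁).comp c) e
  rw [hac] at h1
  rw [hbd] at h2
  rw [degB_finrank_comp_equiv] at h4
  rw [h3] at h1
  rw [h4] at h2
  exact Nat.eq_of_mul_eq_mul_left (Nat.pos_of_ne_zero hfin) (h1.symm.trans h2)

end Abstract

section Host

variable {K : Type*} [Field K] [Algebra ℚ K] (ι : K →+* ℂ) {M q : ℕ} [NeZero M] [NeZero q]
  [NeZero (M * q)] {x y : ℤ} (h : (q : ℤ) * x + M * y = 1) (hq : q.Prime) (w : ℕ) [NeZero w]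
  (t : LaurentSeries K)

/-- the Atkin–Lehner involution of `F_{Mq,w}` as a ring equivalence. -/
def hostALEquiv : ↥(keyFw K (M * q) w) ≃+* ↥(keyFw K (M * q) w) :=
  RingEquiv.ofRingHom (hostAL ι h hq w) (hostAL ι h hq w)
    (RingHom.ext (hostAL_hostAL ι h hq w)) (RingHom.ext (hostAL_hostAL ι h hq w))

theorem hostALEquiv_apply (c : ↥(keyFw K (M * q) w)) :
    hostALEquiv ι h hq w c = hostAL ι h hq w c := rfl

/-- Bézout for a prime not dividing `M`. -/
theorem degB_exists_bezout {q M : ℕ} (hq : q.Prime) (hqM : ¬ q ∣ M) :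
    ∃ x y : ℤ, (q : ℤ) * x + M * y = 1 := by
  have hc : Nat.Coprime q M := (Nat.Prime.coprime_iff_not_dvd hq).mpr hqM
  refine ⟨Nat.gcdA q M, Nat.gcdB q M, ?_⟩
  rw [← Nat.gcd_eq_gcd_ab, hc]
  rfl

include ι in
/-- **the degree along `B` equals the degree along `A`** on the tower fields `E = K(t)·F_w`. -/
theorem degB_finrank_Etu_eq (hq : q.Prime) (hqM : ¬ q ∣ M)
    (ht : IsIntegral ↥(keyFw K M w) t)
    (hle : Host.Etu (keyFw K M w) t 1 ≤ Host.Etu (keyFw K (M * q) w) t 1)
    (Bm : ↥(Host.Etu (keyFw K M w) t 1) →+* ↥(Host.Etu (keyFw K (M * q) w) t 1))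
    (hB : ∀ f : ↥(Host.Etu (keyFw K M w) t 1),
      ((Bm f : ↥(Host.Etu (keyFw K (M * q) w) t 1)) : LaurentSeries K) =
        qExpand K q (f : LaurentSeries K)) :
    @Module.finrank ↥(Host.Etu (keyFw K M w) t 1) ↥(Host.Etu (keyFw K (M * q) w) t 1) _ _
        Bm.toAlgebra.toModule =
      @Module.finrank ↥(Host.Etu (keyFw K M w) t 1) ↥(Host.Etu (keyFw K (M * q) w) t 1) _ _
        (Host.inclAlg hle).toModule := by
  obtain ⟨x, y, h⟩ := degB_exists_bezout hq hqM
  have hfin : Module.Finite ↥(keyFw K M w) ↥(Host.Etu (keyFw K M w) t 1) := by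
    haveI : Fact (keyFw K M w ≤ Host.Etu (keyFw K M w) t 1) := ⟨keyFw_le_Etu K M w t⟩
    exact Host.finite_of_eq_sup_simple t (Etu_one_eq_sup K M w t) ht
  have hpos : @Module.finrank ↥(keyFw K M w) ↥(Host.Etu (keyFw K M w) t 1) _ _
      (IntermediateField.inclusion (keyFw_le_Etu K M w t)).toRingHom.toAlgebra.toModule ≠ 0 := by
    letI : Algebra ↥(keyFw K M w) ↥(Host.Etu (keyFw K M w) t 1) :=
      (IntermediateField.inclusion (keyFw_le_Etu K M w t)).toRingHom.toAlgebra
    haveI : Module.Finite ↥(keyFw K M w) ↥(Host.Etu (keyFw K M w) t 1) := hfin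
    exact Module.finrank_pos.ne'
  refine (degB_finrank_eq_of_towers
    (IntermediateField.inclusion (keyFw_le_Etu K M w t)).toRingHom
    (IntermediateField.inclusion hle).toRingHom Bm
    (IntermediateField.inclusion (hw2_keyFw_le (K := K) (M := M) (q := q) w)).toRingHom
    (IntermediateField.inclusion (keyFw_le_Etu K (M * q) w t)).toRingHom
    (hostALEquiv ι h hq w) ?_ ?_ hpos).symm
  · refine RingHom.ext fun f => ?_
    rfl
  · refine RingHom.ext fun f => ?_
    apply Subtype.ext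
    show ((Bm (IntermediateField.inclusion (keyFw_le_Etu K M w t) f) :
      ↥(Host.Etu (keyFw K (M * q) w) t 1)) : LaurentSeries K) =
      ((hostAL ι h hq w (IntermediateField.inclusion (hw2_keyFw_le w) f) :
        ↥(keyFw K (M * q) w)) : LaurentSeries K)
    rw [hB, coe_hostAL_inclusion]
    rfl

include ι in
/-- **[DEG-B], tower fields**: `E_{Mq}` is finite of degree `≤ q + 1` over `B(E_M)`. -/
theorem degB_finrank_Etu_le (hq : q.Prime) (hqM : ¬ q ∣ M)
    (ht : IsIntegral ↥(keyFw K M w) t)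
    (hle : Host.Etu (keyFw K M w) t 1 ≤ Host.Etu (keyFw K (M * q) w) t 1)
    (Bm : ↥(Host.Etu (keyFw K M w) t 1) →+* ↥(Host.Etu (keyFw K (M * q) w) t 1))
    (hB : ∀ f : ↥(Host.Etu (keyFw K M w) t 1),
      ((Bm f : ↥(Host.Etu (keyFw K (M * q) w) t 1)) : LaurentSeries K) =
        qExpand K q (f : LaurentSeries K)) :
    letI := Bm.toAlgebra
    Module.Finite ↥(Host.Etu (keyFw K M w) t 1) ↥(Host.Etu (keyFw K (M * q) w) t 1) ∧
      Module.finrank ↥(Host.Etu (keyFw K M w) t 1) ↥(Host.Etu (keyFw K (M * q) w) t 1) ≤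
        q + 1 := by
  have h1 := degB_finrank_Etu_eq ι w t hq hqM ht hle Bm hB
  obtain ⟨h2, h3⟩ := deg2_finrank_Etu_le ι hq hqM w t ht hle
  have hpos : 0 < @Module.finrank ↥(Host.Etu (keyFw K M w) t 1)
      ↥(Host.Etu (keyFw K (M * q) w) t 1) _ _ (Host.inclAlg hle).toModule := by
    letI := Host.inclAlg hle
    haveI : Module.Finite ↥(Host.Etu (keyFw K M w) t 1) ↥(Host.Etu (keyFw K (M * q) w) t 1) := h2
    exact Module.finrank_pos
  letI := Bm.toAlgebra
  refine ⟨Module.finite_of_finrank_pos ?_, ?_⟩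
  · rw [h1]
    exact hpos
  · rw [h1]
    exact h3

end Host

section Fields

variable (R : Type*) [CommRing R] [IsDomain R] [IsDiscreteValuationRing R] [CharZero R]
  [DecidableEq R]
  (K : Type*) [Field K] [Algebra R K] [IsFractionRing R K] [Algebra ℚ K] [Algebra K ℂ]
  {M q : ℕ} [NeZero M] [NeZero q] [NeZero (M * q)] {x y : ℤ}
  {π : R} (hπ : Irreducible π) (h2 : IsUnit (2 : R)) (h : (q : ℤ) * x + M * y = 1)
  (hq : q.Prime) (hq2 : q ≠ 2) (hqπ : (q : R) ∈ Ideal.span {π})

/-- **GROUP E, Legendre host.** -/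
theorem ssModelLeg_degB (hq : q.Prime) (hq2 : q ≠ 2) (hqM : ¬ q ∣ M) :
    letI := (legHostB K M q hq hq2 : ↥(legE K M) →+* ↥(legE K (M * q))).toAlgebra
    FiniteDimensional ↥(legE K M) ↥(legE K (M * q)) ∧
      Module.finrank ↥(legE K M) ↥(legE K (M * q)) ≤ q + 1 :=
  degB_finrank_Etu_le (algebraMap K ℂ) 2 (legT K) hq hqM (isIntegral_legT K).tower_top
    (legE_le_of_dvd K (dvd_mul_right M q))
    (legHostB K M q hq hq2 : ↥(legE K M) →+* ↥(legE K (M * q))) (fun _ => rfl)

end Fields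

section FieldsHes

variable (R : Type*) [CommRing R] [IsDomain R] [IsDiscreteValuationRing R] [CharZero R]
  [DecidableEq R]
  (K : Type*) [Field K] [Algebra R K] [IsFractionRing R K] [Algebra ℚ K] [Algebra K ℂ]
  {M : ℕ} [NeZero M] [NeZero (M * 2)]

/-- **GROUP E, Hesse host** (`q = 2`). -/
theorem ssModelHes_degB (hqM : ¬ 2 ∣ M) :
    letI := (hesHostB K M : ↥(hesE K M) →+* ↥(hesE K (M * 2))).toAlgebra
    FiniteDimensional ↥(hesE K M) ↥(hesE K (M * 2)) ∧
      Module.finrank ↥(hesE K M) ↥(hesE K (M * 2)) ≤ 2 + 1 :=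
  degB_finrank_Etu_le (algebraMap K ℂ) 3 (hesT K) Nat.prime_two hqM (isIntegral_hesT K).tower_top
    (hesE_le_of_dvd K (dvd_mul_right M 2))
    (hesHostB K M : ↥(hesE K M) →+* ↥(hesE K (M * 2))) (fun _ => rfl)

end FieldsHes

end

end Fermat.Agent.SS
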