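/-
(S36 / MODEL36) — helper7 — **degrees of level raising for a prime `q ∣ M`** over an arbitrary field
`K ⊂ ℂ`: `[F_{Mq} : α F_M] = [F_{Mq} : β F_M] = q` on the function fields and their host images,
and `[E_{Mq} : A E_M] ≤ q`, `[E_{Mq} : B E_M] ≤ q` on the tower fields `E = K(t) · F_w`
(`legE`, `hesE`); `A` the inclusion, `B f = f(x^q)`.
-/
import Mathlib
import Fermat.Agent.SS.FIELD_helper2_DegB

set_option autoImplicit false
set_option linter.unusedSectionVars false
set_option linter.unusedVariables false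
set_option linter.style.haveILetI false
set_option synthInstance.maxHeartbeats 200000

open HahnSeries Polynomial ModularCurve IntermediateField AlgebraicCurve

namespace Fermat.Agent.SS

open Fermat.Agent.JA Fermat.Agent.Igusa Fermat.Agent.X0N

open scoped Fermat.Agent.JA.Host

noncomputable section

section Abstract

variable {F₀ E L F₁ : Type*} [Field F₀] [Field E] [Field L] [Field F₁]

/-- **two towers, degree form**: if `a ∘ i = e ∘ c`, `b ∘ i = e ∘ c'`, `[F₁ : c F₀] = [F₁ : c' F₀]`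
and `E / F₀` is finite, then `[L : a E] = [L : b E]`. -/
theorem deg3_finrank_eq_of_towers (i : F₀ →+* E) (a b : E →+* L) (c c' : F₀ →+* F₁)
    (e : F₁ →+* L) (hac : a.comp i = e.comp c) (hbd : b.comp i = e.comp c')
    (hcc : @Module.finrank F₀ F₁ _ _ c.toAlgebra.toModule =
      @Module.finrank F₀ F₁ _ _ c'.toAlgebra.toModule)
    (hfin : @Module.finrank F₀ E _ _ i.toAlgebra.toModule ≠ 0) :
    @Module.finrank E L _ _ a.toAlgebra.toModule =
      @Module.finrank E L _ _ b.toAlgebra.toModule := by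
  have h1 := degB_finrank_comp i a
  have h2 := degB_finrank_comp i b
  have h3 := degB_finrank_comp c e
  have h4 := degB_finrank_comp c' e
  rw [hac] at h1
  rw [hbd] at h2
  rw [h3] at h1
  rw [h4, ← hcc] at h2
  exact Nat.eq_of_mul_eq_mul_left (Nat.pos_of_ne_zero hfin) (h1.symm.trans h2)

end Abstract

section Level

variable {K : Type*} [Field K] [Algebra ℚ K] (ι : K →+* ℂ) {M q : ℕ} [NeZero M] [NeZero q]
  [NeZero (M * q)]

include ι in
/-- `[F_{Mq} : α F_M] = q` for a prime `q ∣ M`. -/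
theorem deg3_finrank_keyFq_alpha (hq : q.Prime) (hqM : q ∣ M) :
    @Module.finrank ↥(keyFq K M) ↥(keyFq K (M * q)) _ _
      (heckeAlphaBar K M q).toRingHom.toAlgebra.toModule = q := by
  letI : Algebra K ℂ := ι.toAlgebra
  haveI : IsScalarTower ℚ K ℂ := IsScalarTower.of_algebraMap_eq (fun r => by
    show algebraMap ℚ ℂ r = ι (algebraMap ℚ K r)
    rw [eq_ratCast, eq_ratCast, map_ratCast])
  have h1 := finrankAlong_heckeAlphaBar (k := K) M q hq
  rw [if_pos hqM] at h1
  exact h1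

include ι in
/-- `[F_{Mq} : β F_M] = q` for a prime `q ∣ M`. -/
theorem deg3_finrank_keyFq_beta (hq : q.Prime) (hqM : q ∣ M) :
    @Module.finrank ↥(keyFq K M) ↥(keyFq K (M * q)) _ _
      (heckeBetaBar K M q).toRingHom.toAlgebra.toModule = q := by
  letI : Algebra K ℂ := ι.toAlgebra
  haveI : IsScalarTower ℚ K ℂ := IsScalarTower.of_algebraMap_eq (fun r => by
    show algebraMap ℚ ℂ r = ι (algebraMap ℚ K r)
    rw [eq_ratCast, eq_ratCast, map_ratCast])
  have h1 := finrankAlong_heckeBetaBar (k := K) M q hq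
  rw [if_pos hqM] at h1
  exact h1

variable (w : ℕ) [NeZero w]

/-- the dilation `f ↦ f(x^q)` on the host images `F_{M,w} → F_{Mq,w}`. -/
def keyFwB : ↥(keyFw K M w) →+* ↥(keyFw K (M * q) w) :=
  (dilateAlgHom K q (keyFw K M w) (keyFw K (M * q) w) (by
    rintro _ ⟨g, hg, rfl⟩
    refine ⟨qExpand K q g, (heckeBetaBar K M q ⟨g, hg⟩).2, ?_⟩
    show qExpand K w (qExpand K q g) = qExpand K q (qExpand K w g)
    rw [qExpand_qExpand, qExpand_qExpand]
    exact qExpand_congr (mul_comm w q) g) : ↥(keyFw K M w) →+* ↥(keyFw K (M * q) w))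

theorem coe_keyFwB (f : ↥(keyFw K M w)) :
    ((keyFwB (q := q) w f : ↥(keyFw K (M * q) w)) : LaurentSeries K) =
      qExpand K q (f : LaurentSeries K) := rfl

/-- the inclusion `F_{M,w} → F_{Mq,w}`. -/
def keyFwA : ↥(keyFw K M w) →+* ↥(keyFw K (M * q) w) :=
  (IntermediateField.inclusion (hw2_keyFw_le (K := K) (M := M) (q := q) w)).toRingHom

theorem coe_keyFwA (f : ↥(keyFw K M w)) :
    ((keyFwA (q := q) w f : ↥(keyFw K (M * q) w)) : LaurentSeries K) = f :=
  IntermediateField.coe_inclusion _ f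

include ι in
/-- `[F_{Mq,w} : A F_{M,w}] = q`. -/
theorem deg3_finrank_keyFw_A (hq : q.Prime) (hqM : q ∣ M) :
    @Module.finrank ↥(keyFw K M w) ↥(keyFw K (M * q) w) _ _
      (keyFwA (K := K) (M := M) (q := q) w).toAlgebra.toModule = q := by
  refine Eq.trans ?_ (deg3_finrank_keyFq_alpha ι hq hqM)
  refine @Algebra.finrank_eq_of_equiv_equiv _ _ _ _ (keyFwA (K := K) (M := M) (q := q) w).toAlgebra
    _ _ _ _ (heckeAlphaBar K M q).toRingHom.toAlgebra
    (hostImageEquiv K w (keyFq K M)).symm.toRingEquiv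
    (hostImageEquiv K w (keyFq K (M * q))).symm.toRingEquiv ?_
  refine RingHom.ext fun y => ?_
  obtain ⟨g, rfl⟩ := (hostImageEquiv K w (keyFq K M)).surjective y
  rw [RingHom.comp_apply, RingHom.comp_apply]
  have e1 : ∀ (N : ℕ) (z : ↥(keyFq K N)),
      (hostImageEquiv K w (keyFq K N)).symm.toRingEquiv.toRingHom
        (hostImageEquiv K w (keyFq K N) z) = z :=
    fun N z => (hostImageEquiv K w (keyFq K N)).symm_apply_apply z
  rw [e1]
  have e2 : @algebraMap ↥(keyFw K M w) ↥(keyFw K (M * q) w) _ _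
      (keyFwA (K := K) (M := M) (q := q) w).toAlgebra (hostImageEquiv K w (keyFq K M) g) =
      hostImageEquiv K w (keyFq K (M * q)) (heckeAlphaBar K M q g) := by
    apply Subtype.ext
    rw [coe_hostImageEquiv, coe_heckeAlphaBar]
    exact coe_keyFwA w _
  rw [e2, e1]
  rfl

include ι in
/-- `[F_{Mq,w} : B F_{M,w}] = q`. -/
theorem deg3_finrank_keyFw_B (hq : q.Prime) (hqM : q ∣ M) :
    @Module.finrank ↥(keyFw K M w) ↥(keyFw K (M * q) w) _ _
      (keyFwB (K := K) (M := M) (q := q) w).toAlgebra.toModule = q := by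
  refine Eq.trans ?_ (deg3_finrank_keyFq_beta ι hq hqM)
  refine @Algebra.finrank_eq_of_equiv_equiv _ _ _ _ (keyFwB (K := K) (M := M) (q := q) w).toAlgebra
    _ _ _ _ (heckeBetaBar K M q).toRingHom.toAlgebra
    (hostImageEquiv K w (keyFq K M)).symm.toRingEquiv
    (hostImageEquiv K w (keyFq K (M * q))).symm.toRingEquiv ?_
  refine RingHom.ext fun y => ?_
  obtain ⟨g, rfl⟩ := (hostImageEquiv K w (keyFq K M)).surjective y
  rw [RingHom.comp_apply, RingHom.comp_apply]
  have e1 : ∀ (N : ℕ) (z : ↥(keyFq K N)),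
      (hostImageEquiv K w (keyFq K N)).symm.toRingEquiv.toRingHom
        (hostImageEquiv K w (keyFq K N) z) = z :=
    fun N z => (hostImageEquiv K w (keyFq K N)).symm_apply_apply z
  rw [e1]
  have e2 : @algebraMap ↥(keyFw K M w) ↥(keyFw K (M * q) w) _ _
      (keyFwB (K := K) (M := M) (q := q) w).toAlgebra (hostImageEquiv K w (keyFq K M) g) =
      hostImageEquiv K w (keyFq K (M * q)) (heckeBetaBar K M q g) := by
    apply Subtype.ext
    rw [coe_hostImageEquiv, coe_heckeBetaBar]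
    show qExpand K q (qExpand K w (g : LaurentSeries K)) = qExpand K w (qExpand K q g)
    rw [qExpand_qExpand, qExpand_qExpand]
    exact qExpand_congr (mul_comm q w) _
  rw [e2, e1]
  rfl

variable (t : LaurentSeries K)

include ι in
/-- **tower fields, `A`-side**: `[E_{Mq} : E_M] ≤ q` for `q ∣ M` (compositum bound). -/
theorem deg3_finrank_Etu_le (hq : q.Prime) (hqM : q ∣ M)
    (ht : IsIntegral ↥(keyFw K M w) t)
    (hle : Host.Etu (keyFw K M w) t 1 ≤ Host.Etu (keyFw K (M * q) w) t 1) :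
    letI := Host.inclAlg hle
    Module.Finite ↥(Host.Etu (keyFw K M w) t 1) ↥(Host.Etu (keyFw K (M * q) w) t 1) ∧
      Module.finrank ↥(Host.Etu (keyFw K M w) t 1) ↥(Host.Etu (keyFw K (M * q) w) t 1) ≤ q := by
  have hF : keyFw K M w ≤ keyFw K (M * q) w := hw2_keyFw_le w
  haveI : Fact (keyFw K M w ≤ keyFw K (M * q) w) := ⟨hF⟩
  haveI : Fact (keyFw K M w ≤ Host.Etu (keyFw K M w) t 1) := ⟨keyFw_le_Etu K M w t⟩
  haveI : Fact (keyFw K M w ≤ Host.Etu (keyFw K (M * q) w) t 1) :=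
    ⟨le_trans hF (keyFw_le_Etu K (M * q) w t)⟩
  haveI : Fact (Host.Etu (keyFw K M w) t 1 ≤ Host.Etu (keyFw K (M * q) w) t 1) := ⟨hle⟩
  haveI : Fact (keyFw K (M * q) w ≤ Host.Etu (keyFw K (M * q) w) t 1) :=
    ⟨keyFw_le_Etu K (M * q) w t⟩
  have h2 : Module.finrank ↥(keyFw K M w) ↥(keyFw K (M * q) w) = q :=
    deg3_finrank_keyFw_A ι w hq hqM
  haveI : Module.Finite ↥(keyFw K M w) ↥(keyFw K (M * q) w) :=
    Module.finite_of_finrank_pos (by rw [h2]; exact hq.pos)
  haveI : Module.Finite ↥(keyFw K M w) ↥(Host.Etu (keyFw K M w) t 1) :=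
    Host.finite_of_eq_sup_simple t (Etu_one_eq_sup K M w t) ht
  have hD : Host.Etu (keyFw K (M * q) w) t 1 =
      Host.Etu (keyFw K M w) t 1 ⊔ keyFw K (M * q) w := by
    rw [Etu_one_eq_sup, Etu_one_eq_sup]
    apply le_antisymm
    · exact sup_le le_sup_right (le_trans le_sup_right le_sup_left)
    · exact sup_le (sup_le (le_trans hF le_sup_left) le_sup_right) le_sup_left
  refine ⟨Host.finite_sup_left (A := keyFw K M w) hD, ?_⟩
  exact le_of_le_of_eq (deg2_finrank_sup_le (A := keyFw K M w) hD) h2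

include ι in
/-- **the degree along `B` equals the degree along `A`** on the tower fields, `q ∣ M`. -/
theorem deg3_finrank_Etu_eq (hq : q.Prime) (hqM : q ∣ M)
    (ht : IsIntegral ↥(keyFw K M w) t)
    (hle : Host.Etu (keyFw K M w) t 1 ≤ Host.Etu (keyFw K (M * q) w) t 1)
    (Bm : ↥(Host.Etu (keyFw K M w) t 1) →+* ↥(Host.Etu (keyFw K (M * q) w) t 1))
    (hB : ∀ f : ↥(Host.Etu (keyFw K M w) t 1),
      ((Bm f : ↥(Host.Etu (keyFw K (M * q) w) t 1)) : LaurentSeries K) =
        qExpand K q (f : LaurentSeries K)) :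
    @Module.finrank ↥(Host.Etu (keyFw K M w) t 1) ↥(Host.Etu (keyFw K (M * q) w) t 1) _ _
        Bm.toAlgebra.toModule =
      @Module.finrank ↥(Host.Etu (keyFw K M w) t 1) ↥(Host.Etu (keyFw K (M * q) w) t 1) _ _
        (Host.inclAlg hle).toModule := by
  have hfin : Module.Finite ↥(keyFw K M w) ↥(Host.Etu (keyFw K M w) t 1) := by
    haveI : Fact (keyFw K M w ≤ Host.Etu (keyFw K M w) t 1) := ⟨keyFw_le_Etu K M w t⟩
    exact Host.finite_of_eq_sup_simple t (Etu_one_eq_sup K M w t) ht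
  have hpos : @Module.finrank ↥(keyFw K M w) ↥(Host.Etu (keyFw K M w) t 1) _ _
      (IntermediateField.inclusion (keyFw_le_Etu K M w t)).toRingHom.toAlgebra.toModule ≠ 0 := by
    letI : Algebra ↥(keyFw K M w) ↥(Host.Etu (keyFw K M w) t 1) :=
      (IntermediateField.inclusion (keyFw_le_Etu K M w t)).toRingHom.toAlgebra
    haveI : Module.Finite ↥(keyFw K M w) ↥(Host.Etu (keyFw K M w) t 1) := hfin
    exact Module.finrank_pos.ne'
  refine (deg3_finrank_eq_of_towers
    (IntermediateField.inclusion (keyFw_le_Etu K M w t)).toRingHom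
    (IntermediateField.inclusion hle).toRingHom Bm
    (keyFwA (K := K) (M := M) (q := q) w) (keyFwB (K := K) (M := M) (q := q) w)
    (IntermediateField.inclusion (keyFw_le_Etu K (M * q) w t)).toRingHom ?_ ?_ ?_ hpos).symm
  · refine RingHom.ext fun f => ?_
    rfl
  · refine RingHom.ext fun f => ?_
    apply Subtype.ext
    show ((Bm (IntermediateField.inclusion (keyFw_le_Etu K M w t) f) :
      ↥(Host.Etu (keyFw K (M * q) w) t 1)) : LaurentSeries K) =
      ((keyFwB (q := q) w f : ↥(keyFw K (M * q) w)) : LaurentSeries K)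
    rw [hB, coe_keyFwB]
    rfl
  · rw [deg3_finrank_keyFw_A ι w hq hqM, deg3_finrank_keyFw_B ι w hq hqM]

include ι in
/-- **tower fields, `B`-side**: `E_{Mq}` is finite of degree `≤ q` over `B(E_M)`, `q ∣ M`. -/
theorem deg3_finrank_Etu_B_le (hq : q.Prime) (hqM : q ∣ M)
    (ht : IsIntegral ↥(keyFw K M w) t)
    (hle : Host.Etu (keyFw K M w) t 1 ≤ Host.Etu (keyFw K (M * q) w) t 1)
    (Bm : ↥(Host.Etu (keyFw K M w) t 1) →+* ↥(Host.Etu (keyFw K (M * q) w) t 1))
    (hB : ∀ f : ↥(Host.Etu (keyFw K M w) t 1),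
      ((Bm f : ↥(Host.Etu (keyFw K (M * q) w) t 1)) : LaurentSeries K) =
        qExpand K q (f : LaurentSeries K)) :
    letI := Bm.toAlgebra
    Module.Finite ↥(Host.Etu (keyFw K M w) t 1) ↥(Host.Etu (keyFw K (M * q) w) t 1) ∧
      Module.finrank ↥(Host.Etu (keyFw K M w) t 1) ↥(Host.Etu (keyFw K (M * q) w) t 1) ≤ q := by
  have h1 := deg3_finrank_Etu_eq ι w t hq hqM ht hle Bm hB
  obtain ⟨h2, h3⟩ := deg3_finrank_Etu_le ι w t hq hqM ht hle
  have hpos : 0 < @Module.finrank ↥(Host.Etu (keyFw K M w) t 1)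
      ↥(Host.Etu (keyFw K (M * q) w) t 1) _ _ (Host.inclAlg hle).toModule := by
    letI := Host.inclAlg hle
    haveI : Module.Finite ↥(Host.Etu (keyFw K M w) t 1) ↥(Host.Etu (keyFw K (M * q) w) t 1) := h2
    exact Module.finrank_pos
  letI := Bm.toAlgebra
  refine ⟨Module.finite_of_finrank_pos ?_, ?_⟩
  · rw [h1]
    exact hpos
  · rw [h1]
    exact h3

end Level

section Fields

variable (K : Type*) [Field K] [Algebra ℚ K] [Algebra K ℂ]
  {M q : ℕ} [NeZero M] [NeZero q] [NeZero (M * q)]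

/-- **Legendre host, `A`-side, `q ∣ M`.** -/
theorem legE_degA_dvd (hq : q.Prime) (hqM : q ∣ M) :
    letI := (legHostA K M q : ↥(legE K M) →+* ↥(legE K (M * q))).toAlgebra
    FiniteDimensional ↥(legE K M) ↥(legE K (M * q)) ∧
      Module.finrank ↥(legE K M) ↥(legE K (M * q)) ≤ q :=
  deg3_finrank_Etu_le (algebraMap K ℂ) 2 (legT K) hq hqM (isIntegral_legT K).tower_top
    (legE_le_of_dvd K (dvd_mul_right M q))

/-- **Legendre host, `B`-side, `q ∣ M`.** -/
theorem legE_degB_dvd (hq : q.Prime) (hq2 : q ≠ 2) (hqM : q ∣ M) :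
    letI := (legHostB K M q hq hq2 : ↥(legE K M) →+* ↥(legE K (M * q))).toAlgebra
    FiniteDimensional ↥(legE K M) ↥(legE K (M * q)) ∧
      Module.finrank ↥(legE K M) ↥(legE K (M * q)) ≤ q :=
  deg3_finrank_Etu_B_le (algebraMap K ℂ) 2 (legT K) hq hqM (isIntegral_legT K).tower_top
    (legE_le_of_dvd K (dvd_mul_right M q))
    (legHostB K M q hq hq2 : ↥(legE K M) →+* ↥(legE K (M * q))) (fun _ => rfl)

end Fields

section FieldsHes

variable (K : Type*) [Field K] [Algebra ℚ K] [Algebra K ℂ]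
  {M : ℕ} [NeZero M] [NeZero (M * 2)]

/-- **Hesse host, `A`-side, `2 ∣ M`.** -/
theorem hesE_degA_dvd (hqM : 2 ∣ M) :
    letI := (hesHostA K M 2 : ↥(hesE K M) →+* ↥(hesE K (M * 2))).toAlgebra
    FiniteDimensional ↥(hesE K M) ↥(hesE K (M * 2)) ∧
      Module.finrank ↥(hesE K M) ↥(hesE K (M * 2)) ≤ 2 :=
  deg3_finrank_Etu_le (algebraMap K ℂ) 3 (hesT K) Nat.prime_two hqM
    (isIntegral_hesT K).tower_top (hesE_le_of_dvd K (dvd_mul_right M 2))

/-- **Hesse host, `B`-side, `2 ∣ M`.** -/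
theorem hesE_degB_dvd (hqM : 2 ∣ M) :
    letI := (hesHostB K M : ↥(hesE K M) →+* ↥(hesE K (M * 2))).toAlgebra
    FiniteDimensional ↥(hesE K M) ↥(hesE K (M * 2)) ∧
      Module.finrank ↥(hesE K M) ↥(hesE K (M * 2)) ≤ 2 :=
  deg3_finrank_Etu_B_le (algebraMap K ℂ) 3 (hesT K) Nat.prime_two hqM
    (isIntegral_hesT K).tower_top (hesE_le_of_dvd K (dvd_mul_right M 2))
    (hesHostB K M : ↥(hesE K M) →+* ↥(hesE K (M * 2))) (fun _ => rfl)

end FieldsHes

end

end Fermat.Agent.SS
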