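/-
(SS-q) concrete `SSModel` fields — helper3 — part 3: **the verbatim field values**
`comap_A_zero`, `comap_B_zero`, `kron_t_zero` of `SSModelLeg` / `SSModelHes`
(`MODEL_helper7_Defs`), statements as in helper7's skeleton (finding 309), plus the two
Gauss fields `gauss_inf`, `gauss_zero` of the two-sheet structure in concrete form.
-/
import Mathlib
import Fermat.Agent.SS.FIELD_helper3_Comap
import Fermat.Agent.SS.FIELD_helper6_Kron
import Fermat.Agent.SS.FIELD_helper9_A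
import Fermat.Agent.SS.KRONT_helper3_Main

set_option autoImplicit false
set_option linter.unusedSectionVars false
set_option linter.unusedVariables false
set_option linter.style.haveILetI false
set_option synthInstance.maxHeartbeats 200000

open Polynomial ModularCurve IntermediateField

namespace Fermat.Agent.SS

open Fermat.Agent.JA Fermat.Agent.Igusa Fermat.Agent.X0N

open scoped Fermat.Agent.JA.Host

section Aux

variable {R : Type*} [CommRing R] {E : Type*} [Field E] [Algebra R E]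

/-- if `π` is a non-unit of the valuation subring `W ⊇ R` and `q ∈ (π)`, then `v_W(q) < 1`. -/
theorem valuation_natCast_lt_one_of_mem_span (W : ValuationSubring E)
    (hR : ∀ r : R, algebraMap R E r ∈ W) {π : R} (hπW : (algebraMap R E π)⁻¹ ∉ W) {q : ℕ}
    (hqπ : (q : R) ∈ Ideal.span {π}) : W.valuation (q : E) < 1 := by
  obtain ⟨a, ha⟩ := Ideal.mem_span_singleton'.1 hqπ
  have hπ1 : W.valuation (algebraMap R E π) < 1 := by
    by_contra hcon
    rw [not_lt] at hcon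
    apply hπW
    rw [← ValuationSubring.valuation_le_one_iff, map_inv₀]
    exact inv_le_one_of_one_le₀ hcon
  have hqE : (q : E) = algebraMap R E a * algebraMap R E π := by
    rw [← map_mul, ha, map_natCast]
  rw [hqE, map_mul]
  calc W.valuation (algebraMap R E a) * W.valuation (algebraMap R E π)
      ≤ 1 * W.valuation (algebraMap R E π) :=
        mul_le_mul_left ((ValuationSubring.valuation_le_one_iff _ _).2 (hR a)) _
    _ < 1 := by rw [one_mul]; exact hπ1

end Aux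

section Leg

variable (R : Type*) [CommRing R] [IsDomain R] [IsDiscreteValuationRing R] [CharZero R]
  [DecidableEq R]
  (K : Type*) [Field K] [Algebra R K] [IsFractionRing R K] [Algebra ℚ K] [Algebra K ℂ]
  {M q : ℕ} [NeZero M] [NeZero q] [NeZero (M * q)] {x y : ℤ}
  {π : R} (hπ : Irreducible π) (h2 : IsUnit (2 : R)) (h : (q : ℤ) * x + M * y = 1)
  (hq : q.Prime) (hq2 : q ≠ 2) (hqπ : (q : R) ∈ Ideal.span {π})

/-- **`comap_A_zero`, Legendre** (verbatim). -/
theorem ssModelLeg_comap_A_zero (hπ : Irreducible π) (h2 : IsUnit (2 : R))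
    (h : (q : ℤ) * x + M * y = 1) (hq : q.Prime)
    (hgeo : GeoHyps K π (AdjoinSimple.gen K (legT K)) ↥(legE K M) M ({0, 1} : Finset R)) :
    (legW0 R K h hq).comap (legHostA K M q : ↥(legE K M) →+* ↥(legE K (M * q))) =
      legWinf R K h2 M :=
  comap_legHostA_eq_legWinf R K (algebraMap K ℂ) h hq h2 hgeo (legW0 R K h hq)
    (legW0_mem_of_atkinLehnerN R K h hq) (inv_uniformizer_notMem_legW0 R K h hq hπ)

/-- **`comap_B_zero`, Legendre** (verbatim). -/
theorem ssModelLeg_comap_B_zero (hπ : Irreducible π) (h2 : IsUnit (2 : R))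
    (h : (q : ℤ) * x + M * y = 1) (hq : q.Prime) (hq2 : q ≠ 2)
    (hgeo : GeoHyps K π (AdjoinSimple.gen K (legT K)) ↥(legE K M) M ({0, 1} : Finset R)) :
    (legW0 R K h hq).comap (legHostB K M q hq hq2 : ↥(legE K M) →+* ↥(legE K (M * q))) =
      legWinf R K h2 M :=
  comap_legHostB_eq_legWinf R K (algebraMap K ℂ) h hq h2 hq2 hgeo (legW0 R K h hq)
    (legW0_mem_of_atkinLehnerN R K h hq) (inv_uniformizer_notMem_legW0 R K h hq hπ)

/-- **`two.gauss_inf`, Legendre**, concrete. -/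
theorem ssModelLeg_gauss_inf (hπ : Irreducible π) (h2 : IsUnit (2 : R)) :
    IsGaussAt R π (AdjoinSimple.gen K (jqNModC K 2))
      ((legWinf R K h2 (M * q)).comap (algebraMap ↥K⟮jqNModC K 2⟯ ↥(legE K (M * q)))) :=
  isGaussAt_legWinf_j R K hπ h2 (M * q)

/-- **`two.gauss_zero`, Legendre**, concrete. -/
theorem ssModelLeg_gauss_zero (hπ : Irreducible π) (h : (q : ℤ) * x + M * y = 1)
    (hq : q.Prime) :
    IsGaussAt R π (AdjoinSimple.gen K (jqNModC K 2))
      ((legW0 R K h hq).comap (algebraMap ↥K⟮jqNModC K 2⟯ ↥(legE K (M * q)))) :=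
  isGaussAt_legW0_j R K (algebraMap K ℂ) h hq hπ (legW0 R K h hq)
    (legW0_mem_of_atkinLehnerN R K h hq) (inv_uniformizer_notMem_legW0 R K h hq hπ)

/-- `R ⊆ W_0`, Legendre. -/
theorem algebraMap_mem_legW0 (hπ : Irreducible π) (h : (q : ℤ) * x + M * y = 1) (hq : q.Prime)
    (r : R) : algebraMap R ↥(legE K (M * q)) r ∈ legW0 R K h hq := by
  have hG := isGaussAt_legJE_of_atkinLehnerN R K (algebraMap K ℂ) h hq hπ (legW0 R K h hq)
    (legW0_mem_of_atkinLehnerN R K h hq) (inv_uniformizer_notMem_legW0 R K h hq hπ)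
  have := hG.1 (Polynomial.C r)
  rwa [aeval_C] at this

/-- `R ⊆ W_∞`, Legendre. -/
theorem algebraMap_mem_legWinf (h2 : IsUnit (2 : R)) (N : ℕ) [NeZero N] (r : R) :
    algebraMap R ↥(legE K N) r ∈ legWinf R K h2 N := by
  apply mem_legWinf_of_mem_gaussInt
  rw [IsScalarTower.algebraMap_apply R K ↥(legE K N), IntermediateField.coe_algebraMap_apply,
    algebraMap_laurentSeries_eq_single, ← HahnSeries.C_apply]
  exact C_algebraMap_mem_gaussInt r

/-- `j_M ∈ V_M`, Legendre. -/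
theorem legJE_mem_legWinf (h2 : IsUnit (2 : R)) (N : ℕ) [NeZero N] :
    legJE K N ∈ legWinf R K h2 N := by
  apply mem_legWinf_of_mem_gaussInt
  rw [coe_legJE]
  exact (isPrimeSeries_jqNModC R K 2).mem_gaussInt

/-- **`kron_t_zero`, Legendre** (verbatim). -/
theorem ssModelLeg_kron_t_zero (hπ : Irreducible π) (h2 : IsUnit (2 : R))
    (h : (q : ℤ) * x + M * y = 1) (hq : q.Prime) (hq2 : q ≠ 2) (hqπ : (q : R) ∈ Ideal.span {π})
    (hA0 : (legW0 R K h hq).comap (legHostA K M q : ↥(legE K M) →+* ↥(legE K (M * q))) =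
      legWinf R K h2 M)
    (hB0 : (legW0 R K h hq).comap (legHostB K M q hq hq2 : ↥(legE K M) →+* ↥(legE K (M * q))) =
      legWinf R K h2 M)
    (hkron : (legW0 R K h hq).valuation
      ((legHostA K M q : ↥(legE K M) →+* ↥(legE K (M * q))) (legJE K M) -
        (legHostB K M q hq hq2 : ↥(legE K M) →+* ↥(legE K (M * q))) (legJE K M) ^ q) < 1) :
    ∃ s' ρ : ↥(legE K (M * q)),
      IsIntegral ↥(Algebra.adjoin R
        {(legHostB K M q hq hq2 : ↥(legE K M) →+* ↥(legE K (M * q))) (legJE K M)}) s' ∧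
      IsIntegral ↥(Algebra.adjoin R
        {(legHostA K M q : ↥(legE K M) →+* ↥(legE K (M * q))) (legJE K M)}) ρ ∧
      (legW0 R K h hq).valuation
        ((legHostA K M q : ↥(legE K M) →+* ↥(legE K (M * q)))
          (algebraMap ↥K⟮legT K⟯ ↥(legE K M) (AdjoinSimple.gen K (legT K))) - s' ^ q) < 1 ∧
      (legWinf R K h2 (M * q)).valuation (s' - ρ ^ q) < 1 := by
  have hjM : legJE K M ∈ legWinf R K h2 M := legJE_mem_legWinf R K h2 M
  have hR0 := algebraMap_mem_legW0 R K hπ h hq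
  have hRinf := algebraMap_mem_legWinf R K h2 (M * q)
  have hπ0 : (algebraMap R ↥(legE K (M * q)) π)⁻¹ ∉ legW0 R K h hq := by
    rw [IsScalarTower.algebraMap_apply R K ↥(legE K (M * q))]
    exact inv_uniformizer_notMem_legW0 R K h hq hπ
  have hπinf : (algebraMap R ↥(legE K (M * q)) π)⁻¹ ∉ legWinf R K h2 (M * q) := by
    rw [IsScalarTower.algebraMap_apply R K ↥(legE K (M * q))]
    exact inv_uniformizer_notMem_legWinf R K h2 (M * q) hπ
  have hA0' : (legHostA K M q : ↥(legE K M) →+* ↥(legE K (M * q))) (legJE K M) ∈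
      legW0 R K h hq := by
    rw [← ValuationSubring.mem_comap, hA0]; exact hjM
  have hB0' : (legHostB K M q hq hq2 : ↥(legE K M) →+* ↥(legE K (M * q))) (legJE K M) ∈
      legW0 R K h hq := by
    rw [← ValuationSubring.mem_comap, hB0]; exact hjM
  have hAinf' : (legHostA K M q : ↥(legE K M) →+* ↥(legE K (M * q))) (legJE K M) ∈
      legWinf R K h2 (M * q) := by
    rw [← ValuationSubring.mem_comap, ssModelLeg_comap_A_inf R K h2]; exact hjM
  have hBinf' : (legHostB K M q hq hq2 : ↥(legE K M) →+* ↥(legE K (M * q))) (legJE K M) ∈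
      legWinf R K h2 (M * q) := by
    rw [← ValuationSubring.mem_comap, ssModelLeg_comap_B_inf R K h2 hq hq2]; exact hjM
  have hq0 := valuation_natCast_lt_one_of_mem_span _ hR0 hπ0 hqπ
  have hqinf := valuation_natCast_lt_one_of_mem_span _ hRinf hπinf hqπ
  have hkinf := ssModelLeg_kron_j_inf R K (M := M) hπ h2 hq hq2 hqπ
  have hrel := legendre_rel_legE K M
  exact legendre_kron_t_zero (R := R) (KM := ↥K⟮legT K⟯) (EM := ↥(legE K M))
    (EN := ↥(legE K (M * q)))
    (legHostA K M q : ↥(legE K M) →+* ↥(legE K (M * q)))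
    (legHostB K M q hq hq2 : ↥(legE K M) →+* ↥(legE K (M * q)))
    (legW0 R K h hq) (legWinf R K h2 (M * q)) hq h2 hR0 hRinf hq0 hqinf
    (AdjoinSimple.gen K (legT K)) (legJE K M) hrel hA0' hB0' hAinf' hBinf' hkinf hkron

end Leg

section Hes

variable (R : Type*) [CommRing R] [IsDomain R] [IsDiscreteValuationRing R] [CharZero R]
  [DecidableEq R]
  (K : Type*) [Field K] [Algebra R K] [IsFractionRing R K] [Algebra ℚ K] [Algebra K ℂ]
  {M : ℕ} [NeZero M] [NeZero (M * 2)] {x y : ℤ}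
  {π : R} (hπ : Irreducible π) (h3 : IsUnit (3 : R)) (h : ((2 : ℕ) : ℤ) * x + M * y = 1)
  (hqπ : ((2 : ℕ) : R) ∈ Ideal.span {π})

/-- **`comap_A_zero`, Hesse** (verbatim). -/
theorem ssModelHes_comap_A_zero (hπ : Irreducible π) (h3 : IsUnit (3 : R))
    (h : ((2 : ℕ) : ℤ) * x + M * y = 1) (ω : R)
    (hgeo : GeoHyps K π (AdjoinSimple.gen K (hesT K)) ↥(hesE K M) M
      ({1, ω, ω ^ 2} : Finset R)) :
    (hesW0 R K h Nat.prime_two).comap (hesHostA K M 2 : ↥(hesE K M) →+* ↥(hesE K (M * 2))) =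
      hesWinf R K h3 M :=
  comap_hesHostA_eq_hesWinf R K (algebraMap K ℂ) h Nat.prime_two h3 hgeo
    (hesW0 R K h Nat.prime_two)
    (hesW0_mem_of_atkinLehnerN R K h Nat.prime_two)
    (inv_uniformizer_notMem_hesW0 R K h Nat.prime_two hπ)

/-- **`comap_B_zero`, Hesse** (verbatim). -/
theorem ssModelHes_comap_B_zero (hπ : Irreducible π) (h3 : IsUnit (3 : R))
    (h : ((2 : ℕ) : ℤ) * x + M * y = 1) (ω : R)
    (hgeo : GeoHyps K π (AdjoinSimple.gen K (hesT K)) ↥(hesE K M) M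
      ({1, ω, ω ^ 2} : Finset R)) :
    (hesW0 R K h Nat.prime_two).comap (hesHostB K M : ↥(hesE K M) →+* ↥(hesE K (M * 2))) =
      hesWinf R K h3 M :=
  comap_hesHostB_eq_hesWinf R K (algebraMap K ℂ) h3 hgeo h
    (hesW0 R K h Nat.prime_two)
    (hesW0_mem_of_atkinLehnerN R K h Nat.prime_two)
    (inv_uniformizer_notMem_hesW0 R K h Nat.prime_two hπ)

/-- **`two.gauss_inf`, Hesse**, concrete. -/
theorem ssModelHes_gauss_inf (hπ : Irreducible π) (h3 : IsUnit (3 : R)) :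
    IsGaussAt R π (AdjoinSimple.gen K (jqNModC K 3))
      ((hesWinf R K h3 (M * 2)).comap (algebraMap ↥K⟮jqNModC K 3⟯ ↥(hesE K (M * 2)))) :=
  isGaussAt_hesWinf_j R K hπ h3 (M * 2)

/-- **`two.gauss_zero`, Hesse**, concrete. -/
theorem ssModelHes_gauss_zero (hπ : Irreducible π) (h : ((2 : ℕ) : ℤ) * x + M * y = 1) :
    IsGaussAt R π (AdjoinSimple.gen K (jqNModC K 3))
      ((hesW0 R K h Nat.prime_two).comap (algebraMap ↥K⟮jqNModC K 3⟯ ↥(hesE K (M * 2)))) :=
  isGaussAt_hesW0_j R K (algebraMap K ℂ) h Nat.prime_two hπ (hesW0 R K h Nat.prime_two)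
    (hesW0_mem_of_atkinLehnerN R K h Nat.prime_two)
    (inv_uniformizer_notMem_hesW0 R K h Nat.prime_two hπ)

/-- `R ⊆ W_0`, Hesse. -/
theorem algebraMap_mem_hesW0 (hπ : Irreducible π) (h : ((2 : ℕ) : ℤ) * x + M * y = 1)
    (r : R) : algebraMap R ↥(hesE K (M * 2)) r ∈ hesW0 R K h Nat.prime_two := by
  have hG := isGaussAt_hesJE_of_atkinLehnerN R K (algebraMap K ℂ) h Nat.prime_two hπ
    (hesW0 R K h Nat.prime_two)
    (hesW0_mem_of_atkinLehnerN R K h Nat.prime_two)
    (inv_uniformizer_notMem_hesW0 R K h Nat.prime_two hπ)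
  have := hG.1 (Polynomial.C r)
  rwa [aeval_C] at this

/-- `R ⊆ W_∞`, Hesse. -/
theorem algebraMap_mem_hesWinf (h3 : IsUnit (3 : R)) (N : ℕ) [NeZero N] (r : R) :
    algebraMap R ↥(hesE K N) r ∈ hesWinf R K h3 N := by
  apply mem_hesWinf_of_mem_gaussInt
  rw [IsScalarTower.algebraMap_apply R K ↥(hesE K N), IntermediateField.coe_algebraMap_apply,
    algebraMap_laurentSeries_eq_single, ← HahnSeries.C_apply]
  exact C_algebraMap_mem_gaussInt r

/-- `j_M ∈ V_M`, Hesse. -/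
theorem hesJE_mem_hesWinf (h3 : IsUnit (3 : R)) (N : ℕ) [NeZero N] :
    hesJE K N ∈ hesWinf R K h3 N := by
  apply mem_hesWinf_of_mem_gaussInt
  rw [coe_hesJE]
  exact (isPrimeSeries_jqNModC R K 3).mem_gaussInt

/-- **`kron_t_zero`, Hesse** (verbatim, with `hω`). -/
theorem ssModelHes_kron_t_zero (hπ : Irreducible π) (h3 : IsUnit (3 : R)) (ω : R)
    (hω : ω ^ 2 + ω + 1 = 0)
    (h : ((2 : ℕ) : ℤ) * x + M * y = 1) (hqπ : ((2 : ℕ) : R) ∈ Ideal.span {π})
    (hA0 : (hesW0 R K h Nat.prime_two).comap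
      (hesHostA K M 2 : ↥(hesE K M) →+* ↥(hesE K (M * 2))) = hesWinf R K h3 M)
    (hB0 : (hesW0 R K h Nat.prime_two).comap
      (hesHostB K M : ↥(hesE K M) →+* ↥(hesE K (M * 2))) = hesWinf R K h3 M)
    (hkron : (hesW0 R K h Nat.prime_two).valuation
      ((hesHostA K M 2 : ↥(hesE K M) →+* ↥(hesE K (M * 2))) (hesJE K M) -
        (hesHostB K M : ↥(hesE K M) →+* ↥(hesE K (M * 2))) (hesJE K M) ^ 2) < 1) :
    ∃ s' ρ : ↥(hesE K (M * 2)),
      IsIntegral ↥(Algebra.adjoin R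
        {(hesHostB K M : ↥(hesE K M) →+* ↥(hesE K (M * 2))) (hesJE K M)}) s' ∧
      IsIntegral ↥(Algebra.adjoin R
        {(hesHostA K M 2 : ↥(hesE K M) →+* ↥(hesE K (M * 2))) (hesJE K M)}) ρ ∧
      (hesW0 R K h Nat.prime_two).valuation
        ((hesHostA K M 2 : ↥(hesE K M) →+* ↥(hesE K (M * 2)))
          (algebraMap ↥K⟮hesT K⟯ ↥(hesE K M) (AdjoinSimple.gen K (hesT K))) - s' ^ 2) < 1 ∧
      (hesWinf R K h3 (M * 2)).valuation (s' - ρ ^ 2) < 1 := by
  have hjM : hesJE K M ∈ hesWinf R K h3 M := hesJE_mem_hesWinf R K h3 M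
  have hR0 := algebraMap_mem_hesW0 R K hπ h
  have hRinf := algebraMap_mem_hesWinf R K h3 (M * 2)
  have hπ0 : (algebraMap R ↥(hesE K (M * 2)) π)⁻¹ ∉ hesW0 R K h Nat.prime_two := by
    rw [IsScalarTower.algebraMap_apply R K ↥(hesE K (M * 2))]
    exact inv_uniformizer_notMem_hesW0 R K h Nat.prime_two hπ
  have hπinf : (algebraMap R ↥(hesE K (M * 2)) π)⁻¹ ∉ hesWinf R K h3 (M * 2) := by
    rw [IsScalarTower.algebraMap_apply R K ↥(hesE K (M * 2))]
    exact inv_uniformizer_notMem_hesWinf R K h3 (M * 2) hπ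
  have hA0' : (hesHostA K M 2 : ↥(hesE K M) →+* ↥(hesE K (M * 2))) (hesJE K M) ∈
      hesW0 R K h Nat.prime_two := by
    rw [← ValuationSubring.mem_comap, hA0]; exact hjM
  have hB0' : (hesHostB K M : ↥(hesE K M) →+* ↥(hesE K (M * 2))) (hesJE K M) ∈
      hesW0 R K h Nat.prime_two := by
    rw [← ValuationSubring.mem_comap, hB0]; exact hjM
  have hAinf' : (hesHostA K M 2 : ↥(hesE K M) →+* ↥(hesE K (M * 2))) (hesJE K M) ∈
      hesWinf R K h3 (M * 2) := by
    rw [← ValuationSubring.mem_comap, ssModelHes_comap_A_inf R K h3]; exact hjM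
  have hBinf' : (hesHostB K M : ↥(hesE K M) →+* ↥(hesE K (M * 2))) (hesJE K M) ∈
      hesWinf R K h3 (M * 2) := by
    rw [← ValuationSubring.mem_comap, ssModelHes_comap_B_inf R K h3]; exact hjM
  have hq0 := valuation_natCast_lt_one_of_mem_span _ hR0 hπ0 hqπ
  have hqinf := valuation_natCast_lt_one_of_mem_span _ hRinf hπinf hqπ
  have hkinf := ssModelHes_kron_j_inf R K (M := M) hπ h3 hqπ
  have hrel := hesse_rel_hesE K M
  exact hesse_kron_t_zero (R := R) (KM := ↥K⟮hesT K⟯) (EM := ↥(hesE K M))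
    (EN := ↥(hesE K (M * 2)))
    (hesHostA K M 2 : ↥(hesE K M) →+* ↥(hesE K (M * 2)))
    (hesHostB K M : ↥(hesE K M) →+* ↥(hesE K (M * 2)))
    (hesW0 R K h Nat.prime_two) (hesWinf R K h3 (M * 2)) Nat.prime_two h3 ω hω hR0 hRinf hq0 hqinf
    (AdjoinSimple.gen K (hesT K)) (hesJE K M) hrel hA0' hB0' hAinf' hBinf' hkinf hkron

end Hes

end Fermat.Agent.SS
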