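/-
(SS-q) MODEL-EXPORT leaf [XFER] — helper3 — **transfer of the model data from the chart `u` to the
chart `u⁻¹` at the closed points where `u⁻¹` does not vanish.**

The charts `B₁ = chartOne R E u`, `B₂ = chartOne R E u⁻¹` have the same local ring at a closed
point `𝔪` of `B₂` with `u⁻¹ ∉ 𝔪` and the corresponding closed point `𝔪₁ = locComap …` of `B₁`
(`locRing_chartOne_inv_eq`, helper4).  Branch uniformizers of a sheet only depend on the local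
ring (`IsLocBranch`), so `branch_inf`, `branch_zero` and the uniformizer part of `node` of
`IsModelChart` for the chart `u` give the same data for the chart `u⁻¹` at `𝔪`.
-/
import Mathlib
import Fermat.Agent.SS.EXPORT_helper4_Charts
import Fermat.Agent.SS.VERT_helper4_Closed
import Fermat.Agent.SS.GLUE_helper3_A
import Fermat.Agent.JA.CHARTADJ_helper7

set_option autoImplicit false
set_option linter.unusedSectionVars false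
set_option linter.style.haveILetI false

namespace Fermat.Agent.SS

open Fermat.Agent.JA Polynomial

section Xfer

variable {R : Type*} [CommRing R] [IsDomain R] [IsDiscreteValuationRing R] [CharZero R]
  {K₁ : Type*} [Field K₁] [Algebra R K₁] [IsFractionRing R K₁]
  {K : Type*} [Field K] [Algebra K₁ K] [Algebra R K] [IsScalarTower R K₁ K]
  {E : Type*} [Field E] [Algebra K E] [Algebra R E] [IsScalarTower R K E] [FiniteDimensional K E]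
  {π : R} {u : K} {Winf W0 : ValuationSubring E}

/-- transfer of a branch uniformizer between two subalgebras with the same local ring. -/
theorem exists_isBranchUniformizer_of_locRing_eq {B₁ B₂ : Subalgebra R E}
    {𝔪₁ : Ideal ↥B₁} [h𝔪₁ : 𝔪₁.IsPrime] {𝔪₂ : Ideal ↥B₂} [h𝔪₂ : 𝔪₂.IsPrime]
    (hL : locRing B₁ 𝔪₁ = locRing B₂ 𝔪₂) (hM : locMax B₁ 𝔪₁ = locMax B₂ 𝔪₂)
    {W : ValuationSubring E} (hB₁W : ∀ b ∈ B₁, b ∈ W) (hB₂W : ∀ b ∈ B₂, b ∈ W)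
    {𝔭₁ : Ideal ↥B₁} (h𝔭₁ : ∀ b : ↥B₁, b ∈ 𝔭₁ ↔ W.valuation (b : E) < 1)
    {𝔭₂ : Ideal ↥B₂} (h𝔭₂ : ∀ b : ↥B₂, b ∈ 𝔭₂ ↔ W.valuation (b : E) < 1)
    (hle₁ : 𝔭₁ ≤ 𝔪₁) (hle₂ : 𝔭₂ ≤ 𝔪₂) {z₁ : ↥B₁} (hz₁ : IsBranchUniformizer 𝔭₁ 𝔪₁ z₁) :
    ∃ z s : ↥B₂, s ∉ 𝔪₂ ∧ (z₁ : E) * (s : E) = (z : E) ∧ IsBranchUniformizer 𝔭₂ 𝔪₂ z := by
  have h1 : IsLocBranch W (locRing B₁ 𝔪₁) (locMax B₁ 𝔪₁) (z₁ : E) :=
    IsBranchUniformizer.isLocBranch hB₁W h𝔭₁ hle₁ hz₁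
  rw [hL, hM] at h1
  exact IsLocBranch.exists_isBranchUniformizer hB₂W h𝔭₂ hle₂ h1

/-- the sheet containments correspond. -/
theorem sheet_le_iff_of_locRing_eq {B₁ B₂ : Subalgebra R E}
    {𝔪₁ : Ideal ↥B₁} [h𝔪₁ : 𝔪₁.IsPrime] {𝔪₂ : Ideal ↥B₂} [h𝔪₂ : 𝔪₂.IsPrime]
    (hL : locRing B₁ 𝔪₁ = locRing B₂ 𝔪₂) (hM : locMax B₁ 𝔪₁ = locMax B₂ 𝔪₂)
    {W : ValuationSubring E} (hB₁W : ∀ b ∈ B₁, b ∈ W) (hB₂W : ∀ b ∈ B₂, b ∈ W)
    {𝔭₁ : Ideal ↥B₁} (h𝔭₁ : ∀ b : ↥B₁, b ∈ 𝔭₁ ↔ W.valuation (b : E) < 1)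
    {𝔭₂ : Ideal ↥B₂} (h𝔭₂ : ∀ b : ↥B₂, b ∈ 𝔭₂ ↔ W.valuation (b : E) < 1) :
    𝔭₁ ≤ 𝔪₁ ↔ 𝔭₂ ≤ 𝔪₂ := by
  rw [sheet_le_iff hB₁W h𝔭₁, sheet_le_iff hB₂W h𝔭₂, hL, hM]

/-- **[XFER]** the model data of the chart `u⁻¹` at the closed points where `u⁻¹` does not vanish,
from the model data of the chart `u`. -/
theorem IsTwoSheet.xfer_inv (h : IsTwoSheet π u Winf W0) (h2 : IsTwoSheet π u⁻¹ Winf W0)
    (hπ : Irreducible π) (hu : Transcendental K₁ u) (hK : IntermediateField.adjoin K₁ {u} = ⊤)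
    [IsAlgClosed (IsLocalRing.ResidueField R)]
    (hmod₁ : IsModelChart E π (sheetIdeal u Winf h.chart_le_inf) (sheetIdeal u W0 h.chart_le_zero))
    (𝔪 : Ideal ↥(chartOne R E u⁻¹)) [𝔪.IsMaximal]
    (hπ𝔪 : algebraMap R ↥(chartOne R E u⁻¹) π ∈ 𝔪)
    (hx : (⟨algebraMap K E u⁻¹, algebraMap_coord_mem_chartOne u⁻¹⟩ : ↥(chartOne R E u⁻¹)) ∉ 𝔪) :
    (sheetIdeal u⁻¹ Winf h2.chart_le_inf ≤ 𝔪 → ¬ sheetIdeal u⁻¹ W0 h2.chart_le_zero ≤ 𝔪 →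
      ∃ z : ↥(chartOne R E u⁻¹), IsBranchUniformizer (sheetIdeal u⁻¹ Winf h2.chart_le_inf) 𝔪 z) ∧
    (sheetIdeal u⁻¹ W0 h2.chart_le_zero ≤ 𝔪 → ¬ sheetIdeal u⁻¹ Winf h2.chart_le_inf ≤ 𝔪 →
      ∃ z : ↥(chartOne R E u⁻¹), IsBranchUniformizer (sheetIdeal u⁻¹ W0 h2.chart_le_zero) 𝔪 z) ∧
    (sheetIdeal u⁻¹ Winf h2.chart_le_inf ≤ 𝔪 → sheetIdeal u⁻¹ W0 h2.chart_le_zero ≤ 𝔪 →
      ∃ x y : ↥(chartOne R E u⁻¹),
        IsBranchUniformizer (sheetIdeal u⁻¹ Winf h2.chart_le_inf) 𝔪 x ∧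
        x ∈ sheetIdeal u⁻¹ W0 h2.chart_le_zero ∧
        IsBranchUniformizer (sheetIdeal u⁻¹ W0 h2.chart_le_zero) 𝔪 y ∧
        y ∈ sheetIdeal u⁻¹ Winf h2.chart_le_inf) := by
  have hu0 : u ≠ 0 := by
    rintro rfl
    exact hu isAlgebraic_zero
  have hu' : Transcendental K₁ u⁻¹ := transcendental_inv_of_transcendental hu
  have hK' : IntermediateField.adjoin K₁ {u⁻¹} = ⊤ := adjoin_inv_eq_top hK
  have hle : chartOne R E u ≤ locRing (chartOne R E u⁻¹) 𝔪 := chartOne_le_locRing_inv u hu0 𝔪 hx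
  obtain ⟨hL, hM⟩ := locRing_chartOne_inv_eq (R := R) (E := E) u hu0 𝔪 hx
  set 𝔪₁ : Ideal ↥(chartOne R E u) :=
    locComap (chartOne R E u⁻¹) 𝔪 (chartOne R E u) hle with h𝔪₁
  have hres : ∀ b : ↥(chartOne R E u⁻¹), ∃ c : R, b - algebraMap R ↥(chartOne R E u⁻¹) c ∈ 𝔪 :=
    exists_sub_mem_of_isMaximal_chartOne hπ hu' hK' 𝔪 hπ𝔪
  obtain ⟨hmax₁, -⟩ := locComap_isMaximal hres hle
  have hπ𝔪₁ : algebraMap R ↥(chartOne R E u) π ∈ 𝔪₁ := by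
    rw [h𝔪₁, mem_locComap_iff]
    exact (coe_mem_locMax_iff (algebraMap R ↥(chartOne R E u⁻¹) π)).mpr hπ𝔪
  -- the sheet data
  have hinf_iff : sheetIdeal u Winf h.chart_le_inf ≤ 𝔪₁ ↔
      sheetIdeal u⁻¹ Winf h2.chart_le_inf ≤ 𝔪 :=
    sheet_le_iff_of_locRing_eq hL hM h.chart_le_inf h2.chart_le_inf
      (mem_sheetIdeal_iff u Winf h.chart_le_inf) (mem_sheetIdeal_iff u⁻¹ Winf h2.chart_le_inf)
  have hzero_iff : sheetIdeal u W0 h.chart_le_zero ≤ 𝔪₁ ↔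
      sheetIdeal u⁻¹ W0 h2.chart_le_zero ≤ 𝔪 :=
    sheet_le_iff_of_locRing_eq hL hM h.chart_le_zero h2.chart_le_zero
      (mem_sheetIdeal_iff u W0 h.chart_le_zero) (mem_sheetIdeal_iff u⁻¹ W0 h2.chart_le_zero)
  refine ⟨fun hinf hn0 => ?_, fun h0 hninf => ?_, fun hinf h0 => ?_⟩
  · obtain ⟨z₁, hz₁⟩ := hmod₁.branch_inf 𝔪₁ hmax₁ hπ𝔪₁ (hinf_iff.mpr hinf)
      (fun hc => hn0 (hzero_iff.mp hc))
    obtain ⟨z, s, -, -, hz⟩ := exists_isBranchUniformizer_of_locRing_eq hL hM h.chart_le_inf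
      h2.chart_le_inf (mem_sheetIdeal_iff u Winf h.chart_le_inf)
      (mem_sheetIdeal_iff u⁻¹ Winf h2.chart_le_inf) (hinf_iff.mpr hinf) hinf hz₁
    exact ⟨z, hz⟩
  · obtain ⟨z₁, hz₁⟩ := hmod₁.branch_zero 𝔪₁ hmax₁ hπ𝔪₁ (hzero_iff.mpr h0)
      (fun hc => hninf (hinf_iff.mp hc))
    obtain ⟨z, s, -, -, hz⟩ := exists_isBranchUniformizer_of_locRing_eq hL hM h.chart_le_zero
      h2.chart_le_zero (mem_sheetIdeal_iff u W0 h.chart_le_zero)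
      (mem_sheetIdeal_iff u⁻¹ W0 h2.chart_le_zero) (hzero_iff.mpr h0) h0 hz₁
    exact ⟨z, hz⟩
  · obtain ⟨x₁, y₁, hx₁, hx₁0, hy₁, hy₁inf, -⟩ := hmod₁.node 𝔪₁ hmax₁ (hinf_iff.mpr hinf)
      (hzero_iff.mpr h0)
    obtain ⟨x, s, -, hxs, hxb⟩ := exists_isBranchUniformizer_of_locRing_eq hL hM h.chart_le_inf
      h2.chart_le_inf (mem_sheetIdeal_iff u Winf h.chart_le_inf)
      (mem_sheetIdeal_iff u⁻¹ Winf h2.chart_le_inf) (hinf_iff.mpr hinf) hinf hx₁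
    obtain ⟨y, s', -, hys, hyb⟩ := exists_isBranchUniformizer_of_locRing_eq hL hM h.chart_le_zero
      h2.chart_le_zero (mem_sheetIdeal_iff u W0 h.chart_le_zero)
      (mem_sheetIdeal_iff u⁻¹ W0 h2.chart_le_zero) (hzero_iff.mpr h0) h0 hy₁
    refine ⟨x, y, hxb, ?_, hyb, ?_⟩
    · rw [mem_sheetIdeal_iff, ← hxs, map_mul]
      have h1 : W0.valuation (x₁ : E) < 1 := (mem_sheetIdeal_iff u W0 h.chart_le_zero x₁).mp hx₁0
      have h2' : W0.valuation (s : E) ≤ 1 :=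
        (ValuationSubring.valuation_le_one_iff _ _).mpr (h2.chart_le_zero _ s.2)
      calc W0.valuation (x₁ : E) * W0.valuation (s : E) ≤ W0.valuation (x₁ : E) * 1 :=
            mul_le_mul_right h2' _
        _ < 1 := by rw [mul_one]; exact h1
    · rw [mem_sheetIdeal_iff, ← hys, map_mul]
      have h1 : Winf.valuation (y₁ : E) < 1 :=
        (mem_sheetIdeal_iff u Winf h.chart_le_inf y₁).mp hy₁inf
      have h2' : Winf.valuation (s' : E) ≤ 1 :=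
        (ValuationSubring.valuation_le_one_iff _ _).mpr (h2.chart_le_inf _ s'.2)
      calc Winf.valuation (y₁ : E) * Winf.valuation (s' : E) ≤ Winf.valuation (y₁ : E) * 1 :=
            mul_le_mul_right h2' _
        _ < 1 := by rw [mul_one]; exact h1

end Xfer

end Fermat.Agent.SS
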