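/-
(S36 / MODEL36) — helper7 — **the three sheets of a host of level `M q²` from the three sheets of
the function-field level** (generic in the hosts `E_L ≥ keyFw K M w`, `E_M ≥ keyFw K (M q) w`,
`E_N ≥ keyFw K (M q q) w`; `q ∤ M`).

F-level input: valuation subrings `W11F`, `W02F` of `keyFw K (M q q) w` with the four restriction
statements along `keyFwA` (inclusion) and `keyFwB` (`x ↦ x^q`), a witness `δF` with
`W11F(δF^{q-1}) = W11F(π)` and the Kronecker congruence `j_1 ≡ j_2^q` on `W02F`.
Host-level input: the hypotheses of `host_two_sheet_W0` at level `(M, M q)`, degree bounds `≤ q` at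
level `(M q, M q q)`, and ANY valuation subrings `W11`, `W02` of `E_N` restricting to `W11F`, `W02F`
(e.g. Chevalley extensions: `exists_host_three_sheet_lift`).
Output: the conclusions of `host_three_sheet` for `(Gauss, W11, W02)` on `E_N`.
-/
import Mathlib
import Fermat.Agent.SS.VAL3_helper7_HostThree
import Fermat.Agent.SS.MODEL_helper7_W0
import Fermat.Agent.SS.DEG3_helper7

set_option autoImplicit false
set_option linter.unusedSectionVars false
set_option linter.unusedVariables false
set_option linter.style.haveILetI false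
set_option synthInstance.maxHeartbeats 200000

open Polynomial ModularCurve IntermediateField IsLocalRing

namespace Fermat.Agent.SS

open Fermat.Agent.JA Fermat.Agent.Igusa

open scoped Fermat.Agent.JA.Host

noncomputable section

section Comap

variable {F L' : Type*} [Field F] [Field L']

/-- comparison of valuations along a ring homomorphism with prescribed restriction. -/
theorem comap_val_le_iff (ι : F →+* L') {V : ValuationSubring L'} {O : ValuationSubring F}
    (h : V.comap ι = O) (a b : F) :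
    V.valuation (ι a) ≤ V.valuation (ι b) ↔ O.valuation a ≤ O.valuation b := by
  by_cases hb : b = 0
  · subst hb
    rw [map_zero, map_zero, map_zero, le_zero_iff, le_zero_iff, Valuation.zero_iff,
      Valuation.zero_iff, map_eq_zero]
  have hb' : ι b ≠ 0 := (map_ne_zero ι).mpr hb
  have hvb : V.valuation (ι b) ≠ 0 := (Valuation.ne_zero_iff _).mpr hb'
  have hob : O.valuation b ≠ 0 := (Valuation.ne_zero_iff _).mpr hb
  have h1 : V.valuation (ι a) ≤ V.valuation (ι b) ↔ ι (a * b⁻¹) ∈ V := by
    rw [← ValuationSubring.valuation_le_one_iff, map_mul, map_inv₀, map_mul, map_inv₀,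
      mul_inv_le_iff₀ (zero_lt_iff.mpr hvb), one_mul]
  have h2 : O.valuation a ≤ O.valuation b ↔ a * b⁻¹ ∈ O := by
    rw [← ValuationSubring.valuation_le_one_iff, map_mul, map_inv₀,
      mul_inv_le_iff₀ (zero_lt_iff.mpr hob), one_mul]
  rw [h1, h2, comap_mem_iff ι h]

theorem comap_val_eq_iff (ι : F →+* L') {V : ValuationSubring L'} {O : ValuationSubring F}
    (h : V.comap ι = O) (a b : F) :
    V.valuation (ι a) = V.valuation (ι b) ↔ O.valuation a = O.valuation b := by
  rw [le_antisymm_iff, le_antisymm_iff, comap_val_le_iff ι h, comap_val_le_iff ι h]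

end Comap

section NotKron

variable {R : Type*} [CommRing R] [IsDomain R] [IsDiscreteValuationRing R]
  {L : Type*} [Field L] [Algebra R L] [IsFractionRing R L]
  (EM EN : IntermediateField L (LaurentSeries L))
  (hle : EM ≤ EN) (q : ℕ) [NeZero q] (hB : ∀ f ∈ EM, qExpand L q f ∈ EN)
  (hEM : EM ≤ gaussField R L) (hEN : EN ≤ gaussField R L)

/-- the coefficientwise Gauss valuation does NOT satisfy the Kronecker congruence
`A J ≡ (B J)^q`. -/
theorem gauss_not_kron (hq : q.Prime) (w : ℕ) (hw0 : 0 < w) (J : ↥EM)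
    (hJ : (J : LaurentSeries L) ∈ gaussInt R L)
    (hJo : (gaussRed R L ⟨(J : LaurentSeries L), hJ⟩).order = -(w : ℤ)) :
    ¬ (gaussValSub R L EN hEN).valuation
      (hostA EM EN hle J - hostB EM EN q hB J ^ q) < 1 := by
  intro hkron
  rw [gaussValSub_valuation_lt_one_iff] at hkron
  obtain ⟨hmem, hred⟩ := hkron
  have hBJ : qExpand L q (J : LaurentSeries L) ∈ gaussInt R L :=
    (gaussHomQExpand R L q).map_mem_gaussInt hJ
  have h1 : (⟨_, hmem⟩ : gaussInt R L) =
      (⟨(J : LaurentSeries L), hJ⟩ : gaussInt R L) -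
        (⟨qExpand L q (J : LaurentSeries L), hBJ⟩ : gaussInt R L) ^ q := by
    apply Subtype.ext
    rfl
  rw [h1, map_sub, map_pow, sub_eq_zero, gaussRed_qExpand q hJ] at hred
  have h2 := congrArg HahnSeries.order hred
  rw [HahnSeries.order_pow, Fermat.Agent.JA.order_qExpand, hJo, nsmul_eq_mul] at h2
  have hq2 : (2 : ℤ) ≤ q := by exact_mod_cast hq.two_le
  have hw1 : (1 : ℤ) ≤ w := by exact_mod_cast hw0
  have h3 : (4 : ℤ) ≤ (q : ℤ) * q := by nlinarith
  have h4 : (w : ℤ) * ((q : ℤ) * q) = w := by linarith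
  nlinarith

end NotKron

section Lift

variable (K : Type*) [Field K] [Algebra ℚ K] (ι : K →+* ℂ) {M q : ℕ} [NeZero M] [NeZero q]
  [NeZero (M * q)] [NeZero (M * q * q)] (w : ℕ) [NeZero w] {x y : ℤ}
  (h : (q : ℤ) * x + M * y = 1) (hq : q.Prime)
  (R : Type*) [CommRing R] [IsDomain R] [IsDiscreteValuationRing R]
  [Algebra R K] [IsFractionRing R K]
  (EL EM EN : IntermediateField K (LaurentSeries K))
  (hFL : keyFw K M w ≤ EL) (hFM : keyFw K (M * q) w ≤ EM) (hFN : keyFw K (M * q * q) w ≤ EN)
  (hLM : EL ≤ EM) (hMN : EM ≤ EN)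
  (hBL : ∀ f ∈ EL, qExpand K q f ∈ EM) (hBM : ∀ f ∈ EM, qExpand K q f ∈ EN)
  (hEL : EL ≤ gaussField R K) (hEM : EM ≤ gaussField R K) (hEN : EN ≤ gaussField R K)

/-- the inclusion of the host image of `F_N` into a host, as a ring homomorphism. -/
abbrev hostIncl {N : ℕ} [NeZero N] (E : IntermediateField K (LaurentSeries K))
    (hE : keyFw K N w ≤ E) : ↥(keyFw K N w) →+* ↥E :=
  ((IntermediateField.inclusion hE : ↥(keyFw K N w) →ₐ[K] ↥E) : _ →+* ↥E)

omit [NeZero (M * q * q)] in
/-- the restriction of the host Gauss valuation subring to the host image. -/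
theorem comap_hostIncl_gaussValSub {N : ℕ} [NeZero N] (E : IntermediateField K (LaurentSeries K))
    (hE : keyFw K N w ≤ E) (hEg : E ≤ gaussField R K) :
    (gaussValSub R K E hEg).comap (hostIncl K w E hE) =
      gaussValSub R K (keyFw K N w) (keyFw_le_gaussField R K N w) := by
  ext z
  rfl

include hFL in
/-- **the lift** (see the file header). -/
theorem host_three_sheet_lift [CharZero K] (hchar : (q : ResidueField R) = 0) {π : R}
    (hπ : Irreducible π) (hcop : Nat.Coprime w q) (J : ↥EL)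
    (hJ : (J : LaurentSeries K) = jqNModC K w)
    -- level `(M, M q)`
    (hfinA₁ : letI := (hostA EL EM hLM : ↥EL →+* ↥EM).toAlgebra; FiniteDimensional ↥EL ↥EM)
    (hdegA₁ : letI := (hostA EL EM hLM : ↥EL →+* ↥EM).toAlgebra;
      Module.finrank ↥EL ↥EM ≤ q + 1)
    (hfinB₁ : letI := (hostB EL EM q hBL : ↥EL →+* ↥EM).toAlgebra; FiniteDimensional ↥EL ↥EM)
    (hdegB₁ : letI := (hostB EL EM q hBL : ↥EL →+* ↥EM).toAlgebra;
      Module.finrank ↥EL ↥EM ≤ q + 1)
    (huniq : ∀ V : ValuationSubring ↥EL, IsGaussAt R π J V → V = gaussValSub R K EL hEL)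
    -- level `(M q, M q q)`
    (hfinA₂ : letI := (hostA EM EN hMN : ↥EM →+* ↥EN).toAlgebra; FiniteDimensional ↥EM ↥EN)
    (hdegA₂ : letI := (hostA EM EN hMN : ↥EM →+* ↥EN).toAlgebra; Module.finrank ↥EM ↥EN ≤ q)
    (hfinB₂ : letI := (hostB EM EN q hBM : ↥EM →+* ↥EN).toAlgebra; FiniteDimensional ↥EM ↥EN)
    (hdegB₂ : letI := (hostB EM EN q hBM : ↥EM →+* ↥EN).toAlgebra; Module.finrank ↥EM ↥EN ≤ q)
    -- the F-level sheets
    (W11F W02F : ValuationSubring ↥(keyFw K (M * q * q) w))
    (f11A : W11F.comap (keyFwA (K := K) (M := M * q) (q := q) w) =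
      gaussValSub R K (keyFw K (M * q) w) (keyFw_le_gaussField R K (M * q) w))
    (f11B : W11F.comap (keyFwB (K := K) (M := M * q) (q := q) w) = hostW0F K ι w h hq R)
    (f02A : W02F.comap (keyFwA (K := K) (M := M * q) (q := q) w) = hostW0F K ι w h hq R)
    (f02B : W02F.comap (keyFwB (K := K) (M := M * q) (q := q) w) = hostW0F K ι w h hq R)
    (δF : ↥(keyFw K (M * q * q) w))
    (fδ : W11F.valuation (δF ^ (q - 1)) =
      W11F.valuation (algebraMap R ↥(keyFw K (M * q * q) w) π))
    (fkron : W02F.valuation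
      (keyFwA (K := K) (M := M * q) (q := q) w
          (keyFwB (K := K) (M := M) (q := q) w ⟨jqNModC K w, jqNModC_mem_keyFw M w⟩) -
        keyFwB (K := K) (M := M * q) (q := q) w
          (keyFwB (K := K) (M := M) (q := q) w ⟨jqNModC K w, jqNModC_mem_keyFw M w⟩) ^ q) < 1)
    -- the host sheets
    (W11 W02 : ValuationSubring ↥EN)
    (h11 : W11.comap (hostIncl K w EN hFN) = W11F)
    (h02 : W02.comap (hostIncl K w EN hFN) = W02F) :
    IsDiscreteValuationRing ↥(hostW0 K ι w h hq R EM hFM) ∧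
    W11.comap (hostA EM EN hMN : ↥EM →+* ↥EN) = gaussValSub R K EM hEM ∧
    W11.comap (hostB EM EN q hBM : ↥EM →+* ↥EN) = hostW0 K ι w h hq R EM hFM ∧
    W02.comap (hostA EM EN hMN : ↥EM →+* ↥EN) = hostW0 K ι w h hq R EM hFM ∧
    W02.comap (hostB EM EN q hBM : ↥EM →+* ↥EN) = hostW0 K ι w h hq R EM hFM ∧
    W11.valuation (hostIncl K w EN hFN δF ^ (q - 1)) = W11.valuation (algebraMap R ↥EN π) ∧
    W02.valuation (hostA EM EN hMN (hostB EL EM q hBL J) -
      hostB EM EN q hBM (hostB EL EM q hBL J) ^ q) < 1 ∧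
    ((gaussValSub R K EN hEN ≠ W11 ∧ gaussValSub R K EN hEN ≠ W02 ∧ W11 ≠ W02) ∧
    (∀ V : ValuationSubring ↥EN,
      V.comap (hostA EM EN hMN : ↥EM →+* ↥EN) = gaussValSub R K EM hEM →
        V = gaussValSub R K EN hEN ∨ V = W11) ∧
    (∀ V : ValuationSubring ↥EN,
      V.comap (hostA EM EN hMN : ↥EM →+* ↥EN) = hostW0 K ι w h hq R EM hFM → V = W02) ∧
    (∀ V : ValuationSubring ↥EN,
      V.comap (hostB EM EN q hBM : ↥EM →+* ↥EN) = hostW0 K ι w h hq R EM hFM →
        V = W02 ∨ V = W11) ∧
    (∀ V : ValuationSubring ↥EN,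
      V.comap (hostB EM EN q hBM : ↥EM →+* ↥EN) = gaussValSub R K EM hEM →
        V = gaussValSub R K EN hEN) ∧
    (∀ x : ↥EN, (gaussValSub R K EN hEN).valuation x < 1 →
      x * (algebraMap R ↥EN π)⁻¹ ∈ gaussValSub R K EN hEN) ∧
    (∀ x : ↥EN, W11.valuation x < 1 → x * (hostIncl K w EN hFN δF)⁻¹ ∈ W11) ∧
    (∀ x : ↥EN, W02.valuation x < 1 → x * (algebraMap R ↥EN π)⁻¹ ∈ W02) ∧
    (∀ x ∈ gaussValSub R K EN hEN, ∃ a ∈ gaussValSub R K EM hEM,
      (gaussValSub R K EN hEN).valuation (x - hostA EM EN hMN a) < 1) ∧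
    (∀ x ∈ W11, ∃ a ∈ gaussValSub R K EM hEM, W11.valuation (x - hostA EM EN hMN a) < 1) ∧
    (∀ x ∈ W11, ∃ a ∈ hostW0 K ι w h hq R EM hFM,
      W11.valuation (x - hostB EM EN q hBM a) < 1) ∧
    (∀ x ∈ W02, ∃ a ∈ hostW0 K ι w h hq R EM hFM,
      W02.valuation (x - hostB EM EN q hBM a) < 1)) := by
  classical
  haveI : CharP (ResidueField R) q := charP_of_prime_of_natCast_eq_zero hq hchar
  haveI : Fact q.Prime := ⟨hq⟩
  haveI : ExpChar (ResidueField R) q := ExpChar.prime hq
  -- level `(M, M q)`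
  obtain ⟨hA0, hB0, hkron1, hne, honly, -, hezero, -, hreszero⟩ :=
    host_two_sheet_W0 K ι w h hq R EL EM hFL hFM hLM hBL hEL hEM hchar hπ hcop J hJ
      hfinA₁ hdegA₁ hfinB₁ hdegB₁ huniq
  set VM0 := hostW0 K ι w h hq R EM hFM with hVM0
  have hTj := isPrimeSeries_jqNModC R K w
  have hJg : (J : LaurentSeries K) ∈ gaussInt R K := by rw [hJ]; exact hTj.mem_gaussInt
  have hred : gaussRed R K ⟨(J : LaurentSeries K), hJg⟩ = jqNModC (ResidueField R) w := by
    have e : (⟨(J : LaurentSeries K), hJg⟩ : gaussInt R K) = ⟨jqNModC K w, hTj.mem_gaussInt⟩ :=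
      Subtype.ext hJ
    rw [e, gaussRed_jqNModC]
  have hord : (gaussRed R K ⟨(J : LaurentSeries K), hJg⟩).order = -(w : ℤ) := by
    rw [hred, order_jqNModC_field]
  have hne0 : gaussRed R K ⟨(J : LaurentSeries K), hJg⟩ ≠ 0 := by
    intro h0
    rw [h0, HahnSeries.order_zero] at hord
    have hw : (w : ℤ) ≠ 0 := by exact_mod_cast NeZero.ne w
    omega
  haveI : CharZero ↥EL := charZero_of_injective_algebraMap (algebraMap K ↥EL).injective
  have hsepB₁ : letI := (hostB EL EM q hBL : ↥EL →+* ↥EM).toAlgebra;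
      Algebra.IsSeparable ↥EL ↥EM := by
    letI := (hostB EL EM q hBL : ↥EL →+* ↥EM).toAlgebra
    haveI := hfinB₁
    exact Algebra.IsAlgebraic.isSeparable_of_perfectField
  have hdvr : IsDiscreteValuationRing ↥VM0 :=
    isDiscreteValuationRing_of_comap (hostB EL EM q hBL : ↥EL →+* ↥EM)
      (gaussValSub R K EL hEL) hfinB₁ hsepB₁ hB0
  -- separation on the host image of `F_{M q}`
  have hcF : VM0.comap (hostIncl K w EM hFM) = hostW0F K ι w h hq R :=
    hostW0_comap K ι w h hq R EM hFM
  have hcG := comap_hostIncl_gaussValSub K w R EM hFM hEM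
  have hw0 : 0 < w := Nat.pos_of_ne_zero (NeZero.ne w)
  -- the element `A J - (B J)^q` lies in the host image
  set jL : ↥(keyFw K M w) := ⟨jqNModC K w, jqNModC_mem_keyFw M w⟩ with hjL
  set kF : ↥(keyFw K (M * q) w) :=
    keyFwA (K := K) (M := M) (q := q) w jL - keyFwB (K := K) (M := M) (q := q) w jL ^ q with hkF
  have hkFe : hostIncl K w EM hFM kF = hostA EL EM hLM J - hostB EL EM q hBL J ^ q := by
    apply Subtype.ext
    show ((kF : ↥(keyFw K (M * q) w)) : LaurentSeries K) =
      (J : LaurentSeries K) - (qExpand K q (J : LaurentSeries K)) ^ q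
    rw [hJ]
    rfl
  have hsep : gaussValSub R K (keyFw K (M * q) w) (keyFw_le_gaussField R K (M * q) w) ≠
      hostW0F K ι w h hq R := by
    intro heq
    have h1 : (hostW0F K ι w h hq R).valuation kF < 1 := by
      rw [← comap_val_lt_one_iff (hostIncl K w EM hFM) hcF, hkFe]
      exact hkron1
    rw [← heq, ← comap_val_lt_one_iff (hostIncl K w EM hFM) hcG, hkFe] at h1
    exact gauss_not_kron EL EM hLM q hBL hEM hq w hw0 J hJg hord h1
  -- `IsGaussAt` of the two F-level valuations of level `M q`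
  have hAR : ∀ r : R, (hostIncl K w EM hFM) (algebraMap R ↥(keyFw K (M * q) w) r) =
      algebraMap R ↥EM r := fun r => Subtype.ext rfl
  have hJinc : hostIncl K w EM hFM (keyFwA (K := K) (M := M) (q := q) w jL) =
      hostA EL EM hLM J := Subtype.ext (by
        show ((keyFwA (K := K) (M := M) (q := q) w jL : ↥(keyFw K (M * q) w)) :
          LaurentSeries K) = (J : LaurentSeries K)
        rw [coe_keyFwA, hJ])
  have hpinG : ∀ V : ValuationSubring ↥EM,
      V.comap (hostIncl K w EM hFM) =
        gaussValSub R K (keyFw K (M * q) w) (keyFw_le_gaussField R K (M * q) w) →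
      V = gaussValSub R K EM hEM := by
    intro V hV
    have hG : IsGaussAt R π (hostA EL EM hLM J) V := by
      rw [← hJinc, ← isGaussAt_comap_ringHom_iff _ hAR, hV, ← hcG,
        isGaussAt_comap_ringHom_iff _ hAR, hJinc]
      have hAR' : ∀ r : R, (hostA EL EM hLM : ↥EL →+* ↥EM) (algebraMap R ↥EL r) =
          algebraMap R ↥EM r := fun r => Subtype.ext rfl
      have hT := isPrimeSeries_jqNModC R K w
      have h1 := isGaussAt_comap_gaussValSub' (R := R) (L := K) EL hEL (RingHom.id ↥EL)
        (fun r => by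
          rw [RingHom.id_apply, IsScalarTower.algebraMap_apply R K ↥EL,
            IntermediateField.coe_algebraMap_apply, algebraMap_laurentSeries_eq_single]
          rfl) hπ J hJg (by
            have e : (⟨(J : LaurentSeries K), hJg⟩ : gaussInt R K) =
                ⟨jqNModC K w, hT.mem_gaussInt⟩ := Subtype.ext hJ
            change Transcendental (ResidueField R)
              (gaussRed R K ⟨(J : LaurentSeries K), hJg⟩)
            rw [e]
            exact hT.transcendental_gaussRed hT.mem_gaussInt)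
      have e : (gaussValSub R K EL hEL).comap (RingHom.id ↥EL) = gaussValSub R K EL hEL := by
        ext z
        rfl
      rw [e] at h1
      have h2 : IsGaussAt R π J
          ((gaussValSub R K EM hEM).comap (hostA EL EM hLM : ↥EL →+* ↥EM)) := by
        rw [comap_hostA_gaussValSub EL EM hLM hEL hEM]
        exact h1
      exact (isGaussAt_comap_ringHom_iff (hostA EL EM hLM : ↥EL →+* ↥EM) hAR' π J _).mp h2
    rcases honly V hG with h1 | h1
    · exact h1
    · exfalso
      apply hsep
      rw [← hV, h1, hcF]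
  have hpin0 : ∀ V : ValuationSubring ↥EM,
      V.comap (hostIncl K w EM hFM) = hostW0F K ι w h hq R → V = VM0 := by
    intro V hV
    have hG : IsGaussAt R π (hostA EL EM hLM J) V := by
      rw [← hJinc, ← isGaussAt_comap_ringHom_iff _ hAR, hV, ← hcF,
        isGaussAt_comap_ringHom_iff _ hAR, hJinc]
      exact isGaussAt_hostW0_A K ι w h hq R EL EM hFL hFM hLM hπ J hJ
    rcases honly V hG with h1 | h1
    · exfalso
      apply hsep
      rw [← hV, h1, hcG]
    · exact h1
  -- compatibility of the maps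
  have hAc : ∀ z : ↥(keyFw K (M * q) w),
      hostA EM EN hMN (hostIncl K w EM hFM z) =
        hostIncl K w EN hFN (keyFwA (K := K) (M := M * q) (q := q) w z) := fun z => by
    apply Subtype.ext
    show ((z : ↥(keyFw K (M * q) w)) : LaurentSeries K) =
      ((keyFwA (K := K) (M := M * q) (q := q) w z : ↥(keyFw K (M * q * q) w)) : LaurentSeries K)
    rw [coe_keyFwA]
  have hBc : ∀ z : ↥(keyFw K (M * q) w),
      hostB EM EN q hBM (hostIncl K w EM hFM z) =
        hostIncl K w EN hFN (keyFwB (K := K) (M := M * q) (q := q) w z) := fun z =>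
    Subtype.ext rfl
  have hcomp : ∀ (W : ValuationSubring ↥EN) (WF : ValuationSubring ↥(keyFw K (M * q * q) w))
      (hW : W.comap (hostIncl K w EN hFN) = WF),
      ((W.comap (hostA EM EN hMN : ↥EM →+* ↥EN)).comap (hostIncl K w EM hFM) =
        WF.comap (keyFwA (K := K) (M := M * q) (q := q) w)) ∧
      ((W.comap (hostB EM EN q hBM : ↥EM →+* ↥EN)).comap (hostIncl K w EM hFM) =
        WF.comap (keyFwB (K := K) (M := M * q) (q := q) w)) := by
    intro W WF hW
    constructor
    · ext z
      rw [← hW]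
      show hostA EM EN hMN (hostIncl K w EM hFM z) ∈ W ↔ _
      rw [hAc]
      rfl
    · ext z
      rw [← hW]
      show hostB EM EN q hBM (hostIncl K w EM hFM z) ∈ W ↔ _
      rw [hBc]
      rfl
  have h11A : W11.comap (hostA EM EN hMN : ↥EM →+* ↥EN) = gaussValSub R K EM hEM :=
    hpinG _ (by rw [(hcomp W11 W11F h11).1, f11A])
  have h11B : W11.comap (hostB EM EN q hBM : ↥EM →+* ↥EN) = VM0 :=
    hpin0 _ (by rw [(hcomp W11 W11F h11).2, f11B])
  have h02A : W02.comap (hostA EM EN hMN : ↥EM →+* ↥EN) = VM0 :=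
    hpin0 _ (by rw [(hcomp W02 W02F h02).1, f02A])
  have h02B : W02.comap (hostB EM EN q hBM : ↥EM →+* ↥EN) = VM0 :=
    hpin0 _ (by rw [(hcomp W02 W02F h02).2, f02B])
  -- witness and Kronecker congruence
  have hδ : W11.valuation (hostIncl K w EN hFN δF ^ (q - 1)) =
      W11.valuation (algebraMap R ↥EN π) := by
    have hπN : algebraMap R ↥EN π =
        hostIncl K w EN hFN (algebraMap R ↥(keyFw K (M * q * q) w) π) := Subtype.ext rfl
    rw [hπN, ← map_pow, comap_val_eq_iff (hostIncl K w EN hFN) h11]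
    exact fδ
  have hkron02 : W02.valuation (hostA EM EN hMN (hostB EL EM q hBL J) -
      hostB EM EN q hBM (hostB EL EM q hBL J) ^ q) < 1 := by
    have e : hostA EM EN hMN (hostB EL EM q hBL J) -
        hostB EM EN q hBM (hostB EL EM q hBL J) ^ q =
        hostIncl K w EN hFN
          (keyFwA (K := K) (M := M * q) (q := q) w
              (keyFwB (K := K) (M := M) (q := q) w jL) -
            keyFwB (K := K) (M := M * q) (q := q) w
              (keyFwB (K := K) (M := M) (q := q) w jL) ^ q) := by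
      apply Subtype.ext
      show qExpand K q (J : LaurentSeries K) -
          (qExpand K q (qExpand K q (J : LaurentSeries K))) ^ q =
        ((keyFwA (K := K) (M := M * q) (q := q) w
              (keyFwB (K := K) (M := M) (q := q) w jL) -
            keyFwB (K := K) (M := M * q) (q := q) w
              (keyFwB (K := K) (M := M) (q := q) w jL) ^ q :
          ↥(keyFw K (M * q * q) w)) : LaurentSeries K)
      rw [hJ]
      rfl
    rw [e, comap_val_lt_one_iff (hostIncl K w EN hFN) h02]
    exact fkron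
  refine ⟨hdvr, h11A, h11B, h02A, h02B, hδ, hkron02, ?_⟩
  exact host_three_sheet EL EM EN hLM hMN q hBL hBM hEL hEM hEN hq hchar hπ w hcop J hJg hord
    hne0 VM0 hdvr hB0 hreszero hezero hne hfinA₂ hdegA₂ hfinB₂ hdegB₂ W11 W02 h11A h11B h02A
    h02B _ hδ hkron02

end Lift

end

end Fermat.Agent.SS
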