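/-
(SS-q) MODEL-GLOBAL — helper9 — **the chart `j` of level `N` from the model**: the three local
fields `branch_inf`, `branch_zero`, `node` (minus the unit clause) of `IsModelChart` for
`chartOne R EN j`, from `SSModel` and `j_q ∈ chart` only ([S'] SINF-EMB + helper8's node theorem).
-/
import Mathlib
import Fermat.Agent.SS.SINFEMB_helper9_Chart
import Fermat.Agent.SS.NODE_helper8_Model

set_option autoImplicit false
set_option linter.unusedSectionVars false
set_option linter.style.haveILetI false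

namespace Fermat.Agent.SS

open Fermat.Agent.JA

section One

variable {R : Type*} [CommRing R] [IsDomain R] [IsDiscreteValuationRing R] [CharZero R]
  {K₁ : Type*} [Field K₁] [Algebra R K₁] [IsFractionRing R K₁]
  {KM : Type*} [Field KM] [Algebra K₁ KM] [Algebra R KM] [IsScalarTower R K₁ KM]
  {EM : Type*} [Field EM] [Algebra KM EM] [Algebra K₁ EM] [IsScalarTower K₁ KM EM] [Algebra R EM]
  [IsScalarTower R KM EM]
  {KN : Type*} [Field KN] [Algebra K₁ KN] [Algebra R KN] [IsScalarTower R K₁ KN]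
  {EN : Type*} [Field EN] [Algebra KN EN] [Algebra K₁ EN] [IsScalarTower K₁ KN EN] [Algebra R EN]
  [IsScalarTower R KN EN] [FiniteDimensional KN EN]
  {π : R} {q n : ℕ} {S : Finset R} {t : KM} {jM : EM} {j : KN} {A B : EM →+* EN}
  {VM : ValuationSubring EM} {Winf W0 : ValuationSubring EN}

/-- the coordinate of level `M` avoids the branch values. -/
theorem SSModel.coord_sub_ne_zero (h : SSModel K₁ π q n S t jM j A B VM Winf W0) (s₀ : R) :
    algebraMap KM EM t - algebraMap R EM s₀ ≠ 0 := by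
  intro h0
  apply h.geo.transcendental
  have h1 : algebraMap KM EM t = algebraMap KM EM (algebraMap R KM s₀) := by
    rw [← IsScalarTower.algebraMap_apply R KM EM]; exact sub_eq_zero.mp h0
  have h2 : t = algebraMap K₁ KM (algebraMap R K₁ s₀) := by
    rw [← IsScalarTower.algebraMap_apply R K₁ KM]
    exact (algebraMap KM EM).injective h1
  rw [h2]
  exact isAlgebraic_algebraMap _

/-- a unit of the chart is not in the maximal ideal of any of its local rings. -/
theorem sinfemb_notMem_locMax_of_inv_mem {B₁ : Subalgebra R EN} (𝔪 : Ideal ↥B₁)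
    {e : EN} (he0 : e ≠ 0) (hinv : e⁻¹ ∈ B₁) : e ∉ locMax B₁ 𝔪 := by
  rintro ⟨r, s, hr, hs, hrs⟩
  apply hs
  have h1 : s = ⟨e⁻¹, hinv⟩ * r := by
    apply Subtype.ext
    change (s : EN) = e⁻¹ * (r : EN)
    rw [← hrs, ← mul_assoc, inv_mul_cancel₀ he0, one_mul]
  rw [h1]
  exact 𝔪.mul_mem_left _ hr

/-- in the chart `j` the elements `A t - s₀`, `s₀ ∈ S`, are units. -/
theorem SSModel.A_t_sub_notMem_locMax (h : SSModel K₁ π q n S t jM j A B VM Winf W0)
    (𝔪 : Ideal ↥(chartOne R EN j)) (s₀ : R) (hs₀ : s₀ ∈ S) :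
    A (algebraMap KM EM t) - algebraMap R EN s₀ ∉ locMax (chartOne R EN j) 𝔪 := by
  have h1 := isIntegral_adjoin_map A h.A_algebraMap (h.t_sub_inv_int s₀ hs₀)
  rw [h.A_j, map_inv₀, map_sub, h.A_algebraMap] at h1
  refine sinfemb_notMem_locMax_of_inv_mem 𝔪 ?_
    (mem_chartOne_of_isIntegral_adjoin j (algebraMap_coord_mem_chartOne j) h1)
  rw [← h.A_algebraMap, ← map_sub]
  exact (map_ne_zero A).mpr (h.coord_sub_ne_zero s₀)

/-- in the chart `j` the elements `B t - s₀`, `s₀ ∈ S`, are units (given `j_q ∈ chart`). -/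
theorem SSModel.B_t_sub_notMem_locMax (h : SSModel K₁ π q n S t jM j A B VM Winf W0)
    (hjq : B jM ∈ chartOne R EN j)
    (𝔪 : Ideal ↥(chartOne R EN j)) (s₀ : R) (hs₀ : s₀ ∈ S) :
    B (algebraMap KM EM t) - algebraMap R EN s₀ ∉ locMax (chartOne R EN j) 𝔪 := by
  have h1 := isIntegral_adjoin_map B h.B_algebraMap (h.t_sub_inv_int s₀ hs₀)
  rw [map_inv₀, map_sub, h.B_algebraMap] at h1
  refine sinfemb_notMem_locMax_of_inv_mem 𝔪 ?_ (h.mem_chartOne_of_isIntegral_jq hjq h1)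
  rw [← h.B_algebraMap, ← map_sub]
  exact (map_ne_zero B).mpr (h.coord_sub_ne_zero s₀)

/-- **`hbrA` of `SSModel.exists_node_uniformizers`, chart `j`**: at every closed point of the sheet
`C_∞` the branch uniformizer is `A t - a` (up to a unit at `𝔪`). -/
theorem SSModel.exists_branch_inf_one [IsAlgClosed (IsLocalRing.ResidueField R)]
    (h : SSModel K₁ π q n S t jM j A B VM Winf W0)
    (𝔪 : Ideal ↥(chartOne R EN j)) [h𝔪 : 𝔪.IsMaximal]
    (hinf : sheetIdeal j Winf h.two.chart_le_inf ≤ 𝔪) :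
    ∃ (a : R) (y s : ↥(chartOne R EN j)), s ∉ 𝔪 ∧
      (A (algebraMap KM EM t) - algebraMap R EN a) * (s : EN) = (y : EN) ∧
      IsBranchUniformizer (sheetIdeal j Winf h.two.chart_le_inf) 𝔪 y :=
  h.exists_coord_sub_isBranchUniformizer_inf h.j_transcendental h.j_adjoin h.two 𝔪 hinf
    (le_locRing h.A_t_mem) (fun s₀ hs₀ => h.A_t_sub_notMem_locMax 𝔪 s₀ hs₀)

/-- **`hbrB` of `SSModel.exists_node_uniformizers`, chart `j`**. -/
theorem SSModel.exists_branch_zero_one [IsAlgClosed (IsLocalRing.ResidueField R)]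
    (h : SSModel K₁ π q n S t jM j A B VM Winf W0) (hjq : B jM ∈ chartOne R EN j)
    (𝔪 : Ideal ↥(chartOne R EN j)) [h𝔪 : 𝔪.IsMaximal]
    (h0 : sheetIdeal j W0 h.two.chart_le_zero ≤ 𝔪) :
    ∃ (b : R) (y s : ↥(chartOne R EN j)), s ∉ 𝔪 ∧
      (B (algebraMap KM EM t) - algebraMap R EN b) * (s : EN) = (y : EN) ∧
      IsBranchUniformizer (sheetIdeal j W0 h.two.chart_le_zero) 𝔪 y :=
  h.exists_coord_sub_isBranchUniformizer_zero h.j_transcendental h.j_adjoin h.two 𝔪 h0
    (le_locRing (h.B_t_mem hjq)) (fun s₀ hs₀ => h.B_t_sub_notMem_locMax hjq 𝔪 s₀ hs₀)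

/-- **the `node` clause (minus the unit) of the chart `j`, from the model and `j_q ∈ chart`
only.** -/
theorem SSModel.exists_node_uniformizers_one [IsAlgClosed (IsLocalRing.ResidueField R)]
    (h : SSModel K₁ π q n S t jM j A B VM Winf W0) (hπ : Irreducible π)
    (hjq : B jM ∈ chartOne R EN j)
    (𝔪 : Ideal ↥(chartOne R EN j)) [h𝔪 : 𝔪.IsMaximal]
    (hinf : sheetIdeal j Winf h.two.chart_le_inf ≤ 𝔪)
    (h0 : sheetIdeal j W0 h.two.chart_le_zero ≤ 𝔪) :
    ∃ x y : ↥(chartOne R EN j),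
      IsBranchUniformizer (sheetIdeal j Winf h.two.chart_le_inf) 𝔪 x ∧
      x ∈ sheetIdeal j W0 h.two.chart_le_zero ∧
      IsBranchUniformizer (sheetIdeal j W0 h.two.chart_le_zero) 𝔪 y ∧
      y ∈ sheetIdeal j Winf h.two.chart_le_inf :=
  h.exists_node_uniformizers hπ hjq 𝔪 hinf h0 (h.exists_branch_inf_one 𝔪 hinf)
    (h.exists_branch_zero_one hjq 𝔪 h0)

/-- `branch_inf` of the chart `j`. -/
theorem SSModel.exists_isBranchUniformizer_inf_one [IsAlgClosed (IsLocalRing.ResidueField R)]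
    (h : SSModel K₁ π q n S t jM j A B VM Winf W0)
    (𝔪 : Ideal ↥(chartOne R EN j)) [h𝔪 : 𝔪.IsMaximal]
    (hinf : sheetIdeal j Winf h.two.chart_le_inf ≤ 𝔪) :
    ∃ z : ↥(chartOne R EN j), IsBranchUniformizer (sheetIdeal j Winf h.two.chart_le_inf) 𝔪 z := by
  obtain ⟨a, y, s, -, -, hy⟩ := h.exists_branch_inf_one 𝔪 hinf
  exact ⟨y, hy⟩

/-- `branch_zero` of the chart `j`. -/
theorem SSModel.exists_isBranchUniformizer_zero_one [IsAlgClosed (IsLocalRing.ResidueField R)]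
    (h : SSModel K₁ π q n S t jM j A B VM Winf W0) (hjq : B jM ∈ chartOne R EN j)
    (𝔪 : Ideal ↥(chartOne R EN j)) [h𝔪 : 𝔪.IsMaximal]
    (h0 : sheetIdeal j W0 h.two.chart_le_zero ≤ 𝔪) :
    ∃ z : ↥(chartOne R EN j), IsBranchUniformizer (sheetIdeal j W0 h.two.chart_le_zero) 𝔪 z := by
  obtain ⟨b, y, s, -, -, hy⟩ := h.exists_branch_zero_one hjq 𝔪 h0
  exact ⟨y, hy⟩

end One

end Fermat.Agent.SS
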