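/-
(SS-q) — helper1 — **BASE, Hesse host** (`q = 2`): lead's base statement `HesKummerBase`
(`TOPB_lead_Iface`) from helper7's concrete model statement `SSModelHes` on the hosts
`hesE K₁ M ⊂ hesE K₁ (M * 2)` over `R₁ = baseRing A K₁` and the model chart `j⁻¹`
(MODEL-EXPORT).  Same structure as `BASE_helper1_Leg`.
-/
import Mathlib
import Fermat.Agent.SS.BASE_helper1_Leg

set_option autoImplicit false
set_option linter.unusedSectionVars false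
set_option linter.style.haveILetI false

open HahnSeries IntermediateField AlgebraicCurve ModularCurve Fermat.Agent.Igusa

namespace Fermat.Agent.SS

open Fermat.Agent.JA Fermat.Agent.FF

open scoped Fermat.Agent.JA.Host

/-- `Ω = AlgebraicClosure ℚ`. -/
local notation "Ω" => AlgebraicClosure ℚ

/-- the absolute Galois group. -/
local notation "GQ" => (AlgebraicClosure ℚ ≃ₐ[ℚ] AlgebraicClosure ℚ)

/-- **bookkeeping, Hesse**: it suffices to treat the levels `N = M * 2`, `M` odd. -/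
theorem hesKummerBase_of_mul
    (H : ∀ (M : ℕ) [NeZero M] [NeZero (M * 2)], ¬ 2 ∣ M →
      ∀ (A : ValuationSubring Ω), A.LiesOverPrime 2 →
      ∀ (K₁ : IntermediateField ℚ Ω) [Normal ℚ ↥K₁], IsGalBase 2 K₁ →
      ∀ σ ∈ A.inertiaSubgroupIn ℚ, ∀ (m : ℕ), 0 < m → ¬ 2 ∣ m →
      ∀ f : ↥(hesE ↥K₁ (M * 2)), f ≠ 0 →
        ((f : ↥(hesE ↥K₁ (M * 2))) : LaurentSeries ↥K₁).leadingCoeff = 1 →
        (∀ P : Place ↥K₁ ↥(hesE ↥K₁ (M * 2)),
          P.ord (hesGalois ↥K₁ (M * 2) (resGal K₁ σ) • f / f) = 0 ∨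
            (IsRationalPlace P ∧
              (m : ℤ) ∣ P.ord (hesGalois ↥K₁ (M * 2) (resGal K₁ σ) • f / f))) →
        ∃ u : ↥(hesE ↥K₁ (M * 2)),
          hesGalois ↥K₁ (M * 2) (resGal K₁ σ) • (hesGalois ↥K₁ (M * 2) (resGal K₁ σ) • f / f) /
            (hesGalois ↥K₁ (M * 2) (resGal K₁ σ) • f / f) = u ^ m) :
    HesKummerBase := by
  intro N _ hqN hq2N A hA K₁ _ hK₁ σ hσ m hm hqm f hf hlead hord
  obtain ⟨M, hM⟩ := hqN
  have hN : N = M * 2 := by rw [hM, mul_comm]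
  subst hN
  have hM0 : M ≠ 0 := by
    rintro rfl
    exact (NeZero.ne (0 * 2)) (zero_mul 2)
  haveI : NeZero M := ⟨hM0⟩
  have hqM : ¬ 2 ∣ M := by
    rintro ⟨c, rfl⟩
    exact hq2N ⟨c, by ring⟩
  exact H M hqM A hA K₁ hK₁ σ hσ m hm hqm f hf hlead hord

section Host

variable (R : Type*) [CommRing R] [IsDomain R] [IsDiscreteValuationRing R] [CharZero R]
  (K : Type*) [Field K] [Algebra R K] [IsFractionRing R K] [Algebra ℚ K] [Algebra K ℂ]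
  {M : ℕ} [NeZero M] [NeZero (M * 2)] {x y : ℤ}

/-- unfolding `SSModelHes`. -/
theorem SSModelHes.ssModel [DecidableEq R] {π : R} {h3 : IsUnit (3 : R)} {ω : R}
    {hbez : ((2 : ℕ) : ℤ) * x + M * y = 1} (h : SSModelHes R K π h3 ω hbez) :
    haveI : FiniteDimensional ↥K⟮jqNModC K 3⟯ ↥(hesE K (M * 2)) :=
      finite_hesE_adjoin_j K (M * 2)
    SSModel K (KM := ↥K⟮hesT K⟯) (EM := ↥(hesE K M)) (KN := ↥K⟮jqNModC K 3⟯)
      (EN := ↥(hesE K (M * 2))) π 2 M ({1, ω, ω ^ 2} : Finset R)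
      (AdjoinSimple.gen K (hesT K)) (hesJE K M) (AdjoinSimple.gen K (jqNModC K 3))
      (hesHostA K M 2 : ↥(hesE K M) →+* ↥(hesE K (M * 2)))
      (hesHostB K M : ↥(hesE K M) →+* ↥(hesE K (M * 2)))
      (hesWinf R K h3 M) (hesWinf R K h3 (M * 2)) (hesW0 R K hbez Nat.prime_two) := h

/-- **`hjint` on the Hesse hosts**: `j` is integral over `R[j_q]`. -/
theorem SSModelHes.jint [DecidableEq R] {π : R} (hπ : Irreducible π) {h3 : IsUnit (3 : R)}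
    {ω : R} {hbez : ((2 : ℕ) : ℤ) * x + M * y = 1} (h : SSModelHes R K π h3 ω hbez) :
    IsIntegral ↥(Algebra.adjoin R {(hesHostB K M (hesJE K M) : ↥(hesE K (M * 2)))})
      (hesHostA K M 2 (hesJE K M) : ↥(hesE K (M * 2))) := by
  haveI : FiniteDimensional ↥K⟮jqNModC K 3⟯ ↥(hesE K (M * 2)) := finite_hesE_adjoin_j K (M * 2)
  have h' := SSModelHes.ssModel R K h
  exact isIntegral_jA_of_isIntegral_jB (algebraMap K ℂ) hbez Nat.prime_two 3 (hesT K)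
    (hesHostA K M 2 (hesJE K M) : ↥(hesE K (M * 2)))
    (hesHostB K M (hesJE K M) : ↥(hesE K (M * 2))) rfl rfl (h'.jq_isIntegral hπ)

end Host

section Hes

variable {M : ℕ} [NeZero M] [NeZero (M * 2)] {A : ValuationSubring Ω}
  {K₁ : IntermediateField ℚ Ω} [Normal ℚ ↥K₁] [Algebra ↥K₁ ℂ]

set_option maxHeartbeats 1600000 in
/-- **BASE on the Hesse hosts**: the conclusion of `HesKummerBase` at the level `M * 2` from
helper7's model statement `SSModelHes` over `R₁` and the model chart `j⁻¹`. -/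
theorem hesKummer_of_ssModelHes (hA : A.LiesOverPrime 2) (hK₁ : IsGalBase 2 K₁)
    [IsDiscreteValuationRing ↥(baseRing A K₁)] [CharZero ↥(baseRing A K₁)]
    [DecidableEq ↥(baseRing A K₁)]
    {ϖ : ↥(baseRing A K₁)} (hϖ : Irreducible ϖ) (h3 : IsUnit (3 : ↥(baseRing A K₁)))
    (ω : ↥(baseRing A K₁)) {x y : ℤ} (hbez : ((2 : ℕ) : ℤ) * x + M * y = 1)
    (h : SSModelHes ↥(baseRing A K₁) ↥K₁ ϖ h3 ω hbez)
    (htwo : haveI : FiniteDimensional ↥(↥K₁)⟮jqNModC ↥K₁ 3⟯ ↥(hesE ↥K₁ (M * 2)) :=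
        finite_hesE_adjoin_j ↥K₁ (M * 2)
      ∀ h2' : IsTwoSheet ϖ (AdjoinSimple.gen ↥K₁ (jqNModC ↥K₁ 3))⁻¹
        (hesWinf ↥(baseRing A K₁) ↥K₁ h3 (M * 2))
        (hesW0 ↥(baseRing A K₁) ↥K₁ hbez Nat.prime_two),
        IsModelChart ↥(hesE ↥K₁ (M * 2)) ϖ
          (sheetIdeal (AdjoinSimple.gen ↥K₁ (jqNModC ↥K₁ 3))⁻¹
            (hesWinf ↥(baseRing A K₁) ↥K₁ h3 (M * 2)) h2'.chart_le_inf)
          (sheetIdeal (AdjoinSimple.gen ↥K₁ (jqNModC ↥K₁ 3))⁻¹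
            (hesW0 ↥(baseRing A K₁) ↥K₁ hbez Nat.prime_two) h2'.chart_le_zero))
    {σ : GQ} (hσ : σ ∈ A.inertiaSubgroupIn ℚ) {m : ℕ} (hm : 0 < m) (hqm : ¬ 2 ∣ m)
    (f : ↥(hesE ↥K₁ (M * 2))) (hf : f ≠ 0)
    (hlead : ((f : ↥(hesE ↥K₁ (M * 2))) : LaurentSeries ↥K₁).leadingCoeff = 1)
    (hord : ∀ P : Place ↥K₁ ↥(hesE ↥K₁ (M * 2)),
      P.ord (hesGalois ↥K₁ (M * 2) (resGal K₁ σ) • f / f) = 0 ∨
        (IsRationalPlace P ∧
          (m : ℤ) ∣ P.ord (hesGalois ↥K₁ (M * 2) (resGal K₁ σ) • f / f))) :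
    ∃ u : ↥(hesE ↥K₁ (M * 2)),
      hesGalois ↥K₁ (M * 2) (resGal K₁ σ) • (hesGalois ↥K₁ (M * 2) (resGal K₁ σ) • f / f) /
        (hesGalois ↥K₁ (M * 2) (resGal K₁ σ) • f / f) = u ^ m := by
  haveI : FiniteDimensional ↥(↥K₁)⟮jqNModC ↥K₁ 3⟯ ↥(hesE ↥K₁ (M * 2)) :=
    finite_hesE_adjoin_j ↥K₁ (M * 2)
  haveI := hK₁.isBase.isAlgClosed_residueField hA
  have h' := SSModelHes.ssModel ↥(baseRing A K₁) ↥K₁ h
  have h2' := h'.two.inv hϖ
  exact kummer_base_of_ssModel hA hK₁.isBase (coeffStable_hesE ↥K₁ M)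
    (coeffStable_hesE ↥K₁ (M * 2)) (hesE_le_gaussField ↥(baseRing A K₁) ↥K₁ h3 M)
    (hesE_le_gaussField ↥(baseRing A K₁) ↥K₁ h3 (M * 2)) hϖ h' rfl rfl
    (fun f => coe_hesHostB ↥K₁ M f)
    (fun τ => Subtype.ext (coeffMap_jqNModC (τ : ↥K₁ →+* ↥K₁) 3))
    (fun r => IsScalarTower.algebraMap_apply ↥(baseRing A K₁) ↥K₁ ↥(hesE ↥K₁ (M * 2)) r)
    h2' (h'.isModelChart_one hϖ) (htwo h2') hσ hm hqm f hf hlead hord

end Hes

end Fermat.Agent.SS
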