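/-
(SS-q) — lead — **TOP-A: from a Kummer statement about single functions to `(σ − 1)² = 0` on
torsion classes.**  Purely formal, over any function field `F / K` with a semilinear automorphism
`g` (Prelude's `SemilinearAut`):  if for every `f ∈ Fˣ` all of whose place-orders are divisible by
`m` the function `((g g f) · f / (g f)²)^c` is `(constant) · w^m`, then `(g − 1)²` kills `c • x` for
every `x ∈ Pic⁰(F)` with `m • x = 0`.
-/
import Mathlib
import Fermat.Prelude.Def_ModularCurve_ArithmeticGalois

set_option autoImplicit false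
set_option linter.unusedSectionVars false
set_option linter.unusedVariables false
set_option linter.style.haveILetI false

open AlgebraicCurve

namespace Fermat.Agent.SS

section Abstract

variable {K F : Type*} [Field K] [Field F] [Algebra K F]

/-- nonzero constants have order `0` at every place. -/
theorem place_ord_algebraMap_eq_zero (v : Place K F) {a : K} (ha : a ≠ 0) :
    v.ord (algebraMap K F a) = 0 := by
  have h1 : algebraMap K F a ∈ v.toValuationSubring := v.algebraMap_mem' a
  have h2 : algebraMap K F a⁻¹ ∈ v.toValuationSubring := v.algebraMap_mem' a⁻¹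
  let u : v.toValuationSubringˣ :=
    { val := ⟨algebraMap K F a, h1⟩
      inv := ⟨algebraMap K F a⁻¹, h2⟩
      val_inv := Subtype.ext (by
        show algebraMap K F a * algebraMap K F a⁻¹ = 1
        rw [← map_mul, mul_inv_cancel₀ ha, map_one])
      inv_val := Subtype.ext (by
        show algebraMap K F a⁻¹ * algebraMap K F a = 1
        rw [← map_mul, inv_mul_cancel₀ ha, map_one]) }
  exact v.ord_coe_unit u

/-- `v.ord (g • f) = (g⁻¹ • v).ord f`. -/
theorem place_ord_smul_eq (g : SemilinearAut K F) (v : Place K F) (f : F) :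
    v.ord (g • f) = (g⁻¹ • v).ord f := by
  have h := SemilinearAut.ord_smul g (g⁻¹ • v) f
  rw [smul_inv_smul] at h
  exact h

/-- the second difference function `(g g f) · f / (g f)²`. -/
noncomputable def secondDiff (g : SemilinearAut K F) (f : F) : F :=
  (g • g • f) * f / (g • f) ^ 2

theorem secondDiff_ne_zero (g : SemilinearAut K F) {f : F} (hf : f ≠ 0) :
    secondDiff g f ≠ 0 := by
  have h1 : g • f ≠ 0 := by simpa using hf
  have h2 : g • g • f ≠ 0 := by simpa using h1
  exact div_ne_zero (mul_ne_zero h2 hf) (pow_ne_zero 2 h1)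

/-- the order of the second difference function. -/
theorem ord_secondDiff (g : SemilinearAut K F) {f : F} (hf : f ≠ 0) (v : Place K F) :
    v.ord (secondDiff g f) =
      (g⁻¹ • g⁻¹ • v).ord f - 2 * (g⁻¹ • v).ord f + v.ord f := by
  have h1 : g • f ≠ 0 := by simpa using hf
  have h2 : g • g • f ≠ 0 := by simpa using h1
  unfold secondDiff
  rw [div_eq_mul_inv, v.ord_mul (mul_ne_zero h2 hf) (inv_ne_zero (pow_ne_zero 2 h1)),
    v.ord_mul h2 hf, v.ord_inv, place_ord_smul_eq, place_ord_smul_eq]
  have h3 : v.ord ((g • f) ^ 2) = 2 * v.ord (g • f) := by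
    have := v.ord_zpow (g • f) 2
    rw [zpow_ofNat] at this
    exact_mod_cast this
  rw [h3, place_ord_smul_eq]
  ring

/-- **TOP-A, abstract form.** -/
theorem pic0_secondDiff_eq_zero_of_kummer (g : SemilinearAut K F) {m c : ℕ} (hm : m ≠ 0)
    (H : ∀ f : F, f ≠ 0 → (∀ v : Place K F, (m : ℤ) ∣ v.ord f) →
      ∃ (a : K) (w : F), a ≠ 0 ∧ w ≠ 0 ∧ secondDiff g f ^ c = algebraMap K F a * w ^ m)
    (x : Pic0 K F) (hx : m • x = 0) :
    g • g • (c • x) - 2 • (g • (c • x)) + c • x = 0 := by
  obtain ⟨D, rfl⟩ := Pic0.mk_surjective x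
  -- `m • D` is principal
  have hmD : (m • D : Divisor.degZero (K := K) (F := F)) ∈
      (Divisor.principal (K := K) (F := F)).addSubgroupOf (Divisor.degZero (K := K) (F := F)) := by
    have h1 : (Pic0.mk (m • D) : Pic0 K F) = m • Pic0.mk D := rfl
    rw [← h1] at hx
    exact (QuotientAddGroup.eq_zero_iff _).1 hx
  rw [AddSubgroup.mem_addSubgroupOf] at hmD
  obtain ⟨f, hf, hfD⟩ := hmD
  have hfD' : ∀ v : Place K F, v.ord f = (m : ℤ) * (D : Divisor K F) v := by
    intro v
    rw [← hfD v]
    show ((m • (D : Divisor K F)) : Divisor K F) v = _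
    rw [Finsupp.smul_apply, nsmul_eq_mul]
  obtain ⟨a, w, ha, hw, hH⟩ := H f hf (fun v => ⟨_, hfD' v⟩)
  -- the divisor `E := g g D − 2 g D + D`
  set E : Divisor.degZero (K := K) (F := F) :=
    SemilinearAut.degZeroSMulHom g (SemilinearAut.degZeroSMulHom g D) -
      2 • SemilinearAut.degZeroSMulHom g D + D with hE
  have hEv : ∀ v : Place K F, (E : Divisor K F) v =
      (D : Divisor K F) (g⁻¹ • g⁻¹ • v) - 2 * (D : Divisor K F) (g⁻¹ • v) +
        (D : Divisor K F) v := by
    intro v
    show ((g • (g • (D : Divisor K F)) - 2 • (g • (D : Divisor K F)) + (D : Divisor K F)) :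
      Divisor K F) v = _
    rw [Finsupp.add_apply, Finsupp.sub_apply, Finsupp.smul_apply,
      SemilinearAut.divisor_smul_apply, SemilinearAut.divisor_smul_apply,
      SemilinearAut.divisor_smul_apply, nsmul_eq_mul]
    norm_num
  -- `c • E` is principal, via `w`
  have hcE : (c • E : Divisor.degZero (K := K) (F := F)) ∈
      (Divisor.principal (K := K) (F := F)).addSubgroupOf (Divisor.degZero (K := K) (F := F)) := by
    rw [AddSubgroup.mem_addSubgroupOf]
    refine ⟨w, hw, fun v => ?_⟩
    show ((c • (E : Divisor K F)) : Divisor K F) v = _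
    rw [Finsupp.smul_apply, nsmul_eq_mul, hEv v]
    have h1 : v.ord (secondDiff g f ^ c) = (c : ℤ) * v.ord (secondDiff g f) := by
      have := v.ord_zpow (secondDiff g f) c
      rw [zpow_natCast] at this
      exact this
    have h2 : v.ord (algebraMap K F a * w ^ m) = (m : ℤ) * v.ord w := by
      rw [v.ord_mul ((map_ne_zero _).2 ha) (pow_ne_zero m hw), place_ord_algebraMap_eq_zero v ha,
        zero_add]
      have := v.ord_zpow w m
      rw [zpow_natCast] at this
      exact this
    rw [hH, h2, ord_secondDiff g hf v, hfD', hfD', hfD'] at h1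
    have hm' : (m : ℤ) ≠ 0 := by exact_mod_cast hm
    have h3 : (m : ℤ) * v.ord w = (m : ℤ) * ((c : ℤ) *
        ((D : Divisor K F) (g⁻¹ • g⁻¹ • v) - 2 * (D : Divisor K F) (g⁻¹ • v) +
          (D : Divisor K F) v)) := by
      rw [h1]; ring
    exact (mul_left_cancel₀ hm' h3).symm
  -- conclude in the quotient
  have h4 : g • g • (c • Pic0.mk D) - 2 • (g • (c • Pic0.mk D)) + c • Pic0.mk D =
      (Pic0.mk (c • E) : Pic0 K F) := by
    have e1 : (c • Pic0.mk D : Pic0 K F) = Pic0.mk (c • D) := rfl
    rw [e1, SemilinearAut.pic0_smul_mk, SemilinearAut.pic0_smul_mk]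
    have e2 : (2 • Pic0.mk (SemilinearAut.degZeroSMulHom g (c • D)) : Pic0 K F) =
        Pic0.mk (2 • SemilinearAut.degZeroSMulHom g (c • D)) := rfl
    rw [e2]
    have e3 : (Pic0.mk (SemilinearAut.degZeroSMulHom g (SemilinearAut.degZeroSMulHom g (c • D))) -
        Pic0.mk (2 • SemilinearAut.degZeroSMulHom g (c • D)) + Pic0.mk (c • D) : Pic0 K F) =
        Pic0.mk (SemilinearAut.degZeroSMulHom g (SemilinearAut.degZeroSMulHom g (c • D)) -
          2 • SemilinearAut.degZeroSMulHom g (c • D) + c • D) := rfl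
    rw [e3]
    congr 1
    rw [hE, map_nsmul, map_nsmul, smul_add, smul_sub, smul_comm c 2]
  rw [h4]
  exact (QuotientAddGroup.eq_zero_iff _).2 hcE

end Abstract

section JZero

open ModularCurve

local notation "Ω" => AlgebraicClosure ℚ
local notation "GQ" => (AlgebraicClosure ℚ ≃ₐ[ℚ] AlgebraicClosure ℚ)

/-- **the Kummer form of (SS-q) for one `σ`**, with exponent `c`: for every `n` and every nonzero
function `f` on `X₀(N)` over `Ω` all of whose place-orders are divisible by `p ^ n`, the `c`-th power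
of the second difference `(σσf) · f / (σf)²` (`σ` acting on the coefficients of the `q`-expansion)
is a constant times a `p ^ n`-th power. -/
def KummerAt (N : ℕ) (p : ℕ) (c : ℕ) (σ : GQ) : Prop :=
  ∀ (n : ℕ) (f : ↥(modularFunctionFieldBar N)), f ≠ 0 →
    (∀ v : Place Ω ↥(modularFunctionFieldBar N), ((p ^ n : ℕ) : ℤ) ∣ v.ord f) →
    ∃ (a : Ω) (w : ↥(modularFunctionFieldBar N)), a ≠ 0 ∧ w ≠ 0 ∧
      secondDiff (arithmeticGalois (modularFunctionFieldFull N) σ) f ^ c =
        algebraMap Ω ↥(modularFunctionFieldBar N) a * w ^ (p ^ n)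

/-- **TOP-A for `J₀(N)`.** -/
theorem jzero_secondDiff_eq_zero_of_kummerAt {N : ℕ} {p c : ℕ} (hp : p ≠ 0) {σ : GQ}
    (H : KummerAt N p c σ) (x : JZero N) (hx : ∃ n : ℕ, p ^ n • x = 0) :
    σ • σ • (c • x) - 2 • (σ • (c • x)) + c • x = 0 := by
  obtain ⟨n, hn⟩ := hx
  exact pic0_secondDiff_eq_zero_of_kummer (arithmeticGalois (modularFunctionFieldFull N) σ)
    (m := p ^ n) (c := c) (pow_ne_zero n hp) (H n) x hn

end JZero

end Fermat.Agent.SS
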