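/-
(SS-q) — lead — **TOP-B, generic lemmas**: algebra of the second difference `secondDiff`, the norm
step, and the transport of orders along a constant-field extension.
-/
import Mathlib
import Fermat.Agent.SS.TOPA_lead
import Fermat.Agent.JA.REDO_helper1_SumBC
import Fermat.Agent.SS.IBASE_helper1_Place

set_option autoImplicit false
set_option linter.unusedSectionVars false
set_option linter.unusedVariables false
set_option linter.style.haveILetI false

open AlgebraicCurve

namespace Fermat.Agent.SS

open Fermat.Agent.JA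

section SecondDiff

variable {K F : Type*} [Field K] [Field F] [Algebra K F]

theorem semilinear_smul_div (g : SemilinearAut K F) (x y : F) : g • (x / y) = g • x / g • y := by
  rw [SemilinearAut.smul_def, SemilinearAut.smul_def, SemilinearAut.smul_def, map_div₀]

theorem semilinear_smul_pow (g : SemilinearAut K F) (x : F) (n : ℕ) : g • (x ^ n) = (g • x) ^ n := by
  rw [SemilinearAut.smul_def, SemilinearAut.smul_def, map_pow]

theorem semilinear_smul_mul (g : SemilinearAut K F) (x y : F) : g • (x * y) = g • x * g • y := by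
  rw [SemilinearAut.smul_def, SemilinearAut.smul_def, SemilinearAut.smul_def, map_mul]

theorem semilinear_smul_ne_zero (g : SemilinearAut K F) {x : F} (hx : x ≠ 0) : g • x ≠ 0 := by
  rw [SemilinearAut.smul_def]
  exact (map_ne_zero _).2 hx

/-- `secondDiff` is multiplicative. -/
theorem secondDiff_mul (g : SemilinearAut K F) (x y : F) :
    secondDiff g (x * y) = secondDiff g x * secondDiff g y := by
  unfold secondDiff
  rw [semilinear_smul_mul, semilinear_smul_mul, div_mul_div_comm, mul_pow]
  congr 1
  ring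

/-- `secondDiff` of a constant is a constant. -/
theorem secondDiff_algebraMap (g : SemilinearAut K F) (a : K) :
    secondDiff g (algebraMap K F a) =
      algebraMap K F (SemilinearAut.baseAut g (SemilinearAut.baseAut g a) * a /
        (SemilinearAut.baseAut g a) ^ 2) := by
  unfold secondDiff
  rw [SemilinearAut.smul_algebraMap, SemilinearAut.smul_algebraMap, map_div₀, map_mul, map_pow]

/-- the other form of the second difference. -/
theorem smul_div_div_eq_secondDiff (g : SemilinearAut K F) {f : F} (hf : f ≠ 0) :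
    g • (g • f / f) / (g • f / f) = secondDiff g f := by
  have h1 : g • f ≠ 0 := semilinear_smul_ne_zero g hf
  unfold secondDiff
  rw [semilinear_smul_div]
  field_simp

/-- `secondDiff` commutes with equivariant ring homomorphisms. -/
theorem map_secondDiff {K' F' : Type*} [Field K'] [Field F'] [Algebra K' F']
    (g : SemilinearAut K F) (g' : SemilinearAut K' F') (φ : F →+* F')
    (h : ∀ x : F, φ (g • x) = g' • φ x) (f : F) :
    φ (secondDiff g f) = secondDiff g' (φ f) := by
  unfold secondDiff
  rw [map_div₀, map_mul, map_pow, h, h]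

end SecondDiff

section Hord

variable {K F : Type*} [Field K] [Field F] [Algebra K F]

/-- **the hypothesis `hord` of the base statements** from the orders of `g₁`. -/
theorem hord_of_ord {m : ℕ} (g : SemilinearAut K F) (g₁ : F) (hg₁ : g₁ ≠ 0)
    (h : ∀ Q₁ : Place K F, (m : ℤ) ∣ Q₁.ord g₁ ∧ (Q₁.ord g₁ ≠ 0 → IsRationalPlace Q₁))
    (P : Place K F) :
    P.ord (g • g₁ / g₁) = 0 ∨ (IsRationalPlace P ∧ (m : ℤ) ∣ P.ord (g • g₁ / g₁)) := by
  have hgg : g • g₁ ≠ 0 := semilinear_smul_ne_zero g hg₁
  have h1 : P.ord (g • g₁ / g₁) = (g⁻¹ • P).ord g₁ - P.ord g₁ := by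
    rw [div_eq_mul_inv, P.ord_mul hgg (inv_ne_zero hg₁), P.ord_inv, place_ord_smul_eq]
    ring
  by_cases h0 : P.ord (g • g₁ / g₁) = 0
  · exact Or.inl h0
  refine Or.inr ⟨?_, ?_⟩
  · by_cases h2 : P.ord g₁ = 0
    · have h3 : (g⁻¹ • P).ord g₁ ≠ 0 := by
        intro h4
        apply h0
        rw [h1, h4, h2, sub_zero]
      have h5 := (h (g⁻¹ • P)).2 h3
      have h6 := isRationalPlace_smul g (g⁻¹ • P) h5
      rwa [smul_inv_smul] at h6
    · exact (h P).2 h2
  · rw [h1]
    exact dvd_sub (h (g⁻¹ • P)).1 (h P).1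

end Hord

section Norm

/-- **the norm step**: if `x ∈ K` becomes an `m`-th power `u ^ m` in a finite extension `L`, then
`x ^ [L : K]` is the `m`-th power of the norm of `u`. -/
theorem pow_finrank_eq_norm_pow {K L : Type*} [Field K] [Field L] [Algebra K L]
    [FiniteDimensional K L] {x : K} {u : L} {m : ℕ} (h : algebraMap K L x = u ^ m) :
    x ^ Module.finrank K L = (Algebra.norm K u) ^ m := by
  rw [← map_pow, ← h, Algebra.norm_algebraMap]

end Norm

section Restrict

variable {K₁ Ω E₁ EΩ : Type*} [Field K₁] [Field Ω] [Algebra K₁ Ω] [Algebra.IsAlgebraic K₁ Ω]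
  [Field E₁] [Algebra K₁ E₁] [Field EΩ] [Algebra Ω EΩ] [CharZero EΩ]

/-- every place of `E₁/K₁` is the restriction of a place of `E_Ω/Ω`, with the same orders. -/
theorem exists_place_restrictBC_eq_and_ord (φ : E₁ →+* EΩ)
    (hφ : ∀ a : K₁, φ (algebraMap K₁ E₁ a) = algebraMap Ω EΩ (algebraMap K₁ Ω a))
    (hgen : Subfield.closure (Set.range φ ∪ Set.range (algebraMap Ω EΩ)) = ⊤)
    (P₁ : Place K₁ E₁) :
    ∃ P : Place Ω EΩ, restrictBC φ hφ hgen P = P₁ ∧ ∀ x : E₁, P₁.ord x = P.ord (φ x) := by
  obtain ⟨P, hP⟩ := exists_restrictBC_eq φ hφ hgen P₁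
  refine ⟨P, hP, fun x => ?_⟩
  rw [← hP, ord_restrictBC]

end Restrict

end Fermat.Agent.SS
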