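/-
(SS-q) — lead — **TOP-B, host-independent steps on the level-`N` function field**: monic
normalisation of a descended function, and the return from a base `K₁` to `Ω`.
-/
import Mathlib
import Fermat.Agent.SS.TOPB_lead_Gen
import Fermat.Agent.SS.IBASE_helper1_Main
import Fermat.Agent.JA.BC_helper9_Desc

set_option autoImplicit false
set_option linter.unusedSectionVars false
set_option linter.unusedVariables false
set_option linter.style.haveILetI false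
set_option synthInstance.maxHeartbeats 400000

open HahnSeries IntermediateField AlgebraicCurve ModularCurve

namespace Fermat.Agent.SS

open Fermat.Agent.JA Fermat.Agent.FF

/-- `Ω = AlgebraicClosure ℚ`. -/
local notation "Ω" => AlgebraicClosure ℚ

/-- the absolute Galois group. -/
local notation "GQ" => (AlgebraicClosure ℚ ≃ₐ[ℚ] AlgebraicClosure ℚ)

section Key

variable (N : ℕ) [NeZero N] (K₁ : IntermediateField ℚ Ω)

/-- **monic normalisation**: a nonzero function of `F_Ω` defined over `K₁` is a constant times the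
base change of a monic function of `F(K₁)`. -/
theorem exists_monic_descent (f : ↥(modularFunctionFieldBar N)) (hf : f ≠ 0)
    (f₁ : LaurentSeries ↥K₁) (hf₁mem : f₁ ∈ keyFq ↥K₁ N)
    (hf₁ : coeffMap (algebraMap ↥K₁ Ω) f₁ = ((f : ↥(modularFunctionFieldBar N)) : LaurentSeries Ω)) :
    ∃ (F₁ : ↥(keyFq ↥K₁ N)) (b : Ω), b ≠ 0 ∧ F₁ ≠ 0 ∧
      ((F₁ : ↥(keyFq ↥K₁ N)) : LaurentSeries ↥K₁).leadingCoeff = 1 ∧
      keyFqBC N K₁ F₁ = algebraMap Ω ↥(keyFq Ω N) b * f := by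
  have hf₁0 : f₁ ≠ 0 := by
    rintro rfl
    apply hf
    apply Subtype.ext
    rw [← hf₁, map_zero]
    rfl
  set a : ↥K₁ := f₁.leadingCoeff with ha
  have ha0 : a ≠ 0 := HahnSeries.leadingCoeff_ne_zero.2 hf₁0
  refine ⟨algebraMap ↥K₁ ↥(keyFq ↥K₁ N) a⁻¹ * ⟨f₁, hf₁mem⟩, algebraMap ↥K₁ Ω a⁻¹, ?_, ?_, ?_, ?_⟩
  · exact (map_ne_zero _).2 (inv_ne_zero ha0)
  · refine mul_ne_zero ((map_ne_zero _).2 (inv_ne_zero ha0)) ?_
    intro h
    exact hf₁0 (congrArg Subtype.val h)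
  · show (algebraMap ↥K₁ (LaurentSeries ↥K₁) a⁻¹ * f₁).leadingCoeff = 1
    rw [HahnSeries.leadingCoeff_mul, algebraMap_laurentSeries_eq_single,
      HahnSeries.leadingCoeff_of_single, ← ha, inv_mul_cancel₀ ha0]
  · rw [map_mul, keyFqBC_algebraMap]
    congr 1
    exact Subtype.ext hf₁

variable [Normal ℚ ↥K₁]

set_option maxHeartbeats 1600000 in
/-- **back to `Ω`** (on `keyFq Ω N`): a Kummer relation for the monic descended function over `K₁`
gives the Kummer relation for `f` over `Ω`. -/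
theorem kummer_of_base_pow_aux {m c : ℕ} (hm : m ≠ 0) (hc : c ≠ 0) (σ : GQ) (f : ↥(keyFq Ω N)) (hf : f ≠ 0)
    (F₁ : ↥(keyFq ↥K₁ N)) (b : Ω) (hb : b ≠ 0)
    (hBC : keyFqBC N K₁ F₁ = algebraMap Ω ↥(keyFq Ω N) b * f) (w₁ : ↥(keyFq ↥K₁ N))
    (h : secondDiff (keyFqGalois ↥K₁ N (resGal K₁ σ)) F₁ ^ c = w₁ ^ m) :
    ∃ (a : Ω) (w : ↥(keyFq Ω N)), a ≠ 0 ∧ w ≠ 0 ∧
      secondDiff (keyFqGalois Ω N σ) f ^ c =
        algebraMap Ω ↥(keyFq Ω N) a * w ^ m := by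
  set g : SemilinearAut Ω ↥(keyFq Ω N) := keyFqGalois Ω N σ with hg
  have e1 : keyFqBC N K₁ (secondDiff (keyFqGalois ↥K₁ N (resGal K₁ σ)) F₁) ^ c
      = keyFqBC N K₁ w₁ ^ m :=
    (map_pow (keyFqBC N K₁) _ c).symm.trans
      ((congrArg (keyFqBC N K₁) h).trans (map_pow (keyFqBC N K₁) w₁ m))
  have e2 : keyFqBC N K₁ (secondDiff (keyFqGalois ↥K₁ N (resGal K₁ σ)) F₁) =
      secondDiff g (keyFqBC N K₁ F₁) :=
    map_secondDiff (keyFqGalois ↥K₁ N (resGal K₁ σ)) g (keyFqBC N K₁)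
      (keyFqBC_keyFqGalois_smul N K₁ σ) F₁
  set d' : Ω := SemilinearAut.baseAut g (SemilinearAut.baseAut g b) * b /
    (SemilinearAut.baseAut g b) ^ 2 with hd'
  have e3 : secondDiff g (keyFqBC N K₁ F₁) = algebraMap Ω ↥(keyFq Ω N) d' * secondDiff g f := by
    rw [hBC, secondDiff_mul, secondDiff_algebraMap]
  have e4 : algebraMap Ω ↥(keyFq Ω N) (d' ^ c) * secondDiff g f ^ c = keyFqBC N K₁ w₁ ^ m := by
    rw [map_pow (algebraMap Ω ↥(keyFq Ω N)) d' c,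
      ← mul_pow (algebraMap Ω ↥(keyFq Ω N) d') (secondDiff g f) c, ← e3, ← e2]
    exact e1
  have hd0 : d' ^ c ≠ 0 := by
    have e1 : SemilinearAut.baseAut g b ≠ 0 := (map_ne_zero _).2 hb
    have e2 : SemilinearAut.baseAut g (SemilinearAut.baseAut g b) ≠ 0 := (map_ne_zero _).2 e1
    exact pow_ne_zero _ (div_ne_zero (mul_ne_zero e2 hb) (pow_ne_zero _ e1))
  have hsd : secondDiff g f ≠ 0 := secondDiff_ne_zero g hf
  refine ⟨(d' ^ c)⁻¹, keyFqBC N K₁ w₁, inv_ne_zero hd0, ?_, ?_⟩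
  · intro h0
    rw [h0, zero_pow hm] at e4
    rcases mul_eq_zero.1 e4 with h1 | h1
    · exact hd0 ((map_eq_zero _).1 h1)
    · exact hsd (pow_eq_zero_iff hc |>.1 h1)
  · rw [← e4, ← mul_assoc, ← map_mul (algebraMap Ω ↥(keyFq Ω N)), inv_mul_cancel₀ hd0, map_one, one_mul]

/-- **back to `Ω`**: a Kummer relation for the monic descended function over `K₁` gives the Kummer
relation for `f` over `Ω`. -/
theorem kummer_of_base_pow {m c : ℕ} (hm : m ≠ 0) (hc : c ≠ 0) (σ : GQ)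
    (f : ↥(modularFunctionFieldBar N)) (hf : f ≠ 0)
    (F₁ : ↥(keyFq ↥K₁ N)) (b : Ω) (hb : b ≠ 0)
    (hBC : keyFqBC N K₁ F₁ = algebraMap Ω ↥(keyFq Ω N) b * f) (w₁ : ↥(keyFq ↥K₁ N))
    (h : secondDiff (keyFqGalois ↥K₁ N (resGal K₁ σ)) F₁ ^ c = w₁ ^ m) :
    ∃ (a : Ω) (w : ↥(modularFunctionFieldBar N)), a ≠ 0 ∧ w ≠ 0 ∧
      secondDiff (arithmeticGalois (modularFunctionFieldFull N) σ) f ^ c =
        algebraMap Ω ↥(modularFunctionFieldBar N) a * w ^ m :=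
  kummer_of_base_pow_aux N K₁ hm hc σ f hf F₁ b hb hBC w₁ h

end Key

end Fermat.Agent.SS
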