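/-
(SS-q) — lead — **TOP-B, Legendre host** (`q ≠ 2`): from the base statement `LegKummerBase` to the
Kummer statement `KummerAt N p c σ` over `Ω`, `c = [E_Ω : F_Ω]`.

Chain: `f ∈ F_Ω` with all orders divisible by `m`; view it in the host `E_Ω`; choose a Galois base
`K₁` over which `f` is defined and the support of its divisor on `E_Ω` is rational; normalise `f` to
be monic; the hypothesis of `LegKummerBase` holds for `σ̄ f₁ / f₁`; take norms `E(K₁) → F(K₁)`;
go back to `Ω`.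
-/
import Mathlib
import Fermat.Agent.SS.TOPB_lead_Gen
import Fermat.Agent.SS.TOPB_lead_Iface
import Fermat.Agent.SS.TOPB_lead_Key
import Fermat.Agent.JA.BCDEG_helper7
import Fermat.Agent.JA.UP_helper7_Coord

set_option autoImplicit false
set_option linter.unusedSectionVars false
set_option linter.unusedVariables false
set_option linter.style.haveILetI false
set_option synthInstance.maxHeartbeats 400000

open HahnSeries IntermediateField AlgebraicCurve ModularCurve

namespace Fermat.Agent.SS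

open Fermat.Agent.JA Fermat.Agent.FF

/-- `Ω = AlgebraicClosure ℚ`. -/
local notation "Ω" => AlgebraicClosure ℚ

/-- the absolute Galois group. -/
local notation "GQ" => (AlgebraicClosure ℚ ≃ₐ[ℚ] AlgebraicClosure ℚ)

section Leg

variable (N : ℕ) [NeZero N]

/-- the degree of the Legendre host over the level-`N` function field (over `Ω`). -/
noncomputable def legDeg : ℕ :=
  letI : Algebra ↥(modularFunctionFieldBar N) ↥(legE Ω N) := (fullToLegE Ω N).toRingHom.toAlgebra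
  Module.finrank ↥(modularFunctionFieldBar N) ↥(legE Ω N)

theorem legDeg_ne_zero : legDeg N ≠ 0 := by
  letI : Algebra ↥(modularFunctionFieldBar N) ↥(legE Ω N) := (fullToLegE Ω N).toRingHom.toAlgebra
  haveI : FiniteDimensional ↥(modularFunctionFieldBar N) ↥(legE Ω N) := finite_fullToLegE Ω N
  exact (Module.finrank_pos (R := ↥(modularFunctionFieldBar N)) (M := ↥(legE Ω N))).ne'

/-- all orders of the image of `f` in the host are divisible by `m`. -/
theorem dvd_ord_fullToLegE {m : ℕ} (f : ↥(modularFunctionFieldBar N))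
    (hf : ∀ v : Place Ω ↥(modularFunctionFieldBar N), (m : ℤ) ∣ v.ord f)
    (P : Place Ω ↥(legE Ω N)) : (m : ℤ) ∣ P.ord (fullToLegE Ω N f) := by
  letI : Algebra ↥(modularFunctionFieldBar N) ↥(legE Ω N) := (fullToLegE Ω N).toRingHom.toAlgebra
  haveI : IsScalarTower Ω ↥(modularFunctionFieldBar N) ↥(legE Ω N) :=
    isScalarTower_along (fullToLegE Ω N)
  haveI : Algebra.IsIntegral ↥(modularFunctionFieldBar N) ↥(legE Ω N) :=
    isIntegral_along (fullToLegE Ω N) (isIntegral_of_finiteAlong _ (finiteAlong_fullToLegE N))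
  have h := P.ord_restrict (F := ↥(modularFunctionFieldBar N)) f
  have h2 : fullToLegE Ω N f = algebraMap ↥(modularFunctionFieldBar N) ↥(legE Ω N) f := rfl
  rw [h2, h]
  exact Dvd.dvd.mul_left (hf _) _

/-- the embedding `F(K₁) → E(K₁)` commutes with the coefficientwise actions. -/
theorem fullToLegE_keyFqGalois_smul {K : Type*} [Field K] [Algebra ℚ K] (τ : K ≃ₐ[ℚ] K)
    (x : ↥(keyFq K N)) :
    fullToLegE K N (keyFqGalois K N τ • x) = legGalois K N τ • fullToLegE K N x := by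
  apply Subtype.ext
  have h := coeffMap_fullToLegE N (τ : K →+* K) x
  rw [legGalois, coe_coeffGalois_smul, h]
  rfl

/-- the leading coefficient of the image in the host. -/
theorem leadingCoeff_fullToLegE {K : Type*} [Field K] [Algebra ℚ K] (x : ↥(keyFq K N)) :
    ((fullToLegE K N x : ↥(legE K N)) : LaurentSeries K).leadingCoeff =
      ((x : ↥(keyFq K N)) : LaurentSeries K).leadingCoeff := by
  rw [coe_fullToLegE, leadingCoeff_qExpand]

/-- **orders of the descended monic function at the places of `E(K₁)`**: divisible by `m`, and the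
place is rational as soon as the order is nonzero. -/
theorem ord_descended_leg {m : ℕ} (f : ↥(modularFunctionFieldBar N))
    (hdiv : ∀ v : Place Ω ↥(modularFunctionFieldBar N), (m : ℤ) ∣ v.ord f)
    (D : Divisor Ω ↥(legE Ω N)) (hD : ∀ v : Place Ω ↥(legE Ω N), D v = v.ord (fullToLegE Ω N f))
    (K₁ : IntermediateField ℚ Ω)
    (hrat : ∀ P ∈ D.support, IsRationalPlace (restrictBC (legBC N K₁) (legBC_algebraMap N K₁)
      (closure_range_legBC N K₁) P))
    (g₁ : ↥(legE ↥K₁ N)) (b : Ω) (hb : b ≠ 0)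
    (hg₁ : legBC N K₁ g₁ = algebraMap Ω ↥(legE Ω N) b * fullToLegE Ω N f)
    (Q₁ : Place ↥K₁ ↥(legE ↥K₁ N)) :
    (m : ℤ) ∣ Q₁.ord g₁ ∧ (Q₁.ord g₁ ≠ 0 → IsRationalPlace Q₁) := by
  by_cases hf : f = 0
  · subst hf
    have h0 : g₁ = 0 := by
      have : legBC N K₁ g₁ = 0 := by rw [hg₁, map_zero, mul_zero]
      exact (map_eq_zero _).1 this
    subst h0
    simp
  have hfE : fullToLegE Ω N f ≠ 0 := (map_ne_zero _).2 hf
  obtain ⟨Q, hQ, hQord⟩ := exists_place_restrictBC_eq_and_ord (legBC N K₁) (legBC_algebraMap N K₁)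
    (closure_range_legBC N K₁) Q₁
  have h1 : Q₁.ord g₁ = Q.ord (fullToLegE Ω N f) := by
    rw [hQord, hg₁, Q.ord_mul ((map_ne_zero _).2 hb) hfE, place_ord_algebraMap_eq_zero Q hb,
      zero_add]
  refine ⟨by rw [h1]; exact dvd_ord_fullToLegE N f hdiv Q, fun hne => ?_⟩
  rw [h1, ← hD Q] at hne
  have hmem : Q ∈ D.support := Finsupp.mem_support_iff.2 hne
  have := hrat Q hmem
  rwa [hQ] at this

set_option maxHeartbeats 3200000 in
/-- **TOP-B, Legendre host.** -/
theorem kummerAt_leg (hB : LegKummerBase) {p q : ℕ} (hp : p.Prime) (hq : q.Prime) (hqp : q ≠ p)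
    (hq2 : q ≠ 2) (hqN : q ∣ N) (hqq : ¬ q ^ 2 ∣ N) {A : ValuationSubring Ω}
    (hA : A.LiesOverPrime q) {σ : GQ} (hσ : σ ∈ A.inertiaSubgroupIn ℚ) :
    KummerAt N p (legDeg N) σ := by
  classical
  intro n f hf hdiv
  have hm0 : 0 < p ^ n := pow_pos hp.pos n
  have hqm : ¬ q ∣ p ^ n := fun h =>
    hqp ((Nat.prime_dvd_prime_iff_eq hq hp).1 (hq.dvd_of_dvd_pow h))
  -- the divisor of `f` on the host over `Ω`
  haveI : HasPrincipalDivisors Ω ↥(legE Ω N) := up_hasPrincipalDivisors_legE N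
  have hfE : fullToLegE Ω N f ≠ 0 := (map_ne_zero _).2 hf
  obtain ⟨D, hD, -⟩ := HasPrincipalDivisors.exists_divisor (K := Ω) (fullToLegE Ω N f) hfE
  -- the Galois base
  haveI : Fact q.Prime := ⟨hq⟩
  obtain ⟨K₁, hK₁, -, -, hdesc, hrat⟩ :=
    (isBase_flatBase (ℓ := q)).exists_ge_isGalBase_legE N (∅ : Finset Ω)
      (f := fun _ : Unit => ((f : ↥(modularFunctionFieldBar N)) : LaurentSeries Ω))
      (fun _ => f.2) D.support
  haveI := hK₁.normal
  obtain ⟨f₁, hf₁mem, hf₁⟩ := hdesc ()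
  obtain ⟨F₁, b, hb, hF₁0, hF₁lc, hBC⟩ := exists_monic_descent N K₁ f hf f₁ hf₁mem hf₁
  -- the function on the host over `K₁`
  have hg₁0 : fullToLegE ↥K₁ N F₁ ≠ 0 := (map_ne_zero _).2 hF₁0
  have hg₁lc : ((fullToLegE ↥K₁ N F₁ : ↥(legE ↥K₁ N)) : LaurentSeries ↥K₁).leadingCoeff = 1 := by
    rw [leadingCoeff_fullToLegE, hF₁lc]
  have hg₁BC : legBC N K₁ (fullToLegE ↥K₁ N F₁) =
      algebraMap Ω ↥(legE Ω N) b * fullToLegE Ω N f := by
    rw [bcdeg_legBC_fullToLegE, hBC, map_mul (fullToLegE Ω N)]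
    congr 1
    exact (fullToLegE Ω N).commutes b
  have hord := hord_of_ord (m := p ^ n) (legGalois ↥K₁ N (resGal K₁ σ)) (fullToLegE ↥K₁ N F₁) hg₁0
    (ord_descended_leg N f hdiv D hD K₁ hrat (fullToLegE ↥K₁ N F₁) b hb hg₁BC)
  obtain ⟨u, hu⟩ := hB N q hq hq2 hqN hqq A hA K₁ hK₁ σ hσ (p ^ n) hm0 hqm (fullToLegE ↥K₁ N F₁)
    hg₁0 hg₁lc hord
  rw [smul_div_div_eq_secondDiff _ hg₁0] at hu
  have hu' : (fullToLegE ↥K₁ N).toRingHom
      (secondDiff (keyFqGalois ↥K₁ N (resGal K₁ σ)) F₁) = u ^ (p ^ n) := by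
    rw [map_secondDiff (keyFqGalois ↥K₁ N (resGal K₁ σ)) (legGalois ↥K₁ N (resGal K₁ σ))
      (fullToLegE ↥K₁ N).toRingHom (fullToLegE_keyFqGalois_smul N (resGal K₁ σ)) F₁]
    exact hu
  letI : Algebra ↥(keyFq ↥K₁ N) ↥(legE ↥K₁ N) := (fullToLegE ↥K₁ N).toRingHom.toAlgebra
  haveI : FiniteDimensional ↥(keyFq ↥K₁ N) ↥(legE ↥K₁ N) := finite_fullToLegE ↥K₁ N
  have hnorm := pow_finrank_eq_norm_pow (K := ↥(keyFq ↥K₁ N)) (L := ↥(legE ↥K₁ N))
    (x := secondDiff (keyFqGalois ↥K₁ N (resGal K₁ σ)) F₁) (u := u) (m := p ^ n) hu'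
  have hdeg : Module.finrank ↥(keyFq ↥K₁ N) ↥(legE ↥K₁ N) = legDeg N :=
    (finrank_legE_base N K₁).symm
  rw [hdeg] at hnorm
  exact kummer_of_base_pow N K₁ hm0.ne' (legDeg_ne_zero N) σ f hf F₁ b hb hBC _ hnorm

end Leg

end Fermat.Agent.SS
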