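/-
(SS-q) MODEL-EXPORT leaf [CUSPREG] — helper1 — **regularity of a level-`M` coordinate at the
cuspidal points of the chart `j⁻¹` of level `N`**: at a maximal ideal `𝔪` of `chartOne R E_N j⁻¹`
containing the coordinate `j⁻¹`, one of `A t`, `A t⁻¹` (resp. `B t`, `B t⁻¹`) lies in the local
ring of the chart at `𝔪`.  This is `SSModel.cusp_t` applied to the pull-back along `A` (resp. `B`)
of the local ring, which is integrally closed (valuative criterion), local, contains `R`, contains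
`j_M⁻¹` and does not contain `j_M`.
-/
import Mathlib
import Fermat.Agent.SS.HART_helper4
import Fermat.Agent.SS.EXPORT_helper4_Charts
import Fermat.Agent.SS.MODEL_helper7_Iface

set_option autoImplicit false
set_option linter.unusedSectionVars false
set_option linter.style.haveILetI false

namespace Fermat.Agent.SS

open Fermat.Agent.JA

section Generic

variable {R : Type*} [CommRing R] {E : Type*} [Field E] [Algebra R E]

/-- an element integral over `R[y]`, `R ⊆ V`, `y ∈ V`, lies in the valuation subring `V`. -/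
theorem mem_valuationSubring_of_isIntegral_adjoin_singleton (V : ValuationSubring E)
    (hR : ∀ r : R, algebraMap R E r ∈ V) {y x : E} (hy : y ∈ V)
    (hx : IsIntegral ↥(Algebra.adjoin R {y}) x) : x ∈ V := by
  rw [← ValuationSubring.valuation_le_one_iff]
  refine val_le_one_of_isIntegral V.valuation (fun a => ?_) hx
  rw [ValuationSubring.valuation_le_one_iff]
  obtain ⟨a, ha⟩ := a
  show a ∈ V
  let S : Subalgebra R E := { V.toSubring.toSubsemiring with algebraMap_mem' := hR }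
  have hle : Algebra.adjoin R {y} ≤ S := by
    apply Algebra.adjoin_le
    rintro z hz
    rw [Set.mem_singleton_iff] at hz
    rw [hz]
    exact hy
  exact hle ha

/-- **the abstract form of [CUSPREG]**: `ι : E_M → E` a ring homomorphism over `R`, `B` an
integrally closed `R`-subalgebra of `E`, `𝔪` a maximal ideal of `B` at which `(ι j_M)⁻¹` vanishes;
if the coordinate `τ` of `E_M` satisfies the cusp dichotomy (the field `cusp_t` of `SSModel`), then
`ι τ` or `ι τ⁻¹` lies in the local ring of `B` at `𝔪`. -/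
theorem mem_locRing_or_inv_mem_of_cusp {EM : Type*} [Field EM] [Algebra R EM] (ι : EM →+* E)
    (hιR : ∀ r : R, ι (algebraMap R EM r) = algebraMap R E r)
    {B : Subalgebra R E} (hB : ∀ e : E, IsIntegral ↥B e → e ∈ B)
    (𝔪 : Ideal ↥B) [hmax : 𝔪.IsMaximal] (τ jM : EM)
    (hcusp : ∀ O : Subring EM, (∀ x : EM, IsIntegral ↥O x → x ∈ O) →
      (∀ a ∈ O, ∀ b ∈ O, a + b = 1 → a⁻¹ ∈ O ∨ b⁻¹ ∈ O) → (∀ r : R, algebraMap R EM r ∈ O) →
      jM⁻¹ ∈ O → jM ∉ O → τ ∈ O ∨ τ⁻¹ ∈ O)
    (hj : (ι jM)⁻¹ ∈ locMax B 𝔪) (hj0 : ι jM ≠ 0) :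
    ι τ ∈ locRing B 𝔪 ∨ ι τ⁻¹ ∈ locRing B 𝔪 := by
  set O : Subring EM := (locRing B 𝔪).toSubring.comap ι with hO
  have hmemO : ∀ x : EM, x ∈ O ↔ ι x ∈ locRing B 𝔪 := fun x => Iff.rfl
  have h := hcusp O ?_ ?_ ?_ ?_ ?_
  · rcases h with h | h
    · exact Or.inl ((hmemO _).mp h)
    · exact Or.inr ((hmemO _).mp h)
  · -- integrally closed
    intro x hx
    rw [hmemO]
    refine mem_locRing_of_forall_valuationSubring hB (ι x) (fun V hBV h𝔪V => ?_)
    have hLV := (locRing_le_of_dominates V hBV h𝔪V).1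
    have h1 : (V.comap ι).valuation x ≤ 1 := by
      refine val_le_one_of_isIntegral (V.comap ι).valuation (fun a => ?_) hx
      rw [ValuationSubring.valuation_le_one_iff]
      show ι (a : EM) ∈ V
      exact hLV _ ((hmemO _).mp a.2)
    rw [ValuationSubring.valuation_le_one_iff] at h1
    exact h1
  · -- local
    intro a ha b hb hab
    rw [hmemO] at ha hb
    by_cases ha' : ι a ∈ locMax B 𝔪
    · have hb' : ι b ∉ locMax B 𝔪 := by
        intro hb'
        have h1 := add_mem_locMax ha' hb'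
        rw [← map_add, hab, map_one] at h1
        exact one_notMem_locMax h1
      refine Or.inr ?_
      rw [hmemO, map_inv₀]
      exact inv_mem_locRing hb hb'
    · refine Or.inl ?_
      rw [hmemO, map_inv₀]
      exact inv_mem_locRing ha ha'
  · -- constants
    intro r
    rw [hmemO, hιR]
    exact (locRing B 𝔪).algebraMap_mem r
  · -- `j_M⁻¹`
    rw [hmemO, map_inv₀]
    exact locMax_subset_locRing hj
  · -- `j_M`
    rw [hmemO]
    have h1 := inv_notMem_locRing hj (inv_ne_zero hj0)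
    rwa [inv_inv] at h1

end Generic

section Model

variable {R : Type*} [CommRing R] [IsDomain R] [IsDiscreteValuationRing R] [CharZero R]
  {K₁ : Type*} [Field K₁] [Algebra R K₁] [IsFractionRing R K₁]
  {KM : Type*} [Field KM] [Algebra K₁ KM] [Algebra R KM] [IsScalarTower R K₁ KM]
  {EM : Type*} [Field EM] [Algebra KM EM] [Algebra K₁ EM] [IsScalarTower K₁ KM EM] [Algebra R EM]
  [IsScalarTower R KM EM]
  {KN : Type*} [Field KN] [Algebra K₁ KN] [Algebra R KN] [IsScalarTower R K₁ KN]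
  {EN : Type*} [Field EN] [Algebra KN EN] [Algebra K₁ EN] [IsScalarTower K₁ KN EN] [Algebra R EN]
  [IsScalarTower R KN EN] [FiniteDimensional KN EN]
  {π : R} {q n : ℕ} {S : Finset R} {t : KM} {jM : EM} {j : KN} {A B : EM →+* EN}
  {VM : ValuationSubring EM} {Winf W0 : ValuationSubring EN}

/-- **[CUSPREG], `A`-side**: at a cuspidal closed point of the chart `j⁻¹` of level `N`, `A t` or
`A t⁻¹` is regular. -/
theorem SSModel.exists_coord_A_mem_locRing_of_cusp
    (h : SSModel K₁ π q n S t jM j A B VM Winf W0)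
    (𝔪 : Ideal ↥(chartOne R EN j⁻¹)) [𝔪.IsMaximal]
    (hx : (⟨algebraMap KN EN j⁻¹, algebraMap_coord_mem_chartOne j⁻¹⟩ : ↥(chartOne R EN j⁻¹)) ∈ 𝔪) :
    ∃ t' : KM, (t' = t ∨ t' = t⁻¹) ∧
      A (algebraMap KM EM t') ∈ locRing (chartOne R EN j⁻¹) 𝔪 := by
  have hj0 : j ≠ 0 := by
    rintro rfl
    exact h.j_transcendental ⟨Polynomial.X, Polynomial.X_ne_zero, by simp⟩
  have hAj0 : A jM ≠ 0 := by
    rw [h.A_j]
    exact (map_ne_zero _).mpr hj0
  have hj : (A jM)⁻¹ ∈ locMax (chartOne R EN j⁻¹) 𝔪 := by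
    rw [h.A_j, ← map_inv₀]
    exact (coe_mem_locMax_iff (⟨algebraMap KN EN j⁻¹, algebraMap_coord_mem_chartOne j⁻¹⟩ :
      ↥(chartOne R EN j⁻¹))).mpr hx
  rcases mem_locRing_or_inv_mem_of_cusp A h.A_algebraMap (mem_chartOne_of_isIntegral j⁻¹) 𝔪
    (algebraMap KM EM t) jM h.cusp_t hj hAj0 with h1 | h1
  · exact ⟨t, Or.inl rfl, h1⟩
  · refine ⟨t⁻¹, Or.inr rfl, ?_⟩
    rw [map_inv₀]
    exact h1

/-- **[CUSPREG], `B`-side**: at a cuspidal closed point of the chart `j⁻¹` of level `N`, `B t` or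
`B t⁻¹` is regular (given that `j` is integral over `R[j_q]`). -/
theorem SSModel.exists_coord_B_mem_locRing_of_cusp
    (h : SSModel K₁ π q n S t jM j A B VM Winf W0)
    (hjint : IsIntegral ↥(Algebra.adjoin R {B jM}) (A jM))
    (𝔪 : Ideal ↥(chartOne R EN j⁻¹)) [𝔪.IsMaximal]
    (hx : (⟨algebraMap KN EN j⁻¹, algebraMap_coord_mem_chartOne j⁻¹⟩ : ↥(chartOne R EN j⁻¹)) ∈ 𝔪) :
    ∃ t' : KM, (t' = t ∨ t' = t⁻¹) ∧
      B (algebraMap KM EM t') ∈ locRing (chartOne R EN j⁻¹) 𝔪 := by
  have hj0 : j ≠ 0 := by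
    rintro rfl
    exact h.j_transcendental ⟨Polynomial.X, Polynomial.X_ne_zero, by simp⟩
  have hAj0 : A jM ≠ 0 := by
    rw [h.A_j]
    exact (map_ne_zero _).mpr hj0
  have hjM0 : jM ≠ 0 := fun h0 => hAj0 (by rw [h0, map_zero])
  have hBj0 : B jM ≠ 0 := (map_ne_zero _).mpr hjM0
  have hj : (B jM)⁻¹ ∈ locMax (chartOne R EN j⁻¹) 𝔪 := by
    refine mem_locMax_of_forall_valuationSubring (mem_chartOne_of_isIntegral j⁻¹) _
      (fun V hBV h𝔪V => ?_)
    -- `j ∉ V`
    have h1 : V.valuation (algebraMap KN EN j⁻¹) < 1 :=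
      h𝔪V ⟨algebraMap KN EN j⁻¹, algebraMap_coord_mem_chartOne j⁻¹⟩ hx
    have hRV : ∀ r : R, algebraMap R EN r ∈ V := fun r =>
      hBV _ ((chartOne R EN j⁻¹).algebraMap_mem r)
    have h2 : B jM ∉ V := by
      intro hBV'
      have h3 : A jM ∈ V := mem_valuationSubring_of_isIntegral_adjoin_singleton V hRV hBV' hjint
      rw [h.A_j, ← ValuationSubring.valuation_le_one_iff] at h3
      have h4 : V.valuation (algebraMap KN EN j) * V.valuation (algebraMap KN EN j⁻¹) = 1 := by
        rw [← map_mul, ← map_mul, mul_inv_cancel₀ hj0, map_one, map_one]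
      have h5 : V.valuation (algebraMap KN EN j) * V.valuation (algebraMap KN EN j⁻¹) < 1 := by
        calc V.valuation (algebraMap KN EN j) * V.valuation (algebraMap KN EN j⁻¹)
            ≤ 1 * V.valuation (algebraMap KN EN j⁻¹) := mul_le_mul_left h3 _
          _ < 1 := by rw [one_mul]; exact h1
      rw [h4] at h5
      exact lt_irrefl _ h5
    rw [← ValuationSubring.valuation_le_one_iff, not_le] at h2
    rw [map_inv₀]
    exact inv_lt_one_of_one_lt₀ h2
  rcases mem_locRing_or_inv_mem_of_cusp B h.B_algebraMap (mem_chartOne_of_isIntegral j⁻¹) 𝔪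
    (algebraMap KM EM t) jM h.cusp_t hj hBj0 with h1 | h1
  · exact ⟨t, Or.inl rfl, h1⟩
  · refine ⟨t⁻¹, Or.inr rfl, ?_⟩
    rw [map_inv₀]
    exact h1

end Model

end Fermat.Agent.SS
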