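/-
(SS-q) MODEL-EXPORT — helper4 — part 4: **the chart `j⁻¹` of level `N` from the interface
`SSModel`**, and the abstract side of (SS-q) with the model charts discharged.

* `SSModel.isModelChart_two` : the model data `IsModelChart` of the chart `j⁻¹`:
  - non-cuspidal closed points (`j⁻¹ ∉ 𝔪`): transfer from the chart `j` (helper3's [XFER]) and
    helper6's unit of the nodes;
  - cuspidal closed points (`j⁻¹ ∈ 𝔪`): no crossing (`SSModel.not_crossing_of_cusp`), branch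
    uniformizers from level `M` in the coordinate `t` or `t⁻¹` (helper1's [CUSPREG] + helper9's
    [S']);
  the only hypothesis beyond `SSModel` is `hjint : j` integral over `R[j_q]`;
* `SSModel.kummer_inertia_pow_of_hjint` : helper5's `SSModel.kummer_inertia_pow_of_isModelChart`
  with the three MODEL-EXPORT hypotheses discharged.
-/
import Mathlib
import Fermat.Agent.SS.EXPORT_helper4_Model
import Fermat.Agent.SS.CUSPREG_helper1
import Fermat.Agent.SS.XFER_helper3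
import Fermat.Agent.SS.GSIGMA_helper5_Main

set_option autoImplicit false
set_option linter.unusedSectionVars false
set_option linter.style.haveILetI false

open AlgebraicCurve

namespace Fermat.Agent.SS

open Fermat.Agent.JA Polynomial

section Model

variable {R : Type*} [CommRing R] [IsDomain R] [IsDiscreteValuationRing R] [CharZero R]
  {K₁ : Type*} [Field K₁] [Algebra R K₁] [IsFractionRing R K₁]
  {KM : Type*} [Field KM] [Algebra K₁ KM] [Algebra R KM] [IsScalarTower R K₁ KM]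
  {EM : Type*} [Field EM] [Algebra KM EM] [Algebra K₁ EM] [IsScalarTower K₁ KM EM] [Algebra R EM]
  [IsScalarTower R KM EM]
  {KN : Type*} [Field KN] [Algebra K₁ KN] [Algebra R KN] [IsScalarTower R K₁ KN]
  {EN : Type*} [Field EN] [Algebra KN EN] [Algebra K₁ EN] [IsScalarTower K₁ KN EN] [Algebra R EN]
  [IsScalarTower R KN EN] [FiniteDimensional KN EN]
  {π : R} {q n : ℕ} {S : Finset R} {t : KM} {jM : EM} {j : KN} {A B : EM →+* EN}
  {VM : ValuationSubring EM} {Winf W0 : ValuationSubring EN}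

/-- **MODEL-EXPORT, chart `j⁻¹`.** -/
theorem SSModel.isModelChart_two [IsAlgClosed (IsLocalRing.ResidueField R)]
    (h : SSModel K₁ π q n S t jM j A B VM Winf W0) (hπ : Irreducible π)
    (hjint : IsIntegral ↥(Algebra.adjoin R {B jM}) (A jM))
    (h2 : IsTwoSheet π j⁻¹ Winf W0) :
    IsModelChart EN π (sheetIdeal j⁻¹ Winf h2.chart_le_inf)
      (sheetIdeal j⁻¹ W0 h2.chart_le_zero) := by
  have hu := h.j_transcendental
  have hK := h.j_adjoin
  have hu' := transcendental_inv_of_transcendental hu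
  have hK' := adjoin_inv_eq_top hK
  have hmod₁ := h.isModelChart_one hπ
  refine ⟨inferInstance, inferInstance, h2.pi_mem_inf (K₁ := K₁) hπ,
    h2.pi_mem_zero (K₁ := K₁) hπ, h2.inf_le_span hπ hu' hK', ?_, ?_, ?_⟩
  · intro 𝔪 h𝔪 hπ𝔪 hinf hn0
    haveI := h𝔪
    by_cases hx : (⟨algebraMap KN EN j⁻¹, algebraMap_coord_mem_chartOne j⁻¹⟩ :
        ↥(chartOne R EN j⁻¹)) ∈ 𝔪
    · obtain ⟨t', ht', hreg⟩ := h.exists_coord_A_mem_locRing_of_cusp 𝔪 hx
      rcases ht' with rfl | rfl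
      · exact h.exists_isBranchUniformizer_inf hu' hK' h2 𝔪 hinf hreg
      · obtain ⟨S', hgeo'⟩ := h.geo.inv
        exact GeoHyps.exists_isBranchUniformizer_sheet hgeo' VM
          (isGaussAt_inv π hπ.prime t _ h.gauss_M) hu' hK' A h.A_algebraMap h2.gauss_inf
          h.comap_A_inf h.res_inf 𝔪 hinf hreg
    · exact (h.two.xfer_inv h2 hπ hu hK hmod₁ 𝔪 hπ𝔪 hx).1 hinf hn0
  · intro 𝔪 h𝔪 hπ𝔪 h0 hninf
    haveI := h𝔪
    by_cases hx : (⟨algebraMap KN EN j⁻¹, algebraMap_coord_mem_chartOne j⁻¹⟩ :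
        ↥(chartOne R EN j⁻¹)) ∈ 𝔪
    · obtain ⟨t', ht', hreg⟩ := h.exists_coord_B_mem_locRing_of_cusp hjint 𝔪 hx
      rcases ht' with rfl | rfl
      · exact h.exists_isBranchUniformizer_zero hu' hK' h2 𝔪 h0 hreg
      · obtain ⟨S', hgeo'⟩ := h.geo.inv
        exact GeoHyps.exists_isBranchUniformizer_sheet hgeo' VM
          (isGaussAt_inv π hπ.prime t _ h.gauss_M) hu' hK' B h.B_algebraMap h2.gauss_zero
          h.comap_B_zero h.res_zero 𝔪 h0 hreg
    · exact (h.two.xfer_inv h2 hπ hu hK hmod₁ 𝔪 hπ𝔪 hx).2.1 h0 hninf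
  · intro 𝔪 h𝔪 hinf h0
    haveI := h𝔪
    haveI := h𝔪.isPrime
    by_cases hx : (⟨algebraMap KN EN j⁻¹, algebraMap_coord_mem_chartOne j⁻¹⟩ :
        ↥(chartOne R EN j⁻¹)) ∈ 𝔪
    · exact (h.not_crossing_of_cusp hπ h2 𝔪 hx hinf h0).elim
    · have hπ𝔪 : algebraMap R ↥(chartOne R EN j⁻¹) π ∈ 𝔪 := hinf (h2.pi_mem_inf (K₁ := K₁) hπ)
      obtain ⟨x, y, hx1, hx0, hy, hyinf⟩ :=
        (h.two.xfer_inv h2 hπ hu hK hmod₁ 𝔪 hπ𝔪 hx).2.2 hinf h0
      refine ⟨x, y, hx1, hx0, hy, hyinf, ?_⟩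
      obtain ⟨U, c, hc, hU0, hUinf, hUinf', hUzero, hUzero', hint, hint'⟩ := h.unit
      rw [h.A_j] at hint hint'
      obtain ⟨v, c', hc', hv1, hv2, hv3⟩ := h2.exists_nodeUnit_inv hπ hu' hK' hU0 hc hUinf
        hUinf' hUzero hUzero' hint hint'
      exact ⟨v, c', hc', hv1, hv2, fun 𝔮 h𝔮 _ hπ𝔮 hle => hv3 𝔮 h𝔮 hπ𝔮 (fun hm => hx (hle hm))⟩

/-- **the abstract side of (SS-q) from the interface alone**: helper5's
`SSModel.kummer_inertia_pow_of_isModelChart` with the MODEL-EXPORT hypotheses discharged; the only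
extra hypothesis is `hjint` (`j` integral over `R[j_q]`). -/
theorem SSModel.kummer_inertia_pow_of_hjint
    [IsAlgClosed (IsLocalRing.ResidueField R)]
    (h : SSModel K₁ π q n S t jM j A B VM Winf W0) (hπ : Irreducible π)
    (hjint : IsIntegral ↥(Algebra.adjoin R {B jM}) (A jM))
    {m : ℕ} (hm : 0 < m) (hmR : IsUnit (m : R)) (ζ : R) (hζ : IsPrimitiveRoot ζ m)
    (lc : ENˣ →* K₁ˣ) (hlc : ∀ c : K₁ˣ, lc (Units.map (algebraMap K₁ EN).toMonoidHom c) = c)
    (σ τ : EN →+* EN) (hσ : SSModelAut π j Winf W0 σ) (hτ : SSModelAut π j Winf W0 τ)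
    (ε : Rˣ) (hε : τ (algebraMap R EN π) = algebraMap R EN ((ε : R) * π))
    (f : EN) (hf : f ≠ 0)
    (hord : ∀ P : Place K₁ EN, P.ord (τ f / f) = 0 ∨
      (IsRationalPlace P ∧ (m : ℤ) ∣ P.ord (τ f / f)))
    (hlc1 : ∀ u : ENˣ, (u : EN) = σ (τ f / f) / (τ f / f) → lc u = 1) :
    ∃ u : EN, σ (τ f / f) / (τ f / f) = u ^ m :=
  h.kummer_inertia_pow_of_isModelChart hπ (h.two.inv hπ) (h.isModelChart_one hπ)
    (h.isModelChart_two hπ hjint (h.two.inv hπ)) hm hmR ζ hζ lc hlc σ τ hσ hτ ε hε f hf hord hlc1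

end Model

end Fermat.Agent.SS
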