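/-
(SS-q) GLUE-B — helper3 — **the hypotheses `pow` and `zero` of `IsKummerOnChart` for `g = τ f / f`**,
`τ` a ring endomorphism of the function field congruent to the identity modulo `π` on the chart
with `τ π = ε π`, `ε` a unit of the base congruent to an `m`-th power modulo `π`.

* `exists_pow_datum_of_cong` : at a prime `𝔭 ∋ π` with `𝔭 B_𝔭 = π B_𝔭`, the function `τ f / f` is a
  unit whose residue is the `m`-th power of a constant;
* `IsModelChart.locally_principal_inf/zero` : `π` generates both components generically;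
* `IsKummerOnChart.of_cong` : `IsKummerOnChart` for `τ f / f` from its `div` part;
* `IsKummerOnChart.of_cong_chartOne` : the same in the currency of SS-KUM (`chartOne`).
-/
import Fermat.Agent.SS.GLUE_helper3_A

set_option autoImplicit false
set_option linter.unusedSectionVars false
set_option linter.style.haveILetI false

namespace Fermat.Agent.SS

open Fermat.Agent.JA Polynomial

section Cong

variable {B : Type*} [CommRing B] [IsDomain B] [IsNoetherianRing B]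
variable {E : Type*} [Field E] [Algebra B E] [IsFractionRing B E]

omit [IsDomain B] [IsNoetherianRing B] [IsFractionRing B E] in
/-- integer powers of a unit of `B` in the fraction field. -/
theorem algebraMap_units_zpow (ε : Bˣ) (e : ℤ) :
    algebraMap B E ((ε ^ e : Bˣ) : B) = algebraMap B E (ε : B) ^ e := by
  have h1 : Units.map (algebraMap B E).toMonoidHom (ε ^ e) =
      (Units.map (algebraMap B E).toMonoidHom ε) ^ e := map_zpow _ _ _
  have h2 : ((Units.map (algebraMap B E).toMonoidHom (ε ^ e) : Eˣ) : E) =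
      (((Units.map (algebraMap B E).toMonoidHom ε) ^ e : Eˣ) : E) := by rw [h1]
  rw [Units.val_zpow_eq_zpow_val] at h2
  exact h2

omit [IsDomain B] [IsNoetherianRing B] in
/-- integer powers of units congruent to `m`-th powers. -/
theorem units_zpow_sub_pow_mem (𝔭 : Ideal B) (ε c₀ : Bˣ) {m : ℕ}
    (hc₀ : (ε : B) - (c₀ : B) ^ m ∈ 𝔭) (e : ℤ) :
    ((ε ^ e : Bˣ) : B) - ((c₀ ^ e : Bˣ) : B) ^ m ∈ 𝔭 := by
  set q := Ideal.Quotient.mk 𝔭 with hq
  have h1 : Units.map q.toMonoidHom ε = (Units.map q.toMonoidHom c₀) ^ m := by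
    apply Units.ext
    have : q (ε : B) = q (c₀ : B) ^ m := by
      rw [← map_pow]; exact (Ideal.Quotient.eq).2 hc₀
    simpa using this
  have h2 : Units.map q.toMonoidHom (ε ^ e) = (Units.map q.toMonoidHom (c₀ ^ e)) ^ m := by
    rw [map_zpow, map_zpow, h1, ← zpow_natCast, ← zpow_natCast, ← zpow_mul, ← zpow_mul, mul_comm]
  have h3 : ((Units.map q.toMonoidHom (ε ^ e) : (B ⧸ 𝔭)ˣ) : B ⧸ 𝔭) =
      (((Units.map q.toMonoidHom (c₀ ^ e)) ^ m : (B ⧸ 𝔭)ˣ) : B ⧸ 𝔭) := by rw [h2]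
  rw [Units.val_pow_eq_pow_val] at h3
  have h4 : q ((ε ^ e : Bˣ) : B) = q (((c₀ ^ e : Bˣ) : B) ^ m) := by
    rw [map_pow]; exact h3
  exact (Ideal.Quotient.eq).1 h4

/-- **`τ f / f` at a vertical component**: `𝔭 ∋ π` a prime with `𝔭 B_𝔭 = π B_𝔭`, `τ ≡ id` modulo
`π` on `B`, `τ π = ε π`, `ε ≡ c₀^m` modulo `𝔭`. Then `τ f / f` is a unit at `𝔭` whose residue is
the `m`-th power of a unit of `B`. -/
theorem exists_pow_datum_of_cong (𝔭 : Ideal B) [h𝔭 : 𝔭.IsPrime] {π : B} (hπ : π ∈ 𝔭) (hπ0 : π ≠ 0)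
    (hloc : ∀ z ∈ 𝔭, ∃ s : B, s ∉ 𝔭 ∧ π ∣ s * z)
    (τ : E →+* E) (hτ : ∀ x : B, ∃ z : B, τ (algebraMap B E x) = algebraMap B E (x + π * z))
    (ε c₀ : Bˣ) (hε : τ (algebraMap B E π) = algebraMap B E ((ε : B) * π)) {m : ℕ}
    (hc₀ : (ε : B) - (c₀ : B) ^ m ∈ 𝔭) {f : E} (hf : f ≠ 0) :
    ∃ a b c d : B, a ∉ 𝔭 ∧ b ∉ 𝔭 ∧ c ∉ 𝔭 ∧ d ∉ 𝔭 ∧
      (τ f / f) * algebraMap B E b = algebraMap B E a ∧ a * d ^ m - b * c ^ m ∈ 𝔭 := by
  have hinj : Function.Injective (algebraMap B E) := IsFractionRing.injective B E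
  have hne : ∀ z : B, z ∉ 𝔭 → algebraMap B E z ≠ 0 := fun z hz h0 =>
    hz ((hinj (by rw [h0, map_zero]) : z = 0) ▸ 𝔭.zero_mem)
  have hunit : ∀ u : Bˣ, (u : B) ∉ 𝔭 := fun u hu =>
    h𝔭.ne_top (Ideal.eq_top_of_isUnit_mem _ hu u.isUnit)
  obtain ⟨e, r, s, hr, hs, hrs⟩ := exists_zpow_isUnitAtPrime (K := E) 𝔭 hπ hloc hf
  obtain ⟨zr, hzr⟩ := hτ r
  obtain ⟨zs, hzs⟩ := hτ s
  have hr' : r + π * zr ∉ 𝔭 := fun h =>
    hr ((Ideal.add_mem_iff_left 𝔭 (𝔭.mul_mem_right _ hπ)).1 h)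
  have hs' : s + π * zs ∉ 𝔭 := fun h =>
    hs ((Ideal.add_mem_iff_left 𝔭 (𝔭.mul_mem_right _ hπ)).1 h)
  have hπE : algebraMap B E π ≠ 0 := fun h0 => hπ0 (hinj (by rw [h0, map_zero]))
  have hεE : algebraMap B E (ε : B) ≠ 0 := hne _ (hunit ε)
  have hP : algebraMap B E π ^ e ≠ 0 := zpow_ne_zero _ hπE
  have hQ : algebraMap B E (ε : B) ^ e ≠ 0 := zpow_ne_zero _ hεE
  have hsE := hne s hs
  have hrE := hne r hr
  have hs'E := hne _ hs'
  have hr'E := hne _ hr'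
  have hf_eq : f = algebraMap B E π ^ e * algebraMap B E r / algebraMap B E s := by
    rw [← hrs]; field_simp
  have hτf : τ f = algebraMap B E (ε : B) ^ e * algebraMap B E π ^ e *
      algebraMap B E (r + π * zr) / algebraMap B E (s + π * zs) := by
    rw [hf_eq, map_div₀, map_mul, map_zpow₀, hε, hzr, hzs, map_mul, mul_zpow]
  refine ⟨((ε ^ e : Bˣ) : B) * (r + π * zr) * s, r * (s + π * zs), ((c₀ ^ e : Bˣ) : B), 1, ?_, ?_,
    hunit _, ?_, ?_, ?_⟩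
  · intro h
    rcases h𝔭.mem_or_mem h with h | h
    · rcases h𝔭.mem_or_mem h with h | h
      · exact hunit _ h
      · exact hr' h
    · exact hs h
  · intro h
    rcases h𝔭.mem_or_mem h with h | h
    · exact hr h
    · exact hs' h
  · intro h
    exact h𝔭.ne_top ((Ideal.eq_top_iff_one _).2 h)
  · rw [hτf, hf_eq, map_mul, map_mul, map_mul, algebraMap_units_zpow]
    field_simp
  · rw [one_pow, mul_one]
    have h1 := units_zpow_sub_pow_mem 𝔭 ε c₀ hc₀ e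
    have h2 : (r + π * zr) * s - r * (s + π * zs) ∈ 𝔭 := by
      have : (r + π * zr) * s - r * (s + π * zs) = π * (zr * s - r * zs) := by ring
      rw [this]; exact 𝔭.mul_mem_right _ hπ
    have h3 : ((ε ^ e : Bˣ) : B) * (r + π * zr) * s - r * (s + π * zs) * ((c₀ ^ e : Bˣ) : B) ^ m =
        (((ε ^ e : Bˣ) : B) - ((c₀ ^ e : Bˣ) : B) ^ m) * ((r + π * zr) * s) +
          ((c₀ ^ e : Bˣ) : B) ^ m * ((r + π * zr) * s - r * (s + π * zs)) := by ring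
    rw [h3]
    exact 𝔭.add_mem (𝔭.mul_mem_right _ h1) (𝔭.mul_mem_left _ h2)

end Cong

section Model

variable {R₁ : Type*} [CommRing R₁]
variable {B : Type*} [CommRing B] [Algebra R₁ B]
variable {E : Type*} [Field E] [Algebra B E]

/-- `π` generates `𝔭∞` generically. -/
theorem IsModelChart.locally_principal_inf {ϖ : R₁} {𝔭inf 𝔭0 : Ideal B}
    (hmod : IsModelChart E ϖ 𝔭inf 𝔭0) (hne : ¬ 𝔭0 ≤ 𝔭inf) :
    ∀ z ∈ 𝔭inf, ∃ s : B, s ∉ 𝔭inf ∧ algebraMap R₁ B ϖ ∣ s * z := by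
  intro z hz
  obtain ⟨y, hy0, hyinf⟩ := Set.not_subset.mp hne
  refine ⟨y, hyinf, ?_⟩
  rw [← Ideal.mem_span_singleton]
  exact hmod.inf_le ⟨𝔭inf.mul_mem_left _ hz, 𝔭0.mul_mem_right _ hy0⟩

/-- `π` generates `𝔭0` generically. -/
theorem IsModelChart.locally_principal_zero {ϖ : R₁} {𝔭inf 𝔭0 : Ideal B}
    (hmod : IsModelChart E ϖ 𝔭inf 𝔭0) (hne : ¬ 𝔭inf ≤ 𝔭0) :
    ∀ z ∈ 𝔭0, ∃ s : B, s ∉ 𝔭0 ∧ algebraMap R₁ B ϖ ∣ s * z := by
  intro z hz
  obtain ⟨y, hyinf, hy0⟩ := Set.not_subset.mp hne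
  refine ⟨y, hy0, ?_⟩
  rw [← Ideal.mem_span_singleton]
  exact hmod.inf_le ⟨𝔭inf.mul_mem_right _ hyinf, 𝔭0.mul_mem_left _ hz⟩

end Model

section Chart

variable {R₁ : Type*} [CommRing R₁]
variable {B : Type*} [CommRing B] [IsDomain B] [IsNoetherianRing B] [Algebra R₁ B]
variable {E : Type*} [Field E] [Algebra B E] [IsFractionRing B E]

/-- **GLUE-B**: `IsKummerOnChart` for `g = τ f / f` from its `div` part. `τ` is a ring endomorphism
of the function field, congruent to the identity modulo `π` on the chart, with `τ π = ε π`, where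
`ε` is a unit of the base congruent to an `m`-th power modulo `ϖ`. -/
theorem IsKummerOnChart.of_cong {ϖ : R₁} (hπne : algebraMap R₁ B ϖ ≠ 0) {𝔭inf 𝔭0 : Ideal B}
    (hmod : IsModelChart E ϖ 𝔭inf 𝔭0) (hne₁ : ¬ 𝔭0 ≤ 𝔭inf) (hne₂ : ¬ 𝔭inf ≤ 𝔭0)
    (τ : E →+* E)
    (hτ : ∀ x : B, ∃ z : B, τ (algebraMap B E x) = algebraMap B E (x + algebraMap R₁ B ϖ * z))
    (ε c₀ : R₁ˣ)
    (hε : τ (algebraMap B E (algebraMap R₁ B ϖ)) =
      algebraMap B E (algebraMap R₁ B ((ε : R₁) * ϖ)))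
    {m : ℕ} (hc₀ : (ε : R₁) - (c₀ : R₁) ^ m ∈ Ideal.span {ϖ}) {f : E} (hf : f ≠ 0)
    (hdiv : ∀ 𝔪 : Ideal B, 𝔪.IsMaximal → algebraMap R₁ B ϖ ∈ 𝔪 →
      ∀ 𝔮 : Ideal B, 𝔮.IsPrime → 𝔮.height = 1 → algebraMap R₁ B ϖ ∉ 𝔮 → 𝔮 ≤ 𝔪 →
      IsKummerAtPrime R₁ m (τ f / f) 𝔮) :
    IsKummerOnChart ϖ 𝔭inf 𝔭0 m (τ f / f) := by
  haveI := hmod.isPrime_inf
  haveI := hmod.isPrime_zero
  set εB : Bˣ := Units.map (algebraMap R₁ B).toMonoidHom ε with hεB
  set cB : Bˣ := Units.map (algebraMap R₁ B).toMonoidHom c₀ with hcB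
  have hεB' : τ (algebraMap B E (algebraMap R₁ B ϖ)) =
      algebraMap B E ((εB : B) * algebraMap R₁ B ϖ) := by
    rw [hε, map_mul]; rfl
  have hmem : ∀ 𝔭 : Ideal B, algebraMap R₁ B ϖ ∈ 𝔭 → (εB : B) - (cB : B) ^ m ∈ 𝔭 := by
    intro 𝔭 h𝔭
    rw [Ideal.mem_span_singleton] at hc₀
    obtain ⟨w, hw⟩ := hc₀
    have : (εB : B) - (cB : B) ^ m = algebraMap R₁ B ϖ * algebraMap R₁ B w := by
      rw [← map_mul, ← hw, map_sub, map_pow]; rfl
    rw [this]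
    exact 𝔭.mul_mem_right _ h𝔭
  refine ⟨hdiv, ?_, ?_⟩
  · exact exists_pow_datum_of_cong 𝔭inf hmod.mem_inf hπne (hmod.locally_principal_inf hne₁) τ hτ
      εB cB hεB' (hmem _ hmod.mem_inf) hf
  · obtain ⟨a, b, -, -, ha, hb, -, -, hab, -⟩ :=
      exists_pow_datum_of_cong 𝔭0 hmod.mem_zero hπne (hmod.locally_principal_zero hne₂) τ hτ
        εB cB hεB' (m := m) (hmem _ hmod.mem_zero) hf
    refine ⟨0, ?_⟩
    have : IsUnitAtPrime 𝔭0 (τ f / f) := ⟨a, b, ha, hb, hab⟩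
    simpa using this

end Chart

section ChartOne

variable {R : Type*} [CommRing R] [IsDomain R] [IsIntegrallyClosed R] [IsNoetherianRing R]
  [CharZero R] {K₁ : Type*} [Field K₁] [Algebra R K₁]
  [IsFractionRing R K₁] {K : Type*} [Field K] [Algebra K₁ K] [Algebra R K] [IsScalarTower R K₁ K]
  {F : Type*} [Field F] [Algebra K F] [Algebra K₁ F] [IsScalarTower K₁ K F] [Algebra R F]
  [IsScalarTower R K F] [FiniteDimensional K F]

/-- **GLUE-B in the currency of SS-KUM**: the chart is `chartOne R F t`, the congruence hypothesis on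
`τ` has the literal form of `hσ₁`/`hσ₂` of `kummer_inertia_pow'`. -/
theorem IsKummerOnChart.of_cong_chartOne
    (t : K) (ht : Transcendental K₁ t) (hK : IntermediateField.adjoin K₁ {t} = ⊤)
    {π : R} (hπ : π ≠ 0) {𝔭inf 𝔭0 : Ideal ↥(chartOne R F t)}
    (hmod : IsModelChart F π 𝔭inf 𝔭0) (hne₁ : ¬ 𝔭0 ≤ 𝔭inf) (hne₂ : ¬ 𝔭inf ≤ 𝔭0)
    (τ : F →+* F)
    (hτ : ∀ x ∈ chartOne R F t, ∃ z ∈ chartOne R F t, τ x = x + algebraMap R F π * z)
    (ε c₀ : Rˣ) (hε : τ (algebraMap R F π) = algebraMap R F ((ε : R) * π))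
    {m : ℕ} (hc₀ : (ε : R) - (c₀ : R) ^ m ∈ Ideal.span {π}) {f : F} (hf : f ≠ 0)
    (hdiv : ∀ 𝔪 : Ideal ↥(chartOne R F t), 𝔪.IsMaximal → algebraMap R ↥(chartOne R F t) π ∈ 𝔪 →
      ∀ 𝔮 : Ideal ↥(chartOne R F t), 𝔮.IsPrime → 𝔮.height = 1 →
      algebraMap R ↥(chartOne R F t) π ∉ 𝔮 → 𝔮 ≤ 𝔪 → IsKummerAtPrime R m (τ f / f) 𝔮) :
    IsKummerOnChart π 𝔭inf 𝔭0 m (τ f / f) := by
  haveI : IsNoetherianRing ↥(chartOne R F t) := isNoetherianRing_chartOne (K₁ := K₁) t ht hK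
  haveI : IsFractionRing ↥(chartOne R F t) F := isFractionRing_chartOne (K₁ := K₁) t hK
  have hinjF : Function.Injective (algebraMap R F) := by
    rw [IsScalarTower.algebraMap_eq R K F, IsScalarTower.algebraMap_eq R K₁ K]
    exact (algebraMap K F).injective.comp
      ((algebraMap K₁ K).injective.comp (IsFractionRing.injective R K₁))
  have hπ1 : algebraMap R ↥(chartOne R F t) π ≠ 0 := by
    intro h0
    have := congrArg (fun w : ↥(chartOne R F t) => (w : F)) h0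
    exact hπ (hinjF (by rw [map_zero]; exact this))
  refine IsKummerOnChart.of_cong hπ1 hmod hne₁ hne₂ τ ?_ ε c₀ hε hc₀ hf hdiv
  intro x
  obtain ⟨z, hz, hxz⟩ := hτ (x : F) x.2
  exact ⟨⟨z, hz⟩, hxz⟩

end ChartOne

end Fermat.Agent.SS
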