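/-
(SS-q) — helper5 — **SS-NODEPLACE: from places to `IsKummerAtPrime`.**

`B` a chart (noetherian integrally closed domain, `R₁`-algebra, `Frac B = E`, `E / K₁` the function
field, `K₁ = Frac R₁`), `𝔪 ∋ π` a maximal ideal, `𝔮 ≤ 𝔪` a horizontal prime of height one. If at
the places `P ⊇ B` of `E / K₁` with centre `𝔮` either `ord_P g = 0` or `P` is `K₁`-rational and
`m ∣ ord_P g`, then `IsKummerAtPrime R₁ m g 𝔮` (the hypothesis `hdiv` of
`exists_kummer_of_chart`).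

* `exists_sub_algebraMap_mem_of_isRationalPlace` : values of elements of `B` at a rational place
  centred inside `𝔪` lie in `R₁`;
* `exists_retraction_of_isRationalPlace` : the retraction `B →ₐ[R₁] R₁` with kernel `𝔮`;
* `isKummerAtPrime_of_place`.
-/
import Mathlib
import Fermat.Agent.SS.RETR_helper1_Horiz
import Fermat.Agent.SS.LOCASM_helper5_Main

set_option autoImplicit false
set_option linter.unusedSectionVars false
set_option linter.style.haveILetI false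

open AlgebraicCurve IsLocalRing

namespace Fermat.Agent.SS

open Fermat.Agent.FF Fermat.Agent.JA

section NodePlace

variable {R₁ : Type*} [CommRing R₁] [IsDomain R₁] [IsDiscreteValuationRing R₁]
  {K₁ : Type*} [Field K₁] [Algebra R₁ K₁] [IsFractionRing R₁ K₁]
  {E : Type*} [Field E] [Algebra K₁ E] [Algebra R₁ E] [IsScalarTower R₁ K₁ E]
  {B : Type*} [CommRing B] [IsDomain B] [Algebra R₁ B] [Algebra B E] [IsScalarTower R₁ B E]

/-- the values of the elements of a chart at a rational place whose centre lies in a maximal ideal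
containing `π` are in `R₁`. -/
theorem exists_sub_algebraMap_mem_of_isRationalPlace {π : R₁} (hπ : Irreducible π)
    (𝔪 : Ideal B) [h𝔪 : 𝔪.IsMaximal] (hπ𝔪 : algebraMap R₁ B π ∈ 𝔪)
    (P : Place K₁ E) (hO : ∀ x : B, algebraMap B E x ∈ P.toValuationSubring)
    (hle : centreIdeal P hO ≤ 𝔪) (hrat : IsRationalPlace P) (b : B) :
    ∃ r : R₁, b - algebraMap R₁ B r ∈ centreIdeal P hO := by
  obtain ⟨c, hc⟩ := hrat _ (hO b)
  have key : ∀ r : R₁, c = algebraMap R₁ K₁ r → b - algebraMap R₁ B r ∈ centreIdeal P hO := by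
    intro r hr
    rw [mem_centreIdeal_iff, map_sub, ← IsScalarTower.algebraMap_apply R₁ B E,
      IsScalarTower.algebraMap_apply R₁ K₁ E, ← hr]
    exact hc
  by_cases hc0 : c = 0
  · exact ⟨0, key 0 (by rw [hc0, map_zero])⟩
  rcases ValuationRing.isInteger_or_isInteger R₁ c with ⟨r, hr⟩ | ⟨r, hr⟩
  · exact ⟨r, key r hr.symm⟩
  by_cases hru : IsUnit r
  · obtain ⟨u, rfl⟩ := hru
    refine ⟨((u⁻¹ : R₁ˣ) : R₁), key _ ?_⟩
    have h1 : algebraMap R₁ K₁ (u : R₁) * algebraMap R₁ K₁ ((u⁻¹ : R₁ˣ) : R₁) = 1 := by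
      rw [← map_mul, Units.mul_inv, map_one]
    rw [hr] at h1
    field_simp at h1
    exact h1.symm
  exfalso
  have hrm : r ∈ maximalIdeal R₁ := (IsLocalRing.mem_maximalIdeal r).mpr hru
  rw [hπ.maximalIdeal_eq, Ideal.mem_span_singleton'] at hrm
  obtain ⟨a, rfl⟩ := hrm
  -- `1 - r b` lies in the centre, hence in `𝔪`; but `r b ∈ 𝔪`
  have hmem : 1 - algebraMap R₁ B (a * π) * b ∈ centreIdeal P hO := by
    rw [mem_centreIdeal_iff]
    have hcE : algebraMap K₁ E c ≠ 0 := (map_ne_zero _).mpr hc0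
    have himg : algebraMap B E (1 - algebraMap R₁ B (a * π) * b) =
        (-(algebraMap K₁ E c)⁻¹) * (algebraMap B E b - algebraMap K₁ E c) := by
      rw [map_sub, map_one, map_mul, ← IsScalarTower.algebraMap_apply R₁ B E,
        IsScalarTower.algebraMap_apply R₁ K₁ E, hr, map_inv₀]
      field_simp
      ring
    rw [himg]
    refine hc.mul_mem ?_
    rw [← map_inv₀, ← map_neg]
    exact P.algebraMap_mem' _
  have h1 : algebraMap R₁ B (a * π) * b ∈ 𝔪 := by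
    rw [map_mul, mul_assoc]
    exact 𝔪.mul_mem_left _ (𝔪.mul_mem_right _ hπ𝔪)
  have h2 : (1 : B) ∈ 𝔪 := by
    have := 𝔪.add_mem (hle hmem) h1
    simpa using this
  exact h𝔪.ne_top ((Ideal.eq_top_iff_one _).mpr h2)

/-- **the retraction of a chart attached to a rational place centred inside `𝔪`.** -/
theorem exists_retraction_of_isRationalPlace {π : R₁} (hπ : Irreducible π)
    (𝔪 : Ideal B) [h𝔪 : 𝔪.IsMaximal] (hπ𝔪 : algebraMap R₁ B π ∈ 𝔪)
    (P : Place K₁ E) (hO : ∀ x : B, algebraMap B E x ∈ P.toValuationSubring)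
    (hle : centreIdeal P hO ≤ 𝔪) (hrat : IsRationalPlace P) :
    ∃ ρ : B →ₐ[R₁] R₁, RingHom.ker (ρ : B →+* R₁) = centreIdeal P hO := by
  set 𝔮 := centreIdeal P hO with h𝔮
  let φ : R₁ →ₐ[R₁] B ⧸ 𝔮 := Algebra.ofId R₁ (B ⧸ 𝔮)
  have hφ : ∀ r : R₁, φ r = Ideal.Quotient.mk 𝔮 (algebraMap R₁ B r) := fun r => rfl
  have hbij : Function.Bijective φ := by
    constructor
    · rw [injective_iff_map_eq_zero]
      intro r hr
      rw [hφ, Ideal.Quotient.eq_zero_iff_mem] at hr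
      by_contra hr0
      exact algebraMap_not_mem_centreIdeal (K₁ := K₁) P hO hr0 hr
    · intro z
      obtain ⟨b, rfl⟩ := Ideal.Quotient.mk_surjective z
      obtain ⟨r, hr⟩ := exists_sub_algebraMap_mem_of_isRationalPlace hπ 𝔪 hπ𝔪 P hO hle hrat b
      refine ⟨r, ?_⟩
      rw [hφ, eq_comm, Ideal.Quotient.eq]
      exact hr
  let e : R₁ ≃ₐ[R₁] B ⧸ 𝔮 := AlgEquiv.ofBijective φ hbij
  refine ⟨(e.symm : (B ⧸ 𝔮) →ₐ[R₁] R₁).comp (Ideal.Quotient.mkₐ R₁ 𝔮), ?_⟩
  ext b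
  rw [RingHom.mem_ker]
  change e.symm (Ideal.Quotient.mk 𝔮 b) = 0 ↔ b ∈ 𝔮
  rw [map_eq_zero_iff _ e.symm.injective, Ideal.Quotient.eq_zero_iff_mem]

variable [IsNoetherianRing B] [IsIntegrallyClosed B] [IsFractionRing B E]

/-- **`IsKummerAtPrime` from places**: the hypothesis `hdiv` of `exists_kummer_of_chart` at the
horizontal prime `𝔮 ≤ 𝔪` of height one, from the orders of `g` at the places with centre `𝔮`. -/
theorem isKummerAtPrime_of_place {π : R₁} (hπ : Irreducible π)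
    (𝔪 : Ideal B) [h𝔪 : 𝔪.IsMaximal] (hπ𝔪 : algebraMap R₁ B π ∈ 𝔪)
    (𝔮 : Ideal B) [h𝔮p : 𝔮.IsPrime] (h𝔮 : 𝔮.height = 1) (hπ𝔮 : algebraMap R₁ B π ∉ 𝔮)
    (h𝔮𝔪 : 𝔮 ≤ 𝔪) {m : ℕ} {g : E} (hg : g ≠ 0)
    (h : ∀ (P : Place K₁ E) (hO : ∀ x : B, algebraMap B E x ∈ P.toValuationSubring),
      centreIdeal P hO = 𝔮 → P.ord g = 0 ∨ (IsRationalPlace P ∧ (m : ℤ) ∣ P.ord g)) :
    IsKummerAtPrime R₁ m g 𝔮 := by
  obtain ⟨P, hO, hP⟩ := exists_place_centreIdeal_eq (K₁ := K₁) (E := E) hπ 𝔮 h𝔮 hπ𝔮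
  rcases h P hO hP with h0 | ⟨hrat, k, hk⟩
  · left
    have h1 := isUnitAtPrime_of_ord_eq_zero_of_height_eq_one P hO (by rw [hP]; exact h𝔮) hg h0
    rwa [hP] at h1
  · right
    obtain ⟨ρ, hρ⟩ := exists_retraction_of_isRationalPlace hπ 𝔪 hπ𝔪 P hO (hP ▸ h𝔮𝔪) hrat
    refine ⟨ρ, P.ord, k, hρ.trans hP, fun _ _ ha hb => P.ord_mul ha hb, ?_, ?_,
      Fermat.Agent.FF.Gal.exists_ord_eq_one P, hk⟩
    · intro a ha
      exact ord_eq_zero_of_not_mem_centreIdeal P hO (hP ▸ ha)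
    · intro a ha ha0
      exact ord_pos_of_mem_centreIdeal P hO (hP ▸ ha) ha0

end NodePlace

end Fermat.Agent.SS
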