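/-
(SS-q) GLUE-C — helper3 — **one theorem for TOP-B**: GLUE-A + GLUE-B + NODEPLACE.

`R` a discrete valuation ring with uniformizer `π`, `K₁ = Frac R`, `K = K₁(t)`, `F / K` finite with
constant field `K₁`; both charts carry the model data `IsModelChart` with incomparable components;
`σ`, `τ` ring endomorphisms of `F` congruent to the identity modulo `π` on both charts,
`τ π = ε π` with `ε ≡ c₀^m` modulo `π`; `f ≠ 0` such that at every place `P` of `F / K₁` either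
`ord_P (τ f / f) = 0`, or `P` is rational and `m ∣ ord_P (τ f / f)`.
Then `σ g / g` is an `m`-th power for `g = τ f / f`.

* `IsKummerOnChart.of_place_chartOne` : `IsKummerOnChart` for `τ f / f` on a chart;
* `kummer_inertia_pow_of_place` : the theorem.
-/
import Fermat.Agent.SS.GLUE_helper3_B
import Fermat.Agent.SS.NODEPLACE_helper5

set_option autoImplicit false
set_option linter.unusedSectionVars false
set_option linter.style.haveILetI false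

open AlgebraicCurve

namespace Fermat.Agent.SS

open Fermat.Agent.JA Polynomial

section GlueC

variable {R : Type*} [CommRing R] [IsDomain R] [IsDiscreteValuationRing R]
  [CharZero R] {K₁ : Type*} [Field K₁] [Algebra R K₁]
  [IsFractionRing R K₁] {K : Type*} [Field K] [Algebra K₁ K] [Algebra R K] [IsScalarTower R K₁ K]
  {F : Type*} [Field F] [Algebra K F] [Algebra K₁ F] [IsScalarTower K₁ K F] [Algebra R F]
  [IsScalarTower R K F] [FiniteDimensional K F]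

/-- the tower `R → K₁ → F`. -/
theorem isScalarTower_base_const (R K₁ K F : Type*) [CommRing R] [Field K₁] [Algebra R K₁]
    [Field K] [Algebra K₁ K] [Algebra R K] [IsScalarTower R K₁ K] [Field F] [Algebra K F]
    [Algebra K₁ F] [IsScalarTower K₁ K F] [Algebra R F] [IsScalarTower R K F] :
    IsScalarTower R K₁ F :=
  IsScalarTower.of_algebraMap_eq (fun r => by
    rw [IsScalarTower.algebraMap_apply R K F, IsScalarTower.algebraMap_apply R K₁ K,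
      ← IsScalarTower.algebraMap_apply K₁ K F])

/-- **`IsKummerOnChart` for `τ f / f` from the orders at the places of `F / K₁`.** -/
theorem IsKummerOnChart.of_place_chartOne
    (t : K) (ht : Transcendental K₁ t) (hK : IntermediateField.adjoin K₁ {t} = ⊤)
    {π : R} (hπ : Irreducible π) {𝔭inf 𝔭0 : Ideal ↥(chartOne R F t)}
    (hmod : IsModelChart F π 𝔭inf 𝔭0) (hne₁ : ¬ 𝔭0 ≤ 𝔭inf) (hne₂ : ¬ 𝔭inf ≤ 𝔭0)
    (τ : F →+* F)
    (hτ : ∀ x ∈ chartOne R F t, ∃ z ∈ chartOne R F t, τ x = x + algebraMap R F π * z)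
    (ε c₀ : Rˣ) (hε : τ (algebraMap R F π) = algebraMap R F ((ε : R) * π))
    {m : ℕ} (hc₀ : (ε : R) - (c₀ : R) ^ m ∈ Ideal.span {π}) {f : F} (hf : f ≠ 0)
    (hord : ∀ P : Place K₁ F, P.ord (τ f / f) = 0 ∨
      (IsRationalPlace P ∧ (m : ℤ) ∣ P.ord (τ f / f))) :
    IsKummerOnChart π 𝔭inf 𝔭0 m (τ f / f) := by
  haveI : IsScalarTower R K₁ F := isScalarTower_base_const R K₁ K F
  haveI : IsIntegrallyClosed ↥(chartOne R F t) := isIntegrallyClosed_chartOne (K₁ := K₁) t hK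
  haveI : IsNoetherianRing ↥(chartOne R F t) := isNoetherianRing_chartOne (K₁ := K₁) t ht hK
  haveI : IsFractionRing ↥(chartOne R F t) F := isFractionRing_chartOne (K₁ := K₁) t hK
  have hg : τ f / f ≠ 0 := div_ne_zero ((map_ne_zero τ).2 hf) hf
  refine IsKummerOnChart.of_cong_chartOne (K₁ := K₁) t ht hK hπ.ne_zero hmod hne₁ hne₂ τ hτ ε c₀
    hε hc₀ hf ?_
  intro 𝔪 h𝔪 hπ𝔪 𝔮 h𝔮 hht hπ𝔮 hle
  haveI := h𝔪
  haveI := h𝔮
  exact isKummerAtPrime_of_place (K₁ := K₁) hπ 𝔪 hπ𝔪 𝔮 hht hπ𝔮 hle hg (fun P _ _ => hord P)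

/-- **GLUE-C: the inertia statement from the model data and the divisor of `τ f / f`.** -/
theorem kummer_inertia_pow_of_place
    (t : K) (ht : Transcendental K₁ t) (hK : IntermediateField.adjoin K₁ {t} = ⊤)
    (π : R) (hπ : Irreducible π) {m : ℕ} (hm : 0 < m) (hmR : IsUnit (m : R)) (ζ : R)
    (hζ : IsPrimitiveRoot ζ m)
    (hM4 : ∀ x : F, IsAlgebraic K₁ x → x ∈ Set.range (algebraMap K₁ F))
    (lc : Fˣ →* K₁ˣ) (hlc : ∀ c : K₁ˣ, lc (Units.map (algebraMap K₁ F).toMonoidHom c) = c)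
    {𝔭inf₁ 𝔭0₁ : Ideal ↥(chartOne R F t)} (hmod₁ : IsModelChart F π 𝔭inf₁ 𝔭0₁)
    (hne₁ : ¬ 𝔭0₁ ≤ 𝔭inf₁) (hne₁' : ¬ 𝔭inf₁ ≤ 𝔭0₁)
    {𝔭inf₂ 𝔭0₂ : Ideal ↥(chartOne R F t⁻¹)} (hmod₂ : IsModelChart F π 𝔭inf₂ 𝔭0₂)
    (hne₂ : ¬ 𝔭0₂ ≤ 𝔭inf₂) (hne₂' : ¬ 𝔭inf₂ ≤ 𝔭0₂)
    (σ τ : F →+* F)
    (hσ₁ : ∀ x ∈ chartOne R F t, ∃ z ∈ chartOne R F t, σ x = x + algebraMap R F π * z)
    (hσ₂ : ∀ x ∈ chartOne R F t⁻¹, ∃ z ∈ chartOne R F t⁻¹, σ x = x + algebraMap R F π * z)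
    (hτ₁ : ∀ x ∈ chartOne R F t, ∃ z ∈ chartOne R F t, τ x = x + algebraMap R F π * z)
    (hτ₂ : ∀ x ∈ chartOne R F t⁻¹, ∃ z ∈ chartOne R F t⁻¹, τ x = x + algebraMap R F π * z)
    (ε c₀ : Rˣ) (hε : τ (algebraMap R F π) = algebraMap R F ((ε : R) * π))
    (hc₀ : (ε : R) - (c₀ : R) ^ m ∈ Ideal.span {π}) (f : F) (hf : f ≠ 0)
    (hord : ∀ P : Place K₁ F, P.ord (τ f / f) = 0 ∨
      (IsRationalPlace P ∧ (m : ℤ) ∣ P.ord (τ f / f)))
    (hlc1 : ∀ u : Fˣ, (u : F) = σ (τ f / f) / (τ f / f) → lc u = 1) :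
    ∃ u : F, σ (τ f / f) / (τ f / f) = u ^ m := by
  have hg : τ f / f ≠ 0 := div_ne_zero ((map_ne_zero τ).2 hf) hf
  exact kummer_inertia_pow_of_model (K₁ := K₁) t ht hK π hπ hm hmR ζ hζ hM4 lc hlc hmod₁ hmod₂ σ
    hσ₁ hσ₂ (τ f / f) hg
    (IsKummerOnChart.of_place_chartOne (K₁ := K₁) t ht hK hπ hmod₁ hne₁ hne₁' τ hτ₁ ε c₀ hε hc₀ hf
      hord)
    (IsKummerOnChart.of_place_chartOne (K₁ := K₁) t⁻¹ (transcendental_inv_of_transcendental ht)
      (adjoin_inv_eq_top hK) hπ hmod₂ hne₂ hne₂' τ hτ₂ ε c₀ hε hc₀ hf hord)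
    hlc1

end GlueC

end Fermat.Agent.SS
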