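/-
(SS-q) / S35 [DEG0] — helper6 — **the uniform degree bound of the hosts over the `j`-line**:
`[legE K N : K(j)] ≤ 6 ψ(N)` and `[hesE K N : K(j)] ≤ 12 ψ(N)` for EVERY field `K ⊆ ℂ`
(`j = j(x²)` resp. `j(x³)`, `ψ = dedekindPsi`), independent of `K`.

* `finrank_adjoin_le_of_eq_div` : `[K₁(t) : K₁(j)] ≤ d` for `j = A(t)/B(t)` non-constant with
  `natDegree A ≤ d`, `natDegree B ≤ d` (inclusion algebra);
* `finrank_hostImage_full_eq` : `[F_{N,w} : K(j(x^w))] = ψ(N)` (transport of helper7's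
  `finrank_laurentBaseChange_full_eq` along `hostImageEquiv`);
* `finrank_legE_adjoin_j_le`, `finrank_hesE_adjoin_j_le` : the bounds `D₀leg N`, `D₀hes N`.
-/
import Mathlib
import Fermat.Agent.SS.DEG_helper2
import Fermat.Agent.SS.MODEL_helper7_Defs

set_option autoImplicit false
set_option linter.unusedSectionVars false
set_option linter.style.haveILetI false
set_option synthInstance.maxHeartbeats 200000

open HahnSeries ModularCurve Polynomial IntermediateField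
open Fermat.Agent.JA Fermat.Agent.X0N

namespace Fermat.Agent.SS

open scoped Fermat.Agent.JA.Host

section Rational

variable {K₁ H : Type*} [Field K₁] [Field H] [Algebra K₁ H]

/-- **`[K₁(t) : K₁(j)] ≤ d`** for `j = A(t) / B(t)` non-constant, `deg A, deg B ≤ d`
(inclusion algebra). -/
theorem finrank_adjoin_le_of_eq_div {t j : H} (A B : K₁[X]) (hB : aeval t B ≠ 0)
    (hj : j = aeval t A / aeval t B) (hjc : j ∉ Set.range (algebraMap K₁ H))
    [hle : Fact (K₁⟮j⟯ ≤ K₁⟮t⟯)] {d : ℕ} (hA : A.natDegree ≤ d) (hBd : B.natDegree ≤ d) :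
    Module.finrank ↥K₁⟮j⟯ ↥K₁⟮t⟯ ≤ d := by
  set g : ↥K₁⟮j⟯ := AdjoinSimple.gen K₁ j with hg
  set P : (↥K₁⟮j⟯)[X] := A.map (algebraMap K₁ ↥K₁⟮j⟯) - C g * B.map (algebraMap K₁ ↥K₁⟮j⟯) with hP
  -- `P ≠ 0`
  have hP0 : P ≠ 0 := by
    intro h0
    have hB0 : B ≠ 0 := by
      rintro rfl
      exact hB (by simp)
    obtain ⟨i, hi⟩ : ∃ i, B.coeff i ≠ 0 := by
      by_contra hcon
      simp only [not_exists, not_not] at hcon
      exact hB0 (Polynomial.ext (by simpa using hcon))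
    have hc := congrArg (fun Q : (↥K₁⟮j⟯)[X] => Q.coeff i) h0
    simp only [hP, Polynomial.coeff_sub, Polynomial.coeff_map, Polynomial.coeff_C_mul,
      Polynomial.coeff_zero] at hc
    have hc' : algebraMap K₁ H (A.coeff i) - j * algebraMap K₁ H (B.coeff i) = 0 := by
      have := congrArg (fun z : ↥K₁⟮j⟯ => (z : H)) hc
      simpa [hg] using this
    apply hjc
    refine ⟨A.coeff i / B.coeff i, ?_⟩
    have hbi : algebraMap K₁ H (B.coeff i) ≠ 0 := by
      rw [Ne, map_eq_zero]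
      exact hi
    rw [map_div₀]
    field_simp
    linear_combination hc'
  -- `P(t) = 0`
  have hPt : aeval t P = 0 := by
    have h1 : aeval t (A.map (algebraMap K₁ ↥K₁⟮j⟯)) = aeval t A := by
      rw [aeval_map_algebraMap]
    have h2 : aeval t (B.map (algebraMap K₁ ↥K₁⟮j⟯)) = aeval t B := by
      rw [aeval_map_algebraMap]
    rw [hP, map_sub, map_mul, aeval_C, h1, h2]
    show aeval t A - (g : H) * aeval t B = 0
    rw [hg, AdjoinSimple.coe_gen, hj, div_mul_cancel₀ _ hB, sub_self]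
  -- `deg P ≤ d`
  have hPd : P.natDegree ≤ d := by
    refine (natDegree_sub_le _ _).trans (max_le ?_ ?_)
    · exact natDegree_map_le.trans hA
    · exact (natDegree_C_mul_le _ _).trans (natDegree_map_le.trans hBd)
  have hint : IsIntegral ↥K₁⟮j⟯ t := IsAlgebraic.isIntegral ⟨P, hP0, hPt⟩
  have hmin : (minpoly ↥K₁⟮j⟯ t).natDegree ≤ d :=
    (natDegree_le_of_dvd (minpoly.dvd _ _ hPt) hP0).trans hPd
  -- the degree is the degree of the minimal polynomial
  have e1 : Module.finrank ↥K₁⟮j⟯ ↥K₁⟮t⟯ =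
      Module.finrank ↥K₁⟮j⟯ ↥(IntermediateField.extendScalars hle.out) :=
    (Host.extendScalarsLinearEquiv (A := K₁⟮j⟯) (B := K₁⟮t⟯)).finrank_eq
  have h1 : IntermediateField.extendScalars hle.out = (↥K₁⟮j⟯)⟮t⟯ := by
    apply IntermediateField.restrictScalars_injective K₁
    rw [IntermediateField.extendScalars_restrictScalars, IntermediateField.restrictScalars_adjoin,
      IntermediateField.adjoin_union, IntermediateField.adjoin_self]
    exact (sup_eq_right.mpr hle.out).symm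
  rw [e1, h1, IntermediateField.adjoin.finrank hint]
  exact hmin

end Rational

section Transport

variable {K₁ H : Type*} [Field K₁] [Field H] [Algebra K₁ H]

/-- the degree of `F / K₁(x)` transported along an isomorphism onto an intermediate field of a
host. -/
theorem finrank_of_algEquiv_intermediateField {F : Type*} [Field F] [Algebra K₁ F]
    (B : IntermediateField K₁ H) (e : F ≃ₐ[K₁] ↥B) (x : F) (y : H) (hy : ((e x : ↥B) : H) = y)
    [hle : Fact (K₁⟮y⟯ ≤ B)] :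
    Module.finrank ↥K₁⟮y⟯ ↥B = Module.finrank ↥K₁⟮x⟯ F := by
  let φ : F →ₐ[K₁] H := B.val.comp (e : F →ₐ[K₁] ↥B)
  have hφ : ∀ c : F, φ c = ((e c : ↥B) : H) := fun c => rfl
  have hmap : (K₁⟮x⟯).map φ = K₁⟮y⟯ := by
    rw [IntermediateField.adjoin_map, Set.image_singleton, hφ, hy]
  let e₁ : ↥K₁⟮x⟯ ≃ₐ[K₁] ↥K₁⟮y⟯ :=
    (IntermediateField.equivMap K₁⟮x⟯ φ).trans (IntermediateField.equivOfEq hmap)
  symm
  refine Algebra.finrank_eq_of_equiv_equiv (e₁ : ↥K₁⟮x⟯ ≃+* ↥K₁⟮y⟯) (e : F ≃+* ↥B) ?_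
  ext c
  rfl

end Transport

section Hosts

variable (K : Type*) [Field K] [Algebra ℚ K] [Algebra K ℂ] (N : ℕ) [NeZero N]

/-- **`[F_{N,w} : K(j(x^w))] = ψ(N)`** for every field `K ⊆ ℂ`. -/
theorem finrank_hostImage_full_eq (w : ℕ) [NeZero w]
    [Fact (K⟮jqNModC K w⟯ ≤ keyFw K N w)] :
    Module.finrank ↥K⟮jqNModC K w⟯ ↥(keyFw K N w) = dedekindPsi N := by
  rw [← (finrank_laurentBaseChange_full_eq K N).2]
  exact finrank_of_algEquiv_intermediateField _
    (hostImageEquiv K w (laurentBaseChange K (modularFunctionFieldFull N))) (jGen K N)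
    (jqNModC K w) (coe_hostImageEquiv_jGen N w)

/-- the uniform bound for the Legendre hosts. -/
def D₀leg (N : ℕ) : ℕ := 6 * dedekindPsi N

/-- the uniform bound for the Hesse hosts. -/
def D₀hes (N : ℕ) : ℕ := 12 * dedekindPsi N

theorem natDegree_legA_le : (Host.legA K).natDegree ≤ 6 := by
  unfold Host.legA
  compute_degree

theorem natDegree_legB_le : (Host.legB K).natDegree ≤ 6 := by
  unfold Host.legB
  compute_degree
  norm_num

theorem natDegree_hesA_le : (Host.hesA K).natDegree ≤ 12 := by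
  unfold Host.hesA
  compute_degree

theorem natDegree_hesB_le : (Host.hesB K).natDegree ≤ 12 := by
  unfold Host.hesB
  compute_degree
  norm_num

/-- **`[K(t) : K(j(x²))] ≤ 6`**, Legendre. -/
theorem finrank_adjoin_legT_le [Fact (K⟮jqNModC K 2⟯ ≤ K⟮legT K⟯)] :
    Module.finrank ↥K⟮jqNModC K 2⟯ ↥K⟮legT K⟯ ≤ 6 := by
  have hj : jqNModC K 2 = aeval (legT K) (Host.legA K) / aeval (legT K) (Host.legB K) := by
    rw [eq_div_iff (aeval_legT_legB_ne_zero K)]
    exact jqNModC_mul_aeval_legT K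
  exact finrank_adjoin_le_of_eq_div (Host.legA K) (Host.legB K) (aeval_legT_legB_ne_zero K) hj
    (Host.jqNModC_not_mem_range 2) (natDegree_legA_le K) (natDegree_legB_le K)

/-- **`[K(t) : K(j(x³))] ≤ 12`**, Hesse. -/
theorem finrank_adjoin_hesT_le [Fact (K⟮jqNModC K 3⟯ ≤ K⟮hesT K⟯)] :
    Module.finrank ↥K⟮jqNModC K 3⟯ ↥K⟮hesT K⟯ ≤ 12 := by
  have hj : jqNModC K 3 = aeval (hesT K) (Host.hesA K) / aeval (hesT K) (Host.hesB K) := by
    rw [eq_div_iff (aeval_hesT_hesB_ne_zero K)]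
    exact jqNModC_mul_aeval_hesT K
  exact finrank_adjoin_le_of_eq_div (Host.hesA K) (Host.hesB K) (aeval_hesT_hesB_ne_zero K) hj
    (Host.jqNModC_not_mem_range 3) (natDegree_hesA_le K) (natDegree_hesB_le K)

/-- **the uniform degree bound, Legendre**: `[legE K N : K(j(x²))] ≤ 6 ψ(N)` for every field
`K ⊆ ℂ`. -/
theorem finrank_legE_adjoin_j_le :
    Module.finrank ↥K⟮jqNModC K 2⟯ ↥(legE K N) ≤ D₀leg N := by
  haveI : Fact (K⟮jqNModC K 2⟯ ≤ keyFw K N 2) := ⟨adjoin_jqNModC_le_hostImage N 2⟩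
  haveI : Fact (K⟮jqNModC K 2⟯ ≤ K⟮legT K⟯) := ⟨adjoin_jqNModC_le_adjoin_legT K⟩
  haveI : Fact (keyFw K N 2 ≤ legE K N) := ⟨keyFw_le_legE K N⟩
  haveI : Module.Finite ↥K⟮jqNModC K 2⟯ ↥(keyFw K N 2) := finite_hostImage_full N 2
  have h1 : Module.finrank ↥(keyFw K N 2) ↥(legE K N) ≤
      Module.finrank ↥K⟮jqNModC K 2⟯ ↥K⟮legT K⟯ :=
    deg2_finrank_sup_le (A := K⟮jqNModC K 2⟯) (B := keyFw K N 2) (C := K⟮legT K⟯)
      (D := legE K N) ((legE_eq_sup N).trans (sup_comm _ _))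
  have h2 : Module.finrank ↥K⟮jqNModC K 2⟯ ↥(keyFw K N 2) *
      Module.finrank ↥(keyFw K N 2) ↥(legE K N) = Module.finrank ↥K⟮jqNModC K 2⟯ ↥(legE K N) :=
    Module.finrank_mul_finrank ↥K⟮jqNModC K 2⟯ ↥(keyFw K N 2) ↥(legE K N)
  rw [← h2, finrank_hostImage_full_eq K N 2, D₀leg, mul_comm]
  exact Nat.mul_le_mul_right _ (h1.trans (finrank_adjoin_legT_le K))

/-- **the uniform degree bound, Hesse**: `[hesE K N : K(j(x³))] ≤ 12 ψ(N)` for every field
`K ⊆ ℂ`. -/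
theorem finrank_hesE_adjoin_j_le :
    Module.finrank ↥K⟮jqNModC K 3⟯ ↥(hesE K N) ≤ D₀hes N := by
  haveI : Fact (K⟮jqNModC K 3⟯ ≤ keyFw K N 3) := ⟨adjoin_jqNModC_le_hostImage N 3⟩
  haveI : Fact (K⟮jqNModC K 3⟯ ≤ K⟮hesT K⟯) := ⟨adjoin_jqNModC_le_adjoin_hesT K⟩
  haveI : Fact (keyFw K N 3 ≤ hesE K N) := ⟨keyFw_le_hesE K N⟩
  haveI : Module.Finite ↥K⟮jqNModC K 3⟯ ↥(keyFw K N 3) := finite_hostImage_full N 3
  have h1 : Module.finrank ↥(keyFw K N 3) ↥(hesE K N) ≤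
      Module.finrank ↥K⟮jqNModC K 3⟯ ↥K⟮hesT K⟯ :=
    deg2_finrank_sup_le (A := K⟮jqNModC K 3⟯) (B := keyFw K N 3) (C := K⟮hesT K⟯)
      (D := hesE K N) ((hesE_eq_sup N).trans (sup_comm _ _))
  have h2 : Module.finrank ↥K⟮jqNModC K 3⟯ ↥(keyFw K N 3) *
      Module.finrank ↥(keyFw K N 3) ↥(hesE K N) = Module.finrank ↥K⟮jqNModC K 3⟯ ↥(hesE K N) :=
    Module.finrank_mul_finrank ↥K⟮jqNModC K 3⟯ ↥(keyFw K N 3) ↥(hesE K N)
  rw [← h2, finrank_hostImage_full_eq K N 3, D₀hes, mul_comm]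
  exact Nat.mul_le_mul_right _ (h1.trans (finrank_adjoin_hesT_le K))

end Hosts

end Fermat.Agent.SS
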