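/-
(SS-q) — helper1 — **BASE, final assembly**: lead's base statements `LegKummerBase` /
`HesKummerBase` (`TOPB_lead_Iface`) from helper7's concrete model statements `SSModelLeg` /
`SSModelHes` at every Galois base (the ONLY remaining input): MODEL-EXPORT (helper4's
`SSModel.isModelChart_two`, fed with `hjint` on the hosts) is discharged here.
-/
import Mathlib
import Fermat.Agent.SS.BASE_helper1_Hes
import Fermat.Agent.SS.EXPORT_helper4_Two

set_option autoImplicit false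
set_option linter.unusedSectionVars false
set_option linter.style.haveILetI false

open HahnSeries IntermediateField AlgebraicCurve ModularCurve Fermat.Agent.Igusa

namespace Fermat.Agent.SS

open Fermat.Agent.JA Fermat.Agent.FF

open scoped Fermat.Agent.JA.Host

/-- `Ω = AlgebraicClosure ℚ`. -/
local notation "Ω" => AlgebraicClosure ℚ

/-- the absolute Galois group. -/
local notation "GQ" => (AlgebraicClosure ℚ ≃ₐ[ℚ] AlgebraicClosure ℚ)

section Leg

variable {M q : ℕ} [NeZero M] [NeZero q] [NeZero (M * q)] {A : ValuationSubring Ω}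
  {K₁ : IntermediateField ℚ Ω} [Normal ℚ ↥K₁] [instC : Algebra ↥K₁ ℂ]

set_option maxHeartbeats 1600000 in
/-- **BASE on the Legendre hosts, from the model statement alone.** -/
theorem legKummer_of_ssModelLeg' (hq : q.Prime) (hq2 : q ≠ 2) (hA : A.LiesOverPrime q)
    (hK₁ : IsGalBase q K₁)
    [IsDiscreteValuationRing ↥(baseRing A K₁)] [CharZero ↥(baseRing A K₁)]
    [DecidableEq ↥(baseRing A K₁)]
    {ϖ : ↥(baseRing A K₁)} (hϖ : Irreducible ϖ) (h2 : IsUnit (2 : ↥(baseRing A K₁)))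
    {x y : ℤ} (hbez : (q : ℤ) * x + M * y = 1)
    (h : SSModelLeg ↥(baseRing A K₁) ↥K₁ ϖ h2 hbez hq hq2)
    {σ : GQ} (hσ : σ ∈ A.inertiaSubgroupIn ℚ) {m : ℕ} (hm : 0 < m) (hqm : ¬ q ∣ m)
    (f : ↥(legE ↥K₁ (M * q))) (hf : f ≠ 0)
    (hlead : ((f : ↥(legE ↥K₁ (M * q))) : LaurentSeries ↥K₁).leadingCoeff = 1)
    (hord : ∀ P : Place ↥K₁ ↥(legE ↥K₁ (M * q)),
      P.ord (legGalois ↥K₁ (M * q) (resGal K₁ σ) • f / f) = 0 ∨
        (IsRationalPlace P ∧
          (m : ℤ) ∣ P.ord (legGalois ↥K₁ (M * q) (resGal K₁ σ) • f / f))) :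
    ∃ u : ↥(legE ↥K₁ (M * q)),
      legGalois ↥K₁ (M * q) (resGal K₁ σ) • (legGalois ↥K₁ (M * q) (resGal K₁ σ) • f / f) /
        (legGalois ↥K₁ (M * q) (resGal K₁ σ) • f / f) = u ^ m := by
  haveI : Fact q.Prime := ⟨hq⟩
  haveI := hK₁.isBase.isAlgClosed_residueField hA
  haveI : FiniteDimensional ↥(↥K₁)⟮jqNModC ↥K₁ 2⟯ ↥(legE ↥K₁ (M * q)) :=
    finite_legE_adjoin_j ↥K₁ (M * q)
  have h' := SSModelLeg.ssModel ↥(baseRing A K₁) ↥K₁ h
  have hjint := SSModelLeg.jint ↥(baseRing A K₁) ↥K₁ hϖ h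
  exact legKummer_of_ssModelLeg hq hq2 hA hK₁ hϖ h2 hbez h
    (fun h2' => h'.isModelChart_two hϖ hjint h2') hσ hm hqm f hf hlead hord

end Leg

section Hes

variable {M : ℕ} [NeZero M] [NeZero (M * 2)] {A : ValuationSubring Ω}
  {K₁ : IntermediateField ℚ Ω} [Normal ℚ ↥K₁] [instC : Algebra ↥K₁ ℂ]

set_option maxHeartbeats 1600000 in
/-- **BASE on the Hesse hosts, from the model statement alone.** -/
theorem hesKummer_of_ssModelHes' (hA : A.LiesOverPrime 2) (hK₁ : IsGalBase 2 K₁)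
    [IsDiscreteValuationRing ↥(baseRing A K₁)] [CharZero ↥(baseRing A K₁)]
    [DecidableEq ↥(baseRing A K₁)]
    {ϖ : ↥(baseRing A K₁)} (hϖ : Irreducible ϖ) (h3 : IsUnit (3 : ↥(baseRing A K₁)))
    (ω : ↥(baseRing A K₁)) {x y : ℤ} (hbez : ((2 : ℕ) : ℤ) * x + M * y = 1)
    (h : SSModelHes ↥(baseRing A K₁) ↥K₁ ϖ h3 ω hbez)
    {σ : GQ} (hσ : σ ∈ A.inertiaSubgroupIn ℚ) {m : ℕ} (hm : 0 < m) (hqm : ¬ 2 ∣ m)
    (f : ↥(hesE ↥K₁ (M * 2))) (hf : f ≠ 0)
    (hlead : ((f : ↥(hesE ↥K₁ (M * 2))) : LaurentSeries ↥K₁).leadingCoeff = 1)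
    (hord : ∀ P : Place ↥K₁ ↥(hesE ↥K₁ (M * 2)),
      P.ord (hesGalois ↥K₁ (M * 2) (resGal K₁ σ) • f / f) = 0 ∨
        (IsRationalPlace P ∧
          (m : ℤ) ∣ P.ord (hesGalois ↥K₁ (M * 2) (resGal K₁ σ) • f / f))) :
    ∃ u : ↥(hesE ↥K₁ (M * 2)),
      hesGalois ↥K₁ (M * 2) (resGal K₁ σ) • (hesGalois ↥K₁ (M * 2) (resGal K₁ σ) • f / f) /
        (hesGalois ↥K₁ (M * 2) (resGal K₁ σ) • f / f) = u ^ m := by
  haveI := hK₁.isBase.isAlgClosed_residueField hA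
  haveI : FiniteDimensional ↥(↥K₁)⟮jqNModC ↥K₁ 3⟯ ↥(hesE ↥K₁ (M * 2)) :=
    finite_hesE_adjoin_j ↥K₁ (M * 2)
  have h' := SSModelHes.ssModel ↥(baseRing A K₁) ↥K₁ h
  have hjint := SSModelHes.jint ↥(baseRing A K₁) ↥K₁ hϖ h
  exact hesKummer_of_ssModelHes hA hK₁ hϖ h3 ω hbez h
    (fun h2' => h'.isModelChart_two hϖ hjint h2') hσ hm hqm f hf hlead hord

end Hes

/-- **the model statement at every Galois base, Legendre** (what the concrete side delivers). -/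
def LegModelAtBases : Prop :=
  ∀ (M q : ℕ) [NeZero M] [NeZero q] [NeZero (M * q)] (hq : q.Prime) (hq2 : q ≠ 2), ¬ q ∣ M →
    ∀ (A : ValuationSubring Ω), A.LiesOverPrime q →
    ∀ (K₁ : IntermediateField ℚ Ω) [Normal ℚ ↥K₁], IsGalBase q K₁ →
    ∀ [IsDiscreteValuationRing ↥(baseRing A K₁)] [CharZero ↥(baseRing A K₁)]
      [DecidableEq ↥(baseRing A K₁)] (ϖ : ↥(baseRing A K₁)), Irreducible ϖ →
    ∀ (h2 : IsUnit (2 : ↥(baseRing A K₁))) (x y : ℤ) (hbez : (q : ℤ) * x + M * y = 1),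
      letI := baseToComplex K₁
      SSModelLeg ↥(baseRing A K₁) ↥K₁ ϖ h2 hbez hq hq2

/-- **the model statement at every Galois base, Hesse** (what the concrete side delivers). -/
def HesModelAtBases : Prop :=
  ∀ (M : ℕ) [NeZero M] [NeZero (M * 2)], ¬ 2 ∣ M →
    ∀ (A : ValuationSubring Ω), A.LiesOverPrime 2 →
    ∀ (K₁ : IntermediateField ℚ Ω) [Normal ℚ ↥K₁], IsGalBase 2 K₁ →
    ∀ [IsDiscreteValuationRing ↥(baseRing A K₁)] [CharZero ↥(baseRing A K₁)]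
      [DecidableEq ↥(baseRing A K₁)] (ϖ : ↥(baseRing A K₁)), Irreducible ϖ →
    ∀ (h3 : IsUnit (3 : ↥(baseRing A K₁))) (x y : ℤ) (hbez : ((2 : ℕ) : ℤ) * x + M * y = 1),
      letI := baseToComplex K₁
      ∃ ω : ↥(baseRing A K₁), SSModelHes ↥(baseRing A K₁) ↥K₁ ϖ h3 ω hbez

set_option maxHeartbeats 1600000 in
/-- **`LegKummerBase` from the concrete model.** -/
theorem legKummerBase_of_models (Hmodel : LegModelAtBases) : LegKummerBase := by
  refine legKummerBase_of_mul ?_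
  intro M q _ _ _ hq hq2 hqM A hA K₁ _ hK₁ σ hσ m hm hqm f hf hlead hord
  classical
  haveI : Fact q.Prime := ⟨hq⟩
  haveI : IsDiscreteValuationRing ↥(baseRing A K₁) := hK₁.isBase.isDiscreteValuationRing hA
  haveI : CharZero ↥(baseRing A K₁) := charZero_valuationSubring_of_algebraRat _
  obtain ⟨ϖ, hϖ⟩ := IsDiscreteValuationRing.exists_irreducible ↥(baseRing A K₁)
  have h2 : IsUnit (2 : ↥(baseRing A K₁)) := isUnit_ofNat_baseRing hA K₁ Nat.prime_two hq2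
  obtain ⟨x, y, hbez⟩ := exists_bezout_of_prime_of_not_dvd hq hqM
  exact legKummer_of_ssModelLeg' (instC := baseToComplex K₁) hq hq2 hA hK₁ hϖ h2 hbez
    (Hmodel M q hq hq2 hqM A hA K₁ hK₁ ϖ hϖ h2 x y hbez) hσ hm hqm f hf hlead hord

set_option maxHeartbeats 1600000 in
/-- **`HesKummerBase` from the concrete model.** -/
theorem hesKummerBase_of_models (Hmodel : HesModelAtBases) : HesKummerBase := by
  refine hesKummerBase_of_mul ?_
  intro M _ _ hqM A hA K₁ _ hK₁ σ hσ m hm hqm f hf hlead hord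
  classical
  haveI : IsDiscreteValuationRing ↥(baseRing A K₁) := hK₁.isBase.isDiscreteValuationRing hA
  haveI : CharZero ↥(baseRing A K₁) := charZero_valuationSubring_of_algebraRat _
  obtain ⟨ϖ, hϖ⟩ := IsDiscreteValuationRing.exists_irreducible ↥(baseRing A K₁)
  have h3 : IsUnit (3 : ↥(baseRing A K₁)) :=
    isUnit_ofNat_baseRing hA K₁ Nat.prime_three (by norm_num)
  obtain ⟨x, y, hbez⟩ := exists_bezout_of_prime_of_not_dvd Nat.prime_two hqM
  obtain ⟨ω, hmodel⟩ := Hmodel M hqM A hA K₁ hK₁ ϖ hϖ h3 x y hbez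
  exact hesKummer_of_ssModelHes' (instC := baseToComplex K₁) hA hK₁ hϖ h3 ω hbez hmodel
    hσ hm hqm f hf hlead hord

end Fermat.Agent.SS
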