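/-
(SS-q) MODEL-GLOBAL — helper7 — **the concrete models at every Galois base**: helper1's
`LegModelAtBases` / `HesModelAtBases` (`SS/BASE_helper1_Main`) from `ssModelLeg` / `ssModelHes`
and good reduction at level `M` at the base (`geoHyps_legE_baseRing` / `geoHyps_hesE_baseRing`);
hence lead's `LegKummerBase` / `HesKummerBase`.
-/
import Mathlib
import Fermat.Agent.SS.MODEL_helper7_Hes
import Fermat.Agent.SS.BASE_helper1_Main

set_option autoImplicit false
set_option linter.unusedSectionVars false
set_option linter.style.haveILetI false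

open HahnSeries IntermediateField AlgebraicCurve ModularCurve Fermat.Agent.Igusa

namespace Fermat.Agent.SS

open Fermat.Agent.JA Fermat.Agent.FF

open scoped Fermat.Agent.JA.Host

/-- `Ω = AlgebraicClosure ℚ`. -/
local notation "Ω" => AlgebraicClosure ℚ

/-- the residue characteristic lies in the ideal of a uniformizer of the base ring. -/
theorem natCast_mem_span_uniformizer_baseRing {q : ℕ} [Fact q.Prime] {A : ValuationSubring Ω}
    (hA : A.LiesOverPrime q) (K₁ : IntermediateField ℚ Ω)
    [IsDiscreteValuationRing ↥(baseRing A K₁)] {ϖ : ↥(baseRing A K₁)} (hϖ : Irreducible ϖ) :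
    ((q : ℕ) : ↥(baseRing A K₁)) ∈ Ideal.span {ϖ} := by
  rw [← (IsDiscreteValuationRing.irreducible_iff_uniformizer ϖ).1 hϖ]
  exact natCast_prime_mem_maximalIdeal hA K₁

set_option maxHeartbeats 1600000 in
/-- **the Legendre model at every Galois base.** -/
theorem legModelAtBases : LegModelAtBases := by
  intro M q _ _ _ hq hq2 hqM A hA K₁ _ hK₁ _ _ _ ϖ hϖ h2 x y hbez
  haveI : Fact q.Prime := ⟨hq⟩
  letI := baseToComplex K₁
  exact ssModelLeg ↥(baseRing A K₁) ↥K₁ hϖ h2 hbez hq hq2
    (natCast_mem_span_uniformizer_baseRing hA K₁ hϖ)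
    (geoHyps_legE_baseRing hA M hqM hK₁.isBase hq2 hϖ)

set_option maxHeartbeats 1600000 in
/-- **the Hesse model at every Galois base.** -/
theorem hesModelAtBases : HesModelAtBases := by
  intro M _ _ hqM A hA K₁ _ hK₁ _ _ _ ϖ hϖ h3 x y hbez
  haveI : Fact (2 : ℕ).Prime := ⟨Nat.prime_two⟩
  letI := baseToComplex K₁
  obtain ⟨ω, hω, hgeo⟩ := geoHyps_hesE_baseRing hA M hqM hK₁.isBase (by norm_num) hϖ
  exact ⟨ω, ssModelHes ↥(baseRing A K₁) ↥K₁ hϖ h3 ω hω hbez
    (natCast_mem_span_uniformizer_baseRing hA K₁ hϖ) hgeo⟩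

/-- **`LegKummerBase`** (lead's TOP-B input, Legendre). -/
theorem legKummerBase : LegKummerBase := legKummerBase_of_models legModelAtBases

/-- **`HesKummerBase`** (lead's TOP-B input, Hesse). -/
theorem hesKummerBase : HesKummerBase := hesKummerBase_of_models hesModelAtBases

end Fermat.Agent.SS
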