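/-
(SS-q) — lead — **TOP-A, assembled**: the Kummer statement `KummerSS` (about single functions on
`X₀(N)` over `Ω`) implies the weak (SS) statement `SSWStatement`, hence the S34 statement.
-/
import Fermat.Agent.SS.TOPA_lead
import Fermat.Agent.GR.UNIPW2_lead

set_option autoImplicit false
set_option linter.unusedSectionVars false
set_option linter.unusedVariables false
set_option linter.style.haveILetI false

open AlgebraicCurve ModularCurve

namespace Fermat.Agent.SS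

local notation "Ω" => AlgebraicClosure ℚ
local notation "GQ" => (AlgebraicClosure ℚ ≃ₐ[ℚ] AlgebraicClosure ℚ)

/-- **(SS-q), Kummer form, all levels**: for `q ∥ N`, `q ≠ p` there is an exponent `c ≠ 0` (the
degree of the host) with `KummerAt N p c σ` for every `σ` in an inertia group at `q`. -/
def KummerSS : Prop :=
  ∀ (N : ℕ) [NeZero N] (p q : ℕ), p.Prime → q.Prime → q ≠ p → q ∣ N → ¬ q ^ 2 ∣ N →
    ∃ c : ℕ, c ≠ 0 ∧
      ∀ A : ValuationSubring Ω, A.LiesOverPrime q → ∀ σ ∈ A.inertiaSubgroupIn ℚ, KummerAt N p c σ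

theorem ssWStatement_of_kummerSS (h : KummerSS) : Fermat.Agent.GR.SSWStatement := by
  intro N _ p q hp hq hqp hqN hq2
  obtain ⟨c, hc, hH⟩ := h N p q hp hq hqp hqN hq2
  refine ⟨c, hc, ?_⟩
  intro A hA σ hσ x hx
  exact jzero_secondDiff_eq_zero_of_kummerAt hp.ne_zero (hH A hA σ hσ) x hx

section S34

variable {p : ℕ} {N : ℕ} [NeZero N] {S : Finset ℕ}
  {𝒪 : Type} [CommRing 𝒪] [IsDomain 𝒪] [IsDiscreteValuationRing 𝒪]
  [IsAdicComplete (IsLocalRing.maximalIdeal 𝒪) 𝒪]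
  {θ : CuspForm.heckeAlgebra N 2 (↑S : Set ℕ) →+* IsLocalRing.ResidueField 𝒪}
  {T : Type} [CommRing T] [IsLocalRing T] [IsNoetherianRing T]
  [IsAdicComplete (IsLocalRing.maximalIdeal T) T] [Algebra 𝒪 T] [IsLocalHom (algebraMap 𝒪 T)]
  [Module.Finite 𝒪 T] [Module.Free 𝒪 T]

/-- **the S34 statement from the Kummer form of (SS-q).** -/
theorem s34_of_kummerSS (h : KummerSS) (hp : p.Prime)
    (hp𝒪 : (p : 𝒪) ∈ IsLocalRing.maximalIdeal 𝒪) (hpS : p ∈ S)
    (hNS : ∀ q : ℕ, q.Prime → q ∣ N → q ∈ S)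
    (H : CuspForm.HeckeGaloisRepDatum N (↑S : Set ℕ) 𝒪 θ T)
    (q : ℕ) (hq : q.Prime) (hqp : q ≠ p) (hqN : q ∣ N) (hq2 : ¬ q ^ 2 ∣ N) :
    H.ρ.IsUnipotentOnInertiaAt q :=
  Fermat.Agent.GR.s34_of_SSW (ssWStatement_of_kummerSS h) hp hp𝒪 hpS hNS H q hq hqp hqN hq2

end S34

end Fermat.Agent.SS
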