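/-
(SS-q) — lead — **TOP-B**: the Kummer statement `KummerSS` over `Ω` from the two base statements
`LegKummerBase` (`q ≠ 2`, Legendre host) and `HesKummerBase` (`q = 2`, Hesse host).
-/
import Mathlib
import Fermat.Agent.SS.TOPA2_lead
import Fermat.Agent.SS.TOPB_lead_Leg
import Fermat.Agent.SS.TOPB_lead_Hes

set_option autoImplicit false
set_option linter.unusedSectionVars false
set_option linter.unusedVariables false

open AlgebraicCurve ModularCurve

namespace Fermat.Agent.SS

open Fermat.Agent.JA

/-- **TOP-B.** -/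
theorem kummerSS_of_base (hL : LegKummerBase) (hH : HesKummerBase) : KummerSS := by
  intro N _ p q hp hq hqp hqN hqq
  by_cases hq2 : q = 2
  · subst hq2
    exact ⟨hesDeg N, hesDeg_ne_zero N, fun A hA σ hσ => kummerAt_hes N hH hp hqp hqN hqq hA hσ⟩
  · exact ⟨legDeg N, legDeg_ne_zero N, fun A hA σ hσ =>
      kummerAt_leg N hL hp hq hqp hq2 hqN hqq hA hσ⟩

end Fermat.Agent.SS
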