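/-
(SS-q) MODEL-GLOBAL leaf [CC] chart comparison at level `M` — helper9 — part 1: **abstract
commutative algebra** (no charts).

* `cc_span_isPrime_of_away`, `cc_isDedekindDomain_of_away` : `(ϖ)` prime and `B ⧸ (ϖ)` Dedekind pass
  to `B[1/g]` when `g ∉ (ϖ)`;
* `cc_isDiscreteValuationRing_atPrime` : a domain is a DVR at every nonzero prime surviving in a
  Dedekind localisation;
* `cc_span_isPrime_of_cover`, `cc_isDedekindDomain_of_cover` : gluing of both properties over a
  cover `(f₁, f₂) = (1)` by two localisations `C[1/f₁]`, `C[1/f₂]`;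
* `IsBranchUniformizer.map_away`, `IsBranchUniformizer.comap_away`,
  `cc_exists_isBranchUniformizer_comap_away` : branch uniformizers (helper5's
  `IsBranchUniformizer`) pass through `B → B[1/g]` in both directions.
-/
import Mathlib
import Fermat.Agent.SS.MODLOC_helper5_Core

set_option autoImplicit false
set_option linter.unusedSectionVars false
set_option linter.style.haveILetI false

namespace Fermat.Agent.SS

section LocDed

variable {B T : Type*} [CommRing B] [CommRing T] [Algebra B T]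

theorem cc_map_span_singleton (ϖ : B) :
    (Ideal.span {ϖ}).map (algebraMap B T) = Ideal.span {algebraMap B T ϖ} := by
  rw [Ideal.map_span, Set.image_singleton]

theorem cc_disjoint_powers (g : B) {I : Ideal B} (hp : I.IsPrime) (hg : g ∉ I) :
    Disjoint (Submonoid.powers g : Set B) (I : Set B) := by
  rw [Set.disjoint_left]
  rintro x ⟨k, rfl⟩ hx
  exact hg (hp.mem_of_pow_mem k hx)

/-- `(ϖ)` stays prime in `B[1/g]` when `g ∉ (ϖ)`. -/
theorem cc_span_isPrime_of_away (g : B) [IsLocalization.Away g T] {ϖ : B}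
    (hp : (Ideal.span {ϖ}).IsPrime) (hg : g ∉ Ideal.span {ϖ}) :
    (Ideal.span {algebraMap B T ϖ}).IsPrime := by
  rw [← cc_map_span_singleton]
  exact IsLocalization.isPrime_of_isPrime_disjoint (Submonoid.powers g) T _ hp
    (cc_disjoint_powers g hp hg)

/-- `B[1/g] ⧸ (ϖ)` is a Dedekind domain when `B ⧸ (ϖ)` is and `g ∉ (ϖ)`. -/
theorem cc_isDedekindDomain_of_away (g : B) [IsLocalization.Away g T] {ϖ : B}
    (hp : (Ideal.span {ϖ}).IsPrime) (hg : g ∉ Ideal.span {ϖ})
    [IsDedekindDomain (B ⧸ Ideal.span {ϖ})] :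
    IsDedekindDomain (T ⧸ Ideal.span {algebraMap B T ϖ}) := by
  have hpT := cc_span_isPrime_of_away (T := T) g hp hg
  rw [← cc_map_span_singleton] at hpT ⊢
  haveI := hpT
  haveI : IsLocalization (Submonoid.powers g) T := ‹IsLocalization.Away g T›
  refine IsLocalization.isDedekindDomain (B ⧸ Ideal.span {ϖ})
    (M := Algebra.algebraMapSubmonoid (B ⧸ Ideal.span {ϖ}) (Submonoid.powers g)) ?_
    (T ⧸ (Ideal.span {ϖ}).map (algebraMap B T))
  rintro x ⟨y, ⟨k, rfl⟩, rfl⟩
  apply mem_nonZeroDivisors_of_ne_zero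
  intro h0
  have : g ^ k ∈ Ideal.span {ϖ} := by
    rw [← Ideal.Quotient.eq_zero_iff_mem]; exact h0
  exact hg (hp.mem_of_pow_mem k this)

end LocDed

section DvrAt

variable {D D' : Type*} [CommRing D] [IsDomain D] [CommRing D'] [Algebra D D']

/-- if `D'` is a localisation of the domain `D` and a Dedekind domain, then `D` is a discrete
valuation ring at every nonzero prime which survives in `D'`. -/
theorem cc_isDiscreteValuationRing_atPrime (M : Submonoid D) [IsLocalization M D']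
    [IsDedekindDomain D'] (P : Ideal D) [hP : P.IsPrime] (hP0 : P ≠ ⊥)
    (hd : Disjoint (M : Set D) (P : Set D)) :
    IsDiscreteValuationRing (Localization.AtPrime P) := by
  have hM : M ≤ nonZeroDivisors D := by
    intro x hx
    apply mem_nonZeroDivisors_of_ne_zero
    rintro rfl
    exact Set.disjoint_left.mp hd hx P.zero_mem
  have hinj : Function.Injective (algebraMap D D') := IsLocalization.injective D' hM
  set P' : Ideal D' := P.map (algebraMap D D') with hP'
  haveI hP'prime : P'.IsPrime := IsLocalization.isPrime_of_isPrime_disjoint M D' P hP hd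
  have hcomap : P'.comap (algebraMap D D') = P :=
    IsLocalization.under_map_of_isPrime_disjoint M D' hP hd
  have hP'0 : P' ≠ ⊥ := by
    intro h
    apply hP0
    rw [← hcomap, h]
    rw [← RingHom.ker_eq_comap_bot]
    exact (RingHom.injective_iff_ker_eq_bot _).mp hinj
  let L := Localization.AtPrime P'
  haveI : IsDiscreteValuationRing L :=
    IsLocalization.AtPrime.isDiscreteValuationRing_of_dedekind_domain D' hP'0 L
  haveI : IsScalarTower D D' L := inferInstance
  have hloc : IsLocalization.AtPrime L (P'.comap (algebraMap D D')) :=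
    IsLocalization.isLocalization_isLocalization_atPrime_isLocalization M L P'
  have hloc' : IsLocalization P.primeCompl L := by
    have : (P'.comap (algebraMap D D')).primeCompl = P.primeCompl := by
      ext x
      simp only [Ideal.mem_primeCompl_iff]
      rw [hcomap]
    rw [← this]
    exact hloc
  let e : Localization.AtPrime P ≃ₐ[D] L :=
    IsLocalization.algEquiv P.primeCompl (Localization.AtPrime P) L
  exact IsDiscreteValuationRing.RingEquivClass.isDiscreteValuationRing e.symm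

end DvrAt

section Cover

variable {C T₁ T₂ : Type*} [CommRing C] [CommRing T₁] [CommRing T₂] [Algebra C T₁] [Algebra C T₂]

/-- `f₁ ^ k * x ∈ I`, `f₂ ^ l * x ∈ I` and `(f₁, f₂) = 1` give `x ∈ I`. -/
theorem cc_mem_of_pow_mul_mem {f₁ f₂ : C} (hcov : Ideal.span {f₁, f₂} = ⊤) (I : Ideal C) {x : C}
    {k l : ℕ} (h₁ : f₁ ^ k * x ∈ I) (h₂ : f₂ ^ l * x ∈ I) : x ∈ I := by
  have h := Ideal.span_pow_eq_top {f₁, f₂} hcov (k + l)
  rw [Set.image_pair, Ideal.eq_top_iff_one, Ideal.mem_span_pair] at h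
  obtain ⟨a, b, hab⟩ := h
  have hx : x = a * f₁ ^ l * (f₁ ^ k * x) + b * f₂ ^ k * (f₂ ^ l * x) := by
    have : x = (a * f₁ ^ (k + l) + b * f₂ ^ (k + l)) * x := by rw [hab, one_mul]
    rw [pow_add, pow_add] at this
    linear_combination this
  rw [hx]
  exact I.add_mem (I.mul_mem_left _ h₁) (I.mul_mem_left _ h₂)

/-- `(ϖ)` is the contraction of `(ϖ) T₁`. -/
theorem cc_span_eq_comap_of_cover (f₁ f₂ : C) [IsLocalization.Away f₁ T₁]
    [IsLocalization.Away f₂ T₂] (hcov : Ideal.span {f₁, f₂} = ⊤) {ϖ : C}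
    (hp₂ : (Ideal.span {algebraMap C T₂ ϖ}).IsPrime)
    (h₂₁ : algebraMap C T₂ f₁ ∉ Ideal.span {algebraMap C T₂ ϖ}) :
    Ideal.span {ϖ} = (Ideal.span {algebraMap C T₁ ϖ}).comap (algebraMap C T₁) := by
  apply le_antisymm
  · rw [← cc_map_span_singleton]
    exact Ideal.le_comap_map
  · intro x hx
    rw [Ideal.mem_comap, ← cc_map_span_singleton,
      IsLocalization.algebraMap_mem_map_algebraMap_iff (Submonoid.powers f₁)] at hx
    obtain ⟨m, ⟨k, rfl⟩, hk⟩ := hx
    have h2 : algebraMap C T₂ x ∈ Ideal.span {algebraMap C T₂ ϖ} := by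
      have : algebraMap C T₂ (f₁ ^ k * x) ∈ Ideal.span {algebraMap C T₂ ϖ} := by
        rw [← cc_map_span_singleton]
        exact Ideal.mem_map_of_mem _ hk
      rw [map_mul, map_pow] at this
      rcases hp₂.mem_or_mem this with h | h
      · exact absurd (hp₂.mem_of_pow_mem k h) h₂₁
      · exact h
    rw [← cc_map_span_singleton,
      IsLocalization.algebraMap_mem_map_algebraMap_iff (Submonoid.powers f₂)] at h2
    obtain ⟨m, ⟨l, rfl⟩, hl⟩ := h2
    exact cc_mem_of_pow_mul_mem hcov _ hk hl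

/-- **gluing primality** over a two-element cover. -/
theorem cc_span_isPrime_of_cover (f₁ f₂ : C) [IsLocalization.Away f₁ T₁]
    [IsLocalization.Away f₂ T₂] (hcov : Ideal.span {f₁, f₂} = ⊤) {ϖ : C}
    (hp₁ : (Ideal.span {algebraMap C T₁ ϖ}).IsPrime)
    (hp₂ : (Ideal.span {algebraMap C T₂ ϖ}).IsPrime)
    (h₂₁ : algebraMap C T₂ f₁ ∉ Ideal.span {algebraMap C T₂ ϖ}) :
    (Ideal.span {ϖ}).IsPrime := by
  rw [cc_span_eq_comap_of_cover (T₁ := T₁) (T₂ := T₂) f₁ f₂ hcov hp₂ h₂₁]
  exact Ideal.comap_isPrime _ _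

/-- one half of the gluing: the local ring of `C ⧸ (ϖ)` at a prime not containing `f` is a
discrete valuation ring when `C[1/f] ⧸ (ϖ)` is a Dedekind domain. -/
theorem cc_isDiscreteValuationRing_of_away {T : Type*} [CommRing T] [Algebra C T] (f : C)
    [IsLocalization.Away f T] {ϖ : C} [hp : (Ideal.span {ϖ}).IsPrime]
    [hD : IsDedekindDomain (T ⧸ Ideal.span {algebraMap C T ϖ})]
    (P : Ideal (C ⧸ Ideal.span {ϖ})) [hP : P.IsPrime] (hP0 : P ≠ ⊥)
    (hf : Ideal.Quotient.mk (Ideal.span {ϖ}) f ∉ P) :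
    IsDiscreteValuationRing (Localization.AtPrime P) := by
  rw [← cc_map_span_singleton] at hD
  haveI : IsLocalization (Submonoid.powers f) T := ‹IsLocalization.Away f T›
  refine cc_isDiscreteValuationRing_atPrime
    (D' := T ⧸ (Ideal.span {ϖ}).map (algebraMap C T))
    (Algebra.algebraMapSubmonoid (C ⧸ Ideal.span {ϖ}) (Submonoid.powers f)) P hP0 ?_
  rw [Set.disjoint_left]
  rintro x ⟨y, ⟨k, rfl⟩, rfl⟩ hx
  apply hf
  have : (Ideal.Quotient.mk (Ideal.span {ϖ}) f) ^ k ∈ P := by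
    rw [← map_pow]; exact hx
  exact hP.mem_of_pow_mem k this

/-- **gluing the Dedekind property** over a two-element cover. -/
theorem cc_isDedekindDomain_of_cover [IsNoetherianRing C] (f₁ f₂ : C)
    [IsLocalization.Away f₁ T₁] [IsLocalization.Away f₂ T₂]
    (hcov : Ideal.span {f₁, f₂} = ⊤) {ϖ : C} (hp : (Ideal.span {ϖ}).IsPrime)
    [IsDedekindDomain (T₁ ⧸ Ideal.span {algebraMap C T₁ ϖ})]
    [IsDedekindDomain (T₂ ⧸ Ideal.span {algebraMap C T₂ ϖ})] :
    IsDedekindDomain (C ⧸ Ideal.span {ϖ}) := by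
  haveI := hp
  haveI : IsDedekindDomainDvr (C ⧸ Ideal.span {ϖ}) := by
    refine { toIsNoetherian := inferInstance, is_dvr_at_nonzero_prime := ?_ }
    intro P hP0 hP
    by_cases h1 : Ideal.Quotient.mk (Ideal.span {ϖ}) f₁ ∈ P
    · have h2 : Ideal.Quotient.mk (Ideal.span {ϖ}) f₂ ∉ P := by
        intro h2
        have h := hcov
        rw [Ideal.eq_top_iff_one, Ideal.mem_span_pair] at h
        obtain ⟨a, b, hab⟩ := h
        apply hP.ne_top
        rw [Ideal.eq_top_iff_one]
        have : (1 : C ⧸ Ideal.span {ϖ}) = Ideal.Quotient.mk _ a * Ideal.Quotient.mk _ f₁ +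
            Ideal.Quotient.mk _ b * Ideal.Quotient.mk _ f₂ := by
          rw [← map_mul, ← map_mul, ← map_add, hab, map_one]
        rw [this]
        exact P.add_mem (P.mul_mem_left _ h1) (P.mul_mem_left _ h2)
      exact cc_isDiscreteValuationRing_of_away (T := T₂) f₂ P hP0 h2
    · exact cc_isDiscreteValuationRing_of_away (T := T₁) f₁ P hP0 h1
  infer_instance

end Cover

section Branch

variable {B T : Type*} [CommRing B] [CommRing T] [Algebra B T]

/-- the element `g` is outside the contraction of a proper ideal of `B[1/g]`. -/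
theorem cc_notMem_comap_of_away (g : B) [IsLocalization.Away g T] (𝔫 : Ideal T) (h𝔫 : 𝔫 ≠ ⊤)
    (k : ℕ) : g ^ k ∉ 𝔫.comap (algebraMap B T) := by
  intro h
  apply h𝔫
  rw [Ideal.mem_comap, map_pow] at h
  exact Ideal.eq_top_of_isUnit_mem _ h ((IsLocalization.Away.algebraMap_isUnit g).pow k)

/-- **branch uniformizers pass to `B[1/g]`**. -/
theorem IsBranchUniformizer.map_away (g : B) [IsLocalization.Away g T] {𝔭 : Ideal B}
    [h𝔭 : 𝔭.IsPrime] {𝔫 : Ideal T} [h𝔫 : 𝔫.IsPrime] (hle : 𝔭 ≤ 𝔫.comap (algebraMap B T)) {z : B}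
    (hz : IsBranchUniformizer 𝔭 (𝔫.comap (algebraMap B T)) z) :
    IsBranchUniformizer (𝔭.map (algebraMap B T)) 𝔫 (algebraMap B T z) := by
  have hg : ∀ k : ℕ, g ^ k ∉ 𝔫.comap (algebraMap B T) :=
    cc_notMem_comap_of_away g 𝔫 h𝔫.ne_top
  refine ⟨hz.mem, ?_, ?_⟩
  · intro h
    rw [IsLocalization.algebraMap_mem_map_algebraMap_iff (Submonoid.powers g)] at h
    obtain ⟨m, ⟨k, rfl⟩, hk⟩ := h
    rcases h𝔭.mem_or_mem hk with h' | h'
    · exact hg k (hle h')
    · exact hz.notMem h'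
  · intro w hw
    obtain ⟨⟨w₀, ⟨m, ⟨k, rfl⟩⟩⟩, hw₀⟩ := IsLocalization.surj (Submonoid.powers g) w
    simp only at hw₀
    have hw₀𝔫 : w₀ ∈ 𝔫.comap (algebraMap B T) := by
      rw [Ideal.mem_comap, ← hw₀]
      exact 𝔫.mul_mem_right _ hw
    obtain ⟨a, s, hs, has⟩ := hz.gen w₀ hw₀𝔫
    refine ⟨algebraMap B T a, algebraMap B T (s * g ^ k), ?_, ?_⟩
    · intro h
      have : s * g ^ k ∈ 𝔫.comap (algebraMap B T) := h
      rcases (Ideal.comap_isPrime (algebraMap B T) 𝔫).mem_or_mem this with h' | h'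
      · exact hs h'
      · exact hg k h'
    · have : algebraMap B T (s * g ^ k) * w - algebraMap B T a * algebraMap B T z =
          algebraMap B T (s * w₀ - a * z) := by
        rw [map_sub, map_mul, map_mul, map_mul, ← hw₀]
        ring
      rw [this]
      exact Ideal.mem_map_of_mem _ has

/-- **branch uniformizers descend from `B[1/g]`**. -/
theorem IsBranchUniformizer.comap_away (g : B) [IsLocalization.Away g T] {𝔭 : Ideal B}
    {𝔫 : Ideal T} [h𝔫 : 𝔫.IsPrime] {z : B}
    (hz : IsBranchUniformizer (𝔭.map (algebraMap B T)) 𝔫 (algebraMap B T z)) :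
    IsBranchUniformizer 𝔭 (𝔫.comap (algebraMap B T)) z := by
  have hg : ∀ k : ℕ, g ^ k ∉ 𝔫.comap (algebraMap B T) :=
    cc_notMem_comap_of_away g 𝔫 h𝔫.ne_top
  haveI : (𝔫.comap (algebraMap B T)).IsPrime := Ideal.comap_isPrime _ _
  refine ⟨hz.mem, fun h => hz.notMem (Ideal.mem_map_of_mem _ h), ?_⟩
  intro w hw
  obtain ⟨a', s', hs', has'⟩ := hz.gen (algebraMap B T w) hw
  obtain ⟨⟨a, ⟨m, ⟨k, rfl⟩⟩⟩, ha⟩ := IsLocalization.surj (Submonoid.powers g) a'
  obtain ⟨⟨s, ⟨m, ⟨l, rfl⟩⟩⟩, hs⟩ := IsLocalization.surj (Submonoid.powers g) s'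
  simp only at ha hs
  have hs𝔫 : s ∉ 𝔫.comap (algebraMap B T) := by
    intro h
    rw [Ideal.mem_comap, ← hs] at h
    rcases h𝔫.mem_or_mem h with h' | h'
    · exact hs' h'
    · exact hg l h'
  have hmem : algebraMap B T (g ^ k * s * w - g ^ l * a * z) ∈ 𝔭.map (algebraMap B T) := by
    have : algebraMap B T (g ^ k * s * w - g ^ l * a * z) =
        algebraMap B T (g ^ k) * algebraMap B T (g ^ l) *
          (s' * algebraMap B T w - a' * algebraMap B T z) := by
      rw [map_sub, map_mul, map_mul, map_mul, map_mul, ← hs, ← ha]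
      ring
    rw [this]
    exact Ideal.mul_mem_left _ _ has'
  rw [IsLocalization.algebraMap_mem_map_algebraMap_iff (Submonoid.powers g)] at hmem
  obtain ⟨m, ⟨r, rfl⟩, hr⟩ := hmem
  refine ⟨g ^ r * g ^ l * a, g ^ r * g ^ k * s, ?_, ?_⟩
  · intro h
    rcases ‹(𝔫.comap (algebraMap B T)).IsPrime›.mem_or_mem h with h' | h'
    · rcases ‹(𝔫.comap (algebraMap B T)).IsPrime›.mem_or_mem h' with h'' | h''
      · exact hg r h''
      · exact hg k h''
    · exact hs𝔫 h'
  · have : g ^ r * g ^ k * s * w - g ^ r * g ^ l * a * z =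
        g ^ r * (g ^ k * s * w - g ^ l * a * z) := by ring
    rw [this]
    exact hr

/-- existence form: a branch uniformizer in `B[1/g]` gives one in `B`. -/
theorem cc_exists_isBranchUniformizer_comap_away (g : B) [IsLocalization.Away g T] {𝔭 : Ideal B}
    {𝔫 : Ideal T} [h𝔫 : 𝔫.IsPrime]
    (h : ∃ z' : T, IsBranchUniformizer (𝔭.map (algebraMap B T)) 𝔫 z') :
    ∃ z : B, IsBranchUniformizer 𝔭 (𝔫.comap (algebraMap B T)) z := by
  obtain ⟨z', hz'⟩ := h
  obtain ⟨⟨z, ⟨m, ⟨k, rfl⟩⟩⟩, hz⟩ := IsLocalization.surj (Submonoid.powers g) z'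
  simp only at hz
  refine ⟨z, IsBranchUniformizer.comap_away g ?_⟩
  rw [← hz]
  refine ⟨𝔫.mul_mem_right _ hz'.mem, ?_, ?_⟩
  · intro hmem
    -- `g^k` is a unit of `T`
    have hu : IsUnit (algebraMap B T (g ^ k)) := by
      rw [map_pow]; exact (IsLocalization.Away.algebraMap_isUnit g).pow k
    obtain ⟨u, hu'⟩ := hu
    apply hz'.notMem
    have : z' = (z' * algebraMap B T (g ^ k)) * (u⁻¹ : Tˣ) := by
      rw [← hu', mul_assoc, Units.mul_inv, mul_one]
    rw [this]
    exact Ideal.mul_mem_right _ _ hmem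
  · intro w hw
    obtain ⟨a, s, hs, has⟩ := hz'.gen w hw
    have hu : IsUnit (algebraMap B T (g ^ k)) := by
      rw [map_pow]; exact (IsLocalization.Away.algebraMap_isUnit g).pow k
    obtain ⟨u, hu'⟩ := hu
    refine ⟨a * (u⁻¹ : Tˣ), s, hs, ?_⟩
    have : s * w - a * (u⁻¹ : Tˣ) * (z' * algebraMap B T (g ^ k)) = s * w - a * z' := by
      rw [← hu']
      have h1 : ((u⁻¹ : Tˣ) : T) * (u : T) = 1 := Units.inv_mul u
      linear_combination (-a * z') * h1
    rw [this]
    exact has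

end Branch

end Fermat.Agent.SS
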