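/-
(SS-q) MODEL-GLOBAL leaf [D] ETALE — helper3 — part 2: **the discriminant of the special fibre of
a good chart divides a power of the branch polynomial** `c = ∏_{s ∈ S} (t - s)` (lead's purity
package `exists_basis_discr_dvd` fed with the hypotheses `GeoHyps`).
-/
import Mathlib
import Fermat.Agent.JA.GEO_lead_Main
import Fermat.Agent.JA.KUM_CHART_helper6_Plain
import Fermat.Agent.JA.GEOBASE_helper8_Hyps

set_option autoImplicit false
set_option linter.unusedSectionVars false
set_option linter.style.haveILetI false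

open Polynomial

namespace Fermat.Agent.SS

open Fermat.Agent.JA

section Plain

variable {R : Type*} [CommRing R] [IsDomain R] [IsDiscreteValuationRing R] [CharZero R]
  {A : Type*} [CommRing A] [Algebra R A] (T : A)
  (hT : Function.Bijective (Polynomial.aeval T : R[X] →ₐ[R] A))
  {K : Type*} [Field K] [Algebra A K] [IsFractionRing A K] [Algebra R K] [IsScalarTower R A K]
  {E : Type*} [Field E] [Algebra K E] [FiniteDimensional K E] [Algebra A E] [IsScalarTower A K E]
  (π : R) (hπ : Irreducible π)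

include hT hπ in
/-- the plain chart: a basis of the special fibre whose discriminant divides a power of `c`. -/
theorem exists_basis_discr_dvd_plain (c : A)
    (h1 : ∀ 𝒱 : ValuationSubring K, 𝒱 ≠ ⊤ → (∀ x : A, algebraMap A K x ∈ 𝒱) →
      (algebraMap R K π)⁻¹ ∈ 𝒱 → (algebraMap A K c)⁻¹ ∈ 𝒱 → Unr 𝒱 E)
    (h2 : ∀ 𝒱 : ValuationSubring K, IsGaussAt R π (algebraMap A K T) 𝒱 → Unr 𝒱 E) :
    ∃ (n : ℕ) (b : Module.Basis (Fin n) (Abar A (algebraMap R A π))
      (Bbar A ↥(integralClosure A E) (algebraMap R A π))) (m : ℕ),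
      Algebra.discr (Abar A (algebraMap R A π)) b ∣ mkA (algebraMap R A π) c ^ m := by
  obtain ⟨iDom, iUFD, iNoeth, iChar, hπA, iPID⟩ := poly_instances T hT π hπ
  obtain ⟨i1, i2, i3⟩ := integralClosure_instances A K E
  refine exists_basis_discr_dvd (B := ↥(integralClosure A E)) hπA c ?_
  intro p hp _ hpc
  refine trNondeg_of_unr (K := K) hp ?_
  by_cases hassoc : Associated p (algebraMap R A π)
  · rw [primeValSubring_eq_of_associated hp hπA hassoc]
    exact h2 _ (isGaussAt_primeValSubring T hT hπA)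
  · refine h1 _ (primeValSubring_ne_top hp) (fun x => algebraMap_mem_primeValSubring hp x) ?_ ?_
    · rw [IsScalarTower.algebraMap_apply R A K]
      apply inv_algebraMap_mem_primeValSubring hp
      intro hdvd
      exact hassoc (hp.irreducible.associated_of_dvd hπA.irreducible hdvd)
    · exact inv_algebraMap_mem_primeValSubring hp hpc

end Plain

section Geo

variable {R : Type*} [CommRing R] [IsDomain R] [IsDiscreteValuationRing R] [CharZero R]
  {K₁ : Type*} [Field K₁] [Algebra R K₁] [IsFractionRing R K₁]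
  {K : Type*} [Field K] [Algebra K₁ K] [Algebra R K] [IsScalarTower R K₁ K]
  {E : Type*} [Field E] [Algebra K E] [Algebra K₁ E] [IsScalarTower K₁ K E]
  {π : R} {t : K} {n : ℕ} {S : Finset R}

/-- the branch polynomial `∏_{s ∈ S} (t - s)` as an element of `R[t]`. -/
noncomputable def branchPoly (t : K) (S : Finset R) : ↥(Algebra.adjoin R {t}) :=
  ∏ s ∈ S, ((⟨t, Algebra.self_mem_adjoin_singleton R t⟩ : ↥(Algebra.adjoin R {t})) -
    algebraMap R ↥(Algebra.adjoin R {t}) s)

/-- **the discriminant of the special fibre divides a power of the branch polynomial.** -/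
theorem GeoHyps.exists_basis_discr_dvd (h : GeoHyps K₁ π t E n S) :
    ∃ (n' : ℕ) (b : Module.Basis (Fin n')
      (Abar ↥(Algebra.adjoin R {t}) (algebraMap R ↥(Algebra.adjoin R {t}) π))
      (Bbar ↥(Algebra.adjoin R {t}) ↥(integralClosure ↥(Algebra.adjoin R {t}) E)
        (algebraMap R ↥(Algebra.adjoin R {t}) π))) (m : ℕ),
      Algebra.discr (Abar ↥(Algebra.adjoin R {t}) (algebraMap R ↥(Algebra.adjoin R {t}) π)) b ∣
        mkA (algebraMap R ↥(Algebra.adjoin R {t}) π) (branchPoly t S) ^ m := by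
  classical
  haveI := h.finite
  have ht := h.transcendental
  have hK := h.adjoin_eq_top
  set A := ↥(Algebra.adjoin R {t}) with hA
  set T : A := ⟨t, Algebra.self_mem_adjoin_singleton R t⟩ with hTdef
  have hT := aeval_adjoin_bijective (R := R) (K₁ := K₁) t ht
  have fracA : IsFractionRing A K := isFractionRing_adjoin (R := R) (K₁ := K₁) t hK
  have hTK : algebraMap A K T = t := rfl
  have hAR : ∀ r : R, algebraMap A K (algebraMap R A r) = algebraMap R K r := fun r => rfl
  let τ : R → A := fun a => T - algebraMap R A a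
  have hτK : ∀ a : R, algebraMap A K (τ a) = t - algebraMap R K a := fun a => by
    change algebraMap A K (T - algebraMap R A a) = _
    rw [map_sub, hTK, hAR]
  have hτ0 : ∀ a : R, algebraMap A K (τ a) ≠ 0 := by
    intro a h0
    rw [hτK, sub_eq_zero] at h0
    apply ht
    rw [h0, IsScalarTower.algebraMap_apply R K₁ K]
    exact isAlgebraic_algebraMap _
  have hprod0 : ∀ s : Finset R, algebraMap A K (∏ b ∈ s, τ b) ≠ 0 := by
    intro s
    rw [map_prod]
    exact Finset.prod_ne_zero_iff.mpr (fun b _ => hτ0 b)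
  have hprod_inv : ∀ (𝒱 : ValuationSubring K) (s : Finset R),
      (∀ x : A, algebraMap A K x ∈ 𝒱) → (algebraMap A K (∏ b ∈ s, τ b))⁻¹ ∈ 𝒱 →
      ∀ a ∈ s, (t - algebraMap R K a)⁻¹ ∈ 𝒱 := by
    intro 𝒱 s hA𝒱 hinv a ha
    have : (t - algebraMap R K a)⁻¹ =
        (algebraMap A K (∏ b ∈ s, τ b))⁻¹ * algebraMap A K (∏ b ∈ s.erase a, τ b) := by
      rw [← hτK, ← Finset.mul_prod_erase s τ ha, map_mul, mul_inv, mul_assoc,
        inv_mul_cancel₀ (hprod0 _), mul_one]
    rw [this]
    exact 𝒱.mul_mem _ _ hinv (hA𝒱 _)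
  have hK₁ : ∀ 𝒱 : ValuationSubring K, (∀ x : A, algebraMap A K x ∈ 𝒱) →
      (algebraMap R K π)⁻¹ ∈ 𝒱 → ∀ a : K₁, algebraMap K₁ K a ∈ 𝒱 := by
    intro 𝒱 hA𝒱 hπ𝒱 a
    exact algebraMap_mem_of_inv_mem h.irreducible 𝒱 (fun r => hAR r ▸ hA𝒱 _) hπ𝒱 a
  have hM3' : ∀ 𝒱 : ValuationSubring K, IsGaussAt R π (algebraMap A K T) 𝒱 → Unr 𝒱 E := by
    intro 𝒱 h'; rw [hTK] at h'; exact h.gauss 𝒱 h'
  refine exists_basis_discr_dvd_plain (K := K) (E := E) T hT π h.irreducible (branchPoly t S) ?_ hM3'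
  intro 𝒱 h𝒱 hA𝒱 hπ𝒱 hc
  exact h.unr 𝒱 h𝒱 (hK₁ 𝒱 hA𝒱 hπ𝒱) (hTK ▸ hA𝒱 T) (hprod_inv 𝒱 S hA𝒱 hc)

end Geo

end Fermat.Agent.SS
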