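/-
(SS-q) MODEL-GLOBAL leaf [GAUSSJT] — helper1 — **Gauss at `j` ⇒ Gauss at `t`**.

`V` a valuation subring of `E_M ⊇ K_M = K₁(t)`, `R ⊆ V`, `π⁻¹ ∉ V`; `j_M ∈ E_M` with a relation
`Q(t) = j_M · P(t)`, `P, Q ∈ R[X]` without common zero modulo the maximal ideal of `V`.  If `V` is
'Gauss at `j_M`' (`j_M ∈ V` and `f(j_M)` is a unit of `V` for every `f ∈ R[X]` not divisible by
`π`) and `t ∈ V`, then the restriction of `V` to `K_M` is the Gauss valuation subring in the
coordinate `t` (`IsGaussAt R π t`): otherwise `t̄` would be algebraic over `k = R/π`, hence also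
`j̄ = Q̄(t̄)/P̄(t̄)`.

Instances: the Legendre relation (`2` invertible) and the Hesse relation (`3` invertible).
With the one-sheet lemma `GeoHyps.valuationSubring_unique` this gives the clause `only` of
`IsTwoSheet π j Winf W0` from the uniqueness statement of `host_two_sheet`.
-/
import Mathlib
import Fermat.Agent.JA.GEO_lead_Spec

set_option autoImplicit false
set_option linter.unusedSectionVars false
set_option linter.style.haveILetI false
set_option linter.unusedSimpArgs false

open Polynomial

namespace Fermat.Agent.SS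

open Fermat.Agent.JA

section Aux

variable {R : Type*} [CommRing R] {E : Type*} [Field E] [Algebra R E]

/-- polynomial expressions with coefficients in `R ⊆ V` in an element of `V` lie in `V`. -/
theorem aeval_mem_valSub_of_mem (V : ValuationSubring E) (hR : ∀ r : R, algebraMap R E r ∈ V)
    {x : E} (hx : x ∈ V) (f : R[X]) : aeval x f ∈ V := by
  rw [aeval_eq_sum_range]
  refine Subring.sum_mem V.toSubring (fun i _ => ?_)
  rw [Algebra.smul_def]
  exact V.mul_mem _ _ (hR _) (pow_mem hx i)

/-- an element of `V` whose inverse is not in `V` has valuation `< 1`. -/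
theorem valSub_valuation_lt_one_of_inv_notMem (V : ValuationSubring E) {x : E} (hx : x⁻¹ ∉ V) :
    V.valuation x < 1 := by
  have h1 : x ∈ V.nonunits := by
    rw [ValuationSubring.mem_nonunits_iff_or]
    exact Or.inr hx
  exact (ValuationSubring.mem_nonunits_iff (A := V)).mp h1

/-- a nonzero element of valuation `< 1` has its inverse outside `V`. -/
theorem valSub_inv_notMem_of_valuation_lt_one (V : ValuationSubring E) {x : E} (hx0 : x ≠ 0)
    (hx : V.valuation x < 1) : x⁻¹ ∉ V := by
  intro h
  have h1 : V.valuation x⁻¹ ≤ 1 := (ValuationSubring.valuation_le_one_iff _ _).mpr h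
  have h2 : V.valuation x * V.valuation x⁻¹ = 1 := by
    rw [← map_mul, mul_inv_cancel₀ hx0, map_one]
  have h3 : V.valuation x * V.valuation x⁻¹ < 1 := by
    calc V.valuation x * V.valuation x⁻¹ ≤ V.valuation x * 1 := mul_le_mul_right h1 _
      _ < 1 := by rw [mul_one]; exact hx
  rw [h2] at h3
  exact lt_irrefl _ h3

end Aux

section Res

variable {R : Type*} [CommRing R] [IsDomain R] [IsDiscreteValuationRing R]
  {E : Type*} [Field E] [Algebra R E]

/-- the structure map `R → V` of a valuation subring containing `R`. -/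
noncomputable def toValSub (V : ValuationSubring E) (hR : ∀ r : R, algebraMap R E r ∈ V) :
    R →+* ↥V :=
  (algebraMap R E).codRestrict V hR

theorem coe_toValSub (V : ValuationSubring E) (hR : ∀ r : R, algebraMap R E r ∈ V) (r : R) :
    ((toValSub V hR r : ↥V) : E) = algebraMap R E r := rfl

/-- `R → V` is local as soon as `π` is not invertible in `V`. -/
theorem isLocalHom_toValSub {π : R} (hπ : Irreducible π) (V : ValuationSubring E)
    (hR : ∀ r : R, algebraMap R E r ∈ V) (hπV : (algebraMap R E π)⁻¹ ∉ V) :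
    IsLocalHom (toValSub V hR) := by
  constructor
  intro r hr
  by_contra hnu
  have h1 : r ∈ IsLocalRing.maximalIdeal R := (IsLocalRing.mem_maximalIdeal r).mpr hnu
  rw [hπ.maximalIdeal_eq, Ideal.mem_span_singleton] at h1
  obtain ⟨s, rfl⟩ := h1
  have h2 : IsUnit (toValSub V hR π) := by
    rw [map_mul] at hr
    exact isUnit_of_mul_isUnit_left hr
  rw [ValuationSubring.valuation_eq_one_iff, coe_toValSub] at h2
  apply hπV
  rw [← ValuationSubring.valuation_le_one_iff, map_inv₀, h2, inv_one]

/-- evaluation of polynomials commutes with reduction. -/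
theorem residue_aeval (V : ValuationSubring E) (hR : ∀ r : R, algebraMap R E r ∈ V)
    [IsLocalHom (toValSub V hR)] {x : E} (hx : x ∈ V) (f : R[X]) (hf : aeval x f ∈ V) :
    letI : Algebra (IsLocalRing.ResidueField R) (IsLocalRing.ResidueField ↥V) :=
      (IsLocalRing.ResidueField.map (toValSub V hR)).toAlgebra
    IsLocalRing.residue ↥V ⟨aeval x f, hf⟩ =
      aeval (IsLocalRing.residue ↥V ⟨x, hx⟩) (f.map (IsLocalRing.residue R)) := by
  letI : Algebra (IsLocalRing.ResidueField R) (IsLocalRing.ResidueField ↥V) :=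
    (IsLocalRing.ResidueField.map (toValSub V hR)).toAlgebra
  have h1 : (⟨aeval x f, hf⟩ : ↥V) = eval₂ (toValSub V hR) ⟨x, hx⟩ f := by
    apply Subtype.ext
    have h2 := hom_eval₂ f (toValSub V hR) (V.subtype : ↥V →+* E) ⟨x, hx⟩
    show aeval x f = V.subtype (eval₂ (toValSub V hR) ⟨x, hx⟩ f)
    rw [h2, aeval_def]
    rfl
  rw [h1, hom_eval₂, aeval_def, eval₂_map]
  rfl

end Res

section Main

variable {R : Type*} [CommRing R] [IsDomain R] [IsDiscreteValuationRing R]
  {KM : Type*} [Field KM] [Algebra R KM]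
  {EM : Type*} [Field EM] [Algebra KM EM] [Algebra R EM] [IsScalarTower R KM EM]

/-- a polynomial not divisible by `π` has a nonzero reduction. -/
theorem map_residue_ne_zero_of_not_dvd {π : R} (hπ : Irreducible π) {f : R[X]}
    (hf : ¬ C π ∣ f) : f.map (IsLocalRing.residue R) ≠ 0 := by
  intro h0
  apply hf
  rw [Polynomial.C_dvd_iff_dvd_coeff]
  intro i
  have h2 : IsLocalRing.residue R (f.coeff i) = 0 := by
    rw [← Polynomial.coeff_map, h0, Polynomial.coeff_zero]
  rw [IsLocalRing.residue_eq_zero_iff, hπ.maximalIdeal_eq, Ideal.mem_span_singleton] at h2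
  exact h2

/-- a polynomial with nonzero reduction is not divisible by `π`. -/
theorem not_dvd_of_map_residue_ne_zero {π : R} (hπ : Irreducible π) {f : R[X]}
    (hf : f.map (IsLocalRing.residue R) ≠ 0) : ¬ C π ∣ f := by
  rintro ⟨g, rfl⟩
  apply hf
  rw [Polynomial.map_mul, Polynomial.map_C]
  have : IsLocalRing.residue R π = 0 := by
    rw [IsLocalRing.residue_eq_zero_iff, hπ.maximalIdeal_eq]
    exact Ideal.mem_span_singleton_self π
  rw [this, C_0, zero_mul]

/-- 'Gauss at `j`': no polynomial expression `f(j)`, `π ∤ f`, has valuation `< 1`. -/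
theorem valuation_aeval_eq_one_of_gauss {π : R} (V : ValuationSubring EM)
    (hπV : (algebraMap R EM π)⁻¹ ∉ V) {jM : EM}
    (hju : ∀ f : R[X], ¬ C π ∣ f → (aeval jM f)⁻¹ ∈ V) (g : R[X]) (hg : ¬ C π ∣ g) :
    ¬ V.valuation (aeval jM g) < 1 := by
  intro hlt
  by_cases h0 : aeval jM g = 0
  · -- use `g + π`
    have hg' : ¬ C π ∣ g + C π := fun hd => hg ((dvd_add_left (dvd_refl _)).mp hd)
    have h1 := hju (g + C π) hg'
    rw [map_add, h0, zero_add, aeval_C] at h1
    exact hπV h1
  · exact valSub_inv_notMem_of_valuation_lt_one V h0 hlt (hju g hg)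

/-- **[GAUSSJT], generic form.** -/
theorem isGaussAt_coord_of_rel {π : R} (hπ : Irreducible π) (t : KM) (jM : EM) (P Q : R[X])
    (hrel : aeval (algebraMap KM EM t) Q = jM * aeval (algebraMap KM EM t) P)
    (V : ValuationSubring EM) (hR : ∀ r : R, algebraMap R EM r ∈ V)
    (hπV : (algebraMap R EM π)⁻¹ ∉ V) (ht : algebraMap KM EM t ∈ V) (hjV : jM ∈ V)
    (hju : ∀ f : R[X], ¬ C π ∣ f → (aeval jM f)⁻¹ ∈ V)
    (hcop : V.valuation (aeval (algebraMap KM EM t) P) < 1 →
      V.valuation (aeval (algebraMap KM EM t) Q) < 1 → False) :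
    IsGaussAt R π t (V.comap (algebraMap KM EM)) := by
  classical
  set τ := algebraMap KM EM t with hτ
  have hmap : ∀ f : R[X], algebraMap KM EM (aeval t f) = aeval τ f := fun f =>
    (aeval_algebraMap_apply EM t f).symm
  refine ⟨fun f => ?_, ?_, fun f hf => ?_⟩
  · show algebraMap KM EM (aeval t f) ∈ V
    rw [hmap]
    exact aeval_mem_valSub_of_mem V hR ht f
  · show algebraMap KM EM (algebraMap R KM π)⁻¹ ∉ V
    rw [map_inv₀, ← IsScalarTower.algebraMap_apply]
    exact hπV
  · show algebraMap KM EM (aeval t f)⁻¹ ∈ V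
    rw [map_inv₀, hmap]
    by_contra hcon
    have hlt : V.valuation (aeval τ f) < 1 := valSub_valuation_lt_one_of_inv_notMem V hcon
    -- residue fields
    haveI : IsLocalHom (toValSub V hR) := isLocalHom_toValSub hπ V hR hπV
    letI : Algebra (IsLocalRing.ResidueField R) (IsLocalRing.ResidueField ↥V) :=
      (IsLocalRing.ResidueField.map (toValSub V hR)).toAlgebra
    set res := IsLocalRing.residue ↥V with hres
    have hres0 : ∀ (x : EM) (hx : x ∈ V), res ⟨x, hx⟩ = 0 ↔ V.valuation x < 1 := by
      intro x hx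
      rw [hres, IsLocalRing.residue_eq_zero_iff, ValuationSubring.valuation_lt_one_iff]
    set tb := res ⟨τ, ht⟩ with htb
    set jb := res ⟨jM, hjV⟩ with hjb
    -- `t̄` is integral over `k`
    have htint : IsIntegral (IsLocalRing.ResidueField R) tb := by
      rw [← isAlgebraic_iff_isIntegral]
      refine ⟨f.map (IsLocalRing.residue R), map_residue_ne_zero_of_not_dvd hπ hf, ?_⟩
      rw [← residue_aeval V hR ht f (aeval_mem_valSub_of_mem V hR ht f)]
      exact (hres0 _ _).mpr hlt
    have hpol : ∀ p : (IsLocalRing.ResidueField R)[X],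
        IsIntegral (IsLocalRing.ResidueField R) (aeval tb p) := by
      intro p
      have h1 := Subalgebra.aeval_coe (integralClosure (IsLocalRing.ResidueField R)
        (IsLocalRing.ResidueField ↥V)) ⟨tb, htint⟩ p
      have h2 : aeval tb p ∈ integralClosure (IsLocalRing.ResidueField R)
          (IsLocalRing.ResidueField ↥V) := by
        have : aeval tb p = ((aeval (⟨tb, htint⟩ : ↥(integralClosure (IsLocalRing.ResidueField R)
            (IsLocalRing.ResidueField ↥V))) p : ↥(integralClosure (IsLocalRing.ResidueField R)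
            (IsLocalRing.ResidueField ↥V))) : IsLocalRing.ResidueField ↥V) := h1
        rw [this]
        exact Subtype.property _
      exact h2
    -- the reduced relation
    have hPV := aeval_mem_valSub_of_mem V hR ht P
    have hQV := aeval_mem_valSub_of_mem V hR ht Q
    have hredrel : aeval tb (Q.map (IsLocalRing.residue R)) =
        jb * aeval tb (P.map (IsLocalRing.residue R)) := by
      rw [← residue_aeval V hR ht Q hQV, ← residue_aeval V hR ht P hPV, hjb, ← map_mul]
      congr 1
      exact Subtype.ext hrel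
    by_cases hP0 : aeval tb (P.map (IsLocalRing.residue R)) = 0
    · -- common zero
      have h1 : V.valuation (aeval τ P) < 1 := by
        rw [← hres0 _ hPV, residue_aeval V hR ht P hPV]
        exact hP0
      have h2 : V.valuation (aeval τ Q) < 1 := by
        rw [← hres0 _ hQV, residue_aeval V hR ht Q hQV, hredrel, hP0, mul_zero]
      exact hcop h1 h2
    · -- `j̄` is algebraic
      have hjint : IsIntegral (IsLocalRing.ResidueField R) jb := by
        have h1 : jb = aeval tb (Q.map (IsLocalRing.residue R)) *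
            (aeval tb (P.map (IsLocalRing.residue R)))⁻¹ := by
          rw [hredrel, mul_assoc, mul_inv_cancel₀ hP0, mul_one]
        rw [h1]
        exact (hpol _).mul (hpol _).inv
      obtain ⟨gb, hgb0, hgb⟩ := (isAlgebraic_iff_isIntegral.mpr hjint)
      obtain ⟨g, rfl⟩ := Polynomial.map_surjective (IsLocalRing.residue R)
        IsLocalRing.residue_surjective gb
      have hg : ¬ C π ∣ g := not_dvd_of_map_residue_ne_zero hπ hgb0
      have hgV := aeval_mem_valSub_of_mem V hR hjV g
      have h1 : V.valuation (aeval jM g) < 1 := by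
        rw [← hres0 _ hgV, residue_aeval V hR hjV g hgV]
        exact hgb
      exact valuation_aeval_eq_one_of_gauss V hπV hju g hg h1

/-- the image of a unit of `R` has valuation one. -/
theorem valuation_algebraMap_eq_one_of_isUnit (V : ValuationSubring EM)
    (hR : ∀ r : R, algebraMap R EM r ∈ V) {u : R} (hu : IsUnit u) :
    V.valuation (algebraMap R EM u) = 1 := by
  obtain ⟨w, hw⟩ := hu.exists_right_inv
  have h1 : V.valuation (algebraMap R EM u) ≤ 1 :=
    (ValuationSubring.valuation_le_one_iff _ _).mpr (hR u)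
  have h2 : V.valuation (algebraMap R EM w) ≤ 1 :=
    (ValuationSubring.valuation_le_one_iff _ _).mpr (hR w)
  have h3 : V.valuation (algebraMap R EM u) * V.valuation (algebraMap R EM w) = 1 := by
    rw [← map_mul, ← map_mul, hw, map_one, map_one]
  by_contra hne
  have hlt : V.valuation (algebraMap R EM u) < 1 := lt_of_le_of_ne h1 hne
  have : V.valuation (algebraMap R EM u) * V.valuation (algebraMap R EM w) < 1 := by
    calc V.valuation (algebraMap R EM u) * V.valuation (algebraMap R EM w)
        ≤ V.valuation (algebraMap R EM u) * 1 := mul_le_mul_right h2 _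
      _ < 1 := by rw [mul_one]; exact hlt
  rw [h3] at this
  exact lt_irrefl _ this

/-- **[GAUSSJT], Legendre.** -/
theorem legendre_isGaussAt_coord {π : R} (hπ : Irreducible π) (h2 : IsUnit (2 : R)) (t : KM)
    (jM : EM)
    (hrel : 256 * ((algebraMap KM EM t) ^ 2 - algebraMap KM EM t + 1) ^ 3 =
      jM * ((algebraMap KM EM t) ^ 2 * (algebraMap KM EM t - 1) ^ 2))
    (V : ValuationSubring EM) (hR : ∀ r : R, algebraMap R EM r ∈ V)
    (hπV : (algebraMap R EM π)⁻¹ ∉ V) (ht : algebraMap KM EM t ∈ V) (hjV : jM ∈ V)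
    (hju : ∀ f : R[X], ¬ C π ∣ f → (aeval jM f)⁻¹ ∈ V) :
    IsGaussAt R π t (V.comap (algebraMap KM EM)) := by
  set τ := algebraMap KM EM t with hτ
  have h256 : V.valuation (256 : EM) = 1 := by
    have h1 : (256 : EM) = algebraMap R EM ((2 : R) ^ 8) := by
      rw [map_pow, map_ofNat]; norm_num
    rw [h1]
    exact valuation_algebraMap_eq_one_of_isUnit V hR (h2.pow 8)
  have hPe : aeval τ (X ^ 2 * (X - 1) ^ 2 : R[X]) = τ ^ 2 * (τ - 1) ^ 2 := by
    simp only [map_mul, map_pow, map_sub, map_add, map_one, aeval_X, map_ofNat]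
  have hQe : aeval τ (256 * (X ^ 2 - X + 1) ^ 3 : R[X]) = 256 * (τ ^ 2 - τ + 1) ^ 3 := by
    simp only [map_mul, map_pow, map_sub, map_add, map_one, aeval_X, map_ofNat]
  refine isGaussAt_coord_of_rel hπ t jM (X ^ 2 * (X - 1) ^ 2) (256 * (X ^ 2 - X + 1) ^ 3) ?_ V hR
    hπV ht hjV hju ?_
  · rw [hPe, hQe]
    exact hrel
  · rw [hPe, hQe]
    intro hP hQ
    have h1 : V.valuation (τ * (τ - 1)) < 1 := by
      have h3 : τ ^ 2 * (τ - 1) ^ 2 = (τ * (τ - 1)) ^ 2 := by ring
      rw [h3, map_pow] at hP
      by_contra hge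
      rw [not_lt] at hge
      exact absurd hP (not_lt.mpr (one_le_pow₀ hge))
    have h4 : V.valuation (τ ^ 2 - τ + 1) = 1 := by
      have h5 : τ ^ 2 - τ + 1 = 1 + τ * (τ - 1) := by ring
      rw [h5]
      exact V.valuation.map_one_add_of_lt h1
    rw [map_mul, map_pow, h4, h256, one_pow, one_mul] at hQ
    exact lt_irrefl _ hQ

/-- **[GAUSSJT], Hesse.** -/
theorem hesse_isGaussAt_coord {π : R} (hπ : Irreducible π) (h3 : IsUnit (3 : R)) (t : KM)
    (jM : EM)
    (hrel : 27 * (algebraMap KM EM t) ^ 3 * ((algebraMap KM EM t) ^ 3 + 8) ^ 3 =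
      jM * ((algebraMap KM EM t) ^ 3 - 1) ^ 3)
    (V : ValuationSubring EM) (hR : ∀ r : R, algebraMap R EM r ∈ V)
    (hπV : (algebraMap R EM π)⁻¹ ∉ V) (ht : algebraMap KM EM t ∈ V) (hjV : jM ∈ V)
    (hju : ∀ f : R[X], ¬ C π ∣ f → (aeval jM f)⁻¹ ∈ V) :
    IsGaussAt R π t (V.comap (algebraMap KM EM)) := by
  set τ := algebraMap KM EM t with hτ
  have h27 : V.valuation (27 : EM) = 1 := by
    have h1 : (27 : EM) = algebraMap R EM ((3 : R) ^ 3) := by
      rw [map_pow, map_ofNat]; norm_num
    rw [h1]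
    exact valuation_algebraMap_eq_one_of_isUnit V hR (h3.pow 3)
  have h9 : V.valuation (9 : EM) = 1 := by
    have h1 : (9 : EM) = algebraMap R EM ((3 : R) ^ 2) := by
      rw [map_pow, map_ofNat]; norm_num
    rw [h1]
    exact valuation_algebraMap_eq_one_of_isUnit V hR (h3.pow 2)
  have hPe : aeval τ ((X ^ 3 - 1) ^ 3 : R[X]) = (τ ^ 3 - 1) ^ 3 := by
    simp only [map_mul, map_pow, map_sub, map_add, map_one, aeval_X, map_ofNat]
  have hQe : aeval τ (27 * X ^ 3 * (X ^ 3 + 8) ^ 3 : R[X]) = 27 * τ ^ 3 * (τ ^ 3 + 8) ^ 3 := by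
    simp only [map_mul, map_pow, map_sub, map_add, map_one, aeval_X, map_ofNat]
  refine isGaussAt_coord_of_rel hπ t jM ((X ^ 3 - 1) ^ 3) (27 * X ^ 3 * (X ^ 3 + 8) ^ 3) ?_ V hR
    hπV ht hjV hju ?_
  · rw [hPe, hQe]
    exact hrel
  · rw [hPe, hQe]
    intro hP hQ
    have h1 : V.valuation (τ ^ 3 - 1) < 1 := by
      rw [map_pow] at hP
      by_contra hge
      rw [not_lt] at hge
      exact absurd hP (not_lt.mpr (one_le_pow₀ hge))
    have h4 : V.valuation (τ ^ 3) = 1 := by
      have h5 : τ ^ 3 = 1 + (τ ^ 3 - 1) := by ring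
      rw [h5]
      exact V.valuation.map_one_add_of_lt h1
    have h6 : V.valuation (τ ^ 3 + 8) = 1 := by
      have h5 : τ ^ 3 + 8 = 9 + (τ ^ 3 - 1) := by ring
      rw [h5]
      have h7 : V.valuation (τ ^ 3 - 1) < V.valuation (9 : EM) := by rw [h9]; exact h1
      rw [V.valuation.map_add_eq_of_lt_left h7, h9]
    rw [map_mul, map_mul, map_pow (V.valuation) (τ ^ 3 + 8), h4, h6, h27, one_pow, one_mul,
      one_mul] at hQ
    exact lt_irrefl _ hQ

end Main

end Fermat.Agent.SS
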