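/-
(SS-q) MODEL-GLOBAL leaf [GAUSSJT], corollary — helper1 — **uniqueness of the extension of the Gauss
valuation in the coordinate `j`**: a valuation subring `W` of `E_N` whose restriction to
`K_N = K₁(j)` is the Gauss valuation subring in the coordinate `j` restricts along `A : E_M → E_N`
(`A j_M = j`) to THE Gauss valuation subring `V_M` of the level of good reduction.  Inputs: the
level-`M` data of `SSModel` (`geo`, `gauss_M`, `t_int`, `A_algebraMap`, `A_j`) and the
Legendre/Hesse relation.  This reduces the clause `only` of `IsTwoSheet π j Winf W0` to the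
uniqueness statement of `host_two_sheet` (extensions of `V_M` along `A`).
-/
import Mathlib
import Fermat.Agent.SS.GAUSSJT_helper1
import Fermat.Agent.SS.CUSPREG_helper1
import Fermat.Agent.SS.HART_helper4

set_option autoImplicit false
set_option linter.unusedSectionVars false
set_option linter.style.haveILetI false

open Polynomial

namespace Fermat.Agent.SS

open Fermat.Agent.JA

section Main

variable {R : Type*} [CommRing R] [IsDomain R] [IsDiscreteValuationRing R] [CharZero R]
  {K₁ : Type*} [Field K₁] [Algebra R K₁] [IsFractionRing R K₁]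
  {KM : Type*} [Field KM] [Algebra K₁ KM] [Algebra R KM] [IsScalarTower R K₁ KM]
  {EM : Type*} [Field EM] [Algebra KM EM] [Algebra K₁ EM] [IsScalarTower K₁ KM EM] [Algebra R EM]
  [IsScalarTower R KM EM]
  {KN : Type*} [Field KN] [Algebra R KN]
  {EN : Type*} [Field EN] [Algebra KN EN] [Algebra R EN] [IsScalarTower R KN EN]
  {π : R} {n : ℕ} {S : Finset R} {t : KM} {jM : EM} {j : KN} {A : EM →+* EN}
  {VM : ValuationSubring EM}

/-- the pull-back along `A` of a valuation subring of `E_N` which is Gauss at `j = A j_M` is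
'Gauss at `j_M`'. -/
theorem comap_gauss_of_isGaussAt (hA : ∀ r : R, A (algebraMap R EM r) = algebraMap R EN r)
    (hAj : A jM = algebraMap KN EN j) (W : ValuationSubring EN)
    (hW : IsGaussAt R π j (W.comap (algebraMap KN EN))) :
    (∀ r : R, algebraMap R EM r ∈ W.comap A) ∧ (algebraMap R EM π)⁻¹ ∉ W.comap A ∧
      jM ∈ W.comap A ∧ ∀ f : R[X], ¬ C π ∣ f → (aeval jM f)⁻¹ ∈ W.comap A := by
  have hmap : ∀ f : R[X], A (aeval jM f) = algebraMap KN EN (aeval j f) := by
    intro f
    set A' : EM →ₐ[R] EN := { A with commutes' := hA } with hA'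
    have h1 : A (aeval jM f) = A' (aeval jM f) := rfl
    have h2 : A' jM = algebraMap KN EN j := hAj
    rw [h1, ← aeval_algHom_apply, ← aeval_algebraMap_apply, h2]
  refine ⟨fun r => ?_, ?_, ?_, fun f hf => ?_⟩
  · show A (algebraMap R EM r) ∈ W
    have h1 := hW.1 (C r)
    rw [aeval_C] at h1
    rw [hA, IsScalarTower.algebraMap_apply R KN EN]
    exact h1
  · show A (algebraMap R EM π)⁻¹ ∉ W
    rw [map_inv₀, hA, IsScalarTower.algebraMap_apply R KN EN, ← map_inv₀]
    exact hW.2.1
  · show A jM ∈ W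
    have h1 := hW.1 X
    rw [aeval_X] at h1
    rw [hAj]
    exact h1
  · show A (aeval jM f)⁻¹ ∈ W
    rw [map_inv₀, hmap, ← map_inv₀]
    exact hW.2.2 f hf

/-- **uniqueness in the coordinate `j`** (abstract form: `hGt` is `legendre_isGaussAt_coord` or
`hesse_isGaussAt_coord`). -/
theorem comap_eq_of_isGaussAt_of_coord (hgeo : GeoHyps K₁ π t EM n S)
    (hgM : IsGaussAt R π t (VM.comap (algebraMap KM EM)))
    (htint : IsIntegral ↥(Algebra.adjoin R {jM}) (algebraMap KM EM t))
    (hGt : ∀ V : ValuationSubring EM, (∀ r : R, algebraMap R EM r ∈ V) →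
      (algebraMap R EM π)⁻¹ ∉ V → algebraMap KM EM t ∈ V → jM ∈ V →
      (∀ f : R[X], ¬ C π ∣ f → (aeval jM f)⁻¹ ∈ V) →
      IsGaussAt R π t (V.comap (algebraMap KM EM)))
    (hA : ∀ r : R, A (algebraMap R EM r) = algebraMap R EN r)
    (hAj : A jM = algebraMap KN EN j) (W : ValuationSubring EN)
    (hW : IsGaussAt R π j (W.comap (algebraMap KN EN))) : W.comap A = VM := by
  obtain ⟨h1, h2, h3, h4⟩ := comap_gauss_of_isGaussAt hA hAj W hW
  have ht : algebraMap KM EM t ∈ W.comap A :=
    mem_valuationSubring_of_isIntegral_adjoin_singleton (W.comap A) h1 h3 htint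
  exact GeoHyps.valuationSubring_unique hgeo (hGt (W.comap A) h1 h2 ht h3 h4) hgM

/-- **uniqueness in the coordinate `j`, Legendre.** -/
theorem legendre_comap_eq_of_isGaussAt (hgeo : GeoHyps K₁ π t EM n S)
    (hgM : IsGaussAt R π t (VM.comap (algebraMap KM EM)))
    (htint : IsIntegral ↥(Algebra.adjoin R {jM}) (algebraMap KM EM t))
    (h2 : IsUnit (2 : R))
    (hrel : 256 * ((algebraMap KM EM t) ^ 2 - algebraMap KM EM t + 1) ^ 3 =
      jM * ((algebraMap KM EM t) ^ 2 * (algebraMap KM EM t - 1) ^ 2))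
    (hA : ∀ r : R, A (algebraMap R EM r) = algebraMap R EN r)
    (hAj : A jM = algebraMap KN EN j) (W : ValuationSubring EN)
    (hW : IsGaussAt R π j (W.comap (algebraMap KN EN))) : W.comap A = VM :=
  comap_eq_of_isGaussAt_of_coord hgeo hgM htint
    (fun V hR hπV ht hjV hju =>
      legendre_isGaussAt_coord hgeo.irreducible h2 t jM hrel V hR hπV ht hjV hju) hA hAj W hW

/-- **uniqueness in the coordinate `j`, Hesse.** -/
theorem hesse_comap_eq_of_isGaussAt (hgeo : GeoHyps K₁ π t EM n S)
    (hgM : IsGaussAt R π t (VM.comap (algebraMap KM EM)))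
    (htint : IsIntegral ↥(Algebra.adjoin R {jM}) (algebraMap KM EM t))
    (h3 : IsUnit (3 : R))
    (hrel : 27 * (algebraMap KM EM t) ^ 3 * ((algebraMap KM EM t) ^ 3 + 8) ^ 3 =
      jM * ((algebraMap KM EM t) ^ 3 - 1) ^ 3)
    (hA : ∀ r : R, A (algebraMap R EM r) = algebraMap R EN r)
    (hAj : A jM = algebraMap KN EN j) (W : ValuationSubring EN)
    (hW : IsGaussAt R π j (W.comap (algebraMap KN EN))) : W.comap A = VM :=
  comap_eq_of_isGaussAt_of_coord hgeo hgM htint
    (fun V hR hπV ht hjV hju =>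
      hesse_isGaussAt_coord hgeo.irreducible h3 t jM hrel V hR hπV ht hjV hju) hA hAj W hW

end Main

end Fermat.Agent.SS
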