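/-
(SS-q) package SS-GRP — helper3. The two group lemmas of the Galois part of the proof of (SS-q).

`G = Gal(L/F₀)`, `H = Gal(L/F₁)` (abelian, normal).

* `conj_eq_of_mem_decomp_of_inertia` (step 4): if `I` is normalised by `D ≤ G` (inertia and decomposition group of a
  sheet), `I ∩ H = 1` (`L/F₁` unramified at the sheet) and `G = I · H` (`F₁/F₀` totally ramified),
  then conjugation by any element of `G` is trivial on `D ∩ H`.
* `conj_eq_of_normal_complement` (step 5): if `D ⊴ G`, `D ∩ H = 1`, `G = D · H`, then conjugation by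
  any element of `G` is trivial on `H`.
-/
import Mathlib

set_option autoImplicit false

namespace Fermat.Agent.SS

variable {G : Type*} [Group G]

/-- step 4 of (SS-q): the quotient `G/H` acts trivially on `D ∩ H`. -/
theorem conj_eq_of_mem_decomp_of_inertia (H D I : Subgroup G) [H.Normal]
    (hHab : ∀ a ∈ H, ∀ b ∈ H, a * b = b * a)
    (hIn : ∀ d ∈ D, ∀ i ∈ I, d * i * d⁻¹ ∈ I)
    (hdis : ∀ x, x ∈ I → x ∈ H → x = 1)
    (hsurj : ∀ g : G, ∃ i ∈ I, ∃ h ∈ H, g = i * h) :
    ∀ g : G, ∀ h ∈ D ⊓ H, g * h * g⁻¹ = h := by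
  intro g h hh
  obtain ⟨hhD, hhH⟩ := Subgroup.mem_inf.1 hh
  obtain ⟨i, hi, h', hh', rfl⟩ := hsurj g
  -- `h'` commutes with `h`
  have h1 : h' * h * h'⁻¹ = h := by
    rw [hHab h' hh' h hhH, mul_assoc, mul_inv_cancel, mul_one]
  -- `i` commutes with `h`: the commutator lies in `I ∩ H`
  have h2 : i * h * i⁻¹ * h⁻¹ = 1 := by
    apply hdis
    · have h3 : h * i⁻¹ * h⁻¹ ∈ I := hIn h hhD i⁻¹ (I.inv_mem hi)
      have : i * h * i⁻¹ * h⁻¹ = i * (h * i⁻¹ * h⁻¹) := by group
      rw [this]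
      exact I.mul_mem hi h3
    · have h3 : i * h * i⁻¹ ∈ H := Subgroup.Normal.conj_mem inferInstance h hhH i
      exact H.mul_mem h3 (H.inv_mem hhH)
  have h3 : i * h * i⁻¹ = h := by
    have := congrArg (· * h) h2
    simpa using this
  calc i * h' * h * (i * h')⁻¹ = i * (h' * h * h'⁻¹) * i⁻¹ := by group
    _ = i * h * i⁻¹ := by rw [h1]
    _ = h := h3

/-- step 5 of (SS-q): a normal complement of `H` centralises `H`, hence (for `H` abelian) the whole
group acts trivially on `H` by conjugation. -/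
theorem conj_eq_of_normal_complement (H D : Subgroup G) [H.Normal]
    (hHab : ∀ a ∈ H, ∀ b ∈ H, a * b = b * a)
    (hDn : ∀ g : G, ∀ d ∈ D, g * d * g⁻¹ ∈ D)
    (hdis : ∀ x, x ∈ D → x ∈ H → x = 1)
    (hsurj : ∀ g : G, ∃ d ∈ D, ∃ h ∈ H, g = d * h) :
    ∀ g : G, ∀ h ∈ H, g * h * g⁻¹ = h := by
  have key := conj_eq_of_mem_decomp_of_inertia H ⊤ D hHab
    (fun d _ i hi => hDn d i hi) hdis hsurj
  intro g h hh
  exact key g h (Subgroup.mem_inf.2 ⟨Subgroup.mem_top h, hh⟩)

/-- if all the conjugates `g D g⁻¹` of a subgroup coincide with `D` as soon as they coincide on a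
"connected" family: packaging of the constancy of the decomposition groups. If `Dw : Sh → Subgroup G`
is constant and `G` permutes the sheets compatibly (`Dw (g • s) = g Dw s g⁻¹`), then the common
value is stable under conjugation. -/
theorem conj_mem_of_const {Sh : Type*} [MulAction G Sh] (Dw : Sh → Subgroup G)
    (hconst : ∀ s s' : Sh, Dw s = Dw s')
    (hconj : ∀ (g : G) (s : Sh), ∀ d ∈ Dw s, g * d * g⁻¹ ∈ Dw (g • s)) (s : Sh) :
    ∀ g : G, ∀ d ∈ Dw s, g * d * g⁻¹ ∈ Dw s := by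
  intro g d hd
  have := hconj g s d hd
  rwa [hconst (g • s) s] at this

end Fermat.Agent.SS
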