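/-
(SS-q) helper2: **`j` is integral over `R[j_q]` once `j_q` is integral over `R[j]`** on the tower
fields `E_{Mq} = K(t) · F_{Mq,w}` (the hypothesis `hjint` of MODEL-EXPORT, chart `j⁻¹`): transport by
the Atkin–Lehner involution `hostAL` of `F_{Mq,w}` (no lift to `E_{Mq}` needed), plus the descent of
integrality over `R[y]` along an injective ring homomorphism.
-/
import Mathlib
import Fermat.Agent.SS.HOSTW_helper2_Main
import Fermat.Agent.SS.NODE_helper8_Model

set_option autoImplicit false
set_option linter.unusedSectionVars false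
set_option linter.style.haveILetI false
set_option synthInstance.maxHeartbeats 200000

open HahnSeries ModularCurve Polynomial IntermediateField
open Fermat.Agent.JA Fermat.Agent.X0N Fermat.Agent.RatStr

namespace Fermat.Agent.SS

open scoped Fermat.Agent.JA.Host

section Descent

variable {R : Type*} [CommRing R]

/-- integrality over `R[y]` descends along an injective ring homomorphism over `R`. -/
theorem isIntegral_adjoin_of_map_injective {S T : Type*} [CommRing S] [CommRing T] [Algebra R S]
    [Algebra R T] (φ : S →+* T) (hφ : ∀ r : R, φ (algebraMap R S r) = algebraMap R T r)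
    (hinj : Function.Injective φ) {y x : S}
    (h : IsIntegral ↥(Algebra.adjoin R {φ y}) (φ x)) : IsIntegral ↥(Algebra.adjoin R {y}) x := by
  set φ' : S →ₐ[R] T := { φ with commutes' := hφ } with hφ'
  have hmap : (Algebra.adjoin R {y}).map φ' = Algebra.adjoin R {φ y} := by
    rw [AlgHom.map_adjoin, Set.image_singleton]
    rfl
  obtain ⟨p, hpm, hp0⟩ := h
  -- lift the coefficients
  have hlift : ∀ c : ↥(Algebra.adjoin R {φ y}), ∃ c' : ↥(Algebra.adjoin R {y}),
      φ (c' : S) = (c : T) := by
    intro c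
    have hc : (c : T) ∈ (Algebra.adjoin R {y}).map φ' := by rw [hmap]; exact c.2
    obtain ⟨s, hs, hsc⟩ := hc
    exact ⟨⟨s, hs⟩, hsc⟩
  choose g hg using hlift
  -- the lifted polynomial
  set p' : (↥(Algebra.adjoin R {y}))[X] :=
    X ^ p.natDegree + ∑ i ∈ Finset.range p.natDegree, Polynomial.C (g (p.coeff i)) * X ^ i with hp'
  have hdeg : (∑ i ∈ Finset.range p.natDegree, Polynomial.C (g (p.coeff i)) * X ^ i :
      (↥(Algebra.adjoin R {y}))[X]).degree < (p.natDegree : WithBot ℕ) := by
    refine (Polynomial.degree_sum_le _ _).trans_lt ?_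
    rw [Finset.sup_lt_iff (WithBot.bot_lt_coe _)]
    intro i hi
    refine (Polynomial.degree_C_mul_X_pow_le _ _).trans_lt ?_
    exact_mod_cast Finset.mem_range.mp hi
  refine ⟨p', Polynomial.monic_X_pow_add hdeg, ?_⟩
  apply hinj
  rw [map_zero]
  have h1 : φ (eval₂ (algebraMap ↥(Algebra.adjoin R {y}) S) x p') =
      eval₂ (algebraMap ↥(Algebra.adjoin R {φ y}) T) (φ x) p := by
    rw [hp', eval₂_add, eval₂_pow, eval₂_X, eval₂_finsetSum, map_add, map_pow, map_sum]
    conv_rhs => rw [Polynomial.eval₂_eq_sum_range, Finset.sum_range_succ]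
    rw [hpm.coeff_natDegree, map_one, one_mul, add_comm]
    congr 1
    refine Finset.sum_congr rfl fun i _ => ?_
    rw [eval₂_mul, eval₂_C, eval₂_pow, eval₂_X, map_mul, map_pow]
    congr 1
    exact hg (p.coeff i)
  rw [h1]
  exact hp0

end Descent

section JInt

variable {K : Type*} [Field K] [Algebra ℚ K] (ι : K →+* ℂ) {M q : ℕ} [NeZero M] [NeZero q]
  {x y : ℤ} (h : (q : ℤ) * x + M * y = 1) (hq : q.Prime) (w : ℕ) [NeZero w]
  (t : LaurentSeries K)
  {R : Type*} [CommRing R] [Algebra R K] [Algebra R ↥(Host.Etu (keyFw K (M * q) w) t 1)]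
  [IsScalarTower R K ↥(Host.Etu (keyFw K (M * q) w) t 1)]

include ι h hq in
/-- **`j` is integral over `R[j_q]` as soon as `j_q` is integral over `R[j]`** (on the tower field
`E_{Mq}`; `R` any ring of constants): transport by the Atkin–Lehner involution of `F_{Mq,w}`, which
swaps `j = j(x^w)` and `j_q = j(x^{wq})`.  No lift of `w_q` to `E_{Mq}` is needed. -/
theorem isIntegral_jA_of_isIntegral_jB (jA jB : ↥(Host.Etu (keyFw K (M * q) w) t 1))
    (hjA : (jA : LaurentSeries K) = jqNModC K w)
    (hjB : (jB : LaurentSeries K) = qExpand K q (jqNModC K w))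
    (hint : IsIntegral ↥(Algebra.adjoin R {jA}) jB) :
    IsIntegral ↥(Algebra.adjoin R {jB}) jA := by
  letI algF : Algebra R ↥(keyFw K (M * q) w) :=
    ((algebraMap K ↥(keyFw K (M * q) w)).comp (algebraMap R K)).toAlgebra
  set incl : ↥(keyFw K (M * q) w) →+* ↥(Host.Etu (keyFw K (M * q) w) t 1) :=
    (IntermediateField.inclusion (keyFw_le_Etu K (M * q) w t)).toRingHom with hincl
  have hinclR : ∀ r : R, incl (algebraMap R ↥(keyFw K (M * q) w) r) =
      algebraMap R ↥(Host.Etu (keyFw K (M * q) w) t 1) r := by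
    intro r
    rw [IsScalarTower.algebraMap_apply R K ↥(Host.Etu (keyFw K (M * q) w) t 1)]
    rfl
  have hALR : ∀ r : R, hostAL ι h hq w (algebraMap R ↥(keyFw K (M * q) w) r) =
      algebraMap R ↥(keyFw K (M * q) w) r := by
    intro r
    exact hostAL_algebraMap ι h hq w (algebraMap R K r)
  -- the two `j`-functions in `F_{Mq,w}`
  set a₀ : ↥(keyFw K M w) := ⟨jqNModC K w, jqNModC_mem_keyFw M w⟩ with ha₀
  set a : ↥(keyFw K (M * q) w) := IntermediateField.inclusion (hw2_keyFw_le w) a₀ with ha
  set b : ↥(keyFw K (M * q) w) := hostAL ι h hq w a with hb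
  have hbcoe : (b : LaurentSeries K) = qExpand K q (jqNModC K w) :=
    coe_hostAL_inclusion ι h hq w a₀
  have hAa : hostAL ι h hq w b = a := hostAL_hostAL ι h hq w a
  have hia : incl a = jA := Subtype.ext hjA.symm
  have hib : incl b = jB := Subtype.ext (hbcoe.trans hjB.symm)
  -- descend, swap, ascend
  have h1 : IsIntegral ↥(Algebra.adjoin R {a}) b := by
    refine isIntegral_adjoin_of_map_injective incl hinclR
      (IntermediateField.inclusion (keyFw_le_Etu K (M * q) w t)).toRingHom.injective ?_
    rw [hia, hib]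
    exact hint
  have h2 := isIntegral_adjoin_map (hostAL ι h hq w) hALR h1
  rw [hAa] at h2
  have h3 := isIntegral_adjoin_map incl hinclR h2
  rw [hia, hib] at h3
  exact h3

end JInt

end Fermat.Agent.SS
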