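/-
(SS-q) MODEL-GLOBAL [F] nodes — helper8 — transfer between two charts `B₁, B₂ ⊆ E` glued along a
unit `u` (`u ∈ B₂`, `u⁻¹ ∈ B₁`, `B₁ ⊆ B₂[u⁻¹]`, `B₂ ⊆ B₁[u]`): closed points of `B₂` off `u = 0`
correspond to closed points of `B₁`, and branch uniformizers transfer.
-/
import Mathlib
import Fermat.Agent.SS.NODE_helper8_Abs

set_option autoImplicit false
set_option linter.style.haveILetI false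

namespace Fermat.Agent.SS

section Transfer

variable {R : Type*} [CommRing R] {E : Type*} [Field E] [Algebra R E]
  (B₁ B₂ : Subalgebra R E) (u : E)

/-- the ideal of `B₁` corresponding to an ideal of `B₂` (off `u = 0`). -/
def pullIdeal (h12 : ∀ b ∈ B₁, ∃ n : ℕ, u ^ n * b ∈ B₂) (hu₂ : u ∈ B₂) (I : Ideal ↥B₂) :
    Ideal ↥B₁ where
  carrier := {b₁ | ∃ (n : ℕ) (b₂ : ↥B₂), b₂ ∈ I ∧ (b₂ : E) = u ^ n * (b₁ : E)}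
  zero_mem' := ⟨0, 0, I.zero_mem, by simp⟩
  add_mem' := by
    rintro a b ⟨n, a₂, ha₂, ha⟩ ⟨m, b₂, hb₂, hb⟩
    refine ⟨n + m, ⟨u, hu₂⟩ ^ m * a₂ + ⟨u, hu₂⟩ ^ n * b₂,
      I.add_mem (I.mul_mem_left _ ha₂) (I.mul_mem_left _ hb₂), ?_⟩
    push_cast
    rw [ha, hb]
    show u ^ m * (u ^ n * (a : E)) + u ^ n * (u ^ m * (b : E)) = u ^ (n + m) * ((a : E) + (b : E))
    ring
  smul_mem' := by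
    rintro c b ⟨n, b₂, hb₂, hb⟩
    obtain ⟨k, hk⟩ := h12 c c.2
    refine ⟨k + n, ⟨u ^ k * c, hk⟩ * b₂, I.mul_mem_left _ hb₂, ?_⟩
    push_cast
    rw [hb]
    show u ^ k * (c : E) * (u ^ n * (b : E)) = u ^ (k + n) * ((c : E) * (b : E))
    ring

variable {B₁ B₂ u}

theorem mem_pullIdeal {h12 : ∀ b ∈ B₁, ∃ n : ℕ, u ^ n * b ∈ B₂} {hu₂ : u ∈ B₂} {I : Ideal ↥B₂}
    {b₁ : ↥B₁} : b₁ ∈ pullIdeal B₁ B₂ u h12 hu₂ I ↔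
      ∃ (n : ℕ) (b₂ : ↥B₂), b₂ ∈ I ∧ (b₂ : E) = u ^ n * (b₁ : E) := Iff.rfl

/-- the compatibility of `pullIdeal` for a prime ideal off `u = 0`. -/
theorem mem_pullIdeal_iff {h12 : ∀ b ∈ B₁, ∃ n : ℕ, u ^ n * b ∈ B₂} {hu₂ : u ∈ B₂}
    {I : Ideal ↥B₂} [hI : I.IsPrime] (huI : (⟨u, hu₂⟩ : ↥B₂) ∉ I)
    (b₁ : ↥B₁) (b₂ : ↥B₂) (n : ℕ) (h : (b₂ : E) = u ^ n * (b₁ : E)) :
    b₂ ∈ I ↔ b₁ ∈ pullIdeal B₁ B₂ u h12 hu₂ I := by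
  constructor
  · intro hb₂
    exact ⟨n, b₂, hb₂, h⟩
  · rintro ⟨m, c₂, hc₂, hc⟩
    have e : (⟨u, hu₂⟩ : ↥B₂) ^ m * b₂ = ⟨u, hu₂⟩ ^ n * c₂ := by
      apply Subtype.ext
      push_cast
      rw [h, hc]
      show u ^ m * (u ^ n * (b₁ : E)) = u ^ n * (u ^ m * (b₁ : E))
      ring
    have h1 : (⟨u, hu₂⟩ : ↥B₂) ^ m * b₂ ∈ I := by
      rw [e]; exact I.mul_mem_left _ hc₂
    rcases hI.mem_or_mem h1 with h2 | h2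
    · exact absurd (hI.mem_of_pow_mem _ h2) huI
    · exact h2

/-- sheets transfer: compatible ideals `𝔭₁`, `𝔭₂` with `𝔭₂ ≤ 𝔪₂` give `𝔭₁ ≤ pullIdeal 𝔪₂`. -/
theorem le_pullIdeal {h12 : ∀ b ∈ B₁, ∃ n : ℕ, u ^ n * b ∈ B₂} {hu₂ : u ∈ B₂}
    {𝔭₁ : Ideal ↥B₁} {𝔭₂ 𝔪₂ : Ideal ↥B₂}
    (hC : ∀ (b₁ : ↥B₁) (b₂ : ↥B₂) (n : ℕ), (b₂ : E) = u ^ n * (b₁ : E) → (b₂ ∈ 𝔭₂ ↔ b₁ ∈ 𝔭₁))
    (hle : 𝔭₂ ≤ 𝔪₂) : 𝔭₁ ≤ pullIdeal B₁ B₂ u h12 hu₂ 𝔪₂ := by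
  intro b₁ hb₁
  obtain ⟨n, hn⟩ := h12 b₁ b₁.2
  exact ⟨n, ⟨_, hn⟩, hle ((hC b₁ ⟨_, hn⟩ n rfl).mpr hb₁), rfl⟩

/-- the point of `B₁` corresponding to a closed point of `B₂` with residue field of constants is
closed, with residue field of constants. -/
theorem pullIdeal_isMaximal {h12 : ∀ b ∈ B₁, ∃ n : ℕ, u ^ n * b ∈ B₂} {hu₂ : u ∈ B₂}
    (hu0 : u ≠ 0) (hu₁ : u⁻¹ ∈ B₁)
    {𝔪₂ : Ideal ↥B₂} [h𝔪₂ : 𝔪₂.IsMaximal] (hu𝔪 : (⟨u, hu₂⟩ : ↥B₂) ∉ 𝔪₂)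
    (hres : ∀ b : ↥B₂, ∃ r : R, b - algebraMap R ↥B₂ r ∈ 𝔪₂) :
    (pullIdeal B₁ B₂ u h12 hu₂ 𝔪₂).IsMaximal ∧
      ∀ b : ↥B₁, ∃ r : R, b - algebraMap R ↥B₁ r ∈ pullIdeal B₁ B₂ u h12 hu₂ 𝔪₂ := by
  haveI := h𝔪₂.isPrime
  set 𝔪₁ := pullIdeal B₁ B₂ u h12 hu₂ 𝔪₂ with h𝔪₁
  have hiff := mem_pullIdeal_iff (h12 := h12) (hu₂ := hu₂) hu𝔪
  -- `u ≡ ρ` with `ρ` a constant
  obtain ⟨ρ, hρ⟩ := hres ⟨u, hu₂⟩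
  have hρ𝔪 : algebraMap R ↥B₂ ρ ∉ 𝔪₂ := by
    intro h
    apply hu𝔪
    have : (⟨u, hu₂⟩ : ↥B₂) = (⟨u, hu₂⟩ - algebraMap R ↥B₂ ρ) + algebraMap R ↥B₂ ρ := by ring
    rw [this]
    exact 𝔪₂.add_mem hρ h
  -- constants: membership agrees
  have hconst : ∀ r : R, algebraMap R ↥B₁ r ∈ 𝔪₁ ↔ algebraMap R ↥B₂ r ∈ 𝔪₂ := by
    intro r
    rw [hiff (algebraMap R ↥B₁ r) (algebraMap R ↥B₂ r) 0 (by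
      rw [pow_zero, one_mul]; rfl)]
  -- `u⁻¹ ρ ≡ 1`
  have hinvρ : (⟨u⁻¹, hu₁⟩ : ↥B₁) * algebraMap R ↥B₁ ρ - 1 ∈ 𝔪₁ := by
    rw [← hiff _ (algebraMap R ↥B₂ ρ - ⟨u, hu₂⟩) 1]
    · have : algebraMap R ↥B₂ ρ - ⟨u, hu₂⟩ = -(⟨u, hu₂⟩ - algebraMap R ↥B₂ ρ) := by ring
      rw [this]; exact 𝔪₂.neg_mem hρ
    · push_cast
      show (algebraMap R E ρ : E) - u = u ^ 1 * (u⁻¹ * algebraMap R E ρ - 1)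
      rw [pow_one, mul_sub, ← mul_assoc, mul_inv_cancel₀ hu0, one_mul, mul_one]
  -- constants which are units at `𝔪₂` have constant inverses
  have hinv : ∀ r : R, algebraMap R ↥B₂ r ∉ 𝔪₂ →
      ∃ r' : R, algebraMap R ↥B₂ r * algebraMap R ↥B₂ r' - 1 ∈ 𝔪₂ := by
    intro r hr
    obtain ⟨y, i, hi, hyi⟩ := h𝔪₂.exists_inv hr
    obtain ⟨r', hr'⟩ := hres y
    refine ⟨r', ?_⟩
    have e : algebraMap R ↥B₂ r * algebraMap R ↥B₂ r' - 1 =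
        -(algebraMap R ↥B₂ r * (y - algebraMap R ↥B₂ r')) - i := by
      rw [← hyi]; ring
    rw [e]
    exact 𝔪₂.sub_mem (𝔪₂.neg_mem (𝔪₂.mul_mem_left _ hr')) hi
  -- residue field of constants
  have hres₁ : ∀ b : ↥B₁, ∃ r : R, b - algebraMap R ↥B₁ r ∈ 𝔪₁ := by
    intro b
    obtain ⟨n, hn⟩ := h12 b b.2
    obtain ⟨r, hr⟩ := hres ⟨_, hn⟩
    obtain ⟨ρ', hρ'⟩ := hinv ρ hρ𝔪
    refine ⟨r * ρ' ^ n, ?_⟩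
    have hb₂ : (⟨u ^ n * (b : E), hn⟩ : ↥B₂) - ⟨u, hu₂⟩ ^ n * algebraMap R ↥B₂ (r * ρ' ^ n) ∈ 𝔪₂ := by
      -- `u ≡ ρ`, `ρ ρ' ≡ 1`
      have h1 : (⟨u, hu₂⟩ : ↥B₂) * algebraMap R ↥B₂ ρ' - 1 ∈ 𝔪₂ := by
        have e : (⟨u, hu₂⟩ : ↥B₂) * algebraMap R ↥B₂ ρ' - 1 =
            (⟨u, hu₂⟩ - algebraMap R ↥B₂ ρ) * algebraMap R ↥B₂ ρ' +
              (algebraMap R ↥B₂ ρ * algebraMap R ↥B₂ ρ' - 1) := by ring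
        rw [e]
        exact 𝔪₂.add_mem (𝔪₂.mul_mem_right _ hρ) hρ'
      have h2 : ((⟨u, hu₂⟩ : ↥B₂) * algebraMap R ↥B₂ ρ') ^ n - 1 ∈ 𝔪₂ := by
        obtain ⟨d, hd⟩ := sub_dvd_pow_sub_pow ((⟨u, hu₂⟩ : ↥B₂) * algebraMap R ↥B₂ ρ') 1 n
        rw [one_pow] at hd
        rw [hd]
        exact 𝔪₂.mul_mem_right _ h1
      have e : (⟨u ^ n * (b : E), hn⟩ : ↥B₂) - ⟨u, hu₂⟩ ^ n * algebraMap R ↥B₂ (r * ρ' ^ n) =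
          ((⟨u ^ n * (b : E), hn⟩ : ↥B₂) - algebraMap R ↥B₂ r) -
            algebraMap R ↥B₂ r * (((⟨u, hu₂⟩ : ↥B₂) * algebraMap R ↥B₂ ρ') ^ n - 1) := by
        rw [map_mul, map_pow]; ring
      rw [e]
      exact 𝔪₂.sub_mem hr (𝔪₂.mul_mem_left _ h2)
    rw [← hiff _ _ n ?_] 
    · exact hb₂
    · push_cast
      show u ^ n * (b : E) - u ^ n * (algebraMap R E r * algebraMap R E ρ' ^ n) =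
        u ^ n * ((b : E) - algebraMap R E r * algebraMap R E ρ' ^ n)
      ring
  refine ⟨?_, hres₁⟩
  rw [Ideal.isMaximal_iff]
  constructor
  · intro h1
    have := (hiff 1 1 0 (by simp)).mpr h1
    exact h𝔪₂.ne_top ((Ideal.eq_top_iff_one _).mpr this)
  · intro J x hJ hx hxJ
    obtain ⟨r, hr⟩ := hres₁ x
    have hr𝔪 : algebraMap R ↥B₁ r ∉ 𝔪₁ := by
      intro h
      apply hx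
      have : x = (x - algebraMap R ↥B₁ r) + algebraMap R ↥B₁ r := by ring
      rw [this]
      exact 𝔪₁.add_mem hr h
    obtain ⟨r', hr'⟩ := hinv r (fun h => hr𝔪 ((hconst r).mpr h))
    have hr'₁ : algebraMap R ↥B₁ r * algebraMap R ↥B₁ r' - 1 ∈ 𝔪₁ := by
      have h1 := (hconst (r * r' - 1)).mpr (by
        rw [map_sub, map_mul, map_one]; exact hr')
      rwa [map_sub, map_mul, map_one] at h1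
    have e : (1 : ↥B₁) = -(algebraMap R ↥B₁ r * algebraMap R ↥B₁ r' - 1) -
        algebraMap R ↥B₁ r' * (x - algebraMap R ↥B₁ r) + algebraMap R ↥B₁ r' * x := by ring
    rw [e]
    exact J.add_mem (J.sub_mem (J.neg_mem (hJ hr'₁)) (J.mul_mem_left _ (hJ hr)))
      (J.mul_mem_left _ hxJ)

/-- **transfer of a branch uniformizer** from the chart `B₁` to the chart `B₂`. -/
theorem IsBranchUniformizer.of_pullIdeal {h12 : ∀ b ∈ B₁, ∃ n : ℕ, u ^ n * b ∈ B₂}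
    {hu₂ : u ∈ B₂} (hu0 : u ≠ 0) (h21 : ∀ b ∈ B₂, ∃ n : ℕ, u⁻¹ ^ n * b ∈ B₁)
    {𝔭₁ : Ideal ↥B₁} {𝔭₂ 𝔪₂ : Ideal ↥B₂} [h𝔪₂ : 𝔪₂.IsPrime]
    (hu𝔪 : (⟨u, hu₂⟩ : ↥B₂) ∉ 𝔪₂)
    (hC : ∀ (b₁ : ↥B₁) (b₂ : ↥B₂) (n : ℕ), (b₂ : E) = u ^ n * (b₁ : E) → (b₂ ∈ 𝔭₂ ↔ b₁ ∈ 𝔭₁))
    {x₁ : ↥B₁} (hx₁ : IsBranchUniformizer 𝔭₁ (pullIdeal B₁ B₂ u h12 hu₂ 𝔪₂) x₁)
    (x₂ : ↥B₂) (n : ℕ) (hx : (x₂ : E) = u ^ n * (x₁ : E)) :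
    IsBranchUniformizer 𝔭₂ 𝔪₂ x₂ where
  mem := (mem_pullIdeal_iff hu𝔪 x₁ x₂ n hx).mpr hx₁.mem
  notMem := fun h => hx₁.notMem ((hC x₁ x₂ n hx).mp h)
  gen := by
    intro w₂ hw₂
    have hiff := mem_pullIdeal_iff (h12 := h12) (hu₂ := hu₂) hu𝔪
    obtain ⟨k, hk⟩ := h21 w₂ w₂.2
    set w₁ : ↥B₁ := ⟨u⁻¹ ^ k * (w₂ : E), hk⟩ with hw₁
    have hw : (w₂ : E) = u ^ k * (w₁ : E) := by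
      show (w₂ : E) = u ^ k * (u⁻¹ ^ k * (w₂ : E))
      rw [← mul_assoc, ← mul_pow, mul_inv_cancel₀ hu0, one_pow, one_mul]
    have hw₁𝔪 : w₁ ∈ pullIdeal B₁ B₂ u h12 hu₂ 𝔪₂ := (hiff w₁ w₂ k hw).mp hw₂
    obtain ⟨a₁, s₁, hs₁, has⟩ := hx₁.gen w₁ hw₁𝔪
    obtain ⟨p₁, hp₁⟩ := h12 s₁ s₁.2
    obtain ⟨p₂, hp₂⟩ := h12 a₁ a₁.2
    set S : ↥B₂ := ⟨u, hu₂⟩ ^ (p₂ + n) * ⟨u ^ p₁ * (s₁ : E), hp₁⟩ with hS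
    set A : ↥B₂ := ⟨u, hu₂⟩ ^ (p₁ + k) * ⟨u ^ p₂ * (a₁ : E), hp₂⟩ with hA
    refine ⟨A, S, ?_, ?_⟩
    · intro hmem
      apply hs₁
      refine (hiff s₁ S (p₂ + n + p₁) ?_).mp hmem
      rw [hS]
      push_cast
      show u ^ (p₂ + n) * (u ^ p₁ * (s₁ : E)) = u ^ (p₂ + n + p₁) * (s₁ : E)
      ring
    · refine (hC (s₁ * w₁ - a₁ * x₁) (S * w₂ - A * x₂) (p₁ + p₂ + n + k) ?_).mpr has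
      rw [hS, hA]
      push_cast
      rw [hw, hx]
      show u ^ (p₂ + n) * (u ^ p₁ * (s₁ : E)) * (u ^ k * (w₁ : E)) -
          u ^ (p₁ + k) * (u ^ p₂ * (a₁ : E)) * (u ^ n * (x₁ : E)) =
        u ^ (p₁ + p₂ + n + k) * ((s₁ : E) * (w₁ : E) - (a₁ : E) * (x₁ : E))
      ring

/-- **node data on the second chart**: if the first chart has node data at every node, so has the
second chart at every node off `u = 0` (with residue field of constants). -/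
theorem exists_node_uniformizers_of_transfer
    (h12 : ∀ b ∈ B₁, ∃ n : ℕ, u ^ n * b ∈ B₂) (hu₂ : u ∈ B₂)
    (hu0 : u ≠ 0) (hu₁ : u⁻¹ ∈ B₁) (h21 : ∀ b ∈ B₂, ∃ n : ℕ, u⁻¹ ^ n * b ∈ B₁)
    {𝔭inf₁ 𝔭0₁ : Ideal ↥B₁} {𝔭inf₂ 𝔭0₂ : Ideal ↥B₂}
    (hCinf : ∀ (b₁ : ↥B₁) (b₂ : ↥B₂) (n : ℕ), (b₂ : E) = u ^ n * (b₁ : E) →
      (b₂ ∈ 𝔭inf₂ ↔ b₁ ∈ 𝔭inf₁))
    (hC0 : ∀ (b₁ : ↥B₁) (b₂ : ↥B₂) (n : ℕ), (b₂ : E) = u ^ n * (b₁ : E) →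
      (b₂ ∈ 𝔭0₂ ↔ b₁ ∈ 𝔭0₁))
    (hnode₁ : ∀ 𝔪₁ : Ideal ↥B₁, 𝔪₁.IsMaximal → 𝔭inf₁ ≤ 𝔪₁ → 𝔭0₁ ≤ 𝔪₁ → ∃ x y : ↥B₁,
      IsBranchUniformizer 𝔭inf₁ 𝔪₁ x ∧ x ∈ 𝔭0₁ ∧ IsBranchUniformizer 𝔭0₁ 𝔪₁ y ∧ y ∈ 𝔭inf₁)
    (𝔪₂ : Ideal ↥B₂) (h𝔪₂ : 𝔪₂.IsMaximal) (hinf₂ : 𝔭inf₂ ≤ 𝔪₂) (h0₂ : 𝔭0₂ ≤ 𝔪₂)
    (hu𝔪 : (⟨u, hu₂⟩ : ↥B₂) ∉ 𝔪₂)
    (hres : ∀ b : ↥B₂, ∃ r : R, b - algebraMap R ↥B₂ r ∈ 𝔪₂) :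
    ∃ x y : ↥B₂, IsBranchUniformizer 𝔭inf₂ 𝔪₂ x ∧ x ∈ 𝔭0₂ ∧
      IsBranchUniformizer 𝔭0₂ 𝔪₂ y ∧ y ∈ 𝔭inf₂ := by
  haveI := h𝔪₂
  haveI := h𝔪₂.isPrime
  obtain ⟨hmax, -⟩ := pullIdeal_isMaximal (h12 := h12) (hu₂ := hu₂) hu0 hu₁ hu𝔪 hres
  obtain ⟨x₁, y₁, hx₁, hx₁0, hy₁, hy₁inf⟩ := hnode₁ _ hmax
    (le_pullIdeal hCinf hinf₂) (le_pullIdeal hC0 h0₂)
  obtain ⟨n, hn⟩ := h12 x₁ x₁.2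
  obtain ⟨m, hm⟩ := h12 y₁ y₁.2
  refine ⟨⟨_, hn⟩, ⟨_, hm⟩, ?_, ?_, ?_, ?_⟩
  · exact hx₁.of_pullIdeal hu0 h21 hu𝔪 hCinf _ n rfl
  · exact (hC0 x₁ _ n rfl).mpr hx₁0
  · exact hy₁.of_pullIdeal hu0 h21 hu𝔪 hC0 _ m rfl
  · exact (hCinf y₁ _ m rfl).mpr hy₁inf

end Transfer

end Fermat.Agent.SS
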