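/-
(SS-q), glue NODEPLACE, helper1. **The retraction attached to a rational place.**
`R₁` a discrete valuation ring with uniformizer `π`, `K₁ = Frac R₁`, `E/K₁` a field, `O ⊂ E` a local
`R₁`-algebra with `π ∈ 𝔪_O`, `P` a `K₁`-rational place of `E/K₁` with `O ⊂ O_P`. Then
`placeRetraction : O →ₐ[R₁] R₁` (the value map of `P`) has kernel `centreIdeal P`, and `ord_P`
satisfies the hypotheses of helper5's `valuation_eq_of_isUnitAtPrime` at that kernel.
-/
import Mathlib
import Fermat.Agent.JA.REDA_helper1_Rational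
import Fermat.Agent.FF.Gal_helper7_Restrict
import Fermat.Agent.SS.NODEALG_helper5_Order

set_option autoImplicit false
set_option linter.style.haveILetI false
set_option linter.unusedSectionVars false

open AlgebraicCurve IsLocalRing

namespace Fermat.Agent.SS

open Fermat.Agent.FF Fermat.Agent.JA

section Retraction

variable {R₁ : Type*} [CommRing R₁] [IsDomain R₁] [IsDiscreteValuationRing R₁]
  {K₁ : Type*} [Field K₁] [Algebra R₁ K₁] [IsFractionRing R₁ K₁]
  {E : Type*} [Field E] [Algebra K₁ E] [Algebra R₁ E] [IsScalarTower R₁ K₁ E]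
  {O : Type*} [CommRing O] [IsLocalRing O] [Algebra R₁ O] [Algebra O E] [IsScalarTower R₁ O E]

variable (P : Place K₁ E) (hO : ∀ x : O, algebraMap O E x ∈ P.toValuationSubring) {π : R₁}
  (hπ : Irreducible π) (hπO : algebraMap R₁ O π ∈ maximalIdeal O) (hrat : IsRationalPlace P)

omit [IsLocalRing O] in
/-- the value in `R₁` of an element of `O` at `P` is unique. -/
theorem eq_of_sub_algebraMap_mem_centreIdeal {x : O} {r r' : R₁}
    (h : x - algebraMap R₁ O r ∈ centreIdeal P hO)
    (h' : x - algebraMap R₁ O r' ∈ centreIdeal P hO) : r = r' := by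
  by_contra hne
  have h1 : algebraMap R₁ O (r - r') ∈ centreIdeal P hO := by
    have : algebraMap R₁ O (r - r') = (x - algebraMap R₁ O r') - (x - algebraMap R₁ O r) := by
      rw [map_sub]; ring
    rw [this]
    exact Ideal.sub_mem _ h' h
  exact algebraMap_not_mem_centreIdeal P hO (sub_ne_zero.mpr hne) h1

/-- the value map `O → R₁` of a rational place, as a function. -/
noncomputable def placeValue (x : O) : R₁ :=
  (exists_isZeroAt_sub_algebraMap P hO hπ hπO hrat x).choose

theorem placeValue_spec (x : O) :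
    x - algebraMap R₁ O (placeValue P hO hπ hπO hrat x) ∈ centreIdeal P hO :=
  (exists_isZeroAt_sub_algebraMap P hO hπ hπO hrat x).choose_spec

theorem placeValue_eq {x : O} {r : R₁} (h : x - algebraMap R₁ O r ∈ centreIdeal P hO) :
    placeValue P hO hπ hπO hrat x = r :=
  eq_of_sub_algebraMap_mem_centreIdeal P hO (placeValue_spec P hO hπ hπO hrat x) h

/-- **the retraction `O →ₐ[R₁] R₁` attached to a rational place `P ⊇ O`** (the value map). -/
noncomputable def placeRetraction : O →ₐ[R₁] R₁ where
  toFun := placeValue P hO hπ hπO hrat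
  map_one' := by
    apply placeValue_eq
    rw [map_one, sub_self]
    exact Ideal.zero_mem _
  map_mul' x y := by
    apply placeValue_eq
    have h1 := placeValue_spec P hO hπ hπO hrat x
    have h2 := placeValue_spec P hO hπ hπO hrat y
    have : x * y - algebraMap R₁ O (placeValue P hO hπ hπO hrat x *
        placeValue P hO hπ hπO hrat y) =
        (x - algebraMap R₁ O (placeValue P hO hπ hπO hrat x)) * y +
          algebraMap R₁ O (placeValue P hO hπ hπO hrat x) *
            (y - algebraMap R₁ O (placeValue P hO hπ hπO hrat y)) := by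
      rw [map_mul]; ring
    rw [this]
    exact Ideal.add_mem _ (Ideal.mul_mem_right _ _ h1) (Ideal.mul_mem_left _ _ h2)
  map_zero' := by
    apply placeValue_eq
    rw [map_zero, sub_self]
    exact Ideal.zero_mem _
  map_add' x y := by
    apply placeValue_eq
    have h1 := placeValue_spec P hO hπ hπO hrat x
    have h2 := placeValue_spec P hO hπ hπO hrat y
    have : x + y - algebraMap R₁ O (placeValue P hO hπ hπO hrat x +
        placeValue P hO hπ hπO hrat y) =
        (x - algebraMap R₁ O (placeValue P hO hπ hπO hrat x)) +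
          (y - algebraMap R₁ O (placeValue P hO hπ hπO hrat y)) := by
      rw [map_add]; ring
    rw [this]
    exact Ideal.add_mem _ h1 h2
  commutes' r := by
    apply placeValue_eq
    rw [Algebra.algebraMap_self, RingHom.id_apply, sub_self]
    exact Ideal.zero_mem _

theorem placeRetraction_apply (x : O) :
    placeRetraction P hO hπ hπO hrat x = placeValue P hO hπ hπO hrat x := rfl

/-- `x − (x(P)) ∈ centre`. -/
theorem sub_placeRetraction_mem_centreIdeal (x : O) :
    x - algebraMap R₁ O (placeRetraction P hO hπ hπO hrat x) ∈ centreIdeal P hO :=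
  placeValue_spec P hO hπ hπO hrat x

theorem placeRetraction_eq_iff (x : O) (r : R₁) :
    placeRetraction P hO hπ hπO hrat x = r ↔ x - algebraMap R₁ O r ∈ centreIdeal P hO :=
  ⟨fun h => h ▸ sub_placeRetraction_mem_centreIdeal P hO hπ hπO hrat x,
    fun h => placeValue_eq P hO hπ hπO hrat h⟩

/-- **the kernel of the retraction is the centre of the place.** -/
theorem ker_placeRetraction :
    RingHom.ker (placeRetraction P hO hπ hπO hrat : O →+* R₁) = centreIdeal P hO := by
  ext x
  rw [RingHom.mem_ker]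
  show placeRetraction P hO hπ hπO hrat x = 0 ↔ _
  rw [placeRetraction_eq_iff, map_zero, sub_zero]

/-- the retraction computes the value of `x ∈ O` at `P`. -/
theorem isZeroAt_sub_placeRetraction (x : O) :
    Place.IsZeroAt P (algebraMap O E x -
      algebraMap K₁ E (algebraMap R₁ K₁ (placeRetraction P hO hπ hπO hrat x))) := by
  have h := sub_placeRetraction_mem_centreIdeal P hO hπ hπO hrat x
  rwa [mem_centreIdeal_iff, map_sub, ← IsScalarTower.algebraMap_apply,
    IsScalarTower.algebraMap_apply R₁ K₁ E] at h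

end Retraction

section OrdDict

variable {K₁ : Type*} [Field K₁] {E : Type*} [Field E] [Algebra K₁ E]
  {O : Type*} [CommRing O] [IsDomain O] [IsNoetherianRing O] [Algebra O E] [IsFractionRing O E]

variable (P : Place K₁ E) (hO : ∀ x : O, algebraMap O E x ∈ P.toValuationSubring)

/-- `ord_P` vanishes on `O ∖ centre`. -/
theorem ord_eq_zero_of_not_mem_centreIdeal {a : O} (ha : a ∉ centreIdeal P hO) :
    P.ord (algebraMap O E a) = 0 := by
  rw [mem_centreIdeal_iff, Place.isZeroAt_iff] at ha
  have hinv : (algebraMap O E a)⁻¹ ∈ P.toValuationSubring := by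
    by_contra h
    exact ha ⟨hO a, Or.inr h⟩
  exact ord_eq_zero_of_mem_of_inv_mem P (hO a) hinv

/-- `ord_P` is positive on `centre ∖ 0`. -/
theorem ord_pos_of_mem_centreIdeal {a : O} (ha : a ∈ centreIdeal P hO) (ha0 : a ≠ 0) :
    0 < P.ord (algebraMap O E a) := by
  rw [mem_centreIdeal_iff] at ha
  rcases ha with h | h
  · exact absurd ((map_eq_zero_iff _ (IsFractionRing.injective O E)).mp h) ha0
  · exact h

/-- a unit at the centre has order zero. -/
theorem ord_eq_zero_of_isUnitAtPrime {f : E} (hf : IsUnitAtPrime (centreIdeal P hO) f) :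
    P.ord f = 0 := by
  have hf0 := hf.ne_zero
  obtain ⟨r, s, hr, hs, hrs⟩ := hf
  have hs0 : algebraMap O E s ≠ 0 := by
    intro h
    apply hs
    rw [(map_eq_zero_iff _ (IsFractionRing.injective O E)).mp h]
    exact Ideal.zero_mem _
  have h1 := P.ord_mul hf0 hs0
  rw [hrs, ord_eq_zero_of_not_mem_centreIdeal P hO hr,
    ord_eq_zero_of_not_mem_centreIdeal P hO hs] at h1
  omega

/-- **the order dictionary at a locally principal centre** (helper5's
`valuation_eq_of_isUnitAtPrime` for `v = ord_P`): if `z` generates the centre of `P` locally, then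
`ord_P z = 1` and `ord_P f = e` whenever `f / z^e` is a unit at the centre. -/
theorem ord_eq_of_isUnitAtPrime {z : O} (hz : z ∈ centreIdeal P hO) (hz0 : z ≠ 0)
    (hloc : ∀ w ∈ centreIdeal P hO, ∃ s : O, s ∉ centreIdeal P hO ∧ z ∣ s * w) :
    P.ord (algebraMap O E z) = 1 ∧
      ∀ (f : E) (e : ℤ), IsUnitAtPrime (centreIdeal P hO) (f * (algebraMap O E z ^ e)⁻¹) →
        P.ord f = e :=
  valuation_eq_of_isUnitAtPrime (centreIdeal P hO) hz hz0 hloc P.ord
    (fun _ _ ha hb => P.ord_mul ha hb)
    (fun _ ha => ord_eq_zero_of_not_mem_centreIdeal P hO ha)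
    (fun _ ha ha0 => ord_pos_of_mem_centreIdeal P hO ha ha0)
    (Fermat.Agent.FF.Gal.exists_ord_eq_one P)

/-- at a locally principal centre: `f` is a unit at the centre iff `ord_P f = 0`. -/
theorem isUnitAtPrime_iff_ord_eq_zero {z : O} (hz : z ∈ centreIdeal P hO) (hz0 : z ≠ 0)
    (hloc : ∀ w ∈ centreIdeal P hO, ∃ s : O, s ∉ centreIdeal P hO ∧ z ∣ s * w) {f : E}
    (hf : f ≠ 0) : IsUnitAtPrime (centreIdeal P hO) f ↔ P.ord f = 0 := by
  refine ⟨ord_eq_zero_of_isUnitAtPrime P hO, fun h => ?_⟩
  obtain ⟨e, he⟩ := exists_zpow_isUnitAtPrime (centreIdeal P hO) hz hloc hf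
  have h1 := (ord_eq_of_isUnitAtPrime P hO hz hz0 hloc).2 f e he
  rw [h] at h1
  rw [← h1, zpow_zero, inv_one, mul_one] at he
  exact he

/-- **two places containing `O` with the same locally principal centre coincide.** -/
theorem place_eq_of_centreIdeal_eq (P' : Place K₁ E)
    (hO' : ∀ x : O, algebraMap O E x ∈ P'.toValuationSubring)
    (hc : centreIdeal P' hO' = centreIdeal P hO) {z : O} (hz : z ∈ centreIdeal P hO)
    (hz0 : z ≠ 0)
    (hloc : ∀ w ∈ centreIdeal P hO, ∃ s : O, s ∉ centreIdeal P hO ∧ z ∣ s * w) : P = P' := by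
  apply Fermat.Agent.FF.Gal.Place.eq_of_le
  intro f hf
  by_cases hf0 : f = 0
  · rw [hf0]; exact P'.toValuationSubring.zero_mem
  obtain ⟨e, he⟩ := exists_zpow_isUnitAtPrime (centreIdeal P hO) hz hloc hf0
  have h1 := (ord_eq_of_isUnitAtPrime P hO hz hz0 hloc).2 f e he
  have h2 := (ord_eq_of_isUnitAtPrime P' hO' (hc ▸ hz) hz0 (by rw [hc]; exact hloc)).2 f e
    (by rw [hc]; exact he)
  rw [PlaceAux.mem_iff_ord_nonneg' P' hf0, h2, ← h1]
  exact PlaceAux.ord_nonneg_of_mem P hf

end OrdDict

end Fermat.Agent.SS
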