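/-
(SS-q) MODEL-GLOBAL — helper9 — `branch_inf` / `branch_zero` of a chart `u` of level `N` at a
closed point where `A t'` (resp. `B t'`) is regular for `t' = t` or `t' = t⁻¹` (the output shape of
helper1's [CUSPREG] at the cuspidal points of the chart `j⁻¹`): [S'] SINF-EMB applied with the
level-`M` coordinate `t` or `t⁻¹` (`GeoHyps.inv`, `isGaussAt_inv`).
-/
import Mathlib
import Fermat.Agent.SS.SINFEMB_helper9_Chart

set_option autoImplicit false
set_option linter.unusedSectionVars false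
set_option linter.style.haveILetI false

namespace Fermat.Agent.SS

open Fermat.Agent.JA

section Two

variable {R : Type*} [CommRing R] [IsDomain R] [IsDiscreteValuationRing R] [CharZero R]
  {K₁ : Type*} [Field K₁] [Algebra R K₁] [IsFractionRing R K₁]
  {KM : Type*} [Field KM] [Algebra K₁ KM] [Algebra R KM] [IsScalarTower R K₁ KM]
  {EM : Type*} [Field EM] [Algebra KM EM] [Algebra K₁ EM] [IsScalarTower K₁ KM EM] [Algebra R EM]
  [IsScalarTower R KM EM]
  {KN : Type*} [Field KN] [Algebra K₁ KN] [Algebra R KN] [IsScalarTower R K₁ KN]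
  {EN : Type*} [Field EN] [Algebra KN EN] [Algebra K₁ EN] [IsScalarTower K₁ KN EN] [Algebra R EN]
  [IsScalarTower R KN EN] [FiniteDimensional KN EN]
  {π : R} {q n : ℕ} {S : Finset R} {t : KM} {jM : EM} {j : KN} {A B : EM →+* EN}
  {VM : ValuationSubring EM} {Winf W0 : ValuationSubring EN}

/-- **branch_inf at a point where `A t` or `A t⁻¹` is regular** (helper1's [CUSPREG] output): for
the chart `u` (`u = j⁻¹` at the cusps). -/
theorem SSModel.exists_isBranchUniformizer_inf_of_coord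
    [IsAlgClosed (IsLocalRing.ResidueField R)]
    (h : SSModel K₁ π q n S t jM j A B VM Winf W0)
    {u : KN} (hu : Transcendental K₁ u) (hK : IntermediateField.adjoin K₁ {u} = ⊤)
    (h2 : IsTwoSheet π u Winf W0)
    (𝔪 : Ideal ↥(chartOne R EN u)) [h𝔪 : 𝔪.IsMaximal]
    (hinf : sheetIdeal u Winf h2.chart_le_inf ≤ 𝔪)
    (hreg : ∃ t' : KM, (t' = t ∨ t' = t⁻¹) ∧
      A (algebraMap KM EM t') ∈ locRing (chartOne R EN u) 𝔪) :
    ∃ z : ↥(chartOne R EN u), IsBranchUniformizer (sheetIdeal u Winf h2.chart_le_inf) 𝔪 z := by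
  obtain ⟨t', ht', hreg⟩ := hreg
  rcases ht' with rfl | rfl
  · exact h.exists_isBranchUniformizer_inf hu hK h2 𝔪 hinf hreg
  · obtain ⟨S', hgeo'⟩ := h.geo.inv
    have hGM' := isGaussAt_inv π h.geo.irreducible.prime t _ h.gauss_M
    exact GeoHyps.exists_isBranchUniformizer_sheet hgeo' VM hGM' hu hK A h.A_algebraMap
      h2.gauss_inf h.comap_A_inf h.res_inf 𝔪 hinf hreg

/-- **branch_zero at a point where `B t` or `B t⁻¹` is regular.** -/
theorem SSModel.exists_isBranchUniformizer_zero_of_coord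
    [IsAlgClosed (IsLocalRing.ResidueField R)]
    (h : SSModel K₁ π q n S t jM j A B VM Winf W0)
    {u : KN} (hu : Transcendental K₁ u) (hK : IntermediateField.adjoin K₁ {u} = ⊤)
    (h2 : IsTwoSheet π u Winf W0)
    (𝔪 : Ideal ↥(chartOne R EN u)) [h𝔪 : 𝔪.IsMaximal]
    (hzero : sheetIdeal u W0 h2.chart_le_zero ≤ 𝔪)
    (hreg : ∃ t' : KM, (t' = t ∨ t' = t⁻¹) ∧
      B (algebraMap KM EM t') ∈ locRing (chartOne R EN u) 𝔪) :
    ∃ z : ↥(chartOne R EN u), IsBranchUniformizer (sheetIdeal u W0 h2.chart_le_zero) 𝔪 z := by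
  obtain ⟨t', ht', hreg⟩ := hreg
  rcases ht' with rfl | rfl
  · exact h.exists_isBranchUniformizer_zero hu hK h2 𝔪 hzero hreg
  · obtain ⟨S', hgeo'⟩ := h.geo.inv
    have hGM' := isGaussAt_inv π h.geo.irreducible.prime t _ h.gauss_M
    exact GeoHyps.exists_isBranchUniformizer_sheet hgeo' VM hGM' hu hK B h.B_algebraMap
      h2.gauss_zero h.comap_B_zero h.res_zero 𝔪 hzero hreg

end Two

end Fermat.Agent.SS
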