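/-
(SS-q) — helper5 — **SS-SINF: the sheet `C_∞` of the level-`N` chart is the special fibre of the
level-`M` chart (abstract form).**

`B' ⊆ B` charts (level `M` inside level `N`), `𝔭 ⊂ B` the sheet prime of `C_∞`, `𝔭' = 𝔭 ∩ B'`
(`= π B'`).

* `exists_algebraMap_eq_of_isIntegral_of_mul_eq` : an element of a domain `D ⊇ D'`, integral over
  the integrally closed `D'` and a fraction of elements of `D'`, lies in `D'`;
* `exists_sub_algebraMap_mem_of_isIntegrallyClosed` : `B = B' + 𝔭` when `B'/𝔭'` is integrally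
  closed, `B` is integral over `B'` and the residue degree is one;
* `IsBranchUniformizer.of_subchart` : branch uniformizers of `(𝔭', 𝔪 ∩ B')` are branch uniformizers
  of `(𝔭, 𝔪)`.
-/
import Mathlib
import Fermat.Agent.SS.MODLOC_helper5_Core

set_option autoImplicit false
set_option linter.unusedSectionVars false
set_option linter.style.haveILetI false

namespace Fermat.Agent.SS

section IntClosed


/-- in a domain `D` over an integrally closed domain `D'`, an integral element which is a fraction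
of elements of `D'` lies in `D'`. -/
theorem exists_algebraMap_eq_of_isIntegral_of_mul_eq {D' D : Type*} [CommRing D'] [IsDomain D']
    [IsIntegrallyClosed D'] [CommRing D] [IsDomain D] [Algebra D' D]
    (hinj : Function.Injective (algebraMap D' D)) {b : D} (hb : IsIntegral D' b) {d₁ d₂ : D'}
    (hd₂ : d₂ ≠ 0) (h : b * algebraMap D' D d₂ = algebraMap D' D d₁) :
    ∃ d : D', b = algebraMap D' D d := by
  let K' := FractionRing D'
  let L := FractionRing D
  have hinjL : Function.Injective (algebraMap D' L) := by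
    rw [IsScalarTower.algebraMap_eq D' D L]
    exact (IsFractionRing.injective D L).comp hinj
  letI : Algebra K' L := (IsFractionRing.lift (K := K') hinjL).toAlgebra
  haveI : IsScalarTower D' K' L :=
    IsScalarTower.of_algebraMap_eq (fun x => (IsFractionRing.lift_algebraMap hinjL x).symm)
  set x : K' := algebraMap D' K' d₁ / algebraMap D' K' d₂ with hx
  have hxL : algebraMap K' L x = algebraMap D L b := by
    have hd₂L : algebraMap D L (algebraMap D' D d₂) ≠ 0 :=
      (map_ne_zero_iff _ (IsFractionRing.injective _ L)).mpr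
        (fun h0 => hd₂ ((map_eq_zero_iff _ hinj).mp h0))
    rw [hx, map_div₀, ← IsScalarTower.algebraMap_apply D' K' L,
      ← IsScalarTower.algebraMap_apply D' K' L, IsScalarTower.algebraMap_apply D' D L,
      IsScalarTower.algebraMap_apply D' D L, ← h, map_mul]
    rw [mul_div_assoc, div_self hd₂L, mul_one]
  have hxint : IsIntegral D' x := by
    have h1 : IsIntegral D' (algebraMap K' L x) := by
      rw [hxL]
      exact hb.map (IsScalarTower.toAlgHom D' D L)
    exact (isIntegral_algHom_iff (IsScalarTower.toAlgHom D' K' L)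
      (algebraMap K' L).injective).mp h1
  obtain ⟨d, hd⟩ := IsIntegrallyClosed.isIntegral_iff.mp hxint
  refine ⟨d, ?_⟩
  apply IsFractionRing.injective D L
  rw [← hxL, ← hd, ← IsScalarTower.algebraMap_apply D' K' L,
    IsScalarTower.algebraMap_apply D' D L]

end IntClosed

section SInf

variable {B' B : Type*} [CommRing B'] [CommRing B] [Algebra B' B]

/-- **(S∞), abstract**: `B' ⊆ B` (the level-`M` chart inside the level-`N` chart), `𝔭` a prime of
`B` (the sheet `C_∞`) with contraction `𝔭'`; if `B' ⧸ 𝔭'` is integrally closed, `B` is integral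
over `B'` and every element of `B` is, modulo `𝔭`, a fraction of elements of `B'` with denominator
outside `𝔭'` (residue degree one), then `B = B' + 𝔭`. -/
theorem exists_sub_algebraMap_mem_of_isIntegrallyClosed (𝔭 : Ideal B) [h𝔭 : 𝔭.IsPrime]
    [IsIntegrallyClosed (B' ⧸ 𝔭.comap (algebraMap B' B))] [Algebra.IsIntegral B' B]
    (hf : ∀ b : B, ∃ b₁ b₂ : B', b₂ ∉ 𝔭.comap (algebraMap B' B) ∧
      b * algebraMap B' B b₂ - algebraMap B' B b₁ ∈ 𝔭) (b : B) :
    ∃ b₁ : B', b - algebraMap B' B b₁ ∈ 𝔭 := by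
  classical
  set 𝔭' : Ideal B' := 𝔭.comap (algebraMap B' B) with h𝔭'
  haveI : 𝔭'.IsPrime := Ideal.comap_isPrime _ _
  -- the injection `D' = B'/𝔭' → D = B/𝔭`
  let ι : B' ⧸ 𝔭' →+* B ⧸ 𝔭 := Ideal.quotientMap 𝔭 (algebraMap B' B) le_rfl
  have hι : Function.Injective ι := Ideal.quotientMap_injective
  have hιmk : ∀ x : B', ι (Ideal.Quotient.mk 𝔭' x) = Ideal.Quotient.mk 𝔭 (algebraMap B' B x) :=
    fun x => Ideal.quotientMap_mk
  letI : Algebra (B' ⧸ 𝔭') (B ⧸ 𝔭) := ι.toAlgebra
  have halg : ∀ x : B' ⧸ 𝔭', algebraMap (B' ⧸ 𝔭') (B ⧸ 𝔭) x = ι x := fun x => rfl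
  obtain ⟨b₁, b₂, hb₂, hmem⟩ := hf b
  have hd₂ : Ideal.Quotient.mk 𝔭' b₂ ≠ 0 := fun h => hb₂ (Ideal.Quotient.eq_zero_iff_mem.mp h)
  have hrel : Ideal.Quotient.mk 𝔭 b * algebraMap (B' ⧸ 𝔭') (B ⧸ 𝔭) (Ideal.Quotient.mk 𝔭' b₂) =
      algebraMap (B' ⧸ 𝔭') (B ⧸ 𝔭) (Ideal.Quotient.mk 𝔭' b₁) := by
    rw [halg, halg, hιmk, hιmk, ← map_mul, Ideal.Quotient.eq]
    exact hmem
  -- `b mod 𝔭` is integral over `D'`
  have hint : IsIntegral (B' ⧸ 𝔭') (Ideal.Quotient.mk 𝔭 b) := by
    obtain ⟨p, hp, hpb⟩ := Algebra.IsIntegral.isIntegral (R := B') b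
    refine ⟨p.map (Ideal.Quotient.mk 𝔭'), hp.map _, ?_⟩
    rw [Polynomial.eval₂_map]
    have h1 : (algebraMap (B' ⧸ 𝔭') (B ⧸ 𝔭)).comp (Ideal.Quotient.mk 𝔭') =
        (Ideal.Quotient.mk 𝔭).comp (algebraMap B' B) := by
      ext x
      exact hιmk x
    rw [h1, ← Polynomial.hom_eval₂, hpb, map_zero]
  obtain ⟨d, hd⟩ := exists_algebraMap_eq_of_isIntegral_of_mul_eq hι hint hd₂ hrel
  obtain ⟨c, rfl⟩ := Ideal.Quotient.mk_surjective d
  refine ⟨c, ?_⟩
  rw [← Ideal.Quotient.eq, hd, halg, hιmk]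

/-- branch uniformizers of the sub-chart are branch uniformizers of the chart when `B = B' + 𝔭`. -/
theorem IsBranchUniformizer.of_subchart (𝔭 𝔪 : Ideal B) (hle : 𝔭 ≤ 𝔪)
    (hsum : ∀ b : B, ∃ b₁ : B', b - algebraMap B' B b₁ ∈ 𝔭) {z : B'}
    (hz : IsBranchUniformizer (𝔭.comap (algebraMap B' B)) (𝔪.comap (algebraMap B' B)) z) :
    IsBranchUniformizer 𝔭 𝔪 (algebraMap B' B z) where
  mem := hz.mem
  notMem := hz.notMem
  gen := by
    intro w hw
    obtain ⟨w₁, hw₁⟩ := hsum w
    have hw₁𝔪 : w₁ ∈ 𝔪.comap (algebraMap B' B) := by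
      rw [Ideal.mem_comap]
      have : algebraMap B' B w₁ = w - (w - algebraMap B' B w₁) := by ring
      rw [this]
      exact 𝔪.sub_mem hw (hle hw₁)
    obtain ⟨a, s, hs, has⟩ := hz.gen w₁ hw₁𝔪
    refine ⟨algebraMap B' B a, algebraMap B' B s, hs, ?_⟩
    have h1 : algebraMap B' B (s * w₁ - a * z) ∈ 𝔭 := has
    have : algebraMap B' B s * w - algebraMap B' B a * algebraMap B' B z =
        algebraMap B' B s * (w - algebraMap B' B w₁) + algebraMap B' B (s * w₁ - a * z) := by
      rw [map_sub, map_mul, map_mul]; ring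
    rw [this]
    exact 𝔭.add_mem (𝔭.mul_mem_left _ hw₁) h1

end SInf

end Fermat.Agent.SS
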