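/-
(SS-q) — helper9 — MG-SINF: the abstract `(S∞)` lemma (pure algebra).

`E_M ⊆ E_N` fields, `B_M ⊆ E_M`, `B_N ⊆ E_N` subalgebras over a base ring `A` with
`B_M ⊆ B_N` and `B_N` integral over `A`; `V_N` a valuation subring of `E_N` extending the valuation
subring `V_M` of `E_M` with the same residue field (`f = 1`); `V_M` is the localisation of `B_M`
at its centre `P_M`, and `B_M ⧸ P_M` is integrally closed.  Then `B_M → B_N ⧸ P_N` is onto
(`P_N` the centre of `V_N` on `B_N`), so `B_M ⧸ P_M ≃+* B_N ⧸ P_N`; in particular the branch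
`B_N ⧸ P_N` is a Dedekind domain as soon as `B_M ⧸ P_M` is.
-/
import Mathlib
import Fermat.Agent.SS.VAL2_helper7_TwoExt

set_option autoImplicit false
set_option linter.unusedSectionVars false
set_option linter.style.haveILetI false

open IsLocalRing Polynomial

namespace Fermat.Agent.SS

open TwoExt

section Aux

variable {A : Type*} [CommRing A] {E : Type*} [Field E] [Algebra A E]

/-- `p(x) - p(y) ∈ (x - y) V` for `x, y ∈ V` and `p` with coefficients in `V`. -/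
theorem sinf_aeval_sub (V : ValuationSubring E) (hA : ∀ r : A, algebraMap A E r ∈ V)
    {x y : E} (hx : x ∈ V) (hy : y ∈ V) (p : A[X]) :
    ∃ c ∈ V, aeval x p - aeval y p = (x - y) * c := by
  let φ : A →+* ↥V := (algebraMap A E).codRestrict V.toSubring hA
  obtain ⟨c, hc⟩ := Polynomial.sub_dvd_eval_sub (⟨x, hx⟩ : ↥V) ⟨y, hy⟩ (p.map φ)
  have key : ∀ z : ↥V, ((eval z (p.map φ) : ↥V) : E) = aeval (z : E) p := by
    intro z
    rw [eval_map, aeval_def]
    exact Polynomial.hom_eval₂ p φ V.subtype z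
  refine ⟨c, c.2, ?_⟩
  have h := congrArg (fun w : ↥V => (w : E)) hc
  rw [← key ⟨x, hx⟩, ← key ⟨y, hy⟩]
  exact h

/-- Dedekind domains transport along ring isomorphisms. -/
theorem sinf_isDedekindDomain_of_ringEquiv {D D' : Type*} [CommRing D] [CommRing D']
    (e : D ≃+* D') [IsDedekindDomain D'] : IsDedekindDomain D := by
  haveI : IsDomain D := e.toMulEquiv.isDomain D'
  haveI : IsNoetherianRing D := isNoetherianRing_of_ringEquiv D' e.symm
  haveI : Ring.DimensionLEOne D := Ring.DimensionLEOne.of_ringEquiv e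
  haveI : IsIntegrallyClosed D := IsIntegrallyClosed.of_equiv e.symm
  exact { }

end Aux

section Sinf

variable {A : Type*} [CommRing A] {EM EN : Type*} [Field EM] [Field EN]
  [Algebra A EM] [Algebra A EN] [Algebra EM EN] [IsScalarTower A EM EN]
  {BM : Subalgebra A EM} {BN : Subalgebra A EN}
  {VM : ValuationSubring EM} {VN : ValuationSubring EN}

/-- normality of the level-`M` special fibre, elementwise: an element of `V_M` which is a root
modulo `𝔪_{V_M}` of a monic polynomial over `A` is congruent to an element of `B_M`. -/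
theorem sinf_exists_sub_lt_one_of_aeval
    (hBM : ∀ b ∈ BM, b ∈ VM)
    (hloc : ∀ a ∈ VM, ∃ r s : ↥BM, VM.valuation (s : EM) = 1 ∧ a * (s : EM) = (r : EM))
    (PM : Ideal ↥BM) [PM.IsPrime] (hPM : ∀ b : ↥BM, b ∈ PM ↔ VM.valuation (b : EM) < 1)
    [IsIntegrallyClosed (↥BM ⧸ PM)]
    {a : EM} (ha : a ∈ VM) {p : A[X]} (hp : p.Monic) (hpa : VM.valuation (aeval a p) < 1) :
    ∃ b' : ↥BM, VM.valuation (a - (b' : EM)) < 1 := by
  classical
  -- the maps
  let incM : ↥BM →+* ↥VM := (BM.val : ↥BM →+* EM).codRestrict VM.toSubring (fun b => hBM b b.2)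
  have hincM : ∀ b : ↥BM, ((incM b : ↥VM) : EM) = (b : EM) := fun b => rfl
  let res : ↥VM →+* ResidueField ↥VM := residue ↥VM
  have hres0 : ∀ z : ↥VM, res z = 0 ↔ VM.valuation (z : EM) < 1 := by
    intro z
    rw [residue_eq_zero_iff, ValuationSubring.valuation_lt_one_iff]
  let g : ↥BM ⧸ PM →+* ResidueField ↥VM :=
    Ideal.Quotient.lift PM (res.comp incM) (fun b hb => by
      show res (incM b) = 0
      rw [hres0, hincM]
      exact (hPM b).mp hb)
  have hg : ∀ b : ↥BM, g (Ideal.Quotient.mk PM b) = res (incM b) := fun b => rfl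
  have hginj : Function.Injective g := by
    rw [injective_iff_map_eq_zero]
    intro d hd
    obtain ⟨b, rfl⟩ := Ideal.Quotient.mk_surjective d
    rw [hg, hres0, hincM] at hd
    exact Ideal.Quotient.eq_zero_iff_mem.mpr ((hPM b).mpr hd)
  letI : Algebra (↥BM ⧸ PM) (ResidueField ↥VM) := g.toAlgebra
  have halg : ∀ d : ↥BM ⧸ PM, algebraMap (↥BM ⧸ PM) (ResidueField ↥VM) d = g d := fun d => rfl
  haveI : FaithfulSMul (↥BM ⧸ PM) (ResidueField ↥VM) :=
    (faithfulSMul_iff_algebraMap_injective _ _).mpr hginj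
  haveI : IsFractionRing (↥BM ⧸ PM) (ResidueField ↥VM) := by
    apply IsFractionRing.of_field
    intro z
    obtain ⟨z', rfl⟩ := residue_surjective z
    obtain ⟨r, s, hs, hrs⟩ := hloc (z' : EM) z'.2
    refine ⟨Ideal.Quotient.mk PM r, Ideal.Quotient.mk PM s, ?_⟩
    rw [halg, halg, hg, hg]
    have hs0 : res (incM s) ≠ 0 := by
      rw [Ne, hres0, hincM, hs]
      exact lt_irrefl _
    rw [eq_div_iff hs0]
    show res z' * res (incM s) = res (incM r)
    rw [← map_mul]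
    congr 1
    apply Subtype.ext
    show (z' : EM) * ((incM s : ↥VM) : EM) = ((incM r : ↥VM) : EM)
    rw [hincM, hincM, hrs]
  -- the residue of `a` is integral over `B_M ⧸ P_M`
  let φA : A →+* ↥VM := (algebraMap A EM).codRestrict VM.toSubring
    (fun r => hBM _ (BM.algebraMap_mem r))
  have hφA : ∀ r : A, φA r = incM (algebraMap A ↥BM r) := fun r => rfl
  have hint : IsIntegral (↥BM ⧸ PM) (res ⟨a, ha⟩) := by
    refine ⟨p.map ((Ideal.Quotient.mk PM).comp (algebraMap A ↥BM)), hp.map _, ?_⟩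
    rw [eval₂_map]
    have hcomp : (algebraMap (↥BM ⧸ PM) (ResidueField ↥VM)).comp
        ((Ideal.Quotient.mk PM).comp (algebraMap A ↥BM)) = res.comp φA := by
      ext r
      rfl
    rw [hcomp, ← Polynomial.hom_eval₂, hres0]
    have : ((eval₂ φA ⟨a, ha⟩ p : ↥VM) : EM) = aeval a p := by
      rw [aeval_def]
      exact Polynomial.hom_eval₂ p φA VM.subtype ⟨a, ha⟩
    rw [this]
    exact hpa
  obtain ⟨d, hd⟩ := IsIntegrallyClosed.isIntegral_iff.mp hint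
  obtain ⟨b', rfl⟩ := Ideal.Quotient.mk_surjective d
  refine ⟨b', ?_⟩
  rw [halg, hg] at hd
  have h0 : res (⟨a, ha⟩ - incM b') = 0 := by rw [map_sub, hd, sub_self]
  rw [hres0] at h0
  exact h0

/-- **`(S∞)`, elementwise**: every element of `B_N` is congruent modulo `𝔪_{V_N}` to an element
of `B_M`. -/
theorem sinf_exists_sub_lt_one
    (hint : ∀ b ∈ BN, IsIntegral A b)
    (hext : IsExt VM VN)
    (hres : ∀ x ∈ VN, ∃ a ∈ VM, VN.valuation (x - algebraMap EM EN a) < 1)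
    (hBM : ∀ b ∈ BM, b ∈ VM) (hBN : ∀ b ∈ BN, b ∈ VN)
    (hloc : ∀ a ∈ VM, ∃ r s : ↥BM, VM.valuation (s : EM) = 1 ∧ a * (s : EM) = (r : EM))
    (PM : Ideal ↥BM) [PM.IsPrime] (hPM : ∀ b : ↥BM, b ∈ PM ↔ VM.valuation (b : EM) < 1)
    [IsIntegrallyClosed (↥BM ⧸ PM)]
    {b : EN} (hb : b ∈ BN) :
    ∃ b' : ↥BM, VN.valuation (b - algebraMap EM EN (b' : EM)) < 1 := by
  obtain ⟨a, ha, hab⟩ := hres b (hBN b hb)
  obtain ⟨p, hp, hpb⟩ := hint b hb
  have hAN : ∀ r : A, algebraMap A EN r ∈ VN := fun r => hBN _ (BN.algebraMap_mem r)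
  have haN : algebraMap EM EN a ∈ VN := (hext.mem_iff a).mpr ha
  obtain ⟨c, hc, hcb⟩ := sinf_aeval_sub VN hAN (hBN b hb) haN p
  have hpb' : aeval b p = 0 := by rw [aeval_def]; exact hpb
  rw [hpb', zero_sub, Polynomial.aeval_algebraMap_apply] at hcb
  have hpa : VM.valuation (aeval a p) < 1 := by
    rw [← hext.val_lt_one_iff, ← Valuation.map_neg, hcb, map_mul]
    calc VN.valuation (b - algebraMap EM EN a) * VN.valuation c
        ≤ VN.valuation (b - algebraMap EM EN a) * 1 := by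
          gcongr
          exact (ValuationSubring.valuation_le_one_iff VN c).mpr hc
      _ = VN.valuation (b - algebraMap EM EN a) := mul_one _
      _ < 1 := hab
  obtain ⟨b', hb'⟩ := sinf_exists_sub_lt_one_of_aeval hBM hloc PM hPM ha hp hpa
  refine ⟨b', ?_⟩
  have h1 : VN.valuation (algebraMap EM EN (a - (b' : EM))) < 1 :=
    (hext.val_lt_one_iff _).mpr hb'
  have h2 : b - algebraMap EM EN (b' : EM) =
      (b - algebraMap EM EN a) + algebraMap EM EN (a - (b' : EM)) := by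
    rw [map_sub]; ring
  rw [h2]
  exact lt_of_le_of_lt (Valuation.map_add _ _ _) (max_lt hab h1)

/-- the inclusion `B_M → B_N`. -/
def sinfIncl (hBMN : ∀ b ∈ BM, algebraMap EM EN b ∈ BN) : ↥BM →+* ↥BN :=
  ((algebraMap EM EN).comp (BM.val : ↥BM →+* EM)).codRestrict BN (fun b => hBMN b b.2)

@[simp] theorem coe_sinfIncl (hBMN : ∀ b ∈ BM, algebraMap EM EN b ∈ BN) (b : ↥BM) :
    ((sinfIncl hBMN b : ↥BN) : EN) = algebraMap EM EN (b : EM) := rfl

theorem sinf_le_comap (hBMN : ∀ b ∈ BM, algebraMap EM EN b ∈ BN) (hext : IsExt VM VN)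
    (PM : Ideal ↥BM) (hPM : ∀ b : ↥BM, b ∈ PM ↔ VM.valuation (b : EM) < 1)
    (PN : Ideal ↥BN) (hPN : ∀ b : ↥BN, b ∈ PN ↔ VN.valuation (b : EN) < 1) :
    PM = PN.comap (sinfIncl hBMN) := by
  ext b
  rw [Ideal.mem_comap, hPN, hPM, coe_sinfIncl, hext.val_lt_one_iff]

/-- **`(S∞)`**: the map `B_M ⧸ P_M → B_N ⧸ P_N` is bijective. -/
theorem sinf_quotientMap_bijective
    (hBMN : ∀ b ∈ BM, algebraMap EM EN b ∈ BN)
    (hint : ∀ b ∈ BN, IsIntegral A b)
    (hext : IsExt VM VN)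
    (hres : ∀ x ∈ VN, ∃ a ∈ VM, VN.valuation (x - algebraMap EM EN a) < 1)
    (hBM : ∀ b ∈ BM, b ∈ VM) (hBN : ∀ b ∈ BN, b ∈ VN)
    (hloc : ∀ a ∈ VM, ∃ r s : ↥BM, VM.valuation (s : EM) = 1 ∧ a * (s : EM) = (r : EM))
    (PM : Ideal ↥BM) [PM.IsPrime] (hPM : ∀ b : ↥BM, b ∈ PM ↔ VM.valuation (b : EM) < 1)
    [IsIntegrallyClosed (↥BM ⧸ PM)]
    (PN : Ideal ↥BN) (hPN : ∀ b : ↥BN, b ∈ PN ↔ VN.valuation (b : EN) < 1) :
    Function.Bijective (Ideal.quotientMap PN (sinfIncl hBMN)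
      (sinf_le_comap hBMN hext PM hPM PN hPN).le) := by
  constructor
  · exact Ideal.quotientMap_injective' (sinf_le_comap hBMN hext PM hPM PN hPN).ge
  · intro d
    obtain ⟨b, rfl⟩ := Ideal.Quotient.mk_surjective d
    obtain ⟨b', hb'⟩ := sinf_exists_sub_lt_one hint hext hres hBM hBN hloc PM hPM b.2
    refine ⟨Ideal.Quotient.mk PM b', ?_⟩
    rw [Ideal.quotientMap_mk, Ideal.Quotient.eq, hPN]
    have : ((sinfIncl hBMN b' - b : ↥BN) : EN) = -((b : EN) - algebraMap EM EN (b' : EM)) := by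
      show algebraMap EM EN (b' : EM) - (b : EN) = _
      ring
    rw [this, Valuation.map_neg]
    exact hb'

/-- **`(S∞)`**: the isomorphism `B_M ⧸ P_M ≃+* B_N ⧸ P_N`. -/
noncomputable def sinfEquiv
    (hBMN : ∀ b ∈ BM, algebraMap EM EN b ∈ BN)
    (hint : ∀ b ∈ BN, IsIntegral A b)
    (hext : IsExt VM VN)
    (hres : ∀ x ∈ VN, ∃ a ∈ VM, VN.valuation (x - algebraMap EM EN a) < 1)
    (hBM : ∀ b ∈ BM, b ∈ VM) (hBN : ∀ b ∈ BN, b ∈ VN)
    (hloc : ∀ a ∈ VM, ∃ r s : ↥BM, VM.valuation (s : EM) = 1 ∧ a * (s : EM) = (r : EM))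
    (PM : Ideal ↥BM) [PM.IsPrime] (hPM : ∀ b : ↥BM, b ∈ PM ↔ VM.valuation (b : EM) < 1)
    [IsIntegrallyClosed (↥BM ⧸ PM)]
    (PN : Ideal ↥BN) (hPN : ∀ b : ↥BN, b ∈ PN ↔ VN.valuation (b : EN) < 1) :
    (↥BM ⧸ PM) ≃+* (↥BN ⧸ PN) :=
  RingEquiv.ofBijective _
    (sinf_quotientMap_bijective hBMN hint hext hres hBM hBN hloc PM hPM PN hPN)

@[simp] theorem sinfEquiv_mk
    (hBMN : ∀ b ∈ BM, algebraMap EM EN b ∈ BN)
    (hint : ∀ b ∈ BN, IsIntegral A b)
    (hext : IsExt VM VN)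
    (hres : ∀ x ∈ VN, ∃ a ∈ VM, VN.valuation (x - algebraMap EM EN a) < 1)
    (hBM : ∀ b ∈ BM, b ∈ VM) (hBN : ∀ b ∈ BN, b ∈ VN)
    (hloc : ∀ a ∈ VM, ∃ r s : ↥BM, VM.valuation (s : EM) = 1 ∧ a * (s : EM) = (r : EM))
    (PM : Ideal ↥BM) [PM.IsPrime] (hPM : ∀ b : ↥BM, b ∈ PM ↔ VM.valuation (b : EM) < 1)
    [IsIntegrallyClosed (↥BM ⧸ PM)]
    (PN : Ideal ↥BN) (hPN : ∀ b : ↥BN, b ∈ PN ↔ VN.valuation (b : EN) < 1) (b : ↥BM) :
    sinfEquiv hBMN hint hext hres hBM hBN hloc PM hPM PN hPN (Ideal.Quotient.mk PM b) =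
      Ideal.Quotient.mk PN (sinfIncl hBMN b) := rfl

/-- **`(S∞)`**: the branch `B_N ⧸ P_N` is a Dedekind domain as soon as `B_M ⧸ P_M` is. -/
theorem sinf_isDedekindDomain
    (hBMN : ∀ b ∈ BM, algebraMap EM EN b ∈ BN)
    (hint : ∀ b ∈ BN, IsIntegral A b)
    (hext : IsExt VM VN)
    (hres : ∀ x ∈ VN, ∃ a ∈ VM, VN.valuation (x - algebraMap EM EN a) < 1)
    (hBM : ∀ b ∈ BM, b ∈ VM) (hBN : ∀ b ∈ BN, b ∈ VN)
    (hloc : ∀ a ∈ VM, ∃ r s : ↥BM, VM.valuation (s : EM) = 1 ∧ a * (s : EM) = (r : EM))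
    (PM : Ideal ↥BM) [PM.IsPrime] (hPM : ∀ b : ↥BM, b ∈ PM ↔ VM.valuation (b : EM) < 1)
    [IsDedekindDomain (↥BM ⧸ PM)]
    (PN : Ideal ↥BN) (hPN : ∀ b : ↥BN, b ∈ PN ↔ VN.valuation (b : EN) < 1) :
    IsDedekindDomain (↥BN ⧸ PN) :=
  sinf_isDedekindDomain_of_ringEquiv
    (sinfEquiv hBMN hint hext hres hBM hBN hloc PM hPM PN hPN).symm

end Sinf

end Fermat.Agent.SS
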